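/-
S36 — helper9 — **the `[base]` literal of ROOTS36** (constants over a base with algebraically closed
residue field): for a discrete valuation ring `R` with fraction field `K`, uniformizer `π` and
algebraically closed residue field, every `a ∈ Kˣ` is `π ^ n · e ^ m · (1 + π r)`
(`base36_exists_zpow_pow_cong`), hence `a π^{-n} e^{-m} ≡ 1` on every valuation subring `W`
containing the constants of `R` in which `π` is not a unit (`base36_exists_const_cong_one`,
`n`, `e` independent of `W`).  No hypothesis on `m` beyond `0 < m`.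
-/
import Mathlib

set_option autoImplicit false
set_option linter.unusedSectionVars false

namespace Fermat.Agent.S36

section BaseConst

variable {R : Type*} [CommRing R] [IsDomain R] [IsDiscreteValuationRing R]

/-- over a discrete valuation ring with algebraically closed residue field every unit is an
`m`-th power modulo the maximal ideal (`m > 0`). -/
theorem base36_exists_unit_pow_cong [IsAlgClosed (IsLocalRing.ResidueField R)] {m : ℕ}
    (hm : 0 < m) (u : Rˣ) :
    ∃ e : Rˣ, (u : R) - (e : R) ^ m ∈ IsLocalRing.maximalIdeal R := by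
  obtain ⟨z, hz⟩ := IsAlgClosed.exists_pow_nat_eq (IsLocalRing.residue R (u : R)) hm
  obtain ⟨e₀, rfl⟩ := IsLocalRing.residue_surjective z
  have hu0 : IsLocalRing.residue R (u : R) ≠ 0 := by
    intro h0
    rw [IsLocalRing.residue_eq_zero_iff] at h0
    exact (IsLocalRing.mem_maximalIdeal _).1 h0 u.isUnit
  have he0 : IsLocalRing.residue R e₀ ≠ 0 := by
    intro h0
    rw [h0, zero_pow hm.ne'] at hz
    exact hu0 hz.symm
  have heu : IsUnit e₀ := by
    by_contra hne
    exact he0 ((IsLocalRing.residue_eq_zero_iff _).2 ((IsLocalRing.mem_maximalIdeal _).2 hne))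
  refine ⟨heu.unit, ?_⟩
  rw [← IsLocalRing.residue_eq_zero_iff, map_sub, map_pow, IsUnit.unit_spec, hz, sub_self]

variable {K : Type*} [Field K] [Algebra R K] [IsFractionRing R K]

/-- **normal form of a nonzero constant over a base with algebraically closed residue field**:
`a = π ^ n · e ^ m · (1 + π r)`. -/
theorem base36_exists_zpow_pow_cong [IsAlgClosed (IsLocalRing.ResidueField R)] {π : R}
    (hπ : Irreducible π) {m : ℕ} (hm : 0 < m) (a : K) (ha : a ≠ 0) :
    ∃ (n : ℤ) (e : K) (r : R), e ≠ 0 ∧
      a * (algebraMap R K π ^ n)⁻¹ * (e ^ m)⁻¹ - 1 = algebraMap R K (π * r) := by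
  obtain ⟨n, u, hu⟩ := IsDiscreteValuationRing.exists_units_eq_smul_zpow_of_irreducible
    (K := K) hπ ha
  obtain ⟨e, he⟩ := base36_exists_unit_pow_cong hm u
  rw [hπ.maximalIdeal_eq, Ideal.mem_span_singleton'] at he
  obtain ⟨r, hr⟩ := he
  have hπK : algebraMap R K π ≠ 0 := by
    rw [Ne, map_eq_zero_iff _ (IsFractionRing.injective R K)]
    exact hπ.ne_zero
  have heK : algebraMap R K (e : R) ≠ 0 := by
    rw [Ne, map_eq_zero_iff _ (IsFractionRing.injective R K)]
    exact e.ne_zero
  have hem : algebraMap R K (e : R) ^ m ≠ 0 := pow_ne_zero m heK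
  -- `e⁻¹ · (π r) e^{-m}`-bookkeeping: `u / e^m - 1 = π · (r · e^{-m})`
  refine ⟨n, algebraMap R K (e : R), r * ((e⁻¹ : Rˣ) : R) ^ m, heK, ?_⟩
  have h1 : algebraMap R K (u : R) = algebraMap R K (e : R) ^ m + algebraMap R K (r * π) := by
    rw [← map_pow, ← map_add, hr]
    congr 1
    ring
  have h2 : algebraMap R K (((e⁻¹ : Rˣ) : R) ^ m) * algebraMap R K (e : R) ^ m = 1 := by
    rw [← map_pow, ← map_mul, ← mul_pow, Units.inv_mul, one_pow, map_one]
  have hzn : algebraMap R K π ^ n ≠ 0 := zpow_ne_zero n hπK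
  have h3 : (algebraMap R K (e : R) ^ m)⁻¹ = algebraMap R K (((e⁻¹ : Rˣ) : R) ^ m) :=
    (eq_inv_of_mul_eq_one_left h2).symm
  have h4 : algebraMap R K (u : R) * algebraMap R K π ^ n * (algebraMap R K π ^ n)⁻¹ =
      algebraMap R K (u : R) := by
    rw [mul_assoc, mul_inv_cancel₀ hzn, mul_one]
  rw [hu, Units.smul_def, Algebra.smul_def, h4, h1, add_mul, mul_inv_cancel₀ hem,
    add_sub_cancel_left, h3, map_mul, map_mul, map_mul]
  ring

/-- **the `[base]` literal of ROOTS36**: over a base with algebraically closed residue field every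
nonzero constant is `π ^ n · e ^ m` up to a factor `≡ 1` on EVERY valuation subring `W` (of any
field `E` over `K`) which contains the constants of `R` and in which `π` is not a unit; `n`, `e`
do not depend on `W`. -/
theorem base36_exists_const_cong_one [IsAlgClosed (IsLocalRing.ResidueField R)] {π : R}
    (hπ : Irreducible π) {m : ℕ} (hm : 0 < m) (a : K) (ha : a ≠ 0) :
    ∃ (n : ℤ) (e : K), e ≠ 0 ∧ ∀ {E : Type*} [Field E] [Algebra K E] (W : ValuationSubring E),
      (∀ r : R, algebraMap K E (algebraMap R K r) ∈ W) →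
      (algebraMap K E (algebraMap R K π))⁻¹ ∉ W →
      W.valuation (algebraMap K E (a * (algebraMap R K π ^ n)⁻¹ * (e ^ m)⁻¹) - 1) < 1 := by
  obtain ⟨n, e, r, he, hr⟩ := base36_exists_zpow_pow_cong (K := K) hπ hm a ha
  refine ⟨n, e, he, ?_⟩
  intro E _ _ W hR hπW
  have e1 : algebraMap K E (a * (algebraMap R K π ^ n)⁻¹ * (e ^ m)⁻¹) - 1 =
      algebraMap K E (algebraMap R K π) * algebraMap K E (algebraMap R K r) := by
    rw [← map_one (algebraMap K E), ← map_sub, hr, map_mul, map_mul]
  rw [e1, map_mul]
  have h1 : W.valuation (algebraMap K E (algebraMap R K r)) ≤ 1 :=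
    (W.valuation_le_one_iff _).2 (hR r)
  have h2 : W.valuation (algebraMap K E (algebraMap R K π)) < 1 := by
    by_contra hge
    rw [not_lt] at hge
    apply hπW
    rw [← W.valuation_le_one_iff, map_inv₀]
    exact inv_le_one_of_one_le₀ hge
  calc W.valuation (algebraMap K E (algebraMap R K π)) *
        W.valuation (algebraMap K E (algebraMap R K r))
      ≤ W.valuation (algebraMap K E (algebraMap R K π)) * 1 := mul_le_mul_right h1 _
    _ = W.valuation (algebraMap K E (algebraMap R K π)) := mul_one _
    _ < 1 := h2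

end BaseConst

end Fermat.Agent.S36
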