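/-
S36 — helper4 — package [ROOTS36]: **the per-sheet roots** (steps (1)+(2) of the architecture of
S36, abstract form).

Setting: fields `E₁` (host of level `M'q`) and `E` (host of level `M'q²`), the two degeneracy maps
`ιA ιB : E₁ →+* E` with norms `NA NB : E →*₀ E₁`, the sheets `W10 W01` of `E₁` and `W20 W11 W02` of
`E`; fibres `{W20, W11} → W10`, `W02 → W01` along `ιA` and `W20 → W10`, `{W11, W02} → W01` along
`ιB`; `W20`, `W02` have `e = 1` (uniformizer `π`), `W11` has `e = q - 1` (uniformizer `u`, a unit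
along `W20`).

* `r36_…` : small valuation toolkit (`r36_val_sub_lt_of_pow_prime`: Frobenius is injective on a
  residue field of characteristic `q`; `r36_exists_pow_cong`: absorbing a constant;
  `r36_disc_of_dvr`: discreteness from a uniformizer of a DVR);
* `r36_root_insep` : the root along a purely inseparable fibre (`N f ≡ f ^ q`);
* `r36_root_split` : the root along the split fibre (`N f ≡ f_a · f_b ^ (q - 1)`);
* **`roots36`** : if `NA G = a₁ · H₁ ^ m`, `NB G = a₂ · H₂ ^ m` (`a₁ a₂` constants) and the order of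
  `G` along `W20` is divisible by `m`, then `G ^ (q² - 1)` is an `m`-th power along each of the
  three sheets: `(W i).valuation (G ^ (q² - 1) / lam i ^ m - 1) < 1`.
-/
import Mathlib

set_option autoImplicit false
set_option linter.unusedSectionVars false
set_option linter.unusedVariables false

namespace Fermat.Agent.S36

section Val

variable {E : Type*} [Field E] (W : ValuationSubring E)

theorem r36_val_lt_one_iff_inv_not_mem {x : E} (hx : x ≠ 0) : W.valuation x < 1 ↔ x⁻¹ ∉ W := by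
  rw [← ValuationSubring.valuation_le_one_iff, map_inv₀, not_le]
  have h0 : W.valuation x ≠ 0 := (Valuation.ne_zero_iff _).2 hx
  constructor
  · intro h
    exact (one_lt_inv₀ (zero_lt_iff.2 h0)).2 h
  · intro h
    exact (one_lt_inv₀ (zero_lt_iff.2 h0)).1 h

theorem r36_comap_val_lt_one_iff {E₁ : Type*} [Field E₁] (ι : E₁ →+* E) {O : ValuationSubring E₁}
    (h : W.comap ι = O) (a : E₁) : W.valuation (ι a) < 1 ↔ O.valuation a < 1 := by
  by_cases ha : a = 0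
  · subst ha; simp
  have hιa : ι a ≠ 0 := (map_ne_zero ι).2 ha
  rw [r36_val_lt_one_iff_inv_not_mem W hιa, r36_val_lt_one_iff_inv_not_mem O ha, ← h,
    ValuationSubring.mem_comap, map_inv₀]

theorem r36_comap_val_eq_one_iff {E₁ : Type*} [Field E₁] (ι : E₁ →+* E) {O : ValuationSubring E₁}
    (h : W.comap ι = O) (a : E₁) : W.valuation (ι a) = 1 ↔ O.valuation a = 1 := by
  by_cases ha : a = 0
  · subst ha; simp
  have hιa : ι a ≠ 0 := (map_ne_zero ι).2 ha
  have h1 : W.valuation (ι a) ≤ 1 ↔ O.valuation a ≤ 1 := by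
    rw [ValuationSubring.valuation_le_one_iff, ValuationSubring.valuation_le_one_iff, ← h,
      ValuationSubring.mem_comap]
  have h2 := r36_comap_val_lt_one_iff W ι h a
  constructor
  · intro h3
    exact le_antisymm (h1.1 h3.le) (not_lt.1 fun h4 => (h2.2 h4).ne h3)
  · intro h3
    exact le_antisymm (h1.2 h3.le) (not_lt.1 fun h4 => (h2.1 h4).ne h3)



theorem r36_val_pow_eq_one_iff {x : E} {n : ℕ} (hn : n ≠ 0) :
    W.valuation x ^ n = 1 ↔ W.valuation x = 1 := by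
  constructor
  · intro h
    rcases lt_trichotomy (W.valuation x) 1 with h1 | h1 | h1
    · exact absurd h (pow_lt_one' h1 hn).ne
    · exact h1
    · exact absurd h (one_lt_pow' h1 hn).ne'
  · intro h
    rw [h, one_pow]

theorem r36_val_eq_one_of_sub_lt {a b : E} (ha : W.valuation a = 1)
    (hab : W.valuation (b - a) < 1) : W.valuation b = 1 := by
  have : b = a + (b - a) := by ring
  rw [this, Valuation.map_add_eq_of_lt_left]
  · exact ha
  · rw [ha]; exact hab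

theorem r36_val_sub_lt {x y : E} (hx : W.valuation x < 1) (hy : W.valuation y < 1) :
    W.valuation (x - y) < 1 :=
  lt_of_le_of_lt (Valuation.map_sub _ _ _) (max_lt hx hy)

theorem r36_val_add_lt {x y : E} (hx : W.valuation x < 1) (hy : W.valuation y < 1) :
    W.valuation (x + y) < 1 :=
  lt_of_le_of_lt (Valuation.map_add _ _ _) (max_lt hx hy)

theorem r36_val_mul_lt {x y : E} (hx : W.valuation x < 1) (hy : W.valuation y ≤ 1) :
    W.valuation (x * y) < 1 := by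
  rw [map_mul]
  calc W.valuation x * W.valuation y ≤ W.valuation x * 1 := mul_le_mul_right hy _
    _ = W.valuation x := mul_one _
    _ < 1 := hx

/-- congruences are transitive. -/
theorem r36_val_sub_lt_trans {x y z : E} (hxy : W.valuation (x - y) < 1)
    (hyz : W.valuation (y - z) < 1) : W.valuation (x - z) < 1 := by
  have : x - z = (x - y) + (y - z) := by ring
  rw [this]
  exact r36_val_add_lt W hxy hyz

theorem r36_val_sub_comm {x y : E} : W.valuation (x - y) = W.valuation (y - x) := by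
  rw [← neg_sub, Valuation.map_neg]

theorem r36_val_pow_sub_pow_lt {a b : E} (ha : W.valuation a ≤ 1) (hb : W.valuation b ≤ 1)
    (hab : W.valuation (a - b) < 1) (n : ℕ) : W.valuation (a ^ n - b ^ n) < 1 := by
  obtain ⟨c, hc⟩ : ∃ c : E, W.valuation c ≤ 1 ∧ a ^ n - b ^ n = (a - b) * c := by
    induction n with
    | zero => exact ⟨0, by simp, by simp⟩
    | succ n ih =>
      obtain ⟨c, hc1, hc2⟩ := ih
      refine ⟨a * c + b ^ n, ?_, ?_⟩
      · refine le_trans (Valuation.map_add _ _ _) (max_le ?_ ?_)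
        · rw [map_mul]; exact mul_le_one' ha hc1
        · rw [map_pow]; exact pow_le_one' hb n
      · have : a ^ (n + 1) - b ^ (n + 1) = a * (a ^ n - b ^ n) + (a - b) * b ^ n := by ring
        rw [this, hc2]; ring
  rw [hc.2]
  exact r36_val_mul_lt W hab hc.1

/-- multiplying a congruence by an integral element. -/
theorem r36_val_mul_sub_mul_lt {a b c : E} (hc : W.valuation c ≤ 1)
    (hab : W.valuation (a - b) < 1) : W.valuation (a * c - b * c) < 1 := by
  rw [← sub_mul]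
  exact r36_val_mul_lt W hab hc

/-- `x / λ ≡ 1` from `x ≡ λ`, `λ` a unit. -/
theorem r36_val_div_sub_one_lt {x l : E} (hl : W.valuation l = 1)
    (h : W.valuation (x - l) < 1) : W.valuation (x / l - 1) < 1 := by
  have hl0 : l ≠ 0 := fun h0 => by rw [h0, map_zero] at hl; exact zero_ne_one hl
  have : x / l - 1 = (x - l) / l := by field_simp
  rw [this, map_div₀, hl, div_one]
  exact h

/-- `x ≡ λ` from `x / λ ≡ 1`, `λ` a unit. -/
theorem r36_val_sub_lt_of_div {x l : E} (hl : W.valuation l = 1)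
    (h : W.valuation (x / l - 1) < 1) : W.valuation (x - l) < 1 := by
  have hl0 : l ≠ 0 := fun h0 => by rw [h0, map_zero] at hl; exact zero_ne_one hl
  have : x - l = (x / l - 1) * l := by field_simp
  rw [this, map_mul, hl, mul_one]
  exact h

/-- **Frobenius is injective on the residue field**: `x ^ q ≡ y ^ q` implies `x ≡ y` when the
residue characteristic is `q`. -/
theorem r36_val_sub_lt_of_pow_prime {q : ℕ} (hq : q.Prime) (hqW : W.valuation (q : E) < 1)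
    {x y : E} (hy : W.valuation y = 1) (h : W.valuation (x ^ q - y ^ q) < 1) :
    W.valuation (x - y) < 1 := by
  have hyq : W.valuation (y ^ q) = 1 := by rw [map_pow, hy, one_pow]
  have hxq : W.valuation (x ^ q) = 1 := r36_val_eq_one_of_sub_lt W hyq h
  have hx : W.valuation x = 1 := by
    rw [map_pow] at hxq
    exact (r36_val_pow_eq_one_iff W hq.ne_zero).1 hxq
  have hxW : x ∈ W := (ValuationSubring.valuation_le_one_iff W x).1 hx.le
  have hyW : y ∈ W := (ValuationSubring.valuation_le_one_iff W y).1 hy.le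
  obtain ⟨r, hr⟩ := exists_add_pow_prime_eq hq (⟨x, hxW⟩ : ↥W) (-⟨y, hyW⟩)
  -- `(-y)^q = -y^q + q * s`
  obtain ⟨s, hs⟩ : ∃ s : ↥W, (-(⟨y, hyW⟩ : ↥W)) ^ q = -(⟨y, hyW⟩ : ↥W) ^ q + (q : ↥W) * s := by
    rcases hq.eq_two_or_odd' with h2 | hodd
    · subst h2
      exact ⟨(⟨y, hyW⟩ : ↥W) ^ 2, by push_cast; ring⟩
    · exact ⟨0, by rw [hodd.neg_pow]; ring⟩
  have key : (x - y) ^ q = (x ^ q - y ^ q) + (q : E) * ((s : E) + x * (-y) * (r : E)) := by
    have h1 := congrArg (fun z : ↥W => (z : E)) hr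
    have h2 := congrArg (fun z : ↥W => (z : E)) hs
    push_cast at h1 h2
    have h3 : (x - y) ^ q = (x + -y) ^ q := by rw [sub_eq_add_neg]
    rw [h3, h1, h2]
    ring
  have hlt : W.valuation ((x - y) ^ q) < 1 := by
    rw [key]
    refine r36_val_add_lt W h (r36_val_mul_lt W hqW ?_)
    refine (ValuationSubring.valuation_le_one_iff W _).2 ?_
    exact W.add_mem _ _ s.2 (W.mul_mem _ _ (W.mul_mem _ _ hxW (W.neg_mem _ hyW)) r.2)
  rw [map_pow] at hlt
  by_contra hcon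
  have h1 : 1 ≤ W.valuation (x - y) := not_lt.1 hcon
  exact absurd hlt (not_lt.2 (one_le_pow_of_one_le' h1 q))



theorem r36_zpow_inj {u : E} (hu0 : u ≠ 0) (hu : W.valuation u < 1) {a b : ℤ}
    (h : W.valuation u ^ a = W.valuation u ^ b) : a = b := by
  have h0 : 0 < W.valuation u := zero_lt_iff.2 ((Valuation.ne_zero_iff _).2 hu0)
  exact zpow_right_injective₀ h0 hu.ne h

/-- **absorbing a constant**: if `κ = π ^ n · e ^ m · (1 + small)` with `e` a unit and `κ · Y ^ m`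
is a unit, then `κ · Y ^ m` is congruent to the `m`-th power of a unit. -/
theorem r36_exists_pow_cong {π₁ : E} (hπ0 : π₁ ≠ 0) (hπ : W.valuation π₁ < 1)
    (hdisc : ∀ g : E, g ≠ 0 → ∃ n : ℤ, W.valuation g = W.valuation π₁ ^ n)
    {m : ℕ} (κ e : E) (n : ℤ) (he : W.valuation e = 1)
    (hκ : W.valuation (κ * (π₁ ^ n * e ^ m)⁻¹ - 1) < 1)
    (Y : E) (hY : Y ≠ 0) (hunit : W.valuation (κ * Y ^ m) = 1) :
    ∃ H' : E, W.valuation H' = 1 ∧ W.valuation (κ * Y ^ m - H' ^ m) < 1 := by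
  obtain ⟨h, hh⟩ := hdisc Y hY
  have he0 : e ≠ 0 := fun h0 => by rw [h0, map_zero] at he; exact zero_ne_one he
  have hκ1 : W.valuation (κ * (π₁ ^ n * e ^ m)⁻¹) = 1 := by
    have h1 : W.valuation (1 : E) = 1 := map_one _
    have h2 : W.valuation (κ * (π₁ ^ n * e ^ m)⁻¹) =
        W.valuation (1 + (κ * (π₁ ^ n * e ^ m)⁻¹ - 1)) := by ring_nf
    rw [h2, Valuation.map_add_eq_of_lt_left]
    · exact h1
    · rw [h1]; exact hκ
  have hκv : W.valuation κ = W.valuation π₁ ^ n := by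
    rw [map_mul, map_inv₀, map_mul, map_zpow₀, map_pow, he, one_pow, mul_one] at hκ1
    have h0 : W.valuation π₁ ^ n ≠ 0 :=
      zpow_ne_zero _ ((Valuation.ne_zero_iff _).2 hπ0)
    field_simp at hκ1
    exact hκ1
  have hsum : n + h * m = 0 := by
    apply r36_zpow_inj W hπ0 hπ
    rw [map_mul, map_pow, hκv, hh, ← zpow_natCast, ← zpow_mul, ← zpow_add₀
      ((Valuation.ne_zero_iff _).2 hπ0)] at hunit
    rw [hunit, zpow_zero]
  refine ⟨e * π₁ ^ (-h) * Y, ?_, ?_⟩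
  · rw [map_mul, map_mul, he, one_mul, map_zpow₀, hh, ← zpow_add₀
      ((Valuation.ne_zero_iff _).2 hπ0), neg_add_cancel, zpow_zero]
  · have hn : n = -h * m := by linarith
    have e1 : (e * π₁ ^ (-h) * Y) ^ m = π₁ ^ n * e ^ m * Y ^ m := by
      rw [mul_pow, mul_pow, ← zpow_natCast (π₁ ^ (-h)) m, ← zpow_mul, hn]
      ring
    have e2 : κ * Y ^ m - (e * π₁ ^ (-h) * Y) ^ m =
        (κ * (π₁ ^ n * e ^ m)⁻¹ - 1) * (e * π₁ ^ (-h) * Y) ^ m := by
      rw [e1]
      have h1 : π₁ ^ n * e ^ m ≠ 0 := mul_ne_zero (zpow_ne_zero _ hπ0) (pow_ne_zero _ he0)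
      field_simp
    rw [e2, map_mul]
    have e3 : W.valuation ((e * π₁ ^ (-h) * Y) ^ m) = 1 := by
      rw [map_pow, map_mul, map_mul, he, one_mul, map_zpow₀, hh, ← zpow_add₀
        ((Valuation.ne_zero_iff _).2 hπ0), neg_add_cancel, zpow_zero, one_pow]
    rw [e3, mul_one]
    exact hκ

end Val


section Disc

variable {E : Type*} [Field E] (W : ValuationSubring E)

/-- **discreteness from a uniformizer of a DVR**: every nonzero element has the valuation of a power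
of the uniformizer. -/
theorem r36_disc_of_dvr [IsDiscreteValuationRing ↥W] {u : E} (hu0 : u ≠ 0)
    (hu1 : W.valuation u < 1) (hu : ∀ x : E, W.valuation x < 1 → x * u⁻¹ ∈ W) :
    ∀ g : E, g ≠ 0 → ∃ n : ℤ, W.valuation g = W.valuation u ^ n := by
  have huW : u ∈ W := (ValuationSubring.valuation_le_one_iff W u).1 hu1.le
  set u' : ↥W := ⟨u, huW⟩ with hu'
  have hmax : IsLocalRing.maximalIdeal ↥W = Ideal.span {u'} := by
    apply le_antisymm
    · intro x hx
      have hx1 : W.valuation (x : E) < 1 := (W.valuation_lt_one_iff x).1 hx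
      have h2 := hu _ hx1
      rw [Ideal.mem_span_singleton']
      refine ⟨⟨(x : E) * u⁻¹, h2⟩, Subtype.ext ?_⟩
      show (x : E) * u⁻¹ * u = x
      rw [inv_mul_cancel_right₀ hu0]
    · rw [Ideal.span_le, Set.singleton_subset_iff]
      exact (W.valuation_lt_one_iff u').2 hu1
  have hirr : Irreducible u' := (IsDiscreteValuationRing.irreducible_iff_uniformizer u').2 hmax
  have key : ∀ g : E, g ≠ 0 → g ∈ W → ∃ n : ℕ, W.valuation g = W.valuation u ^ n := by
    intro g hg hgW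
    have hg' : (⟨g, hgW⟩ : ↥W) ≠ 0 := fun h => hg (congrArg Subtype.val h)
    obtain ⟨n, ε, hε⟩ := IsDiscreteValuationRing.eq_unit_mul_pow_irreducible hg' hirr
    refine ⟨n, ?_⟩
    have h1 : g = ((ε : ↥W) : E) * u ^ n := by
      have := congrArg Subtype.val hε
      simpa using this
    rw [h1, map_mul, map_pow, (ValuationSubring.valuation_eq_one_iff W ε).1 ε.isUnit, one_mul]
  intro g hg
  rcases W.mem_or_inv_mem g with h | h
  · obtain ⟨n, hn⟩ := key g hg h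
    exact ⟨n, by rw [hn, zpow_natCast]⟩
  · obtain ⟨n, hn⟩ := key g⁻¹ (inv_ne_zero hg) h
    refine ⟨-n, ?_⟩
    rw [map_inv₀] at hn
    rw [zpow_neg, zpow_natCast, ← hn, inv_inv]

end Disc

section Roots

variable {E₁ E : Type*} [Field E₁] [Field E]

/-- `X / λ ^ m ≡ 1` is stable under powers. -/
theorem r36_root_pow (W : ValuationSubring E) {X lam : E} {m : ℕ}
    (h : W.valuation (X / lam ^ m - 1) < 1) (k : ℕ) :
    W.valuation (X ^ k / (lam ^ k) ^ m - 1) < 1 := by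
  have h1 : W.valuation (X / lam ^ m) = 1 := by
    refine r36_val_eq_one_of_sub_lt W (a := 1) (map_one _) h
  have h2 := r36_val_pow_sub_pow_lt W h1.le (le_of_eq (map_one _)) h k
  have h3 : X ^ k / (lam ^ k) ^ m = (X / lam ^ m) ^ k := by
    rw [div_pow, ← pow_mul, ← pow_mul, mul_comm]
  rw [h3]
  rw [one_pow] at h2
  exact h2

/-- **the root along a purely inseparable fibre**: `Wc` the only sheet over `Wr` along `ι`, residue
extension purely inseparable of degree `q` (`N f ≡ f ^ q`, every residue below is a `q`-th power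
above).  If `N X = κ · Y ^ m` and the order of `X` along `Wc` is divisible by `m`, then `X` is an
`m`-th power along `Wc`. -/
theorem r36_root_insep (ι : E₁ →+* E) (N : E →*₀ E₁)
    (Wr : ValuationSubring E₁) (Wc : ValuationSubring E) (hcomap : Wc.comap ι = Wr)
    {q : ℕ} (hq : q.Prime) (hqW : Wc.valuation (q : E) < 1)
    (hNVi : ∀ f : E, Wc.valuation f = 1 → Wc.valuation (ι (N f) - f ^ q) < 1)
    (hroot : ∀ y : E₁, Wr.valuation y = 1 → ∃ z : E, Wc.valuation (ι y - z ^ q) < 1)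
    {π₁ : E₁} (hπ0 : π₁ ≠ 0) (hπ : Wr.valuation π₁ < 1)
    (hdisc : ∀ g : E₁, g ≠ 0 → ∃ n : ℤ, Wr.valuation g = Wr.valuation π₁ ^ n)
    (πE : E) (hπE0 : πE ≠ 0) (hNπ : N πE = π₁ ^ q)
    {m : ℕ} (κ e : E₁) (nκ : ℤ) (he : Wr.valuation e = 1)
    (hκ : Wr.valuation (κ * (π₁ ^ nκ * e ^ m)⁻¹ - 1) < 1)
    (X : E) (Y : E₁) (hY : Y ≠ 0) (hNX : N X = κ * Y ^ m)
    (n : ℤ) (hX : Wc.valuation X = Wc.valuation πE ^ (m * n)) :
    ∃ lam : E, lam ≠ 0 ∧ Wc.valuation (X / lam ^ m - 1) < 1 := by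
  have hvπ : Wc.valuation πE ≠ 0 := (Valuation.ne_zero_iff _).2 hπE0
  set P : E := πE ^ n with hP
  have hP0 : P ≠ 0 := zpow_ne_zero _ hπE0
  set f : E := X / P ^ m with hf
  have hf1 : Wc.valuation f = 1 := by
    rw [hf, map_div₀, hX, map_pow, hP, map_zpow₀, ← zpow_natCast (Wc.valuation πE ^ n) m,
      ← zpow_mul, mul_comm n (m : ℤ)]
    exact div_self (zpow_ne_zero _ hvπ)
  set Y' : E₁ := Y / (π₁ ^ q) ^ n with hY'
  have hY'0 : Y' ≠ 0 := div_ne_zero hY (zpow_ne_zero _ (pow_ne_zero _ hπ0))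
  have hNf : N f = κ * Y' ^ m := by
    rw [hf, map_div₀, map_pow, hP, map_zpow₀, hNπ, hNX, hY', div_pow, mul_div_assoc]
  have h1 := hNVi f hf1
  have hfq : Wc.valuation (f ^ q) = 1 := by rw [map_pow, hf1, one_pow]
  have hιN : Wc.valuation (ι (N f)) = 1 := r36_val_eq_one_of_sub_lt Wc hfq h1
  have hN1 : Wr.valuation (N f) = 1 := (r36_comap_val_eq_one_iff Wc ι hcomap _).1 hιN
  rw [hNf] at hN1
  obtain ⟨H', hH'1, hH'⟩ := r36_exists_pow_cong Wr hπ0 hπ hdisc κ e nκ he hκ Y' hY'0 hN1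
  have h2 : Wc.valuation (ι (N f) - ι H' ^ m) < 1 := by
    rw [← map_pow, ← map_sub, r36_comap_val_lt_one_iff Wc ι hcomap, hNf]
    exact hH'
  obtain ⟨z, hz⟩ := hroot H' hH'1
  have hιH' : Wc.valuation (ι H') = 1 := (r36_comap_val_eq_one_iff Wc ι hcomap _).2 hH'1
  have hzq : Wc.valuation (z ^ q) = 1 := by
    refine r36_val_eq_one_of_sub_lt Wc hιH' ?_
    rw [r36_val_sub_comm]; exact hz
  have hz1 : Wc.valuation z = 1 := by
    rw [map_pow] at hzq
    exact (r36_val_pow_eq_one_iff Wc hq.ne_zero).1 hzq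
  have h3 : Wc.valuation (ι H' ^ m - (z ^ q) ^ m) < 1 :=
    r36_val_pow_sub_pow_lt Wc hιH'.le hzq.le hz m
  have h4 : Wc.valuation (f ^ q - (z ^ m) ^ q) < 1 := by
    have e1 : (z ^ m) ^ q = (z ^ q) ^ m := by rw [← pow_mul, ← pow_mul, mul_comm]
    rw [e1]
    have h5 : Wc.valuation (f ^ q - ι (N f)) < 1 := by rw [r36_val_sub_comm]; exact h1
    exact r36_val_sub_lt_trans Wc (r36_val_sub_lt_trans Wc h5 h2) h3
  have hzm : Wc.valuation (z ^ m) = 1 := by rw [map_pow, hz1, one_pow]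
  have h6 : Wc.valuation (f - z ^ m) < 1 := r36_val_sub_lt_of_pow_prime Wc hq hqW hzm h4
  have hz0 : z ≠ 0 := fun h0 => by rw [h0, map_zero] at hz1; exact zero_ne_one hz1
  refine ⟨z * P, mul_ne_zero hz0 hP0, ?_⟩
  have e2 : X / (z * P) ^ m = f / z ^ m := by
    rw [hf, mul_pow, div_div, mul_comm (P ^ m)]
  rw [e2]
  exact r36_val_div_sub_one_lt Wc hzm h6

/-- **the root along the split fibre**: `Wa`, `Wb` the two sheets over `Wr` along `ι`, both of
residue degree one, `N f ≡ f_a · f_b ^ k`.  If `N X = κ · Y ^ m`, the orders of `X` along `Wa` and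
`Wb` are those of `P ^ m`, and `X` is an `m`-th power along `Wa`, then `X ^ k` is an `m`-th power
along `Wb`. -/
theorem r36_root_split (ι : E₁ →+* E) (N : E →*₀ E₁)
    (Wr : ValuationSubring E₁) (Wa Wb : ValuationSubring E) (hcomapa : Wa.comap ι = Wr)
    (hcomapb : Wb.comap ι = Wr) {k : ℕ}
    (hNVr : ∀ (f : E) (a b : E₁), Wa.valuation f = 1 → Wb.valuation f = 1 →
      Wa.valuation (f - ι a) < 1 → Wb.valuation (f - ι b) < 1 →
      Wr.valuation (N f - a * b ^ k) < 1)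
    (hresa : ∀ z ∈ Wa, ∃ c : E₁, Wa.valuation (z - ι c) < 1)
    (hresb : ∀ z ∈ Wb, ∃ c : E₁, Wb.valuation (z - ι c) < 1)
    {π₁ : E₁} (hπ0 : π₁ ≠ 0) (hπ : Wr.valuation π₁ < 1)
    (hdisc : ∀ g : E₁, g ≠ 0 → ∃ n : ℤ, Wr.valuation g = Wr.valuation π₁ ^ n)
    {m : ℕ} (hm : m ≠ 0) (κ e : E₁) (nκ : ℤ) (he : Wr.valuation e = 1)
    (hκ : Wr.valuation (κ * (π₁ ^ nκ * e ^ m)⁻¹ - 1) < 1)
    (X : E) (Y : E₁) (hY : Y ≠ 0) (hNX : N X = κ * Y ^ m)
    (P : E) (hP0 : P ≠ 0) (hXa : Wa.valuation X = Wa.valuation (P ^ m))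
    (hXb : Wb.valuation X = Wb.valuation (P ^ m))
    (lama : E) (hlama0 : lama ≠ 0) (hlama : Wa.valuation (X / lama ^ m - 1) < 1) :
    ∃ lamb : E, lamb ≠ 0 ∧ Wb.valuation (X ^ k / lamb ^ m - 1) < 1 := by
  have hPm0 : P ^ m ≠ 0 := pow_ne_zero _ hP0
  set f : E := X / P ^ m with hf
  have hfa : Wa.valuation f = 1 := by
    rw [hf, map_div₀, hXa]
    exact div_self ((Valuation.ne_zero_iff _).2 hPm0)
  have hfb : Wb.valuation f = 1 := by
    rw [hf, map_div₀, hXb]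
    exact div_self ((Valuation.ne_zero_iff _).2 hPm0)
  have hNP0 : N P ≠ 0 := (map_ne_zero N).2 hP0
  set Y' : E₁ := Y / N P with hY'
  have hY'0 : Y' ≠ 0 := div_ne_zero hY hNP0
  have hNf : N f = κ * Y' ^ m := by
    rw [hf, map_div₀, map_pow, hNX, hY', div_pow, mul_div_assoc]
  -- the root along `Wa`
  set μ : E := lama / P with hμ
  have e1 : f / μ ^ m = X / lama ^ m := by
    rw [hf, hμ, div_pow]
    field_simp
  have h1 : Wa.valuation (f / μ ^ m - 1) < 1 := by rw [e1]; exact hlama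
  have h2 : Wa.valuation (f / μ ^ m) = 1 := r36_val_eq_one_of_sub_lt Wa (a := 1) (map_one _) h1
  have hμm : Wa.valuation (μ ^ m) = 1 := by
    rw [map_div₀, hfa] at h2
    have h0 : Wa.valuation (μ ^ m) ≠ 0 := by
      intro h0
      rw [h0, div_zero] at h2
      exact zero_ne_one h2
    field_simp at h2
    exact h2.symm
  have hμ1 : Wa.valuation μ = 1 := by
    rw [map_pow] at hμm
    exact (r36_val_pow_eq_one_iff Wa hm).1 hμm
  have h3 : Wa.valuation (f - μ ^ m) < 1 := r36_val_sub_lt_of_div Wa hμm h1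
  obtain ⟨α₀, hα₀⟩ := hresa μ ((ValuationSubring.valuation_le_one_iff Wa μ).1 hμ1.le)
  have hια₀ : Wa.valuation (ι α₀) = 1 := by
    refine r36_val_eq_one_of_sub_lt Wa hμ1 ?_
    rw [r36_val_sub_comm]; exact hα₀
  have h4 : Wa.valuation (μ ^ m - ι α₀ ^ m) < 1 :=
    r36_val_pow_sub_pow_lt Wa hμ1.le hια₀.le hα₀ m
  have h5 : Wa.valuation (f - ι (α₀ ^ m)) < 1 := by
    rw [map_pow]
    exact r36_val_sub_lt_trans Wa h3 h4
  obtain ⟨β, hβ⟩ := hresb f ((ValuationSubring.valuation_le_one_iff Wb f).1 hfb.le)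
  have hιβ : Wb.valuation (ι β) = 1 := by
    refine r36_val_eq_one_of_sub_lt Wb hfb ?_
    rw [r36_val_sub_comm]; exact hβ
  have h6 := hNVr f (α₀ ^ m) β hfa hfb h5 hβ
  have hα₀r : Wr.valuation α₀ = 1 := (r36_comap_val_eq_one_iff Wa ι hcomapa _).1 hια₀
  have hβr : Wr.valuation β = 1 := (r36_comap_val_eq_one_iff Wb ι hcomapb _).1 hιβ
  have hprod : Wr.valuation (α₀ ^ m * β ^ k) = 1 := by
    rw [map_mul, map_pow, map_pow, hα₀r, hβr, one_pow, one_pow, mul_one]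
  have hN1 : Wr.valuation (N f) = 1 := by
    refine r36_val_eq_one_of_sub_lt Wr hprod h6
  rw [hNf] at hN1
  obtain ⟨H', hH'1, hH'⟩ := r36_exists_pow_cong Wr hπ0 hπ hdisc κ e nκ he hκ Y' hY'0 hN1
  have h7 : Wr.valuation (α₀ ^ m * β ^ k - H' ^ m) < 1 := by
    rw [hNf] at h6
    have h8 : Wr.valuation (α₀ ^ m * β ^ k - κ * Y' ^ m) < 1 := by
      rw [r36_val_sub_comm]; exact h6
    exact r36_val_sub_lt_trans Wr h8 hH'
  have hα₀0 : α₀ ≠ 0 := fun h0 => by rw [h0, map_zero] at hα₀r; exact zero_ne_one hα₀r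
  have h9 : Wr.valuation (β ^ k - (H' / α₀) ^ m) < 1 := by
    have e2 : β ^ k - (H' / α₀) ^ m = (α₀ ^ m * β ^ k - H' ^ m) / α₀ ^ m := by
      rw [div_pow]
      field_simp
    rw [e2, map_div₀, map_pow, hα₀r, one_pow, div_one]
    exact h7
  set ν : E := ι (H' / α₀) with hν
  have hν1 : Wb.valuation ν = 1 := by
    rw [hν, r36_comap_val_eq_one_iff Wb ι hcomapb, map_div₀, hH'1, hα₀r, div_one]
  have h10 : Wb.valuation (ι β ^ k - ν ^ m) < 1 := by
    rw [hν, ← map_pow, ← map_pow, ← map_sub, r36_comap_val_lt_one_iff Wb ι hcomapb]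
    exact h9
  have h11 : Wb.valuation (f ^ k - ι β ^ k) < 1 :=
    r36_val_pow_sub_pow_lt Wb hfb.le hιβ.le hβ k
  have h12 : Wb.valuation (f ^ k - ν ^ m) < 1 := r36_val_sub_lt_trans Wb h11 h10
  have hνm : Wb.valuation (ν ^ m) = 1 := by rw [map_pow, hν1, one_pow]
  have hν0 : ν ≠ 0 := fun h0 => by rw [h0, map_zero] at hν1; exact zero_ne_one hν1
  refine ⟨ν * P ^ k, mul_ne_zero hν0 (pow_ne_zero _ hP0), ?_⟩
  have e3 : X ^ k / (ν * P ^ k) ^ m = f ^ k / ν ^ m := by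
    rw [hf, div_pow, mul_pow, ← pow_mul, ← pow_mul, mul_comm k m, div_div, mul_comm (ν ^ m)]
  rw [e3]
  exact r36_val_div_sub_one_lt Wb hνm h12

end Roots


section Main

variable {K₀ E₁ E : Type*} [Field K₀] [Field E₁] [Field E] [Algebra K₀ E₁] [Algebra K₀ E]

/-- the order of a constant from the normal form `a = π ^ n · e ^ m · (1 + small)`. -/
theorem r36_val_const (W : ValuationSubring E₁) {π a e : K₀} (hπ0 : π ≠ 0) {m : ℕ} {n : ℤ}
    (he : W.valuation (algebraMap K₀ E₁ e) = 1)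
    (h : W.valuation (algebraMap K₀ E₁ (a * (π ^ n * e ^ m)⁻¹) - 1) < 1) :
    W.valuation (algebraMap K₀ E₁ a) = W.valuation (algebraMap K₀ E₁ π) ^ n := by
  have h1 : W.valuation (algebraMap K₀ E₁ (a * (π ^ n * e ^ m)⁻¹)) = 1 :=
    r36_val_eq_one_of_sub_lt W (a := 1) (map_one _) h
  simp only [map_mul, map_inv₀, map_zpow₀, map_pow] at h1
  rw [he, one_pow, mul_one] at h1
  have h0 : W.valuation (algebraMap K₀ E₁ π) ^ n ≠ 0 :=
    zpow_ne_zero _ ((Valuation.ne_zero_iff _).2 ((map_ne_zero _).2 hπ0))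
  field_simp at h1
  exact h1

/-- the normal form of a constant, in the shape consumed by `r36_exists_pow_cong`. -/
theorem r36_const_form (W : ValuationSubring E₁) {π a e : K₀} {m : ℕ} {n : ℤ}
    (h : W.valuation (algebraMap K₀ E₁ (a * (π ^ n * e ^ m)⁻¹) - 1) < 1) :
    W.valuation (algebraMap K₀ E₁ a *
      ((algebraMap K₀ E₁ π) ^ n * (algebraMap K₀ E₁ e) ^ m)⁻¹ - 1) < 1 := by
  rw [map_mul, map_inv₀, map_mul, map_zpow₀, map_pow] at h
  exact h

set_option maxHeartbeats 1600000 in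
/-- **[ROOTS36]: the per-sheet roots.**  Three sheets `W20`, `W11`, `W02` of `E` over the two sheets
`W10`, `W01` of `E₁` along the two degeneracy maps `ιA` (fibres `{W20, W11} → W10`, `W02 → W01`) and
`ιB` (fibres `W20 → W10`, `{W11, W02} → W01`).  If both norms of `G` are constants times `m`-th
powers and the order of `G` along `W20` is divisible by `m`, then `G ^ (q² - 1)` is an `m`-th power
along each of the three sheets. -/
theorem roots36 (ιA ιB : E₁ →+* E)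
    (NA NB : E →*₀ E₁) (π : K₀) (hπ0 : π ≠ 0) {q : ℕ} (hq : q.Prime) {m : ℕ} (hm : m ≠ 0)
    (W10 W01 : ValuationSubring E₁) (W20 W11 W02 : ValuationSubring E)
    -- the fibres
    (h20A : W20.comap ιA = W10) (h11A : W11.comap ιA = W10) (h02A : W02.comap ιA = W01)
    (h20B : W20.comap ιB = W10)
    -- uniformizers
    (hπ10 : W10.valuation (algebraMap K₀ E₁ π) < 1) (hπ01 : W01.valuation (algebraMap K₀ E₁ π) < 1)
    (u : E) (hu0 : u ≠ 0) (hu20 : W20.valuation u = 1)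
    (hπ11 : W11.valuation (algebraMap K₀ E π) = W11.valuation u ^ (q - 1))
    -- discreteness
    (hd10 : ∀ g : E₁, g ≠ 0 → ∃ n : ℤ, W10.valuation g = W10.valuation (algebraMap K₀ E₁ π) ^ n)
    (hd01 : ∀ g : E₁, g ≠ 0 → ∃ n : ℤ, W01.valuation g = W01.valuation (algebraMap K₀ E₁ π) ^ n)
    (hd11 : ∀ g : E, g ≠ 0 → ∃ n : ℤ, W11.valuation g = W11.valuation u ^ n)
    (hd02 : ∀ g : E, g ≠ 0 → ∃ n : ℤ, W02.valuation g = W02.valuation (algebraMap K₀ E π) ^ n)
    -- orders of norms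
    (hTA10 : ∀ (g : E) (n20 n11 : ℤ), W20.valuation g = W20.valuation (algebraMap K₀ E π) ^ n20 →
      W11.valuation g = W11.valuation u ^ n11 →
      W10.valuation (NA g) = W10.valuation (algebraMap K₀ E₁ π) ^ (n20 + n11))
    (hTA01 : ∀ (g : E) (n02 : ℤ), W02.valuation g = W02.valuation (algebraMap K₀ E π) ^ n02 →
      W01.valuation (NA g) = W01.valuation (algebraMap K₀ E₁ π) ^ ((q : ℤ) * n02))
    (hTB10 : ∀ (g : E) (n20 : ℤ), W20.valuation g = W20.valuation (algebraMap K₀ E π) ^ n20 →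
      W10.valuation (NB g) = W10.valuation (algebraMap K₀ E₁ π) ^ ((q : ℤ) * n20))
    (hTB01 : ∀ (g : E) (n11 n02 : ℤ), W11.valuation g = W11.valuation u ^ n11 →
      W02.valuation g = W02.valuation (algebraMap K₀ E π) ^ n02 →
      W01.valuation (NB g) = W01.valuation (algebraMap K₀ E₁ π) ^ (n11 + n02))
    -- residues of norms
    (hNVrA : ∀ (f : E) (a b : E₁), W20.valuation f = 1 → W11.valuation f = 1 →
      W20.valuation (f - ιA a) < 1 → W11.valuation (f - ιA b) < 1 →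
      W10.valuation (NA f - a * b ^ (q - 1)) < 1)
    (hNViA : ∀ f : E, W02.valuation f = 1 → W02.valuation (ιA (NA f) - f ^ q) < 1)
    (hNViB : ∀ f : E, W20.valuation f = 1 → W20.valuation (ιB (NB f) - f ^ q) < 1)
    -- residue fields
    (hres20 : ∀ z ∈ W20, ∃ c : E₁, W20.valuation (z - ιA c) < 1)
    (hres11 : ∀ z ∈ W11, ∃ c : E₁, W11.valuation (z - ιA c) < 1)
    (hroot02 : ∀ y : E₁, W01.valuation y = 1 → ∃ z : E, W02.valuation (ιA y - z ^ q) < 1)
    (hroot20 : ∀ y : E₁, W10.valuation y = 1 → ∃ z : E, W20.valuation (ιB y - z ^ q) < 1)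
    (hq20 : W20.valuation (q : E) < 1) (hq02 : W02.valuation (q : E) < 1)
    -- constants
    (hconst : ∀ a : K₀, a ≠ 0 → ∃ (n : ℤ) (e : K₀),
      W10.valuation (algebraMap K₀ E₁ e) = 1 ∧ W01.valuation (algebraMap K₀ E₁ e) = 1 ∧
      W10.valuation (algebraMap K₀ E₁ (a * (π ^ n * e ^ m)⁻¹) - 1) < 1 ∧
      W01.valuation (algebraMap K₀ E₁ (a * (π ^ n * e ^ m)⁻¹) - 1) < 1)
    (hNAπ : NA (algebraMap K₀ E π) = (algebraMap K₀ E₁ π) ^ q)
    (hNBπ : NB (algebraMap K₀ E π) = (algebraMap K₀ E₁ π) ^ q)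
    -- the function
    (G : E) (hG : G ≠ 0) (a₁ a₂ : K₀) (ha₁ : a₁ ≠ 0) (ha₂ : a₂ ≠ 0) (H₁ H₂ : E₁)
    (hH₁ : H₁ ≠ 0) (hH₂ : H₂ ≠ 0)
    (hNAG : NA G = algebraMap K₀ E₁ a₁ * H₁ ^ m) (hNBG : NB G = algebraMap K₀ E₁ a₂ * H₂ ^ m)
    (n₀ : ℤ) (hG20 : W20.valuation G = W20.valuation (algebraMap K₀ E π) ^ ((m : ℤ) * n₀)) :
    ∃ lam20 lam11 lam02 : E, lam20 ≠ 0 ∧ lam11 ≠ 0 ∧ lam02 ≠ 0 ∧
      W20.valuation (G ^ (q ^ 2 - 1) / lam20 ^ m - 1) < 1 ∧
      W11.valuation (G ^ (q ^ 2 - 1) / lam11 ^ m - 1) < 1 ∧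
      W02.valuation (G ^ (q ^ 2 - 1) / lam02 ^ m - 1) < 1 := by
  set π₁ : E₁ := algebraMap K₀ E₁ π with hπ₁
  set πE : E := algebraMap K₀ E π with hπE
  have hπ₁0 : π₁ ≠ 0 := (map_ne_zero _).2 hπ0
  have hπE0 : πE ≠ 0 := (map_ne_zero _).2 hπ0
  -- the orders of `G`
  obtain ⟨b, hb⟩ := hd11 G hG
  obtain ⟨c, hc⟩ := hd02 G hG
  -- the orders of the constants and of `H₁`, `H₂`
  obtain ⟨v₁, e₁, he₁10, he₁01, hκ₁10, hκ₁01⟩ := hconst a₁ ha₁
  obtain ⟨v₂, e₂, he₂10, he₂01, hκ₂10, hκ₂01⟩ := hconst a₂ ha₂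
  have hva₁10 := r36_val_const W10 hπ0 he₁10 hκ₁10
  have hva₁01 := r36_val_const W01 hπ0 he₁01 hκ₁01
  have hva₂10 := r36_val_const W10 hπ0 he₂10 hκ₂10
  have hva₂01 := r36_val_const W01 hπ0 he₂01 hκ₂01
  obtain ⟨h10, hh10⟩ := hd10 H₁ hH₁
  obtain ⟨h01, hh01⟩ := hd01 H₁ hH₁
  obtain ⟨k10, hk10⟩ := hd10 H₂ hH₂
  obtain ⟨k01, hk01⟩ := hd01 H₂ hH₂
  have hv10 : W10.valuation π₁ ≠ 0 := (Valuation.ne_zero_iff _).2 hπ₁0
  have hv01 : W01.valuation π₁ ≠ 0 := (Valuation.ne_zero_iff _).2 hπ₁0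
  -- the four order equations
  have eq1 : (m : ℤ) * n₀ + b = v₁ + h10 * m := by
    apply r36_zpow_inj W10 hπ₁0 hπ10
    rw [← hTA10 G _ _ hG20 hb, hNAG, map_mul, map_pow, hva₁10, hh10, ← zpow_natCast, ← zpow_mul,
      ← zpow_add₀ hv10]
  have eq2 : (q : ℤ) * c = v₁ + h01 * m := by
    apply r36_zpow_inj W01 hπ₁0 hπ01
    rw [← hTA01 G _ hc, hNAG, map_mul, map_pow, hva₁01, hh01, ← zpow_natCast, ← zpow_mul,
      ← zpow_add₀ hv01]
  have eq3 : (q : ℤ) * ((m : ℤ) * n₀) = v₂ + k10 * m := by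
    apply r36_zpow_inj W10 hπ₁0 hπ10
    rw [← hTB10 G _ hG20, hNBG, map_mul, map_pow, hva₂10, hk10, ← zpow_natCast, ← zpow_mul,
      ← zpow_add₀ hv10]
  have eq4 : b + c = v₂ + k01 * m := by
    apply r36_zpow_inj W01 hπ₁0 hπ01
    rw [← hTB01 G _ _ hb hc, hNBG, map_mul, map_pow, hva₂01, hk01, ← zpow_natCast, ← zpow_mul,
      ← zpow_add₀ hv01]
  -- the orders of `X = G ^ (q + 1)` are divisible by `m`
  set c₁ : ℤ := (q : ℤ) * n₀ + k01 - k10 + n₀ - h10 + h01 with hc₁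
  set b₁ : ℤ := (q : ℤ) * ((q : ℤ) * n₀ + k01 - k10) + (-n₀ + h10 - h01) with hb₁
  have hcm : ((q : ℤ) + 1) * c = (m : ℤ) * c₁ := by
    rw [hc₁]; linear_combination eq4 - eq1 + eq2 - eq3
  have hbm : ((q : ℤ) + 1) * b = (m : ℤ) * b₁ := by
    rw [hb₁]; linear_combination (q : ℤ) * eq4 - (q : ℤ) * eq3 + eq1 - eq2
  set X : E := G ^ (q + 1) with hX
  have hX20 : W20.valuation X = W20.valuation πE ^ ((m : ℤ) * (n₀ * ((q : ℤ) + 1))) := by
    rw [hX, map_pow, hG20, ← zpow_natCast, ← zpow_mul]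
    congr 1
    push_cast
    ring
  have hX02 : W02.valuation X = W02.valuation πE ^ ((m : ℤ) * c₁) := by
    rw [hX, map_pow, hc, ← zpow_natCast, ← zpow_mul, ← hcm]
    congr 1
    push_cast
    ring
  have hX11 : W11.valuation X = W11.valuation u ^ ((m : ℤ) * b₁) := by
    rw [hX, map_pow, hb, ← zpow_natCast, ← zpow_mul, ← hbm]
    congr 1
    push_cast
    ring
  -- the norms of `X`
  have hNAX : NA X = algebraMap K₀ E₁ (a₁ ^ (q + 1)) * (H₁ ^ (q + 1)) ^ m := by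
    rw [hX, map_pow, hNAG, mul_pow, map_pow, ← pow_mul, ← pow_mul, mul_comm m]
  have hNBX : NB X = algebraMap K₀ E₁ (a₂ ^ (q + 1)) * (H₂ ^ (q + 1)) ^ m := by
    rw [hX, map_pow, hNBG, mul_pow, map_pow, ← pow_mul, ← pow_mul, mul_comm m]
  obtain ⟨w₁, f₁, hf₁10, hf₁01, hw₁10, hw₁01⟩ := hconst (a₁ ^ (q + 1)) (pow_ne_zero _ ha₁)
  obtain ⟨w₂, f₂, hf₂10, hf₂01, hw₂10, hw₂01⟩ := hconst (a₂ ^ (q + 1)) (pow_ne_zero _ ha₂)
  -- the root along `W02`
  obtain ⟨l02, hl020, hl02⟩ := r36_root_insep ιA NA W01 W02 h02A hq hq02 hNViA hroot02 hπ₁0 hπ01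
    hd01 πE hπE0 hNAπ _ _ w₁ hf₁01 (r36_const_form W01 hw₁01) X (H₁ ^ (q + 1))
    (pow_ne_zero _ hH₁) hNAX c₁ hX02
  -- the root along `W20`
  obtain ⟨l20, hl200, hl20⟩ := r36_root_insep ιB NB W10 W20 h20B hq hq20 hNViB hroot20 hπ₁0 hπ10
    hd10 πE hπE0 hNBπ _ _ w₂ hf₂10 (r36_const_form W10 hw₂10) X (H₂ ^ (q + 1))
    (pow_ne_zero _ hH₂) hNBX (n₀ * ((q : ℤ) + 1)) hX20
  -- the root along `W11`
  set P : E := πE ^ (n₀ * ((q : ℤ) + 1)) * u ^ (b₁ - ((q : ℤ) - 1) * (n₀ * ((q : ℤ) + 1))) with hP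
  have hP0 : P ≠ 0 := mul_ne_zero (zpow_ne_zero _ hπE0) (zpow_ne_zero _ hu0)
  have hPa : W20.valuation X = W20.valuation (P ^ m) := by
    rw [hX20, hP, map_pow, map_mul, map_zpow₀, map_zpow₀, hu20, one_zpow, mul_one,
      ← zpow_natCast (W20.valuation πE ^ (n₀ * ((q : ℤ) + 1))) m, ← zpow_mul, mul_comm (m : ℤ)]
  have hq1 : ((q - 1 : ℕ) : ℤ) = (q : ℤ) - 1 := by
    rw [Nat.cast_sub hq.one_le]; simp
  have hPb : W11.valuation X = W11.valuation (P ^ m) := by
    have hvu : W11.valuation u ≠ 0 := (Valuation.ne_zero_iff _).2 hu0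
    rw [hX11, hP, map_pow, map_mul, map_zpow₀, map_zpow₀, hπ11, ← zpow_natCast (W11.valuation u),
      ← zpow_mul, ← zpow_add₀ hvu, ← zpow_natCast _ m, ← zpow_mul, hq1]
    congr 1
    ring
  obtain ⟨l11, hl110, hl11⟩ := r36_root_split ιA NA W10 W20 W11 h20A h11A hNVrA hres20 hres11
    hπ₁0 hπ10 hd10 hm _ _ w₁ hf₁10 (r36_const_form W10 hw₁10) X (H₁ ^ (q + 1))
    (pow_ne_zero _ hH₁) hNAX P hP0 hPa hPb l20 hl200 hl20
  -- conclusion
  have hexp : G ^ (q ^ 2 - 1) = X ^ (q - 1) := by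
    rw [hX, ← pow_mul]
    congr 1
    have h1 : 1 ≤ q := hq.one_le
    obtain ⟨t, rfl⟩ : ∃ t, q = t + 1 := ⟨q - 1, by omega⟩
    simp only [Nat.add_sub_cancel]
    have : (t + 1) ^ 2 = (t + 1 + 1) * t + 1 := by ring
    rw [this, Nat.add_sub_cancel]
  refine ⟨l20 ^ (q - 1), l11, l02 ^ (q - 1), pow_ne_zero _ hl200, hl110, pow_ne_zero _ hl020,
    ?_, ?_, ?_⟩
  · rw [hexp]; exact r36_root_pow W20 hl20 (q - 1)
  · rw [hexp]; exact hl11
  · rw [hexp]; exact r36_root_pow W02 hl02 (q - 1)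

end Main

end Fermat.Agent.S36
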