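/-
S36 — helper4 — [BASE36], part 1: **normalisation of the constant of a norm relation**
(the `aA aB : R` inputs of helper5's `toric36` from helper2's `a ∈ K₀`).

`R` a discrete valuation ring with algebraically closed residue field, `K₀ = Frac R`, `E₁ / K₀` a
field with a valuation subring `Wr ⊇ R` which is discrete with uniformizer `π` (the uniformizer of
`R`).  If `X = a · H ^ m` in `E₁` with `a ∈ K₀ˣ` and the order of `X` along `Wr` is divisible by
`m`, then `X = (1 + π r) · H' ^ m` with `r ∈ R` (`base36_norm_const`): write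
`a = π ^ n · e ^ m · (1 + π r)` (helper9's `base36_exists_zpow_pow_cong`); comparing orders along
`Wr` gives `m ∣ n`; absorb `π ^ (n / m) · e` into `H`.
-/
import Mathlib
import Fermat.Agent.S36.ROOTS36_helper4
import Fermat.Agent.S36.BASE36_helper9_Const

set_option autoImplicit false
set_option linter.unusedSectionVars false
set_option linter.style.haveILetI false

namespace Fermat.Agent.S36

section Const

variable {R : Type*} [CommRing R] [IsDomain R] [IsDiscreteValuationRing R]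
  {K₀ : Type*} [Field K₀] [Algebra R K₀] [IsFractionRing R K₀]
  {E₁ : Type*} [Field E₁] [Algebra K₀ E₁] [Algebra R E₁] [IsScalarTower R K₀ E₁]

/-- `1 + π r` is a unit of the local ring `R`. -/
theorem base36_isUnit_one_add {π : R} (hπ : Irreducible π) (r : R) : IsUnit (1 + π * r) := by
  by_contra h
  have h1 : 1 + π * r ∈ IsLocalRing.maximalIdeal R := (IsLocalRing.mem_maximalIdeal _).2 h
  have h2 : π * r ∈ IsLocalRing.maximalIdeal R :=
    Ideal.mul_mem_right _ _ ((IsLocalRing.mem_maximalIdeal _).2 hπ.not_isUnit)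
  have h3 : (1 : R) ∈ IsLocalRing.maximalIdeal R := by
    have := Ideal.sub_mem _ h1 h2
    rwa [add_sub_cancel_right] at this
  exact (IsLocalRing.mem_maximalIdeal _).1 h3 isUnit_one

/-- `1 + π r ≡ 1` along every valuation subring containing `R` in which `π` is a non-unit. -/
theorem base36_val_one_add_sub_one_lt {π : R} (W : ValuationSubring E₁)
    (hR : ∀ r : R, algebraMap R E₁ r ∈ W) (hπW : W.valuation (algebraMap R E₁ π) < 1) (r : R) :
    W.valuation (algebraMap R E₁ (1 + π * r) - 1) < 1 := by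
  rw [map_add, map_one, add_sub_cancel_left, map_mul]
  exact r36_val_mul_lt W hπW ((W.valuation_le_one_iff _).2 (hR r))

/-- **normalisation of the constant of a norm relation**: `X = a · H ^ m`, `a ∈ K₀ˣ`, order of `X`
along the discrete sheet `Wr` divisible by `m` ⇒ `X = (1 + π r) · H' ^ m`. -/
theorem base36_norm_const [IsAlgClosed (IsLocalRing.ResidueField R)] {π : R}
    (hπ : Irreducible π) {m : ℕ} (hm : 0 < m) (Wr : ValuationSubring E₁)
    (hRr : ∀ r : R, algebraMap R E₁ r ∈ Wr)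
    (hπr : Wr.valuation (algebraMap R E₁ π) < 1)
    (hdr : ∀ g : E₁, g ≠ 0 → ∃ n : ℤ, Wr.valuation g = Wr.valuation (algebraMap R E₁ π) ^ n)
    {X : E₁} {a : K₀} (ha : a ≠ 0) {H : E₁} (hH : H ≠ 0)
    (hX : X = algebraMap K₀ E₁ a * H ^ m) (k : ℤ)
    (hord : Wr.valuation X = Wr.valuation (algebraMap R E₁ π) ^ ((m : ℤ) * k)) :
    ∃ (r : R) (H' : E₁), H' ≠ 0 ∧ X = algebraMap R E₁ (1 + π * r) * H' ^ m := by
  obtain ⟨n, e, r, he, hr⟩ := base36_exists_zpow_pow_cong (K := K₀) hπ hm a ha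
  have hπK : algebraMap R K₀ π ≠ 0 :=
    (map_ne_zero_iff _ (IsFractionRing.injective R K₀)).mpr hπ.ne_zero
  have hπE : algebraMap R E₁ π ≠ 0 := by
    rw [IsScalarTower.algebraMap_apply R K₀ E₁]
    exact (map_ne_zero _).2 hπK
  have heE : algebraMap K₀ E₁ e ≠ 0 := (map_ne_zero _).2 he
  -- `a = π ^ n · e ^ m · (1 + π r)`
  have ha' : a = algebraMap R K₀ π ^ n * e ^ m * algebraMap R K₀ (1 + π * r) := by
    have h1 : a * (algebraMap R K₀ π ^ n)⁻¹ * (e ^ m)⁻¹ = algebraMap R K₀ (1 + π * r) := by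
      rw [map_add, map_one, ← hr]; ring
    rw [← h1]
    have h2 : algebraMap R K₀ π ^ n ≠ 0 := zpow_ne_zero _ hπK
    have h3 : e ^ m ≠ 0 := pow_ne_zero _ he
    field_simp
  have haE : algebraMap K₀ E₁ a = algebraMap R E₁ π ^ n * algebraMap K₀ E₁ e ^ m *
      algebraMap R E₁ (1 + π * r) := by
    rw [ha', map_mul, map_mul, map_zpow₀, map_pow, ← IsScalarTower.algebraMap_apply R K₀ E₁,
      ← IsScalarTower.algebraMap_apply R K₀ E₁]
  -- orders
  obtain ⟨ke, hke⟩ := hdr _ heE
  obtain ⟨kH, hkH⟩ := hdr _ hH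
  have hu1 : Wr.valuation (algebraMap R E₁ (1 + π * r)) = 1 :=
    r36_val_eq_one_of_sub_lt Wr (a := 1) (map_one _)
      (base36_val_one_add_sub_one_lt Wr hRr hπr r)
  have hval : Wr.valuation X =
      Wr.valuation (algebraMap R E₁ π) ^ (n + (m : ℤ) * ke + (m : ℤ) * kH) := by
    have hv0 : Wr.valuation (algebraMap R E₁ π) ≠ 0 := (Valuation.ne_zero_iff _).2 hπE
    have hpw : ∀ j : ℤ, (Wr.valuation (algebraMap R E₁ π) ^ j) ^ m =
        Wr.valuation (algebraMap R E₁ π) ^ ((m : ℤ) * j) := fun j => by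
      rw [← zpow_natCast, ← zpow_mul, mul_comm]
    rw [hX, haE, map_mul, map_mul, map_mul, map_zpow₀, map_pow, map_pow, hu1, mul_one, hke, hkH,
      hpw, hpw, zpow_add₀ hv0, zpow_add₀ hv0]
  have hn : n = (m : ℤ) * (k - ke - kH) := by
    have := r36_zpow_inj Wr hπE hπr (hval.symm.trans hord)
    linarith
  refine ⟨r, algebraMap R E₁ π ^ (k - ke - kH) * algebraMap K₀ E₁ e * H,
    mul_ne_zero (mul_ne_zero (zpow_ne_zero _ hπE) heE) hH, ?_⟩
  rw [hX, haE, hn, mul_pow, mul_pow, ← zpow_natCast (algebraMap R E₁ π ^ (k - ke - kH)) m,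
    ← zpow_mul, mul_comm (k - ke - kH) (m : ℤ)]
  ring

end Const

end Fermat.Agent.S36
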