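/-
S36 — helper9 — **[ROOTS36] for `m` prime to `q`: no `q`-th root extraction.**

helper4's `roots36` (S36/ROOTS36_helper4) asks for `q`-th roots on the two purely inseparable
fibres (`hroot02`, `hroot20`).  They are used only to solve `f ^ q ≡ (ι H') ^ m` for `f` modulo
`m`-th powers; when `m` is prime to `q` this is Bézout: with `s q + r m = 1`,
`f = f ^ (s q) · f ^ (r m) ≡ ((ι H') ^ s · f ^ r) ^ m`.

* `r36c_val_zpow_sub_zpow_lt` : congruent units have congruent integral powers;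
* `r36_root_insep_coprime` : `r36_root_insep` without `hroot`, `hq`, `hqW`, with `Nat.Coprime m q`;
* **`roots36_coprime`** : `roots36` verbatim without `hroot02 hroot20 hq20 hq02`, with
  `(hmq : Nat.Coprime m q)`.
-/
import Mathlib
import Fermat.Agent.S36.ROOTS36_helper4

set_option autoImplicit false
set_option linter.unusedSectionVars false
set_option linter.unusedVariables false

namespace Fermat.Agent.S36

section Val

variable {E : Type*} [Field E] (W : ValuationSubring E)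

/-- congruent units have congruent integral powers. -/
theorem r36c_val_zpow_sub_zpow_lt {a b : E} (ha : W.valuation a = 1) (hb : W.valuation b = 1)
    (hab : W.valuation (a - b) < 1) (s : ℤ) : W.valuation (a ^ s - b ^ s) < 1 := by
  have ha0 : a ≠ 0 := fun h0 => by rw [h0, map_zero] at ha; exact zero_ne_one ha
  have hb0 : b ≠ 0 := fun h0 => by rw [h0, map_zero] at hb; exact zero_ne_one hb
  rcases Int.eq_nat_or_neg s with ⟨n, rfl | rfl⟩
  · rw [zpow_natCast, zpow_natCast]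
    exact r36_val_pow_sub_pow_lt W ha.le hb.le hab n
  · rw [zpow_neg, zpow_neg, zpow_natCast, zpow_natCast]
    have h1 := r36_val_pow_sub_pow_lt W ha.le hb.le hab n
    have han : a ^ n ≠ 0 := pow_ne_zero n ha0
    have hbn : b ^ n ≠ 0 := pow_ne_zero n hb0
    have e : (a ^ n)⁻¹ - (b ^ n)⁻¹ = (b ^ n - a ^ n) / (a ^ n * b ^ n) := by
      field_simp
    rw [e, map_div₀, map_mul, map_pow, map_pow, ha, hb, one_pow, mul_one, div_one,
      r36_val_sub_comm]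
    exact h1

end Val

section Roots

variable {E₁ E : Type*} [Field E₁] [Field E]

/-- **the root along a purely inseparable fibre, `m` prime to `q`** (no `q`-th root extraction):
if `N f ≡ f ^ q` along `Wc`, `N X = κ · Y ^ m` and the order of `X` along `Wc` is divisible by `m`,
then `X` is an `m`-th power along `Wc`. -/
theorem r36_root_insep_coprime (ι : E₁ →+* E) (N : E →*₀ E₁)
    (Wr : ValuationSubring E₁) (Wc : ValuationSubring E) (hcomap : Wc.comap ι = Wr)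
    {q : ℕ}
    (hNVi : ∀ f : E, Wc.valuation f = 1 → Wc.valuation (ι (N f) - f ^ q) < 1)
    {π₁ : E₁} (hπ0 : π₁ ≠ 0) (hπ : Wr.valuation π₁ < 1)
    (hdisc : ∀ g : E₁, g ≠ 0 → ∃ n : ℤ, Wr.valuation g = Wr.valuation π₁ ^ n)
    (πE : E) (hπE0 : πE ≠ 0) (hNπ : N πE = π₁ ^ q)
    {m : ℕ} (hmq : Nat.Coprime m q) (κ e : E₁) (nκ : ℤ) (he : Wr.valuation e = 1)
    (hκ : Wr.valuation (κ * (π₁ ^ nκ * e ^ m)⁻¹ - 1) < 1)
    (X : E) (Y : E₁) (hY : Y ≠ 0) (hNX : N X = κ * Y ^ m)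
    (n : ℤ) (hX : Wc.valuation X = Wc.valuation πE ^ (m * n)) :
    ∃ lam : E, lam ≠ 0 ∧ Wc.valuation (X / lam ^ m - 1) < 1 := by
  have hvπ : Wc.valuation πE ≠ 0 := (Valuation.ne_zero_iff _).2 hπE0
  set P : E := πE ^ n with hP
  have hP0 : P ≠ 0 := zpow_ne_zero _ hπE0
  set f : E := X / P ^ m with hf
  have hf1 : Wc.valuation f = 1 := by
    rw [hf, map_div₀, hX, map_pow, hP, map_zpow₀, ← zpow_natCast (Wc.valuation πE ^ n) m,
      ← zpow_mul, mul_comm n (m : ℤ)]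
    exact div_self (zpow_ne_zero _ hvπ)
  set Y' : E₁ := Y / (π₁ ^ q) ^ n with hY'
  have hY'0 : Y' ≠ 0 := div_ne_zero hY (zpow_ne_zero _ (pow_ne_zero _ hπ0))
  have hNf : N f = κ * Y' ^ m := by
    rw [hf, map_div₀, map_pow, hP, map_zpow₀, hNπ, hNX, hY', div_pow, mul_div_assoc]
  have h1 := hNVi f hf1
  have hfq : Wc.valuation (f ^ q) = 1 := by rw [map_pow, hf1, one_pow]
  have hιN : Wc.valuation (ι (N f)) = 1 := r36_val_eq_one_of_sub_lt Wc hfq h1
  have hN1 : Wr.valuation (N f) = 1 := (r36_comap_val_eq_one_iff Wc ι hcomap _).1 hιN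
  rw [hNf] at hN1
  obtain ⟨H', hH'1, hH'⟩ := r36_exists_pow_cong Wr hπ0 hπ hdisc κ e nκ he hκ Y' hY'0 hN1
  have h2 : Wc.valuation (ι (N f) - ι H' ^ m) < 1 := by
    rw [← map_pow, ← map_sub, r36_comap_val_lt_one_iff Wc ι hcomap, hNf]
    exact hH'
  have hιH' : Wc.valuation (ι H') = 1 := (r36_comap_val_eq_one_iff Wc ι hcomap _).2 hH'1
  have hc1 : Wc.valuation (ι H' ^ m) = 1 := by rw [map_pow, hιH', one_pow]
  -- `f ^ q ≡ (ι H') ^ m`
  have h3 : Wc.valuation (f ^ q - ι H' ^ m) < 1 := by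
    have h5 : Wc.valuation (f ^ q - ι (N f)) < 1 := by rw [r36_val_sub_comm]; exact h1
    exact r36_val_sub_lt_trans Wc h5 h2
  -- Bézout
  have hbez : (1 : ℤ) = (m : ℤ) * Nat.gcdA m q + (q : ℤ) * Nat.gcdB m q := by
    have := Nat.gcd_eq_gcd_ab m q
    rw [hmq] at this
    exact_mod_cast this
  set a : ℤ := Nat.gcdA m q with ha
  set b : ℤ := Nat.gcdB m q with hb
  have hf0 : f ≠ 0 := fun h0 => by rw [h0, map_zero] at hf1; exact zero_ne_one hf1
  have hH0 : ι H' ≠ 0 := fun h0 => by rw [h0, map_zero] at hιH'; exact zero_ne_one hιH'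
  set z : E := ι H' ^ b * f ^ a with hz
  have hz1 : Wc.valuation z = 1 := by
    rw [hz, map_mul, map_zpow₀, map_zpow₀, hιH', hf1, one_zpow, one_zpow, mul_one]
  have hz0 : z ≠ 0 := fun h0 => by rw [h0, map_zero] at hz1; exact zero_ne_one hz1
  have hzm : Wc.valuation (z ^ m) = 1 := by rw [map_pow, hz1, one_pow]
  have e1 : f = (f ^ q) ^ b * (f ^ a) ^ m := by
    rw [← zpow_natCast f q, ← zpow_mul, ← zpow_natCast (f ^ a) m, ← zpow_mul, ← zpow_add₀ hf0]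
    have : (q : ℤ) * b + a * (m : ℤ) = 1 := by rw [hbez]; ring
    rw [this, zpow_one]
  have e2 : z ^ m = (ι H' ^ m) ^ b * (f ^ a) ^ m := by
    rw [hz, mul_pow, ← zpow_natCast (ι H' ^ b) m, ← zpow_mul, ← zpow_natCast (ι H') m,
      ← zpow_mul, mul_comm b (m : ℤ)]
  have h6 : Wc.valuation (f - z ^ m) < 1 := by
    have h7 := r36c_val_zpow_sub_zpow_lt Wc hfq hc1 h3 b
    have hfam : Wc.valuation ((f ^ a) ^ m) ≤ 1 := by
      rw [map_pow, map_zpow₀, hf1, one_zpow, one_pow]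
    have h8 := r36_val_mul_sub_mul_lt Wc hfam h7
    rw [← e2] at h8
    rw [e1]
    convert h8 using 3
  refine ⟨z * P, mul_ne_zero hz0 hP0, ?_⟩
  have e3 : X / (z * P) ^ m = f / z ^ m := by
    rw [hf, mul_pow, div_div, mul_comm (P ^ m)]
  rw [e3]
  exact r36_val_div_sub_one_lt Wc hzm h6

end Roots

section Main

variable {K₀ E₁ E : Type*} [Field K₀] [Field E₁] [Field E] [Algebra K₀ E₁] [Algebra K₀ E]

set_option maxHeartbeats 1600000 in
/-- **[ROOTS36], `m` prime to `q`: the per-sheet roots without `q`-th root extraction.**  Three sheets `W20`, `W11`, `W02` of `E` over the two sheets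
`W10`, `W01` of `E₁` along the two degeneracy maps `ιA` (fibres `{W20, W11} → W10`, `W02 → W01`) and
`ιB` (fibres `W20 → W10`, `{W11, W02} → W01`).  If both norms of `G` are constants times `m`-th
powers and the order of `G` along `W20` is divisible by `m`, then `G ^ (q² - 1)` is an `m`-th power
along each of the three sheets. -/
theorem roots36_coprime (ιA ιB : E₁ →+* E)
    (NA NB : E →*₀ E₁) (π : K₀) (hπ0 : π ≠ 0) {q : ℕ} (hq : q.Prime) {m : ℕ} (hm : m ≠ 0)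
    (hmq : Nat.Coprime m q)
    (W10 W01 : ValuationSubring E₁) (W20 W11 W02 : ValuationSubring E)
    -- the fibres
    (h20A : W20.comap ιA = W10) (h11A : W11.comap ιA = W10) (h02A : W02.comap ιA = W01)
    (h20B : W20.comap ιB = W10)
    -- uniformizers
    (hπ10 : W10.valuation (algebraMap K₀ E₁ π) < 1) (hπ01 : W01.valuation (algebraMap K₀ E₁ π) < 1)
    (u : E) (hu0 : u ≠ 0) (hu20 : W20.valuation u = 1)
    (hπ11 : W11.valuation (algebraMap K₀ E π) = W11.valuation u ^ (q - 1))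
    -- discreteness
    (hd10 : ∀ g : E₁, g ≠ 0 → ∃ n : ℤ, W10.valuation g = W10.valuation (algebraMap K₀ E₁ π) ^ n)
    (hd01 : ∀ g : E₁, g ≠ 0 → ∃ n : ℤ, W01.valuation g = W01.valuation (algebraMap K₀ E₁ π) ^ n)
    (hd11 : ∀ g : E, g ≠ 0 → ∃ n : ℤ, W11.valuation g = W11.valuation u ^ n)
    (hd02 : ∀ g : E, g ≠ 0 → ∃ n : ℤ, W02.valuation g = W02.valuation (algebraMap K₀ E π) ^ n)
    -- orders of norms
    (hTA10 : ∀ (g : E) (n20 n11 : ℤ), W20.valuation g = W20.valuation (algebraMap K₀ E π) ^ n20 →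
      W11.valuation g = W11.valuation u ^ n11 →
      W10.valuation (NA g) = W10.valuation (algebraMap K₀ E₁ π) ^ (n20 + n11))
    (hTA01 : ∀ (g : E) (n02 : ℤ), W02.valuation g = W02.valuation (algebraMap K₀ E π) ^ n02 →
      W01.valuation (NA g) = W01.valuation (algebraMap K₀ E₁ π) ^ ((q : ℤ) * n02))
    (hTB10 : ∀ (g : E) (n20 : ℤ), W20.valuation g = W20.valuation (algebraMap K₀ E π) ^ n20 →
      W10.valuation (NB g) = W10.valuation (algebraMap K₀ E₁ π) ^ ((q : ℤ) * n20))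
    (hTB01 : ∀ (g : E) (n11 n02 : ℤ), W11.valuation g = W11.valuation u ^ n11 →
      W02.valuation g = W02.valuation (algebraMap K₀ E π) ^ n02 →
      W01.valuation (NB g) = W01.valuation (algebraMap K₀ E₁ π) ^ (n11 + n02))
    -- residues of norms
    (hNVrA : ∀ (f : E) (a b : E₁), W20.valuation f = 1 → W11.valuation f = 1 →
      W20.valuation (f - ιA a) < 1 → W11.valuation (f - ιA b) < 1 →
      W10.valuation (NA f - a * b ^ (q - 1)) < 1)
    (hNViA : ∀ f : E, W02.valuation f = 1 → W02.valuation (ιA (NA f) - f ^ q) < 1)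
    (hNViB : ∀ f : E, W20.valuation f = 1 → W20.valuation (ιB (NB f) - f ^ q) < 1)
    -- residue fields
    (hres20 : ∀ z ∈ W20, ∃ c : E₁, W20.valuation (z - ιA c) < 1)
    (hres11 : ∀ z ∈ W11, ∃ c : E₁, W11.valuation (z - ιA c) < 1)
    -- constants
    (hconst : ∀ a : K₀, a ≠ 0 → ∃ (n : ℤ) (e : K₀),
      W10.valuation (algebraMap K₀ E₁ e) = 1 ∧ W01.valuation (algebraMap K₀ E₁ e) = 1 ∧
      W10.valuation (algebraMap K₀ E₁ (a * (π ^ n * e ^ m)⁻¹) - 1) < 1 ∧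
      W01.valuation (algebraMap K₀ E₁ (a * (π ^ n * e ^ m)⁻¹) - 1) < 1)
    (hNAπ : NA (algebraMap K₀ E π) = (algebraMap K₀ E₁ π) ^ q)
    (hNBπ : NB (algebraMap K₀ E π) = (algebraMap K₀ E₁ π) ^ q)
    -- the function
    (G : E) (hG : G ≠ 0) (a₁ a₂ : K₀) (ha₁ : a₁ ≠ 0) (ha₂ : a₂ ≠ 0) (H₁ H₂ : E₁)
    (hH₁ : H₁ ≠ 0) (hH₂ : H₂ ≠ 0)
    (hNAG : NA G = algebraMap K₀ E₁ a₁ * H₁ ^ m) (hNBG : NB G = algebraMap K₀ E₁ a₂ * H₂ ^ m)
    (n₀ : ℤ) (hG20 : W20.valuation G = W20.valuation (algebraMap K₀ E π) ^ ((m : ℤ) * n₀)) :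
    ∃ lam20 lam11 lam02 : E, lam20 ≠ 0 ∧ lam11 ≠ 0 ∧ lam02 ≠ 0 ∧
      W20.valuation (G ^ (q ^ 2 - 1) / lam20 ^ m - 1) < 1 ∧
      W11.valuation (G ^ (q ^ 2 - 1) / lam11 ^ m - 1) < 1 ∧
      W02.valuation (G ^ (q ^ 2 - 1) / lam02 ^ m - 1) < 1 := by
  set π₁ : E₁ := algebraMap K₀ E₁ π with hπ₁
  set πE : E := algebraMap K₀ E π with hπE
  have hπ₁0 : π₁ ≠ 0 := (map_ne_zero _).2 hπ0
  have hπE0 : πE ≠ 0 := (map_ne_zero _).2 hπ0
  -- the orders of `G`
  obtain ⟨b, hb⟩ := hd11 G hG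
  obtain ⟨c, hc⟩ := hd02 G hG
  -- the orders of the constants and of `H₁`, `H₂`
  obtain ⟨v₁, e₁, he₁10, he₁01, hκ₁10, hκ₁01⟩ := hconst a₁ ha₁
  obtain ⟨v₂, e₂, he₂10, he₂01, hκ₂10, hκ₂01⟩ := hconst a₂ ha₂
  have hva₁10 := r36_val_const W10 hπ0 he₁10 hκ₁10
  have hva₁01 := r36_val_const W01 hπ0 he₁01 hκ₁01
  have hva₂10 := r36_val_const W10 hπ0 he₂10 hκ₂10
  have hva₂01 := r36_val_const W01 hπ0 he₂01 hκ₂01
  obtain ⟨h10, hh10⟩ := hd10 H₁ hH₁
  obtain ⟨h01, hh01⟩ := hd01 H₁ hH₁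
  obtain ⟨k10, hk10⟩ := hd10 H₂ hH₂
  obtain ⟨k01, hk01⟩ := hd01 H₂ hH₂
  have hv10 : W10.valuation π₁ ≠ 0 := (Valuation.ne_zero_iff _).2 hπ₁0
  have hv01 : W01.valuation π₁ ≠ 0 := (Valuation.ne_zero_iff _).2 hπ₁0
  -- the four order equations
  have eq1 : (m : ℤ) * n₀ + b = v₁ + h10 * m := by
    apply r36_zpow_inj W10 hπ₁0 hπ10
    rw [← hTA10 G _ _ hG20 hb, hNAG, map_mul, map_pow, hva₁10, hh10, ← zpow_natCast, ← zpow_mul,
      ← zpow_add₀ hv10]
  have eq2 : (q : ℤ) * c = v₁ + h01 * m := by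
    apply r36_zpow_inj W01 hπ₁0 hπ01
    rw [← hTA01 G _ hc, hNAG, map_mul, map_pow, hva₁01, hh01, ← zpow_natCast, ← zpow_mul,
      ← zpow_add₀ hv01]
  have eq3 : (q : ℤ) * ((m : ℤ) * n₀) = v₂ + k10 * m := by
    apply r36_zpow_inj W10 hπ₁0 hπ10
    rw [← hTB10 G _ hG20, hNBG, map_mul, map_pow, hva₂10, hk10, ← zpow_natCast, ← zpow_mul,
      ← zpow_add₀ hv10]
  have eq4 : b + c = v₂ + k01 * m := by
    apply r36_zpow_inj W01 hπ₁0 hπ01
    rw [← hTB01 G _ _ hb hc, hNBG, map_mul, map_pow, hva₂01, hk01, ← zpow_natCast, ← zpow_mul,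
      ← zpow_add₀ hv01]
  -- the orders of `X = G ^ (q + 1)` are divisible by `m`
  set c₁ : ℤ := (q : ℤ) * n₀ + k01 - k10 + n₀ - h10 + h01 with hc₁
  set b₁ : ℤ := (q : ℤ) * ((q : ℤ) * n₀ + k01 - k10) + (-n₀ + h10 - h01) with hb₁
  have hcm : ((q : ℤ) + 1) * c = (m : ℤ) * c₁ := by
    rw [hc₁]; linear_combination eq4 - eq1 + eq2 - eq3
  have hbm : ((q : ℤ) + 1) * b = (m : ℤ) * b₁ := by
    rw [hb₁]; linear_combination (q : ℤ) * eq4 - (q : ℤ) * eq3 + eq1 - eq2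
  set X : E := G ^ (q + 1) with hX
  have hX20 : W20.valuation X = W20.valuation πE ^ ((m : ℤ) * (n₀ * ((q : ℤ) + 1))) := by
    rw [hX, map_pow, hG20, ← zpow_natCast, ← zpow_mul]
    congr 1
    push_cast
    ring
  have hX02 : W02.valuation X = W02.valuation πE ^ ((m : ℤ) * c₁) := by
    rw [hX, map_pow, hc, ← zpow_natCast, ← zpow_mul, ← hcm]
    congr 1
    push_cast
    ring
  have hX11 : W11.valuation X = W11.valuation u ^ ((m : ℤ) * b₁) := by
    rw [hX, map_pow, hb, ← zpow_natCast, ← zpow_mul, ← hbm]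
    congr 1
    push_cast
    ring
  -- the norms of `X`
  have hNAX : NA X = algebraMap K₀ E₁ (a₁ ^ (q + 1)) * (H₁ ^ (q + 1)) ^ m := by
    rw [hX, map_pow, hNAG, mul_pow, map_pow, ← pow_mul, ← pow_mul, mul_comm m]
  have hNBX : NB X = algebraMap K₀ E₁ (a₂ ^ (q + 1)) * (H₂ ^ (q + 1)) ^ m := by
    rw [hX, map_pow, hNBG, mul_pow, map_pow, ← pow_mul, ← pow_mul, mul_comm m]
  obtain ⟨w₁, f₁, hf₁10, hf₁01, hw₁10, hw₁01⟩ := hconst (a₁ ^ (q + 1)) (pow_ne_zero _ ha₁)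
  obtain ⟨w₂, f₂, hf₂10, hf₂01, hw₂10, hw₂01⟩ := hconst (a₂ ^ (q + 1)) (pow_ne_zero _ ha₂)
  -- the root along `W02`
  obtain ⟨l02, hl020, hl02⟩ := r36_root_insep_coprime ιA NA W01 W02 h02A hNViA hπ₁0 hπ01
    hd01 πE hπE0 hNAπ hmq _ _ w₁ hf₁01 (r36_const_form W01 hw₁01) X (H₁ ^ (q + 1))
    (pow_ne_zero _ hH₁) hNAX c₁ hX02
  -- the root along `W20`
  obtain ⟨l20, hl200, hl20⟩ := r36_root_insep_coprime ιB NB W10 W20 h20B hNViB hπ₁0 hπ10
    hd10 πE hπE0 hNBπ hmq _ _ w₂ hf₂10 (r36_const_form W10 hw₂10) X (H₂ ^ (q + 1))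
    (pow_ne_zero _ hH₂) hNBX (n₀ * ((q : ℤ) + 1)) hX20
  -- the root along `W11`
  set P : E := πE ^ (n₀ * ((q : ℤ) + 1)) * u ^ (b₁ - ((q : ℤ) - 1) * (n₀ * ((q : ℤ) + 1))) with hP
  have hP0 : P ≠ 0 := mul_ne_zero (zpow_ne_zero _ hπE0) (zpow_ne_zero _ hu0)
  have hPa : W20.valuation X = W20.valuation (P ^ m) := by
    rw [hX20, hP, map_pow, map_mul, map_zpow₀, map_zpow₀, hu20, one_zpow, mul_one,
      ← zpow_natCast (W20.valuation πE ^ (n₀ * ((q : ℤ) + 1))) m, ← zpow_mul, mul_comm (m : ℤ)]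
  have hq1 : ((q - 1 : ℕ) : ℤ) = (q : ℤ) - 1 := by
    rw [Nat.cast_sub hq.one_le]; simp
  have hPb : W11.valuation X = W11.valuation (P ^ m) := by
    have hvu : W11.valuation u ≠ 0 := (Valuation.ne_zero_iff _).2 hu0
    rw [hX11, hP, map_pow, map_mul, map_zpow₀, map_zpow₀, hπ11, ← zpow_natCast (W11.valuation u),
      ← zpow_mul, ← zpow_add₀ hvu, ← zpow_natCast _ m, ← zpow_mul, hq1]
    congr 1
    ring
  obtain ⟨l11, hl110, hl11⟩ := r36_root_split ιA NA W10 W20 W11 h20A h11A hNVrA hres20 hres11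
    hπ₁0 hπ10 hd10 hm _ _ w₁ hf₁10 (r36_const_form W10 hw₁10) X (H₁ ^ (q + 1))
    (pow_ne_zero _ hH₁) hNAX P hP0 hPa hPb l20 hl200 hl20
  -- conclusion
  have hexp : G ^ (q ^ 2 - 1) = X ^ (q - 1) := by
    rw [hX, ← pow_mul]
    congr 1
    have h1 : 1 ≤ q := hq.one_le
    obtain ⟨t, rfl⟩ : ∃ t, q = t + 1 := ⟨q - 1, by omega⟩
    simp only [Nat.add_sub_cancel]
    have : (t + 1) ^ 2 = (t + 1 + 1) * t + 1 := by ring
    rw [this, Nat.add_sub_cancel]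
  refine ⟨l20 ^ (q - 1), l11, l02 ^ (q - 1), pow_ne_zero _ hl200, hl110, pow_ne_zero _ hl020,
    ?_, ?_, ?_⟩
  · rw [hexp]; exact r36_root_pow W20 hl20 (q - 1)
  · rw [hexp]; exact hl11
  · rw [hexp]; exact r36_root_pow W02 hl02 (q - 1)

end Main

end Fermat.Agent.S36
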