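/-
S36 [NODENORM] — helper5 — part 5: **the algebra of the two toric relations.**

* `toric_alg` : in a commutative ring, from `eAr · x · y ^ k = eAi · z ^ (k+1)` and
  `eBr · z · y ^ k = eBi · x ^ (k+1)` (`y`, `z`, `eAi` units):
  `(eAr eBi) ^ k · x ^ (k (k+2)) = (eAi eBr) ^ k · z ^ (k (k+2))` and
  `eAr ^ (k+1) · eBr · y ^ (k (k+2)) = eBi · eAi ^ (k+1) · z ^ (k (k+2))`;
* `locMaxIdeal` : the maximal ideal of the local ring `locRing B 𝔫` as an ideal;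
* `toric_cross` : the same modulo the maximal ideal of a local ring `locRing B 𝔫`, normalised by
  roots of unity of the base ring.
-/
import Mathlib
import Fermat.Agent.SS.EXPORT_helper4_Loc

set_option autoImplicit false
set_option linter.unusedSectionVars false
set_option linter.style.haveILetI false

namespace Fermat.Agent.S36

open Fermat.Agent.SS

section Alg

/-- **the algebra of the two toric relations.** -/
theorem toric_alg {Q : Type*} [CommRing Q] {k : ℕ} {x y z eAr eAi eBr eBi : Q}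
    (hy : IsUnit y) (hz : IsUnit z) (heAi : IsUnit eAi)
    (hA : eAr * x * y ^ k = eAi * z ^ (k + 1))
    (hB : eBr * z * y ^ k = eBi * x ^ (k + 1)) :
    (eAr * eBi) ^ k * x ^ (k * (k + 2)) = (eAi * eBr) ^ k * z ^ (k * (k + 2)) ∧
    eAr ^ (k + 1) * eBr * y ^ (k * (k + 2)) = eBi * eAi ^ (k + 1) * z ^ (k * (k + 2)) := by
  have hI : eAr * eBi * x ^ (k + 2) = eAi * eBr * z ^ (k + 2) := by
    refine (hy.pow k).mul_left_cancel ?_
    calc y ^ k * (eAr * eBi * x ^ (k + 2))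
        = (eAr * x * y ^ k) * (eBi * x ^ (k + 1)) := by ring
      _ = (eAi * z ^ (k + 1)) * (eBr * z * y ^ k) := by rw [hA, hB]
      _ = y ^ k * (eAi * eBr * z ^ (k + 2)) := by ring
  constructor
  · calc (eAr * eBi) ^ k * x ^ (k * (k + 2))
        = (eAr * eBi * x ^ (k + 2)) ^ k := by ring
      _ = (eAi * eBr * z ^ (k + 2)) ^ k := by rw [hI]
      _ = (eAi * eBr) ^ k * z ^ (k * (k + 2)) := by ring
  · refine (heAi.mul (hz.pow (k + 2))).mul_left_cancel ?_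
    calc eAi * z ^ (k + 2) * (eAr ^ (k + 1) * eBr * y ^ (k * (k + 2)))
        = eAr ^ (k + 1) * (eAi * eBr * z ^ (k + 2)) * y ^ (k * (k + 2)) := by ring
      _ = eAr ^ (k + 1) * (eAr * eBi * x ^ (k + 2)) * y ^ (k * (k + 2)) := by rw [hI]
      _ = eBi * (eAr * x * y ^ k) ^ (k + 2) := by ring
      _ = eBi * (eAi * z ^ (k + 1)) ^ (k + 2) := by rw [hA]
      _ = eAi * z ^ (k + 2) * (eBi * eAi ^ (k + 1) * z ^ (k * (k + 2))) := by ring

end Alg

section Quot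

variable {R : Type*} [CommRing R] {E : Type*} [Field E] [Algebra R E]

/-- the maximal ideal of the local ring of `B` at `𝔫`, as an ideal. -/
def locMaxIdeal (B : Subalgebra R E) (𝔫 : Ideal ↥B) [h𝔫 : 𝔫.IsPrime] : Ideal ↥(locRing B 𝔫) where
  carrier := {x | (x : E) ∈ locMax B 𝔫}
  add_mem' := fun ha hb => add_mem_locMax ha hb
  zero_mem' := zero_mem_locMax
  smul_mem' := fun c _ hx => mul_mem_locMax c.2 hx

variable {B : Subalgebra R E} {𝔫 : Ideal ↥B} [h𝔫 : 𝔫.IsPrime]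

theorem mem_locMaxIdeal_iff (x : ↥(locRing B 𝔫)) :
    x ∈ locMaxIdeal B 𝔫 ↔ (x : E) ∈ locMax B 𝔫 := Iff.rfl

/-- a unit of the local ring is a unit modulo the maximal ideal. -/
theorem isUnit_mk_locMaxIdeal {w : E} (hw : w ∈ locRing B 𝔫) (hw' : w ∉ locMax B 𝔫) :
    IsUnit (Ideal.Quotient.mk (locMaxIdeal B 𝔫) ⟨w, hw⟩) := by
  have hw0 : w ≠ 0 := fun h0 => hw' (h0 ▸ zero_mem_locMax)
  refine IsUnit.of_mul_eq_one (Ideal.Quotient.mk (locMaxIdeal B 𝔫) ⟨w⁻¹, inv_mem_locRing hw hw'⟩) ?_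
  rw [← map_mul, ← map_one (Ideal.Quotient.mk (locMaxIdeal B 𝔫))]
  congr 1
  exact Subtype.ext (mul_inv_cancel₀ hw0)

/-- **the two toric relations at a point, solved.**  `w20`, `w11`, `w02` units of the local ring at
`𝔫`; from `εAr · w20 · w11 ^ k ≡ εAi · w02 ^ (k+1)` and `εBr · w02 · w11 ^ k ≡ εBi · w20 ^ (k+1)`
modulo `𝔫` (the `ε` roots of unity of `R` of order dividing `m`):
`ζ20 · w20 ^ c ≡ w02 ^ c` and `ζ11 · w11 ^ c ≡ w02 ^ c` with `c = k (k+2)` and explicit roots of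
unity `ζ20`, `ζ11`. -/
theorem toric_cross {m : ℕ} (hm : 0 < m) {k : ℕ} {εAr εAi εBr εBi : R}
    (hεAi : εAi ^ m = 1) (hεBr : εBr ^ m = 1) (hεBi : εBi ^ m = 1)
    {w20 w11 w02 : E} (h20 : w20 ∈ locRing B 𝔫) (h11 : w11 ∈ locRing B 𝔫)
    (h02 : w02 ∈ locRing B 𝔫) (h11' : w11 ∉ locMax B 𝔫) (h02' : w02 ∉ locMax B 𝔫)
    (hA : algebraMap R E εAr * w20 * w11 ^ k - algebraMap R E εAi * w02 ^ (k + 1) ∈ locMax B 𝔫)
    (hB : algebraMap R E εBr * w02 * w11 ^ k - algebraMap R E εBi * w20 ^ (k + 1) ∈ locMax B 𝔫) :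
    algebraMap R E (((εAi * εBr) ^ k) ^ (m - 1) * (εAr * εBi) ^ k) * w20 ^ (k * (k + 2)) -
        w02 ^ (k * (k + 2)) ∈ locMax B 𝔫 ∧
    algebraMap R E ((εBi * εAi ^ (k + 1)) ^ (m - 1) * (εAr ^ (k + 1) * εBr)) *
        w11 ^ (k * (k + 2)) - w02 ^ (k * (k + 2)) ∈ locMax B 𝔫 := by
  set φ := Ideal.Quotient.mk (locMaxIdeal B 𝔫) with hφ
  set O := locRing B 𝔫 with hO
  let c : R → ↥O := fun r => algebraMap R ↥O r
  have hc : ∀ r : R, ((c r : ↥O) : E) = algebraMap R E r := fun r => rfl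
  have hy : IsUnit (φ ⟨w11, h11⟩) := isUnit_mk_locMaxIdeal h11 h11'
  have hz : IsUnit (φ ⟨w02, h02⟩) := isUnit_mk_locMaxIdeal h02 h02'
  have hunit : ∀ ε : R, ε ^ m = 1 → IsUnit (φ (c ε)) := by
    intro ε hε
    refine IsUnit.of_mul_eq_one (φ (c (ε ^ (m - 1)))) ?_
    rw [← map_mul, ← map_one φ]
    congr 1
    show algebraMap R ↥O ε * algebraMap R ↥O (ε ^ (m - 1)) = 1
    rw [← map_mul, ← pow_succ', Nat.sub_add_cancel hm, hε, map_one]
  have hA' : φ (c εAr) * φ ⟨w20, h20⟩ * φ ⟨w11, h11⟩ ^ k =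
      φ (c εAi) * φ ⟨w02, h02⟩ ^ (k + 1) := by
    rw [← map_pow, ← map_pow, ← map_mul, ← map_mul, ← map_mul]
    exact (Ideal.Quotient.eq).mpr hA
  have hB' : φ (c εBr) * φ ⟨w02, h02⟩ * φ ⟨w11, h11⟩ ^ k =
      φ (c εBi) * φ ⟨w20, h20⟩ ^ (k + 1) := by
    rw [← map_pow, ← map_pow, ← map_mul, ← map_mul, ← map_mul]
    exact (Ideal.Quotient.eq).mpr hB
  obtain ⟨r1, r2⟩ := toric_alg hy hz (hunit εAi hεAi) hA' hB'
  -- normalisation by the inverse roots of unity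
  have hinv : ∀ ε : R, ε ^ m = 1 → φ (c (ε ^ (m - 1))) * φ (c ε) = 1 := by
    intro ε hε
    rw [← map_mul, ← map_one φ]
    congr 1
    show algebraMap R ↥O (ε ^ (m - 1)) * algebraMap R ↥O ε = 1
    rw [← map_mul, ← pow_succ, Nat.sub_add_cancel hm, hε, map_one]
  have hpow : ∀ (ε : R) (n : ℕ), ε ^ m = 1 → (ε ^ n) ^ m = 1 := by
    intro ε n hε
    rw [← pow_mul, mul_comm, pow_mul, hε, one_pow]
  have hε1 : ((εAi * εBr) ^ k) ^ m = 1 := hpow _ k (by rw [mul_pow, hεAi, hεBr, one_mul])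
  have hε2 : (εBi * εAi ^ (k + 1)) ^ m = 1 := by
    rw [mul_pow, hεBi, hpow _ (k + 1) hεAi, one_mul]
  constructor
  · have h1 : φ (c (((εAi * εBr) ^ k) ^ (m - 1) * (εAr * εBi) ^ k)) *
        φ ⟨w20, h20⟩ ^ (k * (k + 2)) = φ ⟨w02, h02⟩ ^ (k * (k + 2)) := by
      have e1 : φ (c (((εAi * εBr) ^ k) ^ (m - 1) * (εAr * εBi) ^ k)) =
          φ (c (((εAi * εBr) ^ k) ^ (m - 1))) * (φ (c εAr) * φ (c εBi)) ^ k := by
        rw [← map_mul, ← map_pow, ← map_mul]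
        congr 1
        show algebraMap R ↥O _ = algebraMap R ↥O _ * (algebraMap R ↥O _ * algebraMap R ↥O _) ^ k
        rw [← map_mul, ← map_pow, ← map_mul]
      have e2 : φ (c ((εAi * εBr) ^ k)) = (φ (c εAi) * φ (c εBr)) ^ k := by
        rw [← map_mul, ← map_pow]
        congr 1
        show algebraMap R ↥O _ = (algebraMap R ↥O _ * algebraMap R ↥O _) ^ k
        rw [← map_mul, ← map_pow]
      rw [e1, mul_assoc, r1, ← e2, ← mul_assoc, hinv _ hε1, one_mul]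
    rw [← map_pow, ← map_pow, ← map_mul] at h1
    exact (Ideal.Quotient.eq).mp h1
  · have h1 : φ (c ((εBi * εAi ^ (k + 1)) ^ (m - 1) * (εAr ^ (k + 1) * εBr))) *
        φ ⟨w11, h11⟩ ^ (k * (k + 2)) = φ ⟨w02, h02⟩ ^ (k * (k + 2)) := by
      have e1 : φ (c ((εBi * εAi ^ (k + 1)) ^ (m - 1) * (εAr ^ (k + 1) * εBr))) =
          φ (c ((εBi * εAi ^ (k + 1)) ^ (m - 1))) * (φ (c εAr) ^ (k + 1) * φ (c εBr)) := by
        rw [← map_pow, ← map_mul, ← map_mul]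
        congr 1
        show algebraMap R ↥O _ = algebraMap R ↥O _ * (algebraMap R ↥O _ ^ (k + 1) * algebraMap R ↥O _)
        rw [← map_pow, ← map_mul, ← map_mul]
      have e2 : φ (c (εBi * εAi ^ (k + 1))) = φ (c εBi) * φ (c εAi) ^ (k + 1) := by
        rw [← map_pow, ← map_mul]
        congr 1
        show algebraMap R ↥O _ = algebraMap R ↥O _ * algebraMap R ↥O _ ^ (k + 1)
        rw [← map_pow, ← map_mul]
      rw [e1, mul_assoc, r2, ← e2, ← mul_assoc, hinv _ hε2, one_mul]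
    rw [← map_pow, ← map_pow, ← map_mul] at h1
    exact (Ideal.Quotient.eq).mp h1

end Quot

end Fermat.Agent.S36
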