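/-
S36 [NODENORM] — helper5 — part 2: **congruences of units along a sheet.**

`UCong V x y` : `x` is a unit of the valuation subring `V` and `x ≡ y` modulo its maximal ideal
(then `y` is a unit too).  This is a congruence on the group of units of `V`: closed under products,
inverses, quotients, powers; compatible with `V.comap ι`.  Roots: if `x ^ m ≡ y ^ m` and the base
ring `R` carries a primitive `m`-th root of unity then `x ≡ ε · y` for an `m`-th root of unity `ε`
of `R`.
-/
import Mathlib
import Fermat.Agent.S36.TORIC36_helper5_Local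

set_option autoImplicit false
set_option linter.unusedSectionVars false
set_option linter.style.haveILetI false

namespace Fermat.Agent.S36

open Fermat.Agent.SS

section UCong

variable {F : Type*} [Field F]

/-- `x` is a unit of `V` congruent to `y` modulo the maximal ideal of `V`. -/
def UCong (V : ValuationSubring F) (x y : F) : Prop :=
  V.valuation x = 1 ∧ V.valuation (x - y) < 1

variable {V : ValuationSubring F} {x y z x' y' : F}

theorem UCong.refl (hx : V.valuation x = 1) : UCong V x x :=
  ⟨hx, by rw [sub_self, map_zero]; exact zero_lt_one⟩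

theorem UCong.val_left (h : UCong V x y) : V.valuation x = 1 := h.1

theorem UCong.val_right (h : UCong V x y) : V.valuation y = 1 := by
  refine valuation_eq_one_of_sub_lt_one V h.1 ?_
  have : y - x = -(x - y) := by ring
  rw [this, Valuation.map_neg]
  exact h.2

theorem UCong.ne_zero_left (h : UCong V x y) : x ≠ 0 := fun h0 => by
  have := h.1
  rw [h0, map_zero] at this
  exact zero_ne_one this

theorem UCong.ne_zero_right (h : UCong V x y) : y ≠ 0 := fun h0 => by
  have := h.val_right
  rw [h0, map_zero] at this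
  exact zero_ne_one this

theorem UCong.symm (h : UCong V x y) : UCong V y x := by
  refine ⟨h.val_right, ?_⟩
  have : y - x = -(x - y) := by ring
  rw [this, Valuation.map_neg]
  exact h.2

theorem UCong.trans (h : UCong V x y) (h' : UCong V y z) : UCong V x z := by
  refine ⟨h.1, ?_⟩
  have : x - z = (x - y) + (y - z) := by ring
  rw [this]
  exact lt_of_le_of_lt (Valuation.map_add _ _ _) (max_lt h.2 h'.2)

theorem UCong.mul (h : UCong V x y) (h' : UCong V x' y') : UCong V (x * x') (y * y') := by
  refine ⟨by rw [map_mul, h.1, h'.1, one_mul], ?_⟩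
  have : x * x' - y * y' = x * (x' - y') + (x - y) * y' := by ring
  rw [this]
  refine lt_of_le_of_lt (Valuation.map_add _ _ _) (max_lt ?_ ?_)
  · rw [map_mul, h.1, one_mul]; exact h'.2
  · rw [map_mul, h'.val_right, mul_one]; exact h.2

theorem UCong.inv (h : UCong V x y) : UCong V x⁻¹ y⁻¹ := by
  refine ⟨by rw [map_inv₀, h.1, inv_one], ?_⟩
  have hx0 := h.ne_zero_left
  have hy0 := h.ne_zero_right
  have : x⁻¹ - y⁻¹ = -(x - y) * (x⁻¹ * y⁻¹) := by
    field_simp
    ring
  rw [this, map_mul, map_mul, map_inv₀, map_inv₀, h.1, h.val_right, inv_one, mul_one, mul_one,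
    Valuation.map_neg]
  exact h.2

theorem UCong.div (h : UCong V x y) (h' : UCong V x' y') : UCong V (x / x') (y / y') := by
  rw [div_eq_mul_inv, div_eq_mul_inv]
  exact h.mul h'.inv

theorem UCong.pow (h : UCong V x y) (n : ℕ) : UCong V (x ^ n) (y ^ n) := by
  induction n with
  | zero => simpa using UCong.refl (V := V) (x := (1 : F)) (map_one _)
  | succ n ih => rw [pow_succ, pow_succ]; exact ih.mul h

theorem UCong.of_sub_lt (hy : V.valuation y = 1) (h : V.valuation (x - y) < 1) : UCong V x y :=
  ⟨valuation_eq_one_of_sub_lt_one V hy h, h⟩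

/-- `x ≡ 1` from `v (x - 1) < 1`. -/
theorem UCong.of_sub_one_lt (h : V.valuation (x - 1) < 1) : UCong V x 1 :=
  UCong.of_sub_lt (map_one _) h

theorem UCong.congr_left (h : UCong V x y) (hx : x = x') : UCong V x' y := hx ▸ h

theorem UCong.congr_right (h : UCong V x y) (hy : y = y') : UCong V x y' := hy ▸ h

/-- a unit valuation from a unit power. -/
theorem valuation_eq_one_of_pow {m : ℕ} (hm : m ≠ 0) (h : V.valuation (x ^ m) = 1) :
    V.valuation x = 1 := by
  rw [map_pow] at h
  exact (pow_eq_one_iff_left hm).mp h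

end UCong

section Comap

variable {E₁ E : Type*} [Field E₁] [Field E]

/-- congruences of units along `W.comap ι = W₁`. -/
theorem ucong_map_iff (ι : E₁ →+* E) {W : ValuationSubring E} {W₁ : ValuationSubring E₁}
    (h : W.comap ι = W₁) (x y : E₁) : UCong W (ι x) (ι y) ↔ UCong W₁ x y := by
  unfold UCong
  rw [← map_sub, comap_valuation_eq_one_iff ι h, comap_valuation_lt_one_iff ι h]

end Comap

section Root

variable {R : Type*} [CommRing R] [IsDomain R] {F : Type*} [Field F] [Algebra R F]

/-- **roots of unity**: if `x ^ m ≡ 1` on `V` and `R` has a primitive `m`-th root of unity, then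
`x ≡ ε` for an `m`-th root of unity `ε` of `R`. -/
theorem exists_root_of_unity_of_pow_ucong_one {V : ValuationSubring F} {m : ℕ} (hm : 0 < m)
    {ζ : R} (hζ : IsPrimitiveRoot ζ m) {x : F} (h : UCong V (x ^ m) 1) :
    ∃ ε : R, ε ^ m = 1 ∧ UCong V x (algebraMap R F ε) := by
  classical
  have hx1 : V.valuation x = 1 := valuation_eq_one_of_pow hm.ne' h.1
  have hprod : x ^ m - 1 = ∏ ε ∈ Polynomial.nthRootsFinset m (1 : R), (x - algebraMap R F ε) := by
    have h1 := congrArg (Polynomial.aeval x) (Polynomial.X_pow_sub_one_eq_prod hm hζ)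
    rw [map_sub, map_pow, Polynomial.aeval_X, map_one, map_prod] at h1
    rw [h1]
    refine Finset.prod_congr rfl fun ε _ => ?_
    rw [map_sub, Polynomial.aeval_X, Polynomial.aeval_C]
  by_contra hcon
  push Not at hcon
  have hall : ∀ ε ∈ Polynomial.nthRootsFinset m (1 : R),
      (1 : ValuationSubring.ValueGroup V) ≤ V.valuation (x - algebraMap R F ε) := by
    intro ε hε
    by_contra hlt
    rw [not_le] at hlt
    exact hcon ε ((Polynomial.mem_nthRootsFinset hm 1).mp hε) ⟨hx1, hlt⟩
  have h2 := h.2
  rw [hprod, map_prod] at h2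
  exact absurd (Finset.one_le_prod' hall) (not_le.mpr h2)

/-- **roots**: if `x ^ m ≡ y ^ m` on `V` then `x ≡ ε · y` for an `m`-th root of unity `ε` of `R`. -/
theorem exists_root_of_unity_of_pow_ucong {V : ValuationSubring F} {m : ℕ} (hm : 0 < m)
    {ζ : R} (hζ : IsPrimitiveRoot ζ m) {x y : F} (h : UCong V (x ^ m) (y ^ m)) :
    ∃ ε : R, ε ^ m = 1 ∧ UCong V x (algebraMap R F ε * y) := by
  have hy1 : V.valuation y = 1 := valuation_eq_one_of_pow hm.ne' h.val_right
  have hy0 : y ≠ 0 := fun h0 => by rw [h0, map_zero] at hy1; exact zero_ne_one hy1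
  have h1 : UCong V ((x / y) ^ m) 1 := by
    have := h.div (UCong.refl (V := V) (x := y ^ m) (by rw [map_pow, hy1, one_pow]))
    rw [div_self (pow_ne_zero _ hy0), ← div_pow] at this
    exact this
  obtain ⟨ε, hε, hε'⟩ := exists_root_of_unity_of_pow_ucong_one hm hζ h1
  refine ⟨ε, hε, ?_⟩
  have := hε'.mul (UCong.refl hy1)
  rwa [div_mul_cancel₀ _ hy0] at this

/-- an `m`-th root of unity of `R` is a unit of every valuation subring. -/
theorem valuation_algebraMap_eq_one_of_pow_eq_one (V : ValuationSubring F) {m : ℕ} (hm : m ≠ 0)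
    {ε : R} (hε : ε ^ m = 1) : V.valuation (algebraMap R F ε) = 1 := by
  refine valuation_eq_one_of_pow hm ?_
  rw [← map_pow, hε, map_one, map_one]

end Root

end Fermat.Agent.S36
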