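/-
S36 [NODENORM] — helper5 — part 3: **the roots of unity of the norm relation are global.**

`ι : E₁ →+* E` one of the two degeneracy embeddings, `N : E →* E₁` the norm along it.  Sheets
`Wa`, `Wb` of `E` over the sheet `Wr` of `E₁` (the split fibre: the norm of a unit `f` is
`≡ a · b ^ k` on `Wr`, `a`, `b` representing `f` on `Wa`, `Wb`), and the sheet `Wc` over `Wi` (the
purely inseparable fibre: `ι (N f) ≡ f ^ l` on `Wc`).  If `N G = a₀ · H ^ m` with `a₀ ≡ 1`, and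
`G ≡ la ^ m, lb ^ m, lc ^ m` on the three sheets, then there are `m`-th roots of unity `εr`, `εi`
of the base ring such that for EVERY `γ` with `G / γ ^ m` a unit of the three sheets
`H / N γ ≡ εr · a · b ^ k` on `Wr` (`a`, `b` representing `la / γ`, `lb / γ`) and
`ι (H / N γ) ≡ εi · (lc / γ) ^ l` on `Wc`.
-/
import Mathlib
import Fermat.Agent.S36.TORIC36_helper5_Cong

set_option autoImplicit false
set_option linter.unusedSectionVars false
set_option linter.style.haveILetI false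

namespace Fermat.Agent.S36

open Fermat.Agent.SS

section RootCong

variable {E : Type*} [Field E]

/-- the quotient of a sheet root by a root up to a unit: its `m`-th power is the unit. -/
theorem root_ucong {W : ValuationSubring E} {m : ℕ} (hm : 0 < m) {G lam γ : E}
    (hlam : W.valuation (G / lam ^ m - 1) < 1) (hγ : γ ≠ 0) (hv : W.valuation (G / γ ^ m) = 1) :
    lam ≠ 0 ∧ W.valuation (lam / γ) = 1 ∧ UCong W ((lam / γ) ^ m) (G / γ ^ m) := by
  have h1 : UCong W (G / lam ^ m) 1 := UCong.of_sub_one_lt hlam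
  have hG : G ≠ 0 := fun h0 => h1.ne_zero_left (by rw [h0, zero_div])
  have hlam0 : lam ≠ 0 := fun h0 => h1.ne_zero_left (by rw [h0, zero_pow hm.ne', div_zero])
  have h2 : UCong W ((G / γ ^ m) / (G / lam ^ m)) ((G / γ ^ m) / 1) := (UCong.refl hv).div h1
  have h3 : (G / γ ^ m) / (G / lam ^ m) = (lam / γ) ^ m := by
    rw [div_pow]
    field_simp
  rw [h3, div_one] at h2
  exact ⟨hlam0, valuation_eq_one_of_pow hm.ne' h2.1, h2⟩

end RootCong

section Sheet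

variable {R : Type*} [CommRing R] [IsDomain R] {E₁ E : Type*} [Field E₁] [Field E]
  [Algebra R E₁] [Algebra R E]
  (ι : E₁ →+* E) (hι : ∀ r : R, ι (algebraMap R E₁ r) = algebraMap R E r)
  (N : E →* E₁)
  {Wr Wi : ValuationSubring E₁} {Wa Wb Wc : ValuationSubring E}
  (hca : Wa.comap ι = Wr) (hcb : Wb.comap ι = Wr) (hcc : Wc.comap ι = Wi)
  {k l : ℕ}
  (hNr : ∀ (f : E) (a b : E₁), Wa.valuation f = 1 → Wb.valuation f = 1 →
    Wa.valuation (f - ι a) < 1 → Wb.valuation (f - ι b) < 1 →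
    Wr.valuation (N f - a * b ^ k) < 1)
  (hNi : ∀ f : E, Wc.valuation f = 1 → Wc.valuation (ι (N f) - f ^ l) < 1)
  {m : ℕ} (hm : 0 < m) {G : E} {H : E₁} {a₀ : R} (hH : H ≠ 0)
  (ha₀r : Wr.valuation (algebraMap R E₁ a₀ - 1) < 1)
  (ha₀i : Wi.valuation (algebraMap R E₁ a₀ - 1) < 1)
  (hNG : N G = algebraMap R E₁ a₀ * H ^ m)
  {la lb lc : E}
  (hGa : Wa.valuation (G / la ^ m - 1) < 1) (hGb : Wb.valuation (G / lb ^ m - 1) < 1)
  (hGc : Wc.valuation (G / lc ^ m - 1) < 1)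

include hι hca hcb hcc hNr hNi hm hH ha₀r ha₀i hNG hGa hGb hGc in
/-- the `m`-th powers of the two congruences, for one `γ`. -/
theorem sheet_step {γ : E} (hγ : γ ≠ 0) (hva : Wa.valuation (G / γ ^ m) = 1)
    (hvb : Wb.valuation (G / γ ^ m) = 1) (hvc : Wc.valuation (G / γ ^ m) = 1) {a b : E₁}
    (ha : Wa.valuation (la / γ - ι a) < 1) (hb : Wb.valuation (lb / γ - ι b) < 1) :
    N γ ≠ 0 ∧ UCong Wr ((H / N γ) ^ m) ((a * b ^ k) ^ m) ∧
      UCong Wc ((ι (H / N γ)) ^ m) (((lc / γ) ^ l) ^ m) := by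
  obtain ⟨-, hra1, hra⟩ := root_ucong hm hGa hγ hva
  obtain ⟨-, hrb1, hrb⟩ := root_ucong hm hGb hγ hvb
  obtain ⟨-, hrc1, hrc⟩ := root_ucong hm hGc hγ hvc
  set v : E := G / γ ^ m with hv
  have hγm : γ ^ m ≠ 0 := pow_ne_zero _ hγ
  -- representatives of `v`
  have hrepa : UCong Wa (la / γ) (ι a) := ⟨hra1, ha⟩
  have hrepb : UCong Wb (lb / γ) (ι b) := ⟨hrb1, hb⟩
  have hva' : UCong Wa v (ι (a ^ m)) := by
    rw [map_pow]; exact hra.symm.trans (hrepa.pow m)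
  have hvb' : UCong Wb v (ι (b ^ m)) := by
    rw [map_pow]; exact hrb.symm.trans (hrepb.pow m)
  have hn := hNr v (a ^ m) (b ^ m) hva hvb hva'.2 hvb'.2
  have ha1 : Wr.valuation a = 1 := (comap_valuation_eq_one_iff ι hca a).mp hrepa.val_right
  have hb1 : Wr.valuation b = 1 := (comap_valuation_eq_one_iff ι hcb b).mp hrepb.val_right
  have hab1 : Wr.valuation (a ^ m * (b ^ m) ^ k) = 1 := by
    simp only [map_mul, map_pow, ha1, hb1, one_pow, one_mul]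
  have hNv : UCong Wr (N v) (a ^ m * (b ^ m) ^ k) := UCong.of_sub_lt hab1 hn
  -- the constant
  have ha₀ : UCong Wr (algebraMap R E₁ a₀) 1 := UCong.of_sub_one_lt ha₀r
  have ha₀' : UCong Wc (ι (algebraMap R E₁ a₀)) 1 := by
    have := (ucong_map_iff ι hcc (algebraMap R E₁ a₀) 1).mpr (UCong.of_sub_one_lt ha₀i)
    rwa [map_one] at this
  have ha₀0 : algebraMap R E₁ a₀ ≠ 0 := ha₀.ne_zero_left
  -- `N v = a₀ · (H / N γ) ^ m`
  have hGv : G = γ ^ m * v := by rw [hv]; field_simp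
  have hNG' : (N γ) ^ m * N v = algebraMap R E₁ a₀ * H ^ m := by
    rw [← hNG, ← map_pow, ← map_mul, ← hGv]
  have hNγ : N γ ≠ 0 := by
    intro h0
    rw [h0, zero_pow hm.ne', zero_mul] at hNG'
    exact mul_ne_zero ha₀0 (pow_ne_zero _ hH) hNG'.symm
  have hNv' : N v = algebraMap R E₁ a₀ * (H / N γ) ^ m := by
    rw [div_pow]
    field_simp
    linear_combination hNG'
  refine ⟨hNγ, ?_, ?_⟩
  · have h1 := hNv.div ha₀
    have h2 : N v / algebraMap R E₁ a₀ = (H / N γ) ^ m := by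
      rw [hNv']; field_simp
    have h3 : a ^ m * (b ^ m) ^ k / 1 = (a * b ^ k) ^ m := by
      rw [div_one]; ring
    rwa [h2, h3] at h1
  · have hi := hNi v hvc
    have hvl : Wc.valuation (v ^ l) = 1 := by rw [map_pow, hvc, one_pow]
    have h1 : UCong Wc (ι (N v)) (v ^ l) := UCong.of_sub_lt hvl hi
    have h2 : UCong Wc (ι (N v)) (((lc / γ) ^ l) ^ m) := by
      have := h1.trans ((hrc.pow l).symm)
      rwa [← pow_mul, mul_comm, pow_mul] at this
    have h3 := h2.div ha₀'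
    have h4 : ι (N v) / ι (algebraMap R E₁ a₀) = (ι (H / N γ)) ^ m := by
      rw [hNv', map_mul, map_pow]
      have : ι (algebraMap R E₁ a₀) ≠ 0 := (_root_.map_ne_zero ι).mpr ha₀0
      field_simp
    rwa [h4, div_one] at h3

include hι hca hcb hcc hNr hNi hm hH ha₀r ha₀i hNG hGa hGb hGc in
/-- **the roots of unity of the norm relation are global.** -/
theorem exists_sheet_roots_of_unity {ζ : R} (hζ : IsPrimitiveRoot ζ m)
    (hresa : ∀ z : E, Wa.valuation z = 1 → ∃ a : E₁, Wa.valuation (z - ι a) < 1)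
    (hresb : ∀ z : E, Wb.valuation z = 1 → ∃ b : E₁, Wb.valuation (z - ι b) < 1) :
    ∃ εr εi : R, εr ^ m = 1 ∧ εi ^ m = 1 ∧
      ∀ γ : E, γ ≠ 0 → Wa.valuation (G / γ ^ m) = 1 → Wb.valuation (G / γ ^ m) = 1 →
        Wc.valuation (G / γ ^ m) = 1 →
        ∀ a b : E₁, Wa.valuation (la / γ - ι a) < 1 → Wb.valuation (lb / γ - ι b) < 1 →
          Wr.valuation (H / N γ - algebraMap R E₁ εr * a * b ^ k) < 1 ∧
          Wc.valuation (ι (H / N γ) - algebraMap R E εi * (lc / γ) ^ l) < 1 := by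
  by_cases hex : ∃ γ₀ : E, γ₀ ≠ 0 ∧ Wa.valuation (G / γ₀ ^ m) = 1 ∧
      Wb.valuation (G / γ₀ ^ m) = 1 ∧ Wc.valuation (G / γ₀ ^ m) = 1
  swap
  · exact ⟨1, 1, one_pow _, one_pow _, fun γ hγ hva hvb hvc =>
      absurd ⟨γ, hγ, hva, hvb, hvc⟩ hex⟩
  obtain ⟨γ₀, hγ₀, hva₀, hvb₀, hvc₀⟩ := hex
  obtain ⟨hla0, hra₀, -⟩ := root_ucong hm hGa hγ₀ hva₀
  obtain ⟨hlb0, hrb₀, -⟩ := root_ucong hm hGb hγ₀ hvb₀
  obtain ⟨hlc0, hrc₀, -⟩ := root_ucong hm hGc hγ₀ hvc₀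
  obtain ⟨a₁, ha₁⟩ := hresa _ hra₀
  obtain ⟨b₁, hb₁⟩ := hresb _ hrb₀
  obtain ⟨hNγ₀, hs1, hs2⟩ := sheet_step ι hι N hca hcb hcc hNr hNi hm hH ha₀r ha₀i hNG hGa hGb hGc
    hγ₀ hva₀ hvb₀ hvc₀ ha₁ hb₁
  obtain ⟨εr, hεr, hεr'⟩ := exists_root_of_unity_of_pow_ucong hm hζ hs1
  obtain ⟨εi, hεi, hεi'⟩ := exists_root_of_unity_of_pow_ucong hm hζ hs2
  refine ⟨εr, εi, hεr, hεi, ?_⟩
  intro γ hγ hva hvb hvc a b ha hb
  obtain ⟨-, hra, -⟩ := root_ucong hm hGa hγ hva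
  obtain ⟨-, hrb, -⟩ := root_ucong hm hGb hγ hvb
  obtain ⟨-, hrc, -⟩ := root_ucong hm hGc hγ hvc
  obtain ⟨hNγ, -, -⟩ := sheet_step ι hι N hca hcb hcc hNr hNi hm hH ha₀r ha₀i hNG hGa hGb hGc
    hγ hva hvb hvc ha hb
  -- the ratio `ρ = γ / γ₀`
  set ρ : E := γ / γ₀ with hρ
  have hρunit : ∀ W : ValuationSubring E, W.valuation (G / γ₀ ^ m) = 1 →
      W.valuation (G / γ ^ m) = 1 → W.valuation ρ = 1 := by
    intro W h0 h1
    refine valuation_eq_one_of_pow hm.ne' ?_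
    have hG0 : G ≠ 0 := fun hG0 => by
      rw [hG0, zero_div, map_zero] at h0; exact zero_ne_one h0
    have : ρ ^ m = (G / γ₀ ^ m) / (G / γ ^ m) := by
      rw [hρ, div_pow]; field_simp
    rw [this, map_div₀, h0, h1, div_one]
  have hρa : Wa.valuation ρ = 1 := hρunit Wa hva₀ hva
  have hρb : Wb.valuation ρ = 1 := hρunit Wb hvb₀ hvb
  have hρc : Wc.valuation ρ = 1 := hρunit Wc hvc₀ hvc
  have hrepa₀ : UCong Wa (la / γ₀) (ι a₁) := ⟨hra₀, ha₁⟩
  have hrepb₀ : UCong Wb (lb / γ₀) (ι b₁) := ⟨hrb₀, hb₁⟩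
  have hrepa : UCong Wa (la / γ) (ι a) := ⟨hra, ha⟩
  have hrepb : UCong Wb (lb / γ) (ι b) := ⟨hrb, hb⟩
  have hρa' : UCong Wa ρ (ι (a₁ / a)) := by
    have := hrepa₀.div hrepa
    have h1 : la / γ₀ / (la / γ) = ρ := by rw [hρ]; field_simp
    rwa [h1, ← map_div₀] at this
  have hρb' : UCong Wb ρ (ι (b₁ / b)) := by
    have := hrepb₀.div hrepb
    have h1 : lb / γ₀ / (lb / γ) = ρ := by rw [hρ]; field_simp
    rwa [h1, ← map_div₀] at this
  have hn := hNr ρ (a₁ / a) (b₁ / b) hρa hρb hρa'.2 hρb'.2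
  have ha1 : Wr.valuation a = 1 := (comap_valuation_eq_one_iff ι hca a).mp hrepa.val_right
  have hb1 : Wr.valuation b = 1 := (comap_valuation_eq_one_iff ι hcb b).mp hrepb.val_right
  have ha₁1 : Wr.valuation a₁ = 1 := (comap_valuation_eq_one_iff ι hca a₁).mp hrepa₀.val_right
  have hb₁1 : Wr.valuation b₁ = 1 := (comap_valuation_eq_one_iff ι hcb b₁).mp hrepb₀.val_right
  have ha0 : a ≠ 0 := fun h0 => by rw [h0, map_zero] at ha1; exact zero_ne_one ha1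
  have hb0 : b ≠ 0 := fun h0 => by rw [h0, map_zero] at hb1; exact zero_ne_one hb1
  have ha₁0 : a₁ ≠ 0 := fun h0 => by rw [h0, map_zero] at ha₁1; exact zero_ne_one ha₁1
  have hb₁0 : b₁ ≠ 0 := fun h0 => by rw [h0, map_zero] at hb₁1; exact zero_ne_one hb₁1
  have hq1 : Wr.valuation (a₁ / a * (b₁ / b) ^ k) = 1 := by
    rw [map_mul, map_pow, map_div₀, map_div₀, ha1, hb1, ha₁1, hb₁1, div_one, one_pow, one_mul]
  have hNρ : UCong Wr (N ρ) (a₁ / a * (b₁ / b) ^ k) := UCong.of_sub_lt hq1 hn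
  have hγρ : γ = γ₀ * ρ := by rw [hρ]; field_simp
  have hNγρ : N γ = N γ₀ * N ρ := by rw [← map_mul, ← hγρ]
  have hNρ0 : N ρ ≠ 0 := hNρ.ne_zero_left
  have h2 : H / N γ₀ / N ρ = H / N γ := by
    rw [hNγρ]; field_simp
  constructor
  · have h1 := hεr'.div hNρ
    have h3 : algebraMap R E₁ εr * (a₁ * b₁ ^ k) / (a₁ / a * (b₁ / b) ^ k) =
        algebraMap R E₁ εr * a * b ^ k := by
      rw [div_pow]; field_simp
    rw [h2, h3] at h1
    exact h1.2
  · have hi := hNi ρ hρc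
    have hρl : Wc.valuation (ρ ^ l) = 1 := by rw [map_pow, hρc, one_pow]
    have h0 : UCong Wc (ι (N ρ)) (ρ ^ l) := UCong.of_sub_lt hρl hi
    have h1 := hεi'.div h0
    have h2' : ι (H / N γ₀) / ι (N ρ) = ι (H / N γ) := by
      rw [← map_div₀, h2]
    have hρ0 : ρ ≠ 0 := fun h0 => by rw [h0, map_zero] at hρc; exact zero_ne_one hρc
    have h3 : algebraMap R E εi * (lc / γ₀) ^ l / ρ ^ l = algebraMap R E εi * (lc / γ) ^ l := by
      have : lc / γ₀ = lc / γ * ρ := by rw [hρ]; field_simp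
      rw [this, mul_pow]
      field_simp
    rw [h2', h3] at h1
    exact h1.2

end Sheet

end Fermat.Agent.S36
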