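/-
S36 [NODENORM] — helper5 — part 4: **the toric relation at a supersingular point.**

At a closed point `𝔫` of the chart `B` of `E` through which the three sheets `Wa`, `Wb`, `Wc` pass,
with image `𝔫₁` in the chart `B₁` of `E₁` along `ι`: for any closed datum `γ`
(`G · d = γ ^ m · c`, `c, d ∉ 𝔫`) and any lifts `wa`, `wb`, `wc` of `la / γ`, `lb / γ`, `lc / γ`
to the local ring at `𝔫`:  `εr · wa · wb ^ k ≡ εi · wc ^ l` modulo `𝔫`, where `εr`, `εi` are the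
global roots of unity of `exists_sheet_roots_of_unity`.
-/
import Mathlib
import Fermat.Agent.S36.TORIC36_helper5_Sheet

set_option autoImplicit false
set_option linter.unusedSectionVars false
set_option linter.style.haveILetI false

namespace Fermat.Agent.S36

open Fermat.Agent.SS

section PowMem

variable {R : Type*} [CommRing R] {E : Type*} [Field E] [Algebra R E]
  {B : Subalgebra R E} {𝔪 : Ideal ↥B}

/-- the local ring of an integrally closed chart at a closed point contains the `m`-th roots of its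
elements. -/
theorem mem_locRing_of_pow_mem [h𝔪 : 𝔪.IsMaximal] (hB : ∀ e : E, IsIntegral ↥B e → e ∈ B)
    {m : ℕ} (hm : m ≠ 0) {y : E} (hy : y ^ m ∈ locRing B 𝔪) : y ∈ locRing B 𝔪 := by
  haveI : 𝔪.IsPrime := h𝔪.isPrime
  refine mem_locRing_of_forall_valuationSubring hB y (fun V hBV h𝔪V => ?_)
  have h1 : y ^ m ∈ V := (locRing_le_of_dominates V hBV h𝔪V).1 _ hy
  rw [← ValuationSubring.valuation_le_one_iff, map_pow] at h1
  rw [← ValuationSubring.valuation_le_one_iff]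
  exact (pow_le_one_iff hm).mp h1

end PowMem

section Point

variable {R : Type*} [CommRing R] {E₁ E : Type*} [Field E₁] [Field E] [Algebra R E₁] [Algebra R E]
  (ι : E₁ →+* E) (hι : ∀ r : R, ι (algebraMap R E₁ r) = algebraMap R E r)
  (N : E →* E₁)
  {B₁ : Subalgebra R E₁} {B : Subalgebra R E} (hB : ∀ b ∈ B₁, ι b ∈ B)
  {𝔫 : Ideal ↥B} [h𝔫 : 𝔫.IsPrime] {𝔫₁ : Ideal ↥B₁} [h𝔫₁m : 𝔫₁.IsMaximal]
  (h𝔫₁ : ∀ b : ↥B₁, b ∈ 𝔫₁ ↔ (⟨ι b, hB b b.2⟩ : ↥B) ∈ 𝔫)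

include hι h𝔫₁ in
/-- **the toric relation at a point.** -/
theorem node_toric_rel {Wa Wb Wc : ValuationSubring E} {Wr : ValuationSubring E₁}
    (hca : Wa.comap ι = Wr) (hcb : Wb.comap ι = Wr)
    (hBWa : ∀ b ∈ B, b ∈ Wa) (hBWb : ∀ b ∈ B, b ∈ Wb) (hBWc : ∀ b ∈ B, b ∈ Wc)
    {𝔭a 𝔭b 𝔭c : Ideal ↥B}
    (h𝔭a : ∀ b : ↥B, b ∈ 𝔭a ↔ Wa.valuation (b : E) < 1)
    (h𝔭b : ∀ b : ↥B, b ∈ 𝔭b ↔ Wb.valuation (b : E) < 1)
    (h𝔭c : ∀ b : ↥B, b ∈ 𝔭c ↔ Wc.valuation (b : E) < 1)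
    (hlea : 𝔭a ≤ 𝔫) (hleb : 𝔭b ≤ 𝔫) (hlec : 𝔭c ≤ 𝔫)
    (hbr : ∀ x ∈ locRing B 𝔫, ∃ x' ∈ locRing B₁ 𝔫₁, Wb.valuation (x - ι x') < 1)
    (hresa : ∀ z : E, Wa.valuation z = 1 → ∃ a : E₁, Wa.valuation (z - ι a) < 1)
    (hresb : ∀ z : E, Wb.valuation z = 1 → ∃ b : E₁, Wb.valuation (z - ι b) < 1)
    (hB₁ : ∀ e : E₁, IsIntegral ↥B₁ e → e ∈ B₁)
    (hN𝔫 : ∀ x ∈ locRing B 𝔫, N x ∈ locRing B₁ 𝔫₁)
    {m : ℕ} (hm : 0 < m) {G : E} {H : E₁} {a₀ : R} (ha₀ : IsUnit a₀) (hH : H ≠ 0)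
    (hNG : N G = algebraMap R E₁ a₀ * H ^ m)
    {la lb lc : E}
    (hGa : Wa.valuation (G / la ^ m - 1) < 1) (hGb : Wb.valuation (G / lb ^ m - 1) < 1)
    (hGc : Wc.valuation (G / lc ^ m - 1) < 1)
    {k l : ℕ} {εr εi : R}
    (heps : ∀ γ : E, γ ≠ 0 → Wa.valuation (G / γ ^ m) = 1 → Wb.valuation (G / γ ^ m) = 1 →
        Wc.valuation (G / γ ^ m) = 1 →
        ∀ a b : E₁, Wa.valuation (la / γ - ι a) < 1 → Wb.valuation (lb / γ - ι b) < 1 →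
          Wr.valuation (H / N γ - algebraMap R E₁ εr * a * b ^ k) < 1 ∧
          Wc.valuation (ι (H / N γ) - algebraMap R E εi * (lc / γ) ^ l) < 1)
    {γ : E} {c d : ↥B} (hγ : γ ≠ 0) (hc : c ∉ 𝔫) (hd : d ∉ 𝔫)
    (hGγ : G * (d : E) = γ ^ m * (c : E))
    {wa wb wc : E} (hwa : wa ∈ locRing B 𝔫) (hwb : wb ∈ locRing B 𝔫) (hwc : wc ∈ locRing B 𝔫)
    (hwa' : Wa.valuation (la / γ - wa) < 1) (hwb' : Wb.valuation (lb / γ - wb) < 1)
    (hwc' : Wc.valuation (lc / γ - wc) < 1) :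
    algebraMap R E εr * wa * wb ^ k - algebraMap R E εi * wc ^ l ∈ locMax B 𝔫 := by
  haveI h𝔫₁p : 𝔫₁.IsPrime := h𝔫₁m.isPrime
  have hγm : γ ^ m ≠ 0 := pow_ne_zero _ hγ
  -- the unit `v = G / γ ^ m = c / d`
  have hd0 : (d : E) ≠ 0 := by
    intro h0
    apply hd
    have : d = 0 := Subtype.ext h0
    rw [this]; exact 𝔫.zero_mem
  have hv : G / γ ^ m = (c : E) / (d : E) := by
    field_simp
    linear_combination hGγ
  have hvloc : G / γ ^ m ∈ locRing B 𝔫 := ⟨c, d, hd, by rw [hv]; field_simp⟩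
  have hvW : ∀ (W : ValuationSubring E) (hBW : ∀ b ∈ B, b ∈ W) (𝔭 : Ideal ↥B)
      (h𝔭 : ∀ b : ↥B, b ∈ 𝔭 ↔ W.valuation (b : E) < 1) (hle : 𝔭 ≤ 𝔫),
      W.valuation (G / γ ^ m) = 1 := by
    intro W hBW 𝔭 h𝔭 hle
    rw [hv, map_div₀, valuation_eq_one_of_notMem hBW h𝔭 (fun h => hc (hle h)),
      valuation_eq_one_of_notMem hBW h𝔭 (fun h => hd (hle h)), div_one]
  have hva := hvW Wa hBWa 𝔭a h𝔭a hlea
  have hvb := hvW Wb hBWb 𝔭b h𝔭b hleb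
  have hvc := hvW Wc hBWc 𝔭c h𝔭c hlec
  obtain ⟨-, hra, -⟩ := root_ucong hm hGa hγ hva
  obtain ⟨-, hrb, -⟩ := root_ucong hm hGb hγ hvb
  obtain ⟨-, hrc, -⟩ := root_ucong hm hGc hγ hvc
  -- representatives
  obtain ⟨a, ha⟩ := hresa _ hra
  obtain ⟨b, hb⟩ := hresb _ hrb
  obtain ⟨h1, h2⟩ := heps γ hγ hva hvb hvc a b ha hb
  have hwaa : Wa.valuation (wa - ι a) < 1 := by
    have : wa - ι a = (la / γ - ι a) - (la / γ - wa) := by ring
    rw [this]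
    exact lt_of_le_of_lt (Valuation.map_sub _ _ _) (max_lt ha hwa')
  have hwbb : Wb.valuation (wb - ι b) < 1 := by
    have : wb - ι b = (lb / γ - ι b) - (lb / γ - wb) := by ring
    rw [this]
    exact lt_of_le_of_lt (Valuation.map_sub _ _ _) (max_lt hb hwb')
  -- `y = H / N γ` is regular at `𝔫₁`
  obtain ⟨u, rfl⟩ := ha₀
  have hu0 : algebraMap R E₁ (u : R) ≠ 0 := by
    intro h0
    have h1 : algebraMap R E₁ ((u : R) * ((u⁻¹ : Rˣ) : R)) = 1 := by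
      rw [Units.mul_inv, map_one]
    rw [map_mul, h0, zero_mul] at h1
    exact zero_ne_one h1
  have hGv : G = γ ^ m * (G / γ ^ m) := by field_simp
  have hNG' : (N γ) ^ m * N (G / γ ^ m) = algebraMap R E₁ (u : R) * H ^ m := by
    rw [← hNG, ← map_pow, ← map_mul, ← hGv]
  have hNγ : N γ ≠ 0 := by
    intro h0
    rw [h0, zero_pow hm.ne', zero_mul] at hNG'
    exact mul_ne_zero hu0 (pow_ne_zero _ hH) hNG'.symm
  have hym : (H / N γ) ^ m = algebraMap R E₁ ((u⁻¹ : Rˣ) : R) * N (G / γ ^ m) := by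
    have h3 : algebraMap R E₁ ((u⁻¹ : Rˣ) : R) * algebraMap R E₁ (u : R) = 1 := by
      rw [← map_mul, Units.inv_mul, map_one]
    have h4 : H ^ m = algebraMap R E₁ ((u⁻¹ : Rˣ) : R) * ((N γ) ^ m * N (G / γ ^ m)) := by
      rw [hNG', ← mul_assoc, h3, one_mul]
    rw [div_pow, h4]
    field_simp
  have hy : H / N γ ∈ locRing B₁ 𝔫₁ := by
    refine mem_locRing_of_pow_mem hB₁ hm.ne' ?_
    rw [hym]
    exact (locRing B₁ 𝔫₁).mul_mem ((locRing B₁ 𝔫₁).algebraMap_mem _) (hN𝔫 _ hvloc)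
  -- `ι y ≡ εi · wc ^ l` on `Wc`
  have hvwc : Wc.valuation wc ≤ 1 := valuation_le_one_of_mem_locRing hBWc h𝔭c hlec hwc
  have hpow : Wc.valuation ((lc / γ) ^ l - wc ^ l) < 1 :=
    valuation_pow_sub_pow_lt_one Wc hrc.le hvwc hwc' l
  have hεi : Wc.valuation (algebraMap R E εi) ≤ 1 :=
    (ValuationSubring.valuation_le_one_iff _ _).mpr (hBWc _ (B.algebraMap_mem εi))
  have h2' : Wc.valuation (ι (H / N γ) - algebraMap R E εi * wc ^ l) < 1 := by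
    have : ι (H / N γ) - algebraMap R E εi * wc ^ l =
        (ι (H / N γ) - algebraMap R E εi * (lc / γ) ^ l) +
          algebraMap R E εi * ((lc / γ) ^ l - wc ^ l) := by ring
    rw [this]
    refine lt_of_le_of_lt (Valuation.map_add _ _ _) (max_lt h2 ?_)
    rw [map_mul]
    exact lt_of_le_of_lt (mul_le_of_le_one_left' hεi) hpow
  exact node_rel ι hι hB h𝔫₁ hca hcb hBWa hBWb hBWc h𝔭a h𝔭b h𝔭c hlea hleb hlec hbr hwa hwb hwc hy
    εr εi k l hwaa hwbb h1 h2'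

end Point

end Fermat.Agent.S36
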