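/-
S36 [NODENORM] — helper5 — part 6: **the toric part of the three-sheeted model** (`toric36`).

`E₁` the host of level `M'q` (sheets `W10`, `W01`), `E` the host of level `M'q²` (sheets `W20`,
`W11`, `W02`), `ιA ιB : E₁ →+* E` the two degeneracy embeddings, `NA NB : E →* E₁` the norms.
If both norms of `G` are `m`-th powers up to constants `≡ 1`, and `G ≡ lam ^ m` on the three sheets,
then there are GLOBAL `m`-th roots of unity `ζ20`, `ζ11` of the base ring such that at every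
closed point `𝔫` of every chart through which the three sheets pass, for every closed datum `γ`
and all unit lifts `w20`, `w11`, `w02` of `lam / γ`:
`ζ20 · w20 ^ c ≡ w02 ^ c` and `ζ11 · w11 ^ c ≡ w02 ^ c` modulo `𝔫`, `c = k (k + 2) = q² - 1`.
-/
import Mathlib
import Fermat.Agent.S36.TORIC36_helper5_Point
import Fermat.Agent.S36.TORIC36_helper5_Alg

set_option autoImplicit false
set_option linter.unusedSectionVars false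
set_option linter.style.haveILetI false

namespace Fermat.Agent.S36

open Fermat.Agent.SS

section Main

variable {R : Type*} [CommRing R] [IsDomain R] {E₁ E : Type*} [Field E₁] [Field E]
  [Algebra R E₁] [Algebra R E]

/-- **the toric part of the three-sheeted model.** -/
theorem toric36
    (ιA ιB : E₁ →+* E)
    (hιA : ∀ r : R, ιA (algebraMap R E₁ r) = algebraMap R E r)
    (hιB : ∀ r : R, ιB (algebraMap R E₁ r) = algebraMap R E r)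
    (NA NB : E →* E₁)
    {W10 W01 : ValuationSubring E₁} {W20 W11 W02 : ValuationSubring E}
    (hA20 : W20.comap ιA = W10) (hA11 : W11.comap ιA = W10) (hA02 : W02.comap ιA = W01)
    (hB02 : W02.comap ιB = W01) (hB11 : W11.comap ιB = W01) (hB20 : W20.comap ιB = W10)
    {k : ℕ}
    (hNAr : ∀ (f : E) (a b : E₁), W20.valuation f = 1 → W11.valuation f = 1 →
      W20.valuation (f - ιA a) < 1 → W11.valuation (f - ιA b) < 1 →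
      W10.valuation (NA f - a * b ^ k) < 1)
    (hNAi : ∀ f : E, W02.valuation f = 1 → W02.valuation (ιA (NA f) - f ^ (k + 1)) < 1)
    (hNBr : ∀ (f : E) (a b : E₁), W02.valuation f = 1 → W11.valuation f = 1 →
      W02.valuation (f - ιB a) < 1 → W11.valuation (f - ιB b) < 1 →
      W01.valuation (NB f - a * b ^ k) < 1)
    (hNBi : ∀ f : E, W20.valuation f = 1 → W20.valuation (ιB (NB f) - f ^ (k + 1)) < 1)
    (hresA20 : ∀ z : E, W20.valuation z = 1 → ∃ a : E₁, W20.valuation (z - ιA a) < 1)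
    (hresA11 : ∀ z : E, W11.valuation z = 1 → ∃ a : E₁, W11.valuation (z - ιA a) < 1)
    (hresB02 : ∀ z : E, W02.valuation z = 1 → ∃ a : E₁, W02.valuation (z - ιB a) < 1)
    (hresB11 : ∀ z : E, W11.valuation z = 1 → ∃ a : E₁, W11.valuation (z - ιB a) < 1)
    {m : ℕ} (hm : 0 < m) {ζ : R} (hζ : IsPrimitiveRoot ζ m)
    {G : E} {HA HB : E₁} {aA aB : R} (haA : IsUnit aA) (haB : IsUnit aB)
    (hHA : HA ≠ 0) (hHB : HB ≠ 0)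
    (haA10 : W10.valuation (algebraMap R E₁ aA - 1) < 1)
    (haA01 : W01.valuation (algebraMap R E₁ aA - 1) < 1)
    (haB10 : W10.valuation (algebraMap R E₁ aB - 1) < 1)
    (haB01 : W01.valuation (algebraMap R E₁ aB - 1) < 1)
    (hNAG : NA G = algebraMap R E₁ aA * HA ^ m) (hNBG : NB G = algebraMap R E₁ aB * HB ^ m)
    {lam20 lam11 lam02 : E}
    (hG20 : W20.valuation (G / lam20 ^ m - 1) < 1) (hG11 : W11.valuation (G / lam11 ^ m - 1) < 1)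
    (hG02 : W02.valuation (G / lam02 ^ m - 1) < 1) :
    ∃ ζ20 ζ11 : R, ζ20 ^ m = 1 ∧ ζ11 ^ m = 1 ∧
      ∀ (B : Subalgebra R E) (𝔫 : Ideal ↥B) [𝔫.IsPrime]
        (B₁A : Subalgebra R E₁) (𝔫₁A : Ideal ↥B₁A) [h𝔫₁A : 𝔫₁A.IsMaximal]
        (hBA : ∀ b ∈ B₁A, ιA b ∈ B)
        (_ : ∀ b : ↥B₁A, b ∈ 𝔫₁A ↔ (⟨ιA b, hBA b b.2⟩ : ↥B) ∈ 𝔫)
        (B₁B : Subalgebra R E₁) (𝔫₁B : Ideal ↥B₁B) [h𝔫₁B : 𝔫₁B.IsMaximal]
        (hBB : ∀ b ∈ B₁B, ιB b ∈ B)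
        (_ : ∀ b : ↥B₁B, b ∈ 𝔫₁B ↔ (⟨ιB b, hBB b b.2⟩ : ↥B) ∈ 𝔫)
        (_ : ∀ e : E₁, IsIntegral ↥B₁A e → e ∈ B₁A) (_ : ∀ e : E₁, IsIntegral ↥B₁B e → e ∈ B₁B)
        (_ : ∀ x ∈ locRing B 𝔫, NA x ∈ @locRing R _ E₁ _ _ B₁A 𝔫₁A h𝔫₁A.isPrime)
        (_ : ∀ x ∈ locRing B 𝔫, NB x ∈ @locRing R _ E₁ _ _ B₁B 𝔫₁B h𝔫₁B.isPrime)
        (_ : ∀ x ∈ locRing B 𝔫, ∃ x' ∈ @locRing R _ E₁ _ _ B₁A 𝔫₁A h𝔫₁A.isPrime,
          W11.valuation (x - ιA x') < 1)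
        (_ : ∀ x ∈ locRing B 𝔫, ∃ x' ∈ @locRing R _ E₁ _ _ B₁B 𝔫₁B h𝔫₁B.isPrime,
          W11.valuation (x - ιB x') < 1)
        (_ : ∀ b ∈ B, b ∈ W20) (_ : ∀ b ∈ B, b ∈ W11) (_ : ∀ b ∈ B, b ∈ W02)
        (𝔭20 𝔭11 𝔭02 : Ideal ↥B)
        (_ : ∀ b : ↥B, b ∈ 𝔭20 ↔ W20.valuation (b : E) < 1)
        (_ : ∀ b : ↥B, b ∈ 𝔭11 ↔ W11.valuation (b : E) < 1)
        (_ : ∀ b : ↥B, b ∈ 𝔭02 ↔ W02.valuation (b : E) < 1)
        (_ : 𝔭20 ≤ 𝔫) (_ : 𝔭11 ≤ 𝔫) (_ : 𝔭02 ≤ 𝔫)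
        (γ : E) (c d : ↥B) (_ : γ ≠ 0) (_ : c ∉ 𝔫) (_ : d ∉ 𝔫)
        (_ : G * (d : E) = γ ^ m * (c : E))
        (w20 w11 w02 : E) (_ : w20 ∈ locRing B 𝔫) (_ : w11 ∈ locRing B 𝔫)
        (_ : w02 ∈ locRing B 𝔫) (_ : w11 ∉ locMax B 𝔫) (_ : w02 ∉ locMax B 𝔫)
        (_ : W20.valuation (lam20 / γ - w20) < 1) (_ : W11.valuation (lam11 / γ - w11) < 1)
        (_ : W02.valuation (lam02 / γ - w02) < 1),
        algebraMap R E ζ20 * w20 ^ (k * (k + 2)) - w02 ^ (k * (k + 2)) ∈ locMax B 𝔫 ∧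
        algebraMap R E ζ11 * w11 ^ (k * (k + 2)) - w02 ^ (k * (k + 2)) ∈ locMax B 𝔫 := by
  obtain ⟨εAr, εAi, hεAr, hεAi, hepsA⟩ := exists_sheet_roots_of_unity ιA hιA NA hA20 hA11 hA02
    hNAr hNAi hm hHA haA10 haA01 hNAG hG20 hG11 hG02 hζ hresA20 hresA11
  obtain ⟨εBr, εBi, hεBr, hεBi, hepsB⟩ := exists_sheet_roots_of_unity ιB hιB NB hB02 hB11 hB20
    hNBr hNBi hm hHB haB01 haB10 hNBG hG02 hG11 hG20 hζ hresB02 hresB11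
  have hpow : ∀ (ε : R) (n : ℕ), ε ^ m = 1 → (ε ^ n) ^ m = 1 := by
    intro ε n hε
    rw [← pow_mul, mul_comm, pow_mul, hε, one_pow]
  refine ⟨((εAi * εBr) ^ k) ^ (m - 1) * (εAr * εBi) ^ k,
    (εBi * εAi ^ (k + 1)) ^ (m - 1) * (εAr ^ (k + 1) * εBr), ?_, ?_, ?_⟩
  · rw [mul_pow, hpow _ (m - 1) (hpow _ k (by rw [mul_pow, hεAi, hεBr, one_mul])),
      hpow _ k (by rw [mul_pow, hεAr, hεBi, one_mul]), one_mul]
  · rw [mul_pow, hpow _ (m - 1) (by rw [mul_pow, hεBi, hpow _ (k + 1) hεAi, one_mul]),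
      mul_pow, hpow _ (k + 1) hεAr, hεBr, one_mul, one_mul]
  intro B 𝔫 h𝔫 B₁A 𝔫₁A h𝔫₁A hBA h𝔫A B₁B 𝔫₁B h𝔫₁B hBB h𝔫B hB₁A hB₁B hNA𝔫 hNB𝔫 hbrA hbrB
    hBW20 hBW11 hBW02 𝔭20 𝔭11 𝔭02 h𝔭20 h𝔭11 h𝔭02 hle20 hle11 hle02 γ c d hγ hc hd hGγ
    w20 w11 w02 hw20 hw11 hw02 hw11' hw02' hl20 hl11 hl02
  have relA := node_toric_rel ιA hιA NA hBA h𝔫A hA20 hA11 hBW20 hBW11 hBW02 h𝔭20 h𝔭11 h𝔭02
    hle20 hle11 hle02 hbrA hresA20 hresA11 hB₁A hNA𝔫 hm haA hHA hNAG hG20 hG11 hG02 hepsA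
    hγ hc hd hGγ hw20 hw11 hw02 hl20 hl11 hl02
  have relB := node_toric_rel ιB hιB NB hBB h𝔫B hB02 hB11 hBW02 hBW11 hBW20 h𝔭02 h𝔭11 h𝔭20
    hle02 hle11 hle20 hbrB hresB02 hresB11 hB₁B hNB𝔫 hm haB hHB hNBG hG02 hG11 hG20 hepsB
    hγ hc hd hGγ hw02 hw11 hw20 hl02 hl11 hl20
  exact toric_cross hm hεAi hεBr hεBi hw20 hw11 hw02 hw11' hw02' relA relB

end Main

end Fermat.Agent.S36
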