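/-
S36 — helper4 — [BASE36], part 2: **the abstract master theorem of the three-sheet model.**

`roots36_coprime` (per-sheet roots of `G₁ = G ^ (q² - 1)`) → `base36_norm_const` (constants of the
two norm relations) → `toric36` (global roots of unity of the node relations) → POINTS36 (closed
data at all closed points, hypothesis `hpoints`) → `sheet_pow_of_model` (gluing):
`(G ^ (q² - 1)) ^ ((q - 1) (q + 1))` is an `m`-th power (`base36_abs`).

* `ToricRel36` : the conclusion of `toric36` for given roots of unity (the currency between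
  TORIC36 and POINTS36);
* `HorPow36` : the horizontal clause on a chart (`G` is an `m`-th power up to a unit at every
  horizontal prime of height one);
* `base36_hconst` : the `hconst` hypothesis of `roots36_coprime` over a base with algebraically
  closed residue field.
-/
import Mathlib
import Fermat.Agent.S36.ROOTS36_helper9_Coprime
import Fermat.Agent.S36.BASE36_helper4_Const
import Fermat.Agent.S36.TORIC36_helper5_Main
import Fermat.Agent.S36.KUM36_helper3_Final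

set_option autoImplicit false
set_option linter.unusedSectionVars false
set_option linter.unusedVariables false
set_option linter.style.haveILetI false

namespace Fermat.Agent.S36

open Fermat.Agent.JA Fermat.Agent.SS

section Defs

variable {R : Type*} [CommRing R] [IsDomain R] {E₁ E : Type*} [Field E₁] [Field E]
  [Algebra R E₁] [Algebra R E]

/-- **the conclusion of `toric36`** for given roots of unity `ζ20 ζ11` (`k = q - 1`). -/
def ToricRel36 (ιA ιB : E₁ →+* E) (NA NB : E →* E₁) (W20 W11 W02 : ValuationSubring E)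
    (k m : ℕ) (G lam20 lam11 lam02 : E) (ζ20 ζ11 : R) : Prop :=
  ∀ (B : Subalgebra R E) (𝔫 : Ideal ↥B) [𝔫.IsPrime]
    (B₁A : Subalgebra R E₁) (𝔫₁A : Ideal ↥B₁A) [h𝔫₁A : 𝔫₁A.IsMaximal]
    (hBA : ∀ b ∈ B₁A, ιA b ∈ B)
    (_ : ∀ b : ↥B₁A, b ∈ 𝔫₁A ↔ (⟨ιA b, hBA b b.2⟩ : ↥B) ∈ 𝔫)
    (B₁B : Subalgebra R E₁) (𝔫₁B : Ideal ↥B₁B) [h𝔫₁B : 𝔫₁B.IsMaximal]
    (hBB : ∀ b ∈ B₁B, ιB b ∈ B)
    (_ : ∀ b : ↥B₁B, b ∈ 𝔫₁B ↔ (⟨ιB b, hBB b b.2⟩ : ↥B) ∈ 𝔫)
    (_ : ∀ e : E₁, IsIntegral ↥B₁A e → e ∈ B₁A) (_ : ∀ e : E₁, IsIntegral ↥B₁B e → e ∈ B₁B)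
    (_ : ∀ x ∈ locRing B 𝔫, NA x ∈ @locRing R _ E₁ _ _ B₁A 𝔫₁A h𝔫₁A.isPrime)
    (_ : ∀ x ∈ locRing B 𝔫, NB x ∈ @locRing R _ E₁ _ _ B₁B 𝔫₁B h𝔫₁B.isPrime)
    (_ : ∀ x ∈ locRing B 𝔫, ∃ x' ∈ @locRing R _ E₁ _ _ B₁A 𝔫₁A h𝔫₁A.isPrime,
      W11.valuation (x - ιA x') < 1)
    (_ : ∀ x ∈ locRing B 𝔫, ∃ x' ∈ @locRing R _ E₁ _ _ B₁B 𝔫₁B h𝔫₁B.isPrime,
      W11.valuation (x - ιB x') < 1)
    (_ : ∀ b ∈ B, b ∈ W20) (_ : ∀ b ∈ B, b ∈ W11) (_ : ∀ b ∈ B, b ∈ W02)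
    (𝔭20 𝔭11 𝔭02 : Ideal ↥B)
    (_ : ∀ b : ↥B, b ∈ 𝔭20 ↔ W20.valuation (b : E) < 1)
    (_ : ∀ b : ↥B, b ∈ 𝔭11 ↔ W11.valuation (b : E) < 1)
    (_ : ∀ b : ↥B, b ∈ 𝔭02 ↔ W02.valuation (b : E) < 1)
    (_ : 𝔭20 ≤ 𝔫) (_ : 𝔭11 ≤ 𝔫) (_ : 𝔭02 ≤ 𝔫)
    (γ : E) (c d : ↥B) (_ : γ ≠ 0) (_ : c ∉ 𝔫) (_ : d ∉ 𝔫)
    (_ : G * (d : E) = γ ^ m * (c : E))
    (w20 w11 w02 : E) (_ : w20 ∈ locRing B 𝔫) (_ : w11 ∈ locRing B 𝔫)
    (_ : w02 ∈ locRing B 𝔫) (_ : w11 ∉ locMax B 𝔫) (_ : w02 ∉ locMax B 𝔫)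
    (_ : W20.valuation (lam20 / γ - w20) < 1) (_ : W11.valuation (lam11 / γ - w11) < 1)
    (_ : W02.valuation (lam02 / γ - w02) < 1),
    algebraMap R E ζ20 * w20 ^ (k * (k + 2)) - w02 ^ (k * (k + 2)) ∈ locMax B 𝔫 ∧
    algebraMap R E ζ11 * w11 ^ (k * (k + 2)) - w02 ^ (k * (k + 2)) ∈ locMax B 𝔫

end Defs

section Hor

variable {R : Type*} [CommRing R] [IsDomain R] [IsDiscreteValuationRing R] [CharZero R]
  {K₁ : Type*} [Field K₁] [Algebra R K₁] [IsFractionRing R K₁]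
  {K : Type*} [Field K] [Algebra K₁ K] [Algebra R K] [IsScalarTower R K₁ K]
  {F : Type*} [Field F] [Algebra K F] [Algebra R F] [IsScalarTower R K F] [FiniteDimensional K F]

/-- **the horizontal clause on the chart `chartOne R F τ`**: `G` is an `m`-th power up to a unit at
every horizontal prime of height one. -/
def HorPow36 (τ : K) (hKτ : IntermediateField.adjoin K₁ {τ} = ⊤) (π : R) (m : ℕ) (G : F) : Prop :=
  haveI : IsFractionRing ↥(chartOne R F τ) F := isFractionRing_chartOne (K₁ := K₁) τ hKτ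
  ∀ 𝔮 : Ideal ↥(chartOne R F τ), 𝔮.IsPrime → 𝔮.height = 1 →
    algebraMap R ↥(chartOne R F τ) π ∉ 𝔮 → ∃ γ : F, γ ≠ 0 ∧ IsUnitAtPrime 𝔮 (G * (γ ^ m)⁻¹)

theorem HorPow36.pow {τ : K} {hKτ : IntermediateField.adjoin K₁ {τ} = ⊤} {π : R} {m : ℕ} {G : F}
    (h : HorPow36 τ hKτ π m G) (n : ℕ) : HorPow36 τ hKτ π m (G ^ n) := by
  haveI : IsFractionRing ↥(chartOne R F τ) F := isFractionRing_chartOne (K₁ := K₁) τ hKτ
  intro 𝔮 h𝔮 hh hπ𝔮
  haveI := h𝔮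
  obtain ⟨γ, hγ, hu⟩ := h 𝔮 h𝔮 hh hπ𝔮
  refine ⟨γ ^ n, pow_ne_zero _ hγ, ?_⟩
  have : G ^ n * ((γ ^ n) ^ m)⁻¹ = (G * (γ ^ m)⁻¹) ^ n := by
    rw [mul_pow, inv_pow, ← pow_mul, ← pow_mul, mul_comm n m]
  rw [this]
  exact hu.pow n

end Hor

section Const

variable {R : Type*} [CommRing R] [IsDomain R] [IsDiscreteValuationRing R]
  {K₀ : Type*} [Field K₀] [Algebra R K₀] [IsFractionRing R K₀]
  {E₁ : Type*} [Field E₁] [Algebra K₀ E₁]

/-- **the `hconst` hypothesis of `roots36_coprime`** over a base with algebraically closed residue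
field: every nonzero constant is `π ^ n · e ^ m · (1 + small)` with `e` a unit of `R`, uniformly
for all valuation subrings containing `R` in which `π` is a non-unit. -/
theorem base36_hconst [IsAlgClosed (IsLocalRing.ResidueField R)] {π : R} (hπ : Irreducible π)
    {m : ℕ} (hm : 0 < m) (a : K₀) (ha : a ≠ 0) :
    ∃ (n : ℤ) (e : K₀), ∀ W : ValuationSubring E₁,
      (∀ r : R, algebraMap K₀ E₁ (algebraMap R K₀ r) ∈ W) →
      W.valuation (algebraMap K₀ E₁ (algebraMap R K₀ π)) < 1 →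
      W.valuation (algebraMap K₀ E₁ e) = 1 ∧
      W.valuation (algebraMap K₀ E₁ (a * (algebraMap R K₀ π ^ n * e ^ m)⁻¹) - 1) < 1 := by
  obtain ⟨n, u, hu⟩ := IsDiscreteValuationRing.exists_units_eq_smul_zpow_of_irreducible
    (K := K₀) hπ ha
  obtain ⟨e, he⟩ := base36_exists_unit_pow_cong hm u
  rw [hπ.maximalIdeal_eq, Ideal.mem_span_singleton'] at he
  obtain ⟨r, hr⟩ := he
  have hπK : algebraMap R K₀ π ≠ 0 :=
    (map_ne_zero_iff _ (IsFractionRing.injective R K₀)).mpr hπ.ne_zero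
  have heK : algebraMap R K₀ (e : R) ≠ 0 :=
    (map_ne_zero_iff _ (IsFractionRing.injective R K₀)).mpr e.ne_zero
  have heinv : algebraMap R K₀ ((e⁻¹ : Rˣ) : R) = (algebraMap R K₀ (e : R))⁻¹ :=
    eq_inv_of_mul_eq_one_left (by rw [← map_mul, Units.inv_mul, map_one])
  refine ⟨n, algebraMap R K₀ (e : R), ?_⟩
  intro W hRW hπW
  have hWe : W.valuation (algebraMap K₀ E₁ (algebraMap R K₀ (e : R))) = 1 := by
    have h1 : W.valuation (algebraMap K₀ E₁ (algebraMap R K₀ (e : R))) ≤ 1 :=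
      (W.valuation_le_one_iff _).2 (hRW _)
    have h2 : W.valuation (algebraMap K₀ E₁ (algebraMap R K₀ ((e⁻¹ : Rˣ) : R))) ≤ 1 :=
      (W.valuation_le_one_iff _).2 (hRW _)
    rw [heinv, map_inv₀, map_inv₀] at h2
    have h0 : W.valuation (algebraMap K₀ E₁ (algebraMap R K₀ (e : R))) ≠ 0 :=
      (Valuation.ne_zero_iff _).2 ((map_ne_zero _).2 heK)
    exact le_antisymm h1 ((inv_le_one₀ (zero_lt_iff.2 h0)).1 h2)
  refine ⟨hWe, ?_⟩
  -- `a / (π ^ n e ^ m) - 1 = π · r · e ^ (-m)`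
  have hzn : algebraMap R K₀ π ^ n ≠ 0 := zpow_ne_zero n hπK
  have hem : algebraMap R K₀ (e : R) ^ m ≠ 0 := pow_ne_zero m heK
  have h1 : a * (algebraMap R K₀ π ^ n * algebraMap R K₀ (e : R) ^ m)⁻¹ - 1 =
      algebraMap R K₀ π * algebraMap R K₀ (r * ((e⁻¹ : Rˣ) : R) ^ m) := by
    have hu' : algebraMap R K₀ (u : R) = algebraMap R K₀ (e : R) ^ m +
        algebraMap R K₀ r * algebraMap R K₀ π := by
      rw [← map_pow, ← map_mul, ← map_add]
      congr 1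
      rw [hr]; ring
    rw [hu, Units.smul_def, Algebra.smul_def, hu', map_mul, map_pow, heinv, inv_pow]
    field_simp
    ring
  rw [← map_one (algebraMap K₀ E₁), ← map_sub, h1, map_mul]
  exact r36_val_mul_lt W hπW ((W.valuation_le_one_iff _).2 (hRW _))

end Const

end Fermat.Agent.S36
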