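/-
S36 — helper4 — [BASE36], part 3: **the abstract master theorem** `base36_abs`.
-/
import Mathlib
import Fermat.Agent.S36.BASE36_helper4_Abs

set_option autoImplicit false
set_option linter.unusedSectionVars false
set_option linter.unusedVariables false
set_option linter.style.haveILetI false

namespace Fermat.Agent.S36

open Fermat.Agent.JA Fermat.Agent.SS

section Master

variable {R : Type*} [CommRing R] [IsDomain R] [IsDiscreteValuationRing R] [CharZero R]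
  {K₁ : Type*} [Field K₁] [Algebra R K₁] [IsFractionRing R K₁]
  {K : Type*} [Field K] [Algebra K₁ K] [Algebra R K] [IsScalarTower R K₁ K]
  {F : Type*} [Field F] [Algebra K F] [Algebra K₁ F] [IsScalarTower K₁ K F] [Algebra R F]
  [IsScalarTower R K F] [FiniteDimensional K F]
  {E₁ : Type*} [Field E₁] [Algebra K₁ E₁] [Algebra R E₁] [IsScalarTower R K₁ E₁]

/-- `x ≡ 1 ⇒ x ^ n ≡ 1`. -/
theorem base36_val_pow_sub_one_lt (W : ValuationSubring F) {x : F}
    (h : W.valuation (x - 1) < 1) (n : ℕ) : W.valuation (x ^ n - 1) < 1 := by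
  have hx : W.valuation x = 1 := r36_val_eq_one_of_sub_lt W (a := 1) (map_one _) h
  have := r36_val_pow_sub_pow_lt W hx.le (map_one W.valuation).le h n
  rwa [one_pow] at this

/-- `x ≡ 1 ⇒ W x = 1` in the form `G / λ ^ m`. -/
theorem base36_val_eq_pow_of_root (W : ValuationSubring F) {G lam : F} {m : ℕ} (hlam : lam ≠ 0)
    (h : W.valuation (G / lam ^ m - 1) < 1) : W.valuation G = W.valuation lam ^ m := by
  have h1 : W.valuation (G / lam ^ m) = 1 := r36_val_eq_one_of_sub_lt W (a := 1) (map_one _) h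
  rw [map_div₀, map_pow] at h1
  have h0 : W.valuation lam ^ m ≠ 0 :=
    pow_ne_zero _ ((Valuation.ne_zero_iff _).2 hlam)
  exact (div_eq_one_iff_eq h0).1 h1

set_option maxHeartbeats 1600000 in
/-- **the abstract master theorem of the three-sheet model.** -/
theorem base36_abs [IsAlgClosed (IsLocalRing.ResidueField R)]
    (t : K) (ht : Transcendental K₁ t) (hK : IntermediateField.adjoin K₁ {t} = ⊤)
    (π : R) (hπ : Irreducible π) {q : ℕ} (hq : q.Prime) {m : ℕ} (hm : 0 < m)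
    (hmq : Nat.Coprime m q) (hmR : IsUnit (m : R)) (ζ : R) (hζ : IsPrimitiveRoot ζ m)
    (hM4 : ∀ x : F, IsAlgebraic K₁ x → x ∈ Set.range (algebraMap K₁ F))
    (lc : Fˣ →* K₁ˣ) (hlc : ∀ c : K₁ˣ, lc (Units.map (algebraMap K₁ F).toMonoidHom c) = c)
    -- the sheets
    (W10 W01 : ValuationSubring E₁) (W20 W11 W02 : ValuationSubring F)
    (fam : IsSheetFamily π t ![W20, W11, W02])
    (ιA ιB : E₁ →+* F)
    (hιA : ∀ r : R, ιA (algebraMap R E₁ r) = algebraMap R F r)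
    (hιB : ∀ r : R, ιB (algebraMap R E₁ r) = algebraMap R F r)
    (NA NB : F →*₀ E₁)
    (h20A : W20.comap ιA = W10) (h11A : W11.comap ιA = W10) (h02A : W02.comap ιA = W01)
    (h02B : W02.comap ιB = W01) (h11B : W11.comap ιB = W01) (h20B : W20.comap ιB = W10)
    -- constants and uniformizers
    (hR10 : ∀ r : R, algebraMap K₁ E₁ (algebraMap R K₁ r) ∈ W10)
    (hR01 : ∀ r : R, algebraMap K₁ E₁ (algebraMap R K₁ r) ∈ W01)
    (hπ10 : W10.valuation (algebraMap K₁ E₁ (algebraMap R K₁ π)) < 1)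
    (hπ01 : W01.valuation (algebraMap K₁ E₁ (algebraMap R K₁ π)) < 1)
    (u : F) (hu0 : u ≠ 0) (hu20 : W20.valuation u = 1)
    (hπ11 : W11.valuation (algebraMap K₁ F (algebraMap R K₁ π)) = W11.valuation u ^ (q - 1))
    -- discreteness
    (hd10 : ∀ g : E₁, g ≠ 0 →
      ∃ n : ℤ, W10.valuation g = W10.valuation (algebraMap K₁ E₁ (algebraMap R K₁ π)) ^ n)
    (hd01 : ∀ g : E₁, g ≠ 0 →
      ∃ n : ℤ, W01.valuation g = W01.valuation (algebraMap K₁ E₁ (algebraMap R K₁ π)) ^ n)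
    (hd11 : ∀ g : F, g ≠ 0 → ∃ n : ℤ, W11.valuation g = W11.valuation u ^ n)
    (hd02 : ∀ g : F, g ≠ 0 →
      ∃ n : ℤ, W02.valuation g = W02.valuation (algebraMap K₁ F (algebraMap R K₁ π)) ^ n)
    -- orders of norms
    (hTA10 : ∀ (g : F) (n20 n11 : ℤ),
      W20.valuation g = W20.valuation (algebraMap K₁ F (algebraMap R K₁ π)) ^ n20 →
      W11.valuation g = W11.valuation u ^ n11 →
      W10.valuation (NA g) = W10.valuation (algebraMap K₁ E₁ (algebraMap R K₁ π)) ^ (n20 + n11))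
    (hTA01 : ∀ (g : F) (n02 : ℤ),
      W02.valuation g = W02.valuation (algebraMap K₁ F (algebraMap R K₁ π)) ^ n02 →
      W01.valuation (NA g) =
        W01.valuation (algebraMap K₁ E₁ (algebraMap R K₁ π)) ^ ((q : ℤ) * n02))
    (hTB10 : ∀ (g : F) (n20 : ℤ),
      W20.valuation g = W20.valuation (algebraMap K₁ F (algebraMap R K₁ π)) ^ n20 →
      W10.valuation (NB g) =
        W10.valuation (algebraMap K₁ E₁ (algebraMap R K₁ π)) ^ ((q : ℤ) * n20))
    (hTB01 : ∀ (g : F) (n11 n02 : ℤ), W11.valuation g = W11.valuation u ^ n11 →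
      W02.valuation g = W02.valuation (algebraMap K₁ F (algebraMap R K₁ π)) ^ n02 →
      W01.valuation (NB g) = W01.valuation (algebraMap K₁ E₁ (algebraMap R K₁ π)) ^ (n11 + n02))
    -- residues of norms
    (hNVrA : ∀ (f : F) (a b : E₁), W20.valuation f = 1 → W11.valuation f = 1 →
      W20.valuation (f - ιA a) < 1 → W11.valuation (f - ιA b) < 1 →
      W10.valuation (NA f - a * b ^ (q - 1)) < 1)
    (hNVrB : ∀ (f : F) (a b : E₁), W02.valuation f = 1 → W11.valuation f = 1 →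
      W02.valuation (f - ιB a) < 1 → W11.valuation (f - ιB b) < 1 →
      W01.valuation (NB f - a * b ^ (q - 1)) < 1)
    (hNViA : ∀ f : F, W02.valuation f = 1 → W02.valuation (ιA (NA f) - f ^ q) < 1)
    (hNViB : ∀ f : F, W20.valuation f = 1 → W20.valuation (ιB (NB f) - f ^ q) < 1)
    -- residue fields
    (hres20 : ∀ z ∈ W20, ∃ c : E₁, W20.valuation (z - ιA c) < 1)
    (hres11 : ∀ z ∈ W11, ∃ c : E₁, W11.valuation (z - ιA c) < 1)
    (hresB02 : ∀ z ∈ W02, ∃ c : E₁, W02.valuation (z - ιB c) < 1)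
    (hresB11 : ∀ z ∈ W11, ∃ c : E₁, W11.valuation (z - ιB c) < 1)
    (hNAπ : NA (algebraMap K₁ F (algebraMap R K₁ π)) = (algebraMap K₁ E₁ (algebraMap R K₁ π)) ^ q)
    (hNBπ : NB (algebraMap K₁ F (algebraMap R K₁ π)) = (algebraMap K₁ E₁ (algebraMap R K₁ π)) ^ q)
    -- the closed points (POINTS36)
    (hpoints : ∀ (G₁ : F) (lam : Fin 3 → F) (ζ20 ζ11 : R), G₁ ≠ 0 → (∀ i, lam i ≠ 0) →
      ζ20 ^ m = 1 → ζ11 ^ m = 1 →
      (∀ i, (![W20, W11, W02] i).valuation (G₁ / lam i ^ m - 1) < 1) →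
      HorPow36 (K₁ := K₁) t hK π m G₁ →
      HorPow36 (K₁ := K₁) t⁻¹ (adjoin_inv_eq_top hK) π m G₁ →
      ToricRel36 ιA ιB NA.toMonoidHom NB.toMonoidHom W20 W11 W02 (q - 1) m G₁
        (lam 0) (lam 1) (lam 2) ζ20 ζ11 →
      (∀ (𝔫 : Ideal ↥(chartOne R F t)) (h𝔫 : 𝔫.IsMaximal),
        algebraMap R ↥(chartOne R F t) π ∈ 𝔫 →
        @SheetDatumAt R _ F _ _ (chartOne R F t) (Fin 3)
          (fun i => sheetIdeal t (![W20, W11, W02] i) (fam.chart_le i)) 𝔫 h𝔫.isPrime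
          ![W20, W11, W02] m (G₁ ^ ((q - 1) * (q - 1 + 2)))
          (fun i => algebraMap R F (![ζ20, ζ11, 1] i) * lam i ^ ((q - 1) * (q - 1 + 2)))) ∧
      (∀ (𝔫 : Ideal ↥(chartOne R F t⁻¹)) (h𝔫 : 𝔫.IsMaximal),
        algebraMap R ↥(chartOne R F t⁻¹) π ∈ 𝔫 →
        @SheetDatumAt R _ F _ _ (chartOne R F t⁻¹) (Fin 3)
          (fun i => sheetIdeal t⁻¹ (![W20, W11, W02] i) ((fam.inv hπ).chart_le i)) 𝔫 h𝔫.isPrime
          ![W20, W11, W02] m (G₁ ^ ((q - 1) * (q - 1 + 2)))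
          (fun i => algebraMap R F (![ζ20, ζ11, 1] i) * lam i ^ ((q - 1) * (q - 1 + 2)))))
    -- the function
    (G : F) (hG : G ≠ 0) (hlcG : ∀ v : Fˣ, (v : F) = G → lc v = 1)
    (hhor₁ : HorPow36 (K₁ := K₁) t hK π m G)
    (hhor₂ : HorPow36 (K₁ := K₁) t⁻¹ (adjoin_inv_eq_top hK) π m G)
    (a₁ a₂ : K₁) (ha₁ : a₁ ≠ 0) (ha₂ : a₂ ≠ 0) (H₁ H₂ : E₁) (hH₁ : H₁ ≠ 0) (hH₂ : H₂ ≠ 0)
    (hNAG : NA G = algebraMap K₁ E₁ a₁ * H₁ ^ m) (hNBG : NB G = algebraMap K₁ E₁ a₂ * H₂ ^ m)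
    (n₀ : ℤ)
    (hG20 : W20.valuation G =
      W20.valuation (algebraMap K₁ F (algebraMap R K₁ π)) ^ ((m : ℤ) * n₀)) :
    ∃ w : F, (G ^ (q ^ 2 - 1)) ^ ((q - 1) * (q - 1 + 2)) = w ^ m := by
  classical
  set πK : K₁ := algebraMap R K₁ π with hπKdef
  have hπK0 : πK ≠ 0 := (map_ne_zero_iff _ (IsFractionRing.injective R K₁)).mpr hπ.ne_zero
  have hq1 : q - 1 + 1 = q := Nat.sub_add_cancel hq.one_le
  have eR : ∀ r : R, algebraMap R E₁ r = algebraMap K₁ E₁ (algebraMap R K₁ r) :=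
    fun r => IsScalarTower.algebraMap_apply R K₁ E₁ r
  -- the constants
  have hconst : ∀ a : K₁, a ≠ 0 → ∃ (n : ℤ) (e : K₁),
      W10.valuation (algebraMap K₁ E₁ e) = 1 ∧ W01.valuation (algebraMap K₁ E₁ e) = 1 ∧
      W10.valuation (algebraMap K₁ E₁ (a * (πK ^ n * e ^ m)⁻¹) - 1) < 1 ∧
      W01.valuation (algebraMap K₁ E₁ (a * (πK ^ n * e ^ m)⁻¹) - 1) < 1 := by
    intro a ha
    obtain ⟨n, e, h⟩ := base36_hconst (E₁ := E₁) hπ hm a ha
    exact ⟨n, e, (h W10 hR10 hπ10).1, (h W01 hR01 hπ01).1, (h W10 hR10 hπ10).2,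
      (h W01 hR01 hπ01).2⟩
  -- the per-sheet roots of `G₁ = G ^ (q² - 1)`
  obtain ⟨lam20, lam11, lam02, hl20, hl11, hl02, hr20, hr11, hr02⟩ :=
    roots36_coprime ιA ιB NA NB πK hπK0 hq hm.ne' hmq W10 W01 W20 W11 W02 h20A h11A h02A h20B
      hπ10 hπ01 u hu0 hu20 hπ11 hd10 hd01 hd11 hd02 hTA10 hTA01 hTB10 hTB01 hNVrA hNViA hNViB
      hres20 hres11 hconst hNAπ hNBπ G hG a₁ a₂ ha₁ ha₂ H₁ H₂ hH₁ hH₂ hNAG hNBG n₀ hG20
  set N : ℕ := q ^ 2 - 1 with hN
  set G₁ : F := G ^ N with hG₁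
  have hG₁0 : G₁ ≠ 0 := pow_ne_zero _ hG
  -- the orders of `G₁` along the three sheets
  obtain ⟨k11, hk11⟩ := hd11 lam11 hl11
  obtain ⟨k02, hk02⟩ := hd02 lam02 hl02
  have hv20 : W20.valuation G₁ =
      W20.valuation (algebraMap K₁ F πK) ^ ((m : ℤ) * (n₀ * (N : ℤ))) := by
    rw [hG₁, map_pow, hG20, ← zpow_natCast, ← zpow_mul, mul_assoc]
  have hv11 : W11.valuation G₁ = W11.valuation u ^ ((m : ℤ) * k11) := by
    rw [base36_val_eq_pow_of_root W11 hl11 hr11, hk11, ← zpow_natCast, ← zpow_mul, mul_comm]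
  have hv02 : W02.valuation G₁ = W02.valuation (algebraMap K₁ F πK) ^ ((m : ℤ) * k02) := by
    rw [base36_val_eq_pow_of_root W02 hl02 hr02, hk02, ← zpow_natCast, ← zpow_mul, mul_comm]
  have hordA : W10.valuation (NA G₁) =
      W10.valuation (algebraMap K₁ E₁ πK) ^ ((m : ℤ) * (n₀ * (N : ℤ) + k11)) := by
    rw [hTA10 G₁ _ _ hv20 hv11, mul_add]
  have hordB : W01.valuation (NB G₁) =
      W01.valuation (algebraMap K₁ E₁ πK) ^ ((m : ℤ) * (k11 + k02)) := by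
    rw [hTB01 G₁ _ _ hv11 hv02, mul_add]
  -- the norm relations of `G₁`
  have hNAG₁ : NA G₁ = algebraMap K₁ E₁ (a₁ ^ N) * (H₁ ^ N) ^ m := by
    rw [hG₁, map_pow, hNAG, mul_pow, map_pow, ← pow_mul, ← pow_mul, mul_comm m N]
  have hNBG₁ : NB G₁ = algebraMap K₁ E₁ (a₂ ^ N) * (H₂ ^ N) ^ m := by
    rw [hG₁, map_pow, hNBG, mul_pow, map_pow, ← pow_mul, ← pow_mul, mul_comm m N]
  have hR10' : ∀ r : R, algebraMap R E₁ r ∈ W10 := fun r => by rw [eR]; exact hR10 r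
  have hR01' : ∀ r : R, algebraMap R E₁ r ∈ W01 := fun r => by rw [eR]; exact hR01 r
  have hπ10' : W10.valuation (algebraMap R E₁ π) < 1 := by rw [eR]; exact hπ10
  have hπ01' : W01.valuation (algebraMap R E₁ π) < 1 := by rw [eR]; exact hπ01
  obtain ⟨rA, HA, hHA, hNA'⟩ := base36_norm_const (K₀ := K₁) hπ hm W10 hR10' hπ10'
    (by simpa only [eR] using hd10) (pow_ne_zero N ha₁) (pow_ne_zero N hH₁) hNAG₁
    (n₀ * (N : ℤ) + k11) (by rw [eR]; exact hordA)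
  obtain ⟨rB, HB, hHB, hNB'⟩ := base36_norm_const (K₀ := K₁) hπ hm W01 hR01' hπ01'
    (by simpa only [eR] using hd01) (pow_ne_zero N ha₂) (pow_ne_zero N hH₂) hNBG₁
    (k11 + k02) (by rw [eR]; exact hordB)
  -- the toric part
  obtain ⟨ζ20, ζ11, hζ20, hζ11, hrel⟩ := toric36 (R := R) ιA ιB hιA hιB NA.toMonoidHom
    NB.toMonoidHom h20A h11A h02A h02B h11B h20B (k := q - 1) hNVrA
    (fun f hf => by rw [hq1]; exact hNViA f hf) hNVrB
    (fun f hf => by rw [hq1]; exact hNViB f hf)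
    (fun z hz => hres20 z ((W20.valuation_le_one_iff z).1 hz.le))
    (fun z hz => hres11 z ((W11.valuation_le_one_iff z).1 hz.le))
    (fun z hz => hresB02 z ((W02.valuation_le_one_iff z).1 hz.le))
    (fun z hz => hresB11 z ((W11.valuation_le_one_iff z).1 hz.le))
    hm hζ (base36_isUnit_one_add hπ rA) (base36_isUnit_one_add hπ rB) hHA hHB
    (base36_val_one_add_sub_one_lt W10 hR10' hπ10' rA)
    (base36_val_one_add_sub_one_lt W01 hR01' hπ01' rA)
    (base36_val_one_add_sub_one_lt W10 hR10' hπ10' rB)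
    (base36_val_one_add_sub_one_lt W01 hR01' hπ01' rB)
    hNA' hNB' hr20 hr11 hr02
  -- the closed data
  have hlam : ∀ i : Fin 3, ![lam20, lam11, lam02] i ≠ 0 := by
    intro i; fin_cases i
    · exact hl20
    · exact hl11
    · exact hl02
  have hGW : ∀ i : Fin 3,
      (![W20, W11, W02] i).valuation (G₁ / ![lam20, lam11, lam02] i ^ m - 1) < 1 := by
    intro i; fin_cases i
    · exact hr20
    · exact hr11
    · exact hr02
  obtain ⟨hd₁, hd₂⟩ := hpoints G₁ ![lam20, lam11, lam02] ζ20 ζ11 hG₁0 hlam hζ20 hζ11 hGW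
    (hhor₁.pow N) (hhor₂.pow N) hrel
  -- the gluing
  set n₂ : ℕ := (q - 1) * (q - 1 + 2) with hn₂
  have hz : ∀ i : Fin 3, (![ζ20, ζ11, 1] i) ^ m = 1 := by
    intro i; fin_cases i
    · exact hζ20
    · exact hζ11
    · exact one_pow m
  have hzF : ∀ i : Fin 3, algebraMap R F (![ζ20, ζ11, 1] i) ^ m = 1 := fun i => by
    rw [← map_pow, hz i, map_one]
  have hlam₂ : ∀ i : Fin 3,
      algebraMap R F (![ζ20, ζ11, 1] i) * ![lam20, lam11, lam02] i ^ n₂ ≠ 0 := by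
    intro i
    refine mul_ne_zero ?_ (pow_ne_zero _ (hlam i))
    intro h0
    have := hzF i
    rw [h0, zero_pow hm.ne'] at this
    exact zero_ne_one this
  have hGW₂ : ∀ i : Fin 3, (![W20, W11, W02] i).valuation
      (G₁ ^ n₂ / (algebraMap R F (![ζ20, ζ11, 1] i) * ![lam20, lam11, lam02] i ^ n₂) ^ m - 1)
        < 1 := by
    intro i
    have h1 : G₁ ^ n₂ / (algebraMap R F (![ζ20, ζ11, 1] i) * ![lam20, lam11, lam02] i ^ n₂) ^ m =
        (G₁ / ![lam20, lam11, lam02] i ^ m) ^ n₂ := by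
      rw [mul_pow, hzF i, one_mul, div_pow]
      congr 1
      rw [← pow_mul, ← pow_mul, mul_comm n₂ m]
    rw [h1]
    exact base36_val_pow_sub_one_lt _ (hGW i) n₂
  have hlc1 : ∀ v : Fˣ, (v : F) = G₁ ^ n₂ → lc v = 1 := by
    intro v hv
    have hv' : v = (Units.mk0 G hG) ^ (N * n₂) := by
      apply Units.ext
      rw [hv, Units.val_pow_eq_pow_val, Units.val_mk0, hG₁, ← pow_mul]
    rw [hv', map_pow, hlcG (Units.mk0 G hG) rfl, one_pow]
  exact sheet_pow_of_model t ht hK π hπ hm hmR ζ hζ hM4 lc hlc fam (G₁ ^ n₂)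
    (fun i => algebraMap R F (![ζ20, ζ11, 1] i) * ![lam20, lam11, lam02] i ^ n₂) hlam₂ hGW₂
    (pow_ne_zero _ hG₁0) hd₁ hd₂ hlc1

end Master

end Fermat.Agent.S36
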