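/-
S36 [ABS36] — helper3 — **[UFDLOC] part 2: the closed datum at a closed point with factorial local
ring, for ARBITRARY (non rational) horizontal divisors.**

* `exists_pow_mul_unit_of_forall_height_one` : `O` a factorial noetherian local domain, `g ∈ Frac O`
  which at every prime of height one is an `m`-th power up to a unit: then `g = γ ^ m · v`,
  `v ∈ Oˣ`;
* `ufd_localization_of_branch` : a chart `B`, a closed point `𝔪`, a sheet `𝔭 ⊆ 𝔪` generated by `z`
  locally at `𝔪`, and a branch uniformizer `u` of `𝔭` at `𝔪`: `B_𝔪` is factorial;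
* `exists_closed_datum_of_ufd`, `exists_closed_datum_of_branch` : the closed datum
  `∃ γ ≠ 0, IsUnitAtPrime 𝔪 (g / γ ^ m)` from the hypothesis at the primes of height one through
  `𝔪`;
* `exists_pow_isUnitAtPrime_of_place` (horizontal bridge: `m ∣ ord_P g` for all places `P`),
  `isUnitAtPrime_of_valuation_eq_one` (vertical bridge).
-/
import Mathlib
import Fermat.Agent.SS.LOCASM_helper5_Main
import Fermat.Agent.SS.RETR_helper1_Horiz
import Fermat.Agent.S36.UFDLOC_helper3_Alg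

set_option autoImplicit false
set_option linter.unusedSectionVars false
set_option linter.style.haveILetI false

namespace Fermat.Agent.S36

open IsLocalRing Fermat.Agent.SS AlgebraicCurve Fermat.Agent.JA

section LocalDatum

variable {O : Type*} [CommRing O] [IsDomain O] [IsNoetherianRing O] [IsLocalRing O]
  [UniqueFactorizationMonoid O]
variable {E : Type*} [Field E] [Algebra O E] [IsFractionRing O E]

/-- in a unique factorisation domain a prime of height one is principal, generated by a prime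
element. -/
theorem exists_prime_span_eq_of_height_eq_one (𝔮 : Ideal O) [h𝔮 : 𝔮.IsPrime] (hh : 𝔮.height = 1) :
    ∃ p : O, Prime p ∧ 𝔮 = Ideal.span {p} := by
  have hne : 𝔮 ≠ ⊥ := by
    rintro rfl
    rw [Ideal.height_bot] at hh
    exact zero_ne_one hh
  obtain ⟨p, hp𝔮, hp⟩ := Ideal.IsPrime.exists_mem_prime_of_ne_bot h𝔮 hne
  refine ⟨p, hp, ?_⟩
  haveI : (Ideal.span {p}).IsPrime := (Ideal.span_singleton_prime hp.ne_zero).mpr hp
  have hle : Ideal.span {p} ≤ 𝔮 := by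
    rw [Ideal.span_le]
    rintro x rfl
    exact hp𝔮
  have hpne : Ideal.span {p} ≠ ⊥ := by
    rw [Ne, Ideal.span_singleton_eq_bot]
    exact hp.ne_zero
  exact (eq_of_le_of_height_eq_one hle hpne hh).symm

/-- **the closed datum in a factorial local ring** (no rationality hypothesis on the divisor): if
`g` is an `m`-th power up to a unit at every prime of height one, then `g = γ ^ m · v` with `v` a
unit. -/
theorem exists_pow_mul_unit_of_forall_height_one (m : ℕ) :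
    ∀ (n : ℕ) (g : E), g ≠ 0 →
      {𝔮 : Ideal O | 𝔮.IsPrime ∧ 𝔮.height = 1 ∧ ¬ IsUnitAtPrime 𝔮 g}.ncard ≤ n →
      (∀ 𝔮 : Ideal O, 𝔮.IsPrime → 𝔮.height = 1 →
        ∃ γ : E, γ ≠ 0 ∧ IsUnitAtPrime 𝔮 (g * (γ ^ m)⁻¹)) →
      ∃ (γ : E) (v : Oˣ), γ ≠ 0 ∧ g = γ ^ m * algebraMap O E (v : O) := by
  classical
  intro n
  induction n with
  | zero =>
    intro g hg hcard _
    have hfin := finite_setOf_not_isUnitAtPrime (R := O) hg
    have hempty : {𝔮 : Ideal O | 𝔮.IsPrime ∧ 𝔮.height = 1 ∧ ¬ IsUnitAtPrime 𝔮 g} = ∅ := by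
      rw [← Set.ncard_eq_zero hfin]
      exact Nat.le_zero.mp hcard
    obtain ⟨u, hu⟩ := exists_unit_of_forall_height_one (R := O) g hg (fun P hP hh => by
      by_contra hcon
      have : P ∈ {𝔮 : Ideal O | 𝔮.IsPrime ∧ 𝔮.height = 1 ∧ ¬ IsUnitAtPrime 𝔮 g} :=
        ⟨hP, hh, fun hu => hcon hu⟩
      rw [hempty] at this
      exact this)
    exact ⟨1, u, one_ne_zero, by rw [one_pow, one_mul, hu]⟩
  | succ n ih =>
    intro g hg hcard hpow
    have hfin := finite_setOf_not_isUnitAtPrime (R := O) hg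
    by_cases hempty : {𝔮 : Ideal O | 𝔮.IsPrime ∧ 𝔮.height = 1 ∧ ¬ IsUnitAtPrime 𝔮 g} = ∅
    · exact ih g hg (by rw [hempty, Set.ncard_empty]; exact Nat.zero_le _) hpow
    obtain ⟨𝔮, h𝔮, hh, hnu⟩ := Set.nonempty_iff_ne_empty.mpr hempty
    haveI := h𝔮
    obtain ⟨p, hp, h𝔮p⟩ := exists_prime_span_eq_of_height_eq_one 𝔮 hh
    have hp𝔮 : p ∈ 𝔮 := by rw [h𝔮p]; exact Ideal.subset_span rfl
    have hloc : ∀ z ∈ 𝔮, ∃ s : O, s ∉ 𝔮 ∧ p ∣ s * z := by
      intro z hz
      refine ⟨1, fun h1 => h𝔮.ne_top ((Ideal.eq_top_iff_one _).mpr h1), ?_⟩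
      rw [one_mul]
      rw [h𝔮p, Ideal.mem_span_singleton] at hz
      exact hz
    obtain ⟨γ₀, hγ₀, hγ₀u⟩ := hpow 𝔮 h𝔮 hh
    obtain ⟨e, he⟩ := exists_zpow_isUnitAtPrime (K := E) 𝔮 hp𝔮 hloc hγ₀
    set P : E := algebraMap O E p ^ e with hP
    have hpE : algebraMap O E p ≠ 0 :=
      (map_ne_zero_iff _ (IsFractionRing.injective O E)).mpr hp.ne_zero
    have hP0 : P ≠ 0 := zpow_ne_zero _ hpE
    have hPm0 : P ^ m ≠ 0 := pow_ne_zero _ hP0
    set g' : E := g * (P ^ m)⁻¹ with hg'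
    have hg'0 : g' ≠ 0 := mul_ne_zero hg (inv_ne_zero hPm0)
    -- `P` is a unit at the other primes of height one
    have hPunit : ∀ 𝔮' : Ideal O, 𝔮'.IsPrime → 𝔮'.height = 1 → 𝔮' ≠ 𝔮 → IsUnitAtPrime 𝔮' P := by
      intro 𝔮' h𝔮' hh' hne
      haveI := h𝔮'
      have hp𝔮' : p ∉ 𝔮' := by
        intro hmem
        apply hne
        have hle : 𝔮 ≤ 𝔮' := by
          rw [h𝔮p, Ideal.span_le]
          rintro x rfl
          exact hmem
        have h𝔮ne : 𝔮 ≠ ⊥ := by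
          rintro hbot
          rw [hbot, Ideal.height_bot] at hh
          exact zero_ne_one hh
        exact (eq_of_le_of_height_eq_one hle h𝔮ne hh').symm
      exact (isUnitAtPrime_algebraMap hp𝔮').zpow e
    -- `g'` is a unit at `𝔮`
    have hg'𝔮 : IsUnitAtPrime 𝔮 g' := by
      have h1 := hγ₀u.mul (he.pow m)
      have h2 : g * (γ₀ ^ m)⁻¹ * (γ₀ * P⁻¹) ^ m = g' := by
        rw [hg', mul_pow, inv_pow]
        field_simp
      rwa [h2] at h1
    have hsub : {𝔮' : Ideal O | 𝔮'.IsPrime ∧ 𝔮'.height = 1 ∧ ¬ IsUnitAtPrime 𝔮' g'} ⊆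
        {𝔮' : Ideal O | 𝔮'.IsPrime ∧ 𝔮'.height = 1 ∧ ¬ IsUnitAtPrime 𝔮' g} \ {𝔮} := by
      rintro 𝔮' ⟨h𝔮', hh', hnu'⟩
      haveI := h𝔮'
      have hne : 𝔮' ≠ 𝔮 := by
        rintro rfl
        exact hnu' hg'𝔮
      refine ⟨⟨h𝔮', hh', fun hgu => hnu' ?_⟩, hne⟩
      exact hgu.mul ((hPunit 𝔮' h𝔮' hh' hne).pow m).inv
    have hcard' : {𝔮' : Ideal O | 𝔮'.IsPrime ∧ 𝔮'.height = 1 ∧ ¬ IsUnitAtPrime 𝔮' g'}.ncard ≤ n := by
      have h1 := Set.ncard_le_ncard hsub (hfin.subset Set.sdiff_subset)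
      have h2 := Set.ncard_sdiff_singleton_of_mem (s := {𝔮' : Ideal O | 𝔮'.IsPrime ∧ 𝔮'.height = 1 ∧
        ¬ IsUnitAtPrime 𝔮' g}) (a := 𝔮) ⟨h𝔮, hh, hnu⟩
      omega
    have hpow' : ∀ 𝔮' : Ideal O, 𝔮'.IsPrime → 𝔮'.height = 1 →
        ∃ γ : E, γ ≠ 0 ∧ IsUnitAtPrime 𝔮' (g' * (γ ^ m)⁻¹) := by
      intro 𝔮' h𝔮' hh'
      obtain ⟨γ, hγ, hγu⟩ := hpow 𝔮' h𝔮' hh'
      refine ⟨γ * P⁻¹, mul_ne_zero hγ (inv_ne_zero hP0), ?_⟩
      have : g' * ((γ * P⁻¹) ^ m)⁻¹ = g * (γ ^ m)⁻¹ := by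
        rw [hg', mul_pow, inv_pow]
        field_simp
      rwa [this]
    obtain ⟨γ', v, hγ', hgv⟩ := ih g' hg'0 hcard' hpow'
    refine ⟨γ' * P, v, mul_ne_zero hγ' hP0, ?_⟩
    have : g = g' * P ^ m := by
      rw [hg']
      field_simp
    rw [this, hgv, mul_pow]
    ring

end LocalDatum


section ChartUFD

variable {B : Type*} [CommRing B] [IsDomain B] [IsNoetherianRing B]
variable {R : Type*} [CommRing R] [IsDomain R] [IsLocalRing R] [Algebra B R]

/-- **local factoriality of a chart at a closed point**: `𝔭 ⊆ 𝔪` a prime of the chart `B` which is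
generated by `z` locally at `𝔪` (`z` a local equation of the sheet `𝔭`), `u` a branch uniformizer
of `𝔭` at `𝔪` (the sheet is smooth at `𝔪`): the local ring `B_𝔪` is factorial. -/
theorem ufd_localization_of_branch (𝔪 : Ideal B) [h𝔪 : 𝔪.IsPrime] [IsLocalization.AtPrime R 𝔪]
    (𝔭 : Ideal B) [h𝔭 : 𝔭.IsPrime] (hle : 𝔭 ≤ 𝔪) {z u : B} (hz : z ∈ 𝔭) (hz0 : z ≠ 0)
    (hgen : ∀ w ∈ 𝔭, ∃ s : B, s ∉ 𝔪 ∧ z ∣ s * w) (hu : IsBranchUniformizer 𝔭 𝔪 u) :
    UniqueFactorizationMonoid R := by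
  have hS : 𝔪.primeCompl ≤ nonZeroDivisors B := Ideal.primeCompl_le_nonZeroDivisors _
  have hinj : Function.Injective (algebraMap B R) := IsLocalization.injective R hS
  haveI : IsNoetherianRing R := IsLocalization.isNoetherianRing 𝔪.primeCompl R inferInstance
  -- `𝔭 R = (z)`
  have hmap : 𝔭.map (algebraMap B R) = Ideal.span {algebraMap B R z} := by
    apply le_antisymm
    · rw [Ideal.map_le_iff_le_comap]
      intro w hw
      obtain ⟨s, hs, a, ha⟩ := hgen w hw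
      rw [Ideal.mem_comap, Ideal.mem_span_singleton]
      have hsu : IsUnit (algebraMap B R s) :=
        IsLocalization.map_units R (⟨s, hs⟩ : 𝔪.primeCompl)
      obtain ⟨su, hsu'⟩ := hsu
      refine ⟨((su⁻¹ : Rˣ) : R) * algebraMap B R a, ?_⟩
      have h1 : algebraMap B R s * algebraMap B R w = algebraMap B R z * algebraMap B R a := by
        rw [← map_mul, ha, map_mul]
      have h2 : ((su⁻¹ : Rˣ) : R) * (su : R) = 1 := Units.inv_mul su
      rw [← hsu'] at h1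
      linear_combination (((su⁻¹ : Rˣ) : R)) * h1 - (algebraMap B R w) * h2
    · rw [Ideal.span_le]
      rintro x rfl
      exact Ideal.mem_map_of_mem _ hz
  have hzR0 : algebraMap B R z ≠ 0 := (map_ne_zero_iff _ hinj).mpr hz0
  have hprime : Prime (algebraMap B R z) := by
    rw [← Ideal.span_singleton_prime hzR0, ← hmap]
    exact map_isPrime_of_le 𝔪 𝔭 hle
  have hmax : maximalIdeal R = Ideal.span {algebraMap B R z, algebraMap B R u} := by
    apply le_antisymm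
    · intro w hw
      obtain ⟨a, ha⟩ := hu.gen_localization (R := R) 𝔪 w hw
      rw [hmap, Ideal.mem_span_singleton] at ha
      obtain ⟨c, hc⟩ := ha
      have : w = c * algebraMap B R z + a * algebraMap B R u := by
        linear_combination hc
      rw [this]
      exact Ideal.add_mem _ (Ideal.mul_mem_left _ _ (Ideal.subset_span (by simp)))
        (Ideal.mul_mem_left _ _ (Ideal.subset_span (by simp)))
    · rw [Ideal.span_le]
      rintro x hx
      rcases hx with rfl | hx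
      · exact (IsLocalization.AtPrime.to_map_mem_maximal_iff R 𝔪 z).mpr (hle hz)
      · rw [Set.mem_singleton_iff] at hx
        rw [hx]
        exact (IsLocalization.AtPrime.to_map_mem_maximal_iff R 𝔪 u).mpr hu.mem
  exact ufd_of_maximalIdeal_eq_span_pair hprime hmax

end ChartUFD


section ChartDatum

variable {B : Type*} [CommRing B] [IsDomain B] [IsNoetherianRing B]
variable {E : Type*} [Field E] [Algebra B E] [IsFractionRing B E]

/-- **the closed datum at a closed point with factorial local ring** (abstract localisation). -/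
theorem exists_closed_datum_of_ufd {R : Type*} [CommRing R] [IsDomain R] [IsLocalRing R]
    [Algebra B R] [Algebra R E] [IsScalarTower B R E] [IsFractionRing R E]
    [UniqueFactorizationMonoid R]
    (𝔪 : Ideal B) [h𝔪 : 𝔪.IsPrime] [IsLocalization.AtPrime R 𝔪] (m : ℕ) {g : E} (hg : g ≠ 0)
    (hdiv : ∀ 𝔮 : Ideal B, 𝔮.IsPrime → 𝔮.height = 1 → 𝔮 ≤ 𝔪 →
      ∃ γ : E, γ ≠ 0 ∧ IsUnitAtPrime 𝔮 (g * (γ ^ m)⁻¹)) :
    ∃ γ : E, γ ≠ 0 ∧ IsUnitAtPrime 𝔪 (g * (γ ^ m)⁻¹) := by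
  haveI : IsNoetherianRing R := IsLocalization.isNoetherianRing 𝔪.primeCompl R inferInstance
  obtain ⟨γ, v, hγ, hgv⟩ := exists_pow_mul_unit_of_forall_height_one (O := R) (E := E) m _ g hg
    le_rfl (fun 𝔮 h𝔮 hh => by
      haveI := h𝔮
      obtain ⟨γ, hγ, hu⟩ := hdiv (𝔮.comap (algebraMap B R)) (Ideal.comap_isPrime _ _)
        (height_comap_eq_one 𝔪 𝔮 hh) (comap_le_of_isPrime 𝔪 𝔮)
      exact ⟨γ, hγ, isUnitAtPrime_of_comap 𝔮 hu⟩)
  refine ⟨γ, hγ, ?_⟩
  have hγm : γ ^ m ≠ 0 := pow_ne_zero _ hγ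
  have : g * (γ ^ m)⁻¹ = algebraMap R E (v : R) := by
    rw [hgv]
    field_simp
  rw [this]
  exact isUnitAtPrime_of_unit_localization 𝔪 v

/-- **the closed datum at a closed point `𝔪` of a chart through which a sheet `𝔭` passes smoothly
with a local equation `z`** (`z = π` at the one-sheet points of a reduced sheet, `z = b` at the
one-sheet points of the ramified sheet, `z` a local equation of one branch at a crossing point):
if `g` is an `m`-th power up to a unit at every prime of height one through `𝔪` (horizontal or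
vertical, rational or not), then `g` is an `m`-th power up to a unit at `𝔪`. -/
theorem exists_closed_datum_of_branch (𝔪 : Ideal B) [h𝔪 : 𝔪.IsPrime]
    (𝔭 : Ideal B) [h𝔭 : 𝔭.IsPrime] (hle : 𝔭 ≤ 𝔪) {z u : B} (hz : z ∈ 𝔭) (hz0 : z ≠ 0)
    (hgen : ∀ w ∈ 𝔭, ∃ s : B, s ∉ 𝔪 ∧ z ∣ s * w) (hu : IsBranchUniformizer 𝔭 𝔪 u)
    (m : ℕ) {g : E} (hg : g ≠ 0)
    (hdiv : ∀ 𝔮 : Ideal B, 𝔮.IsPrime → 𝔮.height = 1 → 𝔮 ≤ 𝔪 →
      ∃ γ : E, γ ≠ 0 ∧ IsUnitAtPrime 𝔮 (g * (γ ^ m)⁻¹)) :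
    ∃ γ : E, γ ≠ 0 ∧ IsUnitAtPrime 𝔪 (g * (γ ^ m)⁻¹) := by
  have hS : 𝔪.primeCompl ≤ nonZeroDivisors B := Ideal.primeCompl_le_nonZeroDivisors _
  have hunits : ∀ s : 𝔪.primeCompl, IsUnit (algebraMap B E s) := fun s =>
    Localization.map_isUnit_of_le E 𝔪.primeCompl hS s
  letI : Algebra (Localization.AtPrime 𝔪) E :=
    (IsLocalization.lift (M := 𝔪.primeCompl) (S := Localization.AtPrime 𝔪) hunits).toAlgebra
  haveI : IsScalarTower B (Localization.AtPrime 𝔪) E :=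
    IsScalarTower.of_algebraMap_eq (fun b => (IsLocalization.lift_eq hunits b).symm)
  haveI : IsFractionRing (Localization.AtPrime 𝔪) E :=
    IsFractionRing.isFractionRing_of_isDomain_of_isLocalization 𝔪.primeCompl
      (Localization.AtPrime 𝔪) E
  haveI : UniqueFactorizationMonoid (Localization.AtPrime 𝔪) :=
    ufd_localization_of_branch (R := Localization.AtPrime 𝔪) 𝔪 𝔭 hle hz hz0 hgen hu
  exact exists_closed_datum_of_ufd (R := Localization.AtPrime 𝔪) 𝔪 m hg hdiv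

end ChartDatum


section Bridges

variable {R₁ : Type*} [CommRing R₁] [IsDomain R₁] [IsDiscreteValuationRing R₁]
  {K₁ : Type*} [Field K₁] [Algebra R₁ K₁] [IsFractionRing R₁ K₁]
  {E : Type*} [Field E] [Algebra K₁ E] [Algebra R₁ E] [IsScalarTower R₁ K₁ E]
  {O : Type*} [CommRing O] [IsDomain O] [IsNoetherianRing O] [IsIntegrallyClosed O]
  [Algebra R₁ O] [Algebra O E] [IsScalarTower R₁ O E] [IsFractionRing O E]

/-- **horizontal bridge**: a function whose order at every place of `E/K₁` is divisible by `m` is,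
at every horizontal prime of height one of the chart `O`, an `m`-th power up to a unit. -/
theorem exists_pow_isUnitAtPrime_of_place {π : R₁} (hπ : Irreducible π) (𝔮 : Ideal O) [h𝔮' : 𝔮.IsPrime]
    (h𝔮 : 𝔮.height = 1) (hπ𝔮 : algebraMap R₁ O π ∉ 𝔮) {m : ℕ} {g : E} (hg : g ≠ 0)
    (hord : ∀ P : Place K₁ E, (m : ℤ) ∣ P.ord g) :
    ∃ γ : E, γ ≠ 0 ∧ IsUnitAtPrime 𝔮 (g * (γ ^ m)⁻¹) := by
  obtain ⟨P, hO, hP⟩ := exists_place_centreIdeal_eq (K₁ := K₁) (E := E) hπ 𝔮 h𝔮 hπ𝔮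
  obtain ⟨z, hz, hz0, hloc⟩ := exists_local_generator_of_height_eq_one 𝔮 h𝔮
  obtain ⟨e, he⟩ := exists_zpow_isUnitAtPrime (K := E) 𝔮 hz hloc hg
  have hord' : P.ord g = e := by
    subst hP
    exact (ord_eq_of_isUnitAtPrime P hO hz hz0 hloc).2 g e he
  obtain ⟨k, hk⟩ := hord P
  have hzE : algebraMap O E z ≠ 0 :=
    (map_ne_zero_iff _ (IsFractionRing.injective O E)).mpr hz0
  refine ⟨algebraMap O E z ^ k, zpow_ne_zero _ hzE, ?_⟩
  have : (algebraMap O E z ^ k) ^ m = algebraMap O E z ^ e := by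
    rw [← zpow_natCast, ← zpow_mul, ← hord', hk, mul_comm]
  rwa [this]

end Bridges

section Vertical

variable {B : Type*} [CommRing B] [IsDomain B]
variable {E : Type*} [Field E] [Algebra B E] [IsFractionRing B E]

/-- **vertical bridge**: if the valuation ring `W` is the local ring of the chart `B` at the prime
`𝔭`, the elements of `W`-valuation one are units at `𝔭`. -/
theorem isUnitAtPrime_of_valuation_eq_one {W : ValuationSubring E} {𝔭 : Ideal B}
    (h𝔭 : ∀ b : B, b ∈ 𝔭 ↔ W.valuation (algebraMap B E b) < 1)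
    (hloc : ∀ x ∈ W, ∃ r s : B, s ∉ 𝔭 ∧ x * algebraMap B E s = algebraMap B E r)
    {x : E} (hx : W.valuation x = 1) : IsUnitAtPrime 𝔭 x := by
  obtain ⟨r, s, hs, hrs⟩ := hloc x ((ValuationSubring.valuation_le_one_iff _ _).mp hx.le)
  refine ⟨r, s, ?_, hs, hrs⟩
  intro hr
  have h1 := (h𝔭 r).mp hr
  rw [← hrs, map_mul, hx, one_mul] at h1
  exact hs ((h𝔭 s).mpr h1)

end Vertical


end Fermat.Agent.S36
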