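/-
S36 — helper4 — [BASE36], part 4: **the horizontal clause from the places** (both charts), and the
leading-coefficient clause.

* `horPow36_of_place` : `∀ P : Place K₁ F, m ∣ P.ord G` ⇒ `HorPow36 τ hKτ π m G` on the chart
  `chartOne R F τ` (helper3's `exists_pow_isUnitAtPrime_of_place`);
* `base36_lc_eq_one_of_leadingCoeff` : `hostLc E v = 1` for `(v : E) = G` monic.
-/
import Mathlib
import Fermat.Agent.S36.BASE36_helper4_Abs
import Fermat.Agent.S36.UFDLOC_helper3_Datum
import Fermat.Agent.SS.LC_helper5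

set_option autoImplicit false
set_option linter.unusedSectionVars false
set_option linter.unusedVariables false
set_option linter.style.haveILetI false

open AlgebraicCurve

namespace Fermat.Agent.S36

open Fermat.Agent.JA Fermat.Agent.SS

section Hor

variable {R : Type*} [CommRing R] [IsDomain R] [IsDiscreteValuationRing R] [CharZero R]
  {K₁ : Type*} [Field K₁] [Algebra R K₁] [IsFractionRing R K₁]
  {K : Type*} [Field K] [Algebra K₁ K] [Algebra R K] [IsScalarTower R K₁ K]
  {F : Type*} [Field F] [Algebra K F] [Algebra K₁ F] [IsScalarTower K₁ K F] [Algebra R F]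
  [IsScalarTower R K F] [FiniteDimensional K F]

/-- **the horizontal clause on a chart from the places of `F / K₁`.** -/
theorem horPow36_of_place (τ : K) (hτ : Transcendental K₁ τ)
    (hKτ : IntermediateField.adjoin K₁ {τ} = ⊤) {π : R} (hπ : Irreducible π) {m : ℕ} {G : F}
    (hG : G ≠ 0) (hord : ∀ P : Place K₁ F, (m : ℤ) ∣ P.ord G) :
    HorPow36 (K₁ := K₁) τ hKτ π m G := by
  haveI : IsFractionRing ↥(chartOne R F τ) F := isFractionRing_chartOne (K₁ := K₁) τ hKτ
  haveI : IsNoetherianRing ↥(chartOne R F τ) := isNoetherianRing_chartOne (K₁ := K₁) τ hτ hKτ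
  haveI : IsIntegrallyClosed ↥(chartOne R F τ) := isIntegrallyClosed_chartOne (K₁ := K₁) τ hKτ
  haveI : IsScalarTower R K₁ F := IsScalarTower.of_algebraMap_eq fun r => by
    rw [IsScalarTower.algebraMap_apply R K F, IsScalarTower.algebraMap_apply R K₁ K,
      ← IsScalarTower.algebraMap_apply K₁ K F]
  intro 𝔮 h𝔮 hh hπ𝔮
  haveI := h𝔮
  exact exists_pow_isUnitAtPrime_of_place (K₁ := K₁) (E := F) hπ 𝔮 hh hπ𝔮 hG hord

end Hor

section Lc

variable {L : Type*} [Field L] (E : IntermediateField L (LaurentSeries L))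

/-- the `hlcG` clause from monicity. -/
theorem base36_lc_eq_one_of_leadingCoeff {G : ↥E}
    (hlead : ((G : ↥E) : LaurentSeries L).leadingCoeff = 1) (v : (↥E)ˣ) (hv : (v : ↥E) = G) :
    hostLc E v = 1 := by
  apply Units.ext
  rw [coe_hostLc, hv, Units.val_one]
  exact hlead

end Lc

end Fermat.Agent.S36
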