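/-
S36 — helper4 — **[CUSP36]: `m ∣ ord_W G` from `lc G = 1` at a cuspidal closed point** (abstract).

`B` a noetherian chart with fraction field `E` over a discrete valuation ring `R` (`K₁ = Frac R`,
uniformizer `π`), `𝔪` a closed point of the special fibre through which exactly one vertical
component `𝔭` (valuation ring `W`) passes, smoothly with a local equation `z` (so that the local
ring at `𝔪` is factorial: helper3's `exists_closed_datum_of_branch`), and a "leading coefficient"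
character `lc : Eˣ →* K₁ˣ` whose values on the elements of `B` outside `𝔪` are units of `R`
(at the cusp `x = 0` of a host `E ⊂ K₁⸨x⸩`: the elements of the chart are power series with
coefficients in `R`, and `𝔪 = {constant coefficient ≡ 0 mod π}`).  If `G` is an `m`-th power up to a
unit at the horizontal primes of height one through `𝔪`, `lc G = 1` and
`W.valuation G = W.valuation π ^ a`, then `m ∣ a` (`cusp36_dvd`).  This is the hypothesis `hG20` of
`roots36`: it does NOT follow from the norm conditions (`G ↦ π G` preserves them).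
-/
import Mathlib
import Fermat.Agent.S36.UFDLOC_helper3_Datum

set_option autoImplicit false
set_option linter.unusedSectionVars false
set_option linter.style.haveILetI false

namespace Fermat.Agent.S36

open Fermat.Agent.SS Fermat.Agent.JA

section DVR

variable {R : Type*} [CommRing R] [IsDomain R] [IsDiscreteValuationRing R]
  {K₁ : Type*} [Field K₁] [Algebra R K₁] [IsFractionRing R K₁]

/-- every nonzero element of `Frac R` (`R` a discrete valuation ring with uniformizer `π`) is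
`π ^ n * unit`, `n : ℤ`. -/
theorem cusp36_exists_zpow_mul_unit {π : R} (hπ : Irreducible π) (x : K₁) (hx : x ≠ 0) :
    ∃ (n : ℤ) (ε : Rˣ), x = algebraMap R K₁ π ^ n * algebraMap R K₁ (ε : R) := by
  obtain ⟨a, b, hb, rfl⟩ := IsFractionRing.div_surjective (A := R) x
  have hb0 : b ≠ 0 := nonZeroDivisors.ne_zero hb
  have ha0 : a ≠ 0 := by
    rintro rfl
    rw [map_zero, zero_div] at hx
    exact hx rfl
  obtain ⟨i, u, hu⟩ := IsDiscreteValuationRing.eq_unit_mul_pow_irreducible ha0 hπ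
  obtain ⟨j, v, hv⟩ := IsDiscreteValuationRing.eq_unit_mul_pow_irreducible hb0 hπ
  have hπK : algebraMap R K₁ π ≠ 0 :=
    (map_ne_zero_iff _ (IsFractionRing.injective R K₁)).mpr hπ.ne_zero
  have hvK : algebraMap R K₁ (v : R) ≠ 0 :=
    (map_ne_zero_iff _ (IsFractionRing.injective R K₁)).mpr v.ne_zero
  refine ⟨(i : ℤ) - (j : ℤ), u * v⁻¹, ?_⟩
  have hvinv : algebraMap R K₁ ((v⁻¹ : Rˣ) : R) = (algebraMap R K₁ (v : R))⁻¹ := by
    exact eq_inv_of_mul_eq_one_left (by rw [← map_mul, Units.inv_mul, map_one])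
  rw [hu, hv, map_mul, map_mul, map_pow, map_pow, zpow_sub₀ hπK, zpow_natCast, zpow_natCast,
    Units.val_mul, map_mul, hvinv]
  field_simp

/-- `π ^ n * unit = unit` forces `n = 0`. -/
theorem cusp36_zpow_eq_zero {π : R} (hπ : Irreducible π) {n : ℤ} {ε ε' : Rˣ}
    (h : algebraMap R K₁ π ^ n * algebraMap R K₁ (ε : R) = algebraMap R K₁ (ε' : R)) : n = 0 := by
  have hinj := IsFractionRing.injective R K₁
  have hπK : algebraMap R K₁ π ≠ 0 := (map_ne_zero_iff _ hinj).mpr hπ.ne_zero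
  have key : ∀ k : ℕ, ∀ ε ε' : Rˣ, algebraMap R K₁ π ^ k * algebraMap R K₁ (ε : R) =
      algebraMap R K₁ (ε' : R) → k = 0 := by
    intro k ε ε' hk
    by_contra hk0
    rw [← map_pow, ← map_mul] at hk
    have h1 : π ^ k * (ε : R) = (ε' : R) := hinj hk
    have h2 : IsUnit (π ^ k) := by
      have : IsUnit (π ^ k * (ε : R)) := h1 ▸ ε'.isUnit
      exact (IsUnit.mul_iff.mp this).1
    exact hπ.not_isUnit ((isUnit_pow_iff hk0).mp h2)
  rcases le_total 0 n with hn | hn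
  · obtain ⟨k, rfl⟩ := Int.eq_ofNat_of_zero_le hn
    rw [zpow_natCast] at h
    exact_mod_cast key k ε ε' h
  · obtain ⟨k, hk⟩ := Int.eq_ofNat_of_zero_le (neg_nonneg.mpr hn)
    have hn' : n = -(k : ℤ) := by omega
    rw [hn', zpow_neg, zpow_natCast] at h
    have h' : algebraMap R K₁ π ^ k * algebraMap R K₁ (ε' : R) = algebraMap R K₁ (ε : R) := by
      rw [← h]
      field_simp
    have := key k ε' ε h'
    omega

end DVR

section Cusp

variable {R : Type*} [CommRing R] [IsDomain R] [IsDiscreteValuationRing R]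
  {K₁ : Type*} [Field K₁] [Algebra R K₁] [IsFractionRing R K₁]
  {B : Type*} [CommRing B] [IsDomain B] [IsNoetherianRing B] [Algebra R B]
  {E : Type*} [Field E] [Algebra B E] [IsFractionRing B E]

/-- **[CUSP36]**: at a closed point `𝔪` of the special fibre lying on a single vertical component
`𝔭 ↔ W` (smooth there, local equation `z`), if the leading-coefficient character `lc` takes
`R`-unit values on `B ∖ 𝔪`, `lc G = 1`, and `G` is an `m`-th power up to units at the horizontal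
primes of height one through `𝔪`, then the order of `G` along `W` is divisible by `m`. -/
theorem cusp36_dvd {π : R} (hπ : Irreducible π) (hπB : algebraMap R B π ≠ 0)
    (𝔪 : Ideal B) [h𝔪 : 𝔪.IsPrime] (𝔭 : Ideal B) [h𝔭' : 𝔭.IsPrime] (hle : 𝔭 ≤ 𝔪) {z u : B}
    (hz : z ∈ 𝔭) (hz0 : z ≠ 0) (hgen : ∀ w ∈ 𝔭, ∃ s : B, s ∉ 𝔪 ∧ z ∣ s * w)
    (hu : IsBranchUniformizer 𝔭 𝔪 u)
    (honly : ∀ 𝔮 : Ideal B, 𝔮.IsPrime → 𝔮.height = 1 → 𝔮 ≤ 𝔪 → algebraMap R B π ∈ 𝔮 → 𝔮 = 𝔭)
    (W : ValuationSubring E) (h𝔭 : ∀ b : B, b ∈ 𝔭 ↔ W.valuation (algebraMap B E b) < 1)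
    (hloc : ∀ x ∈ W, ∃ r s : B, s ∉ 𝔭 ∧ x * algebraMap B E s = algebraMap B E r)
    (lc : Eˣ →* K₁ˣ)
    (hlcπ : ∀ v : Eˣ, (v : E) = algebraMap B E (algebraMap R B π) →
      ((lc v : K₁ˣ) : K₁) = algebraMap R K₁ π)
    (hlcunit : ∀ b : B, b ∉ 𝔪 → ∀ v : Eˣ, (v : E) = algebraMap B E b →
      ∃ ε : Rˣ, ((lc v : K₁ˣ) : K₁) = algebraMap R K₁ (ε : R))
    {m : ℕ} {G : E} (hG : G ≠ 0) (hlcG : ∀ v : Eˣ, (v : E) = G → lc v = 1)
    (hhor : ∀ 𝔮 : Ideal B, 𝔮.IsPrime → 𝔮.height = 1 → algebraMap R B π ∉ 𝔮 → 𝔮 ≤ 𝔪 →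
      ∃ γ : E, γ ≠ 0 ∧ IsUnitAtPrime 𝔮 (G * (γ ^ m)⁻¹))
    (a : ℤ) (ha : W.valuation G = W.valuation (algebraMap B E (algebraMap R B π)) ^ a) :
    (m : ℤ) ∣ a := by
  set πE : E := algebraMap B E (algebraMap R B π) with hπEdef
  have hπE0 : πE ≠ 0 := (map_ne_zero_iff _ (IsFractionRing.injective B E)).mpr hπB
  have hπa0 : πE ^ a ≠ 0 := zpow_ne_zero _ hπE0
  -- the `W`-unit `g = G / π ^ a`
  set g : E := G * (πE ^ a)⁻¹ with hgdef
  have hg : g ≠ 0 := mul_ne_zero hG (inv_ne_zero hπa0)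
  have hWg : W.valuation g = 1 := by
    rw [hgdef, map_mul, map_inv₀, map_zpow₀, ha]
    exact mul_inv_cancel₀ (by
      rw [← map_zpow₀]
      exact (map_ne_zero _).mpr hπa0)
  -- `g` is an `m`-th power up to a unit at every height-one prime through `𝔪`
  have hdiv : ∀ 𝔮 : Ideal B, 𝔮.IsPrime → 𝔮.height = 1 → 𝔮 ≤ 𝔪 →
      ∃ γ : E, γ ≠ 0 ∧ IsUnitAtPrime 𝔮 (g * (γ ^ m)⁻¹) := by
    intro 𝔮 h𝔮 hh hle'
    haveI := h𝔮
    by_cases hπ𝔮 : algebraMap R B π ∈ 𝔮
    · obtain rfl := honly 𝔮 h𝔮 hh hle' hπ𝔮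
      refine ⟨1, one_ne_zero, ?_⟩
      rw [one_pow, inv_one, mul_one]
      exact isUnitAtPrime_of_valuation_eq_one h𝔭 hloc hWg
    · obtain ⟨γ, hγ, hγu⟩ := hhor 𝔮 h𝔮 hh hπ𝔮 hle'
      refine ⟨γ, hγ, ?_⟩
      have h1 : IsUnitAtPrime 𝔮 πE := isUnitAtPrime_algebraMap hπ𝔮
      have h2 : g * (γ ^ m)⁻¹ = G * (γ ^ m)⁻¹ * (πE ^ a)⁻¹ := by
        rw [hgdef]; ring
      rw [h2]
      exact hγu.mul (h1.zpow a).inv
  obtain ⟨γ, hγ, r, s, hr, hs, hrs⟩ :=
    exists_closed_datum_of_branch 𝔪 𝔭 hle hz hz0 hgen hu m hg hdiv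
  have hr0 : algebraMap B E r ≠ 0 := by
    refine (map_ne_zero_iff _ (IsFractionRing.injective B E)).mpr ?_
    rintro rfl
    exact hr 𝔪.zero_mem
  have hs0 : algebraMap B E s ≠ 0 := by
    refine (map_ne_zero_iff _ (IsFractionRing.injective B E)).mpr ?_
    rintro rfl
    exact hs 𝔪.zero_mem
  -- the identity between units of `E`
  have hunit : Units.mk0 G hG * (Units.mk0 πE hπE0 ^ a)⁻¹ * (Units.mk0 γ hγ ^ m)⁻¹ *
      Units.mk0 _ hs0 = Units.mk0 _ hr0 := by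
    apply Units.ext
    simp only [Units.val_mul, Units.val_inv_eq_inv_val, Units.val_zpow_eq_zpow_val,
      Units.val_pow_eq_pow_val, Units.val_mk0]
    rw [← hrs, hgdef]
  have hlc := congrArg (fun v : Eˣ => ((lc v : K₁ˣ) : K₁)) hunit
  simp only [map_mul, map_inv, map_zpow, map_pow, Units.val_mul, Units.val_inv_eq_inv_val,
    Units.val_zpow_eq_zpow_val, Units.val_pow_eq_pow_val] at hlc
  rw [hlcG (Units.mk0 G hG) rfl, Units.val_one, one_mul,
    hlcπ (Units.mk0 πE hπE0) rfl] at hlc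
  obtain ⟨εs, hεs⟩ := hlcunit s hs (Units.mk0 _ hs0) rfl
  obtain ⟨εr, hεr⟩ := hlcunit r hr (Units.mk0 _ hr0) rfl
  rw [hεs, hεr] at hlc
  obtain ⟨k, εγ, hk⟩ := cusp36_exists_zpow_mul_unit hπ ((lc (Units.mk0 γ hγ) : K₁ˣ) : K₁)
    (Units.ne_zero _)
  rw [hk] at hlc
  have hπK : algebraMap R K₁ π ≠ 0 :=
    (map_ne_zero_iff _ (IsFractionRing.injective R K₁)).mpr hπ.ne_zero
  have hεγK : algebraMap R K₁ (εγ : R) ≠ 0 :=
    (map_ne_zero_iff _ (IsFractionRing.injective R K₁)).mpr εγ.ne_zero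
  have hεinv : algebraMap R K₁ (((εγ⁻¹) ^ m * εs : Rˣ) : R) =
      ((algebraMap R K₁ (εγ : R)) ^ m)⁻¹ * algebraMap R K₁ (εs : R) := by
    rw [Units.val_mul, Units.val_pow_eq_pow_val, map_mul, map_pow]
    congr 1
    rw [← inv_pow]
    congr 1
    exact eq_inv_of_mul_eq_one_left (by rw [← map_mul, Units.inv_mul, map_one])
  have hfin : algebraMap R K₁ π ^ (-a - (m : ℤ) * k) *
      algebraMap R K₁ (((εγ⁻¹) ^ m * εs : Rˣ) : R) = algebraMap R K₁ (εr : R) := by
    rw [hεinv, ← hlc, zpow_sub₀ hπK, zpow_neg, zpow_mul, zpow_natCast, mul_pow, mul_inv,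
      ← zpow_natCast (algebraMap R K₁ π ^ k) m, ← zpow_mul, mul_comm k (m : ℤ), zpow_mul,
      zpow_natCast]
    field_simp
  have h0 := cusp36_zpow_eq_zero hπ hfin
  exact ⟨-k, by linarith⟩

end Cusp

end Fermat.Agent.S36
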