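/-
S36 [ABS36] — helper3 — **[CONN3]: connectedness of the incidence graph of sheets and closed points
of a two-chart curve WITHOUT reducedness of the special fibre.**

Same statement as `SS.sheet_const_of_incident` (SS-CONN2), the hypotheses "`∩ P_s = π B`" being
replaced by "`∩ P_s ⊆ rad (π B)`" (the sheets are all the minimal primes over `π`; automatic for a
noetherian chart).  An idempotent modulo the radical of `π` is lifted to an idempotent modulo `π`
(`1 - (1 - e ^ n) ^ n`), and two idempotents modulo `π` whose difference is nilpotent modulo `π` are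
congruent modulo `π`.

* `exists_sep_idem_of_no_common_maximal` : CRT separation by an element idempotent modulo `I`;
* `sub_mem_of_idem_of_pow_mem` : idempotents modulo `I` with nilpotent difference are congruent;
* `sheet_const_of_incident_of_radical` : **CONN3**.
-/
import Fermat.Agent.SS.CONN2_helper3

set_option autoImplicit false
set_option linter.unusedSectionVars false
set_option linter.style.haveILetI false

namespace Fermat.Agent.S36

open Fermat.Agent.JA Fermat.Agent.SS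

section Idem

variable {A : Type*} [CommRing A]

/-- lifting an idempotent modulo the radical of `I` to an idempotent modulo `I`, keeping the
memberships `e ∈ P`, `1 - e ∈ P'` in prime (or arbitrary) ideals. -/
theorem exists_idem_mod_of_pow_mem (I : Ideal A) (e : A) (n : ℕ) (hn : (e - e ^ 2) ^ n ∈ I) :
    ∃ e' : A, e' * e' - e' ∈ I ∧ (∀ P : Ideal A, e ∈ P → e' ∈ P) ∧
      ∀ P : Ideal A, 1 - e ∈ P → 1 - e' ∈ P := by
  have hn' : (e - e ^ 2) ^ (n + 1) ∈ I := by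
    rw [pow_succ]; exact I.mul_mem_right _ hn
  refine ⟨1 - (1 - e ^ (n + 1)) ^ (n + 1), ?_, ?_, ?_⟩
  · have h1 := isIdempotentElem_one_sub_one_sub_pow_pow (Ideal.Quotient.mk I e) (n + 1) (by
      rw [← map_pow, ← map_sub, ← map_pow, Ideal.Quotient.eq_zero_iff_mem]
      exact hn')
    rw [← Ideal.Quotient.eq_zero_iff_mem, map_sub, map_mul, sub_eq_zero]
    simp only [map_sub, map_one, map_pow]
    exact h1
  · intro P he
    have h2 : (1 : A) - (1 - e ^ (n + 1)) ∣ 1 ^ (n + 1) - (1 - e ^ (n + 1)) ^ (n + 1) :=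
      sub_dvd_pow_sub_pow _ _ _
    rw [one_pow, sub_sub_cancel] at h2
    obtain ⟨c, hc⟩ := h2
    rw [hc, pow_succ, mul_assoc]
    exact P.mul_mem_left _ (P.mul_mem_right _ he)
  · intro P he
    rw [sub_sub_cancel]
    have h2 : (1 : A) - e ∣ 1 ^ (n + 1) - e ^ (n + 1) := sub_dvd_pow_sub_pow _ _ _
    rw [one_pow] at h2
    obtain ⟨c, hc⟩ := h2
    rw [hc, pow_succ]
    exact P.mul_mem_left _ (P.mul_mem_right _ he)

/-- two idempotents modulo `I` whose difference is nilpotent modulo `I` are congruent modulo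
`I`. -/
theorem sub_mem_of_idem_of_pow_mem (I : Ideal A) {a b : A} (ha : a * a - a ∈ I)
    (hb : b * b - b ∈ I) (n : ℕ) (hab : (a - b) ^ n ∈ I) : a - b ∈ I := by
  have h1 : IsIdempotentElem (Ideal.Quotient.mk I a) := by
    rw [IsIdempotentElem, ← map_mul, ← sub_eq_zero, ← map_sub, Ideal.Quotient.eq_zero_iff_mem]
    exact ha
  have h2 : IsIdempotentElem (Ideal.Quotient.mk I b) := by
    rw [IsIdempotentElem, ← map_mul, ← sub_eq_zero, ← map_sub, Ideal.Quotient.eq_zero_iff_mem]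
    exact hb
  have h3 : IsNilpotent (Ideal.Quotient.mk I a - Ideal.Quotient.mk I b) := by
    refine ⟨n, ?_⟩
    rw [← map_sub, ← map_pow, Ideal.Quotient.eq_zero_iff_mem]
    exact hab
  have h4 := eq_of_isNilpotent_sub_of_isIdempotentElem h1 h2 h3
  rw [← Ideal.Quotient.eq_zero_iff_mem, map_sub, h4, sub_self]

/-- (CRT) separation of two finite families of primes with no common maximal ideal by an element
which is idempotent modulo `I`, if the intersection of the family is contained in the radical of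
`I`. -/
theorem exists_sep_idem_of_no_common_maximal {ι : Type*} (S T : Finset ι) (P : ι → Ideal A)
    (h : ∀ 𝔫 : Ideal A, 𝔫.IsMaximal → ∀ i ∈ S, ∀ j ∈ T, P i ≤ 𝔫 → ¬ P j ≤ 𝔫)
    (I : Ideal A)
    (hnil : ∀ x : A, (∀ i ∈ S, x ∈ P i) → (∀ j ∈ T, x ∈ P j) → ∃ n : ℕ, x ^ n ∈ I) :
    ∃ e : A, (∀ i ∈ S, e ∈ P i) ∧ (∀ j ∈ T, 1 - e ∈ P j) ∧ e * e - e ∈ I := by
  obtain ⟨e, heS, heT⟩ := exists_sep_of_no_common_maximal S T P h
  obtain ⟨n, hn⟩ := hnil (e - e ^ 2) (fun i hi => by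
      have : e - e ^ 2 = (1 - e) * e := by ring
      rw [this]
      exact (P i).mul_mem_left _ (heS i hi)) (fun j hj => by
      have : e - e ^ 2 = e * (1 - e) := by ring
      rw [this]
      exact (P j).mul_mem_left _ (heT j hj))
  obtain ⟨e', hid, h1, h2⟩ := exists_idem_mod_of_pow_mem I e n hn
  exact ⟨e', fun i hi => h1 _ (heS i hi), fun j hj => h2 _ (heT j hj), hid⟩

end Idem

section Sheets

variable {R : Type*} [CommRing R] [IsDomain R] [IsNoetherianRing R] {π : R}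
  {E : Type*} [CommRing E] [Algebra R E]

/-- **CONN3**: the incidence graph (sheets, closed points) of a two-chart curve is connected; the
special fibre need not be reduced, it is enough that the sheets `P s` are all the minimal primes
over `π` in the two charts and in their intersection (`hnil`). -/
theorem sheet_const_of_incident_of_radical (hπ : Prime π) (hE : ∀ x : E, π • x = 0 → x = 0)
    (hinj : Function.Injective (algebraMap R E))
    (t : Eˣ) (B₁ B₂ B₁₂ : Subalgebra R E)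
    (ht₁ : (t : E) ∈ B₁) (ht₂ : ((t⁻¹ : Eˣ) : E) ∈ B₂) (h₁₂ : B₁ ≤ B₁₂) (h₂₁ : B₂ ≤ B₁₂)
    (hloc₁ : ∀ x ∈ B₁₂, ∃ m : ℕ, (t : E) ^ m * x ∈ B₁)
    (hglob : ∀ x ∈ B₁, x ∈ B₂ → ∃ r : R, algebraMap R E r = x)
    (hfin : ∃ s : Finset E, (∀ b ∈ s, b ∈ B₁) ∧ ∀ x ∈ B₁, ∃ c : E → Polynomial R,
      x = ∑ b ∈ s, Polynomial.aeval (t : E) (c b) * b)
    (hpole : ∀ b ∈ B₁, ∃ N : ℕ, ((t⁻¹ : Eˣ) : E) ^ N * b ∈ B₂)
    {Sh : Type*} [Finite Sh] (P : Sh → Ideal B₁₂) (hP : ∀ s, (P s).IsPrime)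
    (hπP : ∀ s, algebraMap R B₁₂ π ∈ P s)
    (hnil₁ : ∀ x : B₁, (∀ s, Subalgebra.inclusion h₁₂ x ∈ P s) →
      ∃ n : ℕ, algebraMap R B₁ π ∣ x ^ n)
    (hnil₂ : ∀ x : B₂, (∀ s, Subalgebra.inclusion h₂₁ x ∈ P s) →
      ∃ n : ℕ, algebraMap R B₂ π ∣ x ^ n)
    (hnil₁₂ : ∀ x : B₁₂, (∀ s, x ∈ P s) → ∃ n : ℕ, algebraMap R B₁₂ π ∣ x ^ n)
    {X : Type*} (Φ : Sh → X)
    (hΦ₁ : ∀ 𝔫 : Ideal B₁, 𝔫.IsMaximal → ∀ s s' : Sh,
      (P s).comap (Subalgebra.inclusion h₁₂) ≤ 𝔫 → (P s').comap (Subalgebra.inclusion h₁₂) ≤ 𝔫 →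
        Φ s = Φ s')
    (hΦ₂ : ∀ 𝔫 : Ideal B₂, 𝔫.IsMaximal → ∀ s s' : Sh,
      (P s).comap (Subalgebra.inclusion h₂₁) ≤ 𝔫 → (P s').comap (Subalgebra.inclusion h₂₁) ≤ 𝔫 →
        Φ s = Φ s') :
    ∀ s s' : Sh, Φ s = Φ s' := by
  classical
  haveI : Fintype Sh := Fintype.ofFinite Sh
  intro s₀ s₁
  by_contra hne
  set S : Finset Sh := Finset.univ.filter (fun s => Φ s = Φ s₀) with hS
  set T : Finset Sh := Finset.univ.filter (fun s => Φ s ≠ Φ s₀) with hT
  have hs₀ : s₀ ∈ S := by simp [hS]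
  have hs₁ : s₁ ∈ T := by
    simp only [hT, Finset.mem_filter, Finset.mem_univ, true_and]
    exact fun h => hne h.symm
  have hST : ∀ s, s ∈ S ∨ s ∈ T := by
    intro s
    by_cases h : Φ s = Φ s₀
    · left; simp [hS, h]
    · right; simp [hT, h]
  -- the primes of the two charts
  set P₁ : Sh → Ideal B₁ := fun s => (P s).comap (Subalgebra.inclusion h₁₂) with hP₁
  set P₂ : Sh → Ideal B₂ := fun s => (P s).comap (Subalgebra.inclusion h₂₁) with hP₂
  have hP₁' : ∀ s, (P₁ s).IsPrime := fun s => Ideal.comap_isPrime _ _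
  have hP₂' : ∀ s, (P₂ s).IsPrime := fun s => Ideal.comap_isPrime _ _
  have hall : ∀ {Q : Sh → Prop}, (∀ i ∈ S, Q i) → (∀ j ∈ T, Q j) → ∀ s, Q s := by
    intro Q h1 h2 s
    rcases hST s with h | h
    · exact h1 s h
    · exact h2 s h
  obtain ⟨e₁, he₁S, he₁T, he₁id⟩ := exists_sep_idem_of_no_common_maximal S T P₁ (by
    intro 𝔫 hmax i hi j hj hi' hj'
    have h1 := hΦ₁ 𝔫 hmax i j hi' hj'
    simp only [hS, hT, Finset.mem_filter, Finset.mem_univ, true_and] at hi hj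
    exact hj (h1 ▸ hi)) (Ideal.span {algebraMap R B₁ π}) (by
    intro x h1 h2
    obtain ⟨n, hn⟩ := hnil₁ x (hall (Q := fun s => x ∈ P₁ s) h1 h2)
    exact ⟨n, Ideal.mem_span_singleton.mpr hn⟩)
  obtain ⟨e₂, he₂S, he₂T, he₂id⟩ := exists_sep_idem_of_no_common_maximal S T P₂ (by
    intro 𝔫 hmax i hi j hj hi' hj'
    have h1 := hΦ₂ 𝔫 hmax i j hi' hj'
    simp only [hS, hT, Finset.mem_filter, Finset.mem_univ, true_and] at hi hj
    exact hj (h1 ▸ hi)) (Ideal.span {algebraMap R B₂ π}) (by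
    intro x h1 h2
    obtain ⟨n, hn⟩ := hnil₂ x (hall (Q := fun s => x ∈ P₂ s) h1 h2)
    exact ⟨n, Ideal.mem_span_singleton.mpr hn⟩)
  -- idempotency modulo `π`
  have hid₁ : ∃ y ∈ B₁, (e₁ : E) * e₁ - e₁ = π • y :=
    (subalgebra_dvd_iff B₁ π (e₁ * e₁ - e₁)).mp (Ideal.mem_span_singleton.mp he₁id)
  have hid₂ : ∃ y ∈ B₂, (e₂ : E) * e₂ - e₂ = π • y :=
    (subalgebra_dvd_iff B₂ π (e₂ * e₂ - e₂)).mp (Ideal.mem_span_singleton.mp he₂id)
  have hglue : ∃ y ∈ B₁₂, (e₁ : E) - e₂ = π • y := by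
    set a : B₁₂ := Subalgebra.inclusion h₁₂ e₁ with ha
    set b : B₁₂ := Subalgebra.inclusion h₂₁ e₂ with hb
    have hmem : ∀ s, a - b ∈ P s := by
      intro s
      rcases hST s with h | h
      · exact (P s).sub_mem (he₁S s h) (he₂S s h)
      · have : a - b = (1 - b) - (1 - a) := by ring
        rw [this]
        refine (P s).sub_mem ?_ ?_
        · have := he₂T s h
          change Subalgebra.inclusion h₂₁ (1 - e₂) ∈ P s at this
          rwa [map_sub, map_one] at this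
        · have := he₁T s h
          change Subalgebra.inclusion h₁₂ (1 - e₁) ∈ P s at this
          rwa [map_sub, map_one] at this
    obtain ⟨n, hn⟩ := hnil₁₂ (a - b) hmem
    have hida : a * a - a ∈ Ideal.span {algebraMap R B₁₂ π} := by
      obtain ⟨y, hy⟩ := Ideal.mem_span_singleton.mp he₁id
      rw [Ideal.mem_span_singleton]
      refine ⟨Subalgebra.inclusion h₁₂ y, ?_⟩
      have := congrArg (Subalgebra.inclusion h₁₂) hy
      rw [map_sub, map_mul, map_mul] at this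
      rw [this]
      rfl
    have hidb : b * b - b ∈ Ideal.span {algebraMap R B₁₂ π} := by
      obtain ⟨y, hy⟩ := Ideal.mem_span_singleton.mp he₂id
      rw [Ideal.mem_span_singleton]
      refine ⟨Subalgebra.inclusion h₂₁ y, ?_⟩
      have := congrArg (Subalgebra.inclusion h₂₁) hy
      rw [map_sub, map_mul, map_mul] at this
      rw [this]
      rfl
    have h1 := sub_mem_of_idem_of_pow_mem (Ideal.span {algebraMap R B₁₂ π}) hida hidb n
      (Ideal.mem_span_singleton.mpr hn)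
    exact (subalgebra_dvd_iff B₁₂ π (a - b)).mp (Ideal.mem_span_singleton.mp h1)
  have hπ₁ : ∀ s, ∀ y ∈ B₁, ∀ x : B₁, (x : E) = π • y → x ∈ P₁ s := by
    intro s y hy x hx
    change Subalgebra.inclusion h₁₂ x ∈ P s
    have : Subalgebra.inclusion h₁₂ x = algebraMap R B₁₂ π * ⟨y, h₁₂ hy⟩ := by
      apply Subtype.ext
      rw [Subalgebra.coe_inclusion, hx, Algebra.smul_def]
      rfl
    rw [this]
    exact (P s).mul_mem_right _ (hπP s)
  rcases conn_idempotent hπ hE hinj t B₁ B₂ B₁₂ ht₁ ht₂ h₁₂ h₂₁ hloc₁ hglob hfin hpole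
    (e₁ : E) (e₂ : E) e₁.2 e₂.2 hid₁ hid₂ hglue with ⟨⟨y, hy, hye⟩, _⟩ | ⟨⟨y, hy, hye⟩, _⟩
  · -- `e₁ ∈ π B₁`: contradiction at `s₁ ∈ T`
    have h1 : e₁ ∈ P₁ s₁ := hπ₁ s₁ y hy e₁ hye
    have h2 : 1 - e₁ ∈ P₁ s₁ := he₁T s₁ hs₁
    have h3 : (1 : B₁) ∈ P₁ s₁ := by
      have : (1 : B₁) = (1 - e₁) + e₁ := by ring
      rw [this]
      exact (P₁ s₁).add_mem h2 h1
    exact (hP₁' s₁).ne_top ((Ideal.eq_top_iff_one _).2 h3)
  · have h1 : 1 - e₁ ∈ P₁ s₀ := hπ₁ s₀ y hy (1 - e₁) (by simpa using hye)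
    have h2 : e₁ ∈ P₁ s₀ := he₁S s₀ hs₀
    have h3 : (1 : B₁) ∈ P₁ s₀ := by
      have : (1 : B₁) = (1 - e₁) + e₁ := by ring
      rw [this]
      exact (P₁ s₀).add_mem h1 h2
    exact (hP₁' s₀).ne_top ((Ideal.eq_top_iff_one _).2 h3)

end Sheets

end Fermat.Agent.S36
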