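/-
S36 [ABS36] — helper3 — **[KUM36] part 1: connectedness of the sheets for the charts of a finite
extension `E / K₁(t)`, WITHOUT reducedness of the special fibres** (`SS.chart_sheet_const` with
CONN3 in place of CONN2).  The sheets are all the primes of the middle ring minimal over `π`; the
only hypotheses on `E` are the constants (`K₁` algebraically closed in `E`) and that the coordinate
`t` (resp. `t⁻¹`) lies in no prime of the first (resp. second) chart minimal over `π` (automatic,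
`SS.coord_not_mem_of_mem_minimalPrimes`).
-/
import Fermat.Agent.SS.KUM_helper3_Sheet
import Fermat.Agent.S36.CONN3_helper3

set_option autoImplicit false
set_option linter.unusedSectionVars false
set_option linter.style.haveILetI false

namespace Fermat.Agent.S36

open Fermat.Agent.JA Fermat.Agent.SS Polynomial

section Abstract

variable {A : Type*} [CommRing A] (S : Submonoid A) (A' : Type*) [CommRing A'] [Algebra A A']
  [IsLocalization S A']

/-- an element of `A` lying in all primes of the localisation minimal over `J A'` lies in the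
radical of `J`, if no prime minimal over `J` meets the multiplicative set. -/
theorem mem_radical_of_forall_mem_minimalPrimes_map (J : Ideal A)
    (hS : ∀ 𝔮 ∈ J.minimalPrimes, Disjoint (S : Set A) (𝔮 : Set A)) (x : A)
    (hx : ∀ 𝔓 ∈ (J.map (algebraMap A A')).minimalPrimes, algebraMap A A' x ∈ 𝔓) :
    x ∈ J.radical := by
  rw [← Ideal.sInf_minimalPrimes, Ideal.mem_sInf]
  intro 𝔮 h𝔮
  have hprime : 𝔮.IsPrime := h𝔮.1.1
  have hdis := hS 𝔮 h𝔮
  have hunder : (𝔮.map (algebraMap A A')).under A = 𝔮 :=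
    IsLocalization.under_map_of_isPrime_disjoint S A' hprime hdis
  have hmem : 𝔮.map (algebraMap A A') ∈ (J.map (algebraMap A A')).minimalPrimes := by
    rw [IsLocalization.minimalPrimes_map S A' J, Set.mem_preimage, hunder]
    exact h𝔮
  have := hx _ hmem
  rw [← hunder]
  exact this

end Abstract

section Pair

variable {R : Type*} [CommRing R] {E : Type*} [Field E] [Algebra R E]

/-- **sheets see the chart, up to nilpotents**: an element of `B` lying in every prime of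
`B' = B[τ⁻¹]` minimal over `π` has a power divisible by `π` in `B`, if `τ` lies in no prime of `B`
minimal over `π`. -/
theorem pair_pow_dvd_of_forall_mem_minimalPrimes {B B' : Subalgebra R E} (h : B ≤ B') (τ : E)
    (hτ : τ ∈ B) (hτ0 : τ ≠ 0) (hinv : τ⁻¹ ∈ B') (hloc : ∀ x ∈ B', ∃ n : ℕ, τ ^ n * x ∈ B) (π : R)
    (hT : ∀ 𝔮 ∈ (Ideal.span {algebraMap R ↥B π}).minimalPrimes, (⟨τ, hτ⟩ : ↥B) ∉ 𝔮)
    (x : ↥B)
    (hx : ∀ 𝔓 ∈ (Ideal.span {algebraMap R ↥B' π}).minimalPrimes, Subalgebra.inclusion h x ∈ 𝔓) :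
    ∃ n : ℕ, algebraMap R ↥B π ∣ x ^ n := by
  letI := inclusionAlgebra h
  haveI : IsLocalization.Away (⟨τ, hτ⟩ : ↥B) ↥B' :=
    isLocalization_away_of_le h τ hτ hτ0 hinv hloc
  have hmem := mem_radical_of_forall_mem_minimalPrimes_map (Submonoid.powers (⟨τ, hτ⟩ : ↥B)) ↥B'
    (Ideal.span {algebraMap R ↥B π}) (by
      intro 𝔮 h𝔮
      have hprime : 𝔮.IsPrime := h𝔮.1.1
      rw [Set.disjoint_left]
      rintro y ⟨n, rfl⟩ hy
      exact hT 𝔮 h𝔮 (hprime.mem_of_pow_mem n hy)) x (by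
      intro 𝔓 h𝔓
      rw [map_span_inclusion h π] at h𝔓
      exact hx 𝔓 h𝔓)
  obtain ⟨n, hn⟩ := hmem
  exact ⟨n, Ideal.mem_span_singleton.mp hn⟩

/-- an element lying in every prime minimal over `π` has a power divisible by `π`. -/
theorem pow_dvd_of_forall_mem_minimalPrimes {B' : Subalgebra R E} (π : R) (x : ↥B')
    (hx : ∀ 𝔓 ∈ (Ideal.span {algebraMap R ↥B' π}).minimalPrimes, x ∈ 𝔓) :
    ∃ n : ℕ, algebraMap R ↥B' π ∣ x ^ n := by
  have hmem : x ∈ (Ideal.span {algebraMap R ↥B' π}).radical := by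
    rw [← Ideal.sInf_minimalPrimes, Ideal.mem_sInf]
    exact fun {𝔓} h𝔓 => hx 𝔓 h𝔓
  obtain ⟨n, hn⟩ := hmem
  exact ⟨n, Ideal.mem_span_singleton.mp hn⟩

end Pair

section Sheets

variable {R : Type*} [CommRing R] [IsDomain R] [IsIntegrallyClosed R] [IsNoetherianRing R]
  [CharZero R] {K₁ : Type*} [Field K₁] [Algebra R K₁]
  [IsFractionRing R K₁] {K : Type*} [Field K] [Algebra K₁ K] [Algebra R K] [IsScalarTower R K₁ K]
  {E : Type*} [Field E] [Algebra K E] [Algebra K₁ E] [IsScalarTower K₁ K E] [Algebra R E]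
  [IsScalarTower R K E] [FiniteDimensional K E]

/-- the sheets see the first chart, up to nilpotents. -/
theorem chartOne_pow_dvd_of_forall_mem_sheet (t : K) (ht0 : t ≠ 0) (π : R)
    (hT₁ : ∀ 𝔮 ∈ (Ideal.span {algebraMap R ↥(chartOne R E t) π}).minimalPrimes,
      (⟨algebraMap K E t, algebraMap_coord_mem_chartOne t⟩ : ↥(chartOne R E t)) ∉ 𝔮)
    (x : ↥(chartOne R E t))
    (hx : ∀ s : SheetOf R E t π, Subalgebra.inclusion (chartOne_le_chartMid t) x ∈ s.1) :
    ∃ n : ℕ, algebraMap R ↥(chartOne R E t) π ∣ x ^ n := by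
  have htE : algebraMap K E t ≠ 0 := by rw [Ne, map_eq_zero]; exact ht0
  exact pair_pow_dvd_of_forall_mem_minimalPrimes (chartOne_le_chartMid t)
    (algebraMap K E t) (algebraMap_coord_mem_chartOne t) htE (inv_coord_mem_chartMid t ht0)
    (fun x hx => hx) π hT₁ x (fun 𝔓 h𝔓 => hx ⟨𝔓, h𝔓⟩)

/-- the sheets see the second chart, up to nilpotents. -/
theorem chartOne_inv_pow_dvd_of_forall_mem_sheet (t : K) (ht0 : t ≠ 0) (π : R)
    (hT₂ : ∀ 𝔮 ∈ (Ideal.span {algebraMap R ↥(chartOne R E t⁻¹) π}).minimalPrimes,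
      (⟨algebraMap K E t⁻¹, algebraMap_coord_mem_chartOne t⁻¹⟩ : ↥(chartOne R E t⁻¹)) ∉ 𝔮)
    (x : ↥(chartOne R E t⁻¹))
    (hx : ∀ s : SheetOf R E t π,
      Subalgebra.inclusion (chartOne_inv_le_chartMid t ht0) x ∈ s.1) :
    ∃ n : ℕ, algebraMap R ↥(chartOne R E t⁻¹) π ∣ x ^ n := by
  have htE : algebraMap K E t ≠ 0 := by rw [Ne, map_eq_zero]; exact ht0
  have hinv2 : (algebraMap K E t)⁻¹ ∈ chartOne R E t⁻¹ := by
    rw [← map_inv₀]; exact algebraMap_coord_mem_chartOne t⁻¹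
  exact pair_pow_dvd_of_forall_mem_minimalPrimes (chartOne_inv_le_chartMid t ht0)
    (algebraMap K E t)⁻¹ hinv2 (inv_ne_zero htE)
    (by rw [inv_inv]; exact chartOne_le_chartMid t (algebraMap_coord_mem_chartOne t))
    (fun x hx => exists_inv_pow_mul_mem_of_mem_chartMid t ht0 hx) π
    (by
      intro 𝔮 h𝔮
      have := hT₂ 𝔮 h𝔮
      convert this using 2
      exact Subtype.ext (map_inv₀ _ _).symm) x (fun 𝔓 h𝔓 => hx ⟨𝔓, h𝔓⟩)

/-- there is at least one sheet (no reducedness needed). -/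
theorem nonempty_sheetOf_radical (t : K) (ht : Transcendental K₁ t)
    (hK : IntermediateField.adjoin K₁ {t} = ⊤) (π : R) (hπ : Prime π)
    (hM4 : ∀ x : E, IsAlgebraic K₁ x → x ∈ Set.range (algebraMap K₁ E))
    (hT₁ : ∀ 𝔮 ∈ (Ideal.span {algebraMap R ↥(chartOne R E t) π}).minimalPrimes,
      (⟨algebraMap K E t, algebraMap_coord_mem_chartOne t⟩ : ↥(chartOne R E t)) ∉ 𝔮)
    (hT₂ : ∀ 𝔮 ∈ (Ideal.span {algebraMap R ↥(chartOne R E t⁻¹) π}).minimalPrimes,
      (⟨algebraMap K E t⁻¹, algebraMap_coord_mem_chartOne t⁻¹⟩ : ↥(chartOne R E t⁻¹)) ∉ 𝔮) :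
    Nonempty (SheetOf R E t π) := by
  have ht0 : t ≠ 0 := fun h => ht (h ▸ isAlgebraic_zero)
  have hinj : Function.Injective (algebraMap R E) := algebraMap_injective_of_tower (K₁ := K₁) (K := K)
  have hπE : algebraMap R E π ≠ 0 := by
    rw [Ne, map_eq_zero_iff _ hinj]; exact hπ.ne_zero
  by_contra hempty
  obtain ⟨n₁, z₁, hz₁⟩ := chartOne_pow_dvd_of_forall_mem_sheet t ht0 π hT₁ 1
    (fun s => (hempty ⟨s⟩).elim)
  obtain ⟨n₂, z₂, hz₂⟩ := chartOne_inv_pow_dvd_of_forall_mem_sheet t ht0 π hT₂ 1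
    (fun s => (hempty ⟨s⟩).elim)
  have h1 : algebraMap R E π * (z₁ : E) = 1 := by
    have := congrArg (fun w : ↥(chartOne R E t) => (w : E)) hz₁
    simpa using this.symm
  have h2 : algebraMap R E π * (z₂ : E) = 1 := by
    have := congrArg (fun w : ↥(chartOne R E t⁻¹) => (w : E)) hz₂
    simpa using this.symm
  have h12 : (z₁ : E) = z₂ := mul_left_cancel₀ hπE (h1.trans h2.symm)
  obtain ⟨r, hr⟩ := exists_algebraMap_eq_of_isIntegral_both (R := R) t ht hK hM4 (z₁ : E) z₁.2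
    (h12 ▸ z₂.2)
  apply hπ.not_isUnit
  refine IsUnit.of_mul_eq_one r (hinj ?_)
  rw [map_mul, hr, h1, map_one]

/-- **connectedness of the sheets of the charts, without reducedness.** -/
theorem chart_sheet_const_radical (t : K) (ht : Transcendental K₁ t)
    (hK : IntermediateField.adjoin K₁ {t} = ⊤) (π : R) (hπ : Prime π)
    (hM4 : ∀ x : E, IsAlgebraic K₁ x → x ∈ Set.range (algebraMap K₁ E))
    (hT₁ : ∀ 𝔮 ∈ (Ideal.span {algebraMap R ↥(chartOne R E t) π}).minimalPrimes,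
      (⟨algebraMap K E t, algebraMap_coord_mem_chartOne t⟩ : ↥(chartOne R E t)) ∉ 𝔮)
    (hT₂ : ∀ 𝔮 ∈ (Ideal.span {algebraMap R ↥(chartOne R E t⁻¹) π}).minimalPrimes,
      (⟨algebraMap K E t⁻¹, algebraMap_coord_mem_chartOne t⁻¹⟩ : ↥(chartOne R E t⁻¹)) ∉ 𝔮)
    {X : Type*} (Φ : SheetOf R E t π → X)
    (hΦ₁ : ∀ 𝔑 : Ideal ↥(chartOne R E t), 𝔑.IsMaximal → ∀ s s' : SheetOf R E t π,
      (s.1).comap (Subalgebra.inclusion (chartOne_le_chartMid t)) ≤ 𝔑 →
      (s'.1).comap (Subalgebra.inclusion (chartOne_le_chartMid t)) ≤ 𝔑 → Φ s = Φ s')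
    (hΦ₂ : ∀ 𝔑 : Ideal ↥(chartOne R E t⁻¹), 𝔑.IsMaximal → ∀ s s' : SheetOf R E t π,
      (s.1).comap (Subalgebra.inclusion (chartOne_inv_le_chartMid t
        (fun h => ht (h ▸ isAlgebraic_zero)))) ≤ 𝔑 →
      (s'.1).comap (Subalgebra.inclusion (chartOne_inv_le_chartMid t
        (fun h => ht (h ▸ isAlgebraic_zero)))) ≤ 𝔑 → Φ s = Φ s') :
    ∀ s s' : SheetOf R E t π, Φ s = Φ s' := by
  have ht0 : t ≠ 0 := fun h => ht (h ▸ isAlgebraic_zero)
  have htE : algebraMap K E t ≠ 0 := by rw [Ne, map_eq_zero]; exact ht0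
  have hinj : Function.Injective (algebraMap R E) := algebraMap_injective_of_tower (K₁ := K₁) (K := K)
  have hπE : algebraMap R E π ≠ 0 := by
    rw [Ne, map_eq_zero_iff _ hinj]; exact hπ.ne_zero
  haveI := finite_sheetOf (R := R) (K₁ := K₁) (E := E) t ht hK π
  have hinvE : ((Units.mk0 (algebraMap K E t) htE)⁻¹ : Eˣ).1 = (algebraMap K E t)⁻¹ := by
    rw [Units.val_inv_eq_inv_val, Units.val_mk0]
  have h₂₁ := chartOne_inv_le_chartMid (R := R) (E := E) t ht0
  have hinv2 : (algebraMap K E t)⁻¹ ∈ chartOne R E t⁻¹ := by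
    rw [← map_inv₀]; exact algebraMap_coord_mem_chartOne t⁻¹
  refine sheet_const_of_incident_of_radical hπ (fun x hx => ?_) hinj
    (Units.mk0 (algebraMap K E t) htE)
    (chartOne R E t) (chartOne R E t⁻¹) (chartMid R E t)
    (algebraMap_coord_mem_chartOne t) (by rw [hinvE]; exact hinv2)
    (chartOne_le_chartMid t) h₂₁ (fun x hx => hx) ?_ ?_ ?_
    (fun s : SheetOf R E t π => s.1) (fun s => s.2.1.1)
    (fun s => s.2.1.2 (Ideal.subset_span (Set.mem_singleton _))) ?_ ?_ ?_ Φ hΦ₁ hΦ₂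
  · rw [Algebra.smul_def] at hx
    rcases mul_eq_zero.1 hx with h | h
    · exact absurd h hπE
    · exact h
  · intro x hx₁ hx₂
    exact exists_algebraMap_eq_of_isIntegral_both (R := R) t ht hK hM4 x hx₁ hx₂
  · exact exists_finset_span_integralClosure (R := R) (K₁ := K₁) (E := E) t ht hK
  · intro b hb
    rw [hinvE]
    exact exists_inv_pow_mul_mem_chartOne_inv t ht0 hb
  · intro x hx
    exact chartOne_pow_dvd_of_forall_mem_sheet t ht0 π hT₁ x hx
  · intro x hx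
    exact chartOne_inv_pow_dvd_of_forall_mem_sheet t ht0 π hT₂ x hx
  · intro x hx
    exact pow_dvd_of_forall_mem_minimalPrimes π x (fun 𝔓 h𝔓 => hx ⟨𝔓, h𝔓⟩)

end Sheets

end Fermat.Agent.S36
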