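/-
S36 [ABS36] — helper3 — **[KUM36] part 2: a family of sheets** (all the extensions of the Gauss
valuation of `K = K₁(u)` to `E`, NO hypothesis on the ramification indices), the closed datum of an
`n`-sheet gluing, and the incidence step.

* `IsSheetFamily π u W` : `W : ι → ValuationSubring E` is injective, every `W i` restricts to the Gauss
  valuation of `K₁(u)`, and every extension of the Gauss valuation is a `W i`;
* `IsSheetFamily.inv`, `.exists_eq_of_height_one`, `.exists_mul_eq_of_mem`, `.eq_of_sheetIdeal_eq`;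
* `SheetDatumAt` : the closed datum at a closed point (a local root `Γ` of `G`, units `w i` of the
  local ring congruent to `λ_i / Γ` on the sheets through the point, pairwise congruent modulo the
  point);
* `exists_toric_elem_of_div` : `G / λ ^ m ≡ 1` on `W` in elementwise form (`λ` not nec. a unit);
* `IsSheetFamily.exists_sheetOver` : every sheet of `L ⊇ F` lies over a `W i`;
* `incidence_of_sheetDatum` : the incidence step at a closed point of a chart.
-/
import Mathlib
import Fermat.Agent.S35.TORICKUM_helper5_Main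
import Fermat.Agent.S36.KUM36_helper3_Conn

set_option autoImplicit false
set_option linter.unusedSectionVars false
set_option linter.style.haveILetI false

namespace Fermat.Agent.S36

open Fermat.Agent.JA Fermat.Agent.SS Polynomial

section Def

variable {R : Type*} [CommRing R] {E : Type*} [Field E] [Algebra R E]

/-- **the closed datum of the `n`-sheet gluing at the closed point `𝔫`** of the chart `B`: a local
root `Γ` of `G` (`G / Γ ^ m` a unit at `𝔫`) and units `w i` of the local ring at `𝔫`, congruent to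
`λ_i / Γ` on the sheet `W i` whenever it passes through `𝔫`, and to each other modulo `𝔫`. -/
def SheetDatumAt (B : Subalgebra R E) {ι : Type*} (𝔭 : ι → Ideal ↥B) (𝔫 : Ideal ↥B) [𝔫.IsPrime]
    (W : ι → ValuationSubring E) (m : ℕ) (G : E) (lam : ι → E) : Prop :=
  ∃ (Γ : E) (w : ι → E), Γ ≠ 0 ∧
    (∃ c d : ↥B, c ∉ 𝔫 ∧ d ∉ 𝔫 ∧ G * (d : E) = Γ ^ m * (c : E)) ∧
    (∀ i, 𝔭 i ≤ 𝔫 → w i ∈ locRing B 𝔫 ∧ w i ∉ locMax B 𝔫 ∧
      (W i).valuation (lam i / Γ - w i) < 1) ∧
    (∀ i j, 𝔭 i ≤ 𝔫 → 𝔭 j ≤ 𝔫 → w i - w j ∈ locMax B 𝔫)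

variable {B : Subalgebra R E}

/-- **`G / λ ^ m ≡ 1` on the sheet `W`, elementwise** (`λ` need not be a unit of `W`). -/
theorem exists_toric_elem_of_div {W : ValuationSubring E} (hBW : ∀ b ∈ B, b ∈ W) {𝔭 : Ideal ↥B}
    (h𝔭 : ∀ b : ↥B, b ∈ 𝔭 ↔ W.valuation (b : E) < 1)
    (hloc : ∀ x ∈ W, ∃ r s : ↥B, s ∉ 𝔭 ∧ x * (s : E) = (r : E))
    {m : ℕ} {G lam : E} (hlam : lam ≠ 0) (hG : W.valuation (G / lam ^ m - 1) < 1) :
    ∃ c d : ↥B, d ∉ 𝔭 ∧ c - d ∈ 𝔭 ∧ G * (d : E) = lam ^ m * (c : E) := by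
  have hlm0 : lam ^ m ≠ 0 := pow_ne_zero _ hlam
  have hx : G / lam ^ m ∈ W := by
    rw [← ValuationSubring.valuation_le_one_iff]
    have : G / lam ^ m = (G / lam ^ m - 1) + 1 := by ring
    rw [this]
    exact le_trans (Valuation.map_add _ _ _) (max_le hG.le (by rw [map_one]))
  obtain ⟨c, d, hd, hcd⟩ := hloc _ hx
  refine ⟨c, d, hd, ?_, ?_⟩
  · rw [h𝔭]
    have h1 : ((c - d : ↥B) : E) = (G / lam ^ m - 1) * (d : E) := by
      show (c : E) - (d : E) = _
      rw [← hcd]; ring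
    rw [h1, map_mul]
    calc W.valuation (G / lam ^ m - 1) * W.valuation (d : E)
        ≤ W.valuation (G / lam ^ m - 1) * 1 :=
          mul_le_mul_right ((ValuationSubring.valuation_le_one_iff _ _).mpr (hBW _ d.2)) _
      _ < 1 := by rw [mul_one]; exact hG
  · rw [← hcd]
    field_simp

end Def

section Family

variable {R : Type*} [CommRing R] [IsDomain R] [IsDiscreteValuationRing R] [CharZero R]
  {K₁ : Type*} [Field K₁] [Algebra R K₁] [IsFractionRing R K₁]
  {K : Type*} [Field K] [Algebra K₁ K] [Algebra R K] [IsScalarTower R K₁ K]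
  {E : Type*} [Field E] [Algebra K E] [Algebra R E] [IsScalarTower R K E] [FiniteDimensional K E]

/-- valuation data of an `n`-sheeted chart: the family `W` consists of ALL the extensions of the
Gauss valuation of `K = K₁(u)` to `E`, without repetition. No hypothesis on ramification. -/
structure IsSheetFamily (π : R) (u : K) {ι : Type*} (W : ι → ValuationSubring E) : Prop where
  inj : Function.Injective W
  gauss : ∀ i, IsGaussAt R π u ((W i).comap (algebraMap K E))
  only : ∀ V : ValuationSubring E, IsGaussAt R π u (V.comap (algebraMap K E)) → ∃ i, V = W i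

variable {π : R} {u : K} {ι : Type*} {W : ι → ValuationSubring E}

theorem IsSheetFamily.chart_le (h : IsSheetFamily π u W) (i : ι) :
    ∀ b ∈ chartOne R E u, b ∈ W i :=
  chart_le_of_isGaussAt (h.gauss i)

/-- the sheet data for the coordinate `u⁻¹`. -/
theorem IsSheetFamily.inv (h : IsSheetFamily π u W) (hπ : Irreducible π) :
    IsSheetFamily π u⁻¹ W where
  inj := h.inj
  gauss := fun i => isGaussAt_inv π hπ.prime u _ (h.gauss i)
  only := fun V hV => h.only V (by
    have := isGaussAt_inv π hπ.prime u⁻¹ _ hV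
    rwa [inv_inv] at this)

/-- every height-one prime of the chart containing `π` is one of the sheets. -/
theorem IsSheetFamily.exists_eq_of_height_one (h : IsSheetFamily π u W) (hπ : Irreducible π)
    (hu : Transcendental K₁ u) (hK : IntermediateField.adjoin K₁ {u} = ⊤)
    (P : Ideal ↥(chartOne R E u)) [P.IsPrime] (hP : P.height = 1)
    (hπP : algebraMap R ↥(chartOne R E u) π ∈ P) :
    ∃ i, P = sheetIdeal u (W i) (h.chart_le i) := by
  obtain ⟨V, hG, hPV⟩ := exists_isGaussAt_eq_sheetIdeal hπ hu hK P hP hπP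
  obtain ⟨i, hi⟩ := h.only V hG
  subst hi
  exact ⟨i, hPV⟩

/-- the local ring of the chart at a sheet is the valuation ring. -/
theorem IsSheetFamily.exists_mul_eq_of_mem (h : IsSheetFamily π u W) (hπ : Irreducible π)
    (hu : Transcendental K₁ u) (hK : IntermediateField.adjoin K₁ {u} = ⊤) (i : ι) (x : E)
    (hx : x ∈ W i) :
    ∃ r s : ↥(chartOne R E u), s ∉ sheetIdeal u (W i) (h.chart_le i) ∧ x * (s : E) = (r : E) :=
  exists_mul_eq_of_mem_of_isGaussAt hπ hu hK (h.gauss i) x hx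

/-- two sheets with the same trace on the chart coincide. -/
theorem IsSheetFamily.eq_of_forall_iff (h : IsSheetFamily π u W) (hπ : Irreducible π)
    (hu : Transcendental K₁ u) (hK : IntermediateField.adjoin K₁ {u} = ⊤) {i j : ι}
    (hij : ∀ b : ↥(chartOne R E u), (W i).valuation (b : E) < 1 ↔ (W j).valuation (b : E) < 1) :
    i = j := by
  apply h.inj
  have key : ∀ a b : ι, (∀ y : ↥(chartOne R E u),
      (W a).valuation (y : E) < 1 ↔ (W b).valuation (y : E) < 1) → W a ≤ W b := by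
    intro a b hab x hx
    obtain ⟨r, s, hs, hrs⟩ := h.exists_mul_eq_of_mem hπ hu hK a x hx
    rw [mem_sheetIdeal_iff, hab] at hs
    have hsb : (W b).valuation (s : E) = 1 :=
      le_antisymm ((ValuationSubring.valuation_le_one_iff _ _).mpr (h.chart_le b _ s.2))
        (not_lt.mp hs)
    have hs0 : (s : E) ≠ 0 := fun h0 => by rw [h0, map_zero] at hsb; exact zero_ne_one hsb
    have hx' : x = (r : E) * (s : E)⁻¹ := by
      rw [← hrs]; field_simp
    rw [← ValuationSubring.valuation_le_one_iff, hx', map_mul, map_inv₀, hsb, inv_one, mul_one]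
    exact (ValuationSubring.valuation_le_one_iff _ _).mpr (h.chart_le b _ r.2)
  exact le_antisymm (key i j hij) (key j i (fun y => (hij y).symm))

end Family

section Over

variable {R : Type*} [CommRing R] [IsDomain R] [IsDiscreteValuationRing R] [CharZero R]
  {K₁ : Type*} [Field K₁] [Algebra R K₁] [IsFractionRing R K₁]
  {K : Type*} [Field K] [Algebra K₁ K] [Algebra R K] [IsScalarTower R K₁ K]
  {F : Type*} [Field F] [Algebra K F] [Algebra R F] [IsScalarTower R K F] [FiniteDimensional K F]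
  {L : Type*} [Field L] [Algebra K L] [Algebra K₁ L] [IsScalarTower K₁ K L] [Algebra R L]
  [IsScalarTower R K L] [Algebra F L] [IsScalarTower K F L] [FiniteDimensional K L]
  {π : R} {t : K} {ι : Type*} {W : ι → ValuationSubring F}

/-- **every sheet of `L` lies over one of the sheets of `F`.** -/
theorem IsSheetFamily.exists_sheetOver (fam : IsSheetFamily π t W) (hπ : Irreducible π)
    (ht : Transcendental K₁ t) (hK : IntermediateField.adjoin K₁ {t} = ⊤)
    (s : SheetOf R L t π) : ∃ i, SheetOver (F := F) t s.1 (W i) := by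
  have ht0 : t ≠ 0 := fun h => ht (h ▸ isAlgebraic_zero)
  have htL : algebraMap K L t ≠ 0 := by rw [Ne, map_eq_zero]; exact ht0
  have hinjL : Function.Injective (algebraMap R L) :=
    algebraMap_injective_of_tower (K₁ := K₁) (K := K)
  have hπL : algebraMap R L π ≠ 0 := by
    rw [Ne, map_eq_zero_iff _ hinjL]; exact hπ.ne_zero
  have hinjF : Function.Injective (algebraMap R F) := by
    rw [IsScalarTower.algebraMap_eq R K F, IsScalarTower.algebraMap_eq R K₁ K]
    exact (algebraMap K F).injective.comp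
      ((algebraMap K₁ K).injective.comp (IsFractionRing.injective R K₁))
  have hπF : algebraMap R F π ≠ 0 := by
    rw [Ne, map_eq_zero_iff _ hinjF]; exact hπ.ne_zero
  have h𝔔 := pair_comap_mem_minimalPrimes (chartOne_le_chartMid (R := R) (E := L) t)
    (algebraMap K L t) (algebraMap_coord_mem_chartOne t) htL (inv_coord_mem_chartMid t ht0)
    (fun x hx => hx) π s.1 s.2
  set 𝔔 := (s.1).comap (Subalgebra.inclusion (chartOne_le_chartMid (R := R) (E := L) t)) with h𝔔def
  haveI : 𝔔.IsPrime := h𝔔.1.1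
  have hh := height_eq_one_of_mem_minimalPrimes_chartOne (K₁ := K₁) t ht hK π hπL 𝔔 h𝔔
  have hπ𝔔 : algebraMap R ↥(chartOne R L t) π ∈ 𝔔 :=
    h𝔔.1.2 (Ideal.subset_span (Set.mem_singleton _))
  have hmin := comap_chartMap_mem_minimalPrimes (K₁ := K₁) (F := F) t ht hK π hπL 𝔔 hh hπ𝔔
  set 𝔭 := 𝔔.comap (chartMap (R := R) (F := F) (L := L) t) with h𝔭def
  haveI : 𝔭.IsPrime := hmin.1.1
  have hh' := height_eq_one_of_mem_minimalPrimes_chartOne (K₁ := K₁) (L := F) t ht hK π hπF 𝔭 hmin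
  have hπ𝔭 : algebraMap R ↥(chartOne R F t) π ∈ 𝔭 :=
    hmin.1.2 (Ideal.subset_span (Set.mem_singleton _))
  obtain ⟨i, hi⟩ := fam.exists_eq_of_height_one hπ ht hK 𝔭 hh' hπ𝔭
  refine ⟨i, fun x => ?_⟩
  rw [← mem_sheetIdeal_iff t (W i) (fam.chart_le i), ← hi]
  rfl

/-- **the incidence step at a closed point of a chart** (`τ = t` or `τ = t⁻¹`), for a family of
sheets. -/
theorem incidence_of_sheetDatum (t τ : K) (hle : chartOne R L τ ≤ chartMid R L t)
    (fam : IsSheetFamily π τ W) (hπ : Irreducible π)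
    (hτ : Transcendental K₁ τ) (hKτ : IntermediateField.adjoin K₁ {τ} = ⊤)
    {m : ℕ} (hm : 0 < m) (hmR : IsUnit (m : R)) (G : F) (α : L)
    (hα : α ^ m = algebraMap F L G) {lam : ι → F} (hlam : ∀ i, lam i ≠ 0)
    (𝔑 : Ideal ↥(chartOne R L τ)) [h𝔑 : 𝔑.IsPrime]
    (hdat : SheetDatumAt (chartOne R F τ) (fun i => sheetIdeal τ (W i) (fam.chart_le i))
      (𝔑.comap (chartMap (L := L) τ)) W m G lam)
    (𝔓 𝔓' : Ideal ↥(chartMid R L t)) [h𝔓 : 𝔓.IsPrime] [h𝔓' : 𝔓'.IsPrime]
    (h𝔓𝔑 : 𝔓.comap (Subalgebra.inclusion hle) ≤ 𝔑)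
    (h𝔓'𝔑 : 𝔓'.comap (Subalgebra.inclusion hle) ≤ 𝔑)
    (i j : ι)
    (hov : ∀ y : ↥(chartOne R F τ),
      Subalgebra.inclusion hle (chartMap (L := L) τ y) ∈ 𝔓 ↔ (W i).valuation (y : F) < 1)
    (hov' : ∀ y : ↥(chartOne R F τ),
      Subalgebra.inclusion hle (chartMap (L := L) τ y) ∈ 𝔓' ↔ (W j).valuation (y : F) < 1)
    (ξ ξ' : R) (hξ1 : ξ ^ m = 1) (hξ'1 : ξ' ^ m = 1)
    (hξ : CongAt (chartMid R L t) 𝔓 (α / algebraMap F L (lam i)) ξ)
    (hξ' : CongAt (chartMid R L t) 𝔓' (α / algebraMap F L (lam j)) ξ') : ξ = ξ' := by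
  set 𝔫 := 𝔑.comap (chartMap (R := R) (F := F) (L := L) τ) with h𝔫def
  haveI : 𝔫.IsPrime := Ideal.comap_isPrime _ _
  obtain ⟨Γ, w, hΓ, ⟨c, d, -, hd, hgd⟩, hw, hcross⟩ := hdat
  have hii := mem_sheetIdeal_iff τ (W i) (fam.chart_le i)
  have hij := mem_sheetIdeal_iff τ (W j) (fam.chart_le j)
  have hlei : sheetIdeal τ (W i) (fam.chart_le i) ≤ 𝔫 :=
    fun y hy => h𝔓𝔑 ((hov y).mpr ((hii y).mp hy))
  have hlej : sheetIdeal τ (W j) (fam.chart_le j) ≤ 𝔫 :=
    fun y hy => h𝔓'𝔑 ((hov' y).mpr ((hij y).mp hy))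
  obtain ⟨hwi, hwMi, hlwi⟩ := hw i hlei
  obtain ⟨hwj, hwMj, hlwj⟩ := hw j hlej
  have hmem : algebraMap R ↥(chartOne R L τ) (ξ - ξ') ∈ 𝔑 :=
    incidence_of_sheets t τ hle hm G α hα 𝔑 𝔓 𝔓' h𝔓𝔑 h𝔓'𝔑 Γ hΓ c d hd hgd
      (fam.chart_le i) (fam.chart_le j) hii hij
      (fam.exists_mul_eq_of_mem hπ hτ hKτ i) (fam.exists_mul_eq_of_mem hπ hτ hKτ j)
      (fun y => (hov y).trans (hii y).symm) (fun y => (hov' y).trans (hij y).symm)
      (hlam i) (hlam j) hwi hwMi hlwi hwj hwMj hlwj (hcross i j hlei hlej) ξ ξ' hξ hξ'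
  exact eq_of_pow_eq_one_of_sub_mem hm hmR (𝔑.comap (algebraMap R ↥(chartOne R L τ)))
    (Ideal.comap_isPrime _ _).ne_top ξ ξ' hξ1 hξ'1 hmem

end Over

end Fermat.Agent.S36
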