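/-
S36 [ABS36] — helper3 — **[DATUM36]: from local factoriality to the closed data of the `n`-sheet
gluing.**

`F / K₁(τ)` with a family of sheets `W` (`IsSheetFamily`), `𝔫 ∋ π` a closed point of the chart
`chartOne R F τ`, one sheet `i₀` through `𝔫` with a local equation `z` and a branch uniformizer `u`
(the input of `ufd_localization_of_branch`).  `G` with per-sheet roots `λ_i` and `m`-divisible
horizontal divisor near `𝔫`.

* `exists_closed_datum_of_family` : the closed datum `Γ` (`G / Γ ^ m` a unit at `𝔫`), whatever the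
  number of sheets through `𝔫`;
* `exists_branch_unit_of_datum` : for a sheet `i` through `𝔫` which is smooth at `𝔫`, a unit `w` of
  the local ring at `𝔫` with `λ_i / Γ ≡ w` on `W i`;
* `sheetDatumAt_of_single_sheet` : `SheetDatumAt` at a closed point lying on one sheet only.
-/
import Mathlib
import Fermat.Agent.S35.NODEFROB_helper5_Root
import Fermat.Agent.S36.UFDLOC_helper3_Datum
import Fermat.Agent.S36.KUM36_helper3_Sheet

set_option autoImplicit false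
set_option linter.unusedSectionVars false
set_option linter.style.haveILetI false

namespace Fermat.Agent.S36

open Fermat.Agent.JA Fermat.Agent.SS Polynomial

section Datum

variable {R : Type*} [CommRing R] [IsDomain R] [IsDiscreteValuationRing R] [CharZero R]
  {K₁ : Type*} [Field K₁] [Algebra R K₁] [IsFractionRing R K₁]
  {K : Type*} [Field K] [Algebra K₁ K] [Algebra R K] [IsScalarTower R K₁ K]
  {F : Type*} [Field F] [Algebra K F] [Algebra R F] [IsScalarTower R K F] [FiniteDimensional K F]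
  {π : R} {τ : K} {ι : Type*} {W : ι → ValuationSubring F}

/-- the vertical clause: along a sheet with a root, `G` is an `m`-th power up to a unit at the
sheet ideal. -/
theorem isUnitAtPrime_sheetIdeal_of_root (fam : IsSheetFamily π τ W) (hπ : Irreducible π)
    (hτ : Transcendental K₁ τ) (hKτ : IntermediateField.adjoin K₁ {τ} = ⊤) (i : ι)
    {m : ℕ} {G lam : F} (hGW : (W i).valuation (G / lam ^ m - 1) < 1) :
    haveI : IsFractionRing ↥(chartOne R F τ) F := isFractionRing_chartOne (K₁ := K₁) τ hKτ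
    IsUnitAtPrime (sheetIdeal τ (W i) (fam.chart_le i)) (G * (lam ^ m)⁻¹) := by
  haveI : IsFractionRing ↥(chartOne R F τ) F := isFractionRing_chartOne (K₁ := K₁) τ hKτ
  have h1 : (W i).valuation (G * (lam ^ m)⁻¹) = 1 := by
    have h2 : G * (lam ^ m)⁻¹ = (G / lam ^ m - 1) + 1 := by rw [div_eq_mul_inv]; ring
    rw [h2]
    have h3 := Valuation.map_add_eq_of_lt_right (W i).valuation
      (show (W i).valuation (G / lam ^ m - 1) < (W i).valuation 1 by rw [map_one]; exact hGW)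
    rw [h3, map_one]
  exact isUnitAtPrime_of_valuation_eq_one (B := ↥(chartOne R F τ)) (E := F)
    (fun b => mem_sheetIdeal_iff τ (W i) (fam.chart_le i) b)
    (fam.exists_mul_eq_of_mem hπ hτ hKτ i) h1

/-- **the closed datum at a closed point of the special fibre of an `n`-sheet chart.** -/
theorem exists_closed_datum_of_family (fam : IsSheetFamily π τ W) (hπ : Irreducible π)
    (hτ : Transcendental K₁ τ) (hKτ : IntermediateField.adjoin K₁ {τ} = ⊤)
    (𝔫 : Ideal ↥(chartOne R F τ)) [h𝔫 : 𝔫.IsMaximal]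
    (i₀ : ι) (hle : sheetIdeal τ (W i₀) (fam.chart_le i₀) ≤ 𝔫)
    {z u : ↥(chartOne R F τ)} (hz : z ∈ sheetIdeal τ (W i₀) (fam.chart_le i₀)) (hz0 : z ≠ 0)
    (hgen : ∀ w ∈ sheetIdeal τ (W i₀) (fam.chart_le i₀), ∃ s : ↥(chartOne R F τ), s ∉ 𝔫 ∧ z ∣ s * w)
    (hu : IsBranchUniformizer (sheetIdeal τ (W i₀) (fam.chart_le i₀)) 𝔫 u)
    {m : ℕ} {G : F} (hG : G ≠ 0) {lam : ι → F} (hlam : ∀ i, lam i ≠ 0)
    (hGW : ∀ i, sheetIdeal τ (W i) (fam.chart_le i) ≤ 𝔫 →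
      (W i).valuation (G / lam i ^ m - 1) < 1)
    (hhor : haveI : IsFractionRing ↥(chartOne R F τ) F := isFractionRing_chartOne (K₁ := K₁) τ hKτ
      ∀ 𝔮 : Ideal ↥(chartOne R F τ), 𝔮.IsPrime → 𝔮.height = 1 →
      algebraMap R ↥(chartOne R F τ) π ∉ 𝔮 → 𝔮 ≤ 𝔫 →
      ∃ γ : F, γ ≠ 0 ∧ IsUnitAtPrime 𝔮 (G * (γ ^ m)⁻¹)) :
    ∃ Γ : F, Γ ≠ 0 ∧ ∃ c d : ↥(chartOne R F τ), c ∉ 𝔫 ∧ d ∉ 𝔫 ∧
      G * (d : F) = Γ ^ m * (c : F) := by
  haveI : IsFractionRing ↥(chartOne R F τ) F := isFractionRing_chartOne (K₁ := K₁) τ hKτ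
  haveI : IsNoetherianRing ↥(chartOne R F τ) := isNoetherianRing_chartOne (K₁ := K₁) τ hτ hKτ
  haveI : 𝔫.IsPrime := h𝔫.isPrime
  obtain ⟨Γ, hΓ, r, s, hr, hs, hrs⟩ := exists_closed_datum_of_branch (B := ↥(chartOne R F τ))
    (E := F) 𝔫 (sheetIdeal τ (W i₀) (fam.chart_le i₀)) hle hz hz0 hgen hu m hG (by
      intro 𝔮 h𝔮 hh h𝔮𝔫
      haveI := h𝔮
      by_cases hπ𝔮 : algebraMap R ↥(chartOne R F τ) π ∈ 𝔮
      · obtain ⟨i, hi⟩ := fam.exists_eq_of_height_one hπ hτ hKτ 𝔮 hh hπ𝔮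
        subst hi
        exact ⟨lam i, hlam i, isUnitAtPrime_sheetIdeal_of_root fam hπ hτ hKτ i
          (hGW i h𝔮𝔫)⟩
      · exact hhor 𝔮 h𝔮 hh hπ𝔮 h𝔮𝔫)
  have hΓm : Γ ^ m ≠ 0 := pow_ne_zero _ hΓ
  refine ⟨Γ, hΓ, r, s, hr, hs, ?_⟩
  have h1 : G * (Γ ^ m)⁻¹ * (s : F) = (r : F) := hrs
  calc G * (s : F) = (G * (Γ ^ m)⁻¹ * (s : F)) * Γ ^ m := by field_simp
    _ = Γ ^ m * (r : F) := by rw [h1]; ring

/-- **the branch unit**: at a closed point `𝔫` with closed datum `Γ`, along a sheet `i` through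
`𝔫` which is smooth at `𝔫`, the root `λ_i / Γ` is congruent to a unit of the local ring. -/
theorem exists_branch_unit_of_datum (fam : IsSheetFamily π τ W) (hπ : Irreducible π)
    (hτ : Transcendental K₁ τ) (hKτ : IntermediateField.adjoin K₁ {τ} = ⊤)
    (𝔫 : Ideal ↥(chartOne R F τ)) [h𝔫 : 𝔫.IsMaximal]
    (i : ι) (hle : sheetIdeal τ (W i) (fam.chart_le i) ≤ 𝔫) {u : ↥(chartOne R F τ)}
    (hu : IsBranchUniformizer (sheetIdeal τ (W i) (fam.chart_le i)) 𝔫 u)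
    {m : ℕ} (hm : m ≠ 0) {G lam Γ : F} (hlam : lam ≠ 0) (hΓ : Γ ≠ 0)
    (hGW : (W i).valuation (G / lam ^ m - 1) < 1)
    (hdat : ∃ c d : ↥(chartOne R F τ), c ∉ 𝔫 ∧ d ∉ 𝔫 ∧ G * (d : F) = Γ ^ m * (c : F)) :
    ∃ w ∈ locRing (chartOne R F τ) 𝔫, w ∉ locMax (chartOne R F τ) 𝔫 ∧
      (W i).valuation (lam / Γ - w) < 1 := by
  haveI : IsNoetherianRing ↥(chartOne R F τ) := isNoetherianRing_chartOne (K₁ := K₁) τ hτ hKτ
  haveI : 𝔫.IsPrime := h𝔫.isPrime
  obtain ⟨c, d, hc, hd, hcd⟩ := hdat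
  have hBW := fam.chart_le i
  have h𝔭 := mem_sheetIdeal_iff τ (W i) hBW
  have hΓm : Γ ^ m ≠ 0 := pow_ne_zero _ hΓ
  have hlm : lam ^ m ≠ 0 := pow_ne_zero _ hlam
  have hd0 : (d : F) ≠ 0 := by
    intro h0
    apply hd
    have : d = 0 := Subtype.ext h0
    rw [this]; exact 𝔫.zero_mem
  -- `v = G / Γ ^ m` is a unit of the local ring
  set v : F := G / Γ ^ m with hvdef
  have hv : v ∈ locRing (chartOne R F τ) 𝔫 := ⟨c, d, hd, by
    rw [hvdef, div_mul_eq_mul_div, hcd]; field_simp⟩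
  have hv' : v ∉ locMax (chartOne R F τ) 𝔫 := by
    rintro ⟨r, s, hr, hs, hrs⟩
    -- `c * s = r * d`
    have h1 : (c : F) * (s : F) = (r : F) * (d : F) := by
      have h2 : v * (d : F) = (c : F) := by
        rw [hvdef, div_mul_eq_mul_div, hcd]; field_simp
      calc (c : F) * (s : F) = v * (d : F) * (s : F) := by rw [h2]
        _ = v * (s : F) * (d : F) := by ring
        _ = (r : F) * (d : F) := by rw [hrs]
    have h3 : c * s = r * d := Subtype.ext h1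
    have h4 : c * s ∈ 𝔫 := by rw [h3]; exact 𝔫.mul_mem_right _ hr
    rcases h𝔫.isPrime.mem_or_mem h4 with h | h
    · exact hc h
    · exact hs h
  have hvW : (W i).valuation v = 1 := valuation_eq_one_of_locRing_unit hBW h𝔭 hle hv hv'
  -- `G / λ ^ m` is a unit of the sheet
  have hGl : (W i).valuation (G / lam ^ m) = 1 := by
    have h2 : G / lam ^ m = (G / lam ^ m - 1) + 1 := by ring
    rw [h2]
    have h3 := Valuation.map_add_eq_of_lt_right (W i).valuation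
      (show (W i).valuation (G / lam ^ m - 1) < (W i).valuation 1 by rw [map_one]; exact hGW)
    rw [h3, map_one]
  have hG0 : G ≠ 0 := by
    intro h0
    rw [h0, zero_div, map_zero] at hGl
    exact zero_ne_one hGl
  -- `ρ = λ / Γ` is a unit of the sheet
  set ρ : F := lam / Γ with hρdef
  have hρm : ρ ^ m = v / (G / lam ^ m) := by
    rw [hρdef, hvdef, div_pow]; field_simp
  have hρmW : (W i).valuation (ρ ^ m) = 1 := by
    rw [hρm, map_div₀, hvW, hGl, div_one]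
  have hρW : (W i).valuation ρ = 1 := by
    rw [map_pow] at hρmW
    exact (pow_eq_one_iff_left hm).mp hρmW
  have hcong : (W i).valuation (ρ ^ m - v) < 1 := by
    have h2 : ρ ^ m - v = -(G / lam ^ m - 1) * ρ ^ m := by
      rw [hρm]; field_simp; ring
    rw [h2, map_mul, Valuation.map_neg, hρmW, mul_one]
    exact hGW
  exact exists_locRing_unit_of_pow_cong hBW h𝔭 (fam.exists_mul_eq_of_mem hπ hτ hKτ i) hle hu hm
    hρW hv hv' hcong

/-- **the closed datum of the gluing at a closed point lying on a single sheet.** -/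
theorem sheetDatumAt_of_single_sheet (fam : IsSheetFamily π τ W) (hπ : Irreducible π)
    (hτ : Transcendental K₁ τ) (hKτ : IntermediateField.adjoin K₁ {τ} = ⊤)
    (𝔫 : Ideal ↥(chartOne R F τ)) [h𝔫 : 𝔫.IsMaximal]
    (i₀ : ι) (hle : sheetIdeal τ (W i₀) (fam.chart_le i₀) ≤ 𝔫)
    (honly : ∀ j, sheetIdeal τ (W j) (fam.chart_le j) ≤ 𝔫 → j = i₀)
    {z u : ↥(chartOne R F τ)} (hz : z ∈ sheetIdeal τ (W i₀) (fam.chart_le i₀)) (hz0 : z ≠ 0)
    (hgen : ∀ w ∈ sheetIdeal τ (W i₀) (fam.chart_le i₀), ∃ s : ↥(chartOne R F τ), s ∉ 𝔫 ∧ z ∣ s * w)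
    (hu : IsBranchUniformizer (sheetIdeal τ (W i₀) (fam.chart_le i₀)) 𝔫 u)
    {m : ℕ} (hm : m ≠ 0) {G : F} (hG : G ≠ 0) {lam : ι → F} (hlam : ∀ i, lam i ≠ 0)
    (hGW : (W i₀).valuation (G / lam i₀ ^ m - 1) < 1)
    (hhor : haveI : IsFractionRing ↥(chartOne R F τ) F := isFractionRing_chartOne (K₁ := K₁) τ hKτ
      ∀ 𝔮 : Ideal ↥(chartOne R F τ), 𝔮.IsPrime → 𝔮.height = 1 →
      algebraMap R ↥(chartOne R F τ) π ∉ 𝔮 → 𝔮 ≤ 𝔫 →
      ∃ γ : F, γ ≠ 0 ∧ IsUnitAtPrime 𝔮 (G * (γ ^ m)⁻¹)) :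
    @SheetDatumAt R _ F _ _ (chartOne R F τ) ι (fun i => sheetIdeal τ (W i) (fam.chart_le i))
      𝔫 h𝔫.isPrime W m G lam := by
  classical
  haveI : 𝔫.IsPrime := h𝔫.isPrime
  obtain ⟨Γ, hΓ, hdat⟩ := exists_closed_datum_of_family fam hπ hτ hKτ 𝔫 i₀ hle hz hz0 hgen hu hG
    hlam (fun i hi => by rw [honly i hi]; exact hGW) hhor
  obtain ⟨w, hw, hw', hlw⟩ := exists_branch_unit_of_datum fam hπ hτ hKτ 𝔫 i₀ hle hu hm
    (hlam i₀) hΓ hGW hdat
  refine ⟨Γ, fun _ => w, hΓ, hdat, ?_, ?_⟩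
  · intro i hi
    rw [honly i hi]
    exact ⟨hw, hw', hlw⟩
  · intro i j _ _
    rw [sub_self]
    exact zero_mem_locMax

end Datum

end Fermat.Agent.S36
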