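/-
S36 — helper4 — **[CUSP36] in the currency of DATUM36** (`IsSheetFamily`, `chartOne`, `sheetIdeal`):
`cusp36_dvd_of_family` — at a closed point `𝔫` of the chart `chartOne R F τ` lying on the single
sheet `i₀` (local equation `z`, branch uniformizer `u`: the inputs of helper3's
`sheetDatumAt_of_single_sheet`), if the leading-coefficient character takes `R`-unit values on the
elements of the chart outside `𝔫` and `lc G = 1`, then `m` divides the order of `G` along `W i₀`.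
-/
import Mathlib
import Fermat.Agent.S36.CUSP36_helper4
import Fermat.Agent.S36.BASE36_helper4_Abs
import Fermat.Agent.S36.DATUM36_helper3

set_option autoImplicit false
set_option linter.unusedSectionVars false
set_option linter.unusedVariables false
set_option linter.style.haveILetI false

namespace Fermat.Agent.S36

open Fermat.Agent.JA Fermat.Agent.SS

section Fam

variable {R : Type*} [CommRing R] [IsDomain R] [IsDiscreteValuationRing R] [CharZero R]
  {K₁ : Type*} [Field K₁] [Algebra R K₁] [IsFractionRing R K₁]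
  {K : Type*} [Field K] [Algebra K₁ K] [Algebra R K] [IsScalarTower R K₁ K]
  {F : Type*} [Field F] [Algebra K F] [Algebra R F] [IsScalarTower R K F] [FiniteDimensional K F]
  {π : R} {τ : K} {ι : Type*} {W : ι → ValuationSubring F}

/-- **[CUSP36] at a single-sheet closed point of an `n`-sheet chart.** -/
theorem cusp36_dvd_of_family (fam : IsSheetFamily π τ W) (hπ : Irreducible π)
    (hτ : Transcendental K₁ τ) (hKτ : IntermediateField.adjoin K₁ {τ} = ⊤)
    (𝔫 : Ideal ↥(chartOne R F τ)) [h𝔫 : 𝔫.IsPrime]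
    (i₀ : ι) (hle : sheetIdeal τ (W i₀) (fam.chart_le i₀) ≤ 𝔫)
    (honly : ∀ j, sheetIdeal τ (W j) (fam.chart_le j) ≤ 𝔫 → j = i₀)
    {z u : ↥(chartOne R F τ)} (hz : z ∈ sheetIdeal τ (W i₀) (fam.chart_le i₀)) (hz0 : z ≠ 0)
    (hgen : ∀ w ∈ sheetIdeal τ (W i₀) (fam.chart_le i₀), ∃ s : ↥(chartOne R F τ), s ∉ 𝔫 ∧ z ∣ s * w)
    (hu : IsBranchUniformizer (sheetIdeal τ (W i₀) (fam.chart_le i₀)) 𝔫 u)
    (lc : Fˣ →* K₁ˣ)
    (hlcπ : ∀ v : Fˣ, (v : F) = algebraMap R F π → ((lc v : K₁ˣ) : K₁) = algebraMap R K₁ π)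
    (hlcunit : ∀ b : ↥(chartOne R F τ), b ∉ 𝔫 → ∀ v : Fˣ, (v : F) = (b : F) →
      ∃ ε : Rˣ, ((lc v : K₁ˣ) : K₁) = algebraMap R K₁ (ε : R))
    {m : ℕ} {G : F} (hG : G ≠ 0) (hlcG : ∀ v : Fˣ, (v : F) = G → lc v = 1)
    (hhor : HorPow36 (K₁ := K₁) τ hKτ π m G)
    (a : ℤ) (ha : (W i₀).valuation G = (W i₀).valuation (algebraMap R F π) ^ a) :
    (m : ℤ) ∣ a := by
  haveI : IsFractionRing ↥(chartOne R F τ) F := isFractionRing_chartOne (K₁ := K₁) τ hKτ
  haveI : IsNoetherianRing ↥(chartOne R F τ) := isNoetherianRing_chartOne (K₁ := K₁) τ hτ hKτ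
  have hinjF : Function.Injective (algebraMap R F) := by
    rw [IsScalarTower.algebraMap_eq R K F, IsScalarTower.algebraMap_eq R K₁ K]
    exact (algebraMap K F).injective.comp
      ((algebraMap K₁ K).injective.comp (IsFractionRing.injective R K₁))
  have hπB : algebraMap R ↥(chartOne R F τ) π ≠ 0 := by
    intro h0
    have h1 : ((algebraMap R ↥(chartOne R F τ) π : ↥(chartOne R F τ)) : F) = 0 := by
      rw [h0]; rfl
    exact hπ.ne_zero (hinjF (by rw [map_zero]; exact h1))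
  refine cusp36_dvd (B := ↥(chartOne R F τ)) (E := F) hπ hπB 𝔫
    (sheetIdeal τ (W i₀) (fam.chart_le i₀)) hle hz hz0 hgen hu ?_ (W i₀)
    (fun b => mem_sheetIdeal_iff τ (W i₀) (fam.chart_le i₀) b)
    (fam.exists_mul_eq_of_mem hπ hτ hKτ i₀) lc (fun v hv => hlcπ v hv)
    (fun b hb v hv => hlcunit b hb v hv) hG hlcG
    (fun 𝔮 h𝔮 hh hπ𝔮 _ => hhor 𝔮 h𝔮 hh hπ𝔮) a ha
  intro 𝔮 h𝔮 hh hle' hπ𝔮
  haveI := h𝔮
  obtain ⟨i, hi⟩ := fam.exists_eq_of_height_one hπ hτ hKτ 𝔮 hh hπ𝔮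
  have := honly i (hi ▸ hle')
  rw [hi, this]

end Fam

end Fermat.Agent.S36
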