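/-
S36 [MODEL36 / host transfer] — helper7 — **interface: the valuation data of the three sheets of
level `M q²` over the two sheets of level `M q`** (`IsThreeSheet`), and its production from the
conclusions of `Fermat.Agent.SS.host_three_sheet`.
-/
import Mathlib
import Fermat.Agent.SS.VAL3_helper7_HostThree

set_option autoImplicit false
set_option linter.unusedSectionVars false
set_option linter.unusedVariables false
set_option linter.style.haveILetI false

namespace Fermat.Agent.S36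

open Fermat.Agent.SS

/-- **the three sheets `W20, W11, W02` of `E_N` (`N = M q²`) over the two sheets `Vinf = W10`,
`V0 = W01` of `E_M` (level `M q`)**, along the two degeneracy maps `A, B : E_M → E_N`:
`(e, f)` along `A`: `W20 ↦ W10 (1,1)`, `W11 ↦ W10 (q-1,1)`, `W02 ↦ W01 (1,q)`;
along `B`: `W20 ↦ W10 (1,q)`, `W11 ↦ W01 (q-1,1)`, `W02 ↦ W01 (1,1)`.
`ϖ` is a uniformiser of `W20` and `W02`, `δ` of `W11`, `δ^{q-1} ~ ϖ` on `W11`. -/
structure IsThreeSheet {EM EN : Type*} [Field EM] [Field EN] (A B : EM →+* EN) (q : ℕ)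
    (Vinf V0 : ValuationSubring EM) (W20 W11 W02 : ValuationSubring EN) (ϖ δ : EN) : Prop where
  ne_20_11 : W20 ≠ W11
  ne_20_02 : W20 ≠ W02
  ne_11_02 : W11 ≠ W02
  comap_A_20 : W20.comap A = Vinf
  comap_A_11 : W11.comap A = Vinf
  comap_A_02 : W02.comap A = V0
  comap_B_20 : W20.comap B = Vinf
  comap_B_11 : W11.comap B = V0
  comap_B_02 : W02.comap B = V0
  only_A_inf : ∀ V : ValuationSubring EN, V.comap A = Vinf → V = W20 ∨ V = W11
  only_A_zero : ∀ V : ValuationSubring EN, V.comap A = V0 → V = W02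
  only_B_zero : ∀ V : ValuationSubring EN, V.comap B = V0 → V = W02 ∨ V = W11
  only_B_inf : ∀ V : ValuationSubring EN, V.comap B = Vinf → V = W20
  unif_20 : ∀ x : EN, W20.valuation x < 1 → x * ϖ⁻¹ ∈ W20
  unif_11 : ∀ x : EN, W11.valuation x < 1 → x * δ⁻¹ ∈ W11
  unif_02 : ∀ x : EN, W02.valuation x < 1 → x * ϖ⁻¹ ∈ W02
  val_δ : W11.valuation (δ ^ (q - 1)) = W11.valuation ϖ
  res_A_20 : ∀ x ∈ W20, ∃ a ∈ Vinf, W20.valuation (x - A a) < 1
  res_A_11 : ∀ x ∈ W11, ∃ a ∈ Vinf, W11.valuation (x - A a) < 1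
  res_B_11 : ∀ x ∈ W11, ∃ a ∈ V0, W11.valuation (x - B a) < 1
  res_B_02 : ∀ x ∈ W02, ∃ a ∈ V0, W02.valuation (x - B a) < 1

namespace IsThreeSheet

variable {EM EN : Type*} [Field EM] [Field EN] {A B : EM →+* EN} {q : ℕ}
  {Vinf V0 : ValuationSubring EM} {W20 W11 W02 : ValuationSubring EN} {ϖ δ : EN}

/-- the family `![W20, W11, W02]`. -/
def fam (W20 W11 W02 : ValuationSubring EN) : Fin 3 → ValuationSubring EN := ![W20, W11, W02]

theorem fam_injective (h : IsThreeSheet A B q Vinf V0 W20 W11 W02 ϖ δ) :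
    Function.Injective (fam W20 W11 W02) := by
  intro i j hij
  fin_cases i <;> fin_cases j
  · rfl
  · exact absurd hij h.ne_20_11
  · exact absurd hij h.ne_20_02
  · exact absurd hij.symm h.ne_20_11
  · rfl
  · exact absurd hij h.ne_11_02
  · exact absurd hij.symm h.ne_20_02
  · exact absurd hij.symm h.ne_11_02
  · rfl

/-- every valuation subring of `E_N` lying over `W10` or `W01` along `A` is one of the three. -/
theorem exists_eq_of_comap_A (h : IsThreeSheet A B q Vinf V0 W20 W11 W02 ϖ δ)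
    (V : ValuationSubring EN) (hV : V.comap A = Vinf ∨ V.comap A = V0) :
    ∃ i, V = fam W20 W11 W02 i := by
  rcases hV with hV | hV
  · rcases h.only_A_inf V hV with h1 | h1
    · exact ⟨0, h1⟩
    · exact ⟨1, h1⟩
  · exact ⟨2, h.only_A_zero V hV⟩

/-- residue degree one of `W20` along `A`, unit form. -/
theorem res_A_20' (h : IsThreeSheet A B q Vinf V0 W20 W11 W02 ϖ δ) (z : EN)
    (hz : W20.valuation z = 1) : ∃ a : EM, W20.valuation (z - A a) < 1 := by
  obtain ⟨a, -, ha⟩ := h.res_A_20 z ((ValuationSubring.valuation_le_one_iff _ _).mp hz.le)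
  exact ⟨a, ha⟩

theorem res_A_11' (h : IsThreeSheet A B q Vinf V0 W20 W11 W02 ϖ δ) (z : EN)
    (hz : W11.valuation z = 1) : ∃ a : EM, W11.valuation (z - A a) < 1 := by
  obtain ⟨a, -, ha⟩ := h.res_A_11 z ((ValuationSubring.valuation_le_one_iff _ _).mp hz.le)
  exact ⟨a, ha⟩

theorem res_B_11' (h : IsThreeSheet A B q Vinf V0 W20 W11 W02 ϖ δ) (z : EN)
    (hz : W11.valuation z = 1) : ∃ a : EM, W11.valuation (z - B a) < 1 := by
  obtain ⟨a, -, ha⟩ := h.res_B_11 z ((ValuationSubring.valuation_le_one_iff _ _).mp hz.le)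
  exact ⟨a, ha⟩

theorem res_B_02' (h : IsThreeSheet A B q Vinf V0 W20 W11 W02 ϖ δ) (z : EN)
    (hz : W02.valuation z = 1) : ∃ a : EM, W02.valuation (z - B a) < 1 := by
  obtain ⟨a, -, ha⟩ := h.res_B_02 z ((ValuationSubring.valuation_le_one_iff _ _).mp hz.le)
  exact ⟨a, ha⟩

end IsThreeSheet

end Fermat.Agent.S36
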