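/-
S36 [MODEL36 / host transfer] — helper7 — **the sheet family of the hosts of level `M q²`** in
helper3's currency: `IsSheetFamily π j ![W20, W11, W02]` from the two-sheet data of level `M q`
(`IsTwoSheet π j W10 W01`) and `IsThreeSheet`; Legendre and Hesse instances; discreteness of a
sheet with a given uniformiser.
-/
import Mathlib
import Fermat.Agent.S36.HOST36_helper7_Hes
import Fermat.Agent.S36.KUM36_helper3_Sheet

set_option autoImplicit false
set_option linter.unusedSectionVars false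
set_option linter.unusedVariables false
set_option linter.style.haveILetI false
set_option synthInstance.maxHeartbeats 200000

open Polynomial ModularCurve IntermediateField
open Fermat.Agent.Igusa Fermat.Agent.JA Fermat.Agent.SS

open scoped Fermat.Agent.JA.Host

namespace Fermat.Agent.S36

section Generic

variable {R : Type*} [CommRing R] [IsDomain R] [IsDiscreteValuationRing R] [CharZero R]
  {K₁ : Type*} [Field K₁] [Algebra R K₁] [IsFractionRing R K₁]
  {K : Type*} [Field K] [Algebra K₁ K] [Algebra R K] [IsScalarTower R K₁ K]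
  {EM : Type*} [Field EM] [Algebra K EM] [Algebra R EM] [IsScalarTower R K EM]
  [FiniteDimensional K EM]
  {EN : Type*} [Field EN] [Algebra K EN] [Algebra R EN] [IsScalarTower R K EN]
  [FiniteDimensional K EN]

/-- **the three sheets are all the extensions of the Gauss valuation of the `j`-line.** -/
theorem isSheetFamily_of_isThreeSheet {π : R} {u : K} {A B : EM →+* EN} {q : ℕ}
    {Vinf V0 : ValuationSubring EM} {W20 W11 W02 : ValuationSubring EN} {ϖ δ : EN}
    (hA : ∀ k : K, A (algebraMap K EM k) = algebraMap K EN k)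
    (h2 : IsTwoSheet π u Vinf V0) (h3 : IsThreeSheet A B q Vinf V0 W20 W11 W02 ϖ δ) :
    IsSheetFamily π u (IsThreeSheet.fam W20 W11 W02) := by
  have hcomp : ∀ V : ValuationSubring EN,
      V.comap (algebraMap K EN) = (V.comap A).comap (algebraMap K EM) := by
    intro V
    ext k
    rw [ValuationSubring.mem_comap, ValuationSubring.mem_comap, ValuationSubring.mem_comap, hA]
  refine ⟨h3.fam_injective, ?_, ?_⟩
  · intro i
    fin_cases i
    · show IsGaussAt R π u (W20.comap (algebraMap K EN))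
      rw [hcomp, h3.comap_A_20]
      exact h2.gauss_inf
    · show IsGaussAt R π u (W11.comap (algebraMap K EN))
      rw [hcomp, h3.comap_A_11]
      exact h2.gauss_inf
    · show IsGaussAt R π u (W02.comap (algebraMap K EN))
      rw [hcomp, h3.comap_A_02]
      exact h2.gauss_zero
  · intro V hV
    rw [hcomp] at hV
    exact h3.exists_eq_of_comap_A V (h2.only _ hV)

end Generic

section Disc

variable {L : Type*} [Field L]

/-- **discreteness with a given uniformiser**: in a valuation subring which is a discrete valuation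
ring and whose non-units are divisible by `x`, every non-zero element is a unit times a power of
`x`. -/
theorem exists_zpow_val_eq_one (V : ValuationSubring L) [IsDiscreteValuationRing ↥V] {x : L}
    (hx : V.valuation x < 1) (hx0 : x ≠ 0)
    (hu : ∀ y : L, V.valuation y < 1 → y * x⁻¹ ∈ V) (g : L) (hg : g ≠ 0) :
    ∃ n : ℤ, V.valuation (g * x ^ (-n)) = 1 := by
  have hxV : x ∈ V := (ValuationSubring.valuation_le_one_iff V x).mp hx.le
  -- `x` is irreducible in `V`
  have hirr : Irreducible (⟨x, hxV⟩ : ↥V) := by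
    rw [IsDiscreteValuationRing.irreducible_iff_uniformizer]
    apply le_antisymm
    · intro y hy
      rw [ValuationSubring.valuation_lt_one_iff] at hy
      rw [Ideal.mem_span_singleton]
      refine ⟨⟨_, hu _ hy⟩, Subtype.ext ?_⟩
      show (y : L) = x * ((y : L) * x⁻¹)
      field_simp
    · rw [Ideal.span_le, Set.singleton_subset_iff]
      show (⟨x, hxV⟩ : ↥V) ∈ IsLocalRing.maximalIdeal ↥V
      rw [ValuationSubring.valuation_lt_one_iff]
      exact hx
  -- elements of `V`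
  have key : ∀ z : L, z ∈ V → z ≠ 0 → ∃ n : ℕ, V.valuation (z * x ^ (-(n : ℤ))) = 1 := by
    intro z hz hz0
    have hz' : (⟨z, hz⟩ : ↥V) ≠ 0 := fun h0 => hz0 (congrArg Subtype.val h0)
    obtain ⟨n, hn⟩ := IsDiscreteValuationRing.associated_pow_irreducible hz' hirr
    obtain ⟨c, hc⟩ := hn
    refine ⟨n, ?_⟩
    have h1 : z * ((c : ↥V) : L) = x ^ n := by
      have := congrArg (fun t : ↥V => (t : L)) hc
      simpa using this
    have hcu : V.valuation ((c : ↥V) : L) = 1 :=
      (ValuationSubring.valuation_eq_one_iff V (c : ↥V)).mp c.isUnit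
    have hxn : x ^ n ≠ 0 := pow_ne_zero n hx0
    have h2 : V.valuation z = V.valuation (x ^ n) := by
      rw [← h1, map_mul, hcu, mul_one]
    rw [zpow_neg, zpow_natCast, map_mul, map_inv₀, h2]
    exact mul_inv_cancel₀ ((Valuation.ne_zero_iff _).mpr hxn)
  rcases V.mem_or_inv_mem g with hgV | hgV
  · obtain ⟨n, hn⟩ := key g hgV hg
    exact ⟨n, hn⟩
  · obtain ⟨n, hn⟩ := key g⁻¹ hgV (inv_ne_zero hg)
    refine ⟨-(n : ℤ), ?_⟩
    have h1 : g * x ^ (-(-(n : ℤ))) = (g⁻¹ * x ^ (-(n : ℤ)))⁻¹ := by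
      rw [mul_inv, inv_inv, zpow_neg, zpow_neg, inv_inv]
    rw [h1, map_inv₀, hn, inv_one]

end Disc

end Fermat.Agent.S36

namespace Fermat.Agent.S36

noncomputable section

open Fermat.Agent.X0N Fermat.Agent.S35 AlgebraicCurve

section Leg

variable (R : Type*) [CommRing R] [IsDomain R] [IsDiscreteValuationRing R] [CharZero R]
  [DecidableEq R]
  (K : Type*) [Field K] [Algebra R K] [IsFractionRing R K] [Algebra ℚ K] [Algebra K ℂ]
  {M q : ℕ} [NeZero M] [NeZero q] [NeZero (M * q)] [NeZero (M * q * q)] {x y : ℤ}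
  {π : R}
  {R' : Type*} [CommRing R'] [IsDomain R'] [IsDiscreteValuationRing R']
  {K' : Type*} [Field K'] [Algebra R' K'] [IsFractionRing R' K']

/-- **the sheet family of the Legendre host of level `M q²`** (coordinate `j`). -/
theorem legE_isSheetFamily (hπ : Irreducible π) (h2 : IsUnit (2 : R))
    (h : (q : ℤ) * x + M * y = 1) (hq : q.Prime) (hq2 : q ≠ 2)
    (hqπ : (q : R) ∈ Ideal.span {π})
    (hgeo : GeoHyps K π (AdjoinSimple.gen K (legT K)) ↥(legE K M) M ({0, 1} : Finset R))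
    (φ : R →+* R') [IsLocalHom φ] (κ : K →+* K')
    (hκ : ∀ r : R, κ (algebraMap R K r) = algebraMap R' K' (φ r))
    (ζ : R'ˣ) (hζq : ζ ^ q = 1) (hζ1 : ζ ≠ 1)
    (δ : ↥(keyFq K (M * q * q)))
    (hδ : (keyFqW11 R K h hq φ κ hκ ζ hζq hζ1).valuation (δ ^ (q - 1)) =
      (keyFqW11 R K h hq φ κ hκ ζ hζq hζ1).valuation
        (algebraMap R ↥(keyFq K (M * q * q)) π))
    (W11 W02 : ValuationSubring ↥(legE K (M * q * q)))
    (h11 : W11.comap (legIncl K (M * q * q)) =
      hostImageVal K 2 (keyFqW11 R K h hq φ κ hκ ζ hζq hζ1))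
    (h02 : W02.comap (legIncl K (M * q * q)) = hostImageVal K 2 (keyFqW02 R K h hq)) :
    haveI : FiniteDimensional ↥K⟮jqNModC K 2⟯ ↥(legE K (M * q * q)) :=
      finite_legE_adjoin_j K (M * q * q)
    IsSheetFamily π (AdjoinSimple.gen K (jqNModC K 2))
      (IsThreeSheet.fam (legWinf R K h2 (M * q * q)) W11 W02) := by
  haveI : FiniteDimensional ↥K⟮jqNModC K 2⟯ ↥(legE K (M * q * q)) :=
    finite_legE_adjoin_j K (M * q * q)
  haveI : FiniteDimensional ↥K⟮jqNModC K 2⟯ ↥(legE K (M * q)) := finite_legE_adjoin_j K (M * q)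
  obtain ⟨-, -, hT2, -, -⟩ := ssModelLeg_block R K hπ h2 h hq hq2 hqπ hgeo
  obtain ⟨-, hT3⟩ := legE_isThreeSheet R K hπ h2 h hq hq2 hqπ hgeo φ κ hκ ζ hζq hζ1 δ hδ W11 W02
    h11 h02
  exact isSheetFamily_of_isThreeSheet (K := ↥K⟮jqNModC K 2⟯)
    (EM := ↥(legE K (M * q))) (EN := ↥(legE K (M * q * q)))
    (A := (legHostA K (M * q) q : ↥(legE K (M * q)) →+* ↥(legE K (M * q * q))))
    (fun k => Subtype.ext rfl) hT2 hT3

end Leg

section Hes

variable (R : Type*) [CommRing R] [IsDomain R] [IsDiscreteValuationRing R] [CharZero R]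
  [DecidableEq R]
  (K : Type*) [Field K] [Algebra R K] [IsFractionRing R K] [Algebra ℚ K] [Algebra K ℂ]
  {M : ℕ} [NeZero M] [NeZero (M * 2)] [NeZero (M * 2 * 2)] {x y : ℤ}
  {π : R}
  {R' : Type*} [CommRing R'] [IsDomain R'] [IsDiscreteValuationRing R']
  {K' : Type*} [Field K'] [Algebra R' K'] [IsFractionRing R' K']

/-- **the sheet family of the Hesse host of level `M · 4`** (coordinate `j`). -/
theorem hesE_isSheetFamily (hπ : Irreducible π) (h3 : IsUnit (3 : R)) (ω : R)
    (h : ((2 : ℕ) : ℤ) * x + M * y = 1)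
    (hqπ : ((2 : ℕ) : R) ∈ Ideal.span {π})
    (hgeo : GeoHyps K π (AdjoinSimple.gen K (hesT K)) ↥(hesE K M) M
      ({1, ω, ω ^ 2} : Finset R))
    (φ : R →+* R') [IsLocalHom φ] (κ : K →+* K')
    (hκ : ∀ r : R, κ (algebraMap R K r) = algebraMap R' K' (φ r))
    (ζ : R'ˣ) (hζq : ζ ^ 2 = 1) (hζ1 : ζ ≠ 1)
    (δ : ↥(keyFq K (M * 2 * 2)))
    (hδ : (keyFqW11 R K h Nat.prime_two φ κ hκ ζ hζq hζ1).valuation (δ ^ (2 - 1)) =
      (keyFqW11 R K h Nat.prime_two φ κ hκ ζ hζq hζ1).valuation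
        (algebraMap R ↥(keyFq K (M * 2 * 2)) π))
    (W11 W02 : ValuationSubring ↥(hesE K (M * 2 * 2)))
    (h11 : W11.comap (hesIncl K (M * 2 * 2)) =
      hostImageVal K 3 (keyFqW11 R K h Nat.prime_two φ κ hκ ζ hζq hζ1))
    (h02 : W02.comap (hesIncl K (M * 2 * 2)) =
      hostImageVal K 3 (keyFqW02 R K h Nat.prime_two)) :
    haveI : FiniteDimensional ↥K⟮jqNModC K 3⟯ ↥(hesE K (M * 2 * 2)) :=
      finite_hesE_adjoin_j K (M * 2 * 2)
    IsSheetFamily π (AdjoinSimple.gen K (jqNModC K 3))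
      (IsThreeSheet.fam (hesWinf R K h3 (M * 2 * 2)) W11 W02) := by
  haveI : FiniteDimensional ↥K⟮jqNModC K 3⟯ ↥(hesE K (M * 2 * 2)) :=
    finite_hesE_adjoin_j K (M * 2 * 2)
  haveI : FiniteDimensional ↥K⟮jqNModC K 3⟯ ↥(hesE K (M * 2)) := finite_hesE_adjoin_j K (M * 2)
  obtain ⟨-, -, hT2, -, -⟩ := ssModelHes_block R K hπ h3 ω h hqπ hgeo
  obtain ⟨-, hT3⟩ := hesE_isThreeSheet R K hπ h3 ω h hqπ hgeo φ κ hκ ζ hζq hζ1 δ hδ W11 W02
    h11 h02
  exact isSheetFamily_of_isThreeSheet (K := ↥K⟮jqNModC K 3⟯)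
    (EM := ↥(hesE K (M * 2))) (EN := ↥(hesE K (M * 2 * 2)))
    (A := (hesHostA K (M * 2) 2 : ↥(hesE K (M * 2)) →+* ↥(hesE K (M * 2 * 2))))
    (fun k => Subtype.ext rfl) hT2 hT3

end Hes

end

end Fermat.Agent.S36
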