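/-
S36 — helper2 — **[NORMVAL], part 1: the norm commutes with reduction when one of the two sheets is
ramified** (pure valuation theory / commutative algebra; Mathlib + helper7's `TwoExt` + helper9's
`NORMRED`).

`L / F` finite separable, `O ⊆ F` a discrete valuation ring of residue characteristic `q`,
`V₁ ≠ V₂` the two extensions of `O` to `L`, with `(e, f) = (1, 1)` and `(r, 1)`, `[L : F] = r + 1`
(helper7's `two_ext_ram`).  For `f ∈ V₁ ∩ V₂` with `f ≡ ι a` along `V₁` and `f ≡ ι b` along `V₂`: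
`N_{L/F} f ∈ O` and `N_{L/F} f ≡ a · b ^ r` modulo the maximal ideal of `O`
(`norm_reduction_two_ext_ram`, `_hom`).

Route (generalising helper9's `norm_reduction_of_count`): `S := integralClosure O L` is finite free
over `O`; `k ⊗_O S ≅ S/P₁^e₁ × S/P₂^e₂` (`normvalEquiv`: injective since an element of
`P₁^e₁ ∩ P₂^e₂` is divisible by a uniformiser of `O` in `V₁ ∩ V₂ = S`, surjective by the Chinese
remainder theorem); the norm commutes with the base change `O → k` and is multiplicative on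
products; on the Artinian factor `S/P^e` the class of `f` is `b + nilpotent`, so in characteristic
`q` its `q^t`-th power is the scalar `b^(q^t)` and its norm is `b ^ dim` (`normval_norm_pow_eq`).
General form: `normval_red_norm_two` (`f ^ (q ^ s) ≡ bᵢ` along `Vᵢ` ⇒
`(N f) ^ (q ^ s) ≡ b₁ ^ ρ₁ · b₂ ^ ρ₂`, `ρᵢ = dim_k S/Pᵢ^eᵢ`, `ρ₁ + ρ₂ = [L : F]`).
-/
import Mathlib
import Fermat.Agent.S35.NORMRED_helper9_Abs
import Fermat.Agent.SS.VAL3_helper7_Hom

set_option autoImplicit false
set_option linter.unusedSectionVars false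
set_option linter.style.haveILetI false
set_option synthInstance.maxHeartbeats 200000

open TensorProduct IsLocalRing

namespace Fermat.Agent.S36

open Fermat.Agent.SS.TwoExt Fermat.Agent.S35

section General

/-- in characteristic `q`: if `y - c` is nilpotent of order `≤ q ^ s` then `y ^ (q ^ s)` is the
scalar `c ^ (q ^ s)`. -/
theorem normval_pow_eq_of_sub_pow_eq_zero {K E : Type*} [Field K] [CommRing E] [Algebra K E]
    (q : ℕ) [hq : Fact q.Prime] [CharP K q] {y : E} {c : K} {r s : ℕ}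
    (hy : (y - algebraMap K E c) ^ r = 0) (hrs : r ≤ q ^ s) :
    y ^ q ^ s = algebraMap K E (c ^ q ^ s) := by
  rcases subsingleton_or_nontrivial E with hE | hE
  · exact Subsingleton.elim _ _
  haveI : CharP E q := charP_of_injective_algebraMap (algebraMap K E).injective q
  have h1 : (y - algebraMap K E c) ^ q ^ s = 0 := by
    obtain ⟨t, ht⟩ := Nat.exists_eq_add_of_le hrs
    rw [ht, pow_add, hy, zero_mul]
  rw [sub_pow_char_pow, sub_eq_zero] at h1
  rw [h1, map_pow]

/-- in characteristic `q`, on a finite algebra: the norm of an element whose `q ^ s`-th power is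
the scalar `c ^ (q ^ s)` is `c ^ rank`. -/
theorem normval_norm_eq_of_pow_eq {K E : Type*} [Field K] [CommRing E] [Algebra K E]
    (q : ℕ) [hq : Fact q.Prime] [CharP K q] {y : E} {c : K} {s : ℕ}
    (hy : y ^ q ^ s = algebraMap K E (c ^ q ^ s)) :
    Algebra.norm K y = c ^ Module.finrank K E := by
  have h1 : Algebra.norm K y ^ q ^ s = (c ^ Module.finrank K E) ^ q ^ s := by
    rw [← map_pow, hy, Algebra.norm_algebraMap, ← pow_mul, ← pow_mul, mul_comm]
  have h2 : (Algebra.norm K y - c ^ Module.finrank K E) ^ q ^ s = 0 := by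
    rw [sub_pow_char_pow, h1, sub_self]
  exact sub_eq_zero.mp (pow_eq_zero_iff (pow_ne_zero s hq.out.ne_zero) |>.mp h2)

/-- in characteristic `q`, on a finite algebra: if `y ^ (q ^ s) - c` is nilpotent then
`(norm y) ^ (q ^ s) = c ^ rank`. -/
theorem normval_norm_pow_eq {K E : Type*} [Field K] [CommRing E] [Algebra K E]
    (q : ℕ) [hq : Fact q.Prime] [CharP K q] {y : E} {c : K} {e s : ℕ}
    (hy : (y ^ q ^ s - algebraMap K E c) ^ e = 0) :
    Algebra.norm K y ^ q ^ s = c ^ Module.finrank K E := by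
  have he : e ≤ q ^ e := (Nat.lt_pow_self hq.out.one_lt).le
  have h1 := normval_pow_eq_of_sub_pow_eq_zero q hy he
  have h2 := normval_norm_eq_of_pow_eq (s := e) q h1
  rw [map_pow] at h2
  exact h2

end General

variable {F L : Type*} [Field F] [Field L] [Algebra F L]
  {O : ValuationSubring F} [IsDiscreteValuationRing ↥O] [FiniteDimensional F L]
  [Algebra.IsSeparable F L]

section Pow

variable {V : ValuationSubring L}

open IsDedekindDomain

/-- membership in a power of the center, via the adic valuation. -/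
theorem mem_center_pow_iff (h : IsExt O V) (s : intCl L O) (n : ℕ) :
    s ∈ center h ^ n ↔
      (centerSpec h).valuation L ((s : intCl L O) : L) ≤ WithZero.exp (-(n : ℤ)) := by
  have h1 : ((s : intCl L O) : L) = algebraMap (intCl L O) L s := rfl
  rw [h1, HeightOneSpectrum.valuation_of_algebraMap,
    HeightOneSpectrum.intValuation_le_pow_iff_mem, centerSpec_asIdeal]

/-- an element of `P ^ e` (`e` the ramification index) is divisible by a uniformiser of `O` in
`V`. -/
theorem mul_inv_mem_of_mem_center_pow (h : IsExt O V) {ϖ : ↥O} (hϖ : Irreducible ϖ)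
    {s : intCl L O} (hs : s ∈ center h ^ (center h).ramificationIdx ↥O) :
    ((s : intCl L O) : L) * (algebraMap F L (ϖ : F))⁻¹ ∈ V := by
  rw [mem_center_pow_iff] at hs
  rw [← val_le_one_iff h, map_mul, map_inv₀, valuation_uniformizer h hϖ]
  have hpos : (0 : WithZero (Multiplicative ℤ)) <
      WithZero.exp (-((center h).ramificationIdx ↥O : ℤ)) := WithZero.exp_pos
  rw [mul_inv_le_iff₀ hpos, one_mul]
  exact hs

/-- the uniformiser of `O` lies in `P ^ e`. -/
theorem algebraMap_mem_center_pow (h : IsExt O V) {a : ↥O} (ha : a ∈ maximalIdeal ↥O) :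
    algebraMap ↥O (intCl L O) a ∈ center h ^ (center h).ramificationIdx ↥O := by
  obtain ⟨ϖ, hϖ⟩ := IsDiscreteValuationRing.exists_irreducible ↥O
  rw [hϖ.maximalIdeal_eq, Ideal.mem_span_singleton] at ha
  obtain ⟨c, rfl⟩ := ha
  rw [map_mul]
  refine Ideal.mul_mem_right _ _ ?_
  rw [mem_center_pow_iff]
  have h1 : ((algebraMap ↥O (intCl L O) ϖ : intCl L O) : L) = algebraMap F L (ϖ : F) := rfl
  rw [h1, valuation_uniformizer h hϖ]

/-- `P ^ e` lies over the maximal ideal of `O`. -/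
theorem center_pow_liesOver (h : IsExt O V) :
    (center h ^ (center h).ramificationIdx ↥O).LiesOver (maximalIdeal ↥O) := by
  constructor
  apply le_antisymm
  · intro a ha
    exact algebraMap_mem_center_pow h ha
  · have hpos : (center h).ramificationIdx ↥O ≠ 0 := (ramificationIdx_pos (centerOver h)).ne'
    have h1 : center h ^ (center h).ramificationIdx ↥O ≤ center h := Ideal.pow_le_self hpos
    have h2 := (center_liesOver h).over
    rw [h2]
    exact Ideal.comap_mono h1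

end Pow

section Phi

variable {V₁ V₂ : ValuationSubring L} (h₁ : IsExt O V₁) (h₂ : IsExt O V₂)

/-- the ideal `P ^ e` of the integral closure attached to an extension `V` of `O`. -/
noncomputable abbrev centerPow {V : ValuationSubring L} (h : IsExt O V) : Ideal (intCl L O) :=
  center h ^ (center h).ramificationIdx ↥O

instance centerPow_liesOver {V : ValuationSubring L} (h : IsExt O V) :
    (centerPow h).LiesOver (maximalIdeal ↥O) := center_pow_liesOver h

/-- the two reductions `S → S/P₁^e₁ × S/P₂^e₂`. -/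
noncomputable def normvalPsi :
    intCl L O →ₐ[↥O] ((intCl L O ⧸ centerPow h₁) × (intCl L O ⧸ centerPow h₂)) :=
  (Ideal.Quotient.mkₐ ↥O (centerPow h₁)).prod (Ideal.Quotient.mkₐ ↥O (centerPow h₂))

/-- the reduction map `k ⊗ S → S/P₁^e₁ × S/P₂^e₂`. -/
noncomputable def normvalPhi :
    (↥O ⧸ maximalIdeal ↥O) ⊗[↥O] (intCl L O) →ₐ[↥O ⧸ maximalIdeal ↥O]
      ((intCl L O ⧸ centerPow h₁) × (intCl L O ⧸ centerPow h₂)) :=
  Algebra.TensorProduct.lift
    (Algebra.ofId (↥O ⧸ maximalIdeal ↥O)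
      ((intCl L O ⧸ centerPow h₁) × (intCl L O ⧸ centerPow h₂)))
    (normvalPsi h₁ h₂)
    (fun x y => Commute.all
      (Algebra.ofId (↥O ⧸ maximalIdeal ↥O)
        ((intCl L O ⧸ centerPow h₁) × (intCl L O ⧸ centerPow h₂)) x)
      (normvalPsi h₁ h₂ y))

theorem normvalPhi_one_tmul (s : intCl L O) :
    normvalPhi h₁ h₂ (1 ⊗ₜ s) =
      (Ideal.Quotient.mk (centerPow h₁) s, Ideal.Quotient.mk (centerPow h₂) s) := by
  simp [normvalPhi, normvalPsi]

/-- an element of `P₁^e₁ ∩ P₂^e₂` is divisible by a uniformiser of `O`. -/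
theorem normval_exists_eq_smul
    (hall : ∀ q : (maximalIdeal ↥O).primesOver (intCl L O),
      q = centerOver h₁ ∨ q = centerOver h₂)
    {ϖ : ↥O} (hϖ : Irreducible ϖ) {s : intCl L O} (hs₁ : s ∈ centerPow h₁)
    (hs₂ : s ∈ centerPow h₂) : ∃ s' : intCl L O, s = ϖ • s' := by
  have m₁ := mul_inv_mem_of_mem_center_pow h₁ hϖ hs₁
  have m₂ := mul_inv_mem_of_mem_center_pow h₂ hϖ hs₂
  have hint := isIntegral_of_mem_of_mem h₁ h₂ hall m₁ m₂
  refine ⟨⟨_, hint⟩, ?_⟩
  apply Subtype.ext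
  have h0 : (ϖ : F) ≠ 0 := fun h0 => hϖ.ne_zero (Subtype.ext h0)
  have h0' : algebraMap F L (ϖ : F) ≠ 0 := (map_ne_zero _).mpr h0
  change (s : L) = ϖ • ((s : L) * (algebraMap F L (ϖ : F))⁻¹)
  rw [Algebra.smul_def]
  change (s : L) = algebraMap F L (ϖ : F) * ((s : L) * (algebraMap F L (ϖ : F))⁻¹)
  field_simp

theorem normvalPhi_injective
    (hall : ∀ q : (maximalIdeal ↥O).primesOver (intCl L O),
      q = centerOver h₁ ∨ q = centerOver h₂) :
    Function.Injective (normvalPhi h₁ h₂) := by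
  rw [injective_iff_map_eq_zero]
  intro z hz
  obtain ⟨s, rfl⟩ := normred_exists_one_tmul z
  rw [normvalPhi_one_tmul, Prod.mk_eq_zero, Ideal.Quotient.eq_zero_iff_mem,
    Ideal.Quotient.eq_zero_iff_mem] at hz
  obtain ⟨ϖ, hϖ⟩ := IsDiscreteValuationRing.exists_irreducible ↥O
  obtain ⟨s', rfl⟩ := normval_exists_eq_smul h₁ h₂ hall hϖ hz.1 hz.2
  rw [TensorProduct.tmul_smul, TensorProduct.smul_tmul', Algebra.smul_def, mul_one]
  have : algebraMap ↥O (↥O ⧸ maximalIdeal ↥O) ϖ = 0 := by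
    rw [Ideal.Quotient.algebraMap_eq, Ideal.Quotient.eq_zero_iff_mem]
    exact hϖ.maximalIdeal_eq ▸ Ideal.mem_span_singleton_self ϖ
  rw [this, TensorProduct.zero_tmul]

theorem normvalPhi_surjective (hne : V₁ ≠ V₂) : Function.Surjective (normvalPhi h₁ h₂) := by
  have hcne : center h₁ ≠ center h₂ := fun hc => hne (eq_of_center_eq h₁ h₂ hc)
  have hcop : IsCoprime (centerPow h₁) (centerPow h₂) := by
    apply IsCoprime.pow
    rw [Ideal.isCoprime_iff_sup_eq]
    exact Ideal.IsMaximal.coprime_of_ne (center_isMaximal h₁) (center_isMaximal h₂) hcne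
  obtain ⟨i, hi, j, hj, hij⟩ := Ideal.isCoprime_iff_exists.mp hcop
  rintro ⟨x, y⟩
  obtain ⟨x, rfl⟩ := Ideal.Quotient.mk_surjective x
  obtain ⟨y, rfl⟩ := Ideal.Quotient.mk_surjective y
  refine ⟨1 ⊗ₜ (x * j + y * i), ?_⟩
  rw [normvalPhi_one_tmul, Prod.mk.injEq, Ideal.Quotient.eq, Ideal.Quotient.eq]
  constructor
  · have : x * j + y * i - x = (y - x) * i := by
      have hj' : j = 1 - i := by rw [← hij]; ring
      rw [hj']; ring
    rw [this]
    exact Ideal.mul_mem_left _ _ hi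
  · have : x * j + y * i - y = (x - y) * j := by
      have hi' : i = 1 - j := by rw [← hij]; ring
      rw [hi']; ring
    rw [this]
    exact Ideal.mul_mem_left _ _ hj

/-- the reduction map as an isomorphism of algebras over the residue field. -/
noncomputable def normvalEquiv
    (hall : ∀ q : (maximalIdeal ↥O).primesOver (intCl L O),
      q = centerOver h₁ ∨ q = centerOver h₂) (hne : V₁ ≠ V₂) :
    (↥O ⧸ maximalIdeal ↥O) ⊗[↥O] (intCl L O) ≃ₐ[↥O ⧸ maximalIdeal ↥O]
      ((intCl L O ⧸ centerPow h₁) × (intCl L O ⧸ centerPow h₂)) :=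
  AlgEquiv.ofBijective (normvalPhi h₁ h₂)
    ⟨normvalPhi_injective h₁ h₂ hall, normvalPhi_surjective h₁ h₂ hne⟩

end Phi

section Main

variable {V₁ V₂ : ValuationSubring L} (h₁ : IsExt O V₁) (h₂ : IsExt O V₂)

/-- the residue characteristic. -/
theorem normval_charP {q : ℕ} (hq : q.Prime) (hchar : O.valuation (q : F) < 1) :
    CharP (↥O ⧸ maximalIdeal ↥O) q := by
  rw [CharP.charP_iff_prime_eq_zero hq]
  have h1 : ((q : ↥O) : F) = (q : F) := by simp
  have h2 : (q : ↥O) ∈ maximalIdeal ↥O := by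
    rw [ValuationSubring.valuation_lt_one_iff, h1]
    exact hchar
  have h3 : ((q : ↥O ⧸ maximalIdeal ↥O)) = Ideal.Quotient.mk (maximalIdeal ↥O) (q : ↥O) := by
    simp
  rw [h3, Ideal.Quotient.eq_zero_iff_mem]
  exact h2

/-- the norm of the class of `f` in the factor `S / P ^ e`, when `f ^ (q ^ s) ≡ b` along `V`. -/
theorem normval_norm_factor {V : ValuationSubring L} (h : IsExt O V) {q : ℕ} (hq : q.Prime)
    (hchar : O.valuation (q : F) < 1) (fS : intCl L O) {s : ℕ} (b : ↥O)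
    (hc : V.valuation (((fS : intCl L O) : L) ^ q ^ s - algebraMap F L (b : F)) < 1) :
    Algebra.norm (↥O ⧸ maximalIdeal ↥O) (Ideal.Quotient.mk (centerPow h) fS) ^ q ^ s =
      Ideal.Quotient.mk (maximalIdeal ↥O) b ^
        Module.finrank (↥O ⧸ maximalIdeal ↥O) (intCl L O ⧸ centerPow h) := by
  letI : Field (↥O ⧸ maximalIdeal ↥O) := Ideal.Quotient.field _
  haveI : Fact q.Prime := ⟨hq⟩
  haveI : CharP (↥O ⧸ maximalIdeal ↥O) q := normval_charP hq hchar
  refine normval_norm_pow_eq (K := ↥O ⧸ maximalIdeal ↥O) (E := intCl L O ⧸ centerPow h) q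
    (y := Ideal.Quotient.mk (centerPow h) fS) (c := Ideal.Quotient.mk (maximalIdeal ↥O) b)
    (e := (center h).ramificationIdx ↥O) ?_
  rw [Ideal.Quotient.algebraMap_mk_of_liesOver, ← map_pow, ← map_sub, ← map_pow,
    Ideal.Quotient.eq_zero_iff_mem]
  refine Ideal.pow_mem_pow ?_ _
  rw [mem_center_iff]
  exact hc

set_option maxHeartbeats 1600000 in
/-- **the reduction of the norm, two extensions, residue-field form**: if `f ^ (q ^ s) ≡ bᵢ` along
`Vᵢ` then `(N f) ^ (q ^ s) ≡ b₁ ^ ρ₁ · b₂ ^ ρ₂`, `ρᵢ = dim S / Pᵢ ^ eᵢ`. -/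
theorem normval_red_norm_two
    (hall : ∀ q : (maximalIdeal ↥O).primesOver (intCl L O),
      q = centerOver h₁ ∨ q = centerOver h₂) (hne : V₁ ≠ V₂)
    {q : ℕ} (hq : q.Prime) (hchar : O.valuation (q : F) < 1) (fS : intCl L O) {s : ℕ}
    (b₁ b₂ : ↥O)
    (hc₁ : V₁.valuation (((fS : intCl L O) : L) ^ q ^ s - algebraMap F L (b₁ : F)) < 1)
    (hc₂ : V₂.valuation (((fS : intCl L O) : L) ^ q ^ s - algebraMap F L (b₂ : F)) < 1) :
    Ideal.Quotient.mk (maximalIdeal ↥O) (Algebra.norm ↥O fS) ^ q ^ s =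
      Ideal.Quotient.mk (maximalIdeal ↥O) b₁ ^
          Module.finrank (↥O ⧸ maximalIdeal ↥O) (intCl L O ⧸ centerPow h₁) *
        Ideal.Quotient.mk (maximalIdeal ↥O) b₂ ^
          Module.finrank (↥O ⧸ maximalIdeal ↥O) (intCl L O ⧸ centerPow h₂) := by
  letI : Field (↥O ⧸ maximalIdeal ↥O) := Ideal.Quotient.field _
  have hred : Ideal.Quotient.mk (maximalIdeal ↥O) (Algebra.norm ↥O fS) =
      Algebra.norm (↥O ⧸ maximalIdeal ↥O) (Ideal.Quotient.mk (centerPow h₁) fS) *
        Algebra.norm (↥O ⧸ maximalIdeal ↥O) (Ideal.Quotient.mk (centerPow h₂) fS) := by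
    have h0 : Ideal.Quotient.mk (maximalIdeal ↥O) (Algebra.norm ↥O fS) =
        algebraMap ↥O (↥O ⧸ maximalIdeal ↥O) (Algebra.norm ↥O fS) := rfl
    rw [h0, ← normred_norm_baseChange (↥O ⧸ maximalIdeal ↥O) fS,
      ← Algebra.norm_eq_of_algEquiv (normvalEquiv h₁ h₂ hall hne)]
    have h1 : normvalEquiv h₁ h₂ hall hne (1 ⊗ₜ fS) =
        (Ideal.Quotient.mk (centerPow h₁) fS, Ideal.Quotient.mk (centerPow h₂) fS) :=
      normvalPhi_one_tmul h₁ h₂ fS
    rw [h1]
    exact normred_norm_prod (R := ↥O ⧸ maximalIdeal ↥O) (Ideal.Quotient.mk (centerPow h₁) fS)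
      (Ideal.Quotient.mk (centerPow h₂) fS)
  rw [hred, mul_pow, normval_norm_factor h₁ hq hchar fS b₁ hc₁,
    normval_norm_factor h₂ hq hchar fS b₂ hc₂]

set_option maxHeartbeats 1600000 in
/-- the dimensions of the two factors add up to the degree. -/
theorem normval_finrank_add
    (hall : ∀ q : (maximalIdeal ↥O).primesOver (intCl L O),
      q = centerOver h₁ ∨ q = centerOver h₂) (hne : V₁ ≠ V₂) :
    Module.finrank (↥O ⧸ maximalIdeal ↥O) (intCl L O ⧸ centerPow h₁) +
      Module.finrank (↥O ⧸ maximalIdeal ↥O) (intCl L O ⧸ centerPow h₂) = Module.finrank F L := by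
  letI : Field (↥O ⧸ maximalIdeal ↥O) := Ideal.Quotient.field _
  have h3 : Module.finrank ↥O (intCl L O) = Module.finrank F L :=
    (IsFractionRing.finrank_eq ↥O F (intCl L O) L).symm
  have h4 := (normvalEquiv h₁ h₂ hall hne).toLinearEquiv.finrank_eq
  rw [Module.finrank_baseChange, h3] at h4
  have h5 : Module.finrank (↥O ⧸ maximalIdeal ↥O)
      ((intCl L O ⧸ centerPow h₁) × (intCl L O ⧸ centerPow h₂)) =
      Module.finrank (↥O ⧸ maximalIdeal ↥O) (intCl L O ⧸ centerPow h₁) +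
        Module.finrank (↥O ⧸ maximalIdeal ↥O) (intCl L O ⧸ centerPow h₂) :=
    Module.finrank_prod
  exact h5.symm.trans h4.symm

/-- the dimension of `S / P ^ e` when `(e, f) = (1, 1)`. -/
theorem normval_finrank_eq_one {V : ValuationSubring L} (h : IsExt O V)
    (he : (center h).ramificationIdx ↥O = 1) (hf : (center h).inertiaDeg ↥O = 1) :
    Module.finrank (↥O ⧸ maximalIdeal ↥O) (intCl L O ⧸ centerPow h) = 1 := by
  have hP : centerPow h = center h := by
    show center h ^ (center h).ramificationIdx ↥O = center h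
    rw [he, pow_one]
  rw [Ideal.inertiaDeg_eq_of_isMaximal (maximalIdeal ↥O) (center h)] at hf
  rw [← hf]
  refine Algebra.finrank_eq_of_equiv_equiv (RingEquiv.refl _) (Ideal.quotEquivOfEq hP) ?_
  refine RingHom.ext fun x => ?_
  obtain ⟨a, rfl⟩ := Ideal.Quotient.mk_surjective x
  change algebraMap (↥O ⧸ maximalIdeal ↥O) (intCl L O ⧸ center h)
      (Ideal.Quotient.mk (maximalIdeal ↥O) a) =
    Ideal.quotEquivOfEq hP (algebraMap (↥O ⧸ maximalIdeal ↥O) (intCl L O ⧸ centerPow h)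
      (Ideal.Quotient.mk (maximalIdeal ↥O) a))
  rw [Ideal.Quotient.algebraMap_mk_of_liesOver, Ideal.Quotient.algebraMap_mk_of_liesOver,
    Ideal.quotEquivOfEq_mk]

set_option maxHeartbeats 800000 in
/-- **norm commutes with reduction, two extensions `(e, f) = (1, 1)` and `(r, 1)`**:
if `f ≡ a` along `V₁` and `f ≡ b` along `V₂` then `N f ≡ a · b ^ r`. -/
theorem norm_reduction_two_ext_ram_of_count
    (hall : ∀ q : (maximalIdeal ↥O).primesOver (intCl L O),
      q = centerOver h₁ ∨ q = centerOver h₂) (hne : V₁ ≠ V₂)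
    (he₁ : (center h₁).ramificationIdx ↥O = 1) (hf₁ : (center h₁).inertiaDeg ↥O = 1)
    {r : ℕ} (hdeg : Module.finrank F L = r + 1)
    {q : ℕ} (hq : q.Prime) (hchar : O.valuation (q : F) < 1)
    {f : L} (hfV₁ : f ∈ V₁) (hfV₂ : f ∈ V₂) {a b : F}
    (hc₁ : V₁.valuation (f - algebraMap F L a) < 1)
    (hc₂ : V₂.valuation (f - algebraMap F L b) < 1) :
    Algebra.norm F f ∈ O ∧ O.valuation (Algebra.norm F f - a * b ^ r) < 1 := by
  have hfint : IsIntegral ↥O f := isIntegral_of_mem_of_mem h₁ h₂ hall hfV₁ hfV₂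
  set fS : intCl L O := ⟨f, hfint⟩ with hfS
  have ha : a ∈ O := by
    rw [← h₁.mem_iff]
    have : algebraMap F L a = f - (f - algebraMap F L a) := by ring
    rw [this]
    exact sub_mem hfV₁ ((ValuationSubring.valuation_le_one_iff _ _).mp hc₁.le)
  have hb : b ∈ O := by
    rw [← h₂.mem_iff]
    have : algebraMap F L b = f - (f - algebraMap F L b) := by ring
    rw [this]
    exact sub_mem hfV₂ ((ValuationSubring.valuation_le_one_iff _ _).mp hc₂.le)
  set b₁ : ↥O := ⟨a, ha⟩ with hb₁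
  set b₂ : ↥O := ⟨b, hb⟩ with hb₂
  have hN : Algebra.norm F f = algebraMap ↥O F (Algebra.norm ↥O fS) :=
    Algebra.norm_localization ↥O (nonZeroDivisors ↥O) (Sₘ := L) fS
  have hρ₁ := normval_finrank_eq_one h₁ he₁ hf₁
  have hρ₂ : Module.finrank (↥O ⧸ maximalIdeal ↥O) (intCl L O ⧸ centerPow h₂) = r := by
    have := normval_finrank_add h₁ h₂ hall hne
    rw [hρ₁, hdeg] at this
    omega
  have hred := normval_red_norm_two h₁ h₂ hall hne hq hchar fS (s := 0) b₁ b₂
    (by rw [pow_zero, pow_one]; exact hc₁) (by rw [pow_zero, pow_one]; exact hc₂)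
  rw [pow_zero, pow_one, hρ₁, hρ₂, pow_one, ← map_pow, ← map_mul] at hred
  refine ⟨?_, ?_⟩
  · rw [hN]
    exact (Algebra.norm ↥O fS).2
  · rw [hN]
    have h1 : Algebra.norm ↥O fS - b₁ * b₂ ^ r ∈ maximalIdeal ↥O := by
      rw [← Ideal.Quotient.eq]
      exact hred
    rw [ValuationSubring.valuation_lt_one_iff] at h1
    exact h1

include h₁ h₂ in
/-- **norm commutes with reduction, two extensions with one ramified sheet** (`Algebra` form, with
the hypotheses of helper7's `two_ext_ram`): `V₁ ≠ V₂` extend `O`, `x ∈ L` with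
`V₂(x ^ r) = V₂(ϖ)`, `[L : F] ≤ r + 1`, residue characteristic `q`. -/
theorem norm_reduction_two_ext_ram (hne : V₁ ≠ V₂) {ϖ : ↥O} (hϖ : Irreducible ϖ) {r : ℕ} {x : L}
    (hx : V₂.valuation (x ^ r) = V₂.valuation (algebraMap F L (ϖ : F)))
    (hr : Module.finrank F L ≤ r + 1)
    {q : ℕ} (hq : q.Prime) (hchar : O.valuation (q : F) < 1)
    {f : L} (hfV₁ : f ∈ V₁) (hfV₂ : f ∈ V₂) {a b : F}
    (hc₁ : V₁.valuation (f - algebraMap F L a) < 1)
    (hc₂ : V₂.valuation (f - algebraMap F L b) < 1) :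
    Algebra.norm F f ∈ O ∧ O.valuation (Algebra.norm F f - a * b ^ r) < 1 := by
  obtain ⟨hall, he₁, hf₁, -, -, hdeg⟩ :=
    count_two_ram h₁ h₂ hne (le_ramificationIdx_center h₂ hϖ hx) hr
  exact norm_reduction_two_ext_ram_of_count h₁ h₂ hall hne he₁ hf₁ hdeg hq hchar hfV₁ hfV₂ hc₁ hc₂

include h₁ h₂ in
/-- the norm of a unit of `V₁ ∩ V₂` is a unit, two extensions with one ramified sheet. -/
theorem valuation_norm_eq_one_two_ext_ram (hne : V₁ ≠ V₂) {ϖ : ↥O} (hϖ : Irreducible ϖ) {r : ℕ}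
    {x : L} (hx : V₂.valuation (x ^ r) = V₂.valuation (algebraMap F L (ϖ : F)))
    (hr : Module.finrank F L ≤ r + 1)
    {f : L} (hfV₁ : V₁.valuation f = 1) (hfV₂ : V₂.valuation f = 1) :
    O.valuation (Algebra.norm F f) = 1 := by
  obtain ⟨hall, -⟩ := count_two_ram h₁ h₂ hne (le_ramificationIdx_center h₂ hϖ hx) hr
  exact valuation_norm_eq_one_of_count h₁ h₂ hall hfV₁ hfV₂

end Main

section Hom

variable {F L : Type*} [Field F] [Field L]

/-- **norm commutes with reduction, two extensions with one ramified sheet**, along a ring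
homomorphism (same hypotheses as helper7's `two_ext_ram_hom`, residue characteristic `q`). -/
theorem norm_reduction_two_ext_ram_hom (ι : F →+* L) (O : ValuationSubring F)
    [IsDiscreteValuationRing ↥O]
    (hfin : letI := ι.toAlgebra; FiniteDimensional F L)
    (hsep : letI := ι.toAlgebra; Algebra.IsSeparable F L)
    {V₁ V₂ : ValuationSubring L} (h₁ : V₁.comap ι = O) (h₂ : V₂.comap ι = O)
    (hne : V₁ ≠ V₂) {ϖ : ↥O} (hϖ : Irreducible ϖ) {r : ℕ} {x : L}
    (hx : V₂.valuation (x ^ r) = V₂.valuation (ι (ϖ : F)))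
    (hr : letI := ι.toAlgebra; Module.finrank F L ≤ r + 1)
    {q : ℕ} (hq : q.Prime) (hchar : O.valuation (q : F) < 1)
    {f : L} (hfV₁ : f ∈ V₁) (hfV₂ : f ∈ V₂) {a b : F}
    (hc₁ : V₁.valuation (f - ι a) < 1) (hc₂ : V₂.valuation (f - ι b) < 1) :
    (letI := ι.toAlgebra; Algebra.norm F f) ∈ O ∧
      O.valuation ((letI := ι.toAlgebra; Algebra.norm F f) - a * b ^ r) < 1 := by
  letI := ι.toAlgebra
  haveI := hfin
  haveI := hsep
  exact norm_reduction_two_ext_ram (O := O) (V₁ := V₁) (V₂ := V₂) h₁ h₂ hne hϖ hx hr hq hchar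
    hfV₁ hfV₂ hc₁ hc₂

/-- the norm of a unit of `V₁ ∩ V₂` is a unit, along a ring homomorphism. -/
theorem valuation_norm_eq_one_two_ext_ram_hom (ι : F →+* L) (O : ValuationSubring F)
    [IsDiscreteValuationRing ↥O]
    (hfin : letI := ι.toAlgebra; FiniteDimensional F L)
    (hsep : letI := ι.toAlgebra; Algebra.IsSeparable F L)
    {V₁ V₂ : ValuationSubring L} (h₁ : V₁.comap ι = O) (h₂ : V₂.comap ι = O)
    (hne : V₁ ≠ V₂) {ϖ : ↥O} (hϖ : Irreducible ϖ) {r : ℕ} {x : L}
    (hx : V₂.valuation (x ^ r) = V₂.valuation (ι (ϖ : F)))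
    (hr : letI := ι.toAlgebra; Module.finrank F L ≤ r + 1)
    {f : L} (hfV₁ : V₁.valuation f = 1) (hfV₂ : V₂.valuation f = 1) :
    O.valuation (letI := ι.toAlgebra; Algebra.norm F f) = 1 := by
  letI := ι.toAlgebra
  haveI := hfin
  haveI := hsep
  exact valuation_norm_eq_one_two_ext_ram (O := O) (V₁ := V₁) (V₂ := V₂) h₁ h₂ hne hϖ hx hr
    hfV₁ hfV₂

end Hom

end Fermat.Agent.S36
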