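/-
S36 — helper2 — **[NORMVAL], part 2: the norm commutes with reduction for a single extension**
(`(e, f) = (1, q)`, e.g. purely inseparable residue extension: the sheet `W02` over `W01` along
`A'`, the sheet `W20` over `W10''` along `B'`).

`L / F` finite separable of degree `q ^ s`, `O ⊆ F` a discrete valuation ring of residue
characteristic `q`, `V` the only extension of `O` to `L`.  For `f ∈ V` with `f ^ (q ^ s) ≡ ι a` along
`V`: `N_{L/F} f ∈ O` and `N_{L/F} f ≡ a` (`norm_reduction_one_ext_of_count`; `s = 1` with the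
hypotheses of helper7's `one_ext`: `norm_reduction_one_ext`, `_hom`).  Same route as part 1:
`k ⊗_O S ≅ S / P ^ e` (`normvalEquivOne`).
-/
import Mathlib
import Fermat.Agent.S36.NORMVAL_helper2_Two

set_option autoImplicit false
set_option linter.unusedSectionVars false
set_option linter.style.haveILetI false
set_option synthInstance.maxHeartbeats 200000

open TensorProduct IsLocalRing

namespace Fermat.Agent.S36

open Fermat.Agent.SS.TwoExt Fermat.Agent.S35

variable {F L : Type*} [Field F] [Field L] [Algebra F L]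
  {O : ValuationSubring F} [IsDiscreteValuationRing ↥O] [FiniteDimensional F L]
  [Algebra.IsSeparable F L]

section PhiOne

variable {V : ValuationSubring L} (h : IsExt O V)

/-- the reduction map `k ⊗ S → S/P^e` (one extension). -/
noncomputable def normvalPhiOne :
    (↥O ⧸ maximalIdeal ↥O) ⊗[↥O] (intCl L O) →ₐ[↥O ⧸ maximalIdeal ↥O]
      (intCl L O ⧸ centerPow h) :=
  Algebra.TensorProduct.lift
    (Algebra.ofId (↥O ⧸ maximalIdeal ↥O) (intCl L O ⧸ centerPow h))
    (Ideal.Quotient.mkₐ ↥O (centerPow h))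
    (fun x y => Commute.all
      (Algebra.ofId (↥O ⧸ maximalIdeal ↥O) (intCl L O ⧸ centerPow h) x)
      (Ideal.Quotient.mkₐ ↥O (centerPow h) y))

theorem normvalPhiOne_one_tmul (s : intCl L O) :
    normvalPhiOne h (1 ⊗ₜ s) = Ideal.Quotient.mk (centerPow h) s := by
  simp [normvalPhiOne]

theorem normvalPhiOne_injective
    (hall : ∀ q : (maximalIdeal ↥O).primesOver (intCl L O), q = centerOver h) :
    Function.Injective (normvalPhiOne h) := by
  rw [injective_iff_map_eq_zero]
  intro z hz
  obtain ⟨s, rfl⟩ := normred_exists_one_tmul z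
  rw [normvalPhiOne_one_tmul, Ideal.Quotient.eq_zero_iff_mem] at hz
  obtain ⟨ϖ, hϖ⟩ := IsDiscreteValuationRing.exists_irreducible ↥O
  obtain ⟨s', rfl⟩ := normval_exists_eq_smul h h (fun q => Or.inl (hall q)) hϖ hz hz
  rw [TensorProduct.tmul_smul, TensorProduct.smul_tmul', Algebra.smul_def, mul_one]
  have : algebraMap ↥O (↥O ⧸ maximalIdeal ↥O) ϖ = 0 := by
    rw [Ideal.Quotient.algebraMap_eq, Ideal.Quotient.eq_zero_iff_mem]
    exact hϖ.maximalIdeal_eq ▸ Ideal.mem_span_singleton_self ϖ
  rw [this, TensorProduct.zero_tmul]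

theorem normvalPhiOne_surjective : Function.Surjective (normvalPhiOne h) := by
  intro x
  obtain ⟨x, rfl⟩ := Ideal.Quotient.mk_surjective x
  exact ⟨1 ⊗ₜ x, normvalPhiOne_one_tmul h x⟩

/-- the reduction map as an isomorphism of algebras over the residue field (one extension). -/
noncomputable def normvalEquivOne
    (hall : ∀ q : (maximalIdeal ↥O).primesOver (intCl L O), q = centerOver h) :
    (↥O ⧸ maximalIdeal ↥O) ⊗[↥O] (intCl L O) ≃ₐ[↥O ⧸ maximalIdeal ↥O]
      (intCl L O ⧸ centerPow h) :=
  AlgEquiv.ofBijective (normvalPhiOne h)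
    ⟨normvalPhiOne_injective h hall, normvalPhiOne_surjective h⟩

set_option maxHeartbeats 1600000 in
/-- the dimension of `S / P ^ e` is the degree (one extension). -/
theorem normval_finrank_one
    (hall : ∀ q : (maximalIdeal ↥O).primesOver (intCl L O), q = centerOver h) :
    Module.finrank (↥O ⧸ maximalIdeal ↥O) (intCl L O ⧸ centerPow h) = Module.finrank F L := by
  letI : Field (↥O ⧸ maximalIdeal ↥O) := Ideal.Quotient.field _
  have h3 : Module.finrank ↥O (intCl L O) = Module.finrank F L :=
    (IsFractionRing.finrank_eq ↥O F (intCl L O) L).symm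
  have h4 := (normvalEquivOne h hall).toLinearEquiv.finrank_eq
  rw [Module.finrank_baseChange, h3] at h4
  exact h4.symm

set_option maxHeartbeats 1600000 in
/-- **the reduction of the norm, one extension, residue-field form**: if `f ^ (q ^ s) ≡ b` along
`V` then `(N f) ^ (q ^ s) ≡ b ^ [L : F]`. -/
theorem normval_red_norm_one
    (hall : ∀ q : (maximalIdeal ↥O).primesOver (intCl L O), q = centerOver h)
    {q : ℕ} (hq : q.Prime) (hchar : O.valuation (q : F) < 1) (fS : intCl L O) {s : ℕ} (b : ↥O)
    (hc : V.valuation (((fS : intCl L O) : L) ^ q ^ s - algebraMap F L (b : F)) < 1) :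
    Ideal.Quotient.mk (maximalIdeal ↥O) (Algebra.norm ↥O fS) ^ q ^ s =
      Ideal.Quotient.mk (maximalIdeal ↥O) b ^ Module.finrank F L := by
  letI : Field (↥O ⧸ maximalIdeal ↥O) := Ideal.Quotient.field _
  have hred : Ideal.Quotient.mk (maximalIdeal ↥O) (Algebra.norm ↥O fS) =
      Algebra.norm (↥O ⧸ maximalIdeal ↥O) (Ideal.Quotient.mk (centerPow h) fS) := by
    have h0 : Ideal.Quotient.mk (maximalIdeal ↥O) (Algebra.norm ↥O fS) =
        algebraMap ↥O (↥O ⧸ maximalIdeal ↥O) (Algebra.norm ↥O fS) := rfl
    rw [h0, ← normred_norm_baseChange (↥O ⧸ maximalIdeal ↥O) fS,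
      ← Algebra.norm_eq_of_algEquiv (normvalEquivOne h hall)]
    have h1 : normvalEquivOne h hall (1 ⊗ₜ fS) = Ideal.Quotient.mk (centerPow h) fS :=
      normvalPhiOne_one_tmul h fS
    rw [h1]
  rw [hred, normval_norm_factor h hq hchar fS b hc, normval_finrank_one h hall]

/-- **norm commutes with reduction, one extension of degree `q ^ s`** (residue characteristic `q`):
if `f ^ (q ^ s) ≡ a` along `V` then `N f ≡ a`. -/
theorem norm_reduction_one_ext_of_count
    (hall : ∀ q : (maximalIdeal ↥O).primesOver (intCl L O), q = centerOver h)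
    {q : ℕ} (hq : q.Prime) (hchar : O.valuation (q : F) < 1) {s : ℕ}
    (hdeg : Module.finrank F L = q ^ s)
    {f : L} (hfV : f ∈ V) {a : F}
    (hc : V.valuation (f ^ q ^ s - algebraMap F L a) < 1) :
    Algebra.norm F f ∈ O ∧ O.valuation (Algebra.norm F f - a) < 1 := by
  letI : Field (↥O ⧸ maximalIdeal ↥O) := Ideal.Quotient.field _
  haveI : Fact q.Prime := ⟨hq⟩
  haveI : CharP (↥O ⧸ maximalIdeal ↥O) q := normval_charP hq hchar
  have hfint : IsIntegral ↥O f :=
    isIntegral_of_mem_of_mem h h (fun q => Or.inl (hall q)) hfV hfV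
  set fS : intCl L O := ⟨f, hfint⟩ with hfS
  have ha : a ∈ O := by
    rw [← h.mem_iff]
    have : algebraMap F L a = f ^ q ^ s - (f ^ q ^ s - algebraMap F L a) := by ring
    rw [this]
    exact sub_mem (pow_mem hfV _) ((ValuationSubring.valuation_le_one_iff _ _).mp hc.le)
  set b : ↥O := ⟨a, ha⟩ with hb
  have hN : Algebra.norm F f = algebraMap ↥O F (Algebra.norm ↥O fS) :=
    Algebra.norm_localization ↥O (nonZeroDivisors ↥O) (Sₘ := L) fS
  have hred := normval_red_norm_one h hall hq hchar fS b hc
  rw [hdeg] at hred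
  have h2 : (Ideal.Quotient.mk (maximalIdeal ↥O) (Algebra.norm ↥O fS) -
      Ideal.Quotient.mk (maximalIdeal ↥O) b) ^ q ^ s = 0 := by
    rw [sub_pow_char_pow, hred, sub_self]
  have h3 := sub_eq_zero.mp (pow_eq_zero_iff (pow_ne_zero s hq.ne_zero) |>.mp h2)
  refine ⟨?_, ?_⟩
  · rw [hN]
    exact (Algebra.norm ↥O fS).2
  · rw [hN]
    have h1 : Algebra.norm ↥O fS - b ∈ maximalIdeal ↥O := by
      rw [← Ideal.Quotient.eq]
      exact h3
    rw [ValuationSubring.valuation_lt_one_iff] at h1
    exact h1

/-- the norm of an element of `V` is integral (one extension). -/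
theorem norm_mem_of_count_one
    (hall : ∀ q : (maximalIdeal ↥O).primesOver (intCl L O), q = centerOver h)
    {f : L} (hfV : f ∈ V) : Algebra.norm F f ∈ O := by
  have hfint : IsIntegral ↥O f :=
    isIntegral_of_mem_of_mem h h (fun q => Or.inl (hall q)) hfV hfV
  have hN : Algebra.norm F f = algebraMap ↥O F (Algebra.norm ↥O (⟨f, hfint⟩ : intCl L O)) :=
    Algebra.norm_localization ↥O (nonZeroDivisors ↥O) (Sₘ := L) (⟨f, hfint⟩ : intCl L O)
  rw [hN]
  exact (Algebra.norm ↥O (⟨f, hfint⟩ : intCl L O)).2

/-- the norm of a unit of `V` is a unit (one extension). -/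
theorem valuation_norm_eq_one_of_count_one
    (hall : ∀ q : (maximalIdeal ↥O).primesOver (intCl L O), q = centerOver h)
    {f : L} (hfV : V.valuation f = 1) : O.valuation (Algebra.norm F f) = 1 :=
  valuation_norm_eq_one_of_count h h (fun q => Or.inl (hall q)) hfV hfV

include h in
/-- **norm commutes with reduction, one extension** (`Algebra` form, hypotheses of helper7's
`one_ext`): `[L : F] ≤ q`, `q` elements of `V` with independent residues, residue
characteristic `q`; if `f ^ q ≡ a` along `V` then `N f ≡ a`. -/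
theorem norm_reduction_one_ext {q : ℕ} (hq : q.Prime) (hchar : O.valuation (q : F) < 1)
    (hr : Module.finrank F L ≤ q) (b : Fin q → L) (hb : ∀ i, b i ∈ V)
    (hind : ∀ a : Fin q → ↥O, V.valuation (∑ i, algebraMap F L (a i : F) * b i) < 1 →
      ∀ i, a i ∈ maximalIdeal ↥O)
    {f : L} (hfV : f ∈ V) {a : F}
    (hc : V.valuation (f ^ q - algebraMap F L a) < 1) :
    Algebra.norm F f ∈ O ∧ O.valuation (Algebra.norm F f - a) < 1 := by
  obtain ⟨hall, -, -, hdeg⟩ := count_one h hq.pos hr (le_inertiaDeg_center' h b hb hind)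
  exact norm_reduction_one_ext_of_count h hall hq hchar (s := 1) (by rw [pow_one]; exact hdeg)
    hfV (by rw [pow_one]; exact hc)

include h in
/-- the norm of a unit of `V` is a unit (one extension, hypotheses of `one_ext`). -/
theorem valuation_norm_eq_one_one_ext {r : ℕ} (hr0 : 0 < r)
    (hr : Module.finrank F L ≤ r) (b : Fin r → L) (hb : ∀ i, b i ∈ V)
    (hind : ∀ a : Fin r → ↥O, V.valuation (∑ i, algebraMap F L (a i : F) * b i) < 1 →
      ∀ i, a i ∈ maximalIdeal ↥O)
    {f : L} (hfV : V.valuation f = 1) : O.valuation (Algebra.norm F f) = 1 := by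
  obtain ⟨hall, -⟩ := count_one h hr0 hr (le_inertiaDeg_center' h b hb hind)
  exact valuation_norm_eq_one_of_count_one h hall hfV

end PhiOne

section HomOne

variable {F L : Type*} [Field F] [Field L]

/-- **norm commutes with reduction, one extension**, along a ring homomorphism (hypotheses of
helper7's `one_ext_hom` with `r = q` the residue characteristic). -/
theorem norm_reduction_one_ext_hom (ι : F →+* L) (O : ValuationSubring F)
    [IsDiscreteValuationRing ↥O]
    (hfin : letI := ι.toAlgebra; FiniteDimensional F L)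
    (hsep : letI := ι.toAlgebra; Algebra.IsSeparable F L)
    {V : ValuationSubring L} (h : V.comap ι = O)
    {q : ℕ} (hq : q.Prime) (hchar : O.valuation (q : F) < 1)
    (hr : letI := ι.toAlgebra; Module.finrank F L ≤ q)
    (b : Fin q → L) (hb : ∀ i, b i ∈ V)
    (hind : ∀ a : Fin q → ↥O, V.valuation (∑ i, ι (a i : F) * b i) < 1 →
      ∀ i, a i ∈ maximalIdeal ↥O)
    {f : L} (hfV : f ∈ V) {a : F} (hc : V.valuation (f ^ q - ι a) < 1) :
    (letI := ι.toAlgebra; Algebra.norm F f) ∈ O ∧
      O.valuation ((letI := ι.toAlgebra; Algebra.norm F f) - a) < 1 := by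
  letI := ι.toAlgebra
  haveI := hfin
  haveI := hsep
  exact norm_reduction_one_ext (O := O) (V := V) h hq hchar hr b hb hind hfV hc

/-- the norm of a unit of `V` is a unit, along a ring homomorphism (one extension). -/
theorem valuation_norm_eq_one_one_ext_hom (ι : F →+* L) (O : ValuationSubring F)
    [IsDiscreteValuationRing ↥O]
    (hfin : letI := ι.toAlgebra; FiniteDimensional F L)
    (hsep : letI := ι.toAlgebra; Algebra.IsSeparable F L)
    {V : ValuationSubring L} (h : V.comap ι = O) {r : ℕ} (hr0 : 0 < r)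
    (hr : letI := ι.toAlgebra; Module.finrank F L ≤ r)
    (b : Fin r → L) (hb : ∀ i, b i ∈ V)
    (hind : ∀ a : Fin r → ↥O, V.valuation (∑ i, ι (a i : F) * b i) < 1 →
      ∀ i, a i ∈ maximalIdeal ↥O)
    {f : L} (hfV : V.valuation f = 1) :
    O.valuation (letI := ι.toAlgebra; Algebra.norm F f) = 1 := by
  letI := ι.toAlgebra
  haveI := hfin
  haveI := hsep
  exact valuation_norm_eq_one_one_ext (O := O) (V := V) h hr0 hr b hb hind hfV

end HomOne

end Fermat.Agent.S36
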