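/-
(S36 / NORMVAL) — helper2 — **orders of norms** in the two fibre shapes of the three-sheeted model.

`O` a discrete valuation ring of `F`, `L / F` finite separable.

* two sheets `(e, f) = (1, 1)`, `(r, 1)` (`V₁ ≠ V₂` over `O`, `V₂ (x ^ r) = V₂ ϖ`, `[L : F] ≤ r + 1`,
  residue characteristic `q`): `valuation_norm_two_ext_ram`:
  `V₁ g = V₁ ϖ ^ n₁ → V₂ g = V₂ x ^ n₂ → O (N g) = O ϖ ^ (n₁ + n₂)` (integer exponents), with the
  "coordinate" elements `normval_exists_coordinates` (weak approximation) and the discreteness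
  statement `normval_exists_zpow`.
* one sheet `(1, r)` (hypotheses of helper7's `one_ext`): `valuation_norm_one_ext`:
  `V g = V ϖ ^ n → O (N g) = O ϖ ^ (r * n)`.
* ring-homomorphism forms `valuation_norm_two_ext_ram_hom`, `valuation_norm_one_ext_hom`
  (`letI := ι.toAlgebra`), the norm as a `→*₀` (`normvalNorm₀`, `normvalNormAlong₀`) and
  `normvalNormAlong₀_map : N (ι c) = c ^ [L : F]`.
-/
import Mathlib
import Fermat.Agent.S36.NORMVAL_helper2_One

set_option autoImplicit false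
set_option linter.unusedSectionVars false
set_option linter.style.haveILetI false
set_option synthInstance.maxHeartbeats 200000

open IsLocalRing IsDedekindDomain

namespace Fermat.Agent.S36

open Fermat.Agent.SS.TwoExt Fermat.Agent.S35

variable {F L : Type*} [Field F] [Field L] [Algebra F L]

section NormHom

variable [FiniteDimensional F L]

/-- the norm as a monoid-with-zero homomorphism. -/
noncomputable def normvalNorm₀ : L →*₀ F :=
  { (Algebra.norm F : L →* F) with map_zero' := Algebra.norm_zero }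

@[simp]
theorem normvalNorm₀_apply (g : L) : normvalNorm₀ (F := F) g = Algebra.norm F g := rfl

theorem normval_norm_zpow (g : L) (n : ℤ) : Algebra.norm F (g ^ n) = Algebra.norm F g ^ n := by
  rw [← normvalNorm₀_apply, ← normvalNorm₀_apply, map_zpow₀]

end NormHom

variable {O : ValuationSubring F} [IsDiscreteValuationRing ↥O] [FiniteDimensional F L]
  [Algebra.IsSeparable F L]

section Adic

variable {V : ValuationSubring L}

/-- the adic valuations at the center agree ⇒ the `V`-valuations agree (converse of helper7's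
`adic_val_eq_of_val_eq`). -/
theorem normval_val_eq_of_adic_val_eq (h : IsExt O V) {x y : L}
    (hxy : (centerSpec h).valuation L x = (centerSpec h).valuation L y) :
    V.valuation x = V.valuation y := by
  by_cases hy : y = 0
  · subst hy
    rw [map_zero, Valuation.zero_iff] at hxy
    rw [hxy]
  have hy0 : (centerSpec h).valuation L y ≠ 0 := (Valuation.ne_zero_iff _).mpr hy
  have hx : x ≠ 0 := by
    intro hx
    rw [hx, map_zero] at hxy
    exact hy0 hxy.symm
  have hx0 : (centerSpec h).valuation L x ≠ 0 := (Valuation.ne_zero_iff _).mpr hx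
  rw [val_eq_iff_mul_inv_mem V hx hy, ← val_le_one_iff h, ← val_le_one_iff h, map_mul, map_mul,
    map_inv₀, map_inv₀, hxy, mul_inv_cancel₀ hy0]
  exact ⟨le_rfl, le_rfl⟩

/-- discreteness of an extension `V` of `O`, with respect to an element of adic valuation
`exp (-1)`. -/
theorem normval_exists_zpow (h : IsExt O V) {π : L}
    (hπ : (centerSpec h).valuation L π = WithZero.exp (-1 : ℤ)) {g : L} (hg : g ≠ 0) :
    ∃ n : ℤ, V.valuation g = V.valuation π ^ n := by
  have hg0 : (centerSpec h).valuation L g ≠ 0 := (Valuation.ne_zero_iff _).mpr hg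
  refine ⟨-WithZero.log ((centerSpec h).valuation L g), ?_⟩
  rw [← map_zpow₀]
  apply normval_val_eq_of_adic_val_eq h
  rw [map_zpow₀, hπ, ← WithZero.exp_zsmul, smul_eq_mul, mul_neg, neg_mul, neg_neg, mul_one,
    WithZero.exp_log hg0]

end Adic

section First

variable {V₁ V₂ : ValuationSubring L} (h₁ : IsExt O V₁) (h₂ : IsExt O V₂)

include h₁ h₂ in
/-- weak approximation, first element: a unit of `V₂` which has the valuation of `π` along `V₁`,
where `π ∈ V₂` generates the maximal ideal of `V₁`. -/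
theorem normval_exists_first (hne : V₁ ≠ V₂) {π : L} (hπ0 : π ≠ 0) (hπ₁ : V₁.valuation π < 1)
    (hu : ∀ z : L, V₁.valuation z < 1 → z * π⁻¹ ∈ V₁) (hπ₂ : π ∈ V₂) :
    ∃ t : L, V₁.valuation t = V₁.valuation π ∧ V₂.valuation t = 1 := by
  have hc : center h₁ ≠ center h₂ := fun hc => hne (eq_of_center_eq h₁ h₂ hc)
  have hsup : center h₁ ⊔ center h₂ = ⊤ :=
    Ideal.IsMaximal.coprime_of_ne inferInstance inferInstance hc
  have h1 : (1 : intCl L O) ∈ center h₁ ⊔ center h₂ := by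
    rw [hsup]
    exact Submodule.mem_top
  obtain ⟨i, hi, j, hj, hij⟩ := Submodule.mem_sup.mp h1
  rw [mem_center_iff] at hi hj
  have hijL : ((i : intCl L O) : L) + ((j : intCl L O) : L) = 1 := by
    have := congrArg (fun z : intCl L O => (z : L)) hij
    simpa using this
  set iL : L := ((i : intCl L O) : L) with hiL
  set jL : L := ((j : intCl L O) : L) with hjL
  have hj1 : V₁.valuation jL = 1 := by
    have : jL = 1 - iL := by rw [← hijL]; ring
    rw [this]
    exact Valuation.map_one_sub_of_lt _ hi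
  have hi2 : V₂.valuation iL = 1 := by
    have : iL = 1 - jL := by rw [← hijL]; ring
    rw [this]
    exact Valuation.map_one_sub_of_lt _ hj
  have hπpos : 0 < V₁.valuation π := zero_lt_iff.mpr ((Valuation.ne_zero_iff _).mpr hπ0)
  have hile : V₁.valuation iL ≤ V₁.valuation π := by
    have := hu iL hi
    rw [← ValuationSubring.valuation_le_one_iff, map_mul, map_inv₀,
      mul_inv_le_iff₀ hπpos, one_mul] at this
    exact this
  refine ⟨π * jL + iL ^ 2, ?_, ?_⟩
  · have hlt : V₁.valuation (iL ^ 2) < V₁.valuation (π * jL) := by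
      rw [map_mul, hj1, mul_one, map_pow]
      calc V₁.valuation iL ^ 2 ≤ V₁.valuation π ^ 2 := pow_le_pow_left₀ zero_le hile 2
        _ = V₁.valuation π * V₁.valuation π := sq _
        _ < V₁.valuation π * 1 := by
            exact mul_lt_mul_of_pos_left hπ₁ hπpos
        _ = V₁.valuation π := mul_one _
    rw [Valuation.map_add_eq_of_lt_left _ hlt, map_mul, hj1, mul_one]
  · have hlt : V₂.valuation (π * jL) < V₂.valuation (iL ^ 2) := by
      rw [map_pow, hi2, one_pow, map_mul]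
      have hπ2 : V₂.valuation π ≤ 1 := (ValuationSubring.valuation_le_one_iff _ _).mpr hπ₂
      calc V₂.valuation π * V₂.valuation jL ≤ 1 * V₂.valuation jL :=
            mul_le_mul_left hπ2 _
        _ = V₂.valuation jL := one_mul _
        _ < 1 := hj
    rw [Valuation.map_add_eq_of_lt_right _ hlt, map_pow, hi2, one_pow]

end First

section Dvr

/-- a uniformiser of `O` is a non-unit. -/
theorem normval_val_uniformizer_lt_one {ϖ : ↥O} (hϖ : Irreducible ϖ) :
    O.valuation (ϖ : F) < 1 := by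
  rw [← ValuationSubring.valuation_lt_one_iff, mem_maximalIdeal]
  exact hϖ.not_isUnit

theorem normval_uniformizer_ne_zero {ϖ : ↥O} (hϖ : Irreducible ϖ) : (ϖ : F) ≠ 0 := by
  intro h
  exact hϖ.ne_zero (Subtype.ext h)

/-- every nonzero element of the discrete valuation ring `O` has the valuation of a power of the
uniformiser. -/
theorem normval_exists_pow_of_mem {ϖ : ↥O} (hϖ : Irreducible ϖ) {y : F} (hy : y ∈ O)
    (hy0 : y ≠ 0) : ∃ k : ℕ, O.valuation y = O.valuation (ϖ : F) ^ k := by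
  have hy0' : (⟨y, hy⟩ : ↥O) ≠ 0 := fun h => hy0 (congrArg Subtype.val h)
  obtain ⟨n, u, hu⟩ := IsDiscreteValuationRing.eq_unit_mul_pow_irreducible hy0' hϖ
  refine ⟨n, ?_⟩
  have h1 : y = ((u : ↥O) : F) * (ϖ : F) ^ n := by
    have := congrArg Subtype.val hu
    simpa using this
  rw [h1, map_mul, map_pow, ValuationSubring.valuation_unit, one_mul]

/-- same, for non-units: the exponent is positive. -/
theorem normval_exists_pow_of_lt_one {ϖ : ↥O} (hϖ : Irreducible ϖ) {y : F}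
    (hy : O.valuation y < 1) (hy0 : y ≠ 0) :
    ∃ k : ℕ, 0 < k ∧ O.valuation y = O.valuation (ϖ : F) ^ k := by
  obtain ⟨k, hk⟩ := normval_exists_pow_of_mem hϖ
    ((ValuationSubring.valuation_le_one_iff _ _).mp hy.le) hy0
  refine ⟨k, ?_, hk⟩
  rcases Nat.eq_zero_or_pos k with h0 | h0
  · rw [h0, pow_zero] at hk
    rw [hk] at hy
    exact absurd hy (lt_irrefl _)
  · exact h0

end Dvr


section TwoMain

variable {V₁ V₂ : ValuationSubring L} (h₁ : IsExt O V₁) (h₂ : IsExt O V₂)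

include h₁ h₂ in
/-- the two "coordinate" elements of the two-sheet situation `(e, f) = (1, 1)`, `(r, 1)`:
`t₁` of valuations `(V₁(ϖ), 1)` and `t₂` of valuations `(1, V₂(x))`; their norms are uniformisers
of `O`. -/
theorem normval_exists_coordinates (hne : V₁ ≠ V₂) {ϖ : ↥O} (hϖ : Irreducible ϖ) {r : ℕ} {x : L}
    (hx : V₂.valuation (x ^ r) = V₂.valuation (algebraMap F L (ϖ : F)))
    (hr : Module.finrank F L ≤ r + 1)
    {q : ℕ} (hq : q.Prime) (hchar : O.valuation (q : F) < 1) :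
    ∃ t₁ t₂ : L, V₁.valuation t₁ = V₁.valuation (algebraMap F L (ϖ : F)) ∧
      V₂.valuation t₁ = 1 ∧ V₁.valuation t₂ = 1 ∧ V₂.valuation t₂ = V₂.valuation x ∧
      O.valuation (Algebra.norm F t₁) = O.valuation (ϖ : F) ∧
      O.valuation (Algebra.norm F t₂) = O.valuation (ϖ : F) := by
  obtain ⟨hdeg, -, hu₁, hu₂, hres₁, hres₂, -⟩ := two_ext_ram h₁ h₂ hne hϖ hx hr
  obtain ⟨-, he₁, -, -, -, -⟩ :=
    count_two_ram h₁ h₂ hne (le_ramificationIdx_center h₂ hϖ hx) hr
  set p : L := algebraMap F L (ϖ : F) with hp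
  have hϖ0 : (ϖ : F) ≠ 0 := normval_uniformizer_ne_zero hϖ
  have hϖ1 : O.valuation (ϖ : F) < 1 := normval_val_uniformizer_lt_one hϖ
  have hϖpos : 0 < O.valuation (ϖ : F) := zero_lt_iff.mpr ((Valuation.ne_zero_iff _).mpr hϖ0)
  have hp0 : p ≠ 0 := (map_ne_zero _).mpr hϖ0
  have hp₁ : V₁.valuation p < 1 := (h₁.val_lt_one_iff _).mpr hϖ1
  have hp₂ : V₂.valuation p < 1 := (h₂.val_lt_one_iff _).mpr hϖ1
  have hp₁0 : V₁.valuation p ≠ 0 := (Valuation.ne_zero_iff _).mpr hp0
  have hp₂0 : V₂.valuation p ≠ 0 := (Valuation.ne_zero_iff _).mpr hp0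
  -- `r ≥ 1`
  have hr1 : 1 ≤ r := by
    rcases Nat.eq_zero_or_pos r with h0 | h0
    · rw [h0, pow_zero, map_one] at hx
      rw [← hx] at hp₂
      exact absurd hp₂ (lt_irrefl _)
    · exact h0
  have hx0 : x ≠ 0 := by
    intro h0
    rw [h0, zero_pow (by omega), map_zero] at hx
    exact hp₂0 hx.symm
  have hxr : V₂.valuation x ^ r = V₂.valuation p := by rw [← map_pow]; exact hx
  have hx₂0 : V₂.valuation x ≠ 0 := (Valuation.ne_zero_iff _).mpr hx0
  -- the first coordinate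
  obtain ⟨t₁, ht₁₁, ht₁₂⟩ := normval_exists_first h₁ h₂ hne hp0 hp₁ hu₁
    ((ValuationSubring.valuation_le_one_iff _ _).mp hp₂.le)
  have ht₁0 : t₁ ≠ 0 := by
    intro h0
    rw [h0, map_zero] at ht₁₂
    exact zero_ne_one ht₁₂
  -- discreteness of `V₁`
  have hw₁ : (centerSpec h₁).valuation L p = WithZero.exp (-1 : ℤ) := by
    rw [hp, valuation_uniformizer h₁ hϖ, he₁]
    rfl
  obtain ⟨n, hn⟩ := normval_exists_zpow h₁ hw₁ hx0
  -- the second coordinate
  set t₂ : L := x * (t₁ ^ n)⁻¹ with ht₂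
  have ht₂₁ : V₁.valuation t₂ = 1 := by
    rw [ht₂, map_mul, map_inv₀, map_zpow₀, ht₁₁, hn]
    exact mul_inv_cancel₀ (zpow_ne_zero _ hp₁0)
  have ht₂₂ : V₂.valuation t₂ = V₂.valuation x := by
    rw [ht₂, map_mul, map_inv₀, map_zpow₀, ht₁₂, one_zpow, inv_one, mul_one]
  have ht₂0 : t₂ ≠ 0 := by
    intro h0
    rw [h0, map_zero] at ht₂₁
    exact zero_ne_one ht₂₁
  -- norms of the coordinates are non-units of `O`
  have hN₁ : O.valuation (Algebra.norm F t₁) < 1 := by
    obtain ⟨c, hc⟩ := hres₂ t₁ ((ValuationSubring.valuation_le_one_iff _ _).mp ht₁₂.le)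
    have h0 : V₁.valuation (t₁ - algebraMap F L (0 : F)) < 1 := by
      rw [map_zero, sub_zero, ht₁₁]
      exact hp₁
    have := (norm_reduction_two_ext_ram h₁ h₂ hne hϖ hx hr hq hchar
      ((ValuationSubring.valuation_le_one_iff _ _).mp (ht₁₁.le.trans hp₁.le))
      ((ValuationSubring.valuation_le_one_iff _ _).mp ht₁₂.le) h0 hc).2
    rwa [zero_mul, sub_zero] at this
  have hN₂ : O.valuation (Algebra.norm F t₂) < 1 := by
    obtain ⟨c, hc⟩ := hres₁ t₂ ((ValuationSubring.valuation_le_one_iff _ _).mp ht₂₁.le)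
    have hx₂lt : V₂.valuation x < 1 := by
      by_contra hcon
      rw [not_lt] at hcon
      have : 1 ≤ V₂.valuation x ^ r := one_le_pow₀ hcon
      rw [hxr] at this
      exact absurd hp₂ (not_lt.mpr this)
    have h0 : V₂.valuation (t₂ - algebraMap F L (0 : F)) < 1 := by
      rw [map_zero, sub_zero, ht₂₂]
      exact hx₂lt
    have := (norm_reduction_two_ext_ram h₁ h₂ hne hϖ hx hr hq hchar
      ((ValuationSubring.valuation_le_one_iff _ _).mp ht₂₁.le)
      ((ValuationSubring.valuation_le_one_iff _ _).mp (ht₂₂.le.trans hx₂lt.le)) hc h0).2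
    rwa [zero_pow (by omega), mul_zero, sub_zero] at this
  have hN₁0 : Algebra.norm F t₁ ≠ 0 := (Algebra.norm_ne_zero_iff).mpr ht₁0
  have hN₂0 : Algebra.norm F t₂ ≠ 0 := (Algebra.norm_ne_zero_iff).mpr ht₂0
  obtain ⟨k₁, hk₁pos, hk₁⟩ := normval_exists_pow_of_lt_one hϖ hN₁ hN₁0
  obtain ⟨k₂, hk₂pos, hk₂⟩ := normval_exists_pow_of_lt_one hϖ hN₂ hN₂0
  -- the relation `ϖ = t₁ · t₂ ^ r · unit`
  set u : L := p * (t₁ * t₂ ^ r)⁻¹ with hu
  have hu₁' : V₁.valuation u = 1 := by
    rw [hu, map_mul, map_inv₀, map_mul, map_pow, ht₁₁, ht₂₁, one_pow, mul_one]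
    exact mul_inv_cancel₀ hp₁0
  have hu₂' : V₂.valuation u = 1 := by
    rw [hu, map_mul, map_inv₀, map_mul, map_pow, ht₁₂, ht₂₂, one_mul, hxr]
    exact mul_inv_cancel₀ hp₂0
  have hNu : O.valuation (Algebra.norm F u) = 1 :=
    valuation_norm_eq_one_two_ext_ram h₁ h₂ hne hϖ hx hr hu₁' hu₂'
  have hprod : p = u * (t₁ * t₂ ^ r) := by
    rw [hu, inv_mul_cancel_right₀ (mul_ne_zero ht₁0 (pow_ne_zero _ ht₂0))]
  have hNp : Algebra.norm F p = (ϖ : F) ^ (r + 1) := by
    rw [hp, Algebra.norm_algebraMap, hdeg]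
  have hcount : r + 1 = k₁ + k₂ * r := by
    have h1 := congrArg (fun z => O.valuation (Algebra.norm F z)) hprod
    simp only [map_mul, map_pow] at h1
    rw [hNp, hNu, one_mul, hk₁, hk₂, map_pow, ← pow_mul, ← pow_add] at h1
    exact pow_right_injective₀ hϖpos hϖ1.ne h1
  have hk₂1 : k₂ = 1 := by
    by_contra hcon
    have h2 : 2 ≤ k₂ := by omega
    have : 2 * r ≤ k₂ * r := Nat.mul_le_mul_right r h2
    omega
  have hk₁1 : k₁ = 1 := by
    rw [hk₂1, one_mul] at hcount
    omega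
  refine ⟨t₁, t₂, ht₁₁, ht₁₂, ht₂₁, ht₂₂, ?_, ?_⟩
  · rw [hk₁, hk₁1, pow_one]
  · rw [hk₂, hk₂1, pow_one]

include h₁ h₂ in
/-- **orders of norms, two sheets `(e, f) = (1, 1)` and `(r, 1)`**: if `g` has order `n₁` along
`V₁` (uniformiser `ϖ`) and `n₂` along `V₂` (uniformiser `x`), its norm has order `n₁ + n₂`. -/
theorem valuation_norm_two_ext_ram (hne : V₁ ≠ V₂) {ϖ : ↥O} (hϖ : Irreducible ϖ) {r : ℕ} {x : L}
    (hx : V₂.valuation (x ^ r) = V₂.valuation (algebraMap F L (ϖ : F)))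
    (hr : Module.finrank F L ≤ r + 1)
    {q : ℕ} (hq : q.Prime) (hchar : O.valuation (q : F) < 1)
    {g : L} {n₁ n₂ : ℤ}
    (hg₁ : V₁.valuation g = V₁.valuation (algebraMap F L (ϖ : F)) ^ n₁)
    (hg₂ : V₂.valuation g = V₂.valuation x ^ n₂) :
    O.valuation (Algebra.norm F g) = O.valuation (ϖ : F) ^ (n₁ + n₂) := by
  obtain ⟨t₁, t₂, ht₁₁, ht₁₂, ht₂₁, ht₂₂, hN₁, hN₂⟩ :=
    normval_exists_coordinates h₁ h₂ hne hϖ hx hr hq hchar
  have hϖ0 : (ϖ : F) ≠ 0 := normval_uniformizer_ne_zero hϖ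
  have hϖv0 : O.valuation (ϖ : F) ≠ 0 := (Valuation.ne_zero_iff _).mpr hϖ0
  have hp0 : algebraMap F L (ϖ : F) ≠ 0 := (map_ne_zero _).mpr hϖ0
  have hp₁0 : V₁.valuation (algebraMap F L (ϖ : F)) ≠ 0 := (Valuation.ne_zero_iff _).mpr hp0
  have ht₁0 : t₁ ≠ 0 := by
    intro h0
    rw [h0, map_zero] at ht₁₂
    exact zero_ne_one ht₁₂
  have ht₂0 : t₂ ≠ 0 := by
    intro h0
    rw [h0, map_zero] at ht₂₁
    exact zero_ne_one ht₂₁
  have hx₂0 : V₂.valuation x ≠ 0 := by
    rw [← ht₂₂]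
    exact (Valuation.ne_zero_iff _).mpr ht₂0
  set u : L := g * (t₁ ^ n₁ * t₂ ^ n₂)⁻¹ with hu
  have hu₁ : V₁.valuation u = 1 := by
    rw [hu, map_mul, map_inv₀, map_mul, map_zpow₀, map_zpow₀, ht₁₁, ht₂₁, one_zpow, mul_one, hg₁]
    exact mul_inv_cancel₀ (zpow_ne_zero _ hp₁0)
  have hu₂ : V₂.valuation u = 1 := by
    rw [hu, map_mul, map_inv₀, map_mul, map_zpow₀, map_zpow₀, ht₁₂, ht₂₂, one_zpow, one_mul, hg₂]
    exact mul_inv_cancel₀ (zpow_ne_zero _ hx₂0)
  have hNu : O.valuation (Algebra.norm F u) = 1 :=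
    valuation_norm_eq_one_two_ext_ram h₁ h₂ hne hϖ hx hr hu₁ hu₂
  have hprod : g = u * (t₁ ^ n₁ * t₂ ^ n₂) := by
    rw [hu, inv_mul_cancel_right₀ (mul_ne_zero (zpow_ne_zero _ ht₁0) (zpow_ne_zero _ ht₂0))]
  have h1 := congrArg (fun z => O.valuation (Algebra.norm F z)) hprod
  simp only [map_mul, normval_norm_zpow, map_zpow₀] at h1
  rw [h1, hNu, one_mul, hN₁, hN₂, zpow_add₀ hϖv0]

include h₁ h₂ in
/-- discreteness of the two sheets `(1, 1)`, `(r, 1)` with respect to the uniformisers `ϖ`, `x`. -/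
theorem exists_zpow_two_ext_ram (hne : V₁ ≠ V₂) {ϖ : ↥O} (hϖ : Irreducible ϖ) {r : ℕ} {x : L}
    (hx : V₂.valuation (x ^ r) = V₂.valuation (algebraMap F L (ϖ : F)))
    (hr : Module.finrank F L ≤ r + 1) {g : L} (hg : g ≠ 0) :
    (∃ n : ℤ, V₁.valuation g = V₁.valuation (algebraMap F L (ϖ : F)) ^ n) ∧
      ∃ n : ℤ, V₂.valuation g = V₂.valuation x ^ n := by
  obtain ⟨-, he₁, -, he₂, -, -⟩ :=
    count_two_ram h₁ h₂ hne (le_ramificationIdx_center h₂ hϖ hx) hr
  have hw₁ : (centerSpec h₁).valuation L (algebraMap F L (ϖ : F)) = WithZero.exp (-1 : ℤ) := by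
    rw [valuation_uniformizer h₁ hϖ, he₁]
    rfl
  exact ⟨normval_exists_zpow h₁ hw₁ hg,
    normval_exists_zpow h₂ (adic_val_of_ramificationIdx_eq h₂ hϖ hx he₂) hg⟩

end TwoMain

section OneMain

variable {V : ValuationSubring L} (h : IsExt O V)

include h in
/-- **orders of norms, one sheet `(e, f) = (1, r)`**: if `g` has order `n` along `V` (uniformiser
`ϖ`), its norm has order `r · n`. -/
theorem valuation_norm_one_ext {r : ℕ} (hr0 : 0 < r)
    (hr : Module.finrank F L ≤ r) (b : Fin r → L) (hb : ∀ i, b i ∈ V)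
    (hind : ∀ a : Fin r → ↥O, V.valuation (∑ i, algebraMap F L (a i : F) * b i) < 1 →
      ∀ i, a i ∈ maximalIdeal ↥O)
    {ϖ : ↥O} (hϖ : Irreducible ϖ) {g : L} {n : ℤ}
    (hg : V.valuation g = V.valuation (algebraMap F L (ϖ : F)) ^ n) :
    O.valuation (Algebra.norm F g) = O.valuation (ϖ : F) ^ ((r : ℤ) * n) := by
  obtain ⟨-, -, -, hdeg⟩ := count_one h hr0 hr (le_inertiaDeg_center' h b hb hind)
  have hϖ0 : (ϖ : F) ≠ 0 := normval_uniformizer_ne_zero hϖ
  have hp0 : algebraMap F L (ϖ : F) ≠ 0 := (map_ne_zero _).mpr hϖ0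
  have hpV0 : V.valuation (algebraMap F L (ϖ : F)) ≠ 0 := (Valuation.ne_zero_iff _).mpr hp0
  set u : L := g * (algebraMap F L (ϖ : F) ^ n)⁻¹ with hu
  have hu1 : V.valuation u = 1 := by
    rw [hu, map_mul, map_inv₀, map_zpow₀, hg]
    exact mul_inv_cancel₀ (zpow_ne_zero _ hpV0)
  have hNu : O.valuation (Algebra.norm F u) = 1 :=
    valuation_norm_eq_one_one_ext h hr0 hr b hb hind hu1
  have hprod : g = u * algebraMap F L (ϖ : F) ^ n := by
    rw [hu, inv_mul_cancel_right₀ (zpow_ne_zero _ hp0)]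
  have h1 := congrArg (fun z => O.valuation (Algebra.norm F z)) hprod
  simp only [map_mul, normval_norm_zpow, map_zpow₀, Algebra.norm_algebraMap, hdeg, map_pow] at h1
  rw [h1, hNu, one_mul, ← zpow_natCast, ← zpow_mul]

include h in
/-- discreteness of the single sheet `(1, r)` with respect to the uniformiser `ϖ`. -/
theorem exists_zpow_one_ext {r : ℕ} (hr0 : 0 < r)
    (hr : Module.finrank F L ≤ r) (b : Fin r → L) (hb : ∀ i, b i ∈ V)
    (hind : ∀ a : Fin r → ↥O, V.valuation (∑ i, algebraMap F L (a i : F) * b i) < 1 →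
      ∀ i, a i ∈ maximalIdeal ↥O)
    {ϖ : ↥O} (hϖ : Irreducible ϖ) {g : L} (hg : g ≠ 0) :
    ∃ n : ℤ, V.valuation g = V.valuation (algebraMap F L (ϖ : F)) ^ n := by
  obtain ⟨-, he, -, -⟩ := count_one h hr0 hr (le_inertiaDeg_center' h b hb hind)
  have hw : (centerSpec h).valuation L (algebraMap F L (ϖ : F)) = WithZero.exp (-1 : ℤ) := by
    rw [valuation_uniformizer h hϖ, he]
    rfl
  exact normval_exists_zpow h hw hg

end OneMain

section ValHom

variable {F L : Type*} [Field F] [Field L]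

/-- the norm along a ring homomorphism, as a monoid-with-zero homomorphism. -/
noncomputable def normvalNormAlong₀ (ι : F →+* L)
    (hfin : letI := ι.toAlgebra; FiniteDimensional F L) : L →*₀ F :=
  letI := ι.toAlgebra
  haveI := hfin
  normvalNorm₀

theorem normvalNormAlong₀_apply (ι : F →+* L)
    (hfin : letI := ι.toAlgebra; FiniteDimensional F L) (g : L) :
    normvalNormAlong₀ ι hfin g = (letI := ι.toAlgebra; Algebra.norm F g) := rfl

/-- the norm along `ι` of `ι c` is `c ^ [L : F]`. -/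
theorem normvalNormAlong₀_map (ι : F →+* L)
    (hfin : letI := ι.toAlgebra; FiniteDimensional F L) (c : F) :
    normvalNormAlong₀ ι hfin (ι c) = c ^ (letI := ι.toAlgebra; Module.finrank F L) := by
  letI := ι.toAlgebra
  haveI := hfin
  exact Algebra.norm_algebraMap (S := L) c

/-- **orders of norms, two sheets `(1, 1)` and `(r, 1)`**, along a ring homomorphism (hypotheses
of helper7's `two_ext_ram_hom`, residue characteristic `q`). -/
theorem valuation_norm_two_ext_ram_hom (ι : F →+* L) (O : ValuationSubring F)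
    [IsDiscreteValuationRing ↥O]
    (hfin : letI := ι.toAlgebra; FiniteDimensional F L)
    (hsep : letI := ι.toAlgebra; Algebra.IsSeparable F L)
    {V₁ V₂ : ValuationSubring L} (h₁ : V₁.comap ι = O) (h₂ : V₂.comap ι = O)
    (hne : V₁ ≠ V₂) {ϖ : ↥O} (hϖ : Irreducible ϖ) {r : ℕ} {x : L}
    (hx : V₂.valuation (x ^ r) = V₂.valuation (ι (ϖ : F)))
    (hr : letI := ι.toAlgebra; Module.finrank F L ≤ r + 1)
    {q : ℕ} (hq : q.Prime) (hchar : O.valuation (q : F) < 1)
    {g : L} {n₁ n₂ : ℤ}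
    (hg₁ : V₁.valuation g = V₁.valuation (ι (ϖ : F)) ^ n₁)
    (hg₂ : V₂.valuation g = V₂.valuation x ^ n₂) :
    O.valuation (letI := ι.toAlgebra; Algebra.norm F g) = O.valuation (ϖ : F) ^ (n₁ + n₂) := by
  letI := ι.toAlgebra
  haveI := hfin
  haveI := hsep
  exact valuation_norm_two_ext_ram (O := O) (V₁ := V₁) (V₂ := V₂) h₁ h₂ hne hϖ hx hr hq hchar
    hg₁ hg₂

/-- **orders of norms, one sheet `(1, r)`**, along a ring homomorphism (hypotheses of helper7's
`one_ext_hom`). -/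
theorem valuation_norm_one_ext_hom (ι : F →+* L) (O : ValuationSubring F)
    [IsDiscreteValuationRing ↥O]
    (hfin : letI := ι.toAlgebra; FiniteDimensional F L)
    (hsep : letI := ι.toAlgebra; Algebra.IsSeparable F L)
    {V : ValuationSubring L} (h : V.comap ι = O) {r : ℕ} (hr0 : 0 < r)
    (hr : letI := ι.toAlgebra; Module.finrank F L ≤ r)
    (b : Fin r → L) (hb : ∀ i, b i ∈ V)
    (hind : ∀ a : Fin r → ↥O, V.valuation (∑ i, ι (a i : F) * b i) < 1 →
      ∀ i, a i ∈ maximalIdeal ↥O)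
    {ϖ : ↥O} (hϖ : Irreducible ϖ) {g : L} {n : ℤ}
    (hg : V.valuation g = V.valuation (ι (ϖ : F)) ^ n) :
    O.valuation (letI := ι.toAlgebra; Algebra.norm F g) = O.valuation (ϖ : F) ^ ((r : ℤ) * n) := by
  letI := ι.toAlgebra
  haveI := hfin
  haveI := hsep
  exact valuation_norm_one_ext (O := O) (V := V) h hr0 hr b hb hind hϖ hg

/-- discreteness of the two sheets `(1, 1)`, `(r, 1)`, along a ring homomorphism. -/
theorem exists_zpow_two_ext_ram_hom (ι : F →+* L) (O : ValuationSubring F)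
    [IsDiscreteValuationRing ↥O]
    (hfin : letI := ι.toAlgebra; FiniteDimensional F L)
    (hsep : letI := ι.toAlgebra; Algebra.IsSeparable F L)
    {V₁ V₂ : ValuationSubring L} (h₁ : V₁.comap ι = O) (h₂ : V₂.comap ι = O)
    (hne : V₁ ≠ V₂) {ϖ : ↥O} (hϖ : Irreducible ϖ) {r : ℕ} {x : L}
    (hx : V₂.valuation (x ^ r) = V₂.valuation (ι (ϖ : F)))
    (hr : letI := ι.toAlgebra; Module.finrank F L ≤ r + 1) {g : L} (hg : g ≠ 0) :
    (∃ n : ℤ, V₁.valuation g = V₁.valuation (ι (ϖ : F)) ^ n) ∧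
      ∃ n : ℤ, V₂.valuation g = V₂.valuation x ^ n := by
  letI := ι.toAlgebra
  haveI := hfin
  haveI := hsep
  exact exists_zpow_two_ext_ram (O := O) (V₁ := V₁) (V₂ := V₂) h₁ h₂ hne hϖ hx hr hg

/-- discreteness of the single sheet `(1, r)`, along a ring homomorphism. -/
theorem exists_zpow_one_ext_hom (ι : F →+* L) (O : ValuationSubring F)
    [IsDiscreteValuationRing ↥O]
    (hfin : letI := ι.toAlgebra; FiniteDimensional F L)
    (hsep : letI := ι.toAlgebra; Algebra.IsSeparable F L)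
    {V : ValuationSubring L} (h : V.comap ι = O) {r : ℕ} (hr0 : 0 < r)
    (hr : letI := ι.toAlgebra; Module.finrank F L ≤ r)
    (b : Fin r → L) (hb : ∀ i, b i ∈ V)
    (hind : ∀ a : Fin r → ↥O, V.valuation (∑ i, ι (a i : F) * b i) < 1 →
      ∀ i, a i ∈ maximalIdeal ↥O)
    {ϖ : ↥O} (hϖ : Irreducible ϖ) {g : L} (hg : g ≠ 0) :
    ∃ n : ℤ, V.valuation g = V.valuation (ι (ϖ : F)) ^ n := by
  letI := ι.toAlgebra
  haveI := hfin
  haveI := hsep
  exact exists_zpow_one_ext (O := O) (V := V) h hr0 hr b hb hind hϖ hg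

end ValHom


end Fermat.Agent.S36
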