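/-
S36 — helper9 — **[INST36], part 2: the abstract instantiation layer.**

For ANY fields `E₁`, `E` over a field of constants `K₀` and ring homomorphisms `ιA ιB : E₁ →+* E`
(the two degeneracy maps; F-level or host level alike), with `NA NB : E →*₀ E₁` the norms along
`ιA`, `ιB`:

INPUT (`Inst36Data`) = the inputs of helper7's `two_ext_ram_hom` (twice: `(W20, W11)` over `W10`
along `ιA`, `(W02, W11)` over `W01` along `ιB`) and `one_ext_hom` (twice: `W02` over `W01` along `ιA`,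
`W20` over `W10` along `ιB`): two discrete valuation subrings `W10 W01` of `E₁` with uniformizer the
constant `π` and residue characteristic `q`, three valuation subrings `W20 W11 W02` of `E` with the
six restriction statements, `W20 ≠ W11`, `W02 ≠ W11`, degrees `≤ q`, the witness `δ` of the middle
sheet (`W11(δ^(q-1)) = W11(π)`, `W20(δ) = 1`) and the Kronecker/independence data of the two purely
inseparable fibres.

OUTPUT = the hypotheses of `roots36_coprime` (S36/ROOTS36_helper9_Coprime) and of `toric36`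
(S36/TORIC36_helper5_Main), LITERALLY: `hπ10 hπ01`, `hd10 hd01 hd20 hd11 hd02`, `hπ11`,
`hNVrA`/`hNAr`, `hNBr`, `hNViA`/`hNAi`, `hNViB`/`hNBi`, `hres20 hres11`,
`hresA20 hresA11 hresB02 hresB11`, `hNAπ hNBπ`, the (INS) literals of POINTS36, the unit norms, and
`hTA10 hTA01 hTB10 hTB01` (helper2's (T4)), the wrapper `Inst36Data.roots` (= `roots36_coprime` with
everything discharged except the normal form of the constants `hconst`).
-/
import Mathlib
import Fermat.Agent.S36.INST36_helper9_Insep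
import Fermat.Agent.S36.ROOTS36_helper9_Coprime
import Fermat.Agent.S36.NORMVAL_helper2_Val

set_option autoImplicit false
set_option linter.unusedSectionVars false
set_option linter.unusedVariables false
set_option linter.style.haveILetI false

open IsLocalRing

namespace Fermat.Agent.S36

open Fermat.Agent.SS

section Unif

variable {E : Type*} [Field E] (W : ValuationSubring E)

/-- a generator of the maximal ideal of a discrete valuation subring is irreducible. -/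
theorem inst36_irreducible_of_unif [IsDiscreteValuationRing ↥W] {u : E} (hu0 : u ≠ 0)
    (hu1 : W.valuation u < 1) (hu : ∀ x : E, W.valuation x < 1 → x * u⁻¹ ∈ W) :
    Irreducible (⟨u, (W.valuation_le_one_iff u).1 hu1.le⟩ : ↥W) := by
  set u' : ↥W := ⟨u, (W.valuation_le_one_iff u).1 hu1.le⟩ with hu'
  have hmax : maximalIdeal ↥W = Ideal.span {u'} := by
    apply le_antisymm
    · intro x hx
      have hx1 : W.valuation (x : E) < 1 := (W.valuation_lt_one_iff x).1 hx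
      have h2 := hu _ hx1
      rw [Ideal.mem_span_singleton']
      refine ⟨⟨(x : E) * u⁻¹, h2⟩, Subtype.ext ?_⟩
      show (x : E) * u⁻¹ * u = x
      rw [inv_mul_cancel_right₀ hu0]
    · rw [Ideal.span_le, Set.singleton_subset_iff]
      exact (W.valuation_lt_one_iff u').2 hu1
  exact (IsDiscreteValuationRing.irreducible_iff_uniformizer u').2 hmax

/-- a unit of a valuation subring lies in it. -/
theorem inst36_mem_of_val_eq_one {z : E} (hz : W.valuation z = 1) : z ∈ W :=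
  (W.valuation_le_one_iff z).1 hz.le

end Unif

section Inst36

variable {K₀ E₁ E : Type*} [Field K₀] [Field E₁] [Field E] [Algebra K₀ E₁] [Algebra K₀ E]

/-- **the input of [INST36]**: the three-sheet data of level `M q²` over the two sheets of level
`M q`, in the shape of the inputs of `two_ext_ram_hom` / `one_ext_hom`. -/
structure Inst36Data (ιA ιB : E₁ →+* E) (NA NB : E →*₀ E₁) (π : K₀) (q : ℕ)
    (W10 W01 : ValuationSubring E₁) (W20 W11 W02 : ValuationSubring E) (δ : E)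
    (u10 u01 : E₁) (y20 y02 : E) : Prop where
  hq : q.Prime
  hιA : ∀ c : K₀, ιA (algebraMap K₀ E₁ c) = algebraMap K₀ E c
  hιB : ∀ c : K₀, ιB (algebraMap K₀ E₁ c) = algebraMap K₀ E c
  finA : letI := ιA.toAlgebra; FiniteDimensional E₁ E
  sepA : letI := ιA.toAlgebra; Algebra.IsSeparable E₁ E
  degA : letI := ιA.toAlgebra; Module.finrank E₁ E ≤ q
  finB : letI := ιB.toAlgebra; FiniteDimensional E₁ E
  sepB : letI := ιB.toAlgebra; Algebra.IsSeparable E₁ E
  degB : letI := ιB.toAlgebra; Module.finrank E₁ E ≤ q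
  hNA : ∀ z : E, NA z = (letI := ιA.toAlgebra; Algebra.norm E₁ z)
  hNB : ∀ z : E, NB z = (letI := ιB.toAlgebra; Algebra.norm E₁ z)
  dvr10 : IsDiscreteValuationRing ↥W10
  dvr01 : IsDiscreteValuationRing ↥W01
  hπ0 : π ≠ 0
  hπ10 : W10.valuation (algebraMap K₀ E₁ π) < 1
  hπ01 : W01.valuation (algebraMap K₀ E₁ π) < 1
  unif10 : ∀ x : E₁, W10.valuation x < 1 → x * (algebraMap K₀ E₁ π)⁻¹ ∈ W10
  unif01 : ∀ x : E₁, W01.valuation x < 1 → x * (algebraMap K₀ E₁ π)⁻¹ ∈ W01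
  char10 : W10.valuation ((q : ℕ) : E₁) < 1
  char01 : W01.valuation ((q : ℕ) : E₁) < 1
  h20A : W20.comap ιA = W10
  h11A : W11.comap ιA = W10
  h02A : W02.comap ιA = W01
  h20B : W20.comap ιB = W10
  h11B : W11.comap ιB = W01
  h02B : W02.comap ιB = W01
  ne2011 : W20 ≠ W11
  ne0211 : W02 ≠ W11
  hδ : W11.valuation (δ ^ (q - 1)) = W11.valuation (algebraMap K₀ E π)
  hδ20 : W20.valuation δ = 1
  hy02 : y02 ∈ W02
  hkron02 : W02.valuation (ιA u01 - y02 ^ q) < 1
  hind02 : ∀ a : Fin q → ↥W01, W02.valuation (∑ i, ιA (a i : E₁) * y02 ^ (i : ℕ)) < 1 →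
    ∀ i, a i ∈ maximalIdeal ↥W01
  hy20 : y20 ∈ W20
  hkron20 : W20.valuation (ιB u10 - y20 ^ q) < 1
  hind20 : ∀ a : Fin q → ↥W10, W20.valuation (∑ i, ιB (a i : E₁) * y20 ^ (i : ℕ)) < 1 →
    ∀ i, a i ∈ maximalIdeal ↥W10

namespace Inst36Data

variable {ιA ιB : E₁ →+* E} {NA NB : E →*₀ E₁} {π : K₀} {q : ℕ}
  {W10 W01 : ValuationSubring E₁} {W20 W11 W02 : ValuationSubring E} {δ : E}
  {u10 u01 : E₁} {y20 y02 : E}
  (D : Inst36Data ιA ιB NA NB π q W10 W01 W20 W11 W02 δ u10 u01 y20 y02)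

include D

theorem q_sub_add : q - 1 + 1 = q := Nat.sub_add_cancel D.hq.one_le

theorem hπE₁0 : algebraMap K₀ E₁ π ≠ 0 := (map_ne_zero _).2 D.hπ0

theorem hπE0 : algebraMap K₀ E π ≠ 0 := (map_ne_zero _).2 D.hπ0

theorem mem10 : algebraMap K₀ E₁ π ∈ W10 := (W10.valuation_le_one_iff _).1 D.hπ10.le

theorem mem01 : algebraMap K₀ E₁ π ∈ W01 := (W01.valuation_le_one_iff _).1 D.hπ01.le

theorem irr10 : Irreducible (⟨algebraMap K₀ E₁ π, D.mem10⟩ : ↥W10) :=
  haveI := D.dvr10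
  inst36_irreducible_of_unif W10 D.hπE₁0 D.hπ10 D.unif10

theorem irr01 : Irreducible (⟨algebraMap K₀ E₁ π, D.mem01⟩ : ↥W01) :=
  haveI := D.dvr01
  inst36_irreducible_of_unif W01 D.hπE₁0 D.hπ01 D.unif01

/-- the conclusions of `two_ext_ram_hom` along `ιA` over `W10`. -/
theorem twoA :
    (letI := ιA.toAlgebra; Module.finrank E₁ E = q - 1 + 1) ∧
    (∀ V : ValuationSubring E, V.comap ιA = W10 → V = W20 ∨ V = W11) ∧
    (∀ z : E, W20.valuation z < 1 → z * (algebraMap K₀ E π)⁻¹ ∈ W20) ∧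
    (∀ z : E, W11.valuation z < 1 → z * δ⁻¹ ∈ W11) ∧
    (∀ z ∈ W20, ∃ c : ↥W10, W20.valuation (z - ιA (c : E₁)) < 1) ∧
    (∀ z ∈ W11, ∃ c : ↥W10, W11.valuation (z - ιA (c : E₁)) < 1) := by
  haveI := D.dvr10
  have h := two_ext_ram_hom ιA W10 D.finA D.sepA D.h20A D.h11A D.ne2011 D.irr10
    (a := q - 1) (x := δ) (by rw [D.hδ]; exact congrArg _ (D.hιA π).symm)
    (by rw [D.q_sub_add]; exact D.degA)
  rw [show ιA ((⟨algebraMap K₀ E₁ π, D.mem10⟩ : ↥W10) : E₁) = algebraMap K₀ E π from D.hιA π] at h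
  exact h

/-- the conclusions of `two_ext_ram_hom` along `ιB` over `W01`. -/
theorem twoB :
    (letI := ιB.toAlgebra; Module.finrank E₁ E = q - 1 + 1) ∧
    (∀ V : ValuationSubring E, V.comap ιB = W01 → V = W02 ∨ V = W11) ∧
    (∀ z : E, W02.valuation z < 1 → z * (algebraMap K₀ E π)⁻¹ ∈ W02) ∧
    (∀ z : E, W11.valuation z < 1 → z * δ⁻¹ ∈ W11) ∧
    (∀ z ∈ W02, ∃ c : ↥W01, W02.valuation (z - ιB (c : E₁)) < 1) ∧
    (∀ z ∈ W11, ∃ c : ↥W01, W11.valuation (z - ιB (c : E₁)) < 1) := by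
  haveI := D.dvr01
  have h := two_ext_ram_hom ιB W01 D.finB D.sepB D.h02B D.h11B D.ne0211 D.irr01
    (a := q - 1) (x := δ) (by rw [D.hδ]; exact congrArg _ (D.hιB π).symm)
    (by rw [D.q_sub_add]; exact D.degB)
  rw [show ιB ((⟨algebraMap K₀ E₁ π, D.mem01⟩ : ↥W01) : E₁) = algebraMap K₀ E π from D.hιB π] at h
  exact h

theorem finrankA : (letI := ιA.toAlgebra; Module.finrank E₁ E = q) := by
  have := D.twoA.1
  rwa [D.q_sub_add] at this

theorem finrankB : (letI := ιB.toAlgebra; Module.finrank E₁ E = q) := by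
  have := D.twoB.1
  rwa [D.q_sub_add] at this

/-! ### discreteness -/

theorem dvr20 : IsDiscreteValuationRing ↥W20 :=
  haveI := D.dvr10
  isDiscreteValuationRing_of_comap ιA W10 D.finA D.sepA D.h20A

theorem dvr11 : IsDiscreteValuationRing ↥W11 :=
  haveI := D.dvr10
  isDiscreteValuationRing_of_comap ιA W10 D.finA D.sepA D.h11A

theorem dvr02 : IsDiscreteValuationRing ↥W02 :=
  haveI := D.dvr01
  isDiscreteValuationRing_of_comap ιA W01 D.finA D.sepA D.h02A

theorem hπ20 : W20.valuation (algebraMap K₀ E π) < 1 := by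
  rw [← D.hιA π, comap_val_lt_one_iff ιA D.h20A]
  exact D.hπ10

theorem hπ11lt : W11.valuation (algebraMap K₀ E π) < 1 := by
  rw [← D.hιA π, comap_val_lt_one_iff ιA D.h11A]
  exact D.hπ10

theorem hπ02 : W02.valuation (algebraMap K₀ E π) < 1 := by
  rw [← D.hιA π, comap_val_lt_one_iff ιA D.h02A]
  exact D.hπ01

/-- `hπ11` of `roots36`. -/
theorem hπ11 : W11.valuation (algebraMap K₀ E π) = W11.valuation δ ^ (q - 1) := by
  rw [← D.hδ, map_pow]

theorem hδ0 : δ ≠ 0 := by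
  intro h0
  have h1 := D.hδ20
  rw [h0, map_zero] at h1
  exact zero_ne_one h1

theorem hδ11 : W11.valuation δ < 1 := by
  have h1 := D.hπ11lt
  rw [D.hπ11] at h1
  by_contra h2
  rw [not_lt] at h2
  exact absurd h1 (not_lt.2 (one_le_pow₀ h2))

/-- `hd10` of `roots36`. -/
theorem hd10 : ∀ g : E₁, g ≠ 0 →
    ∃ n : ℤ, W10.valuation g = W10.valuation (algebraMap K₀ E₁ π) ^ n :=
  haveI := D.dvr10
  r36_disc_of_dvr W10 D.hπE₁0 D.hπ10 D.unif10

/-- `hd01` of `roots36`. -/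
theorem hd01 : ∀ g : E₁, g ≠ 0 →
    ∃ n : ℤ, W01.valuation g = W01.valuation (algebraMap K₀ E₁ π) ^ n :=
  haveI := D.dvr01
  r36_disc_of_dvr W01 D.hπE₁0 D.hπ01 D.unif01

/-- discreteness of `W20` (for the `hG20` input of `roots36`, via `cusp36_dvd`). -/
theorem hd20 : ∀ g : E, g ≠ 0 →
    ∃ n : ℤ, W20.valuation g = W20.valuation (algebraMap K₀ E π) ^ n :=
  haveI := D.dvr20
  r36_disc_of_dvr W20 D.hπE0 D.hπ20 D.twoA.2.2.1

/-- `hd11` of `roots36`. -/
theorem hd11 : ∀ g : E, g ≠ 0 → ∃ n : ℤ, W11.valuation g = W11.valuation δ ^ n :=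
  haveI := D.dvr11
  r36_disc_of_dvr W11 D.hδ0 D.hδ11 D.twoA.2.2.2.1

/-- `hd02` of `roots36`. -/
theorem hd02 : ∀ g : E, g ≠ 0 →
    ∃ n : ℤ, W02.valuation g = W02.valuation (algebraMap K₀ E π) ^ n :=
  haveI := D.dvr02
  r36_disc_of_dvr W02 D.hπE0 D.hπ02 D.twoB.2.2.1

/-! ### residue fields -/

/-- `hres20` of `roots36`. -/
theorem hres20 : ∀ z ∈ W20, ∃ c : E₁, W20.valuation (z - ιA c) < 1 := fun z hz => by
  obtain ⟨c, hc⟩ := D.twoA.2.2.2.2.1 z hz
  exact ⟨c, hc⟩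

/-- `hres11` of `roots36`. -/
theorem hres11 : ∀ z ∈ W11, ∃ c : E₁, W11.valuation (z - ιA c) < 1 := fun z hz => by
  obtain ⟨c, hc⟩ := D.twoA.2.2.2.2.2 z hz
  exact ⟨c, hc⟩

/-- the `ιB`-twins. -/
theorem hres02B : ∀ z ∈ W02, ∃ c : E₁, W02.valuation (z - ιB c) < 1 := fun z hz => by
  obtain ⟨c, hc⟩ := D.twoB.2.2.2.2.1 z hz
  exact ⟨c, hc⟩

theorem hres11B : ∀ z ∈ W11, ∃ c : E₁, W11.valuation (z - ιB c) < 1 := fun z hz => by
  obtain ⟨c, hc⟩ := D.twoB.2.2.2.2.2 z hz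
  exact ⟨c, hc⟩

/-- `hresA20` of `toric36`. -/
theorem hresA20 : ∀ z : E, W20.valuation z = 1 → ∃ a : E₁, W20.valuation (z - ιA a) < 1 :=
  fun z hz => D.hres20 z (inst36_mem_of_val_eq_one W20 hz)

/-- `hresA11` of `toric36`. -/
theorem hresA11 : ∀ z : E, W11.valuation z = 1 → ∃ a : E₁, W11.valuation (z - ιA a) < 1 :=
  fun z hz => D.hres11 z (inst36_mem_of_val_eq_one W11 hz)

/-- `hresB02` of `toric36`. -/
theorem hresB02 : ∀ z : E, W02.valuation z = 1 → ∃ a : E₁, W02.valuation (z - ιB a) < 1 :=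
  fun z hz => D.hres02B z (inst36_mem_of_val_eq_one W02 hz)

/-- `hresB11` of `toric36`. -/
theorem hresB11 : ∀ z : E, W11.valuation z = 1 → ∃ a : E₁, W11.valuation (z - ιB a) < 1 :=
  fun z hz => D.hres11B z (inst36_mem_of_val_eq_one W11 hz)

/-! ### residues of norms -/

/-- `hNVrA` of `roots36` = `hNAr` of `toric36` (`k = q - 1`). -/
theorem hNVrA : ∀ (f : E) (a b : E₁), W20.valuation f = 1 → W11.valuation f = 1 →
    W20.valuation (f - ιA a) < 1 → W11.valuation (f - ιA b) < 1 →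
    W10.valuation (NA f - a * b ^ (q - 1)) < 1 := by
  intro f a b hf20 hf11 hc20 hc11
  haveI := D.dvr10
  rw [D.hNA]
  exact (norm_reduction_two_ext_ram_hom ιA W10 D.finA D.sepA D.h20A D.h11A D.ne2011 D.irr10
    (r := q - 1) (x := δ) (by rw [D.hδ]; exact congrArg _ (D.hιA π).symm)
    (by rw [D.q_sub_add]; exact D.degA) D.hq D.char10
    (inst36_mem_of_val_eq_one W20 hf20) (inst36_mem_of_val_eq_one W11 hf11) hc20 hc11).2

/-- `hNBr` of `toric36` (`k = q - 1`). -/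
theorem hNBr : ∀ (f : E) (a b : E₁), W02.valuation f = 1 → W11.valuation f = 1 →
    W02.valuation (f - ιB a) < 1 → W11.valuation (f - ιB b) < 1 →
    W01.valuation (NB f - a * b ^ (q - 1)) < 1 := by
  intro f a b hf02 hf11 hc02 hc11
  haveI := D.dvr01
  rw [D.hNB]
  exact (norm_reduction_two_ext_ram_hom ιB W01 D.finB D.sepB D.h02B D.h11B D.ne0211 D.irr01
    (r := q - 1) (x := δ) (by rw [D.hδ]; exact congrArg _ (D.hιB π).symm)
    (by rw [D.q_sub_add]; exact D.degB) D.hq D.char01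
    (inst36_mem_of_val_eq_one W02 hf02) (inst36_mem_of_val_eq_one W11 hf11) hc02 hc11).2

/-- `hNViA` of `roots36`. -/
theorem hNViA : ∀ f : E, W02.valuation f = 1 → W02.valuation (ιA (NA f) - f ^ q) < 1 := by
  intro f hf
  haveI := D.dvr01
  rw [D.hNA]
  exact inst36_norm_insep ιA W01 D.finA D.sepA D.h02A D.hq D.char01 D.degA D.hy02 D.hkron02
    D.hind02 (inst36_mem_of_val_eq_one W02 hf)

/-- `hNViB` of `roots36`. -/
theorem hNViB : ∀ f : E, W20.valuation f = 1 → W20.valuation (ιB (NB f) - f ^ q) < 1 := by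
  intro f hf
  haveI := D.dvr10
  rw [D.hNB]
  exact inst36_norm_insep ιB W10 D.finB D.sepB D.h20B D.hq D.char10 D.degB D.hy20 D.hkron20
    D.hind20 (inst36_mem_of_val_eq_one W20 hf)

/-- `hNAi` of `toric36` (`k = q - 1`). -/
theorem hNAi : ∀ f : E, W02.valuation f = 1 →
    W02.valuation (ιA (NA f) - f ^ (q - 1 + 1)) < 1 := by
  rw [D.q_sub_add]
  exact D.hNViA

/-- `hNBi` of `toric36` (`k = q - 1`). -/
theorem hNBi : ∀ f : E, W20.valuation f = 1 →
    W20.valuation (ιB (NB f) - f ^ (q - 1 + 1)) < 1 := by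
  rw [D.q_sub_add]
  exact D.hNViB

/-! ### (INS): the purely inseparable fibres (POINTS36) -/

theorem hinsA : ∀ x ∈ W02, ∃ a ∈ W01, W02.valuation (x ^ q - ιA a) < 1 :=
  haveI := D.dvr01
  inst36_exists_pow_cong ιA W01 D.finA D.sepA D.h02A D.hq D.char01 D.degA D.hy02 D.hkron02
    D.hind02

theorem hinsB : ∀ x ∈ W20, ∃ a ∈ W10, W20.valuation (x ^ q - ιB a) < 1 :=
  haveI := D.dvr10
  inst36_exists_pow_cong ιB W10 D.finB D.sepB D.h20B D.hq D.char10 D.degB D.hy20 D.hkron20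
    D.hind20

/-! ### norms of constants -/

/-- `hNAπ` of `roots36` (for every constant). -/
theorem hNA_const (c : K₀) : NA (algebraMap K₀ E c) = (algebraMap K₀ E₁ c) ^ q := by
  rw [D.hNA, ← D.hιA c]
  letI := ιA.toAlgebra
  have h1 : ιA (algebraMap K₀ E₁ c) = algebraMap E₁ E (algebraMap K₀ E₁ c) := rfl
  rw [h1, Algebra.norm_algebraMap, D.finrankA]

/-- `hNBπ` of `roots36` (for every constant). -/
theorem hNB_const (c : K₀) : NB (algebraMap K₀ E c) = (algebraMap K₀ E₁ c) ^ q := by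
  rw [D.hNB, ← D.hιB c]
  letI := ιB.toAlgebra
  have h1 : ιB (algebraMap K₀ E₁ c) = algebraMap E₁ E (algebraMap K₀ E₁ c) := rfl
  rw [h1, Algebra.norm_algebraMap, D.finrankB]

theorem hNAπ : NA (algebraMap K₀ E π) = (algebraMap K₀ E₁ π) ^ q := D.hNA_const π

theorem hNBπ : NB (algebraMap K₀ E π) = (algebraMap K₀ E₁ π) ^ q := D.hNB_const π

/-! ### orders of norms (helper2's (T4)) -/

/-- `hTA10` of `roots36`. -/
theorem hTA10 : ∀ (g : E) (n20 n11 : ℤ),
    W20.valuation g = W20.valuation (algebraMap K₀ E π) ^ n20 →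
    W11.valuation g = W11.valuation δ ^ n11 →
    W10.valuation (NA g) = W10.valuation (algebraMap K₀ E₁ π) ^ (n20 + n11) := by
  intro g n20 n11 h20 h11
  haveI := D.dvr10
  rw [D.hNA]
  exact valuation_norm_two_ext_ram_hom ιA W10 D.finA D.sepA D.h20A D.h11A D.ne2011 D.irr10
    (r := q - 1) (x := δ) (by rw [D.hδ]; exact congrArg _ (D.hιA π).symm)
    (by rw [D.q_sub_add]; exact D.degA) D.hq D.char10
    (by rw [h20]; exact congrArg (fun z => W20.valuation z ^ n20) (D.hιA π).symm) h11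

/-- `hTB01` of `roots36`. -/
theorem hTB01 : ∀ (g : E) (n11 n02 : ℤ), W11.valuation g = W11.valuation δ ^ n11 →
    W02.valuation g = W02.valuation (algebraMap K₀ E π) ^ n02 →
    W01.valuation (NB g) = W01.valuation (algebraMap K₀ E₁ π) ^ (n11 + n02) := by
  intro g n11 n02 h11 h02
  haveI := D.dvr01
  rw [D.hNB, add_comm]
  exact valuation_norm_two_ext_ram_hom ιB W01 D.finB D.sepB D.h02B D.h11B D.ne0211 D.irr01
    (r := q - 1) (x := δ) (by rw [D.hδ]; exact congrArg _ (D.hιB π).symm)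
    (by rw [D.q_sub_add]; exact D.degB) D.hq D.char01
    (by rw [h02]; exact congrArg (fun z => W02.valuation z ^ n02) (D.hιB π).symm) h11

/-- `hTA01` of `roots36`. -/
theorem hTA01 : ∀ (g : E) (n02 : ℤ), W02.valuation g = W02.valuation (algebraMap K₀ E π) ^ n02 →
    W01.valuation (NA g) = W01.valuation (algebraMap K₀ E₁ π) ^ ((q : ℤ) * n02) := by
  intro g n02 h02
  haveI := D.dvr01
  rw [D.hNA]
  exact valuation_norm_one_ext_hom ιA W01 D.finA D.sepA D.h02A D.hq.pos D.degA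
    (fun i : Fin q => y02 ^ (i : ℕ)) (fun i => pow_mem D.hy02 _) D.hind02 D.irr01
    (by rw [h02]; exact congrArg (fun z => W02.valuation z ^ n02) (D.hιA π).symm)

/-- `hTB10` of `roots36`. -/
theorem hTB10 : ∀ (g : E) (n20 : ℤ), W20.valuation g = W20.valuation (algebraMap K₀ E π) ^ n20 →
    W10.valuation (NB g) = W10.valuation (algebraMap K₀ E₁ π) ^ ((q : ℤ) * n20) := by
  intro g n20 h20
  haveI := D.dvr10
  rw [D.hNB]
  exact valuation_norm_one_ext_hom ιB W10 D.finB D.sepB D.h20B D.hq.pos D.degB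
    (fun i : Fin q => y20 ^ (i : ℕ)) (fun i => pow_mem D.hy20 _) D.hind20 D.irr10
    (by rw [h20]; exact congrArg (fun z => W20.valuation z ^ n20) (D.hιB π).symm)

/-! ### norms of units -/

theorem hNA_unit10 {f : E} (h20 : W20.valuation f = 1) (h11 : W11.valuation f = 1) :
    W10.valuation (NA f) = 1 := by
  have := D.hTA10 f 0 0 (by rw [h20, zpow_zero]) (by rw [h11, zpow_zero])
  rwa [add_zero, zpow_zero] at this

theorem hNA_unit01 {f : E} (h02 : W02.valuation f = 1) : W01.valuation (NA f) = 1 := by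
  have := D.hTA01 f 0 (by rw [h02, zpow_zero])
  rwa [mul_zero, zpow_zero] at this

theorem hNB_unit01 {f : E} (h02 : W02.valuation f = 1) (h11 : W11.valuation f = 1) :
    W01.valuation (NB f) = 1 := by
  have := D.hTB01 f 0 0 (by rw [h11, zpow_zero]) (by rw [h02, zpow_zero])
  rwa [add_zero, zpow_zero] at this

theorem hNB_unit10 {f : E} (h20 : W20.valuation f = 1) : W10.valuation (NB f) = 1 := by
  have := D.hTB10 f 0 (by rw [h20, zpow_zero])
  rwa [mul_zero, zpow_zero] at this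

/-! ### the consumers -/

/-- **`roots36_coprime` with everything discharged** except the normal form of the constants
(`hconst`, base-dependent) and the function itself. -/
theorem roots {m : ℕ} (hm : m ≠ 0) (hmq : Nat.Coprime m q)
    (hconst : ∀ a : K₀, a ≠ 0 → ∃ (n : ℤ) (e : K₀),
      W10.valuation (algebraMap K₀ E₁ e) = 1 ∧ W01.valuation (algebraMap K₀ E₁ e) = 1 ∧
      W10.valuation (algebraMap K₀ E₁ (a * (π ^ n * e ^ m)⁻¹) - 1) < 1 ∧
      W01.valuation (algebraMap K₀ E₁ (a * (π ^ n * e ^ m)⁻¹) - 1) < 1)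
    (G : E) (hG : G ≠ 0) (a₁ a₂ : K₀) (ha₁ : a₁ ≠ 0) (ha₂ : a₂ ≠ 0) (H₁ H₂ : E₁)
    (hH₁ : H₁ ≠ 0) (hH₂ : H₂ ≠ 0)
    (hNAG : NA G = algebraMap K₀ E₁ a₁ * H₁ ^ m) (hNBG : NB G = algebraMap K₀ E₁ a₂ * H₂ ^ m)
    (n₀ : ℤ) (hG20 : W20.valuation G = W20.valuation (algebraMap K₀ E π) ^ ((m : ℤ) * n₀)) :
    ∃ lam20 lam11 lam02 : E, lam20 ≠ 0 ∧ lam11 ≠ 0 ∧ lam02 ≠ 0 ∧
      W20.valuation (G ^ (q ^ 2 - 1) / lam20 ^ m - 1) < 1 ∧
      W11.valuation (G ^ (q ^ 2 - 1) / lam11 ^ m - 1) < 1 ∧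
      W02.valuation (G ^ (q ^ 2 - 1) / lam02 ^ m - 1) < 1 :=
  roots36_coprime ιA ιB NA NB π D.hπ0 D.hq hm hmq W10 W01 W20 W11 W02 D.h20A D.h11A D.h02A D.h20B
    D.hπ10 D.hπ01 δ D.hδ0 D.hδ20 D.hπ11 D.hd10 D.hd01 D.hd11 D.hd02 D.hTA10 D.hTA01 D.hTB10
    D.hTB01 D.hNVrA D.hNViA D.hNViB D.hres20 D.hres11 hconst D.hNAπ D.hNBπ G hG a₁ a₂ ha₁ ha₂
    H₁ H₂ hH₁ hH₂ hNAG hNBG n₀ hG20

end Inst36Data

end Inst36

end Fermat.Agent.S36
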