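/-
S36 [NORMHOST36] — helper8 — part 1 (abstract): **norms commute with the passage from the level
fields to the hosts.**

`F₁ → F₂` the level fields (`α` or `β`), `E₁ → E₂` the hosts (`A` or `B`), `φ₁ : F₁ → E₁`,
`φ₂ : F₂ → E₂` the host embeddings.  If both extensions have the same degree and `E₂` is spanned over
`E₁` by the image of `φ₂`, then `φ₁ (N_{F₂/F₁} z) = N_{E₂/E₁} (φ₂ z)`.

* `normhost_linearIndependent_of_hind` : independence modulo the maximal ideal (the `hind` hypothesis
  of helper7's `one_ext_hom`) implies linear independence;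
* `normhost_closure_eq_top` : inside `E = A ⊔ C` the two subfields generate everything;
* `normhost_span_of_sup` : spanning from a compositum (the `A`-side);
* `normhost_span_of_linearIndependent` : spanning from an independent family of the right size
  (the `B`-side);
* `normhost_norm_of_span` : the norm compatibility.
-/
import Mathlib
import Fermat.Agent.S35.NORMBC_helper8_Key

set_option autoImplicit false
set_option linter.unusedSectionVars false
set_option linter.style.haveILetI false

open IsLocalRing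

namespace Fermat.Agent.S36

section Indep

variable {F L : Type*} [Field F] [Field L]

/-- independence modulo the maximal ideal implies linear independence. -/
theorem normhost_linearIndependent_of_hind (ι : F →+* L) (O : ValuationSubring F)
    (V : ValuationSubring L) {r : ℕ} (b : Fin r → L)
    (hind : ∀ a : Fin r → ↥O, V.valuation (∑ i, ι (a i : F) * b i) < 1 →
      ∀ i, a i ∈ maximalIdeal ↥O) :
    letI := ι.toAlgebra
    LinearIndependent F b := by
  letI := ι.toAlgebra
  rw [Fintype.linearIndependent_iff]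
  intro g hg
  by_contra hne
  push Not at hne
  obtain ⟨i₁, hi₁⟩ := hne
  obtain ⟨i₀, -, hmax⟩ := Finset.exists_max_image Finset.univ (fun i => O.valuation (g i))
    ⟨i₁, Finset.mem_univ _⟩
  have hg0 : g i₀ ≠ 0 := by
    intro h0
    have h1 := hmax i₁ (Finset.mem_univ _)
    rw [h0, map_zero, le_zero_iff, Valuation.zero_iff] at h1
    exact hi₁ h1
  have hv0 : O.valuation (g i₀) ≠ 0 := (Valuation.ne_zero_iff _).mpr hg0
  have hmem : ∀ i, g i / g i₀ ∈ O := by
    intro i
    rw [← ValuationSubring.valuation_le_one_iff, map_div₀,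
      div_le_iff₀ (zero_lt_iff.mpr hv0), one_mul]
    exact hmax i (Finset.mem_univ _)
  have hι0 : ι (g i₀) ≠ 0 := (map_ne_zero ι).mpr hg0
  have hsum : ∑ i, ι (((⟨g i / g i₀, hmem i⟩ : ↥O) : ↥O) : F) * b i = 0 := by
    have h1 : ∑ i, ι (g i / g i₀) * b i = (ι (g i₀))⁻¹ * ∑ i, g i • b i := by
      rw [Finset.mul_sum]
      refine Finset.sum_congr rfl fun i _ => ?_
      rw [Algebra.smul_def, map_div₀]
      show _ = (ι (g i₀))⁻¹ * (ι (g i) * b i)
      field_simp
    show ∑ i, ι (g i / g i₀) * b i = 0
    rw [h1, hg, mul_zero]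
  have h2 := hind (fun i => ⟨g i / g i₀, hmem i⟩)
    (by rw [hsum, map_zero]; exact zero_lt_one) i₀
  have h3 : (⟨g i₀ / g i₀, hmem i₀⟩ : ↥O) = 1 := Subtype.ext (div_self hg0)
  rw [h3] at h2
  exact (Ideal.ne_top_iff_one _).mp (maximalIdeal.isMaximal ↥O).ne_top h2

end Indep

section Closure

variable {K H : Type*} [Field K] [Field H] [Algebra K H]

/-- inside `E = A ⊔ C` the two subfields generate everything. -/
theorem normhost_closure_eq_top (A C E : IntermediateField K H) (hA : A ≤ E) (hC : C ≤ E)
    (hE : E ≤ A ⊔ C) :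
    Subfield.closure (Set.range (IntermediateField.inclusion hA) ∪
      Set.range (IntermediateField.inclusion hC)) = ⊤ := by
  set S : Subfield ↥E := Subfield.closure (Set.range (IntermediateField.inclusion hA) ∪
      Set.range (IntermediateField.inclusion hC)) with hS
  have hAS : ∀ a : ↥A, IntermediateField.inclusion hA a ∈ S := fun a =>
    Subfield.subset_closure (Or.inl ⟨a, rfl⟩)
  have hCS : ∀ c : ↥C, IntermediateField.inclusion hC c ∈ S := fun c =>
    Subfield.subset_closure (Or.inr ⟨c, rfl⟩)
  let T : IntermediateField K H := (S.map (algebraMap ↥E H)).toIntermediateField (by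
    intro x
    refine ⟨algebraMap K ↥E x, ?_, rfl⟩
    have h1 : algebraMap K ↥E x = IntermediateField.inclusion hA (algebraMap K ↥A x) := rfl
    rw [h1]
    exact hAS _)
  have hAT : A ≤ T := by
    intro a ha
    exact ⟨IntermediateField.inclusion hA ⟨a, ha⟩, hAS _, rfl⟩
  have hCT : C ≤ T := by
    intro c hc
    exact ⟨IntermediateField.inclusion hC ⟨c, hc⟩, hCS _, rfl⟩
  have hET : E ≤ T := le_trans hE (sup_le hAT hCT)
  rw [eq_top_iff]
  intro x _
  obtain ⟨y, hy, hyx⟩ := hET x.2
  have hxy : y = x := Subtype.ext hyx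
  rw [← hxy]
  exact hy

end Closure

section Norm

variable {F₁ F₂ E₁ E₂ : Type*} [Field F₁] [Field F₂] [Field E₁] [Field E₂]
  [Algebra F₁ F₂] [FiniteDimensional F₁ F₂]

/-- **norms commute with the host embeddings** as soon as the degrees agree and the image of the
upper level field spans the upper host. -/
theorem normhost_norm_of_span (ι : E₁ →+* E₂) (φ₁ : F₁ →+* E₁) (φ₂ : F₂ →+* E₂)
    (hcomp : ∀ a : F₁, φ₂ (algebraMap F₁ F₂ a) = ι (φ₁ a))
    (hfin : letI := ι.toAlgebra; FiniteDimensional E₁ E₂)
    (hdeg : letI := ι.toAlgebra; Module.finrank F₁ F₂ = Module.finrank E₁ E₂)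
    (hspan : letI := ι.toAlgebra; Submodule.span E₁ (Set.range φ₂) = ⊤) (z : F₂) :
    φ₁ (Algebra.norm F₁ z) = (letI := ι.toAlgebra; Algebra.norm E₁ (φ₂ z)) := by
  letI := ι.toAlgebra
  haveI := hfin
  exact Fermat.Agent.S35.norm_map_of_finrank_eq φ₁ φ₂ hcomp hdeg hspan z

/-- spanning from an independent family of the right size. -/
theorem normhost_span_of_linearIndependent (ι : E₁ →+* E₂) (φ₂ : F₂ →+* E₂)
    (hfin : letI := ι.toAlgebra; FiniteDimensional E₁ E₂)
    {q : ℕ} (hdeg : letI := ι.toAlgebra; Module.finrank E₁ E₂ = q) (b : Fin q → F₂)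
    (hli : letI := ι.toAlgebra; LinearIndependent E₁ (fun i => φ₂ (b i))) :
    letI := ι.toAlgebra
    Submodule.span E₁ (Set.range φ₂) = ⊤ := by
  letI := ι.toAlgebra
  haveI := hfin
  have h1 : Submodule.span E₁ (Set.range (fun i => φ₂ (b i))) = ⊤ :=
    hli.span_eq_top_of_card_eq_finrank' (by rw [Fintype.card_fin, hdeg])
  rw [eq_top_iff, ← h1]
  refine Submodule.span_mono ?_
  rintro _ ⟨i, rfl⟩
  exact ⟨b i, rfl⟩

end Norm

section Sup

variable {K H : Type*} [Field K] [Field H] [Algebra K H]
  {F₂ : Type*} [Field F₂]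

/-- spanning from a compositum: `E_N = E_M ⊔ F_N` and `φ₂` has image `F_N`. -/
theorem normhost_span_of_sup (EM FN EN : IntermediateField K H) (hle : EM ≤ EN) (hFN : FN ≤ EN)
    (hsup : EN ≤ EM ⊔ FN) (φ₂ : F₂ →+* ↥EN)
    (hrange : ∀ c : ↥FN, ∃ z : F₂, φ₂ z = IntermediateField.inclusion hFN c)
    (hfin : letI := (IntermediateField.inclusion hle).toRingHom.toAlgebra;
      FiniteDimensional ↥EM ↥EN) :
    letI := (IntermediateField.inclusion hle).toRingHom.toAlgebra
    Submodule.span ↥EM (Set.range φ₂) = ⊤ := by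
  letI := (IntermediateField.inclusion hle).toRingHom.toAlgebra
  haveI := hfin
  haveI : Algebra.IsAlgebraic ↥EM ↥EN := Algebra.IsAlgebraic.of_finite _ _
  refine Fermat.Agent.S35.span_range_eq_top_of_closure φ₂
    (Set.range (IntermediateField.inclusion hle)) ?_ ?_
  · rintro _ ⟨a, rfl⟩
    exact ⟨a, rfl⟩
  · have h1 := normhost_closure_eq_top EM FN EN hle hFN hsup
    rw [eq_top_iff, ← h1, Subfield.closure_le]
    rintro x (hx | hx)
    · exact Subfield.subset_closure (Or.inr hx)
    · obtain ⟨c, rfl⟩ := hx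
      obtain ⟨z, hz⟩ := hrange c
      exact Subfield.subset_closure (Or.inl ⟨z, hz⟩)

end Sup

end Fermat.Agent.S36
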