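/-
S36 [NORMHOST36] — helper8 — part 2: **exact degrees `q` of the hosts of level `M q` over the hosts
of level `M` (`q ∣ M`) along `A` and `B`, and the norm compatibility
`N_{E_{Mq}/E_M} (fullToEtu f) = fullToEtu (N_{F_{Mq}/F_M} f)`** (generic tower fields
`E = K(t)·F_w`; Legendre / Hesse instances in `NORMHOST36_helper8_Main`).

`R` a discrete valuation ring of residue characteristic `q`, `K = Frac R ⊇ ℚ`, hosts inside the
Gauss field.  The `B`-side: `1, j, …, j^{q-1}` (`j = j(x^w)`) are independent over `B(E_M)` modulo the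
Gauss valuation (helper7's `hind_B`), hence linearly independent, hence a basis since
`[E_{Mq} : B E_M] ≤ q` (helper7's DEG3); the `A`-side: `[E_{Mq} : A E_M] = [E_{Mq} : B E_M]`
(`deg3_finrank_Etu_eq`) and `E_{Mq} = E_M · F_{Mq,w}`.
-/
import Mathlib
import Fermat.Agent.S36.NORMHOST36_helper8_Abs
import Fermat.Agent.SS.DEG3_helper7
import Fermat.Agent.SS.VAL3_helper7_Hom
import Fermat.Agent.SS.MODEL_helper7_W0

set_option autoImplicit false
set_option linter.unusedSectionVars false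
set_option linter.unusedVariables false
set_option linter.style.haveILetI false
set_option synthInstance.maxHeartbeats 200000

open HahnSeries Polynomial ModularCurve IntermediateField AlgebraicCurve IsLocalRing

namespace Fermat.Agent.S36

open Fermat.Agent.JA Fermat.Agent.Igusa Fermat.Agent.X0N Fermat.Agent.SS

open scoped Fermat.Agent.JA.Host

noncomputable section

section Level

variable {R : Type*} [CommRing R] [IsDomain R] [IsDiscreteValuationRing R]
  {K : Type*} [Field K] [Algebra R K] [IsFractionRing R K] [Algebra ℚ K] [CharZero K]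
  (ι : K →+* ℂ) {M q : ℕ} [NeZero M] [NeZero q] [NeZero (M * q)] (w : ℕ) [NeZero w]
  (t : LaurentSeries K)

/-- `j(x^w)` as an element of the tower field. -/
def normhostJ (N : ℕ) [NeZero N] : ↥(Host.Etu (keyFw K N w) t 1) :=
  ⟨jqNModC K w, keyFw_le_Etu K N w t (jqNModC_mem_keyFw N w)⟩

include ι in
/-- **the `B`-side**: `[E_{Mq} : B E_M] = q` and `1, j, …, j^{q-1}` is linearly independent over
`B(E_M)`. -/
theorem normhost_Etu_B (hq : q.Prime) (hqM : q ∣ M) (hchar : (q : ResidueField R) = 0)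
    (hcop : Nat.Coprime w q) (ht : IsIntegral ↥(keyFw K M w) t)
    (hle : Host.Etu (keyFw K M w) t 1 ≤ Host.Etu (keyFw K (M * q) w) t 1)
    (hB : ∀ f ∈ Host.Etu (keyFw K M w) t 1, qExpand K q f ∈ Host.Etu (keyFw K (M * q) w) t 1)
    (hEM : Host.Etu (keyFw K M w) t 1 ≤ gaussField R K)
    (hEN : Host.Etu (keyFw K (M * q) w) t 1 ≤ gaussField R K) :
    letI := (hostB (Host.Etu (keyFw K M w) t 1) (Host.Etu (keyFw K (M * q) w) t 1) q hB :
      ↥(Host.Etu (keyFw K M w) t 1) →+* ↥(Host.Etu (keyFw K (M * q) w) t 1)).toAlgebra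
    FiniteDimensional ↥(Host.Etu (keyFw K M w) t 1) ↥(Host.Etu (keyFw K (M * q) w) t 1) ∧
      Module.finrank ↥(Host.Etu (keyFw K M w) t 1) ↥(Host.Etu (keyFw K (M * q) w) t 1) = q ∧
      LinearIndependent ↥(Host.Etu (keyFw K M w) t 1)
        (fun i : Fin q => (normhostJ (K := K) w t (M * q)) ^ (i : ℕ)) := by
  classical
  set EM := Host.Etu (keyFw K M w) t 1 with hEMdef
  set EN := Host.Etu (keyFw K (M * q) w) t 1 with hENdef
  obtain ⟨hfinB, hdegB⟩ := deg3_finrank_Etu_B_le ι w t hq hqM ht hle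
    (hostB EM EN q hB : ↥EM →+* ↥EN) (fun _ => rfl)
  haveI : CharZero ↥EM := charZero_of_injective_algebraMap (algebraMap K ↥EM).injective
  have hsepB : letI := (hostB EM EN q hB : ↥EM →+* ↥EN).toAlgebra;
      Algebra.IsSeparable ↥EM ↥EN := by
    letI := (hostB EM EN q hB : ↥EM →+* ↥EN).toAlgebra
    haveI := hfinB
    exact Algebra.IsAlgebraic.isSeparable_of_perfectField
  -- the element `J`
  set JM : ↥EM := normhostJ (K := K) w t M with hJM
  have hTj := isPrimeSeries_jqNModC R K w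
  have hJg : (JM : LaurentSeries K) ∈ gaussInt R K := hTj.mem_gaussInt
  have hred : gaussRed R K ⟨(JM : LaurentSeries K), hJg⟩ =
      jqNModC (IsLocalRing.ResidueField R) w := gaussRed_jqNModC w hTj.mem_gaussInt
  have hord : (gaussRed R K ⟨(JM : LaurentSeries K), hJg⟩).order = -(w : ℤ) := by
    rw [hred, order_jqNModC_field]
  have hne0 : gaussRed R K ⟨(JM : LaurentSeries K), hJg⟩ ≠ 0 := by
    intro h0
    rw [h0, HahnSeries.order_zero] at hord
    have hw : (w : ℤ) ≠ 0 := by exact_mod_cast NeZero.ne w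
    omega
  have hBinf := comap_hostB_gaussValSub (R := R) EM EN q hB hEM hEN
  have hAJ : hostA EM EN hle JM = normhostJ (K := K) w t (M * q) := Subtype.ext rfl
  have hAJmem : hostA EM EN hle JM ∈ gaussValSub R K EN hEN := hJg
  have hind : ∀ a : Fin q → ↥(gaussValSub R K EM hEM),
      (gaussValSub R K EN hEN).valuation
        (∑ i, (hostB EM EN q hB : ↥EM →+* ↥EN) (a i : ↥EM) * hostA EM EN hle JM ^ (i : ℕ)) < 1 →
      ∀ i, a i ∈ maximalIdeal ↥(gaussValSub R K EM hEM) :=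
    fun a ha => hind_B EM EN hle q hB hEM hEN w hcop JM hJg hord hne0 a ha
  obtain ⟨hdeg, -, -, -⟩ := one_ext_hom (hostB EM EN q hB : ↥EM →+* ↥EN)
    (gaussValSub R K EM hEM) hfinB hsepB hBinf hq.pos hdegB
    (fun i : Fin q => hostA EM EN hle JM ^ (i : ℕ)) (fun i => pow_mem hAJmem _) hind
  refine ⟨hfinB, hdeg, ?_⟩
  have hli := normhost_linearIndependent_of_hind (hostB EM EN q hB : ↥EM →+* ↥EN)
    (gaussValSub R K EM hEM) (gaussValSub R K EN hEN)
    (fun i : Fin q => hostA EM EN hle JM ^ (i : ℕ)) hind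
  rw [hAJ] at hli
  exact hli

include ι in
/-- **the `A`-side**: `[E_{Mq} : A E_M] = q`. -/
theorem normhost_Etu_A (hq : q.Prime) (hqM : q ∣ M) (hchar : (q : ResidueField R) = 0)
    (hcop : Nat.Coprime w q) (ht : IsIntegral ↥(keyFw K M w) t)
    (hle : Host.Etu (keyFw K M w) t 1 ≤ Host.Etu (keyFw K (M * q) w) t 1)
    (hB : ∀ f ∈ Host.Etu (keyFw K M w) t 1, qExpand K q f ∈ Host.Etu (keyFw K (M * q) w) t 1)
    (hEM : Host.Etu (keyFw K M w) t 1 ≤ gaussField R K)
    (hEN : Host.Etu (keyFw K (M * q) w) t 1 ≤ gaussField R K) :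
    letI := (hostA (Host.Etu (keyFw K M w) t 1) (Host.Etu (keyFw K (M * q) w) t 1) hle :
      ↥(Host.Etu (keyFw K M w) t 1) →+* ↥(Host.Etu (keyFw K (M * q) w) t 1)).toAlgebra
    FiniteDimensional ↥(Host.Etu (keyFw K M w) t 1) ↥(Host.Etu (keyFw K (M * q) w) t 1) ∧
      Module.finrank ↥(Host.Etu (keyFw K M w) t 1) ↥(Host.Etu (keyFw K (M * q) w) t 1) = q := by
  obtain ⟨hfinA, -⟩ := deg3_finrank_Etu_le ι w t hq hqM ht hle
  refine ⟨hfinA, ?_⟩
  obtain ⟨-, hdegB, -⟩ := normhost_Etu_B (R := R) ι w t hq hqM hchar hcop ht hle hB hEM hEN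
  have h1 := deg3_finrank_Etu_eq ι w t hq hqM ht hle
    (hostB (Host.Etu (keyFw K M w) t 1) (Host.Etu (keyFw K (M * q) w) t 1) q hB :
      ↥(Host.Etu (keyFw K M w) t 1) →+* ↥(Host.Etu (keyFw K (M * q) w) t 1)) (fun _ => rfl)
  exact h1.symm.trans hdegB

/-- `E_{Mq} = E_M · F_{Mq,w}`. -/
theorem normhost_Etu_le_sup :
    Host.Etu (keyFw K (M * q) w) t 1 ≤ Host.Etu (keyFw K M w) t 1 ⊔ keyFw K (M * q) w := by
  rw [Etu_one_eq_sup, Etu_one_eq_sup]
  exact sup_le le_sup_right (le_trans le_sup_right le_sup_left)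

/-- `fullToEtu` maps `jGen` to `j(x^w)`. -/
theorem normhost_fullToEtu_jGen (N : ℕ) [NeZero N] :
    fullToEtu K N w t (jGen K N) = normhostJ (K := K) w t N :=
  Subtype.ext (coe_hostImageEquiv_jGen N w)

/-- `A` on the level fields and on the tower fields. -/
theorem normhost_fullToEtu_alpha
    (hle : Host.Etu (keyFw K M w) t 1 ≤ Host.Etu (keyFw K (M * q) w) t 1) (c : ↥(keyFq K M)) :
    fullToEtu K (M * q) w t (heckeAlphaBar K M q c) =
      hostA (Host.Etu (keyFw K M w) t 1) (Host.Etu (keyFw K (M * q) w) t 1) hle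
        (fullToEtu K M w t c) := by
  apply Subtype.ext
  rw [coe_fullToEtu, coe_heckeAlphaBar, coe_hostA, coe_fullToEtu]

/-- `B` on the level fields and on the tower fields. -/
theorem normhost_fullToEtu_beta
    (hB : ∀ f ∈ Host.Etu (keyFw K M w) t 1, qExpand K q f ∈ Host.Etu (keyFw K (M * q) w) t 1)
    (c : ↥(keyFq K M)) :
    fullToEtu K (M * q) w t (heckeBetaBar K M q c) =
      hostB (Host.Etu (keyFw K M w) t 1) (Host.Etu (keyFw K (M * q) w) t 1) q hB
        (fullToEtu K M w t c) := by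
  apply Subtype.ext
  rw [coe_fullToEtu, coe_heckeBetaBar, coe_hostB, coe_fullToEtu, qExpand_qExpand, qExpand_qExpand]
  exact qExpand_congr (mul_comm w q) _

include ι in
/-- **norm compatibility along `A`** on the tower fields. -/
theorem normhost_norm_Etu_A (hq : q.Prime) (hqM : q ∣ M) (hchar : (q : ResidueField R) = 0)
    (hcop : Nat.Coprime w q) (ht : IsIntegral ↥(keyFw K M w) t)
    (hle : Host.Etu (keyFw K M w) t 1 ≤ Host.Etu (keyFw K (M * q) w) t 1)
    (hB : ∀ f ∈ Host.Etu (keyFw K M w) t 1, qExpand K q f ∈ Host.Etu (keyFw K (M * q) w) t 1)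
    (hEM : Host.Etu (keyFw K M w) t 1 ≤ gaussField R K)
    (hEN : Host.Etu (keyFw K (M * q) w) t 1 ≤ gaussField R K) (z : ↥(keyFq K (M * q))) :
    fullToEtu K M w t (normAlong (heckeAlphaBar K M q) z) =
      (letI := (hostA (Host.Etu (keyFw K M w) t 1) (Host.Etu (keyFw K (M * q) w) t 1) hle :
        ↥(Host.Etu (keyFw K M w) t 1) →+* ↥(Host.Etu (keyFw K (M * q) w) t 1)).toAlgebra
       Algebra.norm ↥(Host.Etu (keyFw K M w) t 1) (fullToEtu K (M * q) w t z)) := by
  obtain ⟨hfinA, hdegA⟩ := normhost_Etu_A (R := R) ι w t hq hqM hchar hcop ht hle hB hEM hEN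
  have hdegF := deg3_finrank_keyFq_alpha ι hq hqM
  unfold normAlong
  letI := algebraAlong (heckeAlphaBar K M q)
  haveI : FiniteDimensional ↥(keyFq K M) ↥(keyFq K (M * q)) :=
    Module.finite_of_finrank_pos (by rw [hdegF]; exact hq.pos)
  refine normhost_norm_of_span
    (hostA (Host.Etu (keyFw K M w) t 1) (Host.Etu (keyFw K (M * q) w) t 1) hle :
      ↥(Host.Etu (keyFw K M w) t 1) →+* ↥(Host.Etu (keyFw K (M * q) w) t 1))
    (fullToEtu K M w t : ↥(keyFq K M) →+* ↥(Host.Etu (keyFw K M w) t 1))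
    (fullToEtu K (M * q) w t : ↥(keyFq K (M * q)) →+* ↥(Host.Etu (keyFw K (M * q) w) t 1))
    (fun a => normhost_fullToEtu_alpha w t hle a) hfinA (hdegF.trans hdegA.symm) ?_ z
  refine normhost_span_of_sup (Host.Etu (keyFw K M w) t 1) (keyFw K (M * q) w)
    (Host.Etu (keyFw K (M * q) w) t 1) hle (keyFw_le_Etu K (M * q) w t)
    (normhost_Etu_le_sup w t) _ (fun c => ?_) hfinA
  exact ⟨(hostImageEquiv K w (keyFq K (M * q))).symm c, Subtype.ext (by
    show (((hostImageEquiv K w (keyFq K (M * q)))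
      ((hostImageEquiv K w (keyFq K (M * q))).symm c) : ↥(keyFw K (M * q) w)) :
        LaurentSeries K) = c
    rw [AlgEquiv.apply_symm_apply])⟩

include ι in
/-- **norm compatibility along `B`** on the tower fields. -/
theorem normhost_norm_Etu_B (hq : q.Prime) (hqM : q ∣ M) (hchar : (q : ResidueField R) = 0)
    (hcop : Nat.Coprime w q) (ht : IsIntegral ↥(keyFw K M w) t)
    (hle : Host.Etu (keyFw K M w) t 1 ≤ Host.Etu (keyFw K (M * q) w) t 1)
    (hB : ∀ f ∈ Host.Etu (keyFw K M w) t 1, qExpand K q f ∈ Host.Etu (keyFw K (M * q) w) t 1)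
    (hEM : Host.Etu (keyFw K M w) t 1 ≤ gaussField R K)
    (hEN : Host.Etu (keyFw K (M * q) w) t 1 ≤ gaussField R K) (z : ↥(keyFq K (M * q))) :
    fullToEtu K M w t (normAlong (heckeBetaBar K M q) z) =
      (letI := (hostB (Host.Etu (keyFw K M w) t 1) (Host.Etu (keyFw K (M * q) w) t 1) q hB :
        ↥(Host.Etu (keyFw K M w) t 1) →+* ↥(Host.Etu (keyFw K (M * q) w) t 1)).toAlgebra
       Algebra.norm ↥(Host.Etu (keyFw K M w) t 1) (fullToEtu K (M * q) w t z)) := by
  obtain ⟨hfinB, hdegB, hli⟩ := normhost_Etu_B (R := R) ι w t hq hqM hchar hcop ht hle hB hEM hEN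
  have hdegF := deg3_finrank_keyFq_beta ι hq hqM
  unfold normAlong
  letI := algebraAlong (heckeBetaBar K M q)
  haveI : FiniteDimensional ↥(keyFq K M) ↥(keyFq K (M * q)) :=
    Module.finite_of_finrank_pos (by rw [hdegF]; exact hq.pos)
  refine normhost_norm_of_span
    (hostB (Host.Etu (keyFw K M w) t 1) (Host.Etu (keyFw K (M * q) w) t 1) q hB :
      ↥(Host.Etu (keyFw K M w) t 1) →+* ↥(Host.Etu (keyFw K (M * q) w) t 1))
    (fullToEtu K M w t : ↥(keyFq K M) →+* ↥(Host.Etu (keyFw K M w) t 1))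
    (fullToEtu K (M * q) w t : ↥(keyFq K (M * q)) →+* ↥(Host.Etu (keyFw K (M * q) w) t 1))
    (fun a => normhost_fullToEtu_beta w t hB a) hfinB (hdegF.trans hdegB.symm) ?_ z
  refine normhost_span_of_linearIndependent _ _ hfinB hdegB
    (fun i : Fin q => (jGen K (M * q)) ^ (i : ℕ)) ?_
  have h1 : (fun i : Fin q => (fullToEtu K (M * q) w t :
      ↥(keyFq K (M * q)) →+* ↥(Host.Etu (keyFw K (M * q) w) t 1)) ((jGen K (M * q)) ^ (i : ℕ))) =
      fun i : Fin q => (normhostJ (K := K) w t (M * q)) ^ (i : ℕ) := by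
    funext i
    rw [map_pow]
    congr 1
    exact normhost_fullToEtu_jGen w t (M * q)
  rw [h1]
  exact hli

end Level

end

end Fermat.Agent.S36
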