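/-
S36 [NORMHOST36] — helper8 — part 3: **the host-level norms of the Legendre / Hesse hosts of level
`M q` over level `M`, `q ∣ M`**: exact degrees `q` along `A` and `B`, the norm compatibility with
the level fields, and the norm hypotheses of `toric36` from the hypotheses of `LegInertBase` /
`HesInertBase`.

`R` a discrete valuation ring of characteristic zero and residue characteristic `q`, `K = Frac R`.

* `legNormA`, `legNormB`, `hesNormA`, `hesNormB` : the host norms as monoid homomorphisms;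
* `normhost_finrank_legHostA/B`, `normhost_finrank_hesHostA/B` : the degrees are `q`;
* `normhost_legNormA_fullToLegE`, … : `N (fullToLegE f) = fullToLegE (normAlong … f)`;
* `normhost_legNormA_of_normAlong`, … : the packaged form;
* `normhost_legNormA_algebraMap`, … : norms of constants.
-/
import Mathlib
import Fermat.Agent.S36.NORMHOST36_helper8_Host
import Fermat.Agent.SS.MODEL_helper7_Defs

set_option autoImplicit false
set_option linter.unusedSectionVars false
set_option linter.unusedVariables false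
set_option linter.style.haveILetI false
set_option synthInstance.maxHeartbeats 200000

open HahnSeries Polynomial ModularCurve IntermediateField AlgebraicCurve IsLocalRing

namespace Fermat.Agent.S36

open Fermat.Agent.JA Fermat.Agent.Igusa Fermat.Agent.X0N Fermat.Agent.SS

open scoped Fermat.Agent.JA.Host

noncomputable section

section Leg

variable (R : Type*) [CommRing R] [IsDomain R] [IsDiscreteValuationRing R] [CharZero R]
  (K : Type*) [Field K] [Algebra R K] [IsFractionRing R K] [Algebra ℚ K] [Algebra K ℂ]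
  (M q : ℕ) [NeZero M] [NeZero q] [NeZero (M * q)]

/-- the norm of the Legendre hosts along `A`. -/
def legNormA : ↥(legE K (M * q)) →* ↥(legE K M) :=
  letI := (legHostA K M q : ↥(legE K M) →+* ↥(legE K (M * q))).toAlgebra
  Algebra.norm ↥(legE K M)

/-- the norm of the Legendre hosts along `B`. -/
def legNormB (hq : q.Prime) (hq2 : q ≠ 2) : ↥(legE K (M * q)) →* ↥(legE K M) :=
  letI := (legHostB K M q hq hq2 : ↥(legE K M) →+* ↥(legE K (M * q))).toAlgebra
  Algebra.norm ↥(legE K M)

variable {M q}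

/-- **`[E_{Mq} : A E_M] = q`**, Legendre. -/
theorem normhost_finrank_legHostA (h2 : IsUnit (2 : R)) (hq : q.Prime) (hq2 : q ≠ 2)
    (hqM : q ∣ M) (hchar : (q : ResidueField R) = 0) :
    letI := (legHostA K M q : ↥(legE K M) →+* ↥(legE K (M * q))).toAlgebra
    FiniteDimensional ↥(legE K M) ↥(legE K (M * q)) ∧
      Module.finrank ↥(legE K M) ↥(legE K (M * q)) = q := by
  haveI : CharZero K := charZero_of_injective_algebraMap (algebraMap ℚ K).injective
  exact normhost_Etu_A (R := R) (algebraMap K ℂ) 2 (legT K) hq hqM hchar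
    ((Nat.coprime_primes Nat.prime_two hq).mpr (Ne.symm hq2)) (isIntegral_legT K).tower_top
    (legE_le_of_dvd K (dvd_mul_right M q))
    (fun _ hf => qExpand_mem_legE_of_mem K hq hq2 (by rw [mul_comm]) hf)
    (legE_le_gaussField R K h2 M) (legE_le_gaussField R K h2 (M * q))

/-- **`[E_{Mq} : B E_M] = q`**, Legendre. -/
theorem normhost_finrank_legHostB (h2 : IsUnit (2 : R)) (hq : q.Prime) (hq2 : q ≠ 2)
    (hqM : q ∣ M) (hchar : (q : ResidueField R) = 0) :
    letI := (legHostB K M q hq hq2 : ↥(legE K M) →+* ↥(legE K (M * q))).toAlgebra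
    FiniteDimensional ↥(legE K M) ↥(legE K (M * q)) ∧
      Module.finrank ↥(legE K M) ↥(legE K (M * q)) = q := by
  haveI : CharZero K := charZero_of_injective_algebraMap (algebraMap ℚ K).injective
  obtain ⟨h1, h2', -⟩ := normhost_Etu_B (R := R) (algebraMap K ℂ) 2 (legT K) hq hqM hchar
    ((Nat.coprime_primes Nat.prime_two hq).mpr (Ne.symm hq2)) (isIntegral_legT K).tower_top
    (legE_le_of_dvd K (dvd_mul_right M q))
    (fun _ hf => qExpand_mem_legE_of_mem K hq hq2 (by rw [mul_comm]) hf)
    (legE_le_gaussField R K h2 M) (legE_le_gaussField R K h2 (M * q))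
  exact ⟨h1, h2'⟩

/-- **norm compatibility along `A`**, Legendre. -/
theorem normhost_legNormA_fullToLegE (h2 : IsUnit (2 : R)) (hq : q.Prime) (hq2 : q ≠ 2)
    (hqM : q ∣ M) (hchar : (q : ResidueField R) = 0) (z : ↥(keyFq K (M * q))) :
    legNormA K M q (fullToLegE K (M * q) z) =
      fullToLegE K M (normAlong (heckeAlphaBar K M q) z) := by
  haveI : CharZero K := charZero_of_injective_algebraMap (algebraMap ℚ K).injective
  exact (normhost_norm_Etu_A (R := R) (algebraMap K ℂ) 2 (legT K) hq hqM hchar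
    ((Nat.coprime_primes Nat.prime_two hq).mpr (Ne.symm hq2)) (isIntegral_legT K).tower_top
    (legE_le_of_dvd K (dvd_mul_right M q))
    (fun _ hf => qExpand_mem_legE_of_mem K hq hq2 (by rw [mul_comm]) hf)
    (legE_le_gaussField R K h2 M) (legE_le_gaussField R K h2 (M * q)) z).symm

/-- **norm compatibility along `B`**, Legendre. -/
theorem normhost_legNormB_fullToLegE (h2 : IsUnit (2 : R)) (hq : q.Prime) (hq2 : q ≠ 2)
    (hqM : q ∣ M) (hchar : (q : ResidueField R) = 0) (z : ↥(keyFq K (M * q))) :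
    legNormB K M q hq hq2 (fullToLegE K (M * q) z) =
      fullToLegE K M (normAlong (heckeBetaBar K M q) z) := by
  haveI : CharZero K := charZero_of_injective_algebraMap (algebraMap ℚ K).injective
  exact (normhost_norm_Etu_B (R := R) (algebraMap K ℂ) 2 (legT K) hq hqM hchar
    ((Nat.coprime_primes Nat.prime_two hq).mpr (Ne.symm hq2)) (isIntegral_legT K).tower_top
    (legE_le_of_dvd K (dvd_mul_right M q))
    (fun _ hf => qExpand_mem_legE_of_mem K hq hq2 (by rw [mul_comm]) hf)
    (legE_le_gaussField R K h2 M) (legE_le_gaussField R K h2 (M * q)) z).symm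

/-- the norm hypothesis of `toric36` along `A` from the hypothesis of `LegInertBase`. -/
theorem normhost_legNormA_of_normAlong (h2 : IsUnit (2 : R)) (hq : q.Prime) (hq2 : q ≠ 2)
    (hqM : q ∣ M) (hchar : (q : ResidueField R) = 0) {m : ℕ} {f₀ : ↥(keyFq K (M * q))}
    {a : K} {h : ↥(keyFq K M)}
    (hN : normAlong (heckeAlphaBar K M q) f₀ = algebraMap K ↥(keyFq K M) a * h ^ m) :
    legNormA K M q (fullToLegE K (M * q) f₀) =
      algebraMap K ↥(legE K M) a * fullToLegE K M h ^ m := by
  rw [normhost_legNormA_fullToLegE R K h2 hq hq2 hqM hchar, hN, map_mul, map_pow,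
    AlgHom.commutes]

/-- the norm hypothesis of `toric36` along `B` from the hypothesis of `LegInertBase`. -/
theorem normhost_legNormB_of_normAlong (h2 : IsUnit (2 : R)) (hq : q.Prime) (hq2 : q ≠ 2)
    (hqM : q ∣ M) (hchar : (q : ResidueField R) = 0) {m : ℕ} {f₀ : ↥(keyFq K (M * q))}
    {a : K} {h : ↥(keyFq K M)}
    (hN : normAlong (heckeBetaBar K M q) f₀ = algebraMap K ↥(keyFq K M) a * h ^ m) :
    legNormB K M q hq hq2 (fullToLegE K (M * q) f₀) =
      algebraMap K ↥(legE K M) a * fullToLegE K M h ^ m := by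
  rw [normhost_legNormB_fullToLegE R K h2 hq hq2 hqM hchar, hN, map_mul, map_pow,
    AlgHom.commutes]

/-- norms of constants along `A`, Legendre. -/
theorem normhost_legNormA_algebraMap (h2 : IsUnit (2 : R)) (hq : q.Prime) (hq2 : q ≠ 2)
    (hqM : q ∣ M) (hchar : (q : ResidueField R) = 0) (c : K) :
    legNormA K M q (algebraMap K ↥(legE K (M * q)) c) = algebraMap K ↥(legE K M) c ^ q := by
  obtain ⟨hfin, hdeg⟩ := normhost_finrank_legHostA R K h2 hq hq2 hqM hchar
  unfold legNormA
  letI := (legHostA K M q : ↥(legE K M) →+* ↥(legE K (M * q))).toAlgebra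
  have h1 : algebraMap K ↥(legE K (M * q)) c =
      algebraMap ↥(legE K M) ↥(legE K (M * q)) (algebraMap K ↥(legE K M) c) :=
    ((legHostA K M q).commutes c).symm
  rw [h1, Algebra.norm_algebraMap, hdeg]

/-- norms of constants along `B`, Legendre. -/
theorem normhost_legNormB_algebraMap (h2 : IsUnit (2 : R)) (hq : q.Prime) (hq2 : q ≠ 2)
    (hqM : q ∣ M) (hchar : (q : ResidueField R) = 0) (c : K) :
    legNormB K M q hq hq2 (algebraMap K ↥(legE K (M * q)) c) =
      algebraMap K ↥(legE K M) c ^ q := by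
  obtain ⟨hfin, hdeg⟩ := normhost_finrank_legHostB R K h2 hq hq2 hqM hchar
  unfold legNormB
  letI := (legHostB K M q hq hq2 : ↥(legE K M) →+* ↥(legE K (M * q))).toAlgebra
  have h1 : algebraMap K ↥(legE K (M * q)) c =
      algebraMap ↥(legE K M) ↥(legE K (M * q)) (algebraMap K ↥(legE K M) c) :=
    ((legHostB K M q hq hq2).commutes c).symm
  rw [h1, Algebra.norm_algebraMap, hdeg]

end Leg

section Hes

variable (R : Type*) [CommRing R] [IsDomain R] [IsDiscreteValuationRing R] [CharZero R]
  (K : Type*) [Field K] [Algebra R K] [IsFractionRing R K] [Algebra ℚ K] [Algebra K ℂ]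
  (M : ℕ) [NeZero M] [NeZero (M * 2)]

/-- the norm of the Hesse hosts along `A`. -/
def hesNormA : ↥(hesE K (M * 2)) →* ↥(hesE K M) :=
  letI := (hesHostA K M 2 : ↥(hesE K M) →+* ↥(hesE K (M * 2))).toAlgebra
  Algebra.norm ↥(hesE K M)

/-- the norm of the Hesse hosts along `B`. -/
def hesNormB : ↥(hesE K (M * 2)) →* ↥(hesE K M) :=
  letI := (hesHostB K M : ↥(hesE K M) →+* ↥(hesE K (M * 2))).toAlgebra
  Algebra.norm ↥(hesE K M)

variable {M}

/-- **`[E_{2M} : A E_M] = 2`**, Hesse. -/
theorem normhost_finrank_hesHostA (h3 : IsUnit (3 : R)) (hqM : 2 ∣ M)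
    (hchar : ((2 : ℕ) : ResidueField R) = 0) :
    letI := (hesHostA K M 2 : ↥(hesE K M) →+* ↥(hesE K (M * 2))).toAlgebra
    FiniteDimensional ↥(hesE K M) ↥(hesE K (M * 2)) ∧
      Module.finrank ↥(hesE K M) ↥(hesE K (M * 2)) = 2 := by
  haveI : CharZero K := charZero_of_injective_algebraMap (algebraMap ℚ K).injective
  exact normhost_Etu_A (R := R) (algebraMap K ℂ) 3 (hesT K) Nat.prime_two hqM hchar
    (by decide) (isIntegral_hesT K).tower_top
    (hesE_le_of_dvd K (dvd_mul_right M 2))
    (fun _ hf => qExpand_mem_hesE_of_mem K (by rw [mul_comm]) hf)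
    (hesE_le_gaussField R K h3 M) (hesE_le_gaussField R K h3 (M * 2))

/-- **`[E_{2M} : B E_M] = 2`**, Hesse. -/
theorem normhost_finrank_hesHostB (h3 : IsUnit (3 : R)) (hqM : 2 ∣ M)
    (hchar : ((2 : ℕ) : ResidueField R) = 0) :
    letI := (hesHostB K M : ↥(hesE K M) →+* ↥(hesE K (M * 2))).toAlgebra
    FiniteDimensional ↥(hesE K M) ↥(hesE K (M * 2)) ∧
      Module.finrank ↥(hesE K M) ↥(hesE K (M * 2)) = 2 := by
  haveI : CharZero K := charZero_of_injective_algebraMap (algebraMap ℚ K).injective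
  obtain ⟨h1, h2', -⟩ := normhost_Etu_B (R := R) (algebraMap K ℂ) 3 (hesT K) Nat.prime_two hqM
    hchar (by decide) (isIntegral_hesT K).tower_top
    (hesE_le_of_dvd K (dvd_mul_right M 2))
    (fun _ hf => qExpand_mem_hesE_of_mem K (by rw [mul_comm]) hf)
    (hesE_le_gaussField R K h3 M) (hesE_le_gaussField R K h3 (M * 2))
  exact ⟨h1, h2'⟩

/-- **norm compatibility along `A`**, Hesse. -/
theorem normhost_hesNormA_fullToHesE (h3 : IsUnit (3 : R)) (hqM : 2 ∣ M)
    (hchar : ((2 : ℕ) : ResidueField R) = 0) (z : ↥(keyFq K (M * 2))) :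
    hesNormA K M (fullToHesE K (M * 2) z) =
      fullToHesE K M (normAlong (heckeAlphaBar K M 2) z) := by
  haveI : CharZero K := charZero_of_injective_algebraMap (algebraMap ℚ K).injective
  exact (normhost_norm_Etu_A (R := R) (algebraMap K ℂ) 3 (hesT K) Nat.prime_two hqM hchar
    (by decide) (isIntegral_hesT K).tower_top
    (hesE_le_of_dvd K (dvd_mul_right M 2))
    (fun _ hf => qExpand_mem_hesE_of_mem K (by rw [mul_comm]) hf)
    (hesE_le_gaussField R K h3 M) (hesE_le_gaussField R K h3 (M * 2)) z).symm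

/-- **norm compatibility along `B`**, Hesse. -/
theorem normhost_hesNormB_fullToHesE (h3 : IsUnit (3 : R)) (hqM : 2 ∣ M)
    (hchar : ((2 : ℕ) : ResidueField R) = 0) (z : ↥(keyFq K (M * 2))) :
    hesNormB K M (fullToHesE K (M * 2) z) =
      fullToHesE K M (normAlong (heckeBetaBar K M 2) z) := by
  haveI : CharZero K := charZero_of_injective_algebraMap (algebraMap ℚ K).injective
  exact (normhost_norm_Etu_B (R := R) (algebraMap K ℂ) 3 (hesT K) Nat.prime_two hqM hchar
    (by decide) (isIntegral_hesT K).tower_top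
    (hesE_le_of_dvd K (dvd_mul_right M 2))
    (fun _ hf => qExpand_mem_hesE_of_mem K (by rw [mul_comm]) hf)
    (hesE_le_gaussField R K h3 M) (hesE_le_gaussField R K h3 (M * 2)) z).symm

/-- the norm hypothesis of `toric36` along `A` from the hypothesis of `HesInertBase`. -/
theorem normhost_hesNormA_of_normAlong (h3 : IsUnit (3 : R)) (hqM : 2 ∣ M)
    (hchar : ((2 : ℕ) : ResidueField R) = 0) {m : ℕ} {f₀ : ↥(keyFq K (M * 2))}
    {a : K} {h : ↥(keyFq K M)}
    (hN : normAlong (heckeAlphaBar K M 2) f₀ = algebraMap K ↥(keyFq K M) a * h ^ m) :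
    hesNormA K M (fullToHesE K (M * 2) f₀) =
      algebraMap K ↥(hesE K M) a * fullToHesE K M h ^ m := by
  rw [normhost_hesNormA_fullToHesE R K h3 hqM hchar, hN, map_mul, map_pow, AlgHom.commutes]

/-- the norm hypothesis of `toric36` along `B` from the hypothesis of `HesInertBase`. -/
theorem normhost_hesNormB_of_normAlong (h3 : IsUnit (3 : R)) (hqM : 2 ∣ M)
    (hchar : ((2 : ℕ) : ResidueField R) = 0) {m : ℕ} {f₀ : ↥(keyFq K (M * 2))}
    {a : K} {h : ↥(keyFq K M)}
    (hN : normAlong (heckeBetaBar K M 2) f₀ = algebraMap K ↥(keyFq K M) a * h ^ m) :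
    hesNormB K M (fullToHesE K (M * 2) f₀) =
      algebraMap K ↥(hesE K M) a * fullToHesE K M h ^ m := by
  rw [normhost_hesNormB_fullToHesE R K h3 hqM hchar, hN, map_mul, map_pow, AlgHom.commutes]

/-- norms of constants along `A`, Hesse. -/
theorem normhost_hesNormA_algebraMap (h3 : IsUnit (3 : R)) (hqM : 2 ∣ M)
    (hchar : ((2 : ℕ) : ResidueField R) = 0) (c : K) :
    hesNormA K M (algebraMap K ↥(hesE K (M * 2)) c) = algebraMap K ↥(hesE K M) c ^ 2 := by
  obtain ⟨hfin, hdeg⟩ := normhost_finrank_hesHostA R K h3 hqM hchar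
  unfold hesNormA
  letI := (hesHostA K M 2 : ↥(hesE K M) →+* ↥(hesE K (M * 2))).toAlgebra
  have h1 : algebraMap K ↥(hesE K (M * 2)) c =
      algebraMap ↥(hesE K M) ↥(hesE K (M * 2)) (algebraMap K ↥(hesE K M) c) :=
    ((hesHostA K M 2).commutes c).symm
  rw [h1, Algebra.norm_algebraMap, hdeg]

/-- norms of constants along `B`, Hesse. -/
theorem normhost_hesNormB_algebraMap (h3 : IsUnit (3 : R)) (hqM : 2 ∣ M)
    (hchar : ((2 : ℕ) : ResidueField R) = 0) (c : K) :
    hesNormB K M (algebraMap K ↥(hesE K (M * 2)) c) = algebraMap K ↥(hesE K M) c ^ 2 := by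
  obtain ⟨hfin, hdeg⟩ := normhost_finrank_hesHostB R K h3 hqM hchar
  unfold hesNormB
  letI := (hesHostB K M : ↥(hesE K M) →+* ↥(hesE K (M * 2))).toAlgebra
  have h1 : algebraMap K ↥(hesE K (M * 2)) c =
      algebraMap ↥(hesE K M) ↥(hesE K (M * 2)) (algebraMap K ↥(hesE K M) c) :=
    ((hesHostB K M).commutes c).symm
  rw [h1, Algebra.norm_algebraMap, hdeg]

end Hes

end

end Fermat.Agent.S36
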