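/-
S36 — helper2 — [T3-36], interface: **the base statements of S36** (`LegInertBase`,
`HesInertBase`): what the three-sheet geometry (ABS36 + MODEL36 + REG1 + NORMVAL + NODENORM) must
deliver at ONE unramified base, in the currency of the J-A packages (`keyFq`, `legE`/`hesE`,
`fullToLegE`/`fullToHesE`, `Place`) and of helper1's bases (`IsBase`, `baseRing`).

Level `N = M q` with `q ∣ M`, `q² ∤ M` (so `q² ∥ N`).  For a place `A | q` of `Ω`, a base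
`K₀ = K^♭ ⊔ (finite)` contained in the inertia field `Ω^{I_A}` (so `q` is a uniformizer of
`R₀ = A ∩ K₀`, whose residue field is algebraically closed), an exponent `m` prime to `q` and a
nonzero MONIC element `f₀` of the level-`M q` field `F(K₀) = keyFq K₀ (M q)` such that
* all the orders of `f₀` at the places of the host `E(K₀)` are divisible by `m` (NO rationality of
  the places is assumed),
* the norms of `f₀` along the two degeneracy maps `α, β : F_M(K₀) → F_{M q}(K₀)` are constants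
  times `m`-th powers,
the power `f₀ ^ c` is an `m`-th power in the host, for a `c ≥ 1` depending on `(M, q)` only.
-/
import Mathlib
import Fermat.Agent.JA.UP_helper7_Emb
import Fermat.Agent.JA.ES_helper4_Main
import Fermat.Agent.SS.IBASE_helper1_Core
import Fermat.Prelude.Def_ModularCurve_HeckeOperator

set_option autoImplicit false
set_option linter.unusedSectionVars false
set_option linter.style.haveILetI false

open HahnSeries IntermediateField AlgebraicCurve ModularCurve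

namespace Fermat.Agent.S36

open Fermat.Agent.JA Fermat.Agent.FF Fermat.Agent.SS

/-- `Ω = AlgebraicClosure ℚ`. -/
local notation "Ω" => AlgebraicClosure ℚ

/-- **the base statement of S36, Legendre host** (`q ≠ 2`). -/
def LegInertBase : Prop :=
  ∀ (M : ℕ) [NeZero M] (q : ℕ) [NeZero q] [NeZero (M * q)], q.Prime → q ≠ 2 → q ∣ M →
    ¬ q ^ 2 ∣ M →
  ∃ c : ℕ, c ≠ 0 ∧
  ∀ (A : ValuationSubring Ω), A.LiesOverPrime q →
  ∀ (K₀ : IntermediateField ℚ Ω), IsBase q K₀ →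
    K₀ ≤ IntermediateField.fixedField (A.inertiaSubgroupIn ℚ) →
    Irreducible ((q : ℕ) : ↥(baseRing A K₀)) →
  ∀ (m : ℕ), 0 < m → ¬ q ∣ m →
  ∀ f₀ : ↥(keyFq ↥K₀ (M * q)), f₀ ≠ 0 →
    ((f₀ : ↥(keyFq ↥K₀ (M * q))) : LaurentSeries ↥K₀).leadingCoeff = 1 →
    (∀ P : Place ↥K₀ ↥(legE ↥K₀ (M * q)), (m : ℤ) ∣ P.ord (fullToLegE ↥K₀ (M * q) f₀)) →
    (∃ (a : ↥K₀) (h : ↥(keyFq ↥K₀ M)), a ≠ 0 ∧ h ≠ 0 ∧
      normAlong (heckeAlphaBar ↥K₀ M q) f₀ = algebraMap ↥K₀ ↥(keyFq ↥K₀ M) a * h ^ m) →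
    (∃ (a : ↥K₀) (h : ↥(keyFq ↥K₀ M)), a ≠ 0 ∧ h ≠ 0 ∧
      normAlong (heckeBetaBar ↥K₀ M q) f₀ = algebraMap ↥K₀ ↥(keyFq ↥K₀ M) a * h ^ m) →
    ∃ u : ↥(legE ↥K₀ (M * q)), fullToLegE ↥K₀ (M * q) f₀ ^ c = u ^ m

/-- **the base statement of S36, Hesse host** (`q = 2`). -/
def HesInertBase : Prop :=
  ∀ (M : ℕ) [NeZero M] [NeZero (M * 2)], 2 ∣ M → ¬ 2 ^ 2 ∣ M →
  ∃ c : ℕ, c ≠ 0 ∧
  ∀ (A : ValuationSubring Ω), A.LiesOverPrime 2 →
  ∀ (K₀ : IntermediateField ℚ Ω), IsBase 2 K₀ →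
    K₀ ≤ IntermediateField.fixedField (A.inertiaSubgroupIn ℚ) →
    Irreducible ((2 : ℕ) : ↥(baseRing A K₀)) →
  ∀ (m : ℕ), 0 < m → ¬ 2 ∣ m →
  ∀ f₀ : ↥(keyFq ↥K₀ (M * 2)), f₀ ≠ 0 →
    ((f₀ : ↥(keyFq ↥K₀ (M * 2))) : LaurentSeries ↥K₀).leadingCoeff = 1 →
    (∀ P : Place ↥K₀ ↥(hesE ↥K₀ (M * 2)), (m : ℤ) ∣ P.ord (fullToHesE ↥K₀ (M * 2) f₀)) →
    (∃ (a : ↥K₀) (h : ↥(keyFq ↥K₀ M)), a ≠ 0 ∧ h ≠ 0 ∧
      normAlong (heckeAlphaBar ↥K₀ M 2) f₀ = algebraMap ↥K₀ ↥(keyFq ↥K₀ M) a * h ^ m) →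
    (∃ (a : ↥K₀) (h : ↥(keyFq ↥K₀ M)), a ≠ 0 ∧ h ≠ 0 ∧
      normAlong (heckeBetaBar ↥K₀ M 2) f₀ = algebraMap ↥K₀ ↥(keyFq ↥K₀ M) a * h ^ m) →
    ∃ u : ↥(hesE ↥K₀ (M * 2)), fullToHesE ↥K₀ (M * 2) f₀ ^ c = u ^ m

end Fermat.Agent.S36
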