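/-
# S36 [BASE36] layer 1 (helper4): the base statements at a generic unramified base `(R, K)`

`legInert_of_model` / `hesInert_of_model`: the conclusions of `LegInertBase` / `HesInertBase` at
level `M q q` (`q ∤ M`) from `base36_abs`, given the concrete model inputs as hypotheses: the sheet
family (helper7), the instantiation datum `Inst36Data` (helper9), the closed points `hpoints`
(helper3, POINTS36) and the cusp divisibility `hcusp` (CUSP36).
-/
import Mathlib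
import Fermat.Agent.S36.BASE36_helper4_Master
import Fermat.Agent.S36.BASE36_helper4_Hor
import Fermat.Agent.S36.CUSP36_helper4_Fam
import Fermat.Agent.S36.HOST36_helper7_Family
import Fermat.Agent.S36.INST36_helper9_Main
import Fermat.Agent.S36.NORMHOST36_helper8_Main
import Fermat.Agent.S36.T3_helper2_Iface
import Fermat.Agent.SS.FIELD_helper3_T

set_option autoImplicit false
set_option linter.unusedSectionVars false
set_option linter.unusedVariables false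
set_option linter.style.haveILetI false
set_option synthInstance.maxHeartbeats 200000

open Polynomial ModularCurve IntermediateField
open Fermat.Agent.Igusa Fermat.Agent.JA Fermat.Agent.SS Fermat.Agent.X0N
open Fermat.Agent.S35 AlgebraicCurve

open scoped Fermat.Agent.JA.Host

namespace Fermat.Agent.S36

noncomputable section

section Leg

variable (R : Type*) [CommRing R] [IsDomain R] [IsDiscreteValuationRing R] [CharZero R]
  [DecidableEq R]
  (K : Type*) [Field K] [Algebra R K] [IsFractionRing R K] [Algebra ℚ K] [Algebra K ℂ]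
  {M q : ℕ} [NeZero M] [NeZero q] [NeZero (M * q)] [NeZero (M * q * q)] {x y : ℤ}
  {π : R}

set_option maxHeartbeats 1600000 in
/-- Layer 1, Legendre. -/
theorem legInert_of_model [IsAlgClosed (IsLocalRing.ResidueField R)]
    (hπ : Irreducible π) (h2 : IsUnit (2 : R))
    (h : (q : ℤ) * x + M * y = 1) (hq : q.Prime) (hq2 : q ≠ 2)
    (hqπ : (q : R) ∈ Ideal.span {π})
    (W11 W02 : ValuationSubring ↥(legE K (M * q * q)))
    (hfam : haveI : FiniteDimensional ↥K⟮jqNModC K 2⟯ ↥(legE K (M * q * q)) :=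
        finite_legE_adjoin_j K (M * q * q)
      IsSheetFamily π (AdjoinSimple.gen K (jqNModC K 2))
        (IsThreeSheet.fam (legWinf R K h2 (M * q * q)) W11 W02))
    (NA NB : ↥(legE K (M * q * q)) →*₀ ↥(legE K (M * q)))
    (hNAdef : ∀ z, NA z = legNormA K (M * q) q z)
    (hNBdef : ∀ z, NB z = legNormB K (M * q) q hq hq2 z)
    {δ : ↥(legE K (M * q * q))} {u10 u01 : ↥(legE K (M * q))} {y20 y02 : ↥(legE K (M * q * q))}
    (D : Inst36Data (legHostA K (M * q) q : ↥(legE K (M * q)) →+* ↥(legE K (M * q * q)))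
      (legHostB K (M * q) q hq hq2 : ↥(legE K (M * q)) →+* ↥(legE K (M * q * q))) NA NB
      (algebraMap R K π) q (legWinf R K h2 (M * q)) (legW0 R K h hq)
      (legWinf R K h2 (M * q * q)) W11 W02 δ u10 u01 y20 y02)
    {m : ℕ} (hm : 0 < m) (hmq : Nat.Coprime m q) (hmR : IsUnit (m : R)) (ζ : R)
    (hζ : IsPrimitiveRoot ζ m)
    (f₀ : ↥(keyFq K (M * q * q))) (hf₀ : f₀ ≠ 0)
    (hlead : ((f₀ : ↥(keyFq K (M * q * q))) : LaurentSeries K).leadingCoeff = 1)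
    (hord : ∀ P : Place K ↥(legE K (M * q * q)),
      (m : ℤ) ∣ P.ord (fullToLegE K (M * q * q) f₀))
    (hNA : ∃ (a : K) (h : ↥(keyFq K (M * q))), a ≠ 0 ∧ h ≠ 0 ∧
      normAlong (heckeAlphaBar K (M * q) q) f₀ = algebraMap K ↥(keyFq K (M * q)) a * h ^ m)
    (hNB : ∃ (a : K) (h : ↥(keyFq K (M * q))), a ≠ 0 ∧ h ≠ 0 ∧
      normAlong (heckeBetaBar K (M * q) q) f₀ = algebraMap K ↥(keyFq K (M * q)) a * h ^ m)
    (hpoints : haveI : FiniteDimensional ↥K⟮jqNModC K 2⟯ ↥(legE K (M * q * q)) :=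
        finite_legE_adjoin_j K (M * q * q)
      ∀ (G₁ : ↥(legE K (M * q * q))) (lam : Fin 3 → ↥(legE K (M * q * q))) (ζ20 ζ11 : R),
      G₁ ≠ 0 → (∀ i, lam i ≠ 0) → ζ20 ^ m = 1 → ζ11 ^ m = 1 →
      (∀ i, (![legWinf R K h2 (M * q * q), W11, W02] i).valuation (G₁ / lam i ^ m - 1) < 1) →
      HorPow36 (K₁ := K) (AdjoinSimple.gen K (jqNModC K 2)) (ssModelLeg_j_adjoin K) π m G₁ →
      HorPow36 (K₁ := K) (AdjoinSimple.gen K (jqNModC K 2))⁻¹
        (adjoin_inv_eq_top (ssModelLeg_j_adjoin K)) π m G₁ →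
      ToricRel36 (R := R)
        (legHostA K (M * q) q : ↥(legE K (M * q)) →+* ↥(legE K (M * q * q)))
        (legHostB K (M * q) q hq hq2 : ↥(legE K (M * q)) →+* ↥(legE K (M * q * q)))
        NA.toMonoidHom NB.toMonoidHom (legWinf R K h2 (M * q * q)) W11 W02 (q - 1) m G₁
        (lam 0) (lam 1) (lam 2) ζ20 ζ11 →
      (∀ (𝔫 : Ideal ↥(chartOne R ↥(legE K (M * q * q)) (AdjoinSimple.gen K (jqNModC K 2))))
        (h𝔫 : 𝔫.IsMaximal), algebraMap R _ π ∈ 𝔫 →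
        @SheetDatumAt R _ ↥(legE K (M * q * q)) _ _
          (chartOne R ↥(legE K (M * q * q)) (AdjoinSimple.gen K (jqNModC K 2))) (Fin 3)
          (fun i => sheetIdeal (AdjoinSimple.gen K (jqNModC K 2))
            (![legWinf R K h2 (M * q * q), W11, W02] i) (hfam.chart_le i)) 𝔫 h𝔫.isPrime
          ![legWinf R K h2 (M * q * q), W11, W02] m (G₁ ^ ((q - 1) * (q - 1 + 2)))
          (fun i => algebraMap R ↥(legE K (M * q * q)) (![ζ20, ζ11, 1] i) *
            lam i ^ ((q - 1) * (q - 1 + 2)))) ∧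
      (∀ (𝔫 : Ideal ↥(chartOne R ↥(legE K (M * q * q)) (AdjoinSimple.gen K (jqNModC K 2))⁻¹))
        (h𝔫 : 𝔫.IsMaximal), algebraMap R _ π ∈ 𝔫 →
        @SheetDatumAt R _ ↥(legE K (M * q * q)) _ _
          (chartOne R ↥(legE K (M * q * q)) (AdjoinSimple.gen K (jqNModC K 2))⁻¹) (Fin 3)
          (fun i => sheetIdeal (AdjoinSimple.gen K (jqNModC K 2))⁻¹
            (![legWinf R K h2 (M * q * q), W11, W02] i) ((hfam.inv hπ).chart_le i)) 𝔫
          h𝔫.isPrime ![legWinf R K h2 (M * q * q), W11, W02] m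
          (G₁ ^ ((q - 1) * (q - 1 + 2)))
          (fun i => algebraMap R ↥(legE K (M * q * q)) (![ζ20, ζ11, 1] i) *
            lam i ^ ((q - 1) * (q - 1 + 2)))))
    (hcusp : ∀ G : ↥(legE K (M * q * q)), G ≠ 0 →
      (∀ v : (↥(legE K (M * q * q)))ˣ, (v : ↥(legE K (M * q * q))) = G →
        hostLc (legE K (M * q * q)) v = 1) →
      (haveI : FiniteDimensional ↥K⟮jqNModC K 2⟯ ↥(legE K (M * q * q)) :=
        finite_legE_adjoin_j K (M * q * q)
      HorPow36 (K₁ := K) (AdjoinSimple.gen K (jqNModC K 2))⁻¹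
        (adjoin_inv_eq_top (ssModelLeg_j_adjoin K)) π m G) →
      ∀ a : ℤ, (legWinf R K h2 (M * q * q)).valuation G =
        (legWinf R K h2 (M * q * q)).valuation
          (algebraMap K ↥(legE K (M * q * q)) (algebraMap R K π)) ^ a → (m : ℤ) ∣ a) :
    ∃ w : ↥(legE K (M * q * q)),
      fullToLegE K (M * q * q) f₀ ^ ((q ^ 2 - 1) * ((q - 1) * (q - 1 + 2))) = w ^ m := by
  haveI : FiniteDimensional ↥K⟮jqNModC K 2⟯ ↥(legE K (M * q * q)) :=
    finite_legE_adjoin_j K (M * q * q)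
  have hqM : ¬ q ∣ M := not_dvd_of_bezout h hq
  haveI : CharP (IsLocalRing.ResidueField R) q := charP_residueField_of_mem_span hπ hq hqπ
  have hchar : (q : IsLocalRing.ResidueField R) = 0 := CharP.cast_eq_zero _ q
  obtain ⟨a₁, h₁, ha₁, hh₁, hN₁⟩ := hNA
  obtain ⟨a₂, h₂, ha₂, hh₂, hN₂⟩ := hNB
  have hNAG : NA (fullToLegE K (M * q * q) f₀) =
      algebraMap K ↥(legE K (M * q)) a₁ * fullToLegE K (M * q) h₁ ^ m := by
    rw [hNAdef]
    exact normhost_legNormA_of_normAlong R K h2 hq hq2 (dvd_mul_left q M) hchar hN₁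
  have hNBG : NB (fullToLegE K (M * q * q) f₀) =
      algebraMap K ↥(legE K (M * q)) a₂ * fullToLegE K (M * q) h₂ ^ m := by
    rw [hNBdef]
    exact normhost_legNormB_of_normAlong R K h2 hq hq2 (dvd_mul_left q M) hchar hN₂
  have hG : fullToLegE K (M * q * q) f₀ ≠ 0 := (_root_.map_ne_zero _).2 hf₀
  have hlead' : ((fullToLegE K (M * q * q) f₀ : ↥(legE K (M * q * q))) :
      LaurentSeries K).leadingCoeff = 1 := by
    rw [coe_fullToLegE, leadingCoeff_qExpand, hlead]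
  have hhor₁ := horPow36_of_place (R := R) (K₁ := K) (K := ↥K⟮jqNModC K 2⟯)
    (F := ↥(legE K (M * q * q))) (AdjoinSimple.gen K (jqNModC K 2))
    (ssModelLeg_j_transcendental K) (ssModelLeg_j_adjoin K) hπ hG hord
  have hhor₂ := horPow36_of_place (R := R) (K₁ := K) (K := ↥K⟮jqNModC K 2⟯)
    (F := ↥(legE K (M * q * q))) (AdjoinSimple.gen K (jqNModC K 2))⁻¹
    (transcendental_inv_of_transcendental (ssModelLeg_j_transcendental K))
    (adjoin_inv_eq_top (ssModelLeg_j_adjoin K)) hπ hG hord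
  have hlcG := base36_lc_eq_one_of_leadingCoeff (legE K (M * q * q)) hlead'
  -- the order along `W20`
  obtain ⟨a, ha⟩ := D.hd20 _ hG
  obtain ⟨n₀, hn₀⟩ := hcusp _ hG hlcG hhor₂ a ha
  have hG20 : (legWinf R K h2 (M * q * q)).valuation (fullToLegE K (M * q * q) f₀) =
      (legWinf R K h2 (M * q * q)).valuation
        (algebraMap K ↥(legE K (M * q * q)) (algebraMap R K π)) ^ ((m : ℤ) * n₀) := by
    rw [ha, hn₀]
  have hR10 : ∀ r : R, algebraMap K ↥(legE K (M * q)) (algebraMap R K r) ∈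
      legWinf R K h2 (M * q) := by
    intro r
    rw [← IsScalarTower.algebraMap_apply R K ↥(legE K (M * q))]
    exact algebraMap_mem_legWinf R K h2 (M * q) r
  have hR01 : ∀ r : R, algebraMap K ↥(legE K (M * q)) (algebraMap R K r) ∈
      legW0 R K h hq := by
    intro r
    rw [← IsScalarTower.algebraMap_apply R K ↥(legE K (M * q))]
    exact algebraMap_mem_legW0 R K hπ h hq r
  obtain ⟨w, hw⟩ := base36_abs (R := R) (K₁ := K) (K := ↥K⟮jqNModC K 2⟯)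
    (F := ↥(legE K (M * q * q))) (E₁ := ↥(legE K (M * q)))
    (AdjoinSimple.gen K (jqNModC K 2)) (ssModelLeg_j_transcendental K) (ssModelLeg_j_adjoin K)
    π hπ hq hm hmq hmR ζ hζ (ssModelLeg_const K (M := M * q) (q := q))
    (hostLc (legE K (M * q * q))) (hostLc_algebraMap (legE K (M * q * q)))
    (legWinf R K h2 (M * q)) (legW0 R K h hq) (legWinf R K h2 (M * q * q)) W11 W02 hfam
    (legHostA K (M * q) q : ↥(legE K (M * q)) →+* ↥(legE K (M * q * q)))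
    (legHostB K (M * q) q hq hq2 : ↥(legE K (M * q)) →+* ↥(legE K (M * q * q)))
    (ssModelLeg_A_algebraMap R K) (ssModelLeg_B_algebraMap R K hq hq2) NA NB
    D.h20A D.h11A D.h02A D.h02B D.h11B D.h20B hR10 hR01 D.hπ10 D.hπ01 δ D.hδ0 D.hδ20 D.hπ11
    D.hd10 D.hd01 D.hd11 D.hd02 D.hTA10 D.hTA01 D.hTB10 D.hTB01 D.hNVrA D.hNBr D.hNViA D.hNViB
    D.hres20 D.hres11 D.hres02B D.hres11B D.hNAπ D.hNBπ hpoints
    (fullToLegE K (M * q * q) f₀) hG hlcG hhor₁ hhor₂ a₁ a₂ ha₁ ha₂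
    (fullToLegE K (M * q) h₁) (fullToLegE K (M * q) h₂)
    ((_root_.map_ne_zero _).2 hh₁) ((_root_.map_ne_zero _).2 hh₂) hNAG hNBG n₀ hG20
  exact ⟨w, by rw [pow_mul]; exact hw⟩

end Leg

section Hes

variable (R : Type*) [CommRing R] [IsDomain R] [IsDiscreteValuationRing R] [CharZero R]
  [DecidableEq R]
  (K : Type*) [Field K] [Algebra R K] [IsFractionRing R K] [Algebra ℚ K] [Algebra K ℂ]
  {M : ℕ} [NeZero M] [NeZero (M * 2)] [NeZero (M * 2 * 2)] {x y : ℤ}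
  {π : R}

set_option maxHeartbeats 1600000 in
/-- Layer 1, Hesse. -/
theorem hesInert_of_model [IsAlgClosed (IsLocalRing.ResidueField R)]
    (hπ : Irreducible π) (h3 : IsUnit (3 : R))
    (h : ((2 : ℕ) : ℤ) * x + M * y = 1)
    (hqπ : ((2 : ℕ) : R) ∈ Ideal.span {π})
    (W11 W02 : ValuationSubring ↥(hesE K (M * 2 * 2)))
    (hfam : haveI : FiniteDimensional ↥K⟮jqNModC K 3⟯ ↥(hesE K (M * 2 * 2)) :=
        finite_hesE_adjoin_j K (M * 2 * 2)
      IsSheetFamily π (AdjoinSimple.gen K (jqNModC K 3))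
        (IsThreeSheet.fam (hesWinf R K h3 (M * 2 * 2)) W11 W02))
    (NA NB : ↥(hesE K (M * 2 * 2)) →*₀ ↥(hesE K (M * 2)))
    (hNAdef : ∀ z, NA z = hesNormA K (M * 2) z)
    (hNBdef : ∀ z, NB z = hesNormB K (M * 2) z)
    {δ : ↥(hesE K (M * 2 * 2))} {u10 u01 : ↥(hesE K (M * 2))} {y20 y02 : ↥(hesE K (M * 2 * 2))}
    (D : Inst36Data (hesHostA K (M * 2) 2 : ↥(hesE K (M * 2)) →+* ↥(hesE K (M * 2 * 2)))
      (hesHostB K (M * 2) : ↥(hesE K (M * 2)) →+* ↥(hesE K (M * 2 * 2))) NA NB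
      (algebraMap R K π) 2 (hesWinf R K h3 (M * 2)) (hesW0 R K h Nat.prime_two)
      (hesWinf R K h3 (M * 2 * 2)) W11 W02 δ u10 u01 y20 y02)
    {m : ℕ} (hm : 0 < m) (hmq : Nat.Coprime m 2) (hmR : IsUnit (m : R)) (ζ : R)
    (hζ : IsPrimitiveRoot ζ m)
    (f₀ : ↥(keyFq K (M * 2 * 2))) (hf₀ : f₀ ≠ 0)
    (hlead : ((f₀ : ↥(keyFq K (M * 2 * 2))) : LaurentSeries K).leadingCoeff = 1)
    (hord : ∀ P : Place K ↥(hesE K (M * 2 * 2)),
      (m : ℤ) ∣ P.ord (fullToHesE K (M * 2 * 2) f₀))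
    (hNA : ∃ (a : K) (h : ↥(keyFq K (M * 2))), a ≠ 0 ∧ h ≠ 0 ∧
      normAlong (heckeAlphaBar K (M * 2) 2) f₀ = algebraMap K ↥(keyFq K (M * 2)) a * h ^ m)
    (hNB : ∃ (a : K) (h : ↥(keyFq K (M * 2))), a ≠ 0 ∧ h ≠ 0 ∧
      normAlong (heckeBetaBar K (M * 2) 2) f₀ = algebraMap K ↥(keyFq K (M * 2)) a * h ^ m)
    (hpoints : haveI : FiniteDimensional ↥K⟮jqNModC K 3⟯ ↥(hesE K (M * 2 * 2)) :=
        finite_hesE_adjoin_j K (M * 2 * 2)
      ∀ (G₁ : ↥(hesE K (M * 2 * 2))) (lam : Fin 3 → ↥(hesE K (M * 2 * 2))) (ζ20 ζ11 : R),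
      G₁ ≠ 0 → (∀ i, lam i ≠ 0) → ζ20 ^ m = 1 → ζ11 ^ m = 1 →
      (∀ i, (![hesWinf R K h3 (M * 2 * 2), W11, W02] i).valuation (G₁ / lam i ^ m - 1) < 1) →
      HorPow36 (K₁ := K) (AdjoinSimple.gen K (jqNModC K 3)) (ssModelHes_j_adjoin K) π m G₁ →
      HorPow36 (K₁ := K) (AdjoinSimple.gen K (jqNModC K 3))⁻¹
        (adjoin_inv_eq_top (ssModelHes_j_adjoin K)) π m G₁ →
      ToricRel36 (R := R)
        (hesHostA K (M * 2) 2 : ↥(hesE K (M * 2)) →+* ↥(hesE K (M * 2 * 2)))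
        (hesHostB K (M * 2) : ↥(hesE K (M * 2)) →+* ↥(hesE K (M * 2 * 2)))
        NA.toMonoidHom NB.toMonoidHom (hesWinf R K h3 (M * 2 * 2)) W11 W02 (2 - 1) m G₁
        (lam 0) (lam 1) (lam 2) ζ20 ζ11 →
      (∀ (𝔫 : Ideal ↥(chartOne R ↥(hesE K (M * 2 * 2)) (AdjoinSimple.gen K (jqNModC K 3))))
        (h𝔫 : 𝔫.IsMaximal), algebraMap R _ π ∈ 𝔫 →
        @SheetDatumAt R _ ↥(hesE K (M * 2 * 2)) _ _
          (chartOne R ↥(hesE K (M * 2 * 2)) (AdjoinSimple.gen K (jqNModC K 3))) (Fin 3)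
          (fun i => sheetIdeal (AdjoinSimple.gen K (jqNModC K 3))
            (![hesWinf R K h3 (M * 2 * 2), W11, W02] i) (hfam.chart_le i)) 𝔫 h𝔫.isPrime
          ![hesWinf R K h3 (M * 2 * 2), W11, W02] m (G₁ ^ ((2 - 1) * (2 - 1 + 2)))
          (fun i => algebraMap R ↥(hesE K (M * 2 * 2)) (![ζ20, ζ11, 1] i) *
            lam i ^ ((2 - 1) * (2 - 1 + 2)))) ∧
      (∀ (𝔫 : Ideal ↥(chartOne R ↥(hesE K (M * 2 * 2)) (AdjoinSimple.gen K (jqNModC K 3))⁻¹))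
        (h𝔫 : 𝔫.IsMaximal), algebraMap R _ π ∈ 𝔫 →
        @SheetDatumAt R _ ↥(hesE K (M * 2 * 2)) _ _
          (chartOne R ↥(hesE K (M * 2 * 2)) (AdjoinSimple.gen K (jqNModC K 3))⁻¹) (Fin 3)
          (fun i => sheetIdeal (AdjoinSimple.gen K (jqNModC K 3))⁻¹
            (![hesWinf R K h3 (M * 2 * 2), W11, W02] i) ((hfam.inv hπ).chart_le i)) 𝔫
          h𝔫.isPrime ![hesWinf R K h3 (M * 2 * 2), W11, W02] m
          (G₁ ^ ((2 - 1) * (2 - 1 + 2)))
          (fun i => algebraMap R ↥(hesE K (M * 2 * 2)) (![ζ20, ζ11, 1] i) *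
            lam i ^ ((2 - 1) * (2 - 1 + 2)))))
    (hcusp : ∀ G : ↥(hesE K (M * 2 * 2)), G ≠ 0 →
      (∀ v : (↥(hesE K (M * 2 * 2)))ˣ, (v : ↥(hesE K (M * 2 * 2))) = G →
        hostLc (hesE K (M * 2 * 2)) v = 1) →
      (haveI : FiniteDimensional ↥K⟮jqNModC K 3⟯ ↥(hesE K (M * 2 * 2)) :=
        finite_hesE_adjoin_j K (M * 2 * 2)
      HorPow36 (K₁ := K) (AdjoinSimple.gen K (jqNModC K 3))⁻¹
        (adjoin_inv_eq_top (ssModelHes_j_adjoin K)) π m G) →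
      ∀ a : ℤ, (hesWinf R K h3 (M * 2 * 2)).valuation G =
        (hesWinf R K h3 (M * 2 * 2)).valuation
          (algebraMap K ↥(hesE K (M * 2 * 2)) (algebraMap R K π)) ^ a → (m : ℤ) ∣ a) :
    ∃ w : ↥(hesE K (M * 2 * 2)),
      fullToHesE K (M * 2 * 2) f₀ ^ ((2 ^ 2 - 1) * ((2 - 1) * (2 - 1 + 2))) = w ^ m := by
  haveI : FiniteDimensional ↥K⟮jqNModC K 3⟯ ↥(hesE K (M * 2 * 2)) :=
    finite_hesE_adjoin_j K (M * 2 * 2)
  haveI : CharP (IsLocalRing.ResidueField R) 2 := charP_residueField_of_mem_span hπ Nat.prime_two hqπ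
  have hchar : ((2 : ℕ) : IsLocalRing.ResidueField R) = 0 := CharP.cast_eq_zero _ 2
  obtain ⟨a₁, h₁, ha₁, hh₁, hN₁⟩ := hNA
  obtain ⟨a₂, h₂, ha₂, hh₂, hN₂⟩ := hNB
  have hNAG : NA (fullToHesE K (M * 2 * 2) f₀) =
      algebraMap K ↥(hesE K (M * 2)) a₁ * fullToHesE K (M * 2) h₁ ^ m := by
    rw [hNAdef]
    exact normhost_hesNormA_of_normAlong R K h3 (dvd_mul_left 2 M) hchar hN₁
  have hNBG : NB (fullToHesE K (M * 2 * 2) f₀) =
      algebraMap K ↥(hesE K (M * 2)) a₂ * fullToHesE K (M * 2) h₂ ^ m := by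
    rw [hNBdef]
    exact normhost_hesNormB_of_normAlong R K h3 (dvd_mul_left 2 M) hchar hN₂
  have hG : fullToHesE K (M * 2 * 2) f₀ ≠ 0 := (_root_.map_ne_zero _).2 hf₀
  have hlead' : ((fullToHesE K (M * 2 * 2) f₀ : ↥(hesE K (M * 2 * 2))) :
      LaurentSeries K).leadingCoeff = 1 := by
    rw [coe_fullToHesE, leadingCoeff_qExpand, hlead]
  have hhor₁ := horPow36_of_place (R := R) (K₁ := K) (K := ↥K⟮jqNModC K 3⟯)
    (F := ↥(hesE K (M * 2 * 2))) (AdjoinSimple.gen K (jqNModC K 3))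
    (ssModelHes_j_transcendental K) (ssModelHes_j_adjoin K) hπ hG hord
  have hhor₂ := horPow36_of_place (R := R) (K₁ := K) (K := ↥K⟮jqNModC K 3⟯)
    (F := ↥(hesE K (M * 2 * 2))) (AdjoinSimple.gen K (jqNModC K 3))⁻¹
    (transcendental_inv_of_transcendental (ssModelHes_j_transcendental K))
    (adjoin_inv_eq_top (ssModelHes_j_adjoin K)) hπ hG hord
  have hlcG := base36_lc_eq_one_of_leadingCoeff (hesE K (M * 2 * 2)) hlead'
  -- the order along `W20`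
  obtain ⟨a, ha⟩ := D.hd20 _ hG
  obtain ⟨n₀, hn₀⟩ := hcusp _ hG hlcG hhor₂ a ha
  have hG20 : (hesWinf R K h3 (M * 2 * 2)).valuation (fullToHesE K (M * 2 * 2) f₀) =
      (hesWinf R K h3 (M * 2 * 2)).valuation
        (algebraMap K ↥(hesE K (M * 2 * 2)) (algebraMap R K π)) ^ ((m : ℤ) * n₀) := by
    rw [ha, hn₀]
  have hR10 : ∀ r : R, algebraMap K ↥(hesE K (M * 2)) (algebraMap R K r) ∈
      hesWinf R K h3 (M * 2) := by
    intro r
    rw [← IsScalarTower.algebraMap_apply R K ↥(hesE K (M * 2))]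
    exact algebraMap_mem_hesWinf R K h3 (M * 2) r
  have hR01 : ∀ r : R, algebraMap K ↥(hesE K (M * 2)) (algebraMap R K r) ∈
      hesW0 R K h Nat.prime_two := by
    intro r
    rw [← IsScalarTower.algebraMap_apply R K ↥(hesE K (M * 2))]
    exact algebraMap_mem_hesW0 R K hπ h r
  obtain ⟨w, hw⟩ := base36_abs (R := R) (K₁ := K) (K := ↥K⟮jqNModC K 3⟯)
    (F := ↥(hesE K (M * 2 * 2))) (E₁ := ↥(hesE K (M * 2)))
    (AdjoinSimple.gen K (jqNModC K 3)) (ssModelHes_j_transcendental K) (ssModelHes_j_adjoin K)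
    π hπ Nat.prime_two hm hmq hmR ζ hζ (ssModelHes_const K (M := M * 2))
    (hostLc (hesE K (M * 2 * 2))) (hostLc_algebraMap (hesE K (M * 2 * 2)))
    (hesWinf R K h3 (M * 2)) (hesW0 R K h Nat.prime_two) (hesWinf R K h3 (M * 2 * 2)) W11 W02 hfam
    (hesHostA K (M * 2) 2 : ↥(hesE K (M * 2)) →+* ↥(hesE K (M * 2 * 2)))
    (hesHostB K (M * 2) : ↥(hesE K (M * 2)) →+* ↥(hesE K (M * 2 * 2)))
    (ssModelHes_A_algebraMap R K) (ssModelHes_B_algebraMap R K) NA NB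
    D.h20A D.h11A D.h02A D.h02B D.h11B D.h20B hR10 hR01 D.hπ10 D.hπ01 δ D.hδ0 D.hδ20 D.hπ11
    D.hd10 D.hd01 D.hd11 D.hd02 D.hTA10 D.hTA01 D.hTB10 D.hTB01 D.hNVrA D.hNBr D.hNViA D.hNViB
    D.hres20 D.hres11 D.hres02B D.hres11B D.hNAπ D.hNBπ hpoints
    (fullToHesE K (M * 2 * 2) f₀) hG hlcG hhor₁ hhor₂ a₁ a₂ ha₁ ha₂
    (fullToHesE K (M * 2) h₁) (fullToHesE K (M * 2) h₂)
    ((_root_.map_ne_zero _).2 hh₁) ((_root_.map_ne_zero _).2 hh₂) hNAG hNBG n₀ hG20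
  exact ⟨w, by rw [pow_mul]; exact hw⟩

end Hes

end

end Fermat.Agent.S36
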