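/-
S36 [LOCAL36] — helper3 — **(G1): the local-equation criterion.**

`F / K₁(τ)` with a family of sheets `W` (`IsSheetFamily`), `𝔫` a closed point of the chart, `i₀` a
sheet through `𝔫`.  An element `z` of the chart which is a uniformizer of `W i₀`, a unit on the other
sheets through `𝔫`, and lies in no horizontal prime of height one through `𝔫`, generates the sheet
ideal `𝔭_{i₀}` locally at `𝔫` (local Hartogs).  This is the hypothesis `hgen` of
`ufd_localization_of_branch` / `exists_closed_datum_of_family`.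

* `exists_dvd_of_local_equation` : (G1);
* `exists_dvd_pi_of_single_sheet` : `z = π` at a point lying only on a sheet with `e = 1`.
-/
import Mathlib
import Fermat.Agent.S36.KUM36_helper3_Sheet

set_option autoImplicit false
set_option linter.unusedSectionVars false
set_option linter.style.haveILetI false

namespace Fermat.Agent.S36

open Fermat.Agent.JA Fermat.Agent.SS Polynomial

section Gen

variable {R : Type*} [CommRing R] [IsDomain R] [IsDiscreteValuationRing R] [CharZero R]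
  {K₁ : Type*} [Field K₁] [Algebra R K₁] [IsFractionRing R K₁]
  {K : Type*} [Field K] [Algebra K₁ K] [Algebra R K] [IsScalarTower R K₁ K]
  {F : Type*} [Field F] [Algebra K F] [Algebra R F] [IsScalarTower R K F] [FiniteDimensional K F]
  {π : R} {τ : K} {ι : Type*} {W : ι → ValuationSubring F}

/-- **(G1) the local-equation criterion.** -/
theorem exists_dvd_of_local_equation (fam : IsSheetFamily π τ W) (hπ : Irreducible π)
    (hτ : Transcendental K₁ τ) (hKτ : IntermediateField.adjoin K₁ {τ} = ⊤)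
    (𝔫 : Ideal ↥(chartOne R F τ)) [h𝔫 : 𝔫.IsPrime] (i₀ : ι) {z : ↥(chartOne R F τ)} (hz0 : z ≠ 0)
    (hzunif : ∀ x : F, (W i₀).valuation x < 1 → x * (z : F)⁻¹ ∈ W i₀)
    (hzother : ∀ j, j ≠ i₀ → sheetIdeal τ (W j) (fam.chart_le j) ≤ 𝔫 →
      (W j).valuation (z : F) = 1)
    (hzhor : ∀ 𝔮 : Ideal ↥(chartOne R F τ), 𝔮.IsPrime → 𝔮.height = 1 →
      algebraMap R ↥(chartOne R F τ) π ∉ 𝔮 → 𝔮 ≤ 𝔫 → z ∉ 𝔮) :
    ∀ w ∈ sheetIdeal τ (W i₀) (fam.chart_le i₀), ∃ s : ↥(chartOne R F τ), s ∉ 𝔫 ∧ z ∣ s * w := by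
  classical
  haveI : IsFractionRing ↥(chartOne R F τ) F := isFractionRing_chartOne (K₁ := K₁) τ hKτ
  haveI : IsIntegrallyClosed ↥(chartOne R F τ) := isIntegrallyClosed_chartOne (K₁ := K₁) τ hKτ
  haveI : IsNoetherianRing ↥(chartOne R F τ) := isNoetherianRing_chartOne (K₁ := K₁) τ hτ hKτ
  intro w hw
  have hzF : (z : F) ≠ 0 := fun h => hz0 (Subtype.ext h)
  have hx : (w : F) * (z : F)⁻¹ ∈ locRing (chartOne R F τ) 𝔫 := by
    refine mem_locRing_of_forall_height_one _ (fun 𝔮 h𝔮 hh hle => ?_)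
    haveI := h𝔮
    by_cases hπ𝔮 : algebraMap R ↥(chartOne R F τ) π ∈ 𝔮
    · obtain ⟨i, hi⟩ := fam.exists_eq_of_height_one hπ hτ hKτ 𝔮 hh hπ𝔮
      subst hi
      have hmem : (w : F) * (z : F)⁻¹ ∈ W i := by
        by_cases hii : i = i₀
        · subst hii
          exact hzunif _ ((mem_sheetIdeal_iff τ (W i) (fam.chart_le i) w).mp hw)
        · rw [← ValuationSubring.valuation_le_one_iff, map_mul, map_inv₀,
            hzother i hii hle, inv_one, mul_one]
          exact (ValuationSubring.valuation_le_one_iff _ _).mpr (fam.chart_le i _ w.2)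
      exact fam.exists_mul_eq_of_mem hπ hτ hKτ i _ hmem
    · refine ⟨w, z, hzhor 𝔮 h𝔮 hh hπ𝔮 hle, ?_⟩
      rw [mul_assoc, inv_mul_cancel₀ hzF, mul_one]
  obtain ⟨r, s, hs, hrs⟩ := hx
  refine ⟨s, hs, r, Subtype.ext ?_⟩
  show (s : F) * (w : F) = (z : F) * (r : F)
  rw [← hrs]
  field_simp

/-- **`π` is a local equation of an unramified sheet at a point lying on that sheet only.** -/
theorem exists_dvd_pi_of_single_sheet (fam : IsSheetFamily π τ W) (hπ : Irreducible π)
    (hτ : Transcendental K₁ τ) (hKτ : IntermediateField.adjoin K₁ {τ} = ⊤)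
    (𝔫 : Ideal ↥(chartOne R F τ)) [h𝔫 : 𝔫.IsPrime] (i₀ : ι)
    (he : ∀ x : F, (W i₀).valuation x < 1 → x * (algebraMap R F π)⁻¹ ∈ W i₀)
    (honly : ∀ j, sheetIdeal τ (W j) (fam.chart_le j) ≤ 𝔫 → j = i₀) :
    ∀ w ∈ sheetIdeal τ (W i₀) (fam.chart_le i₀), ∃ s : ↥(chartOne R F τ), s ∉ 𝔫 ∧
      algebraMap R ↥(chartOne R F τ) π ∣ s * w := by
  have hinjF : Function.Injective (algebraMap R F) := by
    rw [IsScalarTower.algebraMap_eq R K F, IsScalarTower.algebraMap_eq R K₁ K]
    exact (algebraMap K F).injective.comp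
      ((algebraMap K₁ K).injective.comp (IsFractionRing.injective R K₁))
  refine exists_dvd_of_local_equation fam hπ hτ hKτ 𝔫 i₀ ?_ he
    (fun j hj hle => absurd (honly j hle) hj) (fun 𝔮 _ _ hπ𝔮 _ => hπ𝔮)
  intro h0
  have h1 : algebraMap R F π = 0 := congrArg (fun b : ↥(chartOne R F τ) => (b : F)) h0
  exact hπ.ne_zero (hinjF (by rw [h1, map_zero]))

end Gen

end Fermat.Agent.S36
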