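/-
S36 [NODENORM] — helper5 — part 8: **(BR) the branch of a sheet at a point is the branch of the
sheet below at the image point**, when the residue fields of the two sheets coincide and the sheet
below is smooth at the image point.

* `exists_ucong_pow_of_notMem` : the DVR form of a branch uniformizer in the language of `UCong`;
* `branch_of_res` : `∀ x ∈ locRing B 𝔫, ∃ x' ∈ locRing B₁ 𝔫₁, W.valuation (x - ι x') < 1`
  (the hypotheses `hbrA`, `hbrB` of `toric36`).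
-/
import Mathlib
import Fermat.Agent.S36.TORIC36_helper5_Cong
import Fermat.Agent.SS.DVRFORM_helper1

set_option autoImplicit false
set_option linter.unusedSectionVars false
set_option linter.style.haveILetI false

namespace Fermat.Agent.S36

open Fermat.Agent.SS

section DvrForm

variable {R : Type*} [CommRing R] {E : Type*} [Field E] [Algebra R E] {B : Subalgebra R E}

/-- **DVR form**: an element of the chart outside the sheet ideal is, on the sheet, a unit of the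
local ring at `𝔪` times a power of the branch uniformizer. -/
theorem exists_ucong_pow_of_notMem [IsNoetherianRing ↥B] {W : ValuationSubring E}
    (hBW : ∀ b ∈ B, b ∈ W) {𝔭 : Ideal ↥B} [h𝔭p : 𝔭.IsPrime]
    (h𝔭 : ∀ b : ↥B, b ∈ 𝔭 ↔ W.valuation (b : E) < 1)
    {𝔪 : Ideal ↥B} [h𝔪 : 𝔪.IsMaximal] (hle : 𝔭 ≤ 𝔪) {z : ↥B} (hz : IsBranchUniformizer 𝔭 𝔪 z)
    (r : ↥B) (hr : r ∉ 𝔭) :
    ∃ (k : ℕ) (u : E), u ∈ locRing B 𝔪 ∧ u ∉ locMax B 𝔪 ∧ UCong W (r : E) (u * (z : E) ^ k) := by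
  haveI : 𝔪.IsPrime := h𝔪.isPrime
  obtain ⟨k, s, e, hs, he, hse⟩ := hz.exists_pow_mul_sub_mem hle r hr
  have hvs : W.valuation (s : E) = 1 := valuation_eq_one_of_notMem hBW h𝔭 (fun h => hs (hle h))
  have hvr : W.valuation (r : E) = 1 := valuation_eq_one_of_notMem hBW h𝔭 hr
  have hs0 : (s : E) ≠ 0 := fun h0 => by rw [h0, map_zero] at hvs; exact zero_ne_one hvs
  have hsM : (s : E) ∉ locMax B 𝔪 := fun h => hs ((coe_mem_locMax_iff s).mp h)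
  refine ⟨k, (e : E) * (s : E)⁻¹, ?_, ?_, hvr, ?_⟩
  · exact (locRing B 𝔪).mul_mem (coe_mem_locRing e) (inv_mem_locRing (coe_mem_locRing s) hsM)
  · intro h
    have h1 := mul_mem_locMax (B := B) (𝔪 := 𝔪) (coe_mem_locRing s) h
    have h2 : (s : E) * ((e : E) * (s : E)⁻¹) = (e : E) := by field_simp
    rw [h2] at h1
    exact he ((coe_mem_locMax_iff e).mp h1)
  · have h1 := (h𝔭 _).mp hse
    have h2 : ((s * r - e * z ^ k : ↥B) : E) =
        (s : E) * ((r : E) - (e : E) * (s : E)⁻¹ * (z : E) ^ k) := by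
      show (s : E) * (r : E) - (e : E) * (z : E) ^ k = _
      field_simp
    rw [h2, map_mul, hvs, one_mul] at h1
    exact h1

end DvrForm

section Branch

variable {R : Type*} [CommRing R] {E₁ E : Type*} [Field E₁] [Field E] [Algebra R E₁] [Algebra R E]
  (ι : E₁ →+* E) {B₁ : Subalgebra R E₁} {B : Subalgebra R E} (hB : ∀ b ∈ B₁, ι b ∈ B)
  {𝔫 : Ideal ↥B} [h𝔫 : 𝔫.IsPrime] {𝔫₁ : Ideal ↥B₁} [h𝔫₁m : 𝔫₁.IsMaximal]
  (h𝔫₁ : ∀ b : ↥B₁, b ∈ 𝔫₁ ↔ (⟨ι b, hB b b.2⟩ : ↥B) ∈ 𝔫)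

include h𝔫₁ in
/-- **(BR)**: the branch of the sheet `W` at `𝔫` is the branch of the sheet `W₁ = W.comap ι` at the
image point `𝔫₁`, if `W₁` is smooth at `𝔫₁` and `W`, `W₁` have the same residue field. -/
theorem branch_of_res [IsNoetherianRing ↥B₁] {W : ValuationSubring E} {W₁ : ValuationSubring E₁}
    (hc : W.comap ι = W₁) (hBW : ∀ b ∈ B, b ∈ W) {𝔭 : Ideal ↥B}
    (h𝔭 : ∀ b : ↥B, b ∈ 𝔭 ↔ W.valuation (b : E) < 1) (hle : 𝔭 ≤ 𝔫)
    (hB₁W₁ : ∀ b ∈ B₁, b ∈ W₁) {𝔭₁ : Ideal ↥B₁} [h𝔭₁p : 𝔭₁.IsPrime]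
    (h𝔭₁ : ∀ b : ↥B₁, b ∈ 𝔭₁ ↔ W₁.valuation (b : E₁) < 1) (hle₁ : 𝔭₁ ≤ 𝔫₁)
    (hloc₁ : ∀ x ∈ W₁, ∃ r s : ↥B₁, s ∉ 𝔭₁ ∧ x * (s : E₁) = (r : E₁))
    {z₁ : ↥B₁} (hz₁ : IsBranchUniformizer 𝔭₁ 𝔫₁ z₁)
    (hres : ∀ x ∈ W, ∃ a ∈ W₁, W.valuation (x - ι a) < 1) :
    ∀ x ∈ locRing B 𝔫, ∃ x' ∈ @locRing R _ E₁ _ _ B₁ 𝔫₁ h𝔫₁m.isPrime,
      W.valuation (x - ι x') < 1 := by
  haveI h𝔫₁p : 𝔫₁.IsPrime := h𝔫₁m.isPrime
  intro x hx
  have hvx : W.valuation x ≤ 1 := valuation_le_one_of_mem_locRing hBW h𝔭 hle hx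
  obtain ⟨a, haW₁, hxa⟩ := hres x ((ValuationSubring.valuation_le_one_iff _ _).mp hvx)
  have hva : W₁.valuation a ≤ 1 := (ValuationSubring.valuation_le_one_iff _ _).mpr haW₁
  rcases lt_or_eq_of_le hva with hlt | heq
  · -- `a` small: `x' = 0`
    refine ⟨0, (locRing B₁ 𝔫₁).zero_mem, ?_⟩
    rw [map_zero, sub_zero]
    have h1 : W.valuation (ι a) < 1 := (comap_valuation_lt_one_iff ι hc a).mpr hlt
    have : x = (x - ι a) + ι a := by ring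
    rw [this]
    exact lt_of_le_of_lt (Valuation.map_add _ _ _) (max_lt hxa h1)
  -- `a` a unit of `W₁`
  obtain ⟨r, s, hs, hrs⟩ := hloc₁ a haW₁
  have hvs : W₁.valuation (s : E₁) = 1 := valuation_eq_one_of_notMem hB₁W₁ h𝔭₁ hs
  have hr : r ∉ 𝔭₁ := by
    intro hr
    have h1 := (h𝔭₁ r).mp hr
    rw [← hrs, map_mul, heq, hvs, mul_one] at h1
    exact lt_irrefl _ h1
  have hs0 : (s : E₁) ≠ 0 := fun h0 => by rw [h0, map_zero] at hvs; exact zero_ne_one hvs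
  obtain ⟨k, u, hu, hu', hur⟩ := exists_ucong_pow_of_notMem hB₁W₁ h𝔭₁ hle₁ hz₁ r hr
  obtain ⟨k', u', hu₂, hu₂', hus⟩ := exists_ucong_pow_of_notMem hB₁W₁ h𝔭₁ hle₁ hz₁ s hs
  have ha : UCong W₁ a (u * (z₁ : E₁) ^ k / (u' * (z₁ : E₁) ^ k')) := by
    have h1 := hur.div hus
    have h2 : (r : E₁) / (s : E₁) = a := by rw [← hrs]; field_simp
    rwa [h2] at h1
  have hz0 : (z₁ : E₁) ≠ 0 := by
    intro h0
    apply hz₁.notMem
    have : z₁ = 0 := Subtype.ext h0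
    rw [this]; exact 𝔭₁.zero_mem
  have hu0 : u ≠ 0 := fun h0 => hu' (h0 ▸ zero_mem_locMax)
  have hu'0 : u' ≠ 0 := fun h0 => hu₂' (h0 ▸ zero_mem_locMax)
  have hxa' : UCong W (ι a) x := by
    refine UCong.of_sub_lt ?_ ?_ |>.symm
    · exact (comap_valuation_eq_one_iff ι hc a).mpr heq
    · exact hxa
  rcases le_or_gt k' k with hkk | hkk
  · -- regular case
    obtain ⟨j, rfl⟩ := Nat.exists_eq_add_of_le hkk
    refine ⟨u * u'⁻¹ * (z₁ : E₁) ^ j, ?_, ?_⟩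
    · exact (locRing B₁ 𝔫₁).mul_mem ((locRing B₁ 𝔫₁).mul_mem hu (inv_mem_locRing hu₂ hu₂'))
        (pow_mem (coe_mem_locRing z₁) j)
    · have h1 : u * (z₁ : E₁) ^ (k' + j) / (u' * (z₁ : E₁) ^ k') = u * u'⁻¹ * (z₁ : E₁) ^ j := by
        rw [pow_add]; field_simp
      rw [h1] at ha
      have h2 := (ucong_map_iff ι hc _ _).mpr ha
      exact (hxa'.symm.trans h2).2
  · -- impossible case: `a⁻¹` vanishes at `𝔫₁`
    exfalso
    obtain ⟨j, rfl⟩ := Nat.exists_eq_add_of_lt hkk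
    set y : E₁ := u' * u⁻¹ * (z₁ : E₁) ^ (j + 1) with hy
    have hyM : y ∈ locMax B₁ 𝔫₁ := by
      have h1 : (z₁ : E₁) ^ (j + 1) ∈ locMax B₁ 𝔫₁ := by
        rw [pow_succ]
        exact mul_mem_locMax (pow_mem (coe_mem_locRing z₁) j)
          ((coe_mem_locMax_iff z₁).mpr hz₁.mem)
      exact mul_mem_locMax ((locRing B₁ 𝔫₁).mul_mem hu₂ (inv_mem_locRing hu hu')) h1
    have hay : UCong W₁ a⁻¹ y := by
      have h1 := ha.inv
      have h2 : (u * (z₁ : E₁) ^ k / (u' * (z₁ : E₁) ^ (k + j + 1)))⁻¹ = y := by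
        rw [hy]; simp only [pow_add, pow_one]; field_simp
      rwa [h2] at h1
    have hιy : ι y ∈ locMax B 𝔫 := map_mem_locMax ι hB h𝔫₁ hyM
    have hxy : x * ι y ∈ locMax B 𝔫 := mul_mem_locMax hx hιy
    have h3 : UCong W (x * ι y) (ι a * ι a⁻¹) :=
      hxa'.symm.mul ((ucong_map_iff ι hc _ _).mpr hay).symm
    have ha0 : a ≠ 0 := fun h0 => by rw [h0, map_zero] at heq; exact zero_ne_one heq
    rw [← map_mul, mul_inv_cancel₀ ha0, map_one] at h3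
    have h4 : x * ι y - 1 ∈ locMax B 𝔫 :=
      mem_locMax_of_valuation_lt_one hBW h𝔭 hle
        ((locRing B 𝔫).sub_mem (locMax_subset_locRing hxy) (locRing B 𝔫).one_mem) h3.2
    have h5 := sub_mem_locMax hxy h4
    rw [sub_sub_cancel] at h5
    exact one_notMem_locMax (B := B) (𝔪 := 𝔫) h5

end Branch

end Fermat.Agent.S36
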