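/-
S36 [NODENORM] — helper5 — part 7: **the closed datum of a power.**

* `sheetDatumAt_pow_of_cross` : from a closed datum `γ` of `G` at `𝔫`, unit lifts `w i` of
  `lam i / γ` and the cross relations `z i · w i ^ n ≡ z j · w j ^ n` modulo `𝔫` (`z i` roots of
  unity of the base ring), the datum `SheetDatumAt` (helper3) for `G ^ n` with the sheet roots
  `z i · lam i ^ n`;
* `sheetDatumAt_fin3_of_toric` : the three-sheet form, consuming the conclusion of `toric36`.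
-/
import Mathlib
import Fermat.Agent.S36.TORIC36_helper5_Main
import Fermat.Agent.S36.KUM36_helper3_Sheet

set_option autoImplicit false
set_option linter.unusedSectionVars false
set_option linter.style.haveILetI false

namespace Fermat.Agent.S36

open Fermat.Agent.SS

section Datum

variable {R : Type*} [CommRing R] {E : Type*} [Field E] [Algebra R E] {B : Subalgebra R E}

/-- **the closed datum of a power**, from cross relations up to roots of unity. -/
theorem sheetDatumAt_pow_of_cross {ι : Type*} {𝔭 : ι → Ideal ↥B} {𝔫 : Ideal ↥B} [h𝔫 : 𝔫.IsPrime]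
    {W : ι → ValuationSubring E} (hBW : ∀ i, ∀ b ∈ B, b ∈ W i)
    (h𝔭 : ∀ i (b : ↥B), b ∈ 𝔭 i ↔ (W i).valuation (b : E) < 1)
    {m : ℕ} (hm : 0 < m) (n : ℕ) {G : E} {lam : ι → E} (z : ι → R) (hz : ∀ i, z i ^ m = 1)
    {γ : E} {c d : ↥B} (hγ : γ ≠ 0) (hc : c ∉ 𝔫) (hd : d ∉ 𝔫)
    (hGγ : G * (d : E) = γ ^ m * (c : E)) (w : ι → E)
    (hw : ∀ i, 𝔭 i ≤ 𝔫 → w i ∈ locRing B 𝔫 ∧ w i ∉ locMax B 𝔫 ∧
      (W i).valuation (lam i / γ - w i) < 1)
    (hcross : ∀ i j, 𝔭 i ≤ 𝔫 → 𝔭 j ≤ 𝔫 →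
      algebraMap R E (z i) * w i ^ n - algebraMap R E (z j) * w j ^ n ∈ locMax B 𝔫) :
    SheetDatumAt B 𝔭 𝔫 W m (G ^ n) (fun i => algebraMap R E (z i) * lam i ^ n) := by
  refine ⟨γ ^ n, fun i => algebraMap R E (z i) * w i ^ n, pow_ne_zero _ hγ,
    ⟨c ^ n, d ^ n, fun h => hc (h𝔫.mem_of_pow_mem _ h), fun h => hd (h𝔫.mem_of_pow_mem _ h), ?_⟩,
    ?_, hcross⟩
  · show G ^ n * ((d : E) ^ n) = (γ ^ n) ^ m * ((c : E) ^ n)
    rw [← mul_pow, hGγ]; ring
  · intro i hi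
    obtain ⟨hw1, hw2, hw3⟩ := hw i hi
    have hzloc : ∀ r : R, algebraMap R E r ∈ locRing B 𝔫 := fun r => (locRing B 𝔫).algebraMap_mem r
    refine ⟨(locRing B 𝔫).mul_mem (hzloc _) (pow_mem hw1 n), ?_, ?_⟩
    · intro hmem
      have hw0 : w i ≠ 0 := fun h0 => hw2 (h0 ▸ zero_mem_locMax)
      have h1 := mul_mem_locMax (B := B) (𝔪 := 𝔫)
        ((locRing B 𝔫).mul_mem (hzloc (z i ^ (m - 1))) (pow_mem (inv_mem_locRing hw1 hw2) n)) hmem
      have h2 : algebraMap R E (z i ^ (m - 1)) * (w i)⁻¹ ^ n * (algebraMap R E (z i) * w i ^ n) =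
          1 := by
        have h3 : algebraMap R E (z i ^ (m - 1)) * algebraMap R E (z i) = 1 := by
          rw [← map_mul, ← pow_succ, Nat.sub_add_cancel hm, hz i, map_one]
        have h4 : (w i)⁻¹ ^ n * w i ^ n = 1 := by
          rw [← mul_pow, inv_mul_cancel₀ hw0, one_pow]
        calc algebraMap R E (z i ^ (m - 1)) * (w i)⁻¹ ^ n * (algebraMap R E (z i) * w i ^ n)
            = (algebraMap R E (z i ^ (m - 1)) * algebraMap R E (z i)) *
                ((w i)⁻¹ ^ n * w i ^ n) := by ring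
          _ = 1 := by rw [h3, h4, one_mul]
      rw [h2] at h1
      exact one_notMem_locMax (B := B) (𝔪 := 𝔫) h1
    · have hvw : (W i).valuation (w i) ≤ 1 :=
        valuation_le_one_of_mem_locRing (hBW i) (h𝔭 i) hi hw1
      have hvl : (W i).valuation (lam i / γ) ≤ 1 := by
        have : lam i / γ = w i + (lam i / γ - w i) := by ring
        rw [this]
        exact le_trans (Valuation.map_add _ _ _) (max_le hvw hw3.le)
      have hpow := valuation_pow_sub_pow_lt_one (W i) hvl hvw hw3 n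
      have hvz : (W i).valuation (algebraMap R E (z i)) ≤ 1 :=
        (ValuationSubring.valuation_le_one_iff _ _).mpr (hBW i _ (B.algebraMap_mem (z i)))
      have : algebraMap R E (z i) * lam i ^ n / γ ^ n - algebraMap R E (z i) * w i ^ n =
          algebraMap R E (z i) * ((lam i / γ) ^ n - w i ^ n) := by
        rw [div_pow]; ring
      rw [this, map_mul]
      exact lt_of_le_of_lt (mul_le_of_le_one_left' hvz) hpow

/-- **the three-sheet closed datum from the conclusion of `toric36`** (`0 ↦ W20`, `1 ↦ W11`,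
`2 ↦ W02`). -/
theorem sheetDatumAt_fin3_of_toric {𝔭 : Fin 3 → Ideal ↥B} {𝔫 : Ideal ↥B} [h𝔫 : 𝔫.IsPrime]
    {W : Fin 3 → ValuationSubring E} (hBW : ∀ i, ∀ b ∈ B, b ∈ W i)
    (h𝔭 : ∀ i (b : ↥B), b ∈ 𝔭 i ↔ (W i).valuation (b : E) < 1)
    {m : ℕ} (hm : 0 < m) (n : ℕ) {G : E} {lam : Fin 3 → E} {ζ20 ζ11 : R}
    (h20 : ζ20 ^ m = 1) (h11 : ζ11 ^ m = 1)
    {γ : E} {c d : ↥B} (hγ : γ ≠ 0) (hc : c ∉ 𝔫) (hd : d ∉ 𝔫)
    (hGγ : G * (d : E) = γ ^ m * (c : E)) (w : Fin 3 → E)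
    (hw : ∀ i, 𝔭 i ≤ 𝔫 → w i ∈ locRing B 𝔫 ∧ w i ∉ locMax B 𝔫 ∧
      (W i).valuation (lam i / γ - w i) < 1)
    (r20 : algebraMap R E ζ20 * w 0 ^ n - w 2 ^ n ∈ locMax B 𝔫)
    (r11 : algebraMap R E ζ11 * w 1 ^ n - w 2 ^ n ∈ locMax B 𝔫) :
    SheetDatumAt B 𝔭 𝔫 W m (G ^ n) (fun i => algebraMap R E (![ζ20, ζ11, 1] i) * lam i ^ n) := by
  refine sheetDatumAt_pow_of_cross hBW h𝔭 hm n (fun i => ![ζ20, ζ11, 1] i) ?_ hγ hc hd hGγ w hw ?_
  · intro i
    fin_cases i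
    · simpa using h20
    · simpa using h11
    · simp
  · have key : ∀ i : Fin 3, algebraMap R E (![ζ20, ζ11, 1] i) * w i ^ n - w 2 ^ n ∈ locMax B 𝔫 := by
      intro i
      fin_cases i
      · simpa using r20
      · simpa using r11
      · simpa using (zero_mem_locMax (B := B) (𝔪 := 𝔫))
    intro i j _ _
    have := sub_mem_locMax (key i) (key j)
    have h1 : algebraMap R E (![ζ20, ζ11, 1] i) * w i ^ n - w 2 ^ n -
        (algebraMap R E (![ζ20, ζ11, 1] j) * w j ^ n - w 2 ^ n) =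
        algebraMap R E (![ζ20, ζ11, 1] i) * w i ^ n -
          algebraMap R E (![ζ20, ζ11, 1] j) * w j ^ n := by ring
    rwa [h1] at this

end Datum

end Fermat.Agent.S36
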