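/-
S36 [POINTS36] — helper3 — **(P2): the closed data `SheetDatumAt` at ALL closed points of the
three-sheet chart** (`hd₁` of `sheet_pow_of_model`).

Level `M'q`: `IsTwoSheet` + `IsModelChart` for the chart `j₁` of `E₁`; level `M'q²`: three sheets
`W : Fin 3 → _` (`0 ↦ W20`, `1 ↦ W11`, `2 ↦ W02`) on the chart `j₂` of `E`; `α β : E₁ → E`.

* single-sheet points: `π` is a local equation on `W20`, `W02` (`e = 1`), a given local equation on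
  `W11` (`hLE1`); branch uniformizers from level `M'q`; `sheetDatumAt_of_single_sheet`;
* three-sheet points (`three_sheet_classification_chart`): a given local equation of one sheet
  (`hLE3`, REG1), `exists_closed_datum_of_family`, `exists_branch_unit_of_datum`, and the conclusion
  of helper5's `toric36` (`htor`), whose per-point hypotheses (image nodes, (N-loc), (BR)) are
  discharged here.
-/
import Mathlib
import Fermat.Agent.S36.POINTS36_helper3_Chart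
import Fermat.Agent.S36.DATUM36_helper3
import Fermat.Agent.S36.LOCAL36_helper3_Gen
import Fermat.Agent.S36.TORIC36_helper5_Datum
import Fermat.Agent.S36.TORIC36_helper5_Branch

set_option autoImplicit false
set_option linter.unusedSectionVars false
set_option linter.style.haveILetI false

namespace Fermat.Agent.S36

open Fermat.Agent.SS Fermat.Agent.JA

section Datum

variable {R : Type*} [CommRing R] [IsDomain R] [IsDiscreteValuationRing R] [CharZero R]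
  {K₁ : Type*} [Field K₁] [Algebra R K₁] [IsFractionRing R K₁]
  {KN₁ : Type*} [Field KN₁] [Algebra K₁ KN₁] [Algebra R KN₁] [IsScalarTower R K₁ KN₁]
  {E₁ : Type*} [Field E₁] [Algebra KN₁ E₁] [Algebra R E₁] [IsScalarTower R KN₁ E₁]
  [FiniteDimensional KN₁ E₁]
  {KN₂ : Type*} [Field KN₂] [Algebra K₁ KN₂] [Algebra R KN₂] [IsScalarTower R K₁ KN₂]
  {E : Type*} [Field E] [Algebra KN₂ E] [Algebra R E] [IsScalarTower R KN₂ E]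
  [FiniteDimensional KN₂ E]
  {π : R} {j₁ : KN₁} {j₂ : KN₂} {W10 W01 : ValuationSubring E₁} {W : Fin 3 → ValuationSubring E}

/-- **the closed data at all closed points of the three-sheet chart.** -/
theorem sheetDatumAt_three_sheet_chart (hπ : Irreducible π)
    (hj₁ : Transcendental K₁ j₁) (hKj₁ : IntermediateField.adjoin K₁ {j₁} = ⊤)
    (hj₂ : Transcendental K₁ j₂) (hKj₂ : IntermediateField.adjoin K₁ {j₂} = ⊤)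
    (h2 : IsTwoSheet π j₁ W10 W01)
    (hmod : IsModelChart E₁ π (sheetIdeal j₁ W10 h2.chart_le_inf)
      (sheetIdeal j₁ W01 h2.chart_le_zero))
    (fam : IsSheetFamily π j₂ W) (α β : E₁ →+* E)
    (hαR : ∀ r : R, α (algebraMap R E₁ r) = algebraMap R E r)
    (hβR : ∀ r : R, β (algebraMap R E₁ r) = algebraMap R E r)
    (hαB : ∀ b ∈ chartOne R E₁ j₁, α b ∈ chartOne R E j₂)
    (hβB : ∀ b ∈ chartOne R E₁ j₁, β b ∈ chartOne R E j₂)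
    (hαint : (chartRestrictHom (B' := chartOne R E₁ j₁) (B := chartOne R E j₂) α hαB).IsIntegral)
    (hβint : (chartRestrictHom (B' := chartOne R E₁ j₁) (B := chartOne R E j₂) β hβB).IsIntegral)
    (hα0 : (W 0).comap α = W10) (hα1 : (W 1).comap α = W10) (hα2 : (W 2).comap α = W01)
    (hβ0 : (W 0).comap β = W10) (hβ1 : (W 1).comap β = W01) (hβ2 : (W 2).comap β = W01)
    {q : ℕ} (hq : 0 < q)
    (hinsα : ∀ x ∈ W 2, ∃ a ∈ W01, (W 2).valuation (x ^ q - α a) < 1)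
    (hinsβ : ∀ x ∈ W 0, ∃ a ∈ W10, (W 0).valuation (x ^ q - β a) < 1)
    (hresα0 : ∀ x ∈ W 0, ∃ a ∈ W10, (W 0).valuation (x - α a) < 1)
    (hresα1 : ∀ x ∈ W 1, ∃ a ∈ W10, (W 1).valuation (x - α a) < 1)
    (hresβ1 : ∀ x ∈ W 1, ∃ a ∈ W01, (W 1).valuation (x - β a) < 1)
    (hresβ2 : ∀ x ∈ W 2, ∃ a ∈ W01, (W 2).valuation (x - β a) < 1)
    (he0 : ∀ x : E, (W 0).valuation x < 1 → x * (algebraMap R E π)⁻¹ ∈ W 0)
    (he2 : ∀ x : E, (W 2).valuation x < 1 → x * (algebraMap R E π)⁻¹ ∈ W 2)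
    -- local equations: `W11`-only points, three-sheet points
    (hLE1 : ∀ (𝔫 : Ideal ↥(chartOne R E j₂)) (_ : 𝔫.IsMaximal),
      sheetIdeal j₂ (W 1) (fam.chart_le 1) ≤ 𝔫 →
      (∀ l, sheetIdeal j₂ (W l) (fam.chart_le l) ≤ 𝔫 → l = 1) →
      ∃ z : ↥(chartOne R E j₂), z ∈ sheetIdeal j₂ (W 1) (fam.chart_le 1) ∧ z ≠ 0 ∧
        ∀ w ∈ sheetIdeal j₂ (W 1) (fam.chart_le 1),
          ∃ s : ↥(chartOne R E j₂), s ∉ 𝔫 ∧ z ∣ s * w)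
    (hLE3 : ∀ (𝔫 : Ideal ↥(chartOne R E j₂)) (_ : 𝔫.IsMaximal),
      (∀ l, sheetIdeal j₂ (W l) (fam.chart_le l) ≤ 𝔫) →
      ∃ (l₁ : Fin 3) (z : ↥(chartOne R E j₂)), z ∈ sheetIdeal j₂ (W l₁) (fam.chart_le l₁) ∧
        z ≠ 0 ∧ ∀ w ∈ sheetIdeal j₂ (W l₁) (fam.chart_le l₁),
          ∃ s : ↥(chartOne R E j₂), s ∉ 𝔫 ∧ z ∣ s * w)
    -- the function
    {m : ℕ} (hm : 0 < m) {G : E} (hG : G ≠ 0) {lam : Fin 3 → E} (hlam : ∀ l, lam l ≠ 0)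
    (hGW : ∀ l, (W l).valuation (G / lam l ^ m - 1) < 1)
    (hhor : haveI : IsFractionRing ↥(chartOne R E j₂) E := isFractionRing_chartOne (K₁ := K₁) j₂ hKj₂
      ∀ (𝔫 : Ideal ↥(chartOne R E j₂)), 𝔫.IsMaximal →
      ∀ 𝔮 : Ideal ↥(chartOne R E j₂), 𝔮.IsPrime → 𝔮.height = 1 →
      algebraMap R ↥(chartOne R E j₂) π ∉ 𝔮 → 𝔮 ≤ 𝔫 →
      ∃ γ : E, γ ≠ 0 ∧ IsUnitAtPrime 𝔮 (G * (γ ^ m)⁻¹))
    -- the norms and the toric relation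
    (NA NB : E →* E₁)
    (hNlocA : ∀ (𝔫 : Ideal ↥(chartOne R E j₂)) [𝔫.IsPrime]
      (𝔫₁ : Ideal ↥(chartOne R E₁ j₁)) [h𝔫₁ : 𝔫₁.IsMaximal],
      (∀ b : ↥(chartOne R E₁ j₁), b ∈ 𝔫₁ ↔
        (⟨α b, hαB b b.2⟩ : ↥(chartOne R E j₂)) ∈ 𝔫) →
      (∀ Q : Ideal ↥(chartOne R E j₂), Q.IsPrime → (∀ b : ↥(chartOne R E₁ j₁), b ∈ 𝔫₁ ↔
        (⟨α b, hαB b b.2⟩ : ↥(chartOne R E j₂)) ∈ Q) → Q ≤ 𝔫) →
      ∀ x ∈ locRing (chartOne R E j₂) 𝔫,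
        NA x ∈ @locRing R _ E₁ _ _ (chartOne R E₁ j₁) 𝔫₁ h𝔫₁.isPrime)
    (hNlocB : ∀ (𝔫 : Ideal ↥(chartOne R E j₂)) [𝔫.IsPrime]
      (𝔫₁ : Ideal ↥(chartOne R E₁ j₁)) [h𝔫₁ : 𝔫₁.IsMaximal],
      (∀ b : ↥(chartOne R E₁ j₁), b ∈ 𝔫₁ ↔
        (⟨β b, hβB b b.2⟩ : ↥(chartOne R E j₂)) ∈ 𝔫) →
      (∀ Q : Ideal ↥(chartOne R E j₂), Q.IsPrime → (∀ b : ↥(chartOne R E₁ j₁), b ∈ 𝔫₁ ↔
        (⟨β b, hβB b b.2⟩ : ↥(chartOne R E j₂)) ∈ Q) → Q ≤ 𝔫) →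
      ∀ x ∈ locRing (chartOne R E j₂) 𝔫,
        NB x ∈ @locRing R _ E₁ _ _ (chartOne R E₁ j₁) 𝔫₁ h𝔫₁.isPrime)
    {ζ20 ζ11 : R} (h20 : ζ20 ^ m = 1) (h11 : ζ11 ^ m = 1) {n : ℕ}
    (htor : ∀ (B : Subalgebra R E) (𝔫 : Ideal ↥B) [𝔫.IsPrime]
        (B₁A : Subalgebra R E₁) (𝔫₁A : Ideal ↥B₁A) [h𝔫₁A : 𝔫₁A.IsMaximal]
        (hBA : ∀ b ∈ B₁A, α b ∈ B)
        (_ : ∀ b : ↥B₁A, b ∈ 𝔫₁A ↔ (⟨α b, hBA b b.2⟩ : ↥B) ∈ 𝔫)
        (B₁B : Subalgebra R E₁) (𝔫₁B : Ideal ↥B₁B) [h𝔫₁B : 𝔫₁B.IsMaximal]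
        (hBB : ∀ b ∈ B₁B, β b ∈ B)
        (_ : ∀ b : ↥B₁B, b ∈ 𝔫₁B ↔ (⟨β b, hBB b b.2⟩ : ↥B) ∈ 𝔫)
        (_ : ∀ e : E₁, IsIntegral ↥B₁A e → e ∈ B₁A) (_ : ∀ e : E₁, IsIntegral ↥B₁B e → e ∈ B₁B)
        (_ : ∀ x ∈ locRing B 𝔫, NA x ∈ @locRing R _ E₁ _ _ B₁A 𝔫₁A h𝔫₁A.isPrime)
        (_ : ∀ x ∈ locRing B 𝔫, NB x ∈ @locRing R _ E₁ _ _ B₁B 𝔫₁B h𝔫₁B.isPrime)
        (_ : ∀ x ∈ locRing B 𝔫, ∃ x' ∈ @locRing R _ E₁ _ _ B₁A 𝔫₁A h𝔫₁A.isPrime,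
          (W 1).valuation (x - α x') < 1)
        (_ : ∀ x ∈ locRing B 𝔫, ∃ x' ∈ @locRing R _ E₁ _ _ B₁B 𝔫₁B h𝔫₁B.isPrime,
          (W 1).valuation (x - β x') < 1)
        (_ : ∀ b ∈ B, b ∈ W 0) (_ : ∀ b ∈ B, b ∈ W 1) (_ : ∀ b ∈ B, b ∈ W 2)
        (𝔭20 𝔭11 𝔭02 : Ideal ↥B)
        (_ : ∀ b : ↥B, b ∈ 𝔭20 ↔ (W 0).valuation (b : E) < 1)
        (_ : ∀ b : ↥B, b ∈ 𝔭11 ↔ (W 1).valuation (b : E) < 1)
        (_ : ∀ b : ↥B, b ∈ 𝔭02 ↔ (W 2).valuation (b : E) < 1)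
        (_ : 𝔭20 ≤ 𝔫) (_ : 𝔭11 ≤ 𝔫) (_ : 𝔭02 ≤ 𝔫)
        (γ : E) (c d : ↥B) (_ : γ ≠ 0) (_ : c ∉ 𝔫) (_ : d ∉ 𝔫)
        (_ : G * (d : E) = γ ^ m * (c : E))
        (w20 w11 w02 : E) (_ : w20 ∈ locRing B 𝔫) (_ : w11 ∈ locRing B 𝔫)
        (_ : w02 ∈ locRing B 𝔫) (_ : w11 ∉ locMax B 𝔫) (_ : w02 ∉ locMax B 𝔫)
        (_ : (W 0).valuation (lam 0 / γ - w20) < 1) (_ : (W 1).valuation (lam 1 / γ - w11) < 1)
        (_ : (W 2).valuation (lam 2 / γ - w02) < 1),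
        algebraMap R E ζ20 * w20 ^ n - w02 ^ n ∈ locMax B 𝔫 ∧
        algebraMap R E ζ11 * w11 ^ n - w02 ^ n ∈ locMax B 𝔫)
    (𝔫 : Ideal ↥(chartOne R E j₂)) (h𝔫 : 𝔫.IsMaximal)
    (hπ𝔫 : algebraMap R ↥(chartOne R E j₂) π ∈ 𝔫) :
    @SheetDatumAt R _ E _ _ (chartOne R E j₂) (Fin 3)
      (fun l => sheetIdeal j₂ (W l) (fam.chart_le l)) 𝔫 h𝔫.isPrime W m (G ^ n)
      (fun l => algebraMap R E (![ζ20, ζ11, 1] l) * lam l ^ n) := by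
  classical
  haveI := h𝔫
  haveI h𝔫p : 𝔫.IsPrime := h𝔫.isPrime
  haveI : IsFractionRing ↥(chartOne R E j₂) E := isFractionRing_chartOne (K₁ := K₁) j₂ hKj₂
  haveI : IsNoetherianRing ↥(chartOne R E₁ j₁) := isNoetherianRing_chartOne (K₁ := K₁) j₁ hj₁ hKj₁
  have hz3 : ∀ i : Fin 3, (![ζ20, ζ11, 1] i) ^ m = 1 := by
    intro i
    fin_cases i
    · simpa using h20
    · simpa using h11
    · simp
  -- branch uniformizers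
  have hbr := fun (l : Fin 3) (hle : sheetIdeal j₂ (W l) (fam.chart_le l) ≤ 𝔫) =>
    exists_isBranchUniformizer_three hπ hj₁ hKj₁ h2 hmod fam α β hαB hβB hαint hβint hα0 hα1 hβ2
      hresα0 hresα1 hresβ2 𝔫 l hle
  obtain ⟨l₀, hl₀⟩ := fam.exists_sheet_le_of_mem hπ hj₂ hKj₂ 𝔫 hπ𝔫
  by_cases honly : ∀ l, sheetIdeal j₂ (W l) (fam.chart_le l) ≤ 𝔫 → l = l₀
  · -- a point on one sheet only
    obtain ⟨u, hu⟩ := hbr l₀ hl₀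
    have hLE : ∃ z : ↥(chartOne R E j₂), z ∈ sheetIdeal j₂ (W l₀) (fam.chart_le l₀) ∧ z ≠ 0 ∧
        ∀ w ∈ sheetIdeal j₂ (W l₀) (fam.chart_le l₀),
          ∃ s : ↥(chartOne R E j₂), s ∉ 𝔫 ∧ z ∣ s * w := by
      have hπ0 : algebraMap R ↥(chartOne R E j₂) π ≠ 0 := by
        intro h0
        have h1 : algebraMap R E π = 0 :=
          congrArg (fun b : ↥(chartOne R E j₂) => (b : E)) h0
        exact algebraMap_pi_ne_zero (K₁ := K₁) (K := KN₂) hπ h1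
      have hpi : ∀ l, algebraMap R ↥(chartOne R E j₂) π ∈ sheetIdeal j₂ (W l) (fam.chart_le l) :=
        fun l => sinfemb_pi_mem_sheetIdeal (fam.gauss l)
      fin_cases l₀
      · exact ⟨_, hpi 0, hπ0, exists_dvd_pi_of_single_sheet fam hπ hj₂ hKj₂ 𝔫 0 he0 honly⟩
      · exact hLE1 𝔫 h𝔫 hl₀ honly
      · exact ⟨_, hpi 2, hπ0, exists_dvd_pi_of_single_sheet fam hπ hj₂ hKj₂ 𝔫 2 he2 honly⟩
    obtain ⟨z, hz, hz0, hgen⟩ := hLE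
    obtain ⟨Γ, w, hΓ, ⟨c, d, hc, hd, hcd⟩, hw, -⟩ :=
      sheetDatumAt_of_single_sheet fam hπ hj₂ hKj₂ 𝔫 l₀ hl₀ honly hz hz0 hgen hu hm.ne' hG hlam
        (hGW l₀) (hhor 𝔫 h𝔫)
    refine sheetDatumAt_pow_of_cross (fun l => fam.chart_le l)
      (fun l b => mem_sheetIdeal_iff j₂ (W l) (fam.chart_le l) b) hm n
      (fun i => ![ζ20, ζ11, 1] i) hz3 hΓ hc hd hcd w hw ?_
    intro i k hi hk
    rw [honly i hi, honly k hk, sub_self]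
    exact zero_mem_locMax
  · -- a point on at least two sheets: all three
    push Not at honly
    obtain ⟨l, hl, hll₀⟩ := honly
    obtain ⟨hall, ⟨hA10, hA01⟩, ⟨hB10, hB01⟩, hUA, hUB⟩ :=
      three_sheet_classification_chart hπ hj₁ hKj₁ hj₂ hKj₂ h2 hmod fam α β hαR hβR hαB hβB
        hαint hβint hα0 hα1 hα2 hβ0 hβ1 hβ2 hq hinsα hinsβ 𝔫 hll₀ hl hl₀
    set ψα := chartRestrictHom (B' := chartOne R E₁ j₁) (B := chartOne R E j₂) α hαB with hψα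
    set ψβ := chartRestrictHom (B' := chartOne R E₁ j₁) (B := chartOne R E j₂) β hβB with hψβ
    haveI hmα : (𝔫.comap ψα).IsMaximal :=
      Ideal.isMaximal_comap_of_isIntegral_of_isMaximal' ψα hαint 𝔫
    haveI hmβ : (𝔫.comap ψβ).IsMaximal :=
      Ideal.isMaximal_comap_of_isIntegral_of_isMaximal' ψβ hβint 𝔫
    -- the closed datum
    obtain ⟨l₁, z, hz, hz0, hgen⟩ := hLE3 𝔫 h𝔫 hall
    obtain ⟨u₁, hu₁⟩ := hbr l₁ (hall l₁)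
    obtain ⟨Γ, hΓ, hdat⟩ := exists_closed_datum_of_family fam hπ hj₂ hKj₂ 𝔫 l₁ (hall l₁) hz hz0
      hgen hu₁ hG hlam (fun i _ => hGW i) (hhor 𝔫 h𝔫)
    -- the branch units
    have hwex : ∀ i : Fin 3, ∃ w ∈ locRing (chartOne R E j₂) 𝔫, w ∉ locMax (chartOne R E j₂) 𝔫 ∧
        (W i).valuation (lam i / Γ - w) < 1 := by
      intro i
      obtain ⟨u, hu⟩ := hbr i (hall i)
      exact exists_branch_unit_of_datum fam hπ hj₂ hKj₂ 𝔫 i (hall i) hu hm.ne' (hlam i) hΓ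
        (hGW i) hdat
    choose w hw1 hw2 hw3 using hwex
    obtain ⟨c, d, hc, hd, hcd⟩ := hdat
    -- the nodes of level `M'q`
    obtain ⟨xA, yA, hxA, -, hyA, -, -⟩ := hmod.node _ hmα hA10 hA01
    obtain ⟨xB, yB, hxB, -, hyB, -, -⟩ := hmod.node _ hmβ hB10 hB01
    have hic : ∀ e : E₁, IsIntegral ↥(chartOne R E₁ j₁) e → e ∈ chartOne R E₁ j₁ :=
      fun e he => sinfemb_mem_chartOne_of_isIntegral j₁ he
    have huA : ∀ Q : Ideal ↥(chartOne R E j₂), Q.IsPrime →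
        (∀ b : ↥(chartOne R E₁ j₁), b ∈ 𝔫.comap ψα ↔
          (⟨α b, hαB b b.2⟩ : ↥(chartOne R E j₂)) ∈ Q) → Q ≤ 𝔫 := by
      intro Q hQ hQi
      refine le_of_eq (hUA Q hQ (Ideal.ext (fun b => ?_)))
      rw [hQi b]
      rfl
    have huB : ∀ Q : Ideal ↥(chartOne R E j₂), Q.IsPrime →
        (∀ b : ↥(chartOne R E₁ j₁), b ∈ 𝔫.comap ψβ ↔
          (⟨β b, hβB b b.2⟩ : ↥(chartOne R E j₂)) ∈ Q) → Q ≤ 𝔫 := by
      intro Q hQ hQi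
      refine le_of_eq (hUB Q hQ (Ideal.ext (fun b => ?_)))
      rw [hQi b]
      rfl
    -- (BR)
    have hbrA := branch_of_res α hαB (𝔫 := 𝔫) (𝔫₁ := 𝔫.comap ψα) (fun b => Iff.rfl) hα1
      (fam.chart_le 1) (mem_sheetIdeal_iff j₂ (W 1) (fam.chart_le 1)) (hall 1) h2.chart_le_inf
      (mem_sheetIdeal_iff j₁ W10 h2.chart_le_inf) hA10 (h2.exists_mul_eq_of_mem_inf hπ hj₁ hKj₁)
      hxA hresα1
    have hbrB := branch_of_res β hβB (𝔫 := 𝔫) (𝔫₁ := 𝔫.comap ψβ) (fun b => Iff.rfl) hβ1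
      (fam.chart_le 1) (mem_sheetIdeal_iff j₂ (W 1) (fam.chart_le 1)) (hall 1) h2.chart_le_zero
      (mem_sheetIdeal_iff j₁ W01 h2.chart_le_zero) hB01 (h2.exists_mul_eq_of_mem_zero hπ hj₁ hKj₁)
      hyB hresβ1
    obtain ⟨r20, r11⟩ := htor (chartOne R E j₂) 𝔫 (chartOne R E₁ j₁) (𝔫.comap ψα) hαB
      (fun b => Iff.rfl) (chartOne R E₁ j₁) (𝔫.comap ψβ) hβB (fun b => Iff.rfl) hic hic
      (hNlocA 𝔫 (𝔫.comap ψα) (fun b => Iff.rfl) huA)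
      (hNlocB 𝔫 (𝔫.comap ψβ) (fun b => Iff.rfl) huB) hbrA hbrB
      (fam.chart_le 0) (fam.chart_le 1) (fam.chart_le 2) _ _ _
      (mem_sheetIdeal_iff j₂ (W 0) (fam.chart_le 0)) (mem_sheetIdeal_iff j₂ (W 1) (fam.chart_le 1))
      (mem_sheetIdeal_iff j₂ (W 2) (fam.chart_le 2)) (hall 0) (hall 1) (hall 2)
      Γ c d hΓ hc hd hcd (w 0) (w 1) (w 2) (hw1 0) (hw1 1) (hw1 2) (hw2 1) (hw2 2)
      (hw3 0) (hw3 1) (hw3 2)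
    exact sheetDatumAt_fin3_of_toric (fun l => fam.chart_le l)
      (fun l b => mem_sheetIdeal_iff j₂ (W l) (fam.chart_le l) b) hm n h20 h11 hΓ hc hd hcd w
      (fun i _ => ⟨hw1 i, hw2 i, hw3 i⟩) r20 r11

end Datum

end Fermat.Agent.S36
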