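/-
S36 [POINTS36] — helper3 — **(P3): the closed data on the chart `j⁻¹`.**

* `sheetDatumAt_of_locRing_eq` : `SheetDatumAt` only depends on the local ring of the closed point;
* `sheetDatumAt_chart_inv_of_notMem` : the closed data at the non-cuspidal closed points of the
  chart `j⁻¹` from the closed data on the chart `j`;
* `sheetDatumAt_pow_of_single_sheet` : the closed datum of `(G ^ n, ζ_l λ_l ^ n)` at a closed point
  on a single sheet, from a local equation and a branch uniformizer;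
* `sheetDatumAt_chart_inv` : the closed data at ALL closed points of the chart `j⁻¹` (`hd₂` of
  `sheet_pow_of_model`), from the chart `j` and the single-sheet structure at the cusps.
-/
import Mathlib
import Fermat.Agent.S36.POINTS36_helper3_Datum
import Fermat.Agent.SS.XFER_helper3

set_option autoImplicit false
set_option linter.unusedSectionVars false
set_option linter.style.haveILetI false

namespace Fermat.Agent.S36

open Fermat.Agent.SS Fermat.Agent.JA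

section Abs

variable {R : Type*} [CommRing R] {E : Type*} [Field E] [Algebra R E]

/-- an element of the local ring outside the maximal ideal is a quotient of two elements of the
chart outside the point. -/
theorem exists_unit_frac_of_notMem_locMax {B : Subalgebra R E} {𝔪 : Ideal ↥B} [h𝔪 : 𝔪.IsPrime]
    {e : E} (he : e ∈ locRing B 𝔪) (he' : e ∉ locMax B 𝔪) :
    ∃ r s : ↥B, r ∉ 𝔪 ∧ s ∉ 𝔪 ∧ e * (s : E) = (r : E) := by
  obtain ⟨r, s, hs, hrs⟩ := he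
  exact ⟨r, s, fun hr => he' ⟨r, s, hr, hs, hrs⟩, hs, hrs⟩

/-- **`SheetDatumAt` only depends on the local ring of the closed point.** -/
theorem sheetDatumAt_of_locRing_eq {B₁ B₂ : Subalgebra R E} {ι : Type*}
    {𝔭₁ : ι → Ideal ↥B₁} {𝔭₂ : ι → Ideal ↥B₂}
    {𝔪₁ : Ideal ↥B₁} [h𝔪₁ : 𝔪₁.IsPrime] {𝔪₂ : Ideal ↥B₂} [h𝔪₂ : 𝔪₂.IsPrime]
    (hL : locRing B₁ 𝔪₁ = locRing B₂ 𝔪₂) (hM : locMax B₁ 𝔪₁ = locMax B₂ 𝔪₂)
    {W : ι → ValuationSubring E} (hB₁W : ∀ i, ∀ b ∈ B₁, b ∈ W i) (hB₂W : ∀ i, ∀ b ∈ B₂, b ∈ W i)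
    (h𝔭₁ : ∀ i (b : ↥B₁), b ∈ 𝔭₁ i ↔ (W i).valuation (b : E) < 1)
    (h𝔭₂ : ∀ i (b : ↥B₂), b ∈ 𝔭₂ i ↔ (W i).valuation (b : E) < 1)
    {m : ℕ} {G : E} {lam : ι → E}
    (h : SheetDatumAt B₁ 𝔭₁ 𝔪₁ W m G lam) : SheetDatumAt B₂ 𝔭₂ 𝔪₂ W m G lam := by
  obtain ⟨Γ, w, hΓ, ⟨c, d, hc, hd, hcd⟩, hw, hcross⟩ := h
  have hiff : ∀ i, 𝔭₁ i ≤ 𝔪₁ ↔ 𝔭₂ i ≤ 𝔪₂ := fun i => by
    rw [sheet_le_iff (hB₁W i) (h𝔭₁ i), sheet_le_iff (hB₂W i) (h𝔭₂ i), hL, hM]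
  refine ⟨Γ, w, hΓ, ?_, fun i hi => ?_, fun i j hi hj => ?_⟩
  · -- `c`, `d` are units of the common local ring
    have hcL : (c : E) ∈ locRing B₂ 𝔪₂ := hL ▸ coe_mem_locRing c
    have hcM : (c : E) ∉ locMax B₂ 𝔪₂ := by
      rw [← hM, coe_mem_locMax_iff]; exact hc
    have hdL : (d : E) ∈ locRing B₂ 𝔪₂ := hL ▸ coe_mem_locRing d
    have hdM : (d : E) ∉ locMax B₂ 𝔪₂ := by
      rw [← hM, coe_mem_locMax_iff]; exact hd
    obtain ⟨c₂, s₂, hc₂, hs₂, hcs⟩ := exists_unit_frac_of_notMem_locMax hcL hcM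
    obtain ⟨d₂, t₂, hd₂, ht₂, hdt⟩ := exists_unit_frac_of_notMem_locMax hdL hdM
    refine ⟨c₂ * t₂, d₂ * s₂, fun hmem => ?_, fun hmem => ?_, ?_⟩
    · rcases h𝔪₂.mem_or_mem hmem with h | h
      · exact hc₂ h
      · exact ht₂ h
    · rcases h𝔪₂.mem_or_mem hmem with h | h
      · exact hd₂ h
      · exact hs₂ h
    · show G * ((d₂ : E) * (s₂ : E)) = Γ ^ m * ((c₂ : E) * (t₂ : E))
      rw [← hdt, ← hcs]
      calc G * ((d : E) * (t₂ : E) * (s₂ : E)) = G * (d : E) * ((t₂ : E) * (s₂ : E)) := by ring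
        _ = Γ ^ m * (c : E) * ((t₂ : E) * (s₂ : E)) := by rw [hcd]
        _ = Γ ^ m * ((c : E) * (s₂ : E) * (t₂ : E)) := by ring
  · obtain ⟨h1, h2, h3⟩ := hw i ((hiff i).mpr hi)
    exact ⟨hL ▸ h1, hM ▸ h2, h3⟩
  · exact hM ▸ hcross i j ((hiff i).mpr hi) ((hiff j).mpr hj)

end Abs

section Inv

variable {R : Type*} [CommRing R] [IsDomain R] [IsDiscreteValuationRing R] [CharZero R]
  {K₁ : Type*} [Field K₁] [Algebra R K₁] [IsFractionRing R K₁]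
  {K : Type*} [Field K] [Algebra K₁ K] [Algebra R K] [IsScalarTower R K₁ K]
  {E : Type*} [Field E] [Algebra K E] [Algebra R E] [IsScalarTower R K E] [FiniteDimensional K E]
  {π : R} {u : K} {ι : Type*} {W : ι → ValuationSubring E}

/-- **the closed data at the non-cuspidal closed points of the chart `u⁻¹`** from the closed data
at the closed points of the chart `u`. -/
theorem sheetDatumAt_chart_inv_of_notMem (fam : IsSheetFamily π u W)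
    (fam' : IsSheetFamily π u⁻¹ W) (hπ : Irreducible π)
    (hu : Transcendental K₁ u) (hK : IntermediateField.adjoin K₁ {u} = ⊤)
    [IsAlgClosed (IsLocalRing.ResidueField R)] {m : ℕ} {G : E} {lam : ι → E}
    (h₁ : ∀ (𝔫 : Ideal ↥(chartOne R E u)) (h𝔫 : 𝔫.IsMaximal),
      algebraMap R ↥(chartOne R E u) π ∈ 𝔫 →
      @SheetDatumAt R _ E _ _ (chartOne R E u) ι
        (fun i => sheetIdeal u (W i) (fam.chart_le i)) 𝔫 h𝔫.isPrime W m G lam)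
    (𝔫 : Ideal ↥(chartOne R E u⁻¹)) (h𝔫 : 𝔫.IsMaximal)
    (hπ𝔫 : algebraMap R ↥(chartOne R E u⁻¹) π ∈ 𝔫)
    (hx : (⟨algebraMap K E u⁻¹, algebraMap_coord_mem_chartOne u⁻¹⟩ : ↥(chartOne R E u⁻¹)) ∉ 𝔫) :
    @SheetDatumAt R _ E _ _ (chartOne R E u⁻¹) ι
      (fun i => sheetIdeal u⁻¹ (W i) (fam'.chart_le i)) 𝔫 h𝔫.isPrime W m G lam := by
  haveI := h𝔫
  haveI h𝔫p : 𝔫.IsPrime := h𝔫.isPrime
  have hu0 : u ≠ 0 := by
    rintro rfl
    exact hu isAlgebraic_zero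
  have hu' : Transcendental K₁ u⁻¹ := transcendental_inv_of_transcendental hu
  have hK' : IntermediateField.adjoin K₁ {u⁻¹} = ⊤ := adjoin_inv_eq_top hK
  have hle : chartOne R E u ≤ locRing (chartOne R E u⁻¹) 𝔫 := chartOne_le_locRing_inv u hu0 𝔫 hx
  obtain ⟨hL, hM⟩ := locRing_chartOne_inv_eq (R := R) (E := E) u hu0 𝔫 hx
  have hres : ∀ b : ↥(chartOne R E u⁻¹), ∃ c : R, b - algebraMap R ↥(chartOne R E u⁻¹) c ∈ 𝔫 :=
    exists_sub_mem_of_isMaximal_chartOne hπ hu' hK' 𝔫 hπ𝔫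
  obtain ⟨hmax₁, -⟩ := locComap_isMaximal hres hle
  have hπ𝔫₁ : algebraMap R ↥(chartOne R E u) π ∈
      locComap (chartOne R E u⁻¹) 𝔫 (chartOne R E u) hle := by
    rw [mem_locComap_iff]
    exact (coe_mem_locMax_iff (algebraMap R ↥(chartOne R E u⁻¹) π)).mpr hπ𝔫
  exact sheetDatumAt_of_locRing_eq hL hM (fun i => fam.chart_le i) (fun i => fam'.chart_le i)
    (fun i b => mem_sheetIdeal_iff u (W i) (fam.chart_le i) b)
    (fun i b => mem_sheetIdeal_iff u⁻¹ (W i) (fam'.chart_le i) b) (h₁ _ hmax₁ hπ𝔫₁)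

/-- **the closed datum of `(G ^ n, ζ_l λ_l ^ n)` at a closed point on a single sheet**, from a local
equation of the sheet and a branch uniformizer. -/
theorem sheetDatumAt_pow_of_single_sheet (fam : IsSheetFamily π u W) (hπ : Irreducible π)
    (hu : Transcendental K₁ u) (hK : IntermediateField.adjoin K₁ {u} = ⊤)
    (𝔫 : Ideal ↥(chartOne R E u)) (h𝔫 : 𝔫.IsMaximal)
    (i₀ : ι) (hle : sheetIdeal u (W i₀) (fam.chart_le i₀) ≤ 𝔫)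
    (honly : ∀ j, sheetIdeal u (W j) (fam.chart_le j) ≤ 𝔫 → j = i₀)
    {z v : ↥(chartOne R E u)} (hz : z ∈ sheetIdeal u (W i₀) (fam.chart_le i₀)) (hz0 : z ≠ 0)
    (hgen : ∀ w ∈ sheetIdeal u (W i₀) (fam.chart_le i₀), ∃ s : ↥(chartOne R E u), s ∉ 𝔫 ∧ z ∣ s * w)
    (hv : IsBranchUniformizer (sheetIdeal u (W i₀) (fam.chart_le i₀)) 𝔫 v)
    {m : ℕ} (hm : 0 < m) {G : E} (hG : G ≠ 0) {lam : ι → E} (hlam : ∀ i, lam i ≠ 0)
    (hGW : (W i₀).valuation (G / lam i₀ ^ m - 1) < 1)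
    (hhor : haveI : IsFractionRing ↥(chartOne R E u) E := isFractionRing_chartOne (K₁ := K₁) u hK
      ∀ 𝔮 : Ideal ↥(chartOne R E u), 𝔮.IsPrime → 𝔮.height = 1 →
      algebraMap R ↥(chartOne R E u) π ∉ 𝔮 → 𝔮 ≤ 𝔫 →
      ∃ γ : E, γ ≠ 0 ∧ IsUnitAtPrime 𝔮 (G * (γ ^ m)⁻¹))
    (ζ : ι → R) (hζ : ∀ i, ζ i ^ m = 1) (n : ℕ) :
    @SheetDatumAt R _ E _ _ (chartOne R E u) ι (fun i => sheetIdeal u (W i) (fam.chart_le i))
      𝔫 h𝔫.isPrime W m (G ^ n) (fun i => algebraMap R E (ζ i) * lam i ^ n) := by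
  haveI := h𝔫
  haveI h𝔫p : 𝔫.IsPrime := h𝔫.isPrime
  obtain ⟨Γ, w, hΓ, ⟨c, d, hc, hd, hcd⟩, hw, -⟩ :=
    sheetDatumAt_of_single_sheet fam hπ hu hK 𝔫 i₀ hle honly hz hz0 hgen hv hm.ne' hG hlam
      hGW hhor
  refine sheetDatumAt_pow_of_cross (fun l => fam.chart_le l)
    (fun l b => mem_sheetIdeal_iff u (W l) (fam.chart_le l) b) hm n ζ hζ hΓ hc hd hcd w hw ?_
  intro i k hi hk
  rw [honly i hi, honly k hk, sub_self]
  exact zero_mem_locMax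

/-- **the closed data at ALL closed points of the chart `u⁻¹`** (`hd₂` of `sheet_pow_of_model`),
from the closed data on the chart `u` and the single-sheet structure at the cusps. -/
theorem sheetDatumAt_chart_inv (fam : IsSheetFamily π u W)
    (fam' : IsSheetFamily π u⁻¹ W) (hπ : Irreducible π)
    (hu : Transcendental K₁ u) (hK : IntermediateField.adjoin K₁ {u} = ⊤)
    [IsAlgClosed (IsLocalRing.ResidueField R)]
    -- the cusps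
    (hcusp : ∀ (𝔫 : Ideal ↥(chartOne R E u⁻¹)) (_ : 𝔫.IsMaximal),
      algebraMap R ↥(chartOne R E u⁻¹) π ∈ 𝔫 →
      (⟨algebraMap K E u⁻¹, algebraMap_coord_mem_chartOne u⁻¹⟩ : ↥(chartOne R E u⁻¹)) ∈ 𝔫 →
      ∃ (l₀ : ι) (z v : ↥(chartOne R E u⁻¹)),
        sheetIdeal u⁻¹ (W l₀) (fam'.chart_le l₀) ≤ 𝔫 ∧
        (∀ l, sheetIdeal u⁻¹ (W l) (fam'.chart_le l) ≤ 𝔫 → l = l₀) ∧
        z ∈ sheetIdeal u⁻¹ (W l₀) (fam'.chart_le l₀) ∧ z ≠ 0 ∧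
        (∀ w ∈ sheetIdeal u⁻¹ (W l₀) (fam'.chart_le l₀),
          ∃ s : ↥(chartOne R E u⁻¹), s ∉ 𝔫 ∧ z ∣ s * w) ∧
        IsBranchUniformizer (sheetIdeal u⁻¹ (W l₀) (fam'.chart_le l₀)) 𝔫 v)
    -- the function
    {m : ℕ} (hm : 0 < m) {G : E} (hG : G ≠ 0) {lam : ι → E} (hlam : ∀ i, lam i ≠ 0)
    (hGW : ∀ l, (W l).valuation (G / lam l ^ m - 1) < 1)
    (hhor : haveI : IsFractionRing ↥(chartOne R E u⁻¹) E :=
        isFractionRing_chartOne (K₁ := K₁) u⁻¹ (adjoin_inv_eq_top hK)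
      ∀ 𝔮 : Ideal ↥(chartOne R E u⁻¹), 𝔮.IsPrime → 𝔮.height = 1 →
      algebraMap R ↥(chartOne R E u⁻¹) π ∉ 𝔮 → ∃ γ : E, γ ≠ 0 ∧ IsUnitAtPrime 𝔮 (G * (γ ^ m)⁻¹))
    (ζ : ι → R) (hζ : ∀ i, ζ i ^ m = 1) (n : ℕ)
    (h₁ : ∀ (𝔫 : Ideal ↥(chartOne R E u)) (h𝔫 : 𝔫.IsMaximal),
      algebraMap R ↥(chartOne R E u) π ∈ 𝔫 →
      @SheetDatumAt R _ E _ _ (chartOne R E u) ι
        (fun i => sheetIdeal u (W i) (fam.chart_le i)) 𝔫 h𝔫.isPrime W m (G ^ n)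
        (fun i => algebraMap R E (ζ i) * lam i ^ n))
    (𝔫 : Ideal ↥(chartOne R E u⁻¹)) (h𝔫 : 𝔫.IsMaximal)
    (hπ𝔫 : algebraMap R ↥(chartOne R E u⁻¹) π ∈ 𝔫) :
    @SheetDatumAt R _ E _ _ (chartOne R E u⁻¹) ι
      (fun i => sheetIdeal u⁻¹ (W i) (fam'.chart_le i)) 𝔫 h𝔫.isPrime W m (G ^ n)
      (fun i => algebraMap R E (ζ i) * lam i ^ n) := by
  by_cases hx : (⟨algebraMap K E u⁻¹, algebraMap_coord_mem_chartOne u⁻¹⟩ :
      ↥(chartOne R E u⁻¹)) ∈ 𝔫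
  · obtain ⟨l₀, z, v, hle, honly, hz, hz0, hgen, hv⟩ := hcusp 𝔫 h𝔫 hπ𝔫 hx
    exact sheetDatumAt_pow_of_single_sheet fam' hπ (transcendental_inv_of_transcendental hu)
      (adjoin_inv_eq_top hK) 𝔫 h𝔫 l₀ hle honly hz hz0 hgen hv hm hG hlam (hGW l₀)
      (fun 𝔮 h𝔮 hh hπ𝔮 _ => hhor 𝔮 h𝔮 hh hπ𝔮) ζ hζ n
  · exact sheetDatumAt_chart_inv_of_notMem fam fam' hπ hu hK h₁ 𝔫 h𝔫 hπ𝔫 hx

end Inv

end Fermat.Agent.S36
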