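/-
S36 [CUSPPT] — helper1 — part 1: **the rank-two valuation ring at the cusp `x = 0`**:
`cuspVal R K = {f ∈ K⟦x⟧ : f(0) ∈ R} ⊂ K⸨x⸩` (composite of the `x`-adic valuation with the valuation
ring `R` of `K`).  Its residue field is the residue field of `R`; its units are the series of order
`0` whose constant (= leading) coefficient is a unit of `R`.
-/
import Mathlib

set_option autoImplicit false
set_option linter.unusedSectionVars false
set_option linter.style.haveILetI false

open HahnSeries PowerSeries

namespace Fermat.Agent.S36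

noncomputable section

variable (R : Type*) [CommRing R] [IsDomain R] [ValuationRing R]
  (K : Type*) [Field K] [Algebra R K] [IsFractionRing R K]

/-- **the valuation ring of the cusp `x = 0`**: power series whose constant term lies in `R`. -/
def cuspVal : ValuationSubring (LaurentSeries K) where
  carrier := {f | ∃ p : PowerSeries K, HahnSeries.ofPowerSeries ℤ K p = f ∧
    PowerSeries.constantCoeff p ∈ (algebraMap R K).range}
  mul_mem' := by
    rintro _ _ ⟨p, rfl, r, hr⟩ ⟨p', rfl, r', hr'⟩
    exact ⟨p * p', map_mul _ _ _, r * r', by rw [map_mul, map_mul, hr, hr']⟩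
  one_mem' := ⟨1, map_one _, 1, by rw [map_one, map_one]⟩
  add_mem' := by
    rintro _ _ ⟨p, rfl, r, hr⟩ ⟨p', rfl, r', hr'⟩
    exact ⟨p + p', map_add _ _ _, r + r', by rw [map_add, map_add, hr, hr']⟩
  zero_mem' := ⟨0, map_zero _, 0, by rw [map_zero, map_zero]⟩
  neg_mem' := by
    rintro _ ⟨p, rfl, r, hr⟩
    exact ⟨-p, map_neg _ _, -r, by rw [map_neg, map_neg, hr]⟩
  mem_or_inv_mem' := by
    intro f
    by_cases hf : f = 0
    · left
      exact ⟨0, by rw [map_zero, hf], 0, by rw [map_zero, map_zero]⟩
    set u : PowerSeries K := LaurentSeries.powerSeriesPart f with hu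
    have hu0 : PowerSeries.constantCoeff u ≠ 0 := by
      rw [← PowerSeries.coeff_zero_eq_constantCoeff_apply, hu, LaurentSeries.powerSeriesPart_coeff,
        Nat.cast_zero, add_zero]
      exact fun h => hf (HahnSeries.coeff_order_eq_zero.mp h)
    obtain ⟨o, ho⟩ : ∃ o : ℤ, f.order = o := ⟨_, rfl⟩
    have hfu : (HahnSeries.single o (1 : K)) * HahnSeries.ofPowerSeries ℤ K u = f := by
      rw [← ho]
      exact LaurentSeries.single_order_mul_powerSeriesPart f
    have h1 : HahnSeries.ofPowerSeries ℤ K u * HahnSeries.ofPowerSeries ℤ K u⁻¹ = 1 := by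
      rw [← map_mul, PowerSeries.mul_inv_cancel u hu0, map_one]
    rcases lt_trichotomy o 0 with hneg | hzero | hpos
    · -- negative order: the inverse has positive order
      right
      obtain ⟨n, hn⟩ : ∃ n : ℕ, (n : ℤ) = -o := ⟨(-o).toNat, Int.toNat_of_nonneg (by omega)⟩
      refine ⟨PowerSeries.X ^ n * u⁻¹, ?_, 0, ?_⟩
      · rw [map_mul, HahnSeries.ofPowerSeries_X_pow, hn]
        have h2 : (HahnSeries.single o (1 : K)) * HahnSeries.single (-o) (1 : K) = 1 := by
          rw [HahnSeries.single_mul_single, add_neg_cancel, mul_one]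
          rfl
        have h3 : f * (HahnSeries.single (-o) (1 : K) * HahnSeries.ofPowerSeries ℤ K u⁻¹) = 1 := by
          calc f * (HahnSeries.single (-o) (1 : K) * HahnSeries.ofPowerSeries ℤ K u⁻¹)
              = (HahnSeries.single o (1 : K) * HahnSeries.ofPowerSeries ℤ K u) *
                (HahnSeries.single (-o) (1 : K) * HahnSeries.ofPowerSeries ℤ K u⁻¹) := by rw [hfu]
            _ = (HahnSeries.single o (1 : K) * HahnSeries.single (-o) (1 : K)) *
                (HahnSeries.ofPowerSeries ℤ K u * HahnSeries.ofPowerSeries ℤ K u⁻¹) := by ring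
            _ = 1 := by rw [h1, h2, one_mul]
        exact (eq_inv_of_mul_eq_one_right h3)
      · have hn0 : n ≠ 0 := by
          rintro rfl
          rw [Nat.cast_zero] at hn
          omega
        rw [map_zero, map_mul, map_pow, PowerSeries.constantCoeff_X, zero_pow hn0, zero_mul]
    · -- order zero
      have hfu' : HahnSeries.ofPowerSeries ℤ K u = f := by
        rw [← hfu, hzero]
        have : (HahnSeries.single (0 : ℤ) (1 : K)) = 1 := rfl
        rw [this, one_mul]
      rcases ValuationRing.isInteger_or_isInteger R (PowerSeries.constantCoeff u) with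
        ⟨r, hr⟩ | ⟨r, hr⟩
      · left
        exact ⟨u, hfu', r, hr⟩
      · right
        refine ⟨u⁻¹, ?_, r, ?_⟩
        · have h3 : f * HahnSeries.ofPowerSeries ℤ K u⁻¹ = 1 := by
            rw [← hfu', h1]
          exact eq_inv_of_mul_eq_one_right h3
        · rw [hr, PowerSeries.constantCoeff_inv]
    · -- positive order
      left
      obtain ⟨n, hn⟩ : ∃ n : ℕ, (n : ℤ) = o := ⟨o.toNat, Int.toNat_of_nonneg hpos.le⟩
      refine ⟨PowerSeries.X ^ n * u, ?_, 0, ?_⟩
      · rw [map_mul, HahnSeries.ofPowerSeries_X_pow, hn, hfu]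
      · have hn0 : n ≠ 0 := by
          rintro rfl
          rw [Nat.cast_zero] at hn
          omega
        rw [map_zero, map_mul, map_pow, PowerSeries.constantCoeff_X, zero_pow hn0, zero_mul]

variable {R K}

theorem mem_cuspVal_iff (f : LaurentSeries K) :
    f ∈ cuspVal R K ↔ ∃ p : PowerSeries K, HahnSeries.ofPowerSeries ℤ K p = f ∧
      PowerSeries.constantCoeff p ∈ (algebraMap R K).range := Iff.rfl

/-- the power series of an element of `cuspVal`. -/
def cuspPS (f : ↥(cuspVal R K)) : PowerSeries K := Classical.choose f.2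

theorem ofPowerSeries_cuspPS (f : ↥(cuspVal R K)) :
    HahnSeries.ofPowerSeries ℤ K (cuspPS f) = (f : LaurentSeries K) :=
  (Classical.choose_spec f.2).1

theorem constantCoeff_cuspPS_mem (f : ↥(cuspVal R K)) :
    PowerSeries.constantCoeff (cuspPS f) ∈ (algebraMap R K).range :=
  (Classical.choose_spec f.2).2

theorem cuspPS_eq_of_eq {f : ↥(cuspVal R K)} {p : PowerSeries K}
    (h : HahnSeries.ofPowerSeries ℤ K p = (f : LaurentSeries K)) : cuspPS f = p :=
  HahnSeries.ofPowerSeries_injective ((ofPowerSeries_cuspPS f).trans h.symm)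

/-- the power series of an element of `cuspVal`, as a ring homomorphism. -/
def cuspPSHom : ↥(cuspVal R K) →+* PowerSeries K where
  toFun := cuspPS
  map_one' := cuspPS_eq_of_eq (by rw [map_one]; rfl)
  map_mul' f g := cuspPS_eq_of_eq (by
    rw [map_mul, ofPowerSeries_cuspPS, ofPowerSeries_cuspPS]; rfl)
  map_zero' := cuspPS_eq_of_eq (by rw [map_zero]; rfl)
  map_add' f g := cuspPS_eq_of_eq (by
    rw [map_add, ofPowerSeries_cuspPS, ofPowerSeries_cuspPS]; rfl)

theorem cuspPSHom_apply (f : ↥(cuspVal R K)) : cuspPSHom f = cuspPS f := rfl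

/-- the constant term, with values in `K`. -/
def cuspConstK : ↥(cuspVal R K) →+* K :=
  (PowerSeries.constantCoeff (R := K)).comp cuspPSHom

theorem cuspConstK_apply (f : ↥(cuspVal R K)) :
    cuspConstK f = (f : LaurentSeries K).coeff 0 := by
  show PowerSeries.constantCoeff (cuspPS f) = _
  rw [← ofPowerSeries_cuspPS f, ← PowerSeries.coeff_zero_eq_constantCoeff_apply,
    ← HahnSeries.ofPowerSeries_apply_coeff (Γ := ℤ), Nat.cast_zero]

theorem cuspConstK_mem_range (f : ↥(cuspVal R K)) : cuspConstK f ∈ (algebraMap R K).range :=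
  constantCoeff_cuspPS_mem f

/-- **the constant term** of an element of `cuspVal`, with values in `R`. -/
def cuspConst : ↥(cuspVal R K) →+* R :=
  ((RingEquiv.ofBijective (algebraMap R K).rangeRestrict
      ⟨fun _ _ h => IsFractionRing.injective R K (congrArg Subtype.val h),
        (algebraMap R K).rangeRestrict_surjective⟩).symm :
      ↥(algebraMap R K).range →+* R).comp
    (cuspConstK.codRestrict (algebraMap R K).range cuspConstK_mem_range)

theorem algebraMap_cuspConst (f : ↥(cuspVal R K)) :
    algebraMap R K (cuspConst f) = (f : LaurentSeries K).coeff 0 := by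
  rw [← cuspConstK_apply]
  set e := RingEquiv.ofBijective (algebraMap R K).rangeRestrict
      ⟨fun _ _ h => IsFractionRing.injective R K (congrArg Subtype.val h),
        (algebraMap R K).rangeRestrict_surjective⟩ with he
  have h1 : e (cuspConst f) = cuspConstK.codRestrict (algebraMap R K).range cuspConstK_mem_range f :=
    e.apply_symm_apply _
  have h2 := congrArg Subtype.val h1
  exact h2

theorem coeff_eq_zero_of_mem_cuspVal {f : LaurentSeries K} (hf : f ∈ cuspVal R K) {n : ℤ}
    (hn : n < 0) : f.coeff n = 0 := by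
  obtain ⟨p, rfl, -⟩ := hf
  rw [HahnSeries.ofPowerSeries_apply, HahnSeries.embDomain_of_notMem_range]
  simp only [Nat.castOrderEmbedding_apply, Set.mem_range, not_exists]
  intro m hm
  have : (0 : ℤ) ≤ (m : ℤ) := Int.natCast_nonneg m
  omega

/-- the constants from `R` lie in `cuspVal`. -/
theorem algebraMap_mem_cuspVal (r : R) :
    algebraMap K (LaurentSeries K) (algebraMap R K r) ∈ cuspVal R K :=
  ⟨algebraMap K (PowerSeries K) (algebraMap R K r),
    (HahnSeries.algebraMap_apply' (Γ := ℤ) (R := K) (algebraMap R K r)).symm, r, by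
    rw [PowerSeries.algebraMap_apply, Algebra.algebraMap_self, RingHom.id_apply,
      PowerSeries.constantCoeff_C]⟩

/-- series of positive order lie in `cuspVal`. -/
theorem mem_cuspVal_of_order_pos {f : LaurentSeries K} (hf : 0 < f.order) : f ∈ cuspVal R K := by
  obtain ⟨n, hn⟩ : ∃ n : ℕ, (n : ℤ) = f.order := ⟨f.order.toNat, Int.toNat_of_nonneg hf.le⟩
  refine ⟨PowerSeries.X ^ n * LaurentSeries.powerSeriesPart f, ?_, 0, ?_⟩
  · rw [map_mul, HahnSeries.ofPowerSeries_X_pow, hn]
    exact LaurentSeries.single_order_mul_powerSeriesPart f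
  · have hn0 : n ≠ 0 := by
      rintro rfl
      rw [Nat.cast_zero] at hn
      omega
    rw [map_zero, map_mul, map_pow, PowerSeries.constantCoeff_X, zero_pow hn0, zero_mul]

theorem cuspConst_algebraMap (r : R) :
    cuspConst (⟨algebraMap K (LaurentSeries K) (algebraMap R K r), algebraMap_mem_cuspVal r⟩ :
      ↥(cuspVal R K)) = r := by
  apply IsFractionRing.injective R K
  rw [algebraMap_cuspConst]
  show (algebraMap K (LaurentSeries K) (algebraMap R K r)).coeff 0 = _
  rw [HahnSeries.algebraMap_apply' (Γ := ℤ) (R := K), ← Nat.cast_zero (R := ℤ),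
    HahnSeries.ofPowerSeries_apply_coeff, PowerSeries.algebraMap_apply, Algebra.algebraMap_self,
    RingHom.id_apply, PowerSeries.coeff_zero_eq_constantCoeff_apply, PowerSeries.constantCoeff_C]

theorem cuspConst_surjective : Function.Surjective (cuspConst (R := R) (K := K)) :=
  fun r => ⟨_, cuspConst_algebraMap r⟩

theorem cuspConst_eq_zero_of_order_pos {f : LaurentSeries K} (hf : 0 < f.order) :
    cuspConst (⟨f, mem_cuspVal_of_order_pos hf⟩ : ↥(cuspVal R K)) = 0 := by
  apply IsFractionRing.injective R K
  rw [algebraMap_cuspConst, map_zero]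
  exact HahnSeries.coeff_eq_zero_of_lt_order hf

/-- **order and leading coefficient** of an element of `cuspVal` with nonzero constant term. -/
theorem order_eq_zero_and_leadingCoeff_of_cuspConst_ne_zero {f : ↥(cuspVal R K)}
    (h : cuspConst f ≠ 0) :
    (f : LaurentSeries K).order = 0 ∧
      (f : LaurentSeries K).leadingCoeff = algebraMap R K (cuspConst f) := by
  have hc : (f : LaurentSeries K).coeff 0 ≠ 0 := by
    rw [← algebraMap_cuspConst]
    exact fun h0 => h ((map_eq_zero_iff _ (IsFractionRing.injective R K)).mp h0)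
  have hf0 : (f : LaurentSeries K) ≠ 0 := by
    intro h0
    rw [h0] at hc
    exact hc rfl
  have hle : (f : LaurentSeries K).order ≤ 0 := HahnSeries.order_le_of_coeff_ne_zero hc
  have hge : 0 ≤ (f : LaurentSeries K).order := by
    by_contra hlt
    rw [not_le] at hlt
    exact (fun h0 => hf0 (HahnSeries.coeff_order_eq_zero.mp h0))
      (coeff_eq_zero_of_mem_cuspVal f.2 hlt)
  have ho : (f : LaurentSeries K).order = 0 := le_antisymm hle hge
  refine ⟨ho, ?_⟩
  rw [HahnSeries.leadingCoeff_eq, ho, algebraMap_cuspConst]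

/-- `cuspConst` is a local homomorphism: the units of `cuspVal` are the series whose constant term
is a unit of `R`. -/
theorem isUnit_cuspVal_iff (f : ↥(cuspVal R K)) : IsUnit f ↔ IsUnit (cuspConst f) := by
  refine ⟨fun h => h.map cuspConst, fun h => ?_⟩
  obtain ⟨r, hr⟩ := h
  set p := cuspPS f with hp
  have hpc : PowerSeries.constantCoeff p = algebraMap R K (r : R) := by
    have := algebraMap_cuspConst f
    rw [← cuspConstK_apply] at this
    rw [hr]
    exact this.symm
  have hr0 : algebraMap R K (r : R) ≠ 0 := by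
    intro h0
    have := (map_eq_zero_iff _ (IsFractionRing.injective R K)).mp h0
    exact r.ne_zero this
  have hp0 : PowerSeries.constantCoeff p ≠ 0 := by rw [hpc]; exact hr0
  have hinv : HahnSeries.ofPowerSeries ℤ K p⁻¹ ∈ cuspVal R K := by
    refine ⟨p⁻¹, rfl, ((r⁻¹ : Rˣ) : R), ?_⟩
    rw [PowerSeries.constantCoeff_inv, hpc]
    have h1 : algebraMap R K ((r⁻¹ : Rˣ) : R) * algebraMap R K (r : R) = 1 := by
      rw [← map_mul, Units.inv_mul, map_one]
    exact eq_inv_of_mul_eq_one_left h1
  refine IsUnit.of_mul_eq_one (⟨_, hinv⟩ : ↥(cuspVal R K)) ?_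
  apply Subtype.ext
  show (f : LaurentSeries K) * HahnSeries.ofPowerSeries ℤ K p⁻¹ = 1
  rw [← ofPowerSeries_cuspPS f, ← hp, ← map_mul, PowerSeries.mul_inv_cancel p hp0, map_one]

theorem mem_maximalIdeal_cuspVal_iff (f : ↥(cuspVal R K)) :
    f ∈ IsLocalRing.maximalIdeal ↥(cuspVal R K) ↔ cuspConst f ∈ IsLocalRing.maximalIdeal R := by
  rw [IsLocalRing.mem_maximalIdeal, IsLocalRing.mem_maximalIdeal, mem_nonunits_iff,
    mem_nonunits_iff, isUnit_cuspVal_iff]

end

end Fermat.Agent.S36
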