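/-
S36 [CUSPPT] — helper1 — part 2: **the cusp point of a chart of a host**.

`E ⊂ K⸨x⸩` a host, `u` a coordinate whose series has positive order (`u = j⁻¹`).  The chart
`chartOne R ↥E u` lies in the rank-two valuation ring `cuspVal R K` of the cusp `x = 0`; the centre of
that valuation ring on the chart is the closed point `cuspPt` ("`x = 0`, `π = 0`").

* `chartToCusp`, `chartConst` : the chart as a ring of power series; the constant term;
* `cuspPt`, `mem_cuspPt_iff`, `cuspPt_isMaximal`, `algebraMap_mem_cuspPt_iff`, `coord_mem_cuspPt`;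
* `order_eq_zero_and_leadingCoeff_of_notMem_cuspPt` : elements of the chart outside `cuspPt` are
  series of order `0` whose leading coefficient is a unit of `R`;
* `hostLc_algebraMap_of_chart` (`hlcπ`), `hostLc_of_notMem_cuspPt` (`hlcunit`) : the literal
  hypotheses of helper4's `cusp36_dvd` for `lc := hostLc E`.
-/
import Mathlib
import Fermat.Agent.S36.CUSPPT_helper1_Val
import Fermat.Agent.SS.EXPORT_helper4_Charts
import Fermat.Agent.SS.LC_helper5

set_option autoImplicit false
set_option linter.unusedSectionVars false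
set_option linter.style.haveILetI false

open HahnSeries

namespace Fermat.Agent.S36

open Fermat.Agent.SS Fermat.Agent.JA

noncomputable section

section Chart

variable {R : Type*} [CommRing R] [IsDomain R] [ValuationRing R]
  {K : Type*} [Field K] [Algebra R K] [IsFractionRing R K]
  (E : IntermediateField K (LaurentSeries K))
  {K' : Type*} [Field K'] [Algebra K' ↥E] [Algebra R K'] [Algebra R ↥E] [IsScalarTower R K' ↥E]

variable (R) in
/-- the valuation ring of the cusp `x = 0` on a host. -/
def cuspValE : ValuationSubring ↥E :=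
  (cuspVal R K).comap ((E.val : ↥E →ₐ[K] LaurentSeries K) : ↥E →+* LaurentSeries K)

theorem mem_cuspValE_iff (e : ↥E) : e ∈ cuspValE R E ↔ (e : LaurentSeries K) ∈ cuspVal R K :=
  Iff.rfl

variable {E}

/-- the chart of a coordinate of positive order lies in the valuation ring of the cusp. -/
theorem chartOne_le_cuspValE
    (hR : ∀ r : R, ((algebraMap R ↥E r : ↥E) : LaurentSeries K) =
      algebraMap K (LaurentSeries K) (algebraMap R K r))
    (u : K') (hu : 0 < ((algebraMap K' ↥E u : ↥E) : LaurentSeries K).order) :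
    ∀ b ∈ chartOne R ↥E u, b ∈ cuspValE R E := by
  refine chartOne_le_valuationSubring u (cuspValE R E) (fun r => ?_) ?_
  · rw [mem_cuspValE_iff, hR]
    exact algebraMap_mem_cuspVal r
  · rw [mem_cuspValE_iff]
    exact mem_cuspVal_of_order_pos hu

/-- the chart as a ring of power series. -/
def chartToCusp
    (hR : ∀ r : R, ((algebraMap R ↥E r : ↥E) : LaurentSeries K) =
      algebraMap K (LaurentSeries K) (algebraMap R K r))
    (u : K') (hu : 0 < ((algebraMap K' ↥E u : ↥E) : LaurentSeries K).order) :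
    ↥(chartOne R ↥E u) →+* ↥(cuspVal R K) where
  toFun b := ⟨((b : ↥E) : LaurentSeries K), chartOne_le_cuspValE hR u hu _ b.2⟩
  map_one' := rfl
  map_mul' _ _ := rfl
  map_zero' := rfl
  map_add' _ _ := rfl

theorem coe_chartToCusp
    (hR : ∀ r : R, ((algebraMap R ↥E r : ↥E) : LaurentSeries K) =
      algebraMap K (LaurentSeries K) (algebraMap R K r))
    (u : K') (hu : 0 < ((algebraMap K' ↥E u : ↥E) : LaurentSeries K).order)
    (b : ↥(chartOne R ↥E u)) :
    ((chartToCusp hR u hu b : ↥(cuspVal R K)) : LaurentSeries K) = ((b : ↥E) : LaurentSeries K) :=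
  rfl

/-- **the constant term** of an element of the chart. -/
def chartConst
    (hR : ∀ r : R, ((algebraMap R ↥E r : ↥E) : LaurentSeries K) =
      algebraMap K (LaurentSeries K) (algebraMap R K r))
    (u : K') (hu : 0 < ((algebraMap K' ↥E u : ↥E) : LaurentSeries K).order) :
    ↥(chartOne R ↥E u) →+* R :=
  (cuspConst (R := R) (K := K)).comp (chartToCusp hR u hu)

section Fix

variable (hR : ∀ r : R, ((algebraMap R ↥E r : ↥E) : LaurentSeries K) =
      algebraMap K (LaurentSeries K) (algebraMap R K r))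
  (u : K') (hu : 0 < ((algebraMap K' ↥E u : ↥E) : LaurentSeries K).order)

theorem algebraMap_chartConst (b : ↥(chartOne R ↥E u)) :
    algebraMap R K (chartConst hR u hu b) = ((b : ↥E) : LaurentSeries K).coeff 0 :=
  algebraMap_cuspConst (chartToCusp hR u hu b)

theorem chartConst_algebraMap (r : R) :
    chartConst hR u hu (algebraMap R ↥(chartOne R ↥E u) r) = r := by
  have h1 : chartToCusp hR u hu (algebraMap R ↥(chartOne R ↥E u) r) =
      (⟨algebraMap K (LaurentSeries K) (algebraMap R K r), algebraMap_mem_cuspVal r⟩ :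
        ↥(cuspVal R K)) := by
    apply Subtype.ext
    rw [coe_chartToCusp]
    exact hR r
  show cuspConst (chartToCusp hR u hu (algebraMap R ↥(chartOne R ↥E u) r)) = r
  rw [h1, cuspConst_algebraMap]

theorem chartConst_surjective : Function.Surjective (chartConst hR u hu) :=
  fun r => ⟨_, chartConst_algebraMap hR u hu r⟩

/-- **the cusp point** of the chart: the centre of the valuation ring of the cusp. -/
def cuspPt : Ideal ↥(chartOne R ↥E u) :=
  (IsLocalRing.maximalIdeal ↥(cuspVal R K)).comap (chartToCusp hR u hu)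

theorem mem_cuspPt_iff (b : ↥(chartOne R ↥E u)) :
    b ∈ cuspPt hR u hu ↔ chartConst hR u hu b ∈ IsLocalRing.maximalIdeal R := by
  show chartToCusp hR u hu b ∈ IsLocalRing.maximalIdeal ↥(cuspVal R K) ↔ _
  rw [mem_maximalIdeal_cuspVal_iff]
  rfl

theorem cuspPt_eq_ker :
    cuspPt hR u hu = RingHom.ker ((IsLocalRing.residue R).comp (chartConst hR u hu)) := by
  ext b
  rw [mem_cuspPt_iff, RingHom.mem_ker, RingHom.comp_apply, IsLocalRing.residue_eq_zero_iff]

instance cuspPt_isMaximal : (cuspPt hR u hu).IsMaximal := by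
  rw [cuspPt_eq_ker]
  exact RingHom.ker_isMaximal_of_surjective _
    (IsLocalRing.residue_surjective.comp (chartConst_surjective hR u hu))

instance cuspPt_isPrime : (cuspPt hR u hu).IsPrime := (cuspPt_isMaximal hR u hu).isPrime

theorem algebraMap_mem_cuspPt_iff (r : R) :
    algebraMap R ↥(chartOne R ↥E u) r ∈ cuspPt hR u hu ↔ r ∈ IsLocalRing.maximalIdeal R := by
  rw [mem_cuspPt_iff, chartConst_algebraMap]

/-- elements of the chart whose series has positive order lie in the cusp point. -/
theorem mem_cuspPt_of_order_pos (b : ↥(chartOne R ↥E u))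
    (hb : 0 < ((b : ↥E) : LaurentSeries K).order) : b ∈ cuspPt hR u hu := by
  rw [mem_cuspPt_iff]
  have h0 : chartConst hR u hu b = 0 := by
    apply IsFractionRing.injective R K
    rw [algebraMap_chartConst, map_zero]
    exact HahnSeries.coeff_eq_zero_of_lt_order hb
  rw [h0]
  exact zero_mem _

/-- the coordinate lies in the cusp point. -/
theorem coord_mem_cuspPt :
    (⟨algebraMap K' ↥E u, algebraMap_coord_mem_chartOne u⟩ : ↥(chartOne R ↥E u)) ∈
      cuspPt hR u hu :=
  mem_cuspPt_of_order_pos hR u hu _ hu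

/-- the valuation ring of the cusp dominates the chart at the cusp point. -/
theorem valuation_cuspValE_lt_one_iff (b : ↥(chartOne R ↥E u)) :
    (cuspValE R E).valuation (b : ↥E) < 1 ↔ b ∈ cuspPt hR u hu := by
  have hb : (b : ↥E) ∈ cuspValE R E := chartOne_le_cuspValE hR u hu _ b.2
  have h1 : (cuspValE R E).valuation (b : ↥E) < 1 ↔
      (⟨(b : ↥E), hb⟩ : ↥(cuspValE R E)) ∈ IsLocalRing.maximalIdeal ↥(cuspValE R E) :=
    (ValuationSubring.valuation_lt_one_iff (cuspValE R E) ⟨(b : ↥E), hb⟩).symm
  rw [h1, IsLocalRing.mem_maximalIdeal, mem_nonunits_iff]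
  show _ ↔ chartToCusp hR u hu b ∈ IsLocalRing.maximalIdeal ↥(cuspVal R K)
  rw [IsLocalRing.mem_maximalIdeal, mem_nonunits_iff, not_iff_not]
  constructor
  · intro h
    obtain ⟨c, hc⟩ := h.exists_right_inv
    refine IsUnit.of_mul_eq_one (⟨((c : ↥E) : LaurentSeries K), c.2⟩ : ↥(cuspVal R K)) ?_
    apply Subtype.ext
    have h2 := congrArg (fun z : ↥(cuspValE R E) => (((z : ↥E)) : LaurentSeries K)) hc
    exact h2
  · intro h
    -- the inverse of the series lies in `E`
    have hb0 : (b : ↥E) ≠ 0 := by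
      intro h0
      have h3 : chartToCusp hR u hu b = 0 := by
        apply Subtype.ext
        rw [coe_chartToCusp, h0]
        rfl
      rw [h3] at h
      exact not_isUnit_zero h
    obtain ⟨c, hc⟩ := h.exists_right_inv
    have hc' : ((b : ↥E) : LaurentSeries K) * (c : LaurentSeries K) = 1 :=
      congrArg (fun z : ↥(cuspVal R K) => (z : LaurentSeries K)) hc
    have hinv : (((b : ↥E)⁻¹ : ↥E) : LaurentSeries K) = (c : LaurentSeries K) := by
      rw [IntermediateField.coe_inv]
      exact (eq_inv_of_mul_eq_one_right hc').symm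
    have hmem : (b : ↥E)⁻¹ ∈ cuspValE R E := by
      rw [mem_cuspValE_iff, hinv]
      exact c.2
    refine IsUnit.of_mul_eq_one (⟨(b : ↥E)⁻¹, hmem⟩ : ↥(cuspValE R E)) ?_
    apply Subtype.ext
    show (b : ↥E) * (b : ↥E)⁻¹ = 1
    exact mul_inv_cancel₀ hb0

/-- **order and leading coefficient outside the cusp point.** -/
theorem order_eq_zero_and_leadingCoeff_of_notMem_cuspPt (b : ↥(chartOne R ↥E u))
    (hb : b ∉ cuspPt hR u hu) :
    ((b : ↥E) : LaurentSeries K).order = 0 ∧
      ∃ ε : Rˣ, ((b : ↥E) : LaurentSeries K).leadingCoeff = algebraMap R K (ε : R) := by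
  rw [mem_cuspPt_iff, IsLocalRing.mem_maximalIdeal, mem_nonunits_iff, not_not] at hb
  obtain ⟨ε, hε⟩ := hb
  have hne : cuspConst (chartToCusp hR u hu b) ≠ 0 := by
    show chartConst hR u hu b ≠ 0
    rw [← hε]
    exact ε.ne_zero
  obtain ⟨h1, h2⟩ := order_eq_zero_and_leadingCoeff_of_cuspConst_ne_zero hne
  refine ⟨h1, ε, ?_⟩
  rw [hε]
  exact h2

include hR in
/-- **`hlcπ` of `cusp36_dvd`**: the leading coefficient of a constant of `R`. -/
theorem hostLc_algebraMap_of_chart (r : R) (v : (↥E)ˣ)
    (hv : (v : ↥E) = algebraMap ↥(chartOne R ↥E u) ↥E (algebraMap R ↥(chartOne R ↥E u) r)) :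
    ((hostLc E v : Kˣ) : K) = algebraMap R K r := by
  rw [coe_hostLc, hv]
  have h1 : algebraMap ↥(chartOne R ↥E u) ↥E (algebraMap R ↥(chartOne R ↥E u) r) =
      algebraMap R ↥E r := rfl
  rw [h1, hR, ModularCurve.algebraMap_laurentSeries_eq_single, HahnSeries.leadingCoeff_of_single]

/-- **`hlcunit` of `cusp36_dvd`**: outside the cusp point the leading coefficient is a unit of
`R`. -/
theorem hostLc_of_notMem_cuspPt (b : ↥(chartOne R ↥E u)) (hb : b ∉ cuspPt hR u hu) (v : (↥E)ˣ)
    (hv : (v : ↥E) = algebraMap ↥(chartOne R ↥E u) ↥E b) :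
    ∃ ε : Rˣ, ((hostLc E v : Kˣ) : K) = algebraMap R K (ε : R) := by
  obtain ⟨-, ε, hε⟩ := order_eq_zero_and_leadingCoeff_of_notMem_cuspPt hR u hu b hb
  refine ⟨ε, ?_⟩
  rw [coe_hostLc, hv]
  exact hε

end Fix

end Chart

end

end Fermat.Agent.S36
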