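/-
S36 [CUSPPT] — helper1 — part 3: **the Gauss sheet passes through the cusp point**.

`E ≤ Frac R((x))` a host, `u` a coordinate of positive order whose series has coefficients in `R`.
Every element of the chart `chartOne R ↥E u` is a series with coefficients in `R` (helper6's
normality of `R((x))`), hence an element of the chart which is small for the coefficientwise Gauss
valuation has its constant term in the maximal ideal of `R`:

* `exists_emb_eq_of_mem_chartOne` : the chart consists of series with coefficients in `R`;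
* `mem_cuspPt_of_gauss_lt_one` : `sheetIdeal (Gauss) ≤ cuspPt`.
-/
import Mathlib
import Fermat.Agent.S36.CUSPPT_helper1_Chart
import Fermat.Agent.JA.SEP_helper6_Normal
import Fermat.Agent.JA.ES_helper4_LocInt
import Fermat.Agent.Igusa.V_helper5_Val

set_option autoImplicit false
set_option linter.unusedSectionVars false
set_option linter.style.haveILetI false

open HahnSeries

namespace Fermat.Agent.S36

open Fermat.Agent.SS Fermat.Agent.JA Fermat.Agent.Igusa

noncomputable section

section Coeff

variable {R : Type*} [CommRing R] [IsDomain R] [IsDiscreteValuationRing R]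
  {K : Type*} [Field K] [Algebra R K] [IsFractionRing R K]
  {E : IntermediateField K (LaurentSeries K)}
  {K' : Type*} [Field K'] [Algebra K' ↥E] [Algebra R K'] [Algebra R ↥E] [IsScalarTower R K' ↥E]

/-- the series of the elements of `R[u]` have coefficients in `R`. -/
theorem coe_algebraMap_adjoin_mem_range
    (hR : ∀ r : R, ((algebraMap R ↥E r : ↥E) : LaurentSeries K) =
      algebraMap K (LaurentSeries K) (algebraMap R K r))
    (u : K')
    (hui : ∃ y : LaurentSeries R, emb R K y = ((algebraMap K' ↥E u : ↥E) : LaurentSeries K))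
    (a : ↥(Algebra.adjoin R {u})) :
    ((algebraMap ↥(Algebra.adjoin R {u}) ↥E a : ↥E) : LaurentSeries K) ∈ (emb R K).range := by
  have key : ∀ (x : K') (_ : x ∈ Algebra.adjoin R {u}),
      ((algebraMap K' ↥E x : ↥E) : LaurentSeries K) ∈ (emb R K).range := by
    intro x hx
    induction hx using Algebra.adjoin_induction with
    | mem x hx =>
      rw [Set.mem_singleton_iff] at hx
      subst hx
      obtain ⟨y, hy⟩ := hui
      exact ⟨y, hy⟩
    | algebraMap r =>
      refine ⟨HahnSeries.C r, ?_⟩
      rw [emb_C, ← IsScalarTower.algebraMap_apply R K' ↥E, hR,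
        ModularCurve.algebraMap_laurentSeries_eq_single, HahnSeries.C_apply]
    | add x y _ _ hx hy =>
      rw [map_add, IntermediateField.coe_add]
      exact (emb R K).range.add_mem hx hy
    | mul x y _ _ hx hy =>
      rw [map_mul, IntermediateField.coe_mul]
      exact (emb R K).range.mul_mem hx hy
  exact key (a : K') a.2

/-- **the chart consists of series with coefficients in `R`.** -/
theorem exists_emb_eq_of_mem_chartOne (hE : E ≤ gaussField R K)
    (hR : ∀ r : R, ((algebraMap R ↥E r : ↥E) : LaurentSeries K) =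
      algebraMap K (LaurentSeries K) (algebraMap R K r))
    (u : K')
    (hui : ∃ y : LaurentSeries R, emb R K y = ((algebraMap K' ↥E u : ↥E) : LaurentSeries K))
    (b : ↥E) (hb : b ∈ chartOne R ↥E u) :
    ∃ y : LaurentSeries R, emb R K y = (b : LaurentSeries K) := by
  apply exists_emb_eq_of_isIntegralElem (hE b.2)
  refine isIntegralElem_of_isIntegral_of_forall (emb R K)
    ((E.val : ↥E →ₐ[K] LaurentSeries K) : ↥E →+* LaurentSeries K) (fun a => ?_) b hb
  obtain ⟨y, hy⟩ := coe_algebraMap_adjoin_mem_range hR u hui a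
  have h1 : ((E.val : ↥E →ₐ[K] LaurentSeries K) : ↥E →+* LaurentSeries K)
      (algebraMap ↥(Algebra.adjoin R {u}) ↥E a) = emb R K y := hy.symm
  rw [h1]
  exact RingHom.isIntegralElem_map (emb R K)

/-- **the coefficientwise Gauss sheet passes through the cusp point.** -/
theorem mem_cuspPt_of_gauss_lt_one (hE : E ≤ gaussField R K)
    (hR : ∀ r : R, ((algebraMap R ↥E r : ↥E) : LaurentSeries K) =
      algebraMap K (LaurentSeries K) (algebraMap R K r))
    (u : K') (hu : 0 < ((algebraMap K' ↥E u : ↥E) : LaurentSeries K).order)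
    (hui : ∃ y : LaurentSeries R, emb R K y = ((algebraMap K' ↥E u : ↥E) : LaurentSeries K))
    (b : ↥(chartOne R ↥E u)) (hb : (gaussValSub R K E hE).valuation (b : ↥E) < 1) :
    b ∈ cuspPt hR u hu := by
  obtain ⟨y, hy⟩ := exists_emb_eq_of_mem_chartOne hE hR u hui (b : ↥E) b.2
  have hmem : (b : ↥E) ∈ gaussValSub R K E hE := by
    rw [mem_gaussValSub_iff, ← hy]
    exact emb_mem_gaussInt R K y
  have h1 : (⟨(b : ↥E), hmem⟩ : ↥(gaussValSub R K E hE)) ∈
      IsLocalRing.maximalIdeal ↥(gaussValSub R K E hE) :=
    (ValuationSubring.valuation_lt_one_iff (gaussValSub R K E hE) ⟨(b : ↥E), hmem⟩).mpr hb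
  rw [mem_maximalIdeal_gaussValSub_iff, gaussValRed_apply] at h1
  have h2 : (⟨(((⟨(b : ↥E), hmem⟩ : ↥(gaussValSub R K E hE)) : ↥E) : LaurentSeries K),
      (⟨(b : ↥E), hmem⟩ : ↥(gaussValSub R K E hE)).2⟩ : gaussInt R K) =
      ⟨emb R K y, emb_mem_gaussInt R K y⟩ := Subtype.ext hy.symm
  rw [h2, gaussRed_emb] at h1
  have h3 : IsLocalRing.residue R (y.coeff 0) = 0 := by
    rw [← red_coeff, h1]
    rfl
  rw [mem_cuspPt_iff]
  have h4 : chartConst hR u hu b = y.coeff 0 := by
    apply IsFractionRing.injective R K
    rw [algebraMap_chartConst, ← hy, emb_coeff]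
  rw [h4]
  exact (IsLocalRing.residue_eq_zero_iff _).mp h3

end Coeff

end

end Fermat.Agent.S36
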