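/-
S36 [CUSPPT] — helper1 — part 6: **the cusp point `𝔫∞` of the chart `j⁻¹` of a host** (`j = j(x^w)`,
`w = 2` Legendre, `w = 3` Hesse), and the literal hypotheses of helper4's `cusp36_dvd` at `𝔫∞`.

`E ⊇ K(j(x^w))` any intermediate field of `K⸨x⸩` contained in `Frac R((x))`:

* `exists_emb_eq_inv_jqNModC`, `order_inv_jqNModC` : `j(x^w)⁻¹` is a series over `R` of order `w`;
* `hostCuspPt R K w E` : the cusp point of the chart `j⁻¹` of `E` (a maximal ideal containing
  `π` and `j⁻¹`);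
* `hostCuspPt_hlcπ`, `hostCuspPt_hlcunit` : the two leading-coefficient hypotheses of `cusp36_dvd`
  for `lc := hostLc E`;
* `sheetIdeal_gauss_le_hostCuspPt` : the Gauss sheet passes through `𝔫∞`;
* `hostCuspPt_honly` : with helper7's `IsThreeSheet` (`W20 =` Gauss) and an `SSModel` of the level
  below, the Gauss sheet is the only vertical prime of height one through `𝔫∞`
  (`honly` of `cusp36_dvd`).
-/
import Mathlib
import Fermat.Agent.S36.CUSPPT_helper1_Coeff
import Fermat.Agent.S36.CUSPPT_helper1_Three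
import Fermat.Agent.SS.MODEL_helper7_Defs
import Fermat.Agent.SS.MODEL_helper7_W0

set_option autoImplicit false
set_option linter.unusedSectionVars false
set_option linter.style.haveILetI false
set_option synthInstance.maxHeartbeats 200000

open HahnSeries ModularCurve IntermediateField

namespace Fermat.Agent.S36

open Fermat.Agent.SS Fermat.Agent.JA Fermat.Agent.Igusa

open scoped Fermat.Agent.JA.Host

noncomputable section

section Series

variable (R : Type*) [CommRing R] [IsDomain R] [IsDiscreteValuationRing R]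
  (K : Type*) [Field K] [Algebra R K] [IsFractionRing R K] (w : ℕ) [NeZero w]

/-- `j(x^w)` has an inverse with coefficients in any commutative ring. -/
theorem exists_mul_jqNModC_eq_one (A : Type*) [CommRing A] :
    ∃ y : LaurentSeries A, jqNModC A w * y = 1 := by
  set J : PowerSeries A := jNum.map (Int.castRingHom A) with hJ
  have hJ0 : PowerSeries.constantCoeff J = ((1 : Aˣ) : A) := by
    rw [hJ, ← PowerSeries.coeff_zero_eq_constantCoeff_apply, PowerSeries.coeff_map,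
      PowerSeries.coeff_zero_eq_constantCoeff_apply, constantCoeff_jNum, map_one, Units.val_one]
  have h1 : J * PowerSeries.invOfUnit J 1 = 1 := PowerSeries.mul_invOfUnit J 1 hJ0
  have h3 : jqModC A * (HahnSeries.single (1 : ℤ) 1 *
      HahnSeries.ofPowerSeries ℤ A (PowerSeries.invOfUnit J 1)) = 1 := by
    calc jqModC A * (HahnSeries.single (1 : ℤ) 1 *
          HahnSeries.ofPowerSeries ℤ A (PowerSeries.invOfUnit J 1))
        = (HahnSeries.single (-1 : ℤ) (1 : A) * HahnSeries.single (1 : ℤ) 1) *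
          (HahnSeries.ofPowerSeries ℤ A J *
            HahnSeries.ofPowerSeries ℤ A (PowerSeries.invOfUnit J 1)) := by
          rw [jqModC]; ring
      _ = (HahnSeries.single (-1 : ℤ) (1 : A) * HahnSeries.single (1 : ℤ) 1) *
          HahnSeries.ofPowerSeries ℤ A (J * PowerSeries.invOfUnit J 1) := by rw [map_mul]
      _ = 1 := by
          have e1 : HahnSeries.ofPowerSeries ℤ A (J * PowerSeries.invOfUnit J 1) = 1 := by
            rw [h1]
            exact map_one (HahnSeries.ofPowerSeries ℤ A)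
          have e2 : HahnSeries.single (-1 : ℤ) (1 : A) * HahnSeries.single (1 : ℤ) 1 = 1 := by
            rw [HahnSeries.single_mul_single, neg_add_cancel, mul_one]
            rfl
          rw [e1, e2, mul_one]
  refine ⟨qExpand A w (HahnSeries.single (1 : ℤ) 1 *
    HahnSeries.ofPowerSeries ℤ A (PowerSeries.invOfUnit J 1)), ?_⟩
  rw [jqNModC, ← map_mul, h3, map_one]

/-- **`j(x^w)⁻¹` is a series with coefficients in `R`.** -/
theorem exists_emb_eq_inv_jqNModC :
    ∃ y : LaurentSeries R, emb R K y = (jqNModC K w)⁻¹ := by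
  obtain ⟨y, hy⟩ := exists_mul_jqNModC_eq_one w R
  refine ⟨y, ?_⟩
  have h1 : jqNModC K w * emb R K y = 1 := by
    have h2 : emb R K (jqNModC R w) = jqNModC K w := coeffMap_jqNModC (algebraMap R K) w
    rw [← h2, ← map_mul, hy, map_one]
  exact eq_inv_of_mul_eq_one_right h1

/-- `j(x^w)⁻¹` has order `w`. -/
theorem order_inv_jqNModC : ((jqNModC K w)⁻¹ : LaurentSeries K).order = (w : ℤ) := by
  have hne : jqNModC K w ≠ 0 := by
    intro h0
    have h1 := order_jqNModC_field K w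
    rw [h0, HahnSeries.order_zero] at h1
    have hw : (w : ℤ) ≠ 0 := by exact_mod_cast NeZero.ne w
    omega
  have h2 : (jqNModC K w * (jqNModC K w)⁻¹).order = 0 := by
    rw [mul_inv_cancel₀ hne, HahnSeries.order_one]
  rw [HahnSeries.order_mul hne (inv_ne_zero hne), order_jqNModC_field] at h2
  omega

end Series

section Host

variable (R : Type*) [CommRing R] [IsDomain R] [IsDiscreteValuationRing R]
  (K : Type*) [Field K] [Algebra R K] [IsFractionRing R K] (w : ℕ) [NeZero w]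
  (E : IntermediateField K (LaurentSeries K)) [Fact (K⟮jqNModC K w⟯ ≤ E)]

/-- the constants of `R` in a host. -/
theorem hostCusp_hR (r : R) : ((algebraMap R ↥E r : ↥E) : LaurentSeries K) =
    algebraMap K (LaurentSeries K) (algebraMap R K r) := by
  have h1 : ((algebraMap R ↥E r : ↥E) : LaurentSeries K) = algebraMap R (LaurentSeries K) r := rfl
  rw [h1, IsScalarTower.algebraMap_apply R K (LaurentSeries K)]

/-- the series of the coordinate `j⁻¹`. -/
theorem coe_algebraMap_inv_gen :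
    ((algebraMap ↥K⟮jqNModC K w⟯ ↥E (AdjoinSimple.gen K (jqNModC K w))⁻¹ : ↥E) :
      LaurentSeries K) = (jqNModC K w)⁻¹ := by
  rw [map_inv₀, IntermediateField.coe_inv, Host.coe_algebraMap, AdjoinSimple.coe_gen]

theorem hostCusp_hu :
    0 < ((algebraMap ↥K⟮jqNModC K w⟯ ↥E (AdjoinSimple.gen K (jqNModC K w))⁻¹ : ↥E) :
      LaurentSeries K).order := by
  rw [coe_algebraMap_inv_gen, order_inv_jqNModC]
  exact_mod_cast Nat.pos_of_ne_zero (NeZero.ne w)

theorem hostCusp_hui :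
    ∃ y : LaurentSeries R, emb R K y =
      ((algebraMap ↥K⟮jqNModC K w⟯ ↥E (AdjoinSimple.gen K (jqNModC K w))⁻¹ : ↥E) :
        LaurentSeries K) := by
  rw [coe_algebraMap_inv_gen]
  exact exists_emb_eq_inv_jqNModC R K w

/-- **the cusp point `𝔫∞`** of the chart `j⁻¹` of a host. -/
def hostCuspPt : Ideal ↥(chartOne R ↥E (AdjoinSimple.gen K (jqNModC K w))⁻¹) :=
  cuspPt (hostCusp_hR R K E) (AdjoinSimple.gen K (jqNModC K w))⁻¹ (hostCusp_hu K w E)

instance hostCuspPt_isMaximal : (hostCuspPt R K w E).IsMaximal :=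
  cuspPt_isMaximal (hostCusp_hR R K E) _ (hostCusp_hu K w E)

instance hostCuspPt_isPrime : (hostCuspPt R K w E).IsPrime :=
  (hostCuspPt_isMaximal R K w E).isPrime

theorem algebraMap_mem_hostCuspPt_iff (r : R) :
    algebraMap R ↥(chartOne R ↥E (AdjoinSimple.gen K (jqNModC K w))⁻¹) r ∈ hostCuspPt R K w E ↔
      r ∈ IsLocalRing.maximalIdeal R :=
  algebraMap_mem_cuspPt_iff (hostCusp_hR R K E) _ (hostCusp_hu K w E) r

theorem pi_mem_hostCuspPt {π : R} (hπ : Irreducible π) :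
    algebraMap R ↥(chartOne R ↥E (AdjoinSimple.gen K (jqNModC K w))⁻¹) π ∈ hostCuspPt R K w E := by
  rw [algebraMap_mem_hostCuspPt_iff, IsLocalRing.mem_maximalIdeal, mem_nonunits_iff]
  exact hπ.not_isUnit

theorem coord_mem_hostCuspPt :
    (⟨algebraMap ↥K⟮jqNModC K w⟯ ↥E (AdjoinSimple.gen K (jqNModC K w))⁻¹,
      algebraMap_coord_mem_chartOne (AdjoinSimple.gen K (jqNModC K w))⁻¹⟩ :
        ↥(chartOne R ↥E (AdjoinSimple.gen K (jqNModC K w))⁻¹)) ∈ hostCuspPt R K w E :=
  coord_mem_cuspPt (hostCusp_hR R K E) _ (hostCusp_hu K w E)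

/-- **`hlcπ` of `cusp36_dvd`** at `𝔫∞`. -/
theorem hostCuspPt_hlcπ (r : R) (v : (↥E)ˣ)
    (hv : (v : ↥E) = algebraMap ↥(chartOne R ↥E (AdjoinSimple.gen K (jqNModC K w))⁻¹) ↥E
      (algebraMap R ↥(chartOne R ↥E (AdjoinSimple.gen K (jqNModC K w))⁻¹) r)) :
    ((hostLc E v : Kˣ) : K) = algebraMap R K r :=
  hostLc_algebraMap_of_chart (hostCusp_hR R K E) _ r v hv

/-- **`hlcunit` of `cusp36_dvd`** at `𝔫∞`. -/
theorem hostCuspPt_hlcunit (b : ↥(chartOne R ↥E (AdjoinSimple.gen K (jqNModC K w))⁻¹))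
    (hb : b ∉ hostCuspPt R K w E) (v : (↥E)ˣ)
    (hv : (v : ↥E) = algebraMap ↥(chartOne R ↥E (AdjoinSimple.gen K (jqNModC K w))⁻¹) ↥E b) :
    ∃ ε : Rˣ, ((hostLc E v : Kˣ) : K) = algebraMap R K (ε : R) :=
  hostLc_of_notMem_cuspPt (hostCusp_hR R K E) _ (hostCusp_hu K w E) b hb v hv

/-- **the Gauss sheet passes through `𝔫∞`.** -/
theorem sheetIdeal_gauss_le_hostCuspPt [CharZero R] [FiniteDimensional ↥K⟮jqNModC K w⟯ ↥E]
    (hE : E ≤ gaussField R K)
    (hW : ∀ b ∈ chartOne R ↥E (AdjoinSimple.gen K (jqNModC K w))⁻¹, b ∈ gaussValSub R K E hE) :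
    sheetIdeal (AdjoinSimple.gen K (jqNModC K w))⁻¹ (gaussValSub R K E hE) hW ≤
      hostCuspPt R K w E := by
  intro b hb
  rw [mem_sheetIdeal_iff] at hb
  exact mem_cuspPt_of_gauss_lt_one hE (hostCusp_hR R K E) _ (hostCusp_hu K w E)
    (hostCusp_hui R K w E) b hb

end Host

section Only

variable (R : Type*) [CommRing R] [IsDomain R] [IsDiscreteValuationRing R] [CharZero R]
  (K : Type*) [Field K] [Algebra R K] [IsFractionRing R K] (w : ℕ) [NeZero w]
  (E₁ E : IntermediateField K (LaurentSeries K)) [Fact (K⟮jqNModC K w⟯ ≤ E₁)]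
  [Fact (K⟮jqNModC K w⟯ ≤ E)]
  [FiniteDimensional ↥K⟮jqNModC K w⟯ ↥E₁] [FiniteDimensional ↥K⟮jqNModC K w⟯ ↥E]
  {KM : Type*} [Field KM] [Algebra K KM] [Algebra R KM] [IsScalarTower R K KM]
  {E₀ : Type*} [Field E₀] [Algebra KM E₀] [Algebra K E₀] [IsScalarTower K KM E₀] [Algebra R E₀]
  [IsScalarTower R KM E₀]
  {π : R} {q n : ℕ} {S : Finset R} {t : KM} {jM : E₀} {A₁ B₁ : E₀ →+* ↥E₁}
  {VM : ValuationSubring E₀} {Vinf V0 : ValuationSubring ↥E₁}
  {A B : ↥E₁ →+* ↥E} {W11 W02 : ValuationSubring ↥E} {ϖ δ : ↥E}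

/-- **`honly` of `cusp36_dvd` at `𝔫∞`**: the Gauss sheet `W20` is the only vertical prime of height
one through the cusp point. -/
theorem hostCuspPt_honly (hE : E ≤ gaussField R K)
    (h3 : IsThreeSheet A B q Vinf V0 (gaussValSub R K E hE) W11 W02 ϖ δ)
    (h : SSModel K π q n S t jM (AdjoinSimple.gen K (jqNModC K w)) A₁ B₁ VM Vinf V0)
    (hπ : Irreducible π)
    (hA : ∀ k : ↥K⟮jqNModC K w⟯, A (algebraMap ↥K⟮jqNModC K w⟯ ↥E₁ k) =
      algebraMap ↥K⟮jqNModC K w⟯ ↥E k)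
    (hBR : ∀ r : R, B (algebraMap R ↥E₁ r) = algebraMap R ↥E r)
    (hcomm : B (A₁ jM) = A (B₁ jM))
    (fam : IsSheetFamily π (AdjoinSimple.gen K (jqNModC K w))⁻¹
      (IsThreeSheet.fam (gaussValSub R K E hE) W11 W02))
    (𝔮 : Ideal ↥(chartOne R ↥E (AdjoinSimple.gen K (jqNModC K w))⁻¹)) (h𝔮 : 𝔮.IsPrime)
    (hh : 𝔮.height = 1) (hle : 𝔮 ≤ hostCuspPt R K w E)
    (hπ𝔮 : algebraMap R ↥(chartOne R ↥E (AdjoinSimple.gen K (jqNModC K w))⁻¹) π ∈ 𝔮) :
    𝔮 = sheetIdeal (AdjoinSimple.gen K (jqNModC K w))⁻¹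
      (IsThreeSheet.fam (gaussValSub R K E hE) W11 W02 0) (fam.chart_le 0) := by
  haveI := h𝔮
  have hj' := transcendental_inv_of_transcendental h.j_transcendental
  have hK' := adjoin_inv_eq_top h.j_adjoin
  obtain ⟨i, hi⟩ := fam.exists_eq_of_height_one hπ hj' hK' 𝔮 hh hπ𝔮
  have h0 : sheetIdeal (AdjoinSimple.gen K (jqNModC K w))⁻¹
      (IsThreeSheet.fam (gaussValSub R K E hE) W11 W02 0) (fam.chart_le 0) ≤
      hostCuspPt R K w E :=
    sheetIdeal_gauss_le_hostCuspPt R K w E hE (fam.chart_le 0)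
  have hi0 : i = 0 := h3.eq_of_le_of_cusp h hπ hA hBR hcomm fam (hostCuspPt R K w E)
    (coord_mem_hostCuspPt R K w E) 0 h0 i (hi ▸ hle)
  rw [hi, hi0]

end Only

end

end Fermat.Agent.S36
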