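/-
S36 [LOCAL36] — helper3 — **(T): transfer of branch uniformizers along a residue-degree-one map of
sheets.**

`φ : E' → E` a ring homomorphism of function fields (a degeneracy map), `B' ⊆ E'`, `B ⊆ E` charts with
`φ B' ⊆ B`; `W' ⊆ E'`, `W ⊆ E` sheets with `W ∩ φ E' = φ W'` (`hcomap`) and residue degree one
(`hres`: every element of `W` is congruent modulo `𝔪_W` to an element of `φ W'`); `𝔫` a closed point
of `B` on `W`, `𝔫' = φ⁻¹ 𝔫` the closed point of `B'` below it.  If the branch `W'` is smooth at `𝔫'`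
with uniformizer `u'`, then the branch `W` is smooth at `𝔫` with uniformizer `φ u'`.
No hypothesis of good reduction on the lower level.

* `chartRestrictHom` : the restriction `B' → B` of `φ`;
* `valuation_lt_one_iff_of_comap` : `W'.valuation x < 1 ↔ W.valuation (φ x) < 1`;
* `isBranchUniformizer_map_of_residue` : (T).
-/
import Mathlib
import Fermat.Agent.SS.DVRFORM_helper1

set_option autoImplicit false
set_option linter.unusedSectionVars false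
set_option linter.style.haveILetI false

namespace Fermat.Agent.S36

open Fermat.Agent.SS

section Transfer

variable {R : Type*} [CommRing R] {E' E : Type*} [Field E'] [Field E] [Algebra R E'] [Algebra R E]
  {B' : Subalgebra R E'} {B : Subalgebra R E}

/-- the restriction to the charts of a ring homomorphism of the function fields. -/
def chartRestrictHom (φ : E' →+* E) (hφB : ∀ b ∈ B', φ b ∈ B) : ↥B' →+* ↥B where
  toFun b := ⟨φ b, hφB b b.2⟩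
  map_one' := Subtype.ext (by simp)
  map_mul' x y := Subtype.ext (by simp)
  map_zero' := Subtype.ext (by simp)
  map_add' x y := Subtype.ext (by simp)

@[simp]
theorem coe_chartRestrictHom (φ : E' →+* E) (hφB : ∀ b ∈ B', φ b ∈ B) (b : ↥B') :
    ((chartRestrictHom φ hφB b : ↥B) : E) = φ (b : E') := rfl

/-- in a valuation subring: `v y < 1` iff `y⁻¹ ∉ V` (for `y ≠ 0`). -/
theorem valuation_lt_one_iff_inv_notMem {F : Type*} [Field F] (V : ValuationSubring F) (y : F)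
    (hy : y ≠ 0) : V.valuation y < 1 ↔ y⁻¹ ∉ V := by
  rw [← ValuationSubring.valuation_le_one_iff, map_inv₀, not_le]
  have h0 : V.valuation y ≠ 0 := (Valuation.ne_zero_iff _).mpr hy
  rw [one_lt_inv₀ (zero_lt_iff.mpr h0)]

/-- a ring homomorphism of fields under which `W` restricts to `W'` preserves "valuation `< 1`". -/
theorem valuation_lt_one_iff_of_comap (φ : E' →+* E) {W' : ValuationSubring E'}
    {W : ValuationSubring E} (hcomap : ∀ x : E', x ∈ W' ↔ φ x ∈ W) (x : E') :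
    W'.valuation x < 1 ↔ W.valuation (φ x) < 1 := by
  by_cases hx : x = 0
  · subst hx
    simp
  have hφx : φ x ≠ 0 := (map_ne_zero φ).mpr hx
  rw [valuation_lt_one_iff_inv_notMem W' x hx, valuation_lt_one_iff_inv_notMem W (φ x) hφx,
    hcomap, map_inv₀]

/-- **(T) transfer of a branch uniformizer along a residue-degree-one map of sheets.** -/
theorem isBranchUniformizer_map_of_residue [IsNoetherianRing ↥B'] (φ : E' →+* E)
    (hφB : ∀ b ∈ B', φ b ∈ B)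
    {W' : ValuationSubring E'} {W : ValuationSubring E} (hBW : ∀ b ∈ B, b ∈ W)
    (hcomap : ∀ x : E', x ∈ W' ↔ φ x ∈ W)
    (hres : ∀ x ∈ W, ∃ a ∈ W', W.valuation (x - φ a) < 1)
    {𝔭' : Ideal ↥B'} [h𝔭'p : 𝔭'.IsPrime] (h𝔭' : ∀ b : ↥B', b ∈ 𝔭' ↔ W'.valuation (b : E') < 1)
    (hloc' : ∀ x ∈ W', ∃ r s : ↥B', s ∉ 𝔭' ∧ x * (s : E') = (r : E'))
    {𝔭 : Ideal ↥B} [h𝔭p : 𝔭.IsPrime] (h𝔭 : ∀ b : ↥B, b ∈ 𝔭 ↔ W.valuation (b : E) < 1)
    {𝔫' : Ideal ↥B'} [h𝔫' : 𝔫'.IsMaximal] {𝔫 : Ideal ↥B} [h𝔫 : 𝔫.IsPrime]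
    (hcomap𝔫 : ∀ b : ↥B', b ∈ 𝔫' ↔ chartRestrictHom φ hφB b ∈ 𝔫) (hle : 𝔭 ≤ 𝔫)
    {u' : ↥B'} (hu' : IsBranchUniformizer 𝔭' 𝔫' u') :
    IsBranchUniformizer 𝔭 𝔫 (chartRestrictHom φ hφB u') := by
  classical
  set ψ := chartRestrictHom (B' := B') (B := B) φ hφB with hψ
  have hval := valuation_lt_one_iff_of_comap φ hcomap
  -- `𝔭' = ψ⁻¹ 𝔭`
  have hψ𝔭 : ∀ b : ↥B', b ∈ 𝔭' ↔ ψ b ∈ 𝔭 := by
    intro b
    rw [h𝔭', h𝔭, hval]
    rfl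
  have hle' : 𝔭' ≤ 𝔫' := fun b hb => (hcomap𝔫 b).mpr (hle ((hψ𝔭 b).mp hb))
  refine ⟨(hcomap𝔫 u').mp hu'.mem, fun h => hu'.notMem ((hψ𝔭 u').mpr h), ?_⟩
  intro w hw
  by_cases hw𝔭 : w ∈ 𝔭
  · exact ⟨0, 1, fun h1 => h𝔫.ne_top ((Ideal.eq_top_iff_one _).mpr h1), by
      rw [one_mul, zero_mul, sub_zero]; exact hw𝔭⟩
  -- `w ≡ φ a` on `W`, `a` a unit of `W'`
  obtain ⟨a, haW', hwa⟩ := hres (w : E) (hBW _ w.2)
  obtain ⟨r', s', hs', hars⟩ := hloc' a haW'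
  -- `w * φ s' - φ r' ∈ 𝔭`
  have h1 : w * ψ s' - ψ r' ∈ 𝔭 := by
    rw [h𝔭]
    have h2 : ((w * ψ s' - ψ r' : ↥B) : E) = ((w : E) - φ a) * φ (s' : E') := by
      show (w : E) * φ (s' : E') - φ (r' : E') = _
      rw [← hars, map_mul]; ring
    rw [h2, map_mul]
    have h3 : W.valuation (φ (s' : E')) ≤ 1 :=
      (ValuationSubring.valuation_le_one_iff _ _).mpr (hBW _ (hφB _ s'.2))
    calc W.valuation ((w : E) - φ a) * W.valuation (φ (s' : E'))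
        ≤ W.valuation ((w : E) - φ a) * 1 := mul_le_mul_right h3 _
      _ < 1 := by rw [mul_one]; exact hwa
  -- `r' ∉ 𝔭'`
  have hr' : r' ∉ 𝔭' := by
    intro hr'
    apply hw𝔭
    have h2 : w * ψ s' ∈ 𝔭 := by
      have : w * ψ s' = (w * ψ s' - ψ r') + ψ r' := by ring
      rw [this]
      exact 𝔭.add_mem h1 ((hψ𝔭 r').mp hr')
    exact (h𝔭p.mem_or_mem h2).resolve_right (fun h => hs' ((hψ𝔭 s').mpr h))
  -- DVR forms
  obtain ⟨k, σ₁, e₁, hσ₁, he₁, h4⟩ := hu'.exists_pow_mul_sub_mem hle' r' hr'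
  obtain ⟨l, σ₂, e₂, hσ₂, he₂, h5⟩ := hu'.exists_pow_mul_sub_mem hle' s' hs'
  have hn : ∀ b : ↥B', b ∉ 𝔫' → ψ b ∉ 𝔫 := fun b hb h => hb ((hcomap𝔫 b).mpr h)
  have hψu𝔭 : ψ u' ∉ 𝔭 := fun h => hu'.notMem ((hψ𝔭 u').mpr h)
  -- the congruence `w ψ(σ₁ e₂) ψ(u')^l ≡ ψ(σ₂ e₁) ψ(u')^k`
  have h6 : w * ψ (σ₁ * e₂) * ψ u' ^ l - ψ (σ₂ * e₁) * ψ u' ^ k ∈ 𝔭 := by
    have h7 : w * ψ (σ₁ * e₂) * ψ u' ^ l - ψ (σ₂ * e₁) * ψ u' ^ k =
        ψ σ₁ * ψ σ₂ * (w * ψ s' - ψ r') - w * ψ σ₁ * ψ (σ₂ * s' - e₂ * u' ^ l)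
          + ψ σ₂ * ψ (σ₁ * r' - e₁ * u' ^ k) := by
      simp only [map_mul, map_sub, map_pow]
      ring
    rw [h7]
    exact 𝔭.add_mem (𝔭.sub_mem (𝔭.mul_mem_left _ h1) (𝔭.mul_mem_left _ ((hψ𝔭 _).mp h5)))
      (𝔭.mul_mem_left _ ((hψ𝔭 _).mp h4))
  have hσe : ψ (σ₁ * e₂) ∉ 𝔫 := hn _ (fun h => (h𝔫'.isPrime.mem_or_mem h).elim hσ₁ he₂)
  have hσe' : ψ (σ₂ * e₁) ∉ 𝔫 := hn _ (fun h => (h𝔫'.isPrime.mem_or_mem h).elim hσ₂ he₁)
  rcases lt_or_ge l k with hlk | hlk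
  · -- `l < k`
    obtain ⟨d, rfl⟩ : ∃ d, k = l + (d + 1) := ⟨k - l - 1, by omega⟩
    refine ⟨ψ (σ₂ * e₁) * ψ u' ^ d, ψ (σ₁ * e₂), hσe, ?_⟩
    have h8 : (ψ (σ₁ * e₂) * w - ψ (σ₂ * e₁) * ψ u' ^ d * ψ u') * ψ u' ^ l ∈ 𝔭 := by
      have : (ψ (σ₁ * e₂) * w - ψ (σ₂ * e₁) * ψ u' ^ d * ψ u') * ψ u' ^ l =
          w * ψ (σ₁ * e₂) * ψ u' ^ l - ψ (σ₂ * e₁) * ψ u' ^ (l + (d + 1)) := by
        rw [pow_add, pow_succ]; ring
      rw [this]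
      exact h6
    exact (h𝔭p.mem_or_mem h8).resolve_right (fun h => hψu𝔭 (h𝔭p.mem_of_pow_mem _ h))
  · -- `k ≤ l`: impossible
    exfalso
    obtain ⟨d, rfl⟩ : ∃ d, l = k + d := ⟨l - k, by omega⟩
    have h8 : (w * ψ (σ₁ * e₂) * ψ u' ^ d - ψ (σ₂ * e₁)) * ψ u' ^ k ∈ 𝔭 := by
      have : (w * ψ (σ₁ * e₂) * ψ u' ^ d - ψ (σ₂ * e₁)) * ψ u' ^ k =
          w * ψ (σ₁ * e₂) * ψ u' ^ (k + d) - ψ (σ₂ * e₁) * ψ u' ^ k := by
        rw [pow_add]; ring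
      rw [this]
      exact h6
    have h9 := (h𝔭p.mem_or_mem h8).resolve_right (fun h => hψu𝔭 (h𝔭p.mem_of_pow_mem _ h))
    have h10 : ψ (σ₂ * e₁) ∈ 𝔫 := by
      have : ψ (σ₂ * e₁) = w * ψ (σ₁ * e₂) * ψ u' ^ d -
          (w * ψ (σ₁ * e₂) * ψ u' ^ d - ψ (σ₂ * e₁)) := by ring
      rw [this]
      exact 𝔫.sub_mem (𝔫.mul_mem_right _ (𝔫.mul_mem_right _ hw)) (hle h9)
    exact hσe' h10

end Transfer

end Fermat.Agent.S36
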