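/-
S36 [POINTS36] — helper3 — **(P1a): the fibre of a degeneracy map over a node.**

Two levels: a chart `B₁ ⊆ E₁` (level `M'q`, two sheets `Wr`, `Wi`) and a chart `B ⊆ E` (level
`M'q²`), a ring homomorphism `φ : E₁ → E` with `φ B₁ ⊆ B`, `B` integral over `φ B₁`.  Over `Wr` lie
the sheets `Wa`, `Wb` of `E`; over `Wi` lies the single sheet `Wc`, and the residue extension of
`Wc / Wi` is purely inseparable: `x ^ q ≡ φ a`.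

* `branch_dichotomy` : on a branch which is a discrete valuation ring at the closed point `𝔫₁`, an
  element of the sheet is regular at `𝔫₁` or its inverse vanishes at `𝔫₁` (modulo the sheet);
* `le_of_insep` : two primes of `B` over the same closed point `𝔫₁` of the sheet `Wi`, both on the
  sheet `Wc`, coincide (a purely inseparable map is injective on points);
* `sheet_le_of_under` : going down — every prime of `B` over a point of the sheet `Wi` lies on the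
  sheet `Wc`;
* `fibre_over_node` : over a node `𝔫₁` (a closed point on both sheets `Wr`, `Wi`) there is exactly
  one prime of `B`, and all the three sheets `Wa`, `Wb`, `Wc` pass through it.
-/
import Mathlib
import Fermat.Agent.SS.DVRFORM_helper1
import Fermat.Agent.S36.LOCAL36_helper3_Transfer

set_option autoImplicit false
set_option linter.unusedSectionVars false
set_option linter.style.haveILetI false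

namespace Fermat.Agent.S36

open Fermat.Agent.SS

section Fibre

variable {R : Type*} [CommRing R] {E₁ E : Type*} [Field E₁] [Field E] [Algebra R E₁] [Algebra R E]
  {B₁ : Subalgebra R E₁} {B : Subalgebra R E}

/-- a unit of a valuation subring outside a sheet ideal. -/
theorem valuation_eq_one_of_notMem_sheet {F : Type*} [Field F] [Algebra R F] {C : Subalgebra R F}
    {W : ValuationSubring F} (hCW : ∀ b ∈ C, b ∈ W) {𝔭 : Ideal ↥C}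
    (h𝔭 : ∀ b : ↥C, b ∈ 𝔭 ↔ W.valuation (b : F) < 1) {s : ↥C} (hs : s ∉ 𝔭) :
    W.valuation (s : F) = 1 :=
  le_antisymm ((ValuationSubring.valuation_le_one_iff _ _).mpr (hCW _ s.2))
    (not_lt.mp (fun h => hs ((h𝔭 s).mpr h)))

/-- **the dichotomy on a branch**: `(B₁ ⧸ 𝔭)_𝔫` is a discrete valuation ring with fraction field
the residue field of `W`; an element of `W` is regular at `𝔫` modulo `𝔭`, or its inverse vanishes at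
`𝔫` modulo `𝔭`. -/
theorem branch_dichotomy [IsNoetherianRing ↥B₁] {W : ValuationSubring E₁}
    (hBW : ∀ b ∈ B₁, b ∈ W) {𝔭 : Ideal ↥B₁} [h𝔭p : 𝔭.IsPrime]
    (h𝔭 : ∀ b : ↥B₁, b ∈ 𝔭 ↔ W.valuation (b : E₁) < 1)
    (hloc : ∀ x ∈ W, ∃ r s : ↥B₁, s ∉ 𝔭 ∧ x * (s : E₁) = (r : E₁))
    {𝔫 : Ideal ↥B₁} [h𝔫 : 𝔫.IsMaximal] (hle : 𝔭 ≤ 𝔫) {y : ↥B₁}
    (hy : IsBranchUniformizer 𝔭 𝔫 y) (a : E₁) (ha : a ∈ W) :
    (∃ r s : ↥B₁, s ∉ 𝔫 ∧ W.valuation (a * (s : E₁) - (r : E₁)) < 1) ∨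
    (∃ r s : ↥B₁, r ∈ 𝔫 ∧ s ∉ 𝔫 ∧ W.valuation (a * (r : E₁) - (s : E₁)) < 1) := by
  classical
  haveI : 𝔫.IsPrime := h𝔫.isPrime
  obtain ⟨r₀, s₀, hs₀, h0⟩ := hloc a ha
  have hvs₀ : W.valuation (s₀ : E₁) = 1 := valuation_eq_one_of_notMem_sheet hBW h𝔭 hs₀
  have hs₀0 : (s₀ : E₁) ≠ 0 := fun h => by rw [h, map_zero] at hvs₀; exact zero_ne_one hvs₀
  have ha_eq : a = (r₀ : E₁) * (s₀ : E₁)⁻¹ := by
    rw [← h0, mul_assoc, mul_inv_cancel₀ hs₀0, mul_one]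
  -- a general computation: `W.valuation (n / s₀) < 1` for `n ∈ 𝔭`
  have key : ∀ n : ↥B₁, n ∈ 𝔭 → W.valuation ((n : E₁) * (s₀ : E₁)⁻¹) < 1 := by
    intro n hn
    rw [map_mul, map_inv₀, hvs₀, inv_one, mul_one]
    exact (h𝔭 n).mp hn
  by_cases hr₀ : r₀ ∈ 𝔭
  · left
    refine ⟨0, 1, fun h => h𝔫.ne_top ((Ideal.eq_top_iff_one _).mpr h), ?_⟩
    have h1 : a * ((1 : ↥B₁) : E₁) - ((0 : ↥B₁) : E₁) = (r₀ : E₁) * (s₀ : E₁)⁻¹ := by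
      rw [ha_eq]
      simp
    rw [h1]
    exact key r₀ hr₀
  · obtain ⟨k, σ₀, e₀, hσ₀, he₀, h1⟩ := hy.exists_pow_mul_sub_mem hle s₀ hs₀
    obtain ⟨l, σ₁, e₁, hσ₁, he₁, h2⟩ := hy.exists_pow_mul_sub_mem hle r₀ hr₀
    by_cases hkl : k ≤ l
    · left
      refine ⟨e₁ * σ₀ * y ^ (l - k), σ₁ * e₀,
        fun h => (h𝔫.isPrime.mem_or_mem h).elim hσ₁ he₀, ?_⟩
      have hmem : r₀ * (σ₁ * e₀) - e₁ * σ₀ * y ^ (l - k) * s₀ ∈ 𝔭 := by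
        have hyl : y ^ l = y ^ (l - k) * y ^ k := by
          rw [← pow_add, Nat.sub_add_cancel hkl]
        have : r₀ * (σ₁ * e₀) - e₁ * σ₀ * y ^ (l - k) * s₀ =
            e₀ * (σ₁ * r₀ - e₁ * y ^ l) - e₁ * y ^ (l - k) * (σ₀ * s₀ - e₀ * y ^ k) := by
          rw [hyl]; ring
        rw [this]
        exact 𝔭.sub_mem (𝔭.mul_mem_left _ h2) (𝔭.mul_mem_left _ h1)
      have h3 : a * ((σ₁ * e₀ : ↥B₁) : E₁) - ((e₁ * σ₀ * y ^ (l - k) : ↥B₁) : E₁) =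
          ((r₀ * (σ₁ * e₀) - e₁ * σ₀ * y ^ (l - k) * s₀ : ↥B₁) : E₁) * (s₀ : E₁)⁻¹ := by
        rw [ha_eq]
        push_cast
        field_simp
      rw [h3]
      exact key _ hmem
    · right
      have hlk : l < k := not_le.mp hkl
      refine ⟨σ₁ * e₀ * y ^ (k - l), e₁ * σ₀, ?_,
        fun h => (h𝔫.isPrime.mem_or_mem h).elim he₁ hσ₀, ?_⟩
      · refine 𝔫.mul_mem_left _ ?_
        have : k - l = (k - l - 1) + 1 := by omega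
        rw [this, pow_succ]
        exact 𝔫.mul_mem_left _ hy.mem
      have hmem : r₀ * (σ₁ * e₀ * y ^ (k - l)) - e₁ * σ₀ * s₀ ∈ 𝔭 := by
        have hyk : y ^ k = y ^ (k - l) * y ^ l := by
          rw [← pow_add, Nat.sub_add_cancel hlk.le]
        have : r₀ * (σ₁ * e₀ * y ^ (k - l)) - e₁ * σ₀ * s₀ =
            e₀ * y ^ (k - l) * (σ₁ * r₀ - e₁ * y ^ l) - e₁ * (σ₀ * s₀ - e₀ * y ^ k) := by
          rw [hyk]; ring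
        rw [this]
        exact 𝔭.sub_mem (𝔭.mul_mem_left _ h2) (𝔭.mul_mem_left _ h1)
      have h3 : a * ((σ₁ * e₀ * y ^ (k - l) : ↥B₁) : E₁) - ((e₁ * σ₀ : ↥B₁) : E₁) =
          ((r₀ * (σ₁ * e₀ * y ^ (k - l)) - e₁ * σ₀ * s₀ : ↥B₁) : E₁) * (s₀ : E₁)⁻¹ := by
        rw [ha_eq]
        push_cast
        field_simp
      rw [h3]
      exact key _ hmem

/-- **a purely inseparable sheet map is injective on points**: two primes of `B` over the same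
closed point of the sheet `Wi`, both on the sheet `Wc`, are comparable. -/
theorem le_of_insep [IsNoetherianRing ↥B₁] (φ : E₁ →+* E) (hφB : ∀ b ∈ B₁, φ b ∈ B)
    {Wi : ValuationSubring E₁} {Wc : ValuationSubring E}
    (hB₁W : ∀ b ∈ B₁, b ∈ Wi) (hBW : ∀ b ∈ B, b ∈ Wc)
    (hcomap : ∀ x : E₁, x ∈ Wi ↔ φ x ∈ Wc)
    {𝔭i : Ideal ↥B₁} [h𝔭ip : 𝔭i.IsPrime] (h𝔭i : ∀ b : ↥B₁, b ∈ 𝔭i ↔ Wi.valuation (b : E₁) < 1)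
    (hloc : ∀ x ∈ Wi, ∃ r s : ↥B₁, s ∉ 𝔭i ∧ x * (s : E₁) = (r : E₁))
    {𝔭c : Ideal ↥B} (h𝔭c : ∀ b : ↥B, b ∈ 𝔭c ↔ Wc.valuation (b : E) < 1)
    {q : ℕ} (hq : 0 < q) (hins : ∀ x ∈ Wc, ∃ a ∈ Wi, Wc.valuation (x ^ q - φ a) < 1)
    {𝔫₁ : Ideal ↥B₁} [h𝔫₁ : 𝔫₁.IsMaximal] (hle₁ : 𝔭i ≤ 𝔫₁) {y : ↥B₁}
    (hy : IsBranchUniformizer 𝔭i 𝔫₁ y)
    {𝔫 𝔫' : Ideal ↥B} [h𝔫 : 𝔫.IsPrime] [h𝔫' : 𝔫'.IsPrime]
    (hu : ∀ b : ↥B₁, b ∈ 𝔫₁ ↔ chartRestrictHom φ hφB b ∈ 𝔫)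
    (hu' : ∀ b : ↥B₁, b ∈ 𝔫₁ ↔ chartRestrictHom φ hφB b ∈ 𝔫')
    (hc : 𝔭c ≤ 𝔫) (hc' : 𝔭c ≤ 𝔫') : 𝔫 ≤ 𝔫' := by
  classical
  set ψ := chartRestrictHom (B' := B₁) (B := B) φ hφB with hψ
  have hval := valuation_lt_one_iff_of_comap φ hcomap
  intro x hx
  obtain ⟨a, haW, hxa⟩ := hins (x : E) (hBW _ x.2)
  -- the valuation of a product with an integral element
  have hmul : ∀ (b : ↥B) (e : E), Wc.valuation e < 1 → Wc.valuation ((b : E) * e) < 1 := by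
    intro b e he
    rw [map_mul]
    calc Wc.valuation (b : E) * Wc.valuation e ≤ 1 * Wc.valuation e :=
          mul_le_mul_left ((ValuationSubring.valuation_le_one_iff _ _).mpr (hBW _ b.2)) _
      _ < 1 := by rw [one_mul]; exact he
  rcases branch_dichotomy hB₁W h𝔭i hloc hle₁ hy a haW with ⟨r, s, hs, hrs⟩ | ⟨r, s, hr, hs, hrs⟩
  · -- `a` is regular at `𝔫₁`
    have hmem : ψ s * x ^ q - ψ r ∈ 𝔭c := by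
      rw [h𝔭c]
      have h1 : ((ψ s * x ^ q - ψ r : ↥B) : E) =
          ((ψ s : ↥B) : E) * ((x : E) ^ q - φ a) + φ (a * (s : E₁) - (r : E₁)) := by
        push_cast
        rw [hψ, coe_chartRestrictHom, coe_chartRestrictHom, map_sub, map_mul]
        ring
      rw [h1]
      exact lt_of_le_of_lt (Valuation.map_add _ _ _)
        (max_lt (hmul _ _ hxa) ((hval _).mp hrs))
    have h2 : ψ r ∈ 𝔫 := by
      have h3 : ψ s * x ^ q ∈ 𝔫 := 𝔫.mul_mem_left _ (Ideal.pow_mem_of_mem 𝔫 hx q hq)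
      have := 𝔫.sub_mem h3 (hc hmem)
      rwa [sub_sub_cancel] at this
    have h4 : ψ r ∈ 𝔫' := (hu' r).mp ((hu r).mpr h2)
    have h5 : ψ s * x ^ q ∈ 𝔫' := by
      have := 𝔫'.add_mem (hc' hmem) h4
      rwa [sub_add_cancel] at this
    have h6 : ψ s ∉ 𝔫' := fun h => hs ((hu' s).mpr h)
    exact h𝔫'.mem_of_pow_mem q ((h𝔫'.mem_or_mem h5).resolve_left h6)
  · -- the inverse of `a` vanishes at `𝔫₁`: impossible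
    exfalso
    have hmem : x ^ q * ψ r - ψ s ∈ 𝔭c := by
      rw [h𝔭c]
      have h1 : ((x ^ q * ψ r - ψ s : ↥B) : E) =
          ((ψ r : ↥B) : E) * ((x : E) ^ q - φ a) + φ (a * (r : E₁) - (s : E₁)) := by
        push_cast
        rw [hψ, coe_chartRestrictHom, coe_chartRestrictHom, map_sub, map_mul]
        ring
      rw [h1]
      exact lt_of_le_of_lt (Valuation.map_add _ _ _)
        (max_lt (hmul _ _ hxa) ((hval _).mp hrs))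
    have h2 : x ^ q * ψ r ∈ 𝔫 := 𝔫.mul_mem_left _ ((hu r).mp hr)
    have h3 : ψ s ∈ 𝔫 := by
      have := 𝔫.sub_mem h2 (hc hmem)
      rwa [sub_sub_cancel] at this
    exact hs ((hu s).mpr h3)

/-- **going down**: every prime of `B` over a point of the sheet `Wi` lies on the sheet `Wc`, the
only sheet of `B` over `Wi`. -/
theorem sheet_le_of_under [IsIntegrallyClosed ↥B₁] (φ : E₁ →+* E) (hφB : ∀ b ∈ B₁, φ b ∈ B)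
    (hint : (chartRestrictHom (B' := B₁) (B := B) φ hφB).IsIntegral)
    {𝔭r 𝔭i : Ideal ↥B₁} [h𝔭ip : 𝔭i.IsPrime] (hri : ¬ 𝔭r ≤ 𝔭i)
    {𝔭a 𝔭b 𝔭c : Ideal ↥B}
    (hra : ∀ b ∈ 𝔭r, chartRestrictHom φ hφB b ∈ 𝔭a)
    (hrb : ∀ b ∈ 𝔭r, chartRestrictHom φ hφB b ∈ 𝔭b)
    {ϖ : ↥B₁} (hϖ : ϖ ∈ 𝔭i)
    (hcover : ∀ 𝔮 : Ideal ↥B, 𝔮.IsPrime → chartRestrictHom φ hφB ϖ ∈ 𝔮 →
      𝔭a ≤ 𝔮 ∨ 𝔭b ≤ 𝔮 ∨ 𝔭c ≤ 𝔮)
    {𝔫₁ : Ideal ↥B₁} [h𝔫₁ : 𝔫₁.IsPrime] (hle₁ : 𝔭i ≤ 𝔫₁)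
    {𝔫 : Ideal ↥B} [h𝔫 : 𝔫.IsPrime]
    (hu : ∀ b : ↥B₁, b ∈ 𝔫₁ ↔ chartRestrictHom φ hφB b ∈ 𝔫) : 𝔭c ≤ 𝔫 := by
  classical
  letI : Algebra ↥B₁ ↥B := (chartRestrictHom (B' := B₁) (B := B) φ hφB).toAlgebra
  haveI : Algebra.IsIntegral ↥B₁ ↥B := ⟨hint⟩
  have hinj : Function.Injective (algebraMap ↥B₁ ↥B) := by
    intro a b hab
    have h1 : φ (a : E₁) = φ (b : E₁) := congrArg (fun z : ↥B => (z : E)) hab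
    exact Subtype.ext (φ.injective h1)
  haveI : FaithfulSMul ↥B₁ ↥B := (faithfulSMul_iff_algebraMap_injective _ _).mpr hinj
  haveI : 𝔫.LiesOver 𝔫₁ := ⟨Ideal.ext (fun b => hu b)⟩
  obtain ⟨P, hP𝔫, hPp, hPo⟩ := Ideal.exists_ideal_le_liesOver_of_le (p := 𝔭i) (q := 𝔫₁) 𝔫 hle₁
  have hPmem : ∀ b : ↥B₁, b ∈ 𝔭i ↔ chartRestrictHom φ hφB b ∈ P := by
    intro b
    have := hPo.over
    rw [this]
    rfl
  have hϖP : chartRestrictHom φ hφB ϖ ∈ P := (hPmem ϖ).mp hϖ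
  rcases hcover P hPp hϖP with h | h | h
  · exact absurd (fun b hb => (hPmem b).mpr (h (hra b hb))) hri
  · exact absurd (fun b hb => (hPmem b).mpr (h (hrb b hb))) hri
  · exact h.trans hP𝔫

/-- **the fibre over a node**: over a closed point `𝔫₁` of `B₁` lying on both sheets `Wr`, `Wi`
there is exactly one prime of `B`, and the three sheets `Wa`, `Wb` (over `Wr`) and `Wc` (over `Wi`,
purely inseparable) pass through it. -/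
theorem fibre_over_node [IsNoetherianRing ↥B₁] [IsIntegrallyClosed ↥B₁] (φ : E₁ →+* E)
    (hφB : ∀ b ∈ B₁, φ b ∈ B)
    (hint : (chartRestrictHom (B' := B₁) (B := B) φ hφB).IsIntegral)
    {Wr Wi : ValuationSubring E₁} {Wa Wb Wc : ValuationSubring E}
    (hB₁i : ∀ b ∈ B₁, b ∈ Wi) (hBc : ∀ b ∈ B, b ∈ Wc)
    (hcomap_a : ∀ x : E₁, x ∈ Wr ↔ φ x ∈ Wa) (hcomap_b : ∀ x : E₁, x ∈ Wr ↔ φ x ∈ Wb)
    (hcomap_c : ∀ x : E₁, x ∈ Wi ↔ φ x ∈ Wc)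
    {𝔭r 𝔭i : Ideal ↥B₁} [h𝔭ip : 𝔭i.IsPrime]
    (h𝔭r : ∀ b : ↥B₁, b ∈ 𝔭r ↔ Wr.valuation (b : E₁) < 1)
    (h𝔭i : ∀ b : ↥B₁, b ∈ 𝔭i ↔ Wi.valuation (b : E₁) < 1) (hri : ¬ 𝔭r ≤ 𝔭i)
    (hloc : ∀ x ∈ Wi, ∃ r s : ↥B₁, s ∉ 𝔭i ∧ x * (s : E₁) = (r : E₁))
    {𝔭a 𝔭b 𝔭c : Ideal ↥B}
    (h𝔭a : ∀ b : ↥B, b ∈ 𝔭a ↔ Wa.valuation (b : E) < 1)
    (h𝔭b : ∀ b : ↥B, b ∈ 𝔭b ↔ Wb.valuation (b : E) < 1)
    (h𝔭c : ∀ b : ↥B, b ∈ 𝔭c ↔ Wc.valuation (b : E) < 1)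
    {ϖ : ↥B₁} (hϖ : ϖ ∈ 𝔭i)
    (hcover : ∀ 𝔮 : Ideal ↥B, 𝔮.IsPrime → chartRestrictHom φ hφB ϖ ∈ 𝔮 →
      𝔭a ≤ 𝔮 ∨ 𝔭b ≤ 𝔮 ∨ 𝔭c ≤ 𝔮)
    {q : ℕ} (hq : 0 < q) (hins : ∀ x ∈ Wc, ∃ a ∈ Wi, Wc.valuation (x ^ q - φ a) < 1)
    {𝔫₁ : Ideal ↥B₁} [h𝔫₁ : 𝔫₁.IsMaximal] (hr₁ : 𝔭r ≤ 𝔫₁) (hi₁ : 𝔭i ≤ 𝔫₁) {y : ↥B₁}
    (hy : IsBranchUniformizer 𝔭i 𝔫₁ y) :
    (∀ 𝔫 : Ideal ↥B, 𝔫.IsPrime → (∀ b : ↥B₁, b ∈ 𝔫₁ ↔ chartRestrictHom φ hφB b ∈ 𝔫) →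
      𝔭a ≤ 𝔫 ∧ 𝔭b ≤ 𝔫 ∧ 𝔭c ≤ 𝔫) ∧
    (∀ 𝔫 𝔫' : Ideal ↥B, 𝔫.IsPrime → 𝔫'.IsPrime →
      (∀ b : ↥B₁, b ∈ 𝔫₁ ↔ chartRestrictHom φ hφB b ∈ 𝔫) →
      (∀ b : ↥B₁, b ∈ 𝔫₁ ↔ chartRestrictHom φ hφB b ∈ 𝔫') → 𝔫 = 𝔫') := by
  classical
  haveI : 𝔫₁.IsPrime := h𝔫₁.isPrime
  have hvala := valuation_lt_one_iff_of_comap φ hcomap_a
  have hvalb := valuation_lt_one_iff_of_comap φ hcomap_b
  have hra : ∀ b ∈ 𝔭r, chartRestrictHom φ hφB b ∈ 𝔭a := fun b hb =>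
    (h𝔭a _).mpr ((hvala _).mp ((h𝔭r b).mp hb))
  have hrb : ∀ b ∈ 𝔭r, chartRestrictHom φ hφB b ∈ 𝔭b := fun b hb =>
    (h𝔭b _).mpr ((hvalb _).mp ((h𝔭r b).mp hb))
  -- every prime over `𝔫₁` lies on `Wc`
  have hc : ∀ 𝔫 : Ideal ↥B, 𝔫.IsPrime →
      (∀ b : ↥B₁, b ∈ 𝔫₁ ↔ chartRestrictHom φ hφB b ∈ 𝔫) → 𝔭c ≤ 𝔫 := by
    intro 𝔫 h𝔫 hu
    haveI := h𝔫
    exact sheet_le_of_under φ hφB hint hri hra hrb hϖ hcover hi₁ hu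
  -- uniqueness
  have huniq : ∀ 𝔫 𝔫' : Ideal ↥B, 𝔫.IsPrime → 𝔫'.IsPrime →
      (∀ b : ↥B₁, b ∈ 𝔫₁ ↔ chartRestrictHom φ hφB b ∈ 𝔫) →
      (∀ b : ↥B₁, b ∈ 𝔫₁ ↔ chartRestrictHom φ hφB b ∈ 𝔫') → 𝔫 = 𝔫' := by
    intro 𝔫 𝔫' h𝔫 h𝔫' hu hu'
    haveI := h𝔫
    haveI := h𝔫'
    exact le_antisymm
      (le_of_insep φ hφB hB₁i hBc hcomap_c h𝔭i hloc h𝔭c hq hins hi₁ hy hu hu'
        (hc 𝔫 h𝔫 hu) (hc 𝔫' h𝔫' hu'))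
      (le_of_insep φ hφB hB₁i hBc hcomap_c h𝔭i hloc h𝔭c hq hins hi₁ hy hu' hu
        (hc 𝔫' h𝔫' hu') (hc 𝔫 h𝔫 hu))
  refine ⟨?_, huniq⟩
  intro 𝔫 h𝔫 hu
  haveI := h𝔫
  letI : Algebra ↥B₁ ↥B := (chartRestrictHom (B' := B₁) (B := B) φ hφB).toAlgebra
  haveI : Algebra.IsIntegral ↥B₁ ↥B := ⟨hint⟩
  -- going up along the sheets over `Wr`
  have hup : ∀ (𝔭x : Ideal ↥B) (Wx : ValuationSubring E),
      (∀ b : ↥B, b ∈ 𝔭x ↔ Wx.valuation (b : E) < 1) → (∀ x : E₁, x ∈ Wr ↔ φ x ∈ Wx) →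
      𝔭x ≤ 𝔫 := by
    intro 𝔭x Wx h𝔭x hcomap_x
    have hvalx := valuation_lt_one_iff_of_comap φ hcomap_x
    have hIP : 𝔭x.comap (algebraMap ↥B₁ ↥B) ≤ 𝔫₁ := by
      intro b hb
      apply hr₁
      rw [h𝔭r, hvalx]
      exact (h𝔭x _).mp hb
    obtain ⟨Q, hQ, hQp, hQo⟩ := Ideal.exists_ideal_over_prime_of_isIntegral 𝔫₁ 𝔭x hIP
    have hu' : ∀ b : ↥B₁, b ∈ 𝔫₁ ↔ chartRestrictHom φ hφB b ∈ Q := by
      intro b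
      rw [← hQo]
      rfl
    rw [huniq 𝔫 Q h𝔫 hQp hu hu']
    exact hQ
  exact ⟨hup 𝔭a Wa h𝔭a hcomap_a, hup 𝔭b Wb h𝔭b hcomap_b, hc 𝔫 h𝔫 hu⟩

end Fibre

end Fermat.Agent.S36
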