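/-
S36 [POINTS36] — helper3 — **(P1b): classification of the closed points of the three-sheet chart.**

Level `M'q`: a chart `B₁ ⊆ E₁` with two sheets `W10`, `W01`; level `M'q²`: a chart `B ⊆ E` with
three sheets `W20`, `W11`, `W02`; two degeneracy maps `α β : E₁ → E` (`A'`, `B'`) with
`W20, W11 ↦ W10`, `W02 ↦ W01` along `α` (purely inseparable on `W02`), and `W20 ↦ W10` (purely
inseparable), `W11, W02 ↦ W01` along `β`.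

* `three_sheet_classification` : a closed point `𝔫` of `B` through which two of the three sheets
  pass lies on all three; its contractions `𝔫_α`, `𝔫_β` are nodes of `B₁`, and `𝔫` is the only prime
  of `B` over `𝔫_α`, and the only prime over `𝔫_β`.
-/
import Mathlib
import Fermat.Agent.S36.POINTS36_helper3_Fibre

set_option autoImplicit false
set_option linter.unusedSectionVars false
set_option linter.style.haveILetI false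

namespace Fermat.Agent.S36

open Fermat.Agent.SS

section Class

variable {R : Type*} [CommRing R] {E₁ E : Type*} [Field E₁] [Field E] [Algebra R E₁] [Algebra R E]
  {B₁ : Subalgebra R E₁} {B : Subalgebra R E}

/-- the contraction of a sheet ideal along a sheet map. -/
theorem sheet_comap_le (φ : E₁ →+* E) (hφB : ∀ b ∈ B₁, φ b ∈ B)
    {W' : ValuationSubring E₁} {W : ValuationSubring E} (hcomap : ∀ x : E₁, x ∈ W' ↔ φ x ∈ W)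
    {𝔭' : Ideal ↥B₁} (h𝔭' : ∀ b : ↥B₁, b ∈ 𝔭' ↔ W'.valuation (b : E₁) < 1)
    {𝔭 : Ideal ↥B} (h𝔭 : ∀ b : ↥B, b ∈ 𝔭 ↔ W.valuation (b : E) < 1)
    {𝔫 : Ideal ↥B} (hle : 𝔭 ≤ 𝔫) : 𝔭' ≤ 𝔫.comap (chartRestrictHom φ hφB) := by
  intro b hb
  rw [Ideal.mem_comap]
  apply hle
  rw [h𝔭]
  exact (valuation_lt_one_iff_of_comap φ hcomap _).mp ((h𝔭' b).mp hb)

/-- **classification of the closed points of the three-sheet chart.** -/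
theorem three_sheet_classification [IsNoetherianRing ↥B₁] [IsIntegrallyClosed ↥B₁]
    (α β : E₁ →+* E) (hαB : ∀ b ∈ B₁, α b ∈ B) (hβB : ∀ b ∈ B₁, β b ∈ B)
    (hαR : ∀ r : R, α (algebraMap R E₁ r) = algebraMap R E r)
    (hβR : ∀ r : R, β (algebraMap R E₁ r) = algebraMap R E r)
    (hαint : (chartRestrictHom (B' := B₁) (B := B) α hαB).IsIntegral)
    (hβint : (chartRestrictHom (B' := B₁) (B := B) β hβB).IsIntegral)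
    {W10 W01 : ValuationSubring E₁} {W20 W11 W02 : ValuationSubring E}
    (hB₁10 : ∀ b ∈ B₁, b ∈ W10) (hB₁01 : ∀ b ∈ B₁, b ∈ W01)
    (hB20 : ∀ b ∈ B, b ∈ W20) (hB02 : ∀ b ∈ B, b ∈ W02)
    (hα20 : ∀ x : E₁, x ∈ W10 ↔ α x ∈ W20) (hα11 : ∀ x : E₁, x ∈ W10 ↔ α x ∈ W11)
    (hα02 : ∀ x : E₁, x ∈ W01 ↔ α x ∈ W02)
    (hβ20 : ∀ x : E₁, x ∈ W10 ↔ β x ∈ W20) (hβ11 : ∀ x : E₁, x ∈ W01 ↔ β x ∈ W11)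
    (hβ02 : ∀ x : E₁, x ∈ W01 ↔ β x ∈ W02)
    {𝔭10 𝔭01 : Ideal ↥B₁} [h10p : 𝔭10.IsPrime] [h01p : 𝔭01.IsPrime]
    (h𝔭10 : ∀ b : ↥B₁, b ∈ 𝔭10 ↔ W10.valuation (b : E₁) < 1)
    (h𝔭01 : ∀ b : ↥B₁, b ∈ 𝔭01 ↔ W01.valuation (b : E₁) < 1)
    (hne : ¬ 𝔭10 ≤ 𝔭01) (hne' : ¬ 𝔭01 ≤ 𝔭10)
    (hloc10 : ∀ x ∈ W10, ∃ r s : ↥B₁, s ∉ 𝔭10 ∧ x * (s : E₁) = (r : E₁))
    (hloc01 : ∀ x ∈ W01, ∃ r s : ↥B₁, s ∉ 𝔭01 ∧ x * (s : E₁) = (r : E₁))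
    {𝔭20 𝔭11 𝔭02 : Ideal ↥B}
    (h𝔭20 : ∀ b : ↥B, b ∈ 𝔭20 ↔ W20.valuation (b : E) < 1)
    (h𝔭11 : ∀ b : ↥B, b ∈ 𝔭11 ↔ W11.valuation (b : E) < 1)
    (h𝔭02 : ∀ b : ↥B, b ∈ 𝔭02 ↔ W02.valuation (b : E) < 1)
    {π : R} (hπ10 : algebraMap R ↥B₁ π ∈ 𝔭10) (hπ01 : algebraMap R ↥B₁ π ∈ 𝔭01)
    (hcover : ∀ 𝔮 : Ideal ↥B, 𝔮.IsPrime → algebraMap R ↥B π ∈ 𝔮 →
      𝔭20 ≤ 𝔮 ∨ 𝔭11 ≤ 𝔮 ∨ 𝔭02 ≤ 𝔮)
    {q : ℕ} (hq : 0 < q)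
    (hinsα : ∀ x ∈ W02, ∃ a ∈ W01, W02.valuation (x ^ q - α a) < 1)
    (hinsβ : ∀ x ∈ W20, ∃ a ∈ W10, W20.valuation (x ^ q - β a) < 1)
    (hnode : ∀ 𝔫₁ : Ideal ↥B₁, 𝔫₁.IsMaximal → 𝔭10 ≤ 𝔫₁ → 𝔭01 ≤ 𝔫₁ →
      ∃ x y : ↥B₁, IsBranchUniformizer 𝔭10 𝔫₁ x ∧ IsBranchUniformizer 𝔭01 𝔫₁ y)
    (𝔫 : Ideal ↥B) [h𝔫 : 𝔫.IsMaximal]
    (htwo : (𝔭20 ≤ 𝔫 ∧ 𝔭11 ≤ 𝔫) ∨ (𝔭20 ≤ 𝔫 ∧ 𝔭02 ≤ 𝔫) ∨ (𝔭11 ≤ 𝔫 ∧ 𝔭02 ≤ 𝔫)) :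
    (𝔭20 ≤ 𝔫 ∧ 𝔭11 ≤ 𝔫 ∧ 𝔭02 ≤ 𝔫) ∧
    (𝔭10 ≤ 𝔫.comap (chartRestrictHom α hαB) ∧ 𝔭01 ≤ 𝔫.comap (chartRestrictHom α hαB)) ∧
    (𝔭10 ≤ 𝔫.comap (chartRestrictHom β hβB) ∧ 𝔭01 ≤ 𝔫.comap (chartRestrictHom β hβB)) ∧
    (∀ 𝔫' : Ideal ↥B, 𝔫'.IsPrime →
      𝔫'.comap (chartRestrictHom α hαB) = 𝔫.comap (chartRestrictHom α hαB) → 𝔫' = 𝔫) ∧
    (∀ 𝔫' : Ideal ↥B, 𝔫'.IsPrime →
      𝔫'.comap (chartRestrictHom β hβB) = 𝔫.comap (chartRestrictHom β hβB) → 𝔫' = 𝔫) := by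
  classical
  haveI : 𝔫.IsPrime := h𝔫.isPrime
  set ψα := chartRestrictHom (B' := B₁) (B := B) α hαB with hψα
  set ψβ := chartRestrictHom (B' := B₁) (B := B) β hβB with hψβ
  haveI hmα : (𝔫.comap ψα).IsMaximal :=
    Ideal.isMaximal_comap_of_isIntegral_of_isMaximal' ψα hαint 𝔫
  haveI hmβ : (𝔫.comap ψβ).IsMaximal :=
    Ideal.isMaximal_comap_of_isIntegral_of_isMaximal' ψβ hβint 𝔫
  have hψαπ : ψα (algebraMap R ↥B₁ π) = algebraMap R ↥B π := Subtype.ext (hαR π)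
  have hψβπ : ψβ (algebraMap R ↥B₁ π) = algebraMap R ↥B π := Subtype.ext (hβR π)
  -- the two fibre lemmas
  have fibα := fun (hr : 𝔭10 ≤ 𝔫.comap ψα) (hi : 𝔭01 ≤ 𝔫.comap ψα) =>
    (fun (y : ↥B₁) (hy : IsBranchUniformizer 𝔭01 (𝔫.comap ψα) y) =>
      fibre_over_node α hαB hαint hB₁01 hB02 hα20 hα11 hα02 h𝔭10 h𝔭01 hne hloc01 h𝔭20 h𝔭11 h𝔭02
        hπ01 (fun 𝔮 h𝔮 hm => hcover 𝔮 h𝔮 (by rw [← hψαπ]; exact hm)) hq hinsα hr hi hy)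
  have fibβ := fun (hr : 𝔭01 ≤ 𝔫.comap ψβ) (hi : 𝔭10 ≤ 𝔫.comap ψβ) =>
    (fun (y : ↥B₁) (hy : IsBranchUniformizer 𝔭10 (𝔫.comap ψβ) y) =>
      fibre_over_node β hβB hβint hB₁10 hB20 hβ02 hβ11 hβ20 h𝔭01 h𝔭10 hne' hloc10 h𝔭02 h𝔭11 h𝔭20
        hπ10 (fun 𝔮 h𝔮 hm => by
          rcases hcover 𝔮 h𝔮 (by rw [← hψβπ]; exact hm) with h | h | h
          · exact Or.inr (Or.inr h)
          · exact Or.inr (Or.inl h)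
          · exact Or.inl h) hq hinsβ hr hi hy)
  -- contractions of the sheets
  have cα20 := fun h => sheet_comap_le α hαB hα20 h𝔭10 h𝔭20 (𝔫 := 𝔫) h
  have cα11 := fun h => sheet_comap_le α hαB hα11 h𝔭10 h𝔭11 (𝔫 := 𝔫) h
  have cα02 := fun h => sheet_comap_le α hαB hα02 h𝔭01 h𝔭02 (𝔫 := 𝔫) h
  have cβ20 := fun h => sheet_comap_le β hβB hβ20 h𝔭10 h𝔭20 (𝔫 := 𝔫) h
  have cβ11 := fun h => sheet_comap_le β hβB hβ11 h𝔭01 h𝔭11 (𝔫 := 𝔫) h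
  have cβ02 := fun h => sheet_comap_le β hβB hβ02 h𝔭01 h𝔭02 (𝔫 := 𝔫) h
  -- step 1: all the three sheets pass through `𝔫`
  have hall : 𝔭20 ≤ 𝔫 ∧ 𝔭11 ≤ 𝔫 ∧ 𝔭02 ≤ 𝔫 := by
    rcases htwo with ⟨h1, h2⟩ | ⟨h1, h2⟩ | ⟨h1, h2⟩
    · -- `W20`, `W11`: node along `β`
      obtain ⟨x, y, hx, hy⟩ := hnode _ hmβ (cβ20 h1) (cβ11 h2)
      obtain ⟨h3, h4, h5⟩ := (fibβ (cβ11 h2) (cβ20 h1) x hx).1 𝔫 inferInstance (fun b => Iff.rfl)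
      exact ⟨h5, h4, h3⟩
    · -- `W20`, `W02`: node along `α`
      obtain ⟨x, y, hx, hy⟩ := hnode _ hmα (cα20 h1) (cα02 h2)
      exact (fibα (cα20 h1) (cα02 h2) y hy).1 𝔫 inferInstance (fun b => Iff.rfl)
    · -- `W11`, `W02`: node along `α`
      obtain ⟨x, y, hx, hy⟩ := hnode _ hmα (cα11 h1) (cα02 h2)
      exact (fibα (cα11 h1) (cα02 h2) y hy).1 𝔫 inferInstance (fun b => Iff.rfl)
  obtain ⟨h20, h11, h02⟩ := hall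
  refine ⟨⟨h20, h11, h02⟩, ⟨cα20 h20, cα02 h02⟩, ⟨cβ20 h20, cβ02 h02⟩, ?_, ?_⟩
  · intro 𝔫' h𝔫' heq
    obtain ⟨x, y, hx, hy⟩ := hnode _ hmα (cα20 h20) (cα02 h02)
    refine (fibα (cα20 h20) (cα02 h02) y hy).2 𝔫' 𝔫 h𝔫' inferInstance (fun b => ?_)
      (fun b => Iff.rfl)
    rw [← heq]
    rfl
  · intro 𝔫' h𝔫' heq
    obtain ⟨x, y, hx, hy⟩ := hnode _ hmβ (cβ20 h20) (cβ02 h02)
    refine (fibβ (cβ02 h02) (cβ20 h20) x hx).2 𝔫' 𝔫 h𝔫' inferInstance (fun b => ?_)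
      (fun b => Iff.rfl)
    rw [← heq]
    rfl

end Class

end Fermat.Agent.S36
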