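/-
S36 [POINTS36] — helper3 — **(P1c)/(P2a): the closed points of the three-sheet chart, in chart
currency.**

* `isIntegral_of_isIntegral_of_forall`, `chartRestrictHom_isIntegralElem_iff`,
  `map_mem_chartOne_of_coord`, `chartRestrictHom_isIntegral_of_coord` : a ring homomorphism of
  function fields maps the chart `j₁` into the chart `j₂` as soon as it does so for the coordinate;
  the chart `j₂` is integral over the image as soon as the coordinate `j₂` is;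
* `IsSheetFamily.exists_sheet_le_of_mem` : every prime of the chart containing `π` contains a
  sheet ideal;
* `exists_branch_inf_of_isModelChart`, `exists_branch_zero_of_isModelChart` : branch uniformizers at
  every closed point of a model chart;
* `three_sheet_classification_chart` : `three_sheet_classification` for `chartOne`,
  `IsTwoSheet` + `IsModelChart` (level `M'q`), `IsSheetFamily` with three sheets (level `M'q²`);
* `exists_isBranchUniformizer_three` : branch uniformizers of the three sheets at every closed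
  point of the chart of level `M'q²`, transferred from level `M'q`.
-/
import Mathlib
import Fermat.Agent.S36.POINTS36_helper3_Class
import Fermat.Agent.SS.SINFEMB_helper9_Chart
import Fermat.Agent.SS.GLUE_helper3_A
import Fermat.Agent.S36.KUM36_helper3_Sheet

set_option autoImplicit false
set_option linter.unusedSectionVars false
set_option linter.style.haveILetI false

namespace Fermat.Agent.S36
open Fermat.Agent.SS Fermat.Agent.JA

/-- integral over a ring whose image consists of integral elements. -/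
theorem isIntegral_of_isIntegral_of_forall {S E A : Type*} [CommRing S] [CommRing E] [Algebra S E]
    [CommRing A] [Algebra A E] {x : E} (hx : IsIntegral A x)
    (hA : ∀ a : A, IsIntegral S (algebraMap A E a)) : IsIntegral S x := by
  let φ₀ : A →+* ↥(integralClosure S E) :=
    (algebraMap A E).codRestrict (integralClosure S E).toSubring hA
  have h1 : IsIntegral ↥(integralClosure S E) x :=
    IsIntegral.map_of_comp_eq φ₀ (RingHom.id E) (by ext a; rfl) hx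
  exact isIntegral_trans x h1

section
variable {R : Type*} [CommRing R] {E₁ E : Type*} [Field E₁] [Field E] [Algebra R E₁] [Algebra R E]
  {B₁ : Subalgebra R E₁} {B : Subalgebra R E}

/-- integrality for the restricted homomorphism, tested in the ambient field. -/
theorem chartRestrictHom_isIntegralElem_iff (φ : E₁ →+* E) (hφB : ∀ b ∈ B₁, φ b ∈ B) (x : ↥B) :
    (chartRestrictHom (B' := B₁) (B := B) φ hφB).IsIntegralElem x ↔
      (φ.comp (algebraMap ↥B₁ E₁)).IsIntegralElem (x : E) := by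
  have hcomp : (φ.comp (algebraMap ↥B₁ E₁)) =
      (algebraMap ↥B E).comp (chartRestrictHom (B' := B₁) (B := B) φ hφB) := by
    ext b; rfl
  constructor
  · rintro ⟨p, hp, hpx⟩
    refine ⟨p, hp, ?_⟩
    rw [hcomp]
    have h1 := Polynomial.hom_eval₂ p (chartRestrictHom (B' := B₁) (B := B) φ hφB)
      (algebraMap ↥B E) x
    rw [hpx, map_zero] at h1
    exact h1.symm
  · rintro ⟨p, hp, hpx⟩
    refine ⟨p, hp, ?_⟩
    rw [hcomp] at hpx
    have h1 : (algebraMap ↥B E) (Polynomial.eval₂ (chartRestrictHom (B' := B₁) (B := B) φ hφB) x p)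
        = 0 := by
      rw [Polynomial.hom_eval₂]
      exact hpx
    exact Subtype.ext h1

end

section Chart

variable {R : Type*} [CommRing R]
  {KN₁ : Type*} [Field KN₁] [Algebra R KN₁]
  {E₁ : Type*} [Field E₁] [Algebra KN₁ E₁] [Algebra R E₁] [IsScalarTower R KN₁ E₁]
  {KN₂ : Type*} [Field KN₂] [Algebra R KN₂]
  {E : Type*} [Field E] [Algebra KN₂ E] [Algebra R E] [IsScalarTower R KN₂ E]
  {j₁ : KN₁} {j₂ : KN₂}

/-- a ring homomorphism of the function fields maps the chart `j₁` into the chart `j₂` as soon as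
the image of the coordinate `j₁` lies in the chart `j₂`. -/
theorem map_mem_chartOne_of_coord (φ : E₁ →+* E)
    (hφR : ∀ r : R, φ (algebraMap R E₁ r) = algebraMap R E r)
    (hφj : φ (algebraMap KN₁ E₁ j₁) ∈ chartOne R E j₂) :
    ∀ b ∈ chartOne R E₁ j₁, φ b ∈ chartOne R E j₂ := by
  intro b hb
  have h1 : IsIntegral ↥(Algebra.adjoin R {φ (algebraMap KN₁ E₁ j₁)}) (φ b) :=
    sinfemb_isIntegral_map φ hφR j₁ hb
  have hle : Algebra.adjoin R {φ (algebraMap KN₁ E₁ j₁)} ≤ chartOne R E j₂ :=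
    Algebra.adjoin_le (by rw [Set.singleton_subset_iff]; exact hφj)
  apply sinfemb_mem_chartOne_of_isIntegral j₂
  refine isIntegral_of_isIntegral_of_forall h1 (fun a => ?_)
  have : algebraMap ↥(Algebra.adjoin R {φ (algebraMap KN₁ E₁ j₁)}) E a =
      algebraMap ↥(chartOne R E j₂) E ⟨(a : E), hle a.2⟩ := rfl
  rw [this]
  exact isIntegral_algebraMap

/-- the chart `j₂` is integral over the image of the chart `j₁` as soon as the coordinate `j₂`
is. -/
theorem chartRestrictHom_isIntegral_of_coord (φ : E₁ →+* E)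
    (hφR : ∀ r : R, φ (algebraMap R E₁ r) = algebraMap R E r)
    (hφB : ∀ b ∈ chartOne R E₁ j₁, φ b ∈ chartOne R E j₂)
    (hj₂ : (chartRestrictHom (B' := chartOne R E₁ j₁) (B := chartOne R E j₂) φ hφB).IsIntegralElem
      ⟨algebraMap KN₂ E j₂, algebraMap_coord_mem_chartOne j₂⟩) :
    (chartRestrictHom (B' := chartOne R E₁ j₁) (B := chartOne R E j₂) φ hφB).IsIntegral := by
  intro x
  rw [chartRestrictHom_isIntegralElem_iff]
  rw [chartRestrictHom_isIntegralElem_iff] at hj₂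
  letI : Algebra ↥(chartOne R E₁ j₁) E := (φ.comp (algebraMap ↥(chartOne R E₁ j₁) E₁)).toAlgebra
  have hx : IsIntegral ↥(Algebra.adjoin R {j₂}) (x : E) := (mem_chartOne_iff j₂ _).mp x.2
  show IsIntegral ↥(chartOne R E₁ j₁) (x : E)
  refine isIntegral_of_isIntegral_of_forall hx (fun a => ?_)
  obtain ⟨a, ha⟩ := a
  show IsIntegral ↥(chartOne R E₁ j₁) (algebraMap KN₂ E a)
  induction ha using Algebra.adjoin_induction with
  | mem y hy =>
    rw [Set.mem_singleton_iff] at hy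
    subst hy
    exact hj₂
  | algebraMap r =>
    have h1 : algebraMap KN₂ E (algebraMap R KN₂ r) =
        algebraMap ↥(chartOne R E₁ j₁) E (algebraMap R ↥(chartOne R E₁ j₁) r) := by
      rw [← IsScalarTower.algebraMap_apply R KN₂ E]
      show _ = φ (algebraMap R E₁ r)
      rw [hφR]
    rw [h1]
    exact isIntegral_algebraMap
  | add y z _ _ hy hz =>
    rw [map_add]
    exact hy.add hz
  | mul y z _ _ hy hz =>
    rw [map_mul]
    exact hy.mul hz

end Chart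

section Model

variable {R₁ : Type*} [CommRing R₁] {B : Type*} [CommRing B] [Algebra R₁ B]
  {E : Type*} [Field E] [Algebra B E] {ϖ : R₁} {𝔭inf 𝔭0 : Ideal B}

/-- a branch uniformizer of the sheet `𝔭∞` at every closed point of a model chart. -/
theorem exists_branch_inf_of_isModelChart (h : IsModelChart E ϖ 𝔭inf 𝔭0) (𝔪 : Ideal B)
    (h𝔪 : 𝔪.IsMaximal) (hle : 𝔭inf ≤ 𝔪) : ∃ z : B, IsBranchUniformizer 𝔭inf 𝔪 z := by
  by_cases h0 : 𝔭0 ≤ 𝔪
  · obtain ⟨x, y, hx, -, -, -, -⟩ := h.node 𝔪 h𝔪 hle h0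
    exact ⟨x, hx⟩
  · exact h.branch_inf 𝔪 h𝔪 (hle h.mem_inf) hle h0

/-- a branch uniformizer of the sheet `𝔭0` at every closed point of a model chart. -/
theorem exists_branch_zero_of_isModelChart (h : IsModelChart E ϖ 𝔭inf 𝔭0) (𝔪 : Ideal B)
    (h𝔪 : 𝔪.IsMaximal) (hle : 𝔭0 ≤ 𝔪) : ∃ z : B, IsBranchUniformizer 𝔭0 𝔪 z := by
  by_cases hinf : 𝔭inf ≤ 𝔪
  · obtain ⟨x, y, -, -, hy, -, -⟩ := h.node 𝔪 h𝔪 hinf hle
    exact ⟨y, hy⟩
  · exact h.branch_zero 𝔪 h𝔪 (hle h.mem_zero) hle hinf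

end Model

section Cover

variable {R : Type*} [CommRing R] [IsDomain R] [IsDiscreteValuationRing R] [CharZero R]
  {K₁ : Type*} [Field K₁] [Algebra R K₁] [IsFractionRing R K₁]
  {K : Type*} [Field K] [Algebra K₁ K] [Algebra R K] [IsScalarTower R K₁ K]
  {F : Type*} [Field F] [Algebra K F] [Algebra R F] [IsScalarTower R K F] [FiniteDimensional K F]
  {π : R} {τ : K} {ι : Type*} {W : ι → ValuationSubring F}

/-- every prime of the chart containing `π` contains a sheet ideal. -/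
theorem IsSheetFamily.exists_sheet_le_of_mem (fam : IsSheetFamily π τ W) (hπ : Irreducible π)
    (hτ : Transcendental K₁ τ) (hKτ : IntermediateField.adjoin K₁ {τ} = ⊤)
    (𝔮 : Ideal ↥(chartOne R F τ)) [h𝔮 : 𝔮.IsPrime]
    (hπ𝔮 : algebraMap R ↥(chartOne R F τ) π ∈ 𝔮) :
    ∃ i, sheetIdeal τ (W i) (fam.chart_le i) ≤ 𝔮 := by
  have hπF : algebraMap R F π ≠ 0 := algebraMap_pi_ne_zero (K₁ := K₁) (K := K) hπ
  have hle : Ideal.span {algebraMap R ↥(chartOne R F τ) π} ≤ 𝔮 := by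
    rw [Ideal.span_le, Set.singleton_subset_iff]; exact hπ𝔮
  obtain ⟨Q, hQmin, hQle⟩ := Ideal.exists_minimalPrimes_le hle
  haveI : Q.IsPrime := hQmin.1.1
  have hQh := height_eq_one_of_mem_minimalPrimes_chartOne (K₁ := K₁) τ hτ hKτ π hπF Q hQmin
  have hπQ : algebraMap R ↥(chartOne R F τ) π ∈ Q :=
    hQmin.1.2 (Ideal.subset_span (Set.mem_singleton _))
  obtain ⟨i, hi⟩ := fam.exists_eq_of_height_one hπ hτ hKτ Q hQh hπQ
  exact ⟨i, hi ▸ hQle⟩

end Cover

section TwoLevel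

variable {R : Type*} [CommRing R] [IsDomain R] [IsDiscreteValuationRing R] [CharZero R]
  {K₁ : Type*} [Field K₁] [Algebra R K₁] [IsFractionRing R K₁]
  {KN₁ : Type*} [Field KN₁] [Algebra K₁ KN₁] [Algebra R KN₁] [IsScalarTower R K₁ KN₁]
  {E₁ : Type*} [Field E₁] [Algebra KN₁ E₁] [Algebra R E₁] [IsScalarTower R KN₁ E₁]
  [FiniteDimensional KN₁ E₁]
  {KN₂ : Type*} [Field KN₂] [Algebra K₁ KN₂] [Algebra R KN₂] [IsScalarTower R K₁ KN₂]
  {E : Type*} [Field E] [Algebra KN₂ E] [Algebra R E] [IsScalarTower R KN₂ E]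
  [FiniteDimensional KN₂ E]
  {π : R} {j₁ : KN₁} {j₂ : KN₂} {W10 W01 : ValuationSubring E₁} {W : Fin 3 → ValuationSubring E}

/-- **classification of the closed points of the three-sheet chart** (`0 ↦ W20`, `1 ↦ W11`,
`2 ↦ W02`): a closed point lying on two of the sheets lies on all three; its contractions along
`α`, `β` are nodes of the two-sheet chart, over each of which it is the only prime. -/
theorem three_sheet_classification_chart (hπ : Irreducible π)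
    (hj₁ : Transcendental K₁ j₁) (hKj₁ : IntermediateField.adjoin K₁ {j₁} = ⊤)
    (hj₂ : Transcendental K₁ j₂) (hKj₂ : IntermediateField.adjoin K₁ {j₂} = ⊤)
    (h2 : IsTwoSheet π j₁ W10 W01)
    (hmod : IsModelChart E₁ π (sheetIdeal j₁ W10 h2.chart_le_inf)
      (sheetIdeal j₁ W01 h2.chart_le_zero))
    (fam : IsSheetFamily π j₂ W) (α β : E₁ →+* E)
    (hαR : ∀ r : R, α (algebraMap R E₁ r) = algebraMap R E r)
    (hβR : ∀ r : R, β (algebraMap R E₁ r) = algebraMap R E r)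
    (hαB : ∀ b ∈ chartOne R E₁ j₁, α b ∈ chartOne R E j₂)
    (hβB : ∀ b ∈ chartOne R E₁ j₁, β b ∈ chartOne R E j₂)
    (hαint : (chartRestrictHom (B' := chartOne R E₁ j₁) (B := chartOne R E j₂) α hαB).IsIntegral)
    (hβint : (chartRestrictHom (B' := chartOne R E₁ j₁) (B := chartOne R E j₂) β hβB).IsIntegral)
    (hα0 : (W 0).comap α = W10) (hα1 : (W 1).comap α = W10) (hα2 : (W 2).comap α = W01)
    (hβ0 : (W 0).comap β = W10) (hβ1 : (W 1).comap β = W01) (hβ2 : (W 2).comap β = W01)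
    {q : ℕ} (hq : 0 < q)
    (hinsα : ∀ x ∈ W 2, ∃ a ∈ W01, (W 2).valuation (x ^ q - α a) < 1)
    (hinsβ : ∀ x ∈ W 0, ∃ a ∈ W10, (W 0).valuation (x ^ q - β a) < 1)
    (𝔫 : Ideal ↥(chartOne R E j₂)) [h𝔫 : 𝔫.IsMaximal] {i k : Fin 3} (hik : i ≠ k)
    (hi : sheetIdeal j₂ (W i) (fam.chart_le i) ≤ 𝔫)
    (hk : sheetIdeal j₂ (W k) (fam.chart_le k) ≤ 𝔫) :
    (∀ l, sheetIdeal j₂ (W l) (fam.chart_le l) ≤ 𝔫) ∧
    (sheetIdeal j₁ W10 h2.chart_le_inf ≤ 𝔫.comap (chartRestrictHom α hαB) ∧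
      sheetIdeal j₁ W01 h2.chart_le_zero ≤ 𝔫.comap (chartRestrictHom α hαB)) ∧
    (sheetIdeal j₁ W10 h2.chart_le_inf ≤ 𝔫.comap (chartRestrictHom β hβB) ∧
      sheetIdeal j₁ W01 h2.chart_le_zero ≤ 𝔫.comap (chartRestrictHom β hβB)) ∧
    (∀ 𝔫' : Ideal ↥(chartOne R E j₂), 𝔫'.IsPrime →
      𝔫'.comap (chartRestrictHom α hαB) = 𝔫.comap (chartRestrictHom α hαB) → 𝔫' = 𝔫) ∧
    (∀ 𝔫' : Ideal ↥(chartOne R E j₂), 𝔫'.IsPrime →
      𝔫'.comap (chartRestrictHom β hβB) = 𝔫.comap (chartRestrictHom β hβB) → 𝔫' = 𝔫) := by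
  classical
  haveI : IsFractionRing ↥(chartOne R E₁ j₁) E₁ := isFractionRing_chartOne (K₁ := K₁) j₁ hKj₁
  haveI : IsIntegrallyClosed ↥(chartOne R E₁ j₁) := isIntegrallyClosed_chartOne (K₁ := K₁) j₁ hKj₁
  haveI : IsNoetherianRing ↥(chartOne R E₁ j₁) := isNoetherianRing_chartOne (K₁ := K₁) j₁ hj₁ hKj₁
  obtain ⟨hne, hne', -, -⟩ := h2.not_le hπ hj₁ hKj₁
  have hcm : ∀ {V : ValuationSubring E} {V' : ValuationSubring E₁} {φ : E₁ →+* E},
      V.comap φ = V' → ∀ x : E₁, x ∈ V' ↔ φ x ∈ V := by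
    intro V V' φ h x
    rw [← h]
    exact ValuationSubring.mem_comap
  have hcover : ∀ 𝔮 : Ideal ↥(chartOne R E j₂), 𝔮.IsPrime →
      algebraMap R ↥(chartOne R E j₂) π ∈ 𝔮 →
      sheetIdeal j₂ (W 0) (fam.chart_le 0) ≤ 𝔮 ∨ sheetIdeal j₂ (W 1) (fam.chart_le 1) ≤ 𝔮 ∨
        sheetIdeal j₂ (W 2) (fam.chart_le 2) ≤ 𝔮 := by
    intro 𝔮 h𝔮 hπ𝔮
    haveI := h𝔮
    obtain ⟨l, hl⟩ := fam.exists_sheet_le_of_mem hπ hj₂ hKj₂ 𝔮 hπ𝔮
    fin_cases l
    · exact Or.inl hl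
    · exact Or.inr (Or.inl hl)
    · exact Or.inr (Or.inr hl)
  have htwo : (sheetIdeal j₂ (W 0) (fam.chart_le 0) ≤ 𝔫 ∧ sheetIdeal j₂ (W 1) (fam.chart_le 1) ≤ 𝔫)
      ∨ (sheetIdeal j₂ (W 0) (fam.chart_le 0) ≤ 𝔫 ∧ sheetIdeal j₂ (W 2) (fam.chart_le 2) ≤ 𝔫)
      ∨ (sheetIdeal j₂ (W 1) (fam.chart_le 1) ≤ 𝔫 ∧ sheetIdeal j₂ (W 2) (fam.chart_le 2) ≤ 𝔫) := by
    fin_cases i <;> fin_cases k
    · exact absurd rfl hik
    · exact Or.inl ⟨hi, hk⟩
    · exact Or.inr (Or.inl ⟨hi, hk⟩)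
    · exact Or.inl ⟨hk, hi⟩
    · exact absurd rfl hik
    · exact Or.inr (Or.inr ⟨hi, hk⟩)
    · exact Or.inr (Or.inl ⟨hk, hi⟩)
    · exact Or.inr (Or.inr ⟨hk, hi⟩)
    · exact absurd rfl hik
  obtain ⟨⟨h0, h1, h2'⟩, hA, hB, hUA, hUB⟩ := three_sheet_classification α β hαB hβB hαR hβR
    hαint hβint h2.chart_le_inf h2.chart_le_zero (fam.chart_le 0) (fam.chart_le 2)
    (hcm hα0) (hcm hα1) (hcm hα2) (hcm hβ0) (hcm hβ1) (hcm hβ2)
    (mem_sheetIdeal_iff j₁ W10 h2.chart_le_inf) (mem_sheetIdeal_iff j₁ W01 h2.chart_le_zero)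
    hne hne' (h2.exists_mul_eq_of_mem_inf hπ hj₁ hKj₁) (h2.exists_mul_eq_of_mem_zero hπ hj₁ hKj₁)
    (mem_sheetIdeal_iff j₂ (W 0) (fam.chart_le 0)) (mem_sheetIdeal_iff j₂ (W 1) (fam.chart_le 1))
    (mem_sheetIdeal_iff j₂ (W 2) (fam.chart_le 2))
    (h2.pi_mem_inf (K₁ := K₁) hπ) (h2.pi_mem_zero (K₁ := K₁) hπ) hcover hq hinsα hinsβ
    (fun 𝔫₁ h𝔫₁ hr hz => by
      obtain ⟨x, y, hx, -, hy, -, -⟩ := hmod.node 𝔫₁ h𝔫₁ hr hz
      exact ⟨x, y, hx, hy⟩) 𝔫 htwo
  refine ⟨fun l => ?_, hA, hB, hUA, hUB⟩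
  fin_cases l
  · exact h0
  · exact h1
  · exact h2'

/-- a branch uniformizer of a sheet `V` of the upper chart lying over `W10` with residue degree
one along `φ`, at every closed point. -/
theorem exists_isBranchUniformizer_of_map_inf (hπ : Irreducible π)
    (hj₁ : Transcendental K₁ j₁) (hKj₁ : IntermediateField.adjoin K₁ {j₁} = ⊤)
    (h2 : IsTwoSheet π j₁ W10 W01)
    (hmod : IsModelChart E₁ π (sheetIdeal j₁ W10 h2.chart_le_inf)
      (sheetIdeal j₁ W01 h2.chart_le_zero))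
    (φ : E₁ →+* E) (hφB : ∀ b ∈ chartOne R E₁ j₁, φ b ∈ chartOne R E j₂)
    (hφint : (chartRestrictHom (B' := chartOne R E₁ j₁) (B := chartOne R E j₂) φ hφB).IsIntegral)
    {V : ValuationSubring E} (hV : ∀ b ∈ chartOne R E j₂, b ∈ V) (hcomap : V.comap φ = W10)
    (hres : ∀ x ∈ V, ∃ a ∈ W10, V.valuation (x - φ a) < 1)
    (𝔫 : Ideal ↥(chartOne R E j₂)) [h𝔫 : 𝔫.IsMaximal] (hle : sheetIdeal j₂ V hV ≤ 𝔫) :
    ∃ u : ↥(chartOne R E j₂), IsBranchUniformizer (sheetIdeal j₂ V hV) 𝔫 u := by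
  classical
  haveI : IsNoetherianRing ↥(chartOne R E₁ j₁) := isNoetherianRing_chartOne (K₁ := K₁) j₁ hj₁ hKj₁
  haveI : 𝔫.IsPrime := h𝔫.isPrime
  set ψ := chartRestrictHom (B' := chartOne R E₁ j₁) (B := chartOne R E j₂) φ hφB with hψ
  haveI hm : (𝔫.comap ψ).IsMaximal := Ideal.isMaximal_comap_of_isIntegral_of_isMaximal' ψ hφint 𝔫
  have hcm : ∀ x : E₁, x ∈ W10 ↔ φ x ∈ V := by
    intro x
    rw [← hcomap]
    exact ValuationSubring.mem_comap
  have hle₁ : sheetIdeal j₁ W10 h2.chart_le_inf ≤ 𝔫.comap ψ :=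
    sheet_comap_le φ hφB hcm (mem_sheetIdeal_iff j₁ W10 h2.chart_le_inf)
      (mem_sheetIdeal_iff j₂ V hV) hle
  obtain ⟨u', hu'⟩ := exists_branch_inf_of_isModelChart hmod _ hm hle₁
  exact ⟨ψ u', isBranchUniformizer_map_of_residue φ hφB hV hcm hres
    (mem_sheetIdeal_iff j₁ W10 h2.chart_le_inf) (h2.exists_mul_eq_of_mem_inf hπ hj₁ hKj₁)
    (mem_sheetIdeal_iff j₂ V hV) (fun b => Iff.rfl) hle hu'⟩

/-- a branch uniformizer of a sheet `V` of the upper chart lying over `W01` with residue degree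
one along `φ`, at every closed point. -/
theorem exists_isBranchUniformizer_of_map_zero (hπ : Irreducible π)
    (hj₁ : Transcendental K₁ j₁) (hKj₁ : IntermediateField.adjoin K₁ {j₁} = ⊤)
    (h2 : IsTwoSheet π j₁ W10 W01)
    (hmod : IsModelChart E₁ π (sheetIdeal j₁ W10 h2.chart_le_inf)
      (sheetIdeal j₁ W01 h2.chart_le_zero))
    (φ : E₁ →+* E) (hφB : ∀ b ∈ chartOne R E₁ j₁, φ b ∈ chartOne R E j₂)
    (hφint : (chartRestrictHom (B' := chartOne R E₁ j₁) (B := chartOne R E j₂) φ hφB).IsIntegral)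
    {V : ValuationSubring E} (hV : ∀ b ∈ chartOne R E j₂, b ∈ V) (hcomap : V.comap φ = W01)
    (hres : ∀ x ∈ V, ∃ a ∈ W01, V.valuation (x - φ a) < 1)
    (𝔫 : Ideal ↥(chartOne R E j₂)) [h𝔫 : 𝔫.IsMaximal] (hle : sheetIdeal j₂ V hV ≤ 𝔫) :
    ∃ u : ↥(chartOne R E j₂), IsBranchUniformizer (sheetIdeal j₂ V hV) 𝔫 u := by
  classical
  haveI : IsNoetherianRing ↥(chartOne R E₁ j₁) := isNoetherianRing_chartOne (K₁ := K₁) j₁ hj₁ hKj₁
  haveI : 𝔫.IsPrime := h𝔫.isPrime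
  set ψ := chartRestrictHom (B' := chartOne R E₁ j₁) (B := chartOne R E j₂) φ hφB with hψ
  haveI hm : (𝔫.comap ψ).IsMaximal := Ideal.isMaximal_comap_of_isIntegral_of_isMaximal' ψ hφint 𝔫
  have hcm : ∀ x : E₁, x ∈ W01 ↔ φ x ∈ V := by
    intro x
    rw [← hcomap]
    exact ValuationSubring.mem_comap
  have hle₁ : sheetIdeal j₁ W01 h2.chart_le_zero ≤ 𝔫.comap ψ :=
    sheet_comap_le φ hφB hcm (mem_sheetIdeal_iff j₁ W01 h2.chart_le_zero)
      (mem_sheetIdeal_iff j₂ V hV) hle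
  obtain ⟨u', hu'⟩ := exists_branch_zero_of_isModelChart hmod _ hm hle₁
  exact ⟨ψ u', isBranchUniformizer_map_of_residue φ hφB hV hcm hres
    (mem_sheetIdeal_iff j₁ W01 h2.chart_le_zero) (h2.exists_mul_eq_of_mem_zero hπ hj₁ hKj₁)
    (mem_sheetIdeal_iff j₂ V hV) (fun b => Iff.rfl) hle hu'⟩

/-- **branch uniformizers of the three sheets** (`0 ↦ W20`, `1 ↦ W11` via `α`; `2 ↦ W02` via `β`)
at every closed point of the three-sheet chart, from the model chart of level `M'q`. -/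
theorem exists_isBranchUniformizer_three (hπ : Irreducible π)
    (hj₁ : Transcendental K₁ j₁) (hKj₁ : IntermediateField.adjoin K₁ {j₁} = ⊤)
    (h2 : IsTwoSheet π j₁ W10 W01)
    (hmod : IsModelChart E₁ π (sheetIdeal j₁ W10 h2.chart_le_inf)
      (sheetIdeal j₁ W01 h2.chart_le_zero))
    (fam : IsSheetFamily π j₂ W) (α β : E₁ →+* E)
    (hαB : ∀ b ∈ chartOne R E₁ j₁, α b ∈ chartOne R E j₂)
    (hβB : ∀ b ∈ chartOne R E₁ j₁, β b ∈ chartOne R E j₂)
    (hαint : (chartRestrictHom (B' := chartOne R E₁ j₁) (B := chartOne R E j₂) α hαB).IsIntegral)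
    (hβint : (chartRestrictHom (B' := chartOne R E₁ j₁) (B := chartOne R E j₂) β hβB).IsIntegral)
    (hα0 : (W 0).comap α = W10) (hα1 : (W 1).comap α = W10) (hβ2 : (W 2).comap β = W01)
    (hresα0 : ∀ x ∈ W 0, ∃ a ∈ W10, (W 0).valuation (x - α a) < 1)
    (hresα1 : ∀ x ∈ W 1, ∃ a ∈ W10, (W 1).valuation (x - α a) < 1)
    (hresβ2 : ∀ x ∈ W 2, ∃ a ∈ W01, (W 2).valuation (x - β a) < 1)
    (𝔫 : Ideal ↥(chartOne R E j₂)) [h𝔫 : 𝔫.IsMaximal] (l : Fin 3)
    (hle : sheetIdeal j₂ (W l) (fam.chart_le l) ≤ 𝔫) :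
    ∃ u : ↥(chartOne R E j₂), IsBranchUniformizer (sheetIdeal j₂ (W l) (fam.chart_le l)) 𝔫 u := by
  fin_cases l
  · exact exists_isBranchUniformizer_of_map_inf hπ hj₁ hKj₁ h2 hmod α hαB hαint (fam.chart_le 0)
      hα0 hresα0 𝔫 hle
  · exact exists_isBranchUniformizer_of_map_inf hπ hj₁ hKj₁ h2 hmod α hαB hαint (fam.chart_le 1)
      hα1 hresα1 𝔫 hle
  · exact exists_isBranchUniformizer_of_map_zero hπ hj₁ hKj₁ h2 hmod β hβB hβint (fam.chart_le 2)
      hβ2 hresβ2 𝔫 hle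

end TwoLevel

end Fermat.Agent.S36
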