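/-
S36 [CYCLO] — helper1 — **the cyclotomic enlargement of a base**: for a base `K₀ ⊂ Ω` at `q`
(e.g. helper2's unramified base, `q` a uniformizer of `R₀ = A ∩ K₀`), the base `K' = K₀(ζ_q)` with
`R' = A ∩ K'`: `R'` contains a primitive `q`-th root of unity `ζ`, and
`q = (ζ − 1)^(q−1) · unit` in `R'`.  This is the base-side input of helper6's middle sheet `W11`
(`keyFqW11 R K h hq φ κ hκ ζ hζq hζ1`, with `φ := baseRingIncl A hle`, `κ := inclusion hle`).

* `associated_sub_one_pow_natCast_of_prime` : `(ζ − 1)^(q−1) ~ q` in any domain, `ζ` a primitive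
  `q`-th root of unity, `q` prime;
* `exists_cyclo_base` : the enlargement;
* `irreducible_sub_one_of_irreducible_natCast` : if `q` is irreducible in `R₀` (unramified base) then
  `ζ − 1` is irreducible in the DVR `R'`.
-/
import Mathlib
import Fermat.Agent.JA.BASE_helper1_Main

set_option autoImplicit false
set_option linter.unusedSectionVars false
set_option linter.style.haveILetI false

namespace Fermat.Agent.S36

open Fermat.Agent.JA

/-- `Ω = AlgebraicClosure ℚ`. -/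
local notation "Ω" => AlgebraicClosure ℚ

section Alg

variable {B : Type*} [CommRing B] [IsDomain B]

/-- **`q ~ (ζ − 1)^(q−1)`** for a primitive `q`-th root of unity `ζ`, `q` prime. -/
theorem associated_sub_one_pow_natCast_of_prime {q : ℕ} (hq : q.Prime) {ζ : B}
    (hζ : IsPrimitiveRoot ζ q) : Associated ((ζ - 1) ^ (q - 1)) ((q : ℕ) : B) := by
  obtain ⟨n, rfl⟩ : ∃ n, q = n + 1 := ⟨q - 1, (Nat.succ_pred_eq_of_pos hq.pos).symm⟩
  have h1 := hζ.prod_pow_sub_one_eq_order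
  have h2 : Associated (∏ _k ∈ Finset.range n, (ζ - 1)) (∏ k ∈ Finset.range n, (ζ ^ (k + 1) - 1)) := by
    refine Associated.prod (Finset.range n) (fun _ => ζ - 1) (fun k => ζ ^ (k + 1) - 1)
      fun k hk => ?_
    apply hζ.associated_sub_one_pow_sub_one_of_coprime
    rw [Finset.mem_range] at hk
    exact (Nat.coprime_of_lt_prime (Nat.succ_ne_zero k) (by omega) hq).symm
  rw [Finset.prod_const, Finset.card_range] at h2
  have h3 : Associated (∏ k ∈ Finset.range n, (ζ ^ (k + 1) - 1))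
      ((-1) ^ n * ∏ k ∈ Finset.range n, (ζ ^ (k + 1) - 1)) := by
    refine ⟨(-1 : Bˣ) ^ n, ?_⟩
    rw [Units.val_pow_eq_pow_val, Units.val_neg, Units.val_one, mul_comm]
  rw [h1] at h3
  have h4 : ((n + 1 : ℕ) : B) = (n : B) + 1 := by push_cast; rfl
  rw [Nat.add_sub_cancel, h4]
  exact h2.trans h3

end Alg

section Base

variable {q : ℕ} [hq : Fact q.Prime] {A : ValuationSubring Ω} {K₀ : IntermediateField ℚ Ω}

/-- **[CYCLO]**: the cyclotomic enlargement `K' = K₀(ζ_q)` of a base. -/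
theorem exists_cyclo_base (hK₀ : IsBase q K₀) :
    ∃ (K' : IntermediateField ℚ Ω) (_hle : K₀ ≤ K'), IsBase q K' ∧
      ∃ ζ : (↥(baseRing A K'))ˣ, IsPrimitiveRoot (ζ : ↥(baseRing A K')) q ∧ ζ ^ q = 1 ∧ ζ ≠ 1 ∧
        ∃ u : (↥(baseRing A K'))ˣ, ((q : ℕ) : ↥(baseRing A K')) =
          ((ζ : ↥(baseRing A K')) - 1) ^ (q - 1) * (u : ↥(baseRing A K')) := by
  classical
  haveI : NeZero ((q : ℕ) : Ω) := ⟨by exact_mod_cast hq.out.ne_zero⟩
  obtain ⟨z, hz⟩ := HasEnoughRootsOfUnity.exists_primitiveRoot Ω q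
  obtain ⟨K', hK', hle, hmem⟩ := hK₀.exists_ge_forall_mem {z}
  have hzK : z ∈ K' := hmem z (Finset.mem_singleton_self z)
  have hzv : A.valuation z = 1 := by
    have h1 : A.valuation z ^ q = 1 := by rw [← map_pow, hz.pow_eq_one, map_one]
    exact (pow_eq_one_iff_of_nonneg zero_le hq.out.ne_zero).mp h1
  have hzR : (⟨z, hzK⟩ : ↥K') ∈ baseRing A K' := mem_baseRing_iff.mpr hzv.le
  set ζ₀ : ↥(baseRing A K') := ⟨⟨z, hzK⟩, hzR⟩ with hζ₀
  have hinj : Function.Injective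
      ((algebraMap ↥K' Ω).comp (algebraMap ↥(baseRing A K') ↥K')) :=
    (algebraMap ↥K' Ω).injective.comp Subtype.val_injective
  have hζ₀prim : IsPrimitiveRoot ζ₀ q :=
    IsPrimitiveRoot.of_map_of_injective
      (f := (algebraMap ↥K' Ω).comp (algebraMap ↥(baseRing A K') ↥K')) hz hinj
  have hq0 : q ≠ 0 := hq.out.ne_zero
  set ζ : (↥(baseRing A K'))ˣ := (hζ₀prim.isUnit hq0).unit with hζ
  have hζval : (ζ : ↥(baseRing A K')) = ζ₀ := IsUnit.unit_spec _
  obtain ⟨u, hu⟩ := associated_sub_one_pow_natCast_of_prime hq.out hζ₀prim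
  refine ⟨K', hle, hK', ζ, by rw [hζval]; exact hζ₀prim, ?_, ?_, u, ?_⟩
  · apply Units.ext
    rw [Units.val_pow_eq_pow_val, hζval, hζ₀prim.pow_eq_one, Units.val_one]
  · intro h1
    have : (ζ : ↥(baseRing A K')) = 1 := by rw [h1, Units.val_one]
    rw [hζval] at this
    exact hζ₀prim.ne_one hq.out.one_lt this
  · rw [hζval, hu]

/-- the compatibility `hκ` of the inclusions `R₀ → R'`, `K₀ → K'`. -/
theorem inclusion_algebraMap_baseRing {K' : IntermediateField ℚ Ω} (hle : K₀ ≤ K')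
    (r : ↥(baseRing A K₀)) :
    ((IntermediateField.inclusion hle : ↥K₀ →ₐ[ℚ] ↥K') : ↥K₀ →+* ↥K')
        (algebraMap ↥(baseRing A K₀) ↥K₀ r) =
      algebraMap ↥(baseRing A K') ↥K' (baseRingIncl A hle r) :=
  rfl

/-- **[CYCLO], packaged for `keyFqW11`**: `φ := baseRingIncl A hle`, `π := (q : R₀)`:
`φ π = (ζ − 1)^(q−1) · unit`. -/
theorem exists_cyclo_datum (hK₀ : IsBase q K₀) :
    ∃ (K' : IntermediateField ℚ Ω) (hle : K₀ ≤ K'), IsBase q K' ∧
      ∃ ζ u : (↥(baseRing A K'))ˣ, ζ ^ q = 1 ∧ ζ ≠ 1 ∧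
        baseRingIncl A hle ((q : ℕ) : ↥(baseRing A K₀)) =
          ((ζ : ↥(baseRing A K')) - 1) ^ (q - 1) * (u : ↥(baseRing A K')) := by
  obtain ⟨K', hle, hK', ζ, -, h1, h2, u, hu⟩ := exists_cyclo_base (A := A) hK₀
  exact ⟨K', hle, hK', ζ, u, h1, h2, by rw [map_natCast, hu]⟩

/-- `ζ − 1` is a non-unit of `R'`. -/
theorem sub_one_mem_maximalIdeal_of_eq {K' : IntermediateField ℚ Ω} (ζ u : (↥(baseRing A K'))ˣ)
    (hu : ((q : ℕ) : ↥(baseRing A K')) =
      ((ζ : ↥(baseRing A K')) - 1) ^ (q - 1) * (u : ↥(baseRing A K'))) (hA : A.LiesOverPrime q) :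
    (ζ : ↥(baseRing A K')) - 1 ∈ IsLocalRing.maximalIdeal ↥(baseRing A K') := by
  by_contra hn
  have hunit : IsUnit ((ζ : ↥(baseRing A K')) - 1) := by
    rwa [IsLocalRing.mem_maximalIdeal, mem_nonunits_iff, not_not] at hn
  have hqunit : IsUnit (((q : ℕ) : ↥(baseRing A K'))) := by
    rw [hu]
    exact (hunit.pow _).mul u.isUnit
  have := natCast_prime_mem_maximalIdeal hA K'
  exact this hqunit

end Base

end Fermat.Agent.S36
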