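/-
# S36 [BASE36] layer 2 (helper4): from a generic unramified base to the bases of `LegInertBase`

`LegGenericBase` / `HesGenericBase`: the conclusion of the base statements at level `M q q`
(`q ∤ M`) over any DVR `R` with algebraically closed residue field, good reduction at level `M`
(`GeoHyps`) and a cyclotomic enlargement `(R', K', φ, κ, ζ, u)`.
`legInertBase_of_generic`, `hesInertBase_of_generic`: instantiation at `R = baseRing A K₀`,
`π = q` (helper1's `exists_cyclo_datum`, helper8's `geoHyps_legE_baseRing`).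
-/
import Mathlib
import Fermat.Agent.S36.T3_helper2_Iface
import Fermat.Agent.S36.CYCLO_helper1
import Fermat.Agent.JA.GEOBASE_helper8_Base
import Fermat.Agent.SS.BASE_helper1_Leg

set_option autoImplicit false
set_option linter.unusedSectionVars false
set_option linter.unusedVariables false
set_option linter.style.haveILetI false
set_option synthInstance.maxHeartbeats 200000

open HahnSeries IntermediateField AlgebraicCurve ModularCurve

namespace Fermat.Agent.S36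

open Fermat.Agent.JA Fermat.Agent.FF Fermat.Agent.SS

open scoped Fermat.Agent.JA.Host

/-- `Ω = AlgebraicClosure ℚ`. -/
local notation "Ω" => AlgebraicClosure ℚ

/-- **the generic-base statement, Legendre**: the conclusion of `LegInertBase` at level `M q q`
(`q ∤ M`) over ANY unramified base `(R, K)` with algebraically closed residue field, good reduction
at level `M` and a cyclotomic enlargement `(R', K')`. -/
def LegGenericBase : Prop :=
  ∀ (R : Type) [CommRing R] [IsDomain R] [IsDiscreteValuationRing R] [CharZero R] [DecidableEq R]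
    (K : Type) [Field K] [Algebra R K] [IsFractionRing R K] [Algebra ℚ K] [Algebra K ℂ]
    [IsAlgClosed (IsLocalRing.ResidueField R)]
    (M q : ℕ) [NeZero M] [NeZero q] [NeZero (M * q)] [NeZero (M * q * q)] (x y : ℤ) (π : R),
    Irreducible π → IsUnit (2 : R) → (q : ℤ) * x + M * y = 1 → q.Prime → q ≠ 2 →
    (q : R) ∈ Ideal.span {π} →
    GeoHyps K π (AdjoinSimple.gen K (legT K)) ↥(legE K M) M ({0, 1} : Finset R) →
    ∀ (R' : Type) [CommRing R'] [IsDomain R'] [IsDiscreteValuationRing R']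
      (K' : Type) [Field K'] [Algebra R' K'] [IsFractionRing R' K']
      (φ : R →+* R') [IsLocalHom φ] (κ : K →+* K'),
      (∀ r : R, κ (algebraMap R K r) = algebraMap R' K' (φ r)) →
    ∀ (ζ u : R'ˣ), ζ ^ q = 1 → ζ ≠ 1 → φ π = ((ζ : R') - 1) ^ (q - 1) * u →
    ∀ (m : ℕ), 0 < m → Nat.Coprime m q → IsUnit (m : R) → ∀ ζm : R, IsPrimitiveRoot ζm m →
    ∀ f₀ : ↥(keyFq K (M * q * q)), f₀ ≠ 0 →
      ((f₀ : ↥(keyFq K (M * q * q))) : LaurentSeries K).leadingCoeff = 1 →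
      (∀ P : Place K ↥(legE K (M * q * q)), (m : ℤ) ∣ P.ord (fullToLegE K (M * q * q) f₀)) →
      (∃ (a : K) (h : ↥(keyFq K (M * q))), a ≠ 0 ∧ h ≠ 0 ∧
        normAlong (heckeAlphaBar K (M * q) q) f₀ = algebraMap K ↥(keyFq K (M * q)) a * h ^ m) →
      (∃ (a : K) (h : ↥(keyFq K (M * q))), a ≠ 0 ∧ h ≠ 0 ∧
        normAlong (heckeBetaBar K (M * q) q) f₀ = algebraMap K ↥(keyFq K (M * q)) a * h ^ m) →
      ∃ w : ↥(legE K (M * q * q)),
        fullToLegE K (M * q * q) f₀ ^ ((q ^ 2 - 1) * ((q - 1) * (q - 1 + 2))) = w ^ m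

set_option maxHeartbeats 1600000 in
/-- **`LegInertBase` from the generic-base statement.** -/
theorem legInertBase_of_generic (H : LegGenericBase) : LegInertBase := by
  intro M _ q _ _ hq hq2 hqM hq2M
  obtain ⟨M', hM'⟩ := hqM
  have hMeq : M = M' * q := by rw [hM', mul_comm]
  subst hMeq
  have hqM' : ¬ q ∣ M' := by
    intro hd
    apply hq2M
    rw [pow_two]
    exact Nat.mul_dvd_mul_right hd q |>.trans (by rw [mul_comm])
  haveI : NeZero M' := ⟨fun h0 => NeZero.ne (M' * q) (by rw [h0, zero_mul])⟩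
  refine ⟨(q ^ 2 - 1) * ((q - 1) * (q - 1 + 2)), ?_, ?_⟩
  · have h2 := hq.two_le
    have h3 : 2 ^ 2 ≤ q ^ 2 := Nat.pow_le_pow_left h2 2
    refine Nat.mul_ne_zero (by omega) (Nat.mul_ne_zero (by omega) (by omega))
  intro A hA K₀ hK₀ hinert hirr m hm hqm f₀ hf₀ hlead hord hNA hNB
  classical
  haveI : Fact q.Prime := ⟨hq⟩
  haveI : IsDiscreteValuationRing ↥(baseRing A K₀) := hK₀.isDiscreteValuationRing hA
  haveI : CharZero ↥(baseRing A K₀) := charZero_valuationSubring_of_algebraRat _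
  haveI : IsAlgClosed (IsLocalRing.ResidueField ↥(baseRing A K₀)) :=
    hK₀.isAlgClosed_residueField hA
  letI := baseToComplex K₀
  have h2 : IsUnit (2 : ↥(baseRing A K₀)) := isUnit_ofNat_baseRing hA K₀ Nat.prime_two hq2
  obtain ⟨x, y, hbez⟩ := exists_bezout_of_prime_of_not_dvd hq hqM'
  obtain ⟨ζm, hζm⟩ := hK₀.exists_isPrimitiveRoot_baseRing A hm hqm
  have hmR : IsUnit ((m : ℕ) : ↥(baseRing A K₀)) := isUnit_natCast_baseRing hA hqm
  have hmq : Nat.Coprime m q := ((Nat.Prime.coprime_iff_not_dvd hq).2 hqm).symm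
  obtain ⟨K', hle, hK', ζ, u, hζq, hζ1, hu⟩ := exists_cyclo_datum (A := A) hK₀
  haveI : IsDiscreteValuationRing ↥(baseRing A K') := hK'.isDiscreteValuationRing hA
  exact H ↥(baseRing A K₀) ↥K₀ M' q x y ((q : ℕ) : ↥(baseRing A K₀)) hirr h2 hbez hq hq2
    (Ideal.mem_span_singleton_self _)
    (geoHyps_legE_baseRing hA M' hqM' hK₀ hq2 hirr)
    ↥(baseRing A K') ↥K' (baseRingIncl A hle)
    ((IntermediateField.inclusion hle : ↥K₀ →ₐ[ℚ] ↥K') : ↥K₀ →+* ↥K')
    (inclusion_algebraMap_baseRing hle) ζ u hζq hζ1 hu m hm hmq hmR ζm hζm f₀ hf₀ hlead hord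
    hNA hNB

/-- **the generic-base statement, Hesse** (`q = 2`). -/
def HesGenericBase : Prop :=
  ∀ (R : Type) [CommRing R] [IsDomain R] [IsDiscreteValuationRing R] [CharZero R] [DecidableEq R]
    (K : Type) [Field K] [Algebra R K] [IsFractionRing R K] [Algebra ℚ K] [Algebra K ℂ]
    [IsAlgClosed (IsLocalRing.ResidueField R)]
    (M : ℕ) [NeZero M] [NeZero (M * 2)] [NeZero (M * 2 * 2)] (x y : ℤ) (π : R),
    Irreducible π → IsUnit (3 : R) → ∀ ω : R, ω ^ 2 + ω + 1 = 0 →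
    ((2 : ℕ) : ℤ) * x + M * y = 1 →
    ((2 : ℕ) : R) ∈ Ideal.span {π} →
    GeoHyps K π (AdjoinSimple.gen K (hesT K)) ↥(hesE K M) M ({1, ω, ω ^ 2} : Finset R) →
    ∀ (R' : Type) [CommRing R'] [IsDomain R'] [IsDiscreteValuationRing R']
      (K' : Type) [Field K'] [Algebra R' K'] [IsFractionRing R' K']
      (φ : R →+* R') [IsLocalHom φ] (κ : K →+* K'),
      (∀ r : R, κ (algebraMap R K r) = algebraMap R' K' (φ r)) →
    ∀ (ζ u : R'ˣ), ζ ^ 2 = 1 → ζ ≠ 1 → φ π = ((ζ : R') - 1) ^ (2 - 1) * u →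
    ∀ (m : ℕ), 0 < m → Nat.Coprime m 2 → IsUnit (m : R) → ∀ ζm : R, IsPrimitiveRoot ζm m →
    ∀ f₀ : ↥(keyFq K (M * 2 * 2)), f₀ ≠ 0 →
      ((f₀ : ↥(keyFq K (M * 2 * 2))) : LaurentSeries K).leadingCoeff = 1 →
      (∀ P : Place K ↥(hesE K (M * 2 * 2)), (m : ℤ) ∣ P.ord (fullToHesE K (M * 2 * 2) f₀)) →
      (∃ (a : K) (h : ↥(keyFq K (M * 2))), a ≠ 0 ∧ h ≠ 0 ∧
        normAlong (heckeAlphaBar K (M * 2) 2) f₀ = algebraMap K ↥(keyFq K (M * 2)) a * h ^ m) →
      (∃ (a : K) (h : ↥(keyFq K (M * 2))), a ≠ 0 ∧ h ≠ 0 ∧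
        normAlong (heckeBetaBar K (M * 2) 2) f₀ = algebraMap K ↥(keyFq K (M * 2)) a * h ^ m) →
      ∃ w : ↥(hesE K (M * 2 * 2)),
        fullToHesE K (M * 2 * 2) f₀ ^ ((2 ^ 2 - 1) * ((2 - 1) * (2 - 1 + 2))) = w ^ m

set_option maxHeartbeats 1600000 in
/-- **`HesInertBase` from the generic-base statement.** -/
theorem hesInertBase_of_generic (H : HesGenericBase) : HesInertBase := by
  intro M _ _ hqM hq2M
  obtain ⟨M', hM'⟩ := hqM
  have hMeq : M = M' * 2 := by rw [hM', mul_comm]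
  subst hMeq
  have hqM' : ¬ 2 ∣ M' := by
    intro hd
    apply hq2M
    rw [pow_two]
    exact Nat.mul_dvd_mul_right hd 2 |>.trans (by rw [mul_comm])
  haveI : NeZero M' := ⟨fun h0 => NeZero.ne (M' * 2) (by rw [h0, zero_mul])⟩
  refine ⟨(2 ^ 2 - 1) * ((2 - 1) * (2 - 1 + 2)), by norm_num, ?_⟩
  intro A hA K₀ hK₀ hinert hirr m hm hqm f₀ hf₀ hlead hord hNA hNB
  classical
  haveI : Fact (2 : ℕ).Prime := ⟨Nat.prime_two⟩
  haveI : IsDiscreteValuationRing ↥(baseRing A K₀) := hK₀.isDiscreteValuationRing hA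
  haveI : CharZero ↥(baseRing A K₀) := charZero_valuationSubring_of_algebraRat _
  haveI : IsAlgClosed (IsLocalRing.ResidueField ↥(baseRing A K₀)) :=
    hK₀.isAlgClosed_residueField hA
  letI := baseToComplex K₀
  have h3 : IsUnit (3 : ↥(baseRing A K₀)) :=
    isUnit_ofNat_baseRing hA K₀ Nat.prime_three (by norm_num)
  obtain ⟨x, y, hbez⟩ := exists_bezout_of_prime_of_not_dvd Nat.prime_two hqM'
  obtain ⟨ζm, hζm⟩ := hK₀.exists_isPrimitiveRoot_baseRing A hm hqm
  have hmR : IsUnit ((m : ℕ) : ↥(baseRing A K₀)) := isUnit_natCast_baseRing hA hqm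
  have hmq : Nat.Coprime m 2 := ((Nat.Prime.coprime_iff_not_dvd Nat.prime_two).2 hqm).symm
  obtain ⟨K', hle, hK', ζ, u, hζq, hζ1, hu⟩ := exists_cyclo_datum (A := A) hK₀
  haveI : IsDiscreteValuationRing ↥(baseRing A K') := hK'.isDiscreteValuationRing hA
  obtain ⟨ω, hω, hgeo⟩ := geoHyps_hesE_baseRing hA M' hqM' hK₀ (by norm_num) hirr
  exact H ↥(baseRing A K₀) ↥K₀ M' x y ((2 : ℕ) : ↥(baseRing A K₀)) hirr h3 ω hω hbez
    (Ideal.mem_span_singleton_self _) hgeo
    ↥(baseRing A K') ↥K' (baseRingIncl A hle)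
    ((IntermediateField.inclusion hle : ↥K₀ →ₐ[ℚ] ↥K') : ↥K₀ →+* ↥K')
    (inclusion_algebraMap_baseRing hle) ζ u hζq hζ1 hu m hm hmq hmR ζm hζm f₀ hf₀ hlead hord
    hNA hNB

end Fermat.Agent.S36
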