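/-
S36 [MODEL36] — helper6 — part 2: **the second floor `F_M ⊂ F_{Mq} ⊂ F_{Mq²}` of the `q`-tower of
level fields (`q ∤ M`) and the gluing of embeddings.**

`F_i = keyFq K (M q^i)`, `A = keyFqA` (inclusion), `B = keyFqB` (`x ↦ x ^ q`), `W_q = atkinLehnerN`
on `F_{Mq}`.  `exists_keyFq_glue`: ring homomorphisms `φ ψ : F_{Mq} → L` with `φ ∘ B = ψ ∘ A` on
`F_M` and `ψ ≠ φ ∘ W_q` glue to a unique `θ : F_{Mq²} → L` with `θ ∘ A = φ`, `θ ∘ B = ψ`.
-/
import Mathlib
import Fermat.Agent.S36.MODEL36_helper6_Glue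
import Fermat.Agent.S35.FROBKRON_helper6_Key
import Fermat.Agent.GR.ANORM_helper5_Fricke

set_option autoImplicit false
set_option linter.unusedSectionVars false
set_option linter.style.haveILetI false
set_option synthInstance.maxHeartbeats 200000

open ModularCurve Fermat.Agent.Igusa Fermat.Agent.JA Fermat.Agent.SS Fermat.Agent.X0N
open Fermat.Agent.S35 AlgebraicCurve

namespace Fermat.Agent.S36

noncomputable section

section Tower

variable (K : Type*) [Field K] [Algebra ℚ K] (M q : ℕ) [NeZero M] [NeZero q] [NeZero (M * q)]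
  [NeZero (M * q * q)]

/-- `A ∘ B = B ∘ A` on `F_M`. -/
theorem keyFqA_keyFqB_comm (c : ↥(keyFq K M)) :
    keyFqA K (M * q) q (keyFqB K M q c) = keyFqB K (M * q) q (keyFqA K M q c) := by
  apply Subtype.ext
  rw [coe_keyFqA, coe_keyFqB, coe_keyFqB, coe_keyFqA]

/-- `F_{Mq²}` is generated by `A F_{Mq}` and `B F_{Mq}`. -/
theorem keyFq_subfield_eq_top (hq : q.Prime) (S : Subfield ↥(keyFq K (M * q * q)))
    (hA : ∀ a : ↥(keyFq K (M * q)), keyFqA K (M * q) q a ∈ S)
    (hB : ∀ b : ↥(keyFq K (M * q)), keyFqB K (M * q) q b ∈ S) : S = ⊤ := by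
  rw [eq_top_iff]
  intro z hz
  clear hz
  induction z using induction_alpha_beta (M * q) q hq with
  | hconst c =>
    have := hA (algebraMap K _ c)
    rwa [AlgHom.commutes] at this
  | hα y =>
    have := hA y
    rwa [keyFqA_eq_heckeAlphaBar] at this
  | hβ y =>
    have := hB y
    rwa [keyFqB_eq_heckeBetaBar] at this
  | hadd a b h1 h2 => exact S.add_mem h1 h2
  | hmul a b h1 h2 => exact S.mul_mem h1 h2
  | hinv a h1 => exact S.inv_mem h1

variable [Algebra K ℂ]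

theorem finrank_keyFqA_of_not_dvd (hq : q.Prime) (hqM : ¬ q ∣ M) :
    letI := (keyFqA K M q).toRingHom.toAlgebra
    Module.finrank ↥(keyFq K M) ↥(keyFq K (M * q)) = q + 1 := by
  have h := finrankAlong_heckeAlphaBar (k := K) M q hq
  rw [if_neg hqM] at h
  exact h

theorem finrank_keyFqA_of_dvd (hq : q.Prime) :
    letI := (keyFqA K (M * q) q).toRingHom.toAlgebra
    Module.finrank ↥(keyFq K (M * q)) ↥(keyFq K (M * q * q)) = q := by
  have h := finrankAlong_heckeAlphaBar (k := K) (M * q) q hq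
  rw [if_pos (dvd_mul_left q M)] at h
  exact h

variable {K M q} {x y : ℤ} (h : (q : ℤ) * x + M * y = 1) (hq : q.Prime)

omit [NeZero M] [NeZero q] [NeZero (M * q)] [NeZero (M * q * q)] in
include h hq in
/-- `q x + M y = 1` and `q` prime: `q ∤ M`. -/
theorem model36_not_dvd_of_bezout : ¬ q ∣ M := by
  intro hd
  have h1 : (q : ℤ) ∣ 1 := by
    rw [← h]
    exact dvd_add (dvd_mul_right _ _)
      (dvd_mul_of_dvd_left (Int.natCast_dvd_natCast.mpr hd) _)
  have h2 := Int.natAbs_dvd_natAbs.mpr h1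
  rw [Int.natAbs_natCast, Int.natAbs_one, Nat.dvd_one] at h2
  exact hq.one_lt.ne' h2

/-- **the gluing lemma for the level fields**: `φ ψ : F_{Mq} → L` with `φ ∘ B = ψ ∘ A` on `F_M` and
`ψ ≠ φ ∘ W_q` glue to `θ : F_{Mq²} → L` with `θ ∘ A = φ` and `θ ∘ B = ψ`. -/
theorem exists_keyFq_glue {L : Type*} [Field L] (φ ψ : ↥(keyFq K (M * q)) →+* L)
    (hφψ : ∀ c : ↥(keyFq K M), φ (keyFqB K M q c) = ψ (keyFqA K M q c))
    (hne : ψ ≠ φ.comp (atkinLehnerN (algebraMap K ℂ) h hq)) :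
    ∃ θ : ↥(keyFq K (M * q * q)) →+* L,
      (∀ a : ↥(keyFq K (M * q)), θ (keyFqA K (M * q) q a) = φ a) ∧
      (∀ b : ↥(keyFq K (M * q)), θ (keyFqB K (M * q) q b) = ψ b) := by
  have hqM : ¬ q ∣ M := model36_not_dvd_of_bezout h hq
  letI a1 : Algebra ↥(keyFq K M) ↥(keyFq K (M * q)) := (keyFqA K M q).toRingHom.toAlgebra
  letI a2 : Algebra ↥(keyFq K (M * q)) ↥(keyFq K (M * q * q)) :=
    (keyFqA K (M * q) q).toRingHom.toAlgebra
  have hd1 : Module.finrank ↥(keyFq K M) ↥(keyFq K (M * q)) = q + 1 :=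
    finrank_keyFqA_of_not_dvd K M q hq hqM
  have hd2 : Module.finrank ↥(keyFq K (M * q)) ↥(keyFq K (M * q * q)) = q :=
    finrank_keyFqA_of_dvd K M q hq
  haveI : FiniteDimensional ↥(keyFq K M) ↥(keyFq K (M * q)) :=
    Module.finite_of_finrank_pos (by rw [hd1]; omega)
  haveI : FiniteDimensional ↥(keyFq K (M * q)) ↥(keyFq K (M * q * q)) :=
    Module.finite_of_finrank_pos (by rw [hd2]; exact hq.pos)
  haveI : CharZero ↥(keyFq K M) :=
    charZero_of_injective_algebraMap (algebraMap ℚ ↥(keyFq K M)).injective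
  exact exists_ringHom_glue (keyFqB K M q : ↥(keyFq K M) →+* ↥(keyFq K (M * q)))
    (keyFqB K (M * q) q : ↥(keyFq K (M * q)) →+* ↥(keyFq K (M * q * q)))
    (atkinLehnerN (algebraMap K ℂ) h hq)
    (fun c => keyFqA_keyFqB_comm K M q c)
    (fun c => atkinLehnerN_keyFqA K (algebraMap K ℂ) h hq c)
    (by rw [hd1, hd2]) (by rw [hd2]; exact hq.two_le)
    (fun S hA hB => keyFq_subfield_eq_top K M q hq S hA hB) φ ψ hφψ hne

omit [Algebra K ℂ] in
include hq in
/-- uniqueness in the gluing lemma for the level fields. -/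
theorem keyFq_glue_unique {L : Type*} [Field L] (θ θ' : ↥(keyFq K (M * q * q)) →+* L)
    (hA : ∀ a : ↥(keyFq K (M * q)), θ (keyFqA K (M * q) q a) = θ' (keyFqA K (M * q) q a))
    (hB : ∀ b : ↥(keyFq K (M * q)), θ (keyFqB K (M * q) q b) = θ' (keyFqB K (M * q) q b)) :
    θ = θ' := by
  letI a2 : Algebra ↥(keyFq K (M * q)) ↥(keyFq K (M * q * q)) :=
    (keyFqA K (M * q) q).toRingHom.toAlgebra
  exact ringHom_glue_unique (keyFqB K (M * q) q : ↥(keyFq K (M * q)) →+* ↥(keyFq K (M * q * q)))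
    (fun S hA hB => keyFq_subfield_eq_top K M q hq S hA hB) θ θ' hA hB

end Tower

end

end Fermat.Agent.S36
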