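/-
S36 [MODEL36] — helper6 — part 3: **the two new embeddings of `F_{Mq²}` (`q ∤ M`).**

* `keyFqAL2 : F_{Mq²} →+* F_{Mq²}` — the Atkin–Lehner involution for `q²`:
  `W₂ ∘ A = B ∘ W_q`, `W₂ ∘ B = A ∘ W_q`, `W₂ ∘ W₂ = id` (it reverses the chain
  `j(x^{d q^i}) ↦ j(x^{d q^{2-i}})`);
* `keyFqMid κ ζ : F_{Mq²} →+* K'⸨x⸩` — the expansion at the middle cusp, for a field homomorphism
  `κ : K → K'` and a `q`-th root of unity `ζ ≠ 1` of `K'`:
  `θ ∘ A = coeffMap κ`, `θ ∘ B = (x ↦ ζ x) ∘ coeffMap κ ∘ W_q`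
  (chain `j(x), j(x^q), j(ζ x)`).
Both come from the gluing lemma `exists_keyFq_glue`.
-/
import Mathlib
import Fermat.Agent.S36.MODEL36_helper6_Tower
import Fermat.Prelude.Thm_ModularCurve_coeff_jqModC_neg_one

set_option autoImplicit false
set_option linter.unusedSectionVars false
set_option linter.style.haveILetI false
set_option synthInstance.maxHeartbeats 200000

open ModularCurve Fermat.Agent.Igusa Fermat.Agent.JA Fermat.Agent.SS Fermat.Agent.X0N
open Fermat.Agent.S35 AlgebraicCurve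

namespace Fermat.Agent.S36

noncomputable section

section Emb

variable {K : Type*} [Field K] [Algebra ℚ K] [Algebra K ℂ] {M q : ℕ} [NeZero M] [NeZero q]
  [NeZero (M * q)] [NeZero (M * q * q)] {x y : ℤ} (h : (q : ℤ) * x + M * y = 1) (hq : q.Prime)

local notation "Wq" => atkinLehnerN (algebraMap K ℂ) h hq

omit [Algebra K ℂ] [NeZero q] [NeZero (M * q)] [NeZero (M * q * q)] in
theorem coe_jGen_eq_jqModC : ((jGen K M : ↥(keyFq K M)) : LaurentSeries K) = jqModC K := by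
  show coeffEmb K jq = jqModC K
  rw [coeffEmb, ← jqModC_rat, coeffMap_jqModC]

include hq in
omit [Algebra K ℂ] [NeZero M] [NeZero (M * q)] [NeZero (M * q * q)] in
/-- `j(x) ≠ j(x^{q²})`. -/
theorem jqModC_ne_qExpand_qExpand :
    jqModC K ≠ qExpand K q (qExpand K q (jqModC K)) := by
  intro h0
  have h1 : (jqModC K).coeff (-1) = (qExpand K q (qExpand K q (jqModC K))).coeff (-1) := by
    rw [← h0]
  rw [coeff_jqModC_neg_one, qExpand_coeff_of_not_dvd] at h1
  · exact one_ne_zero h1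
  · intro hd
    have h2 : ((q : ℤ)) ∣ 1 := (dvd_neg (a := (q : ℤ)) (b := 1)).mp hd
    have h3 := Int.natAbs_dvd_natAbs.mpr h2
    rw [Int.natAbs_natCast, Int.natAbs_one, Nat.dvd_one] at h3
    exact hq.one_lt.ne' h3

/-- existence of the Atkin–Lehner involution for `q²`. -/
theorem exists_keyFqAL2 :
    ∃ θ : ↥(keyFq K (M * q * q)) →+* ↥(keyFq K (M * q * q)),
      (∀ a : ↥(keyFq K (M * q)), θ (keyFqA K (M * q) q a) = keyFqB K (M * q) q (Wq a)) ∧
      (∀ b : ↥(keyFq K (M * q)), θ (keyFqB K (M * q) q b) = keyFqA K (M * q) q (Wq b)) := by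
  refine exists_keyFq_glue h hq
    ((keyFqB K (M * q) q : ↥(keyFq K (M * q)) →+* ↥(keyFq K (M * q * q))).comp Wq)
    ((keyFqA K (M * q) q : ↥(keyFq K (M * q)) →+* ↥(keyFq K (M * q * q))).comp Wq)
    (fun c => ?_) ?_
  · show keyFqB K (M * q) q (Wq (keyFqB K M q c)) = keyFqA K (M * q) q (Wq (keyFqA K M q c))
    rw [atkinLehnerN_keyFqB, atkinLehnerN_keyFqA, keyFqA_keyFqB_comm]
  · intro h0
    have h1 := congrFun (congrArg DFunLike.coe h0) (keyFqB K M q (jGen K M))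
    simp only [RingHom.comp_apply, RingHom.coe_coe] at h1
    rw [atkinLehnerN_keyFqB, atkinLehnerN_keyFqA] at h1
    have h2 := congrArg (fun z : ↥(keyFq K (M * q * q)) => (z : LaurentSeries K)) h1
    simp only [coe_keyFqA, coe_keyFqB, coe_jGen_eq_jqModC] at h2
    exact jqModC_ne_qExpand_qExpand hq h2

variable (K) in
/-- **the Atkin–Lehner involution of `F_{Mq²}` for `q²`.** -/
def keyFqAL2 : ↥(keyFq K (M * q * q)) →+* ↥(keyFq K (M * q * q)) :=
  Classical.choose (exists_keyFqAL2 h hq)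

theorem keyFqAL2_keyFqA (a : ↥(keyFq K (M * q))) :
    keyFqAL2 K h hq (keyFqA K (M * q) q a) = keyFqB K (M * q) q (Wq a) :=
  (Classical.choose_spec (exists_keyFqAL2 h hq)).1 a

theorem keyFqAL2_keyFqB (b : ↥(keyFq K (M * q))) :
    keyFqAL2 K h hq (keyFqB K (M * q) q b) = keyFqA K (M * q) q (Wq b) :=
  (Classical.choose_spec (exists_keyFqAL2 h hq)).2 b

/-- `W₂` is an involution. -/
theorem keyFqAL2_keyFqAL2 (z : ↥(keyFq K (M * q * q))) :
    keyFqAL2 K h hq (keyFqAL2 K h hq z) = z := by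
  have h0 : (keyFqAL2 K h hq).comp (keyFqAL2 K h hq) = RingHom.id _ := by
    refine keyFq_glue_unique hq _ _ (fun a => ?_) (fun b => ?_)
    · rw [RingHom.comp_apply, keyFqAL2_keyFqA, keyFqAL2_keyFqB, atkinLehnerN_atkinLehnerN]
      rfl
    · rw [RingHom.comp_apply, keyFqAL2_keyFqB, keyFqAL2_keyFqA, atkinLehnerN_atkinLehnerN]
      rfl
  exact congrFun (congrArg DFunLike.coe h0) z

theorem keyFqAL2_bijective : Function.Bijective (keyFqAL2 K h hq) :=
  Function.Involutive.bijective (keyFqAL2_keyFqAL2 h hq)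

theorem keyFqAL2_algebraMap (c : K) :
    keyFqAL2 K h hq (algebraMap K _ c) = algebraMap K _ c := by
  have h1 := keyFqAL2_keyFqA h hq (algebraMap K ↥(keyFq K (M * q)) c)
  rwa [AlgHom.commutes, atkinLehnerN_algebraMap, AlgHom.commutes] at h1

end Emb

section Mid

variable {K : Type*} [Field K] [Algebra ℚ K] [Algebra K ℂ] {M q : ℕ} [NeZero M] [NeZero q]
  [NeZero (M * q)] [NeZero (M * q * q)] {x y : ℤ} (h : (q : ℤ) * x + M * y = 1) (hq : q.Prime)
  {K' : Type*} [Field K'] (κ : K →+* K') (ζ : K'ˣ) (hζq : ζ ^ q = 1) (hζ1 : ζ ≠ 1)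

local notation "Wq" => atkinLehnerN (algebraMap K ℂ) h hq

/-- the coefficientwise embedding `F_N(K) → K'⸨x⸩` along `κ : K → K'`. -/
def keyFqCoeff (N : ℕ) : ↥(keyFq K N) →+* LaurentSeries K' :=
  (coeffMap κ).comp (keyFq K N).val.toRingHom

omit [Algebra K ℂ] in
@[simp] theorem keyFqCoeff_apply (N : ℕ) (f : ↥(keyFq K N)) :
    keyFqCoeff κ N f = coeffMap κ (f : LaurentSeries K) := rfl

include hζq hζ1 in
/-- existence of the expansion at the middle cusp. -/
theorem exists_keyFqMid :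
    ∃ θ : ↥(keyFq K (M * q * q)) →+* LaurentSeries K',
      (∀ a : ↥(keyFq K (M * q)), θ (keyFqA K (M * q) q a) = coeffMap κ (a : LaurentSeries K)) ∧
      (∀ b : ↥(keyFq K (M * q)), θ (keyFqB K (M * q) q b) =
        twist ζ (coeffMap κ ((Wq b : ↥(keyFq K (M * q))) : LaurentSeries K))) := by
  refine exists_keyFq_glue h hq (keyFqCoeff κ (M * q))
    (((twist ζ : LaurentSeries K' ≃+* LaurentSeries K') : LaurentSeries K' →+* LaurentSeries K').comp
      ((keyFqCoeff κ (M * q)).comp Wq)) (fun c => ?_) ?_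
  · show coeffMap κ ((keyFqB K M q c : ↥(keyFq K (M * q))) : LaurentSeries K) =
      twist ζ (coeffMap κ ((Wq (keyFqA K M q c) : ↥(keyFq K (M * q))) : LaurentSeries K))
    rw [atkinLehnerN_keyFqA, coe_keyFqB, coeffMap_qExpand, twist_qExpand, hζq, twist_one]
  · intro h0
    have h1 := congrFun (congrArg DFunLike.coe h0) (keyFqB K M q (jGen K M))
    simp only [RingHom.comp_apply, RingHom.coe_coe, keyFqCoeff_apply] at h1
    rw [atkinLehnerN_keyFqB, coe_keyFqA, coe_jGen_eq_jqModC, coeffMap_jqModC] at h1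
    have h2 : (twist ζ (jqModC K')).coeff (-1) = (jqModC K').coeff (-1) := by rw [h1]
    rw [twist_coeff, coeff_jqModC_neg_one, mul_one, zpow_neg_one, Units.val_eq_one,
      inv_eq_one] at h2
    exact hζ1 h2

variable (K) in
/-- **the expansion of `F_{Mq²}` at the middle cusp**: `j(x^d) ↦ j(x^d)`, `j(x^{dq}) ↦ j(x^{dq})`,
`j(x^{dq²}) ↦ j((ζ x)^d)` (`q ∤ d`). -/
def keyFqMid : ↥(keyFq K (M * q * q)) →+* LaurentSeries K' :=
  Classical.choose (exists_keyFqMid h hq κ ζ hζq hζ1)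

theorem keyFqMid_keyFqA (a : ↥(keyFq K (M * q))) :
    keyFqMid K h hq κ ζ hζq hζ1 (keyFqA K (M * q) q a) = coeffMap κ (a : LaurentSeries K) :=
  (Classical.choose_spec (exists_keyFqMid h hq κ ζ hζq hζ1)).1 a

theorem keyFqMid_keyFqB (b : ↥(keyFq K (M * q))) :
    keyFqMid K h hq κ ζ hζq hζ1 (keyFqB K (M * q) q b) =
      twist ζ (coeffMap κ ((Wq b : ↥(keyFq K (M * q))) : LaurentSeries K)) :=
  (Classical.choose_spec (exists_keyFqMid h hq κ ζ hζq hζ1)).2 b

/-- on `A A F_M`: the coefficientwise embedding. -/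
theorem keyFqMid_keyFqA_keyFqA (c : ↥(keyFq K M)) :
    keyFqMid K h hq κ ζ hζq hζ1 (keyFqA K (M * q) q (keyFqA K M q c)) =
      coeffMap κ (c : LaurentSeries K) := by
  rw [keyFqMid_keyFqA, coe_keyFqA]

/-- on `A B F_M = B A F_M`: `x ↦ x ^ q` after the coefficientwise embedding. -/
theorem keyFqMid_keyFqA_keyFqB (c : ↥(keyFq K M)) :
    keyFqMid K h hq κ ζ hζq hζ1 (keyFqA K (M * q) q (keyFqB K M q c)) =
      qExpand K' q (coeffMap κ (c : LaurentSeries K)) := by
  rw [keyFqMid_keyFqA, coe_keyFqB, coeffMap_qExpand]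

/-- on `B B F_M`: the twist `x ↦ ζ x` of the coefficientwise embedding. -/
theorem keyFqMid_keyFqB_keyFqB (c : ↥(keyFq K M)) :
    keyFqMid K h hq κ ζ hζq hζ1 (keyFqB K (M * q) q (keyFqB K M q c)) =
      twist ζ (coeffMap κ (c : LaurentSeries K)) := by
  rw [keyFqMid_keyFqB, atkinLehnerN_keyFqB, coe_keyFqA]

theorem keyFqMid_algebraMap (c : K) :
    keyFqMid K h hq κ ζ hζq hζ1 (algebraMap K _ c) = HahnSeries.C (κ c) := by
  have h1 := keyFqMid_keyFqA h hq κ ζ hζq hζ1 (algebraMap K ↥(keyFq K (M * q)) c)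
  rw [AlgHom.commutes] at h1
  rw [h1, IntermediateField.coe_algebraMap_apply, algebraMap_laurentSeries_eq_single,
    ← HahnSeries.C_apply, coeffMap_C]

end Mid

end

end Fermat.Agent.S36
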