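/-
S36 [MODEL36] — helper6 — part 4: **the three sheets of the level field `F_{Mq²}(K)` (`q ∤ M`) over
a discrete valuation ring `R` of residue characteristic `q`.**

* `keyFqWinf R K (M q²)`                — `W20`, the coefficientwise Gauss valuation (`j₁ ≡ j₀^q`,
  `j₂ ≡ j₁^q`);
* `keyFqW02 = W20 ∘ W₂`                  — `W02` (`W₂ = keyFqAL2` the Atkin–Lehner involution for `q²`);
* `keyFqW11 = Gauss_{R'} ∘ θ_mid`        — `W11`, the middle sheet, through the expansion `keyFqMid`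
  at the middle cusp over an extension `R → R'`, `K → K'` of Gauss data containing a `q`-th root
  of unity `ζ ≠ 1`.
Restrictions along `A = keyFqA` and `B = keyFqB` to the two sheets `keyFqWinf`, `keyFqW0` of
`F_{Mq}`:  `W20 ↦ (W∞, W∞)`, `W11 ↦ (W∞, W0)`, `W02 ↦ (W0, W0)`.
-/
import Mathlib
import Fermat.Agent.S36.MODEL36_helper6_Emb
import Fermat.Agent.Igusa.V_helper5_Funct
import Fermat.Agent.SS.VAL2_helper7_HostGauss

set_option autoImplicit false
set_option linter.unusedSectionVars false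
set_option linter.style.haveILetI false
set_option synthInstance.maxHeartbeats 200000

open ModularCurve Fermat.Agent.Igusa Fermat.Agent.JA Fermat.Agent.SS Fermat.Agent.X0N
open Fermat.Agent.S35 AlgebraicCurve

namespace Fermat.Agent.S36

noncomputable section

section QExp

variable {R : Type*} [CommRing R] [IsDomain R] [IsDiscreteValuationRing R]
  {L : Type*} [Field L] [Algebra R L] [IsFractionRing R L]

/-- `x ↦ x ^ N` reflects Gauss integrality. -/
theorem qExpand_mem_gaussInt_iff' (N : ℕ) [NeZero N] {f : LaurentSeries L}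
    (hf : f ∈ gaussField R L) : qExpand L N f ∈ gaussInt R L ↔ f ∈ gaussInt R L :=
  ⟨fun h => (gaussHomQExpand R L N).mem_gaussInt_of_map_mem hf h,
    fun h => (gaussHomQExpand R L N).map_mem_gaussInt h⟩

end QExp

section Sheets

variable (R : Type*) [CommRing R] [IsDomain R] [IsDiscreteValuationRing R]
  (K : Type*) [Field K] [Algebra R K] [IsFractionRing R K] [Algebra ℚ K] [Algebra K ℂ]
  {M q : ℕ} [NeZero M] [NeZero q] [NeZero (M * q)] [NeZero (M * q * q)] {x y : ℤ}
  (h : (q : ℤ) * x + M * y = 1) (hq : q.Prime)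

local notation "Wq" => atkinLehnerN (algebraMap K ℂ) h hq

/-- **the sheet `W02` of `F_{Mq²}(K)`**: `W20 ∘ W₂`. -/
def keyFqW02 : ValuationSubring ↥(keyFq K (M * q * q)) :=
  (keyFqWinf R K (M * q * q)).comap (keyFqAL2 K h hq)

theorem mem_keyFqW02_iff (f : ↥(keyFq K (M * q * q))) :
    f ∈ keyFqW02 R K h hq ↔
      ((keyFqAL2 K h hq f : ↥(keyFq K (M * q * q))) : LaurentSeries K) ∈ gaussInt R K := Iff.rfl

theorem coe_mem_gaussField (N : ℕ) [NeZero N] (f : ↥(keyFq K N)) :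
    (f : LaurentSeries K) ∈ gaussField R K :=
  laurentBaseChange_full_le_gaussField R K N f.2

/-- `W20 ∩ A F_{Mq} = W∞`. -/
theorem keyFqWinf_comap_keyFqA :
    (keyFqWinf R K (M * q * q)).comap
      (keyFqA K (M * q) q : ↥(keyFq K (M * q)) →+* ↥(keyFq K (M * q * q))) =
      keyFqWinf R K (M * q) := by
  ext f
  rw [ValuationSubring.mem_comap, mem_keyFqWinf_iff, mem_keyFqWinf_iff]
  show ((keyFqA K (M * q) q f : ↥(keyFq K (M * q * q))) : LaurentSeries K) ∈ _ ↔ _
  rw [coe_keyFqA]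

/-- `W20 ∩ B F_{Mq} = W∞`. -/
theorem keyFqWinf_comap_keyFqB :
    (keyFqWinf R K (M * q * q)).comap
      (keyFqB K (M * q) q : ↥(keyFq K (M * q)) →+* ↥(keyFq K (M * q * q))) =
      keyFqWinf R K (M * q) := by
  ext f
  rw [ValuationSubring.mem_comap, mem_keyFqWinf_iff, mem_keyFqWinf_iff]
  show ((keyFqB K (M * q) q f : ↥(keyFq K (M * q * q))) : LaurentSeries K) ∈ _ ↔ _
  rw [coe_keyFqB]
  exact qExpand_mem_gaussInt_iff' q (coe_mem_gaussField R K (M * q) f)

/-- `W02 ∩ A F_{Mq} = W0`. -/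
theorem keyFqW02_comap_keyFqA :
    (keyFqW02 R K h hq).comap
      (keyFqA K (M * q) q : ↥(keyFq K (M * q)) →+* ↥(keyFq K (M * q * q))) =
      keyFqW0 R K (algebraMap K ℂ) h hq := by
  ext f
  rw [ValuationSubring.mem_comap, mem_keyFqW02_iff, mem_keyFqW0_iff]
  show ((keyFqAL2 K h hq (keyFqA K (M * q) q f) : ↥(keyFq K (M * q * q))) : LaurentSeries K) ∈ _ ↔ _
  rw [keyFqAL2_keyFqA, coe_keyFqB]
  exact qExpand_mem_gaussInt_iff' q (coe_mem_gaussField R K (M * q) _)

/-- `W02 ∩ B F_{Mq} = W0`. -/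
theorem keyFqW02_comap_keyFqB :
    (keyFqW02 R K h hq).comap
      (keyFqB K (M * q) q : ↥(keyFq K (M * q)) →+* ↥(keyFq K (M * q * q))) =
      keyFqW0 R K (algebraMap K ℂ) h hq := by
  ext f
  rw [ValuationSubring.mem_comap, mem_keyFqW02_iff, mem_keyFqW0_iff]
  show ((keyFqAL2 K h hq (keyFqB K (M * q) q f) : ↥(keyFq K (M * q * q))) : LaurentSeries K) ∈ _ ↔ _
  rw [keyFqAL2_keyFqB, coe_keyFqA]

end Sheets

section Middle

variable (R : Type*) [CommRing R] [IsDomain R] [IsDiscreteValuationRing R]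
  (K : Type*) [Field K] [Algebra R K] [IsFractionRing R K] [Algebra ℚ K] [Algebra K ℂ]
  {M q : ℕ} [NeZero M] [NeZero q] [NeZero (M * q)] [NeZero (M * q * q)] {x y : ℤ}
  (h : (q : ℤ) * x + M * y = 1) (hq : q.Prime)
  {R' : Type*} [CommRing R'] [IsDomain R'] [IsDiscreteValuationRing R']
  {K' : Type*} [Field K'] [Algebra R' K'] [IsFractionRing R' K']
  (φ : R →+* R') [IsLocalHom φ] (κ : K →+* K')
  (hκ : ∀ r : R, κ (algebraMap R K r) = algebraMap R' K' (φ r))
  (ζ : R'ˣ) (hζq : ζ ^ q = 1) (hζ1 : ζ ≠ 1)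

local notation "Wq" => atkinLehnerN (algebraMap K ℂ) h hq

/-- the root of unity in `K'`. -/
abbrev zetaK (ζ : R'ˣ) : K'ˣ := Units.map (algebraMap R' K' : R' →* K') ζ

omit [IsDiscreteValuationRing R'] in
theorem zetaK_pow (hζq : ζ ^ q = 1) : (zetaK ζ : K'ˣ) ^ q = 1 := by
  rw [zetaK, ← map_pow, hζq, map_one]

omit [IsDiscreteValuationRing R'] in
theorem zetaK_ne_one (hζ1 : ζ ≠ 1) : (zetaK ζ : K'ˣ) ≠ 1 := by
  intro h0
  apply hζ1
  apply Units.ext
  have h1 := congrArg (fun u : K'ˣ => (u : K')) h0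
  simp only [zetaK, Units.coe_map, MonoidHom.coe_coe, Units.val_one] at h1
  exact (IsFractionRing.injective R' K') (by rw [h1, Units.val_one, map_one])

/-- the expansion at the middle cusp, with values in `K'⸨x⸩`. -/
abbrev midEmb : ↥(keyFq K (M * q * q)) →+* LaurentSeries K' :=
  keyFqMid K h hq κ (zetaK ζ) (zetaK_pow ζ hζq) (zetaK_ne_one ζ hζ1)

include hκ in
/-- coefficient extension of Gauss-bounded series. -/
theorem coeffMap_mem_gaussField' {f : LaurentSeries K} (hf : f ∈ gaussField R K) :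
    coeffMap κ f ∈ gaussField R' K' :=
  (gaussHomBaseChange φ κ hκ).map_mem_gaussField hf

include hκ in
theorem coeffMap_mem_gaussInt_iff' {f : LaurentSeries K} (hf : f ∈ gaussField R K) :
    coeffMap κ f ∈ gaussInt R' K' ↔ f ∈ gaussInt R K :=
  ⟨fun h0 => (gaussHomBaseChange φ κ hκ).mem_gaussInt_of_map_mem hf h0,
    fun h0 => (gaussHomBaseChange φ κ hκ).map_mem_gaussInt h0⟩

include hκ in
/-- the middle expansion takes values in the Gauss field of `(R', K')`. -/
theorem midEmb_mem_gaussField (z : ↥(keyFq K (M * q * q))) :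
    midEmb K h hq κ ζ hζq hζ1 z ∈ gaussField R' K' := by
  have hS := keyFq_subfield_eq_top K M q hq
    ((gaussField R' K').toSubfield.comap (midEmb K h hq κ ζ hζq hζ1)) (fun a => ?_) (fun b => ?_)
  · have hz : z ∈ (gaussField R' K').toSubfield.comap (midEmb K h hq κ ζ hζq hζ1) := by
      rw [hS]
      exact Subfield.mem_top z
    exact hz
  · show midEmb K h hq κ ζ hζq hζ1 (keyFqA K (M * q) q a) ∈ gaussField R' K'
    rw [keyFqMid_keyFqA]
    exact coeffMap_mem_gaussField' R K φ κ hκ (coe_mem_gaussField R K (M * q) a)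
  · show midEmb K h hq κ ζ hζq hζ1 (keyFqB K (M * q) q b) ∈ gaussField R' K'
    rw [keyFqMid_keyFqB]
    exact twist_mem_gaussField ζ
      (coeffMap_mem_gaussField' R K φ κ hκ (coe_mem_gaussField R K (M * q) _))

/-- the middle expansion as a homomorphism into the Gauss field. -/
def midEmbGauss : ↥(keyFq K (M * q * q)) →+* ↥(gaussField R' K') :=
  (midEmb K h hq κ ζ hζq hζ1).codRestrict (gaussField R' K').toSubring
    (fun z => midEmb_mem_gaussField R K h hq φ κ hκ ζ hζq hζ1 z)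

/-- **the middle sheet `W11` of `F_{Mq²}(K)`**: the Gauss valuation of `(R', K')` through the
expansion at the middle cusp. -/
def keyFqW11 : ValuationSubring ↥(keyFq K (M * q * q)) :=
  (gaussValSub R' K' (gaussField R' K') le_rfl).comap
    (midEmbGauss R K h hq φ κ hκ ζ hζq hζ1)

theorem mem_keyFqW11_iff (f : ↥(keyFq K (M * q * q))) :
    f ∈ keyFqW11 R K h hq φ κ hκ ζ hζq hζ1 ↔
      midEmb K h hq κ ζ hζq hζ1 f ∈ gaussInt R' K' := Iff.rfl

/-- `W11 ∩ A F_{Mq} = W∞`. -/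
theorem keyFqW11_comap_keyFqA :
    (keyFqW11 R K h hq φ κ hκ ζ hζq hζ1).comap
      (keyFqA K (M * q) q : ↥(keyFq K (M * q)) →+* ↥(keyFq K (M * q * q))) =
      keyFqWinf R K (M * q) := by
  ext f
  rw [ValuationSubring.mem_comap, mem_keyFqW11_iff, mem_keyFqWinf_iff]
  show midEmb K h hq κ ζ hζq hζ1 (keyFqA K (M * q) q f) ∈ _ ↔ _
  rw [keyFqMid_keyFqA]
  exact coeffMap_mem_gaussInt_iff' R K φ κ hκ (coe_mem_gaussField R K (M * q) f)

/-- `W11 ∩ B F_{Mq} = W0`. -/
theorem keyFqW11_comap_keyFqB :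
    (keyFqW11 R K h hq φ κ hκ ζ hζq hζ1).comap
      (keyFqB K (M * q) q : ↥(keyFq K (M * q)) →+* ↥(keyFq K (M * q * q))) =
      keyFqW0 R K (algebraMap K ℂ) h hq := by
  ext f
  rw [ValuationSubring.mem_comap, mem_keyFqW11_iff, mem_keyFqW0_iff]
  show midEmb K h hq κ ζ hζq hζ1 (keyFqB K (M * q) q f) ∈ _ ↔ _
  rw [keyFqMid_keyFqB, twist_mem_gaussInt_iff]
  exact coeffMap_mem_gaussInt_iff' R K φ κ hκ (coe_mem_gaussField R K (M * q) _)

end Middle

end

end Fermat.Agent.S36
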