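/-
S36 [MODEL36] — helper6 — part 5: **`f(ξ x) − f(x)` is divisible by `ξ − 1`** (coefficientwise), for
a Laurent series `f` over a commutative ring and a unit `ξ`:
`twist ξ f − f = C (ξ − 1) * twistQuot ξ f`, `(twistQuot ξ f).coeff n = geomZ ξ n * f.coeff n`,
`geomZ ξ n = (ξ^n − 1)/(ξ − 1) = 1 + ξ + … + ξ^{n−1}` (`n ≥ 0`), `geomZ ξ (−1) = −ξ⁻¹`.
-/
import Mathlib
import Fermat.Agent.Igusa.A_helper2_Twist

set_option autoImplicit false
set_option linter.unusedSectionVars false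

open Finset Fermat.Agent.Igusa

namespace Fermat.Agent.S36

section TwistDiv

variable {A : Type*} [CommRing A]

/-- `(ξ^n − 1)/(ξ − 1)` for `n : ℤ`. -/
def geomZ (ξ : Aˣ) (n : ℤ) : A :=
  if 0 ≤ n then ∑ i ∈ range n.toNat, (ξ : A) ^ i
  else -(((ξ ^ n : Aˣ) : A) * ∑ i ∈ range (-n).toNat, (ξ : A) ^ i)

theorem geomZ_mul (ξ : Aˣ) (n : ℤ) : ((ξ : A) - 1) * geomZ ξ n = ((ξ ^ n : Aˣ) : A) - 1 := by
  unfold geomZ
  split_ifs with hn
  · rw [mul_geom_sum]
    obtain ⟨m, rfl⟩ := Int.eq_ofNat_of_zero_le hn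
    rw [Int.toNat_natCast, zpow_natCast, Units.val_pow_eq_pow_val]
  · have hn' : 0 ≤ -n := by omega
    obtain ⟨m, hm⟩ := Int.eq_ofNat_of_zero_le hn'
    rw [hm, Int.toNat_natCast, mul_neg, mul_left_comm, mul_geom_sum]
    have h1 : ((ξ ^ n : Aˣ) : A) * (ξ : A) ^ m = 1 := by
      rw [← Units.val_pow_eq_pow_val, ← Units.val_mul, ← zpow_natCast, ← hm, ← zpow_add]
      simp
    rw [mul_sub, h1, mul_one]
    ring

theorem geomZ_neg_one (ξ : Aˣ) : geomZ ξ (-1) = -((ξ⁻¹ : Aˣ) : A) := by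
  unfold geomZ
  rw [if_neg (by norm_num)]
  simp

theorem geomZ_one (ξ : Aˣ) : geomZ ξ 1 = 1 := by
  unfold geomZ
  rw [if_pos (by norm_num)]
  simp

/-- `geomZ ξ n ≡ n` when `ξ = 1`. -/
theorem geomZ_of_eq_one (n : ℤ) : geomZ (1 : Aˣ) n = (n : A) := by
  unfold geomZ
  split_ifs with hn
  · obtain ⟨m, rfl⟩ := Int.eq_ofNat_of_zero_le hn
    simp
  · have hn' : 0 ≤ -n := by omega
    obtain ⟨m, hm⟩ := Int.eq_ofNat_of_zero_le hn'
    rw [hm]
    have : n = -(m : ℤ) := by omega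
    subst this
    simp

theorem map_geomZ {B : Type*} [CommRing B] (φ : A →+* B) (ξ : Aˣ) (n : ℤ) :
    φ (geomZ ξ n) = geomZ (Units.map (φ : A →* B) ξ) n := by
  unfold geomZ
  split_ifs with hn
  · rw [map_sum]
    simp
  · rw [map_neg, map_mul, map_sum]
    congr 2
    · rw [← map_zpow]
      rfl
    · simp

/-- the quotient `(f(ξ x) − f(x))/(ξ − 1)`. -/
def twistQuot (ξ : Aˣ) (f : LaurentSeries A) : LaurentSeries A where
  coeff n := geomZ ξ n * f.coeff n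
  isPWO_support' := f.isPWO_support.mono fun n hn => by
    simp only [Function.mem_support, ne_eq] at hn ⊢
    intro h0
    exact hn (by rw [h0, mul_zero])

@[simp] theorem twistQuot_coeff (ξ : Aˣ) (f : LaurentSeries A) (n : ℤ) :
    (twistQuot ξ f).coeff n = geomZ ξ n * f.coeff n := rfl

/-- **`f(ξ x) − f(x) = (ξ − 1) · twistQuot ξ f`.** -/
theorem twist_sub_self (ξ : Aˣ) (f : LaurentSeries A) :
    twist ξ f - f = HahnSeries.C ((ξ : A) - 1) * twistQuot ξ f := by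
  ext n
  rw [HahnSeries.coeff_sub, twist_coeff, HahnSeries.C_mul_eq_smul, HahnSeries.coeff_smul,
    twistQuot_coeff, smul_eq_mul, ← mul_assoc, geomZ_mul]
  ring

theorem coeffMap_twistQuot {B : Type*} [CommRing B] (φ : A →+* B) (ξ : Aˣ) (f : LaurentSeries A) :
    ModularCurve.coeffMap φ (twistQuot ξ f) =
      twistQuot (Units.map (φ : A →* B) ξ) (ModularCurve.coeffMap φ f) := by
  ext n
  rw [ModularCurve.coeffMap_coeff, twistQuot_coeff, twistQuot_coeff, map_mul, map_geomZ,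
    ModularCurve.coeffMap_coeff]

end TwistDiv

end Fermat.Agent.S36
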