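/-
S36 [MODEL36] — helper6 — part 6: **Kronecker congruences and the ramification witness on the
three sheets of `F_{Mq²}(K)`.**

For `c ∈ F_M` put `t₀ = A'A c`, `t₁ = A'B c = B'A c`, `t₂ = B'B c` (the three pullbacks of `c`
to level `M q²`).  If the series of `c` is defined over the prime ring:
* `W20` (Gauss):  `t₁ ≡ t₀^q`, `t₂ ≡ t₁^q`;
* `W02`:          `t₁ ≡ t₂^q`, `t₀ ≡ t₁^q`;
* `W11`:          `t₁ ≡ t₀^q`, `t₁ ≡ t₂^q`, and `t₂ ≡ t₀`; moreover
  `θ_mid (t₂ - t₀) = (ζ - 1) · (Gauss unit)` as soon as the series of `c` has a unit coefficient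
  in degree `±1` — so `t₂ - t₀` is a uniformizer of `W11` and `e(W11 / W∞) ≥ q - 1`.
-/
import Mathlib
import Fermat.Agent.S36.MODEL36_helper6_Sheets
import Fermat.Agent.S36.MODEL36_helper6_TwistDiv
import Fermat.Agent.SS.KRONHOST_helper6
import Fermat.Agent.SS.VAL3_helper7_Count
import Fermat.Agent.SS.FIELD_helper6_W0
import Fermat.Agent.SS.VAL2_helper7_HostTwo
import Fermat.Agent.SS.SINFEMB_helper9_Chart

set_option autoImplicit false
set_option linter.unusedSectionVars false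
set_option linter.style.haveILetI false
set_option synthInstance.maxHeartbeats 200000

open ModularCurve Fermat.Agent.Igusa Fermat.Agent.JA Fermat.Agent.SS Fermat.Agent.X0N
open Fermat.Agent.S35 AlgebraicCurve

namespace Fermat.Agent.S36

noncomputable section

section Pullbacks

variable (K : Type*) [Field K] [Algebra ℚ K]
  (M q : ℕ) [NeZero M] [NeZero q] [NeZero (M * q)] [NeZero (M * q * q)]

/-- `t₀ = A' A c`. -/
def pull0 (c : ↥(keyFq K M)) : ↥(keyFq K (M * q * q)) := keyFqA K (M * q) q (keyFqA K M q c)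

/-- `t₁ = A' B c = B' A c`. -/
def pull1 (c : ↥(keyFq K M)) : ↥(keyFq K (M * q * q)) := keyFqA K (M * q) q (keyFqB K M q c)

/-- `t₂ = B' B c`. -/
def pull2 (c : ↥(keyFq K M)) : ↥(keyFq K (M * q * q)) := keyFqB K (M * q) q (keyFqB K M q c)

@[simp] theorem coe_pull0 (c : ↥(keyFq K M)) :
    ((pull0 K M q c : ↥(keyFq K (M * q * q))) : LaurentSeries K) = c := by
  rw [pull0, coe_keyFqA, coe_keyFqA]

@[simp] theorem coe_pull1 (c : ↥(keyFq K M)) :
    ((pull1 K M q c : ↥(keyFq K (M * q * q))) : LaurentSeries K) =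
      qExpand K q (c : LaurentSeries K) := by
  rw [pull1, coe_keyFqA, coe_keyFqB]

@[simp] theorem coe_pull2 (c : ↥(keyFq K M)) :
    ((pull2 K M q c : ↥(keyFq K (M * q * q))) : LaurentSeries K) =
      qExpand K q (qExpand K q (c : LaurentSeries K)) := by
  rw [pull2, coe_keyFqB, coe_keyFqB]

theorem pull1_eq (c : ↥(keyFq K M)) :
    pull1 K M q c = keyFqB K (M * q) q (keyFqA K M q c) := by
  apply Subtype.ext
  rw [coe_pull1, coe_keyFqB, coe_keyFqA]

end Pullbacks

section Kron20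

variable (R : Type*) [CommRing R] [IsDomain R] [IsDiscreteValuationRing R]
  (K : Type*) [Field K] [Algebra R K] [IsFractionRing R K] [Algebra ℚ K] [Algebra K ℂ]
  {M q : ℕ} [NeZero M] [NeZero q] [NeZero (M * q)] [NeZero (M * q * q)] {x y : ℤ}
  (h : (q : ℤ) * x + M * y = 1) (hq : q.Prime)

local notation "k" => IsLocalRing.ResidueField R

/-- the Gauss sheet does not invert the uniformizer. -/
theorem inv_uniformizer_notMem_keyFqWinf (N : ℕ) [NeZero N] {ϖ : R} (hϖ : Irreducible ϖ) :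
    (algebraMap K ↥(keyFq K N) (algebraMap R K ϖ))⁻¹ ∉ keyFqWinf R K N := by
  intro hmem
  apply inv_uniformizer_notMem_gaussInt (L := K) hϖ
  have : (((algebraMap K ↥(keyFq K N) (algebraMap R K ϖ))⁻¹ : ↥(keyFq K N)) : LaurentSeries K) =
      ((HahnSeries.C (algebraMap R K ϖ) : LaurentSeries K))⁻¹ := by
    rw [IntermediateField.coe_inv]
    show (algebraMap K (LaurentSeries K) (algebraMap R K ϖ))⁻¹ = _
    rw [algebraMap_laurentSeries_eq_single, ← HahnSeries.C_apply]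
  rw [← this]
  exact hmem

/-- **Kronecker on `W20`**: `t₁ ≡ t₀^q`. -/
theorem keyFq_kron20_one [ExpChar k q] {ϖ : R} (hϖ : Irreducible ϖ) (c : ↥(keyFq K M))
    (hT : IsPrimeSeries R K (c : LaurentSeries K)) :
    (keyFqWinf R K (M * q * q)).valuation (pull1 K M q c - pull0 K M q c ^ q) < 1 :=
  hT.valuation_sub_pow_lt_one hϖ q (keyFq K (M * q * q)) (keyFqWinf R K (M * q * q))
    (fun _ hz => hz) (inv_uniformizer_notMem_keyFqWinf R K (M * q * q) hϖ) _ _
    (coe_pull0 K M q c) (coe_pull1 K M q c)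

/-- **Kronecker on `W20`**: `t₂ ≡ t₁^q`. -/
theorem keyFq_kron20_two [ExpChar k q] {ϖ : R} (hϖ : Irreducible ϖ) (c : ↥(keyFq K M))
    (hT : IsPrimeSeries R K (c : LaurentSeries K)) :
    (keyFqWinf R K (M * q * q)).valuation (pull2 K M q c - pull1 K M q c ^ q) < 1 := by
  have _ := hϖ
  obtain ⟨h1, h0⟩ := hT.kronecker_gaussRed q
  show (gaussValSub R K (keyFq K (M * q * q))
    (laurentBaseChange_full_le_gaussField R K (M * q * q))).valuation _ < 1
  rw [gaussValSub_valuation_lt_one_iff]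
  have hcoe : ((pull2 K M q c - pull1 K M q c ^ q : ↥(keyFq K (M * q * q))) : LaurentSeries K) =
      qExpand K q (qExpand K q (c : LaurentSeries K) - (c : LaurentSeries K) ^ q) := by
    rw [AddSubgroupClass.coe_sub, IntermediateField.coe_pow, coe_pull2, coe_pull1, map_sub,
      map_pow]
  have hmem : ((pull2 K M q c - pull1 K M q c ^ q : ↥(keyFq K (M * q * q))) : LaurentSeries K) ∈
      gaussInt R K := by
    rw [hcoe]
    exact (gaussHomQExpand R K q).map_mem_gaussInt h1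
  refine ⟨hmem, ?_⟩
  have e : (⟨((pull2 K M q c - pull1 K M q c ^ q : ↥(keyFq K (M * q * q))) : LaurentSeries K),
      hmem⟩ : gaussInt R K) = ⟨qExpand K q (qExpand K q (c : LaurentSeries K) -
        (c : LaurentSeries K) ^ q), (gaussHomQExpand R K q).map_mem_gaussInt h1⟩ :=
    Subtype.ext hcoe
  rw [e, gaussRed_qExpand (q := q) (hx := h1), h0, map_zero]

end Kron20

section Kron02

variable (R : Type*) [CommRing R] [IsDomain R] [IsDiscreteValuationRing R]
  (K : Type*) [Field K] [Algebra R K] [IsFractionRing R K] [Algebra ℚ K] [Algebra K ℂ]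
  {M q : ℕ} [NeZero M] [NeZero q] [NeZero (M * q)] [NeZero (M * q * q)] {x y : ℤ}
  (h : (q : ℤ) * x + M * y = 1) (hq : q.Prime)

local notation "k" => IsLocalRing.ResidueField R

/-- `W₂ t₀ = t₂`. -/
theorem keyFqAL2_pull0 (c : ↥(keyFq K M)) :
    keyFqAL2 K h hq (pull0 K M q c) = pull2 K M q c := by
  rw [pull0, keyFqAL2_keyFqA, atkinLehnerN_keyFqA, pull2]

/-- `W₂ t₂ = t₀`. -/
theorem keyFqAL2_pull2 (c : ↥(keyFq K M)) :
    keyFqAL2 K h hq (pull2 K M q c) = pull0 K M q c := by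
  rw [pull2, keyFqAL2_keyFqB, atkinLehnerN_keyFqB, pull0]

/-- `W₂ t₁ = t₁`. -/
theorem keyFqAL2_pull1 (c : ↥(keyFq K M)) :
    keyFqAL2 K h hq (pull1 K M q c) = pull1 K M q c := by
  rw [pull1, keyFqAL2_keyFqA, atkinLehnerN_keyFqB, ← pull1_eq, pull1]

/-- **Kronecker on `W02`**: `t₁ ≡ t₂^q`. -/
theorem keyFq_kron02_one [ExpChar k q] {ϖ : R} (hϖ : Irreducible ϖ) (c : ↥(keyFq K M))
    (hT : IsPrimeSeries R K (c : LaurentSeries K)) :
    (keyFqW02 R K h hq).valuation (pull1 K M q c - pull2 K M q c ^ q) < 1 := by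
  unfold keyFqW02
  rw [sinfemb_comap_valuation_lt_one_iff, map_sub, map_pow, keyFqAL2_pull1, keyFqAL2_pull2]
  exact keyFq_kron20_one R K hϖ c hT

/-- **Kronecker on `W02`**: `t₀ ≡ t₁^q`. -/
theorem keyFq_kron02_two [ExpChar k q] {ϖ : R} (hϖ : Irreducible ϖ) (c : ↥(keyFq K M))
    (hT : IsPrimeSeries R K (c : LaurentSeries K)) :
    (keyFqW02 R K h hq).valuation (pull0 K M q c - pull1 K M q c ^ q) < 1 := by
  unfold keyFqW02
  rw [sinfemb_comap_valuation_lt_one_iff, map_sub, map_pow, keyFqAL2_pull1, keyFqAL2_pull0]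
  exact keyFq_kron20_two R K hϖ c hT

/-- Kronecker at level `M q` on `W∞`: `B c ≡ (A c)^q`. -/
theorem keyFq_kronMq_inf [ExpChar k q] {ϖ : R} (hϖ : Irreducible ϖ) (c : ↥(keyFq K M))
    (hT : IsPrimeSeries R K (c : LaurentSeries K)) :
    (keyFqWinf R K (M * q)).valuation (keyFqB K M q c - keyFqA K M q c ^ q) < 1 :=
  hT.valuation_sub_pow_lt_one hϖ q (keyFq K (M * q)) (keyFqWinf R K (M * q))
    (fun _ hz => hz) (inv_uniformizer_notMem_keyFqWinf R K (M * q) hϖ) _ _
    (coe_keyFqA K M q c) (coe_keyFqB K M q c)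

/-- Kronecker at level `M q` on `W0`: `A c ≡ (B c)^q`. -/
theorem keyFq_kronMq_zero [ExpChar k q] {ϖ : R} (hϖ : Irreducible ϖ) (c : ↥(keyFq K M))
    (hT : IsPrimeSeries R K (c : LaurentSeries K)) :
    (keyFqW0 R K (algebraMap K ℂ) h hq).valuation (keyFqA K M q c - keyFqB K M q c ^ q) < 1 := by
  rw [keyFqW0_valuation_lt_one_iff, map_sub, map_pow, atkinLehnerN_keyFqA, atkinLehnerN_keyFqB]
  exact keyFq_kronMq_inf R K hϖ c hT

end Kron02

section Kron11

variable (R : Type*) [CommRing R] [IsDomain R] [IsDiscreteValuationRing R]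
  (K : Type*) [Field K] [Algebra R K] [IsFractionRing R K] [Algebra ℚ K] [Algebra K ℂ]
  {M q : ℕ} [NeZero M] [NeZero q] [NeZero (M * q)] [NeZero (M * q * q)] {x y : ℤ}
  (h : (q : ℤ) * x + M * y = 1) (hq : q.Prime)
  {R' : Type*} [CommRing R'] [IsDomain R'] [IsDiscreteValuationRing R']
  {K' : Type*} [Field K'] [Algebra R' K'] [IsFractionRing R' K']
  (φ : R →+* R') [IsLocalHom φ] (κ : K →+* K')
  (hκ : ∀ r : R, κ (algebraMap R K r) = algebraMap R' K' (φ r))
  (ζ : R'ˣ) (hζq : ζ ^ q = 1) (hζ1 : ζ ≠ 1)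

local notation "k" => IsLocalRing.ResidueField R

/-- **Kronecker on `W11`**: `t₁ ≡ t₀^q`. -/
theorem keyFq_kron11_one [ExpChar k q] {ϖ : R} (hϖ : Irreducible ϖ) (c : ↥(keyFq K M))
    (hT : IsPrimeSeries R K (c : LaurentSeries K)) :
    (keyFqW11 R K h hq φ κ hκ ζ hζq hζ1).valuation (pull1 K M q c - pull0 K M q c ^ q) < 1 := by
  have e : pull1 K M q c - pull0 K M q c ^ q =
      (keyFqA K (M * q) q : ↥(keyFq K (M * q)) →+* ↥(keyFq K (M * q * q)))
        (keyFqB K M q c - keyFqA K M q c ^ q) := by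
    rw [map_sub, map_pow]
    rfl
  rw [e, comap_val_lt_one_iff _ (keyFqW11_comap_keyFqA R K h hq φ κ hκ ζ hζq hζ1)]
  exact keyFq_kronMq_inf R K hϖ c hT

/-- **Kronecker on `W11`**: `t₁ ≡ t₂^q`. -/
theorem keyFq_kron11_two [ExpChar k q] {ϖ : R} (hϖ : Irreducible ϖ) (c : ↥(keyFq K M))
    (hT : IsPrimeSeries R K (c : LaurentSeries K)) :
    (keyFqW11 R K h hq φ κ hκ ζ hζq hζ1).valuation (pull1 K M q c - pull2 K M q c ^ q) < 1 := by
  have e : pull1 K M q c - pull2 K M q c ^ q =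
      (keyFqB K (M * q) q : ↥(keyFq K (M * q)) →+* ↥(keyFq K (M * q * q)))
        (keyFqA K M q c - keyFqB K M q c ^ q) := by
    rw [map_sub, map_pow, pull1_eq]
    rfl
  rw [e, comap_val_lt_one_iff _ (keyFqW11_comap_keyFqB R K h hq φ κ hκ ζ hζq hζ1)]
  exact keyFq_kronMq_zero R K h hq hϖ c hT

end Kron11

section Witness

variable (R : Type*) [CommRing R] [IsDomain R] [IsDiscreteValuationRing R]
  (K : Type*) [Field K] [Algebra R K] [IsFractionRing R K] [Algebra ℚ K] [Algebra K ℂ]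
  {M q : ℕ} [NeZero M] [NeZero q] [NeZero (M * q)] [NeZero (M * q * q)] {x y : ℤ}
  (h : (q : ℤ) * x + M * y = 1) (hq : q.Prime)
  {R' : Type*} [CommRing R'] [IsDomain R'] [IsDiscreteValuationRing R']
  {K' : Type*} [Field K'] [Algebra R' K'] [IsFractionRing R' K']
  (φ : R →+* R') [IsLocalHom φ] (κ : K →+* K')
  (hκ : ∀ r : R, κ (algebraMap R K r) = algebraMap R' K' (φ r))
  (ζ : R'ˣ) (hζq : ζ ^ q = 1) (hζ1 : ζ ≠ 1)

include hκ in
/-- coefficient extension of a series over `R`. -/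
theorem coeffMap_emb_eq_emb (s : LaurentSeries R) :
    coeffMap κ (emb R K s) = emb R' K' (coeffMap φ s) := by
  rw [emb, emb, coeffMap_coeffMap, coeffMap_coeffMap]
  exact coeffMap_congr (RingHom.ext hκ) s

include hκ in
/-- **the expansion of `t₂ - t₀` at the middle cusp** is `(ζ - 1)` times the coefficientwise
difference quotient. -/
theorem midEmb_pull2_sub_pull0 (c : ↥(keyFq K M)) (s : LaurentSeries R)
    (hs : (c : LaurentSeries K) = emb R K s) :
    midEmb K h hq κ ζ hζq hζ1 (pull2 K M q c - pull0 K M q c) =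
      HahnSeries.C (algebraMap R' K' ((ζ : R') - 1)) *
        emb R' K' (twistQuot ζ (coeffMap φ s)) := by
  rw [map_sub, pull2, pull0, keyFqMid_keyFqB_keyFqB, keyFqMid_keyFqA_keyFqA, hs,
    coeffMap_emb_eq_emb R K φ κ hκ, ← emb_C, ← map_mul, ← twist_sub_self, map_sub]
  congr 1
  rw [emb, coeffMap_twist]

/-- the difference quotient of a series with a unit coefficient in degree `±1` has nonzero
reduction. -/
theorem red_twistQuot_ne_zero (s : LaurentSeries R') {n : ℤ}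
    (hn : n = 1 ∨ n = -1) (hu : IsUnit (s.coeff n)) : red R' (twistQuot ζ s) ≠ 0 := by
  intro h0
  have h1 : IsLocalRing.residue R' (geomZ ζ n * s.coeff n) = 0 := by
    have := congrArg (fun z => HahnSeries.coeff z n) h0
    simpa using this
  rw [IsLocalRing.residue_eq_zero_iff] at h1
  have h2 : IsUnit (geomZ ζ n * s.coeff n) := by
    refine IsUnit.mul ?_ hu
    rcases hn with rfl | rfl
    · rw [geomZ_one]
      exact isUnit_one
    · rw [geomZ_neg_one]
      exact (ζ⁻¹).isUnit.neg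
  exact (IsLocalRing.mem_maximalIdeal _).1 h1 h2

include hκ in
/-- **the witness in the form of `DISC36`**: `θ_mid (t₂ - t₀) = (ζ - 1) · (Gauss unit)`. -/
theorem exists_midEmb_witness (c : ↥(keyFq K M)) (s : LaurentSeries R)
    (hs : (c : LaurentSeries K) = emb R K s) {n : ℤ} (hn : n = 1 ∨ n = -1)
    (hu : IsUnit (s.coeff n)) :
    ∃ u₀ : LaurentSeries K', u₀ ∈ gaussInt R' K' ∧ u₀⁻¹ ∈ gaussInt R' K' ∧ u₀ ≠ 0 ∧
      midEmb K h hq κ ζ hζq hζ1 (pull2 K M q c - pull0 K M q c) =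
        HahnSeries.C (algebraMap R' K' ((ζ : R') - 1)) * u₀ := by
  have hred : red R' (twistQuot ζ (coeffMap φ s)) ≠ 0 :=
    red_twistQuot_ne_zero ζ (coeffMap φ s) hn (by rw [coeffMap_coeff]; exact hu.map φ)
  refine ⟨emb R' K' (twistQuot ζ (coeffMap φ s)), emb_mem_gaussInt R' K' _, ?_,
    emb_ne_zero_of_red_ne_zero hred, midEmb_pull2_sub_pull0 R K h hq φ κ hκ ζ hζq hζ1 c s hs⟩
  exact inv_mem_gaussInt_of_gaussRed_ne_zero ⟨_, emb_mem_gaussInt R' K' _⟩
    (by rw [gaussRed_emb]; exact hred)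

include hκ in
/-- `θ_mid` on the constants of `R`. -/
theorem midEmb_algebraMap_base (r : R) :
    midEmb K h hq κ ζ hζq hζ1 (algebraMap R ↥(keyFq K (M * q * q)) r) =
      HahnSeries.C (algebraMap R' K' (φ r)) := by
  rw [IsScalarTower.algebraMap_apply R K ↥(keyFq K (M * q * q)), keyFqMid_algebraMap, hκ]

include hκ in
/-- **the ramification witness on `W11`**: if `π = (ζ - 1)^(q-1) · unit` in `R'`, then
`δ = t₂ - t₀` satisfies `w11 (δ^(q-1)) = w11 π`. -/
theorem keyFqW11_valuation_witness {π : R} (u : R'ˣ)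
    (hπζ : φ π = ((ζ : R') - 1) ^ (q - 1) * u)
    (c : ↥(keyFq K M)) (s : LaurentSeries R)
    (hs : (c : LaurentSeries K) = emb R K s) {n : ℤ} (hn : n = 1 ∨ n = -1)
    (hu : IsUnit (s.coeff n)) :
    (keyFqW11 R K h hq φ κ hκ ζ hζq hζ1).valuation
        ((pull2 K M q c - pull0 K M q c) ^ (q - 1)) =
      (keyFqW11 R K h hq φ κ hκ ζ hζq hζ1).valuation
        (algebraMap R ↥(keyFq K (M * q * q)) π) := by
  obtain ⟨u₀, hu₀, hu₀', hu₀0, hc⟩ :=
    exists_midEmb_witness R K h hq φ κ hκ ζ hζq hζ1 c s hs hn hu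
  have hζ0 : ((ζ : R') - 1) ≠ 0 := by
    intro h0
    exact hζ1 (Units.ext (by rw [Units.val_one]; exact sub_eq_zero.1 h0))
  have ha0 : (HahnSeries.C (algebraMap R' K' ((ζ : R') - 1)) : LaurentSeries K') ≠ 0 :=
    C_algebraMap_ne_zero hζ0
  have hπm : midEmb K h hq κ ζ hζq hζ1 (algebraMap R ↥(keyFq K (M * q * q)) π) =
      HahnSeries.C (algebraMap R' K' ((ζ : R') - 1)) ^ (q - 1) *
        HahnSeries.C (algebraMap R' K' (u : R')) := by
    rw [midEmb_algebraMap_base R K h hq φ κ hκ ζ hζq hζ1, hπζ, map_mul, map_mul, map_pow, map_pow]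
  have hv0 : (HahnSeries.C (algebraMap R' K' (u : R')) : LaurentSeries K') ≠ 0 :=
    C_algebraMap_ne_zero u.ne_zero
  have hδ0 : (pull2 K M q c - pull0 K M q c) ^ (q - 1) ≠ 0 := by
    apply pow_ne_zero
    intro h0
    rw [h0, map_zero] at hc
    exact mul_ne_zero ha0 hu₀0 hc.symm
  have hπ0 : algebraMap R ↥(keyFq K (M * q * q)) π ≠ 0 := by
    intro h0
    rw [h0, map_zero] at hπm
    exact mul_ne_zero (pow_ne_zero _ ha0) hv0 hπm.symm
  have hvinv : (HahnSeries.C (algebraMap R' K' (u : R')) : LaurentSeries K')⁻¹ =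
      HahnSeries.C (algebraMap R' K' ((u⁻¹ : R'ˣ) : R')) := by
    apply inv_eq_of_mul_eq_one_right
    rw [← map_mul, ← map_mul, Units.mul_inv, map_one, map_one]
  rw [TwoExt.val_eq_iff_mul_inv_mem _ hδ0 hπ0, mem_keyFqW11_iff, mem_keyFqW11_iff, map_mul,
    map_mul, map_inv₀, map_inv₀, map_pow, hc, hπm]
  constructor
  · have e : (HahnSeries.C (algebraMap R' K' ((ζ : R') - 1)) * u₀) ^ (q - 1) *
        (HahnSeries.C (algebraMap R' K' ((ζ : R') - 1)) ^ (q - 1) *
          HahnSeries.C (algebraMap R' K' (u : R')))⁻¹ =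
        u₀ ^ (q - 1) * HahnSeries.C (algebraMap R' K' ((u⁻¹ : R'ˣ) : R')) := by
      rw [mul_pow, mul_inv, mul_mul_mul_comm, mul_inv_cancel₀ (pow_ne_zero _ ha0), one_mul,
        hvinv]
    rw [e]
    exact mul_mem (pow_mem hu₀ _) (C_algebraMap_mem_gaussInt _)
  · have e : HahnSeries.C (algebraMap R' K' ((ζ : R') - 1)) ^ (q - 1) *
          HahnSeries.C (algebraMap R' K' (u : R')) *
        ((HahnSeries.C (algebraMap R' K' ((ζ : R') - 1)) * u₀) ^ (q - 1))⁻¹ =
        HahnSeries.C (algebraMap R' K' (u : R')) * u₀⁻¹ ^ (q - 1) := by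
      rw [mul_pow, mul_inv, mul_mul_mul_comm, mul_inv_cancel₀ (pow_ne_zero _ ha0), one_mul,
        inv_pow]
    rw [e]
    exact mul_mem (C_algebraMap_mem_gaussInt _) (pow_mem hu₀' _)

/-- **the witness for `j`**: `δ = j₂ - j₀` (`j₀ = A'A j`, `j₂ = B'B j`). -/
def keyFqDelta : ↥(keyFq K (M * q * q)) :=
  pull2 K M q (jGen K M) - pull0 K M q (jGen K M)

omit [Algebra K ℂ] in
theorem coe_keyFqDelta : ((keyFqDelta K (M := M) (q := q) : ↥(keyFq K (M * q * q))) :
    LaurentSeries K) = qExpand K q (qExpand K q (jqModC K)) - jqModC K := by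
  rw [keyFqDelta, AddSubgroupClass.coe_sub, coe_pull2, coe_pull0, coe_jGen_eq_jqModC]

include hκ in
/-- **`w11 (δ^(q-1)) = w11 π`** for `δ = j₂ - j₀`, when `π = (ζ - 1)^(q-1) · unit` in `R'`. -/
theorem keyFqW11_valuation_keyFqDelta {π : R} (u : R'ˣ)
    (hπζ : φ π = ((ζ : R') - 1) ^ (q - 1) * u) :
    (keyFqW11 R K h hq φ κ hκ ζ hζq hζ1).valuation (keyFqDelta K (M := M) (q := q) ^ (q - 1)) =
      (keyFqW11 R K h hq φ κ hκ ζ hζq hζ1).valuation
        (algebraMap R ↥(keyFq K (M * q * q)) π) :=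
  keyFqW11_valuation_witness R K h hq φ κ hκ ζ hζq hζ1 u hπζ (jGen K M) (jqModC R)
    (by rw [coe_jGen_eq_jqModC, emb, coeffMap_jqModC]) (n := -1) (Or.inr rfl)
    (by rw [ModularCurve.coeff_jqModC_neg_one]; exact isUnit_one)

include hκ in
/-- the expansion of `δ = j₂ - j₀` at the middle cusp, in the form of `DISC36`. -/
theorem exists_midEmb_keyFqDelta :
    ∃ u₀ : LaurentSeries K', u₀ ∈ gaussInt R' K' ∧ u₀⁻¹ ∈ gaussInt R' K' ∧ u₀ ≠ 0 ∧
      midEmb K h hq κ ζ hζq hζ1 (keyFqDelta K (M := M) (q := q)) =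
        HahnSeries.C (algebraMap R' K' ((ζ : R') - 1)) * u₀ :=
  exists_midEmb_witness R K h hq φ κ hκ ζ hζq hζ1 (jGen K M) (jqModC R)
    (by rw [coe_jGen_eq_jqModC, emb, coeffMap_jqModC]) (n := -1) (Or.inr rfl)
    (by rw [ModularCurve.coeff_jqModC_neg_one]; exact isUnit_one)

/-- `ζ ≡ 1` modulo the maximal ideal of `R'`, as soon as `π` is divisible by `ζ - 1` there. -/
theorem residue_zeta_eq_one_of_eq {π : R} (hπ : ¬ IsUnit π) (u : R'ˣ)
    (hπζ : φ π = ((ζ : R') - 1) ^ (q - 1) * u) :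
    IsLocalRing.residue R' (ζ : R') = 1 := by
  have h1 : ¬ IsUnit (((ζ : R') - 1)) := by
    intro hu
    apply hπ
    apply isUnit_of_map_unit φ
    rw [hπζ]
    exact (hu.pow _).mul u.isUnit
  have h2 : IsLocalRing.residue R' ((ζ : R') - 1) = 0 := by
    rw [IsLocalRing.residue_eq_zero_iff]
    exact (IsLocalRing.mem_maximalIdeal _).2 h1
  rw [map_sub, map_one, sub_eq_zero] at h2
  exact h2

include hq hζq in
/-- `ζ ≡ 1` modulo the maximal ideal of `R'`, in residue characteristic `q`. -/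
theorem residue_zeta_eq_one_of_char (hchar : (q : IsLocalRing.ResidueField R') = 0) :
    IsLocalRing.residue R' (ζ : R') = 1 := by
  haveI : Fact q.Prime := ⟨hq⟩
  haveI : CharP (IsLocalRing.ResidueField R') q := (CharP.charP_iff_prime_eq_zero hq).2 hchar
  have h1 : (IsLocalRing.residue R' (ζ : R') - 1) ^ q = 0 := by
    rw [sub_pow_char, one_pow, ← map_pow, ← Units.val_pow_eq_pow_val, hζq, Units.val_one, map_one,
      sub_self]
  exact sub_eq_zero.1 (pow_eq_zero_iff (NeZero.ne q) |>.1 h1)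

include hκ in
/-- **`t₂ ≡ t₀` on `W11`**, for Gauss-integral `c`. -/
theorem keyFq_kron11_diag (hζres : IsLocalRing.residue R' (ζ : R') = 1) (c : ↥(keyFq K M))
    (hc : (c : LaurentSeries K) ∈ gaussInt R K) :
    (keyFqW11 R K h hq φ κ hκ ζ hζq hζ1).valuation (pull2 K M q c - pull0 K M q c) < 1 := by
  unfold keyFqW11
  rw [sinfemb_comap_valuation_lt_one_iff, gaussValSub_valuation_lt_one_iff]
  have hg : coeffMap κ (c : LaurentSeries K) ∈ gaussInt R' K' :=
    (gaussHomBaseChange φ κ hκ).map_mem_gaussInt hc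
  have hcoe : ((midEmbGauss R K h hq φ κ hκ ζ hζq hζ1 (pull2 K M q c - pull0 K M q c) :
      ↥(gaussField R' K')) : LaurentSeries K') =
      twist (zetaK ζ) (coeffMap κ (c : LaurentSeries K)) - coeffMap κ (c : LaurentSeries K) := by
    show midEmb K h hq κ ζ hζq hζ1 _ = _
    rw [map_sub, pull2, pull0, keyFqMid_keyFqB_keyFqB, keyFqMid_keyFqA_keyFqA]
  have hmem : ((midEmbGauss R K h hq φ κ hκ ζ hζq hζ1 (pull2 K M q c - pull0 K M q c) :
      ↥(gaussField R' K')) : LaurentSeries K') ∈ gaussInt R' K' := by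
    rw [hcoe]
    exact sub_mem (gaussInt_twist_mem ζ hg) hg
  refine ⟨hmem, ?_⟩
  have e : (⟨_, hmem⟩ : gaussInt R' K') =
      ⟨twist (zetaK ζ) (coeffMap κ (c : LaurentSeries K)), gaussInt_twist_mem ζ hg⟩ -
        ⟨coeffMap κ (c : LaurentSeries K), hg⟩ := Subtype.ext hcoe
  have h1 : Units.map (IsLocalRing.residue R' : R' →* IsLocalRing.ResidueField R') ζ = 1 :=
    Units.ext hζres
  rw [e, map_sub, gaussRed_twist ζ hg, h1, twist_one, sub_self]

end Witness

end

end Fermat.Agent.S36
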