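/-
S36 [MODEL36 / host transfer] — helper7 — **the three sheets of the hosts of level `M q²` with
helper6's ramification witness `δ = j₂ - j₀` (`keyFqDelta`) plugged in**: the only input on the
cyclotomic side is `φ π = (ζ - 1)^(q-1) · unit`.  Host-level `δ` (`legDelta`, `hesDelta`) with its
Laurent expansion, existence of the sheets `W11`, `W02` on the hosts (Chevalley), and the packaged
existence statements `exists_legE_threeSheet`, `exists_hesE_threeSheet`.
-/
import Mathlib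
import Fermat.Agent.S36.HOST36_helper7_Family
import Fermat.Agent.S36.MODEL36_helper6_Kron

set_option autoImplicit false
set_option linter.unusedSectionVars false
set_option linter.unusedVariables false
set_option linter.style.haveILetI false
set_option synthInstance.maxHeartbeats 200000

open Polynomial ModularCurve IntermediateField
open Fermat.Agent.Igusa Fermat.Agent.JA Fermat.Agent.SS Fermat.Agent.X0N
open Fermat.Agent.S35 AlgebraicCurve

open scoped Fermat.Agent.JA.Host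

namespace Fermat.Agent.S36

noncomputable section

section GaussUnit

/-- the order of `j` over any field. -/
theorem order_jqModC_field (k : Type*) [Field k] : (jqModC k).order = -1 := by
  have hne := jqModC_ne_zero_of_nontrivial k
  apply le_antisymm
  · exact HahnSeries.order_le_of_coeff_ne_zero
      (by rw [coeff_jqModC_neg_one]; exact one_ne_zero)
  · by_contra hlt
    rw [not_le] at hlt
    exact hne (HahnSeries.coeff_order_eq_zero.mp (coeff_jqModC_of_lt k hlt))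

/-- `j(x^{q²}) ≠ j(x)` over any field (`q ≥ 2`). -/
theorem qExpand_qExpand_jqModC_sub_ne_zero (k : Type*) [Field k] {q : ℕ} [NeZero q]
    (hq : 2 ≤ q) : qExpand k q (qExpand k q (jqModC k)) - jqModC k ≠ 0 := by
  intro h0
  have e := congrArg HahnSeries.order (sub_eq_zero.mp h0)
  rw [order_qExpand, order_qExpand, order_jqModC_field] at e
  have h2 : (2 : ℤ) ≤ (q : ℤ) := by exact_mod_cast hq
  nlinarith

variable {R : Type*} [CommRing R] [IsDomain R] [IsDiscreteValuationRing R]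
  {K : Type*} [Field K] [Algebra R K] [IsFractionRing R K]

/-- **`δ = j(x^{wq²}) - j(x^w)` is a unit of the Gauss valuation subring of any host.** -/
theorem gaussValSub_valuation_delta_eq_one {q : ℕ} [NeZero q] (hq : 2 ≤ q) (w : ℕ) [NeZero w]
    (E : IntermediateField K (LaurentSeries K)) (hE : E ≤ gaussField R K) (d : ↥E)
    (hd : (d : LaurentSeries K) =
      qExpand K w (qExpand K q (qExpand K q (jqModC K)) - jqModC K)) :
    (gaussValSub R K E hE).valuation d = 1 := by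
  have hemb : (d : LaurentSeries K) =
      emb R K (qExpand R w (qExpand R q (qExpand R q (jqModC R)) - jqModC R)) := by
    rw [hd, emb_qExpand, map_sub (emb R K), emb_qExpand, emb_qExpand, emb_jqModC]
  have hmem : (d : LaurentSeries K) ∈ gaussInt R K := by
    rw [hemb]
    exact emb_mem_gaussInt R K _
  refine eq_of_le_of_not_lt ((gaussValSub_valuation_le_one_iff E hE d).mpr hmem) ?_
  rw [gaussValSub_valuation_lt_one_iff]
  rintro ⟨hm, h0⟩
  have e2 : (⟨(d : LaurentSeries K), hm⟩ : gaussInt R K) =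
      ⟨emb R K (qExpand R w (qExpand R q (qExpand R q (jqModC R)) - jqModC R)),
        emb_mem_gaussInt R K _⟩ := Subtype.ext hemb
  rw [e2, gaussRed_emb, red_qExpand, map_sub (red R), red_qExpand, red_qExpand, red_jqModC] at h0
  exact qExpand_qExpand_jqModC_sub_ne_zero (IsLocalRing.ResidueField R) hq
    (qExpand_injective w (by rw [h0, map_zero]))

end GaussUnit

section Leg

variable (R : Type*) [CommRing R] [IsDomain R] [IsDiscreteValuationRing R] [CharZero R]
  [DecidableEq R]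
  (K : Type*) [Field K] [Algebra R K] [IsFractionRing R K] [Algebra ℚ K] [Algebra K ℂ]
  {M q : ℕ} [NeZero M] [NeZero q] [NeZero (M * q)] [NeZero (M * q * q)] {x y : ℤ}
  {π : R}
  {R' : Type*} [CommRing R'] [IsDomain R'] [IsDiscreteValuationRing R']
  {K' : Type*} [Field K'] [Algebra R' K'] [IsFractionRing R' K']

/-- the host-level witness `δ = j(x^{2q²}) - j(x²)` on the Legendre host of level `M q²`. -/
def legDelta (M q : ℕ) [NeZero M] [NeZero q] [NeZero (M * q)] [NeZero (M * q * q)] :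
    ↥(legE K (M * q * q)) :=
  legIncl K (M * q * q) (hostImageEquiv K 2 (keyFq K (M * q * q)) (keyFqDelta K (M := M) (q := q)))

/-- the Laurent expansion of `legDelta`: `j(x^{2q²}) - j(x²)`. -/
theorem coe_legDelta :
    ((legDelta K M q : ↥(legE K (M * q * q))) : LaurentSeries K) =
      qExpand K 2 (qExpand K q (qExpand K q (jqModC K)) - jqModC K) := by
  rw [legDelta, RingHom.coe_coe, IntermediateField.coe_inclusion, coe_hostImageEquiv,
    coe_keyFqDelta]

/-- `legDelta` is a unit on the sheet `W20 = legWinf`. -/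
theorem legWinf_valuation_legDelta (h2 : IsUnit (2 : R)) (hq : q.Prime) :
    (legWinf R K h2 (M * q * q)).valuation (legDelta K M q) = 1 :=
  gaussValSub_valuation_delta_eq_one hq.two_le 2 _ _ _ (coe_legDelta K)

/-- **the three sheets of the Legendre host of level `M q²`**, witness `δ = legDelta`. -/
theorem legE_isThreeSheet_delta (hπ : Irreducible π) (h2 : IsUnit (2 : R))
    (h : (q : ℤ) * x + M * y = 1) (hq : q.Prime) (hq2 : q ≠ 2)
    (hqπ : (q : R) ∈ Ideal.span {π})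
    (hgeo : GeoHyps K π (AdjoinSimple.gen K (legT K)) ↥(legE K M) M ({0, 1} : Finset R))
    (φ : R →+* R') [IsLocalHom φ] (κ : K →+* K')
    (hκ : ∀ r : R, κ (algebraMap R K r) = algebraMap R' K' (φ r))
    (ζ : R'ˣ) (hζq : ζ ^ q = 1) (hζ1 : ζ ≠ 1)
    (u : R'ˣ) (hπζ : φ π = ((ζ : R') - 1) ^ (q - 1) * u)
    (W11 W02 : ValuationSubring ↥(legE K (M * q * q)))
    (h11 : W11.comap (legIncl K (M * q * q)) =
      hostImageVal K 2 (keyFqW11 R K h hq φ κ hκ ζ hζq hζ1))
    (h02 : W02.comap (legIncl K (M * q * q)) = hostImageVal K 2 (keyFqW02 R K h hq)) :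
    IsDiscreteValuationRing ↥(legW0 R K h hq) ∧
    IsThreeSheet (legHostA K (M * q) q : ↥(legE K (M * q)) →+* ↥(legE K (M * q * q)))
      (legHostB K (M * q) q hq hq2 : ↥(legE K (M * q)) →+* ↥(legE K (M * q * q))) q
      (legWinf R K h2 (M * q)) (legW0 R K h hq) (legWinf R K h2 (M * q * q)) W11 W02
      (algebraMap R ↥(legE K (M * q * q)) π) (legDelta K M q) :=
  legE_isThreeSheet R K hπ h2 h hq hq2 hqπ hgeo φ κ hκ ζ hζq hζ1 (keyFqDelta K (M := M) (q := q))
    (keyFqW11_valuation_keyFqDelta R K h hq φ κ hκ ζ hζq hζ1 u hπζ) W11 W02 h11 h02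

/-- **the sheet family of the Legendre host of level `M q²`**, witness plugged in. -/
theorem legE_isSheetFamily_delta (hπ : Irreducible π) (h2 : IsUnit (2 : R))
    (h : (q : ℤ) * x + M * y = 1) (hq : q.Prime) (hq2 : q ≠ 2)
    (hqπ : (q : R) ∈ Ideal.span {π})
    (hgeo : GeoHyps K π (AdjoinSimple.gen K (legT K)) ↥(legE K M) M ({0, 1} : Finset R))
    (φ : R →+* R') [IsLocalHom φ] (κ : K →+* K')
    (hκ : ∀ r : R, κ (algebraMap R K r) = algebraMap R' K' (φ r))
    (ζ : R'ˣ) (hζq : ζ ^ q = 1) (hζ1 : ζ ≠ 1)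
    (u : R'ˣ) (hπζ : φ π = ((ζ : R') - 1) ^ (q - 1) * u)
    (W11 W02 : ValuationSubring ↥(legE K (M * q * q)))
    (h11 : W11.comap (legIncl K (M * q * q)) =
      hostImageVal K 2 (keyFqW11 R K h hq φ κ hκ ζ hζq hζ1))
    (h02 : W02.comap (legIncl K (M * q * q)) = hostImageVal K 2 (keyFqW02 R K h hq)) :
    haveI : FiniteDimensional ↥K⟮jqNModC K 2⟯ ↥(legE K (M * q * q)) :=
      finite_legE_adjoin_j K (M * q * q)
    IsSheetFamily π (AdjoinSimple.gen K (jqNModC K 2))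
      (IsThreeSheet.fam (legWinf R K h2 (M * q * q)) W11 W02) :=
  legE_isSheetFamily R K hπ h2 h hq hq2 hqπ hgeo φ κ hκ ζ hζq hζ1 (keyFqDelta K (M := M) (q := q))
    (keyFqW11_valuation_keyFqDelta R K h hq φ κ hκ ζ hζq hζ1 u hπζ) W11 W02 h11 h02

/-- existence of the two new sheets `W11`, `W02` on the Legendre host of level `M q²`. -/
theorem exists_legE_sheets (h : (q : ℤ) * x + M * y = 1) (hq : q.Prime)
    (φ : R →+* R') [IsLocalHom φ] (κ : K →+* K')
    (hκ : ∀ r : R, κ (algebraMap R K r) = algebraMap R' K' (φ r))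
    (ζ : R'ˣ) (hζq : ζ ^ q = 1) (hζ1 : ζ ≠ 1) :
    ∃ W11 W02 : ValuationSubring ↥(legE K (M * q * q)),
      W11.comap (legIncl K (M * q * q)) =
        hostImageVal K 2 (keyFqW11 R K h hq φ κ hκ ζ hζq hζ1) ∧
      W02.comap (legIncl K (M * q * q)) = hostImageVal K 2 (keyFqW02 R K h hq) := by
  obtain ⟨W11, h11⟩ := SS.exists_valuationSubring_comap_eq (legIncl K (M * q * q))
    (hostImageVal K 2 (keyFqW11 R K h hq φ κ hκ ζ hζq hζ1))
  obtain ⟨W02, h02⟩ := SS.exists_valuationSubring_comap_eq (legIncl K (M * q * q))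
    (hostImageVal K 2 (keyFqW02 R K h hq))
  exact ⟨W11, W02, h11, h02⟩

/-- **packaged existence of the three-sheet structure on the Legendre host of level `M q²`.** -/
theorem exists_legE_threeSheet (hπ : Irreducible π) (h2 : IsUnit (2 : R))
    (h : (q : ℤ) * x + M * y = 1) (hq : q.Prime) (hq2 : q ≠ 2)
    (hqπ : (q : R) ∈ Ideal.span {π})
    (hgeo : GeoHyps K π (AdjoinSimple.gen K (legT K)) ↥(legE K M) M ({0, 1} : Finset R))
    (φ : R →+* R') [IsLocalHom φ] (κ : K →+* K')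
    (hκ : ∀ r : R, κ (algebraMap R K r) = algebraMap R' K' (φ r))
    (ζ : R'ˣ) (hζq : ζ ^ q = 1) (hζ1 : ζ ≠ 1)
    (u : R'ˣ) (hπζ : φ π = ((ζ : R') - 1) ^ (q - 1) * u) :
    haveI : FiniteDimensional ↥K⟮jqNModC K 2⟯ ↥(legE K (M * q * q)) :=
      finite_legE_adjoin_j K (M * q * q)
    ∃ W11 W02 : ValuationSubring ↥(legE K (M * q * q)),
      W11.comap (legIncl K (M * q * q)) =
        hostImageVal K 2 (keyFqW11 R K h hq φ κ hκ ζ hζq hζ1) ∧
      W02.comap (legIncl K (M * q * q)) = hostImageVal K 2 (keyFqW02 R K h hq) ∧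
      IsDiscreteValuationRing ↥(legW0 R K h hq) ∧
      IsThreeSheet (legHostA K (M * q) q : ↥(legE K (M * q)) →+* ↥(legE K (M * q * q)))
        (legHostB K (M * q) q hq hq2 : ↥(legE K (M * q)) →+* ↥(legE K (M * q * q))) q
        (legWinf R K h2 (M * q)) (legW0 R K h hq) (legWinf R K h2 (M * q * q)) W11 W02
        (algebraMap R ↥(legE K (M * q * q)) π) (legDelta K M q) ∧
      IsSheetFamily π (AdjoinSimple.gen K (jqNModC K 2))
        (IsThreeSheet.fam (legWinf R K h2 (M * q * q)) W11 W02) := by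
  obtain ⟨W11, W02, h11, h02⟩ := exists_legE_sheets R K h hq φ κ hκ ζ hζq hζ1
  obtain ⟨hd, hT⟩ := legE_isThreeSheet_delta R K hπ h2 h hq hq2 hqπ hgeo φ κ hκ ζ hζq hζ1 u hπζ
    W11 W02 h11 h02
  exact ⟨W11, W02, h11, h02, hd, hT,
    legE_isSheetFamily_delta R K hπ h2 h hq hq2 hqπ hgeo φ κ hκ ζ hζq hζ1 u hπζ W11 W02 h11 h02⟩

end Leg

section Hes

variable (R : Type*) [CommRing R] [IsDomain R] [IsDiscreteValuationRing R] [CharZero R]
  [DecidableEq R]
  (K : Type*) [Field K] [Algebra R K] [IsFractionRing R K] [Algebra ℚ K] [Algebra K ℂ]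
  {M : ℕ} [NeZero M] [NeZero (M * 2)] [NeZero (M * 2 * 2)] {x y : ℤ}
  {π : R}
  {R' : Type*} [CommRing R'] [IsDomain R'] [IsDiscreteValuationRing R']
  {K' : Type*} [Field K'] [Algebra R' K'] [IsFractionRing R' K']

/-- the host-level witness `δ = j(x^{12}) - j(x³)` on the Hesse host of level `M · 4`. -/
def hesDelta (M : ℕ) [NeZero M] [NeZero (M * 2)] [NeZero (M * 2 * 2)] :
    ↥(hesE K (M * 2 * 2)) :=
  hesIncl K (M * 2 * 2) (hostImageEquiv K 3 (keyFq K (M * 2 * 2)) (keyFqDelta K (M := M) (q := 2)))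

/-- the Laurent expansion of `hesDelta`: `j(x^{12}) - j(x³)`. -/
theorem coe_hesDelta :
    ((hesDelta K M : ↥(hesE K (M * 2 * 2))) : LaurentSeries K) =
      qExpand K 3 (qExpand K 2 (qExpand K 2 (jqModC K)) - jqModC K) := by
  rw [hesDelta, RingHom.coe_coe, IntermediateField.coe_inclusion, coe_hostImageEquiv,
    coe_keyFqDelta]

/-- `hesDelta` is a unit on the sheet `W20 = hesWinf`. -/
theorem hesWinf_valuation_hesDelta (h3 : IsUnit (3 : R)) :
    (hesWinf R K h3 (M * 2 * 2)).valuation (hesDelta K M) = 1 :=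
  gaussValSub_valuation_delta_eq_one le_rfl 3 _ _ _ (coe_hesDelta K)

/-- **the three sheets of the Hesse host of level `M · 4`**, witness `δ = hesDelta`. -/
theorem hesE_isThreeSheet_delta (hπ : Irreducible π) (h3 : IsUnit (3 : R)) (ω : R)
    (h : ((2 : ℕ) : ℤ) * x + M * y = 1)
    (hqπ : ((2 : ℕ) : R) ∈ Ideal.span {π})
    (hgeo : GeoHyps K π (AdjoinSimple.gen K (hesT K)) ↥(hesE K M) M
      ({1, ω, ω ^ 2} : Finset R))
    (φ : R →+* R') [IsLocalHom φ] (κ : K →+* K')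
    (hκ : ∀ r : R, κ (algebraMap R K r) = algebraMap R' K' (φ r))
    (ζ : R'ˣ) (hζq : ζ ^ 2 = 1) (hζ1 : ζ ≠ 1)
    (u : R'ˣ) (hπζ : φ π = ((ζ : R') - 1) ^ (2 - 1) * u)
    (W11 W02 : ValuationSubring ↥(hesE K (M * 2 * 2)))
    (h11 : W11.comap (hesIncl K (M * 2 * 2)) =
      hostImageVal K 3 (keyFqW11 R K h Nat.prime_two φ κ hκ ζ hζq hζ1))
    (h02 : W02.comap (hesIncl K (M * 2 * 2)) =
      hostImageVal K 3 (keyFqW02 R K h Nat.prime_two)) :
    IsDiscreteValuationRing ↥(hesW0 R K h Nat.prime_two) ∧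
    IsThreeSheet (hesHostA K (M * 2) 2 : ↥(hesE K (M * 2)) →+* ↥(hesE K (M * 2 * 2)))
      (hesHostB K (M * 2) : ↥(hesE K (M * 2)) →+* ↥(hesE K (M * 2 * 2))) 2
      (hesWinf R K h3 (M * 2)) (hesW0 R K h Nat.prime_two) (hesWinf R K h3 (M * 2 * 2)) W11 W02
      (algebraMap R ↥(hesE K (M * 2 * 2)) π) (hesDelta K M) :=
  hesE_isThreeSheet R K hπ h3 ω h hqπ hgeo φ κ hκ ζ hζq hζ1 (keyFqDelta K (M := M) (q := 2))
    (keyFqW11_valuation_keyFqDelta R K h Nat.prime_two φ κ hκ ζ hζq hζ1 u hπζ) W11 W02 h11 h02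

/-- **the sheet family of the Hesse host of level `M · 4`**, witness plugged in. -/
theorem hesE_isSheetFamily_delta (hπ : Irreducible π) (h3 : IsUnit (3 : R)) (ω : R)
    (h : ((2 : ℕ) : ℤ) * x + M * y = 1)
    (hqπ : ((2 : ℕ) : R) ∈ Ideal.span {π})
    (hgeo : GeoHyps K π (AdjoinSimple.gen K (hesT K)) ↥(hesE K M) M
      ({1, ω, ω ^ 2} : Finset R))
    (φ : R →+* R') [IsLocalHom φ] (κ : K →+* K')
    (hκ : ∀ r : R, κ (algebraMap R K r) = algebraMap R' K' (φ r))
    (ζ : R'ˣ) (hζq : ζ ^ 2 = 1) (hζ1 : ζ ≠ 1)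
    (u : R'ˣ) (hπζ : φ π = ((ζ : R') - 1) ^ (2 - 1) * u)
    (W11 W02 : ValuationSubring ↥(hesE K (M * 2 * 2)))
    (h11 : W11.comap (hesIncl K (M * 2 * 2)) =
      hostImageVal K 3 (keyFqW11 R K h Nat.prime_two φ κ hκ ζ hζq hζ1))
    (h02 : W02.comap (hesIncl K (M * 2 * 2)) =
      hostImageVal K 3 (keyFqW02 R K h Nat.prime_two)) :
    haveI : FiniteDimensional ↥K⟮jqNModC K 3⟯ ↥(hesE K (M * 2 * 2)) :=
      finite_hesE_adjoin_j K (M * 2 * 2)
    IsSheetFamily π (AdjoinSimple.gen K (jqNModC K 3))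
      (IsThreeSheet.fam (hesWinf R K h3 (M * 2 * 2)) W11 W02) :=
  hesE_isSheetFamily R K hπ h3 ω h hqπ hgeo φ κ hκ ζ hζq hζ1 (keyFqDelta K (M := M) (q := 2))
    (keyFqW11_valuation_keyFqDelta R K h Nat.prime_two φ κ hκ ζ hζq hζ1 u hπζ) W11 W02 h11 h02

/-- existence of the two new sheets `W11`, `W02` on the Hesse host of level `M · 4`. -/
theorem exists_hesE_sheets (h : ((2 : ℕ) : ℤ) * x + M * y = 1)
    (φ : R →+* R') [IsLocalHom φ] (κ : K →+* K')
    (hκ : ∀ r : R, κ (algebraMap R K r) = algebraMap R' K' (φ r))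
    (ζ : R'ˣ) (hζq : ζ ^ 2 = 1) (hζ1 : ζ ≠ 1) :
    ∃ W11 W02 : ValuationSubring ↥(hesE K (M * 2 * 2)),
      W11.comap (hesIncl K (M * 2 * 2)) =
        hostImageVal K 3 (keyFqW11 R K h Nat.prime_two φ κ hκ ζ hζq hζ1) ∧
      W02.comap (hesIncl K (M * 2 * 2)) =
        hostImageVal K 3 (keyFqW02 R K h Nat.prime_two) := by
  obtain ⟨W11, h11⟩ := SS.exists_valuationSubring_comap_eq (hesIncl K (M * 2 * 2))
    (hostImageVal K 3 (keyFqW11 R K h Nat.prime_two φ κ hκ ζ hζq hζ1))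
  obtain ⟨W02, h02⟩ := SS.exists_valuationSubring_comap_eq (hesIncl K (M * 2 * 2))
    (hostImageVal K 3 (keyFqW02 R K h Nat.prime_two))
  exact ⟨W11, W02, h11, h02⟩

/-- **packaged existence of the three-sheet structure on the Hesse host of level `M · 4`.** -/
theorem exists_hesE_threeSheet (hπ : Irreducible π) (h3 : IsUnit (3 : R)) (ω : R)
    (h : ((2 : ℕ) : ℤ) * x + M * y = 1)
    (hqπ : ((2 : ℕ) : R) ∈ Ideal.span {π})
    (hgeo : GeoHyps K π (AdjoinSimple.gen K (hesT K)) ↥(hesE K M) M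
      ({1, ω, ω ^ 2} : Finset R))
    (φ : R →+* R') [IsLocalHom φ] (κ : K →+* K')
    (hκ : ∀ r : R, κ (algebraMap R K r) = algebraMap R' K' (φ r))
    (ζ : R'ˣ) (hζq : ζ ^ 2 = 1) (hζ1 : ζ ≠ 1)
    (u : R'ˣ) (hπζ : φ π = ((ζ : R') - 1) ^ (2 - 1) * u) :
    haveI : FiniteDimensional ↥K⟮jqNModC K 3⟯ ↥(hesE K (M * 2 * 2)) :=
      finite_hesE_adjoin_j K (M * 2 * 2)
    ∃ W11 W02 : ValuationSubring ↥(hesE K (M * 2 * 2)),
      W11.comap (hesIncl K (M * 2 * 2)) =
        hostImageVal K 3 (keyFqW11 R K h Nat.prime_two φ κ hκ ζ hζq hζ1) ∧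
      W02.comap (hesIncl K (M * 2 * 2)) =
        hostImageVal K 3 (keyFqW02 R K h Nat.prime_two) ∧
      IsDiscreteValuationRing ↥(hesW0 R K h Nat.prime_two) ∧
      IsThreeSheet (hesHostA K (M * 2) 2 : ↥(hesE K (M * 2)) →+* ↥(hesE K (M * 2 * 2)))
        (hesHostB K (M * 2) : ↥(hesE K (M * 2)) →+* ↥(hesE K (M * 2 * 2))) 2
        (hesWinf R K h3 (M * 2)) (hesW0 R K h Nat.prime_two) (hesWinf R K h3 (M * 2 * 2))
        W11 W02 (algebraMap R ↥(hesE K (M * 2 * 2)) π) (hesDelta K M) ∧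
      IsSheetFamily π (AdjoinSimple.gen K (jqNModC K 3))
        (IsThreeSheet.fam (hesWinf R K h3 (M * 2 * 2)) W11 W02) := by
  obtain ⟨W11, W02, h11, h02⟩ := exists_hesE_sheets R K h φ κ hκ ζ hζq hζ1
  obtain ⟨hd, hT⟩ := hesE_isThreeSheet_delta R K hπ h3 ω h hqπ hgeo φ κ hκ ζ hζq hζ1 u hπζ
    W11 W02 h11 h02
  exact ⟨W11, W02, h11, h02, hd, hT,
    hesE_isSheetFamily_delta R K hπ h3 ω h hqπ hgeo φ κ hκ ζ hζq hζ1 u hπζ W11 W02 h11 h02⟩

end Hes

end

end Fermat.Agent.S36
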