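/-
S36 — helper9 — **[INST36-HOST], part 1: `Inst36Data` in the abstract host setting of helper7's
`host_three_sheet`.**

`E_L ≤ E_M ≤ E_N ≤ gaussField R L` (levels `M`, `M q`, `M q²`), `A` the inclusions, `B` the
dilations `x ↦ x^q`.  Under the hypotheses of `host_three_sheet` plus two extra literals
* `hδ20` : the witness `δ` of the middle sheet is a Gauss unit,
* `hkron20` : the Kronecker congruence `B₂ (A₁ J) ≡ (A₂ (A₁ J)) ^ q` on the Gauss sheet,
the three sheets `(Gauss, W11, W02)` of `E_N` over `(Gauss, V_{M,0})` of `E_M` satisfy `Inst36Data`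
(constants `K₀ := L`, uniformizer `algebraMap R L π`), hence every hypothesis of
`roots36_coprime` / `toric36` / `base36_abs` delivered by `S36/INST36_helper9_Main`.
-/
import Mathlib
import Fermat.Agent.S36.INST36_helper9_Main
import Fermat.Agent.SS.VAL3_helper7_HostThree

set_option autoImplicit false
set_option linter.unusedSectionVars false
set_option linter.unusedVariables false
set_option linter.style.haveILetI false

open Polynomial ModularCurve IsLocalRing

namespace Fermat.Agent.S36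

open Fermat.Agent.JA Fermat.Agent.Igusa Fermat.Agent.SS

section Host

variable {R : Type*} [CommRing R] [IsDomain R] [IsDiscreteValuationRing R]
  {L : Type*} [Field L] [Algebra R L] [IsFractionRing R L] [CharZero L]
  (EL EM EN : IntermediateField L (LaurentSeries L))
  (hLM : EL ≤ EM) (hMN : EM ≤ EN) (q : ℕ) [NeZero q]
  (hBL : ∀ f ∈ EL, qExpand L q f ∈ EM) (hBM : ∀ f ∈ EM, qExpand L q f ∈ EN)
  (hEL : EL ≤ gaussField R L) (hEM : EM ≤ gaussField R L) (hEN : EN ≤ gaussField R L)

/-- the dilation fixes the constants of `L`. -/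
theorem inst36_hostB_algebraMap (c : L) :
    hostB EM EN q hBM (algebraMap L ↥EM c) = algebraMap L ↥EN c := by
  apply Subtype.ext
  show qExpand L q ((algebraMap L ↥EM c : ↥EM) : LaurentSeries L) =
    ((algebraMap L ↥EN c : ↥EN) : LaurentSeries L)
  rw [IntermediateField.coe_algebraMap_apply, IntermediateField.coe_algebraMap_apply,
    algebraMap_laurentSeries_eq_single]
  exact qExpand_C q _

include hLM in
/-- **`Inst36Data` in the abstract host setting** (hypotheses of `host_three_sheet` + `hδ20` +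
`hkron20`). -/
theorem inst36Data_of_host (hq : q.Prime) (hchar : (q : ResidueField R) = 0)
    {π : R} (hπ : Irreducible π)
    (w : ℕ) (hcop : Nat.Coprime w q) (J : ↥EL) (hJ : (J : LaurentSeries L) ∈ gaussInt R L)
    (hJo : (gaussRed R L ⟨(J : LaurentSeries L), hJ⟩).order = -(w : ℤ))
    (hJ0 : gaussRed R L ⟨(J : LaurentSeries L), hJ⟩ ≠ 0)
    (VM0 : ValuationSubring ↥EM) (hdvr : IsDiscreteValuationRing ↥VM0)
    (hVM0B : VM0.comap (hostB EL EM q hBL : ↥EL →+* ↥EM) = gaussValSub R L EL hEL)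
    (hVM0res : ∀ x ∈ VM0, ∃ a ∈ gaussValSub R L EL hEL,
      VM0.valuation (x - hostB EL EM q hBL a) < 1)
    (hVM0π : ∀ x : ↥EM, VM0.valuation x < 1 → x * (algebraMap R ↥EM π)⁻¹ ∈ VM0)
    (hVM0ne : gaussValSub R L EM hEM ≠ VM0)
    (hfinA : letI := (hostA EM EN hMN : ↥EM →+* ↥EN).toAlgebra; FiniteDimensional ↥EM ↥EN)
    (hdegA : letI := (hostA EM EN hMN : ↥EM →+* ↥EN).toAlgebra; Module.finrank ↥EM ↥EN ≤ q)
    (hfinB : letI := (hostB EM EN q hBM : ↥EM →+* ↥EN).toAlgebra; FiniteDimensional ↥EM ↥EN)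
    (hdegB : letI := (hostB EM EN q hBM : ↥EM →+* ↥EN).toAlgebra; Module.finrank ↥EM ↥EN ≤ q)
    (W11 W02 : ValuationSubring ↥EN)
    (h11A : W11.comap (hostA EM EN hMN : ↥EM →+* ↥EN) = gaussValSub R L EM hEM)
    (h11B : W11.comap (hostB EM EN q hBM : ↥EM →+* ↥EN) = VM0)
    (h02A : W02.comap (hostA EM EN hMN : ↥EM →+* ↥EN) = VM0)
    (h02B : W02.comap (hostB EM EN q hBM : ↥EM →+* ↥EN) = VM0)
    (δ : ↥EN) (hδ : W11.valuation (δ ^ (q - 1)) = W11.valuation (algebraMap R ↥EN π))
    (hkron02 : W02.valuation (hostA EM EN hMN (hostB EL EM q hBL J) -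
      hostB EM EN q hBM (hostB EL EM q hBL J) ^ q) < 1)
    (hδ20 : (gaussValSub R L EN hEN).valuation δ = 1)
    (hkron20 : (gaussValSub R L EN hEN).valuation
      (hostB EM EN q hBM (hostA EL EM hLM J) - hostA EM EN hMN (hostA EL EM hLM J) ^ q) < 1)
    (NA NB : ↥EN →*₀ ↥EM)
    (hNA : ∀ z : ↥EN, NA z =
      (letI := (hostA EM EN hMN : ↥EM →+* ↥EN).toAlgebra; Algebra.norm ↥EM z))
    (hNB : ∀ z : ↥EN, NB z =
      (letI := (hostB EM EN q hBM : ↥EM →+* ↥EN).toAlgebra; Algebra.norm ↥EM z)) :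
    Inst36Data (hostA EM EN hMN : ↥EM →+* ↥EN) (hostB EM EN q hBM : ↥EM →+* ↥EN) NA NB
      (algebraMap R L π) q (gaussValSub R L EM hEM) VM0 (gaussValSub R L EN hEN) W11 W02 δ
      (hostA EL EM hLM J) (hostB EL EM q hBL J)
      (hostA EM EN hMN (hostA EL EM hLM J)) (hostB EM EN q hBM (hostB EL EM q hBL J)) := by
  classical
  haveI := hdvr
  have hAinf := comap_hostA_gaussValSub (R := R) EM EN hMN hEM hEN
  have hBinf := comap_hostB_gaussValSub (R := R) EM EN q hBM hEM hEN
  -- distinctness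
  have hne1 : gaussValSub R L EN hEN ≠ W11 := by
    intro heq
    apply hVM0ne
    rw [← hBinf, heq, h11B]
  have hne3 : W02 ≠ W11 := by
    intro heq
    apply hVM0ne
    rw [← h11A, ← heq, h02A]
  haveI : CharZero ↥EM := charZero_of_injective_algebraMap (algebraMap L ↥EM).injective
  have hsepA : letI := (hostA EM EN hMN : ↥EM →+* ↥EN).toAlgebra;
      Algebra.IsSeparable ↥EM ↥EN := by
    letI := (hostA EM EN hMN : ↥EM →+* ↥EN).toAlgebra
    haveI := hfinA
    exact Algebra.IsAlgebraic.isSeparable_of_perfectField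
  have hsepB : letI := (hostB EM EN q hBM : ↥EM →+* ↥EN).toAlgebra;
      Algebra.IsSeparable ↥EM ↥EN := by
    letI := (hostB EM EN q hBM : ↥EM →+* ↥EN).toAlgebra
    haveI := hfinB
    exact Algebra.IsAlgebraic.isSeparable_of_perfectField
  -- constants
  have eRM : ∀ r : R, algebraMap R ↥EM r = algebraMap L ↥EM (algebraMap R L r) :=
    fun r => IsScalarTower.algebraMap_apply R L ↥EM r
  have eRN : ∀ r : R, algebraMap R ↥EN r = algebraMap L ↥EN (algebraMap R L r) :=
    fun r => IsScalarTower.algebraMap_apply R L ↥EN r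
  have hπL0 : algebraMap R L π ≠ 0 := by
    rw [Ne, IsFractionRing.to_map_eq_zero_iff]
    exact hπ.ne_zero
  have hπM0 : algebraMap L ↥EM (algebraMap R L π) ≠ 0 := (_root_.map_ne_zero _).2 hπL0
  -- the uniformizer of the Gauss sheet of `E_M`
  have hmaxM := maximalIdeal_gaussValSub hπ EM hEM
  have hπ10 : (gaussValSub R L EM hEM).valuation (algebraMap L ↥EM (algebraMap R L π)) < 1 := by
    have h1 : gaussValSubC EM hEM π ∈ maximalIdeal ↥(gaussValSub R L EM hEM) := by
      rw [hmaxM]
      exact Ideal.subset_span rfl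
    rw [ValuationSubring.valuation_lt_one_iff] at h1
    exact h1
  have hunif10 : ∀ x : ↥EM, (gaussValSub R L EM hEM).valuation x < 1 →
      x * (algebraMap L ↥EM (algebraMap R L π))⁻¹ ∈ gaussValSub R L EM hEM := by
    intro x hx
    have hxV : x ∈ gaussValSub R L EM hEM := (ValuationSubring.valuation_le_one_iff _ _).1 hx.le
    have h1 : (⟨x, hxV⟩ : ↥(gaussValSub R L EM hEM)) ∈
        maximalIdeal ↥(gaussValSub R L EM hEM) := by
      rw [ValuationSubring.valuation_lt_one_iff]
      exact hx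
    rw [hmaxM, Ideal.mem_span_singleton] at h1
    obtain ⟨y, hy⟩ := h1
    have h2 : x = algebraMap L ↥EM (algebraMap R L π) * (y : ↥EM) := congrArg Subtype.val hy
    rw [h2, mul_comm, ← mul_assoc, inv_mul_cancel₀ hπM0, one_mul]
    exact y.2
  -- the uniformizer of `V_{M,0}`
  have hJL : J ∈ gaussValSub R L EL hEL := hJ
  have hπM0lt : VM0.valuation (algebraMap L ↥EM (algebraMap R L π)) < 1 := by
    rw [← eRM, ← hostB_algebraMap EL EM q hBL π, ← coe_gaussValSubC_eq_algebraMap EL hEL π]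
    refine (comap_val_lt_one_iff (hostB EL EM q hBL : ↥EL →+* ↥EM) hVM0B _).mpr ?_
    have h1 : gaussValSubC EL hEL π ∈ maximalIdeal ↥(gaussValSub R L EL hEL) := by
      rw [maximalIdeal_gaussValSub hπ EL hEL]
      exact Ideal.subset_span rfl
    rw [ValuationSubring.valuation_lt_one_iff] at h1
    exact h1
  have hunif01 : ∀ x : ↥EM, VM0.valuation x < 1 →
      x * (algebraMap L ↥EM (algebraMap R L π))⁻¹ ∈ VM0 := by
    intro x hx
    rw [← eRM]
    exact hVM0π x hx
  -- residue characteristic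
  have hq10 : (gaussValSub R L EM hEM).valuation ((q : ℕ) : ↥EM) < 1 :=
    natCast_val_lt_one EM q hEM hchar
  have hqVM0 : VM0.valuation ((q : ℕ) : ↥EM) < 1 := by
    have h1 := (comap_val_lt_one_iff (hostB EL EM q hBL : ↥EL →+* ↥EM) hVM0B _).mpr
      (natCast_val_lt_one EL q hEL hchar)
    rw [map_natCast] at h1
    exact h1
  -- the purely inseparable fibre `W02 / V_{M,0}` along `A`
  set J1 : ↥EM := hostB EL EM q hBL J with hJ1
  have hJ1mem : J1 ∈ VM0 := (comap_mem_iff (hostB EL EM q hBL : ↥EL →+* ↥EM) hVM0B J).mpr hJL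
  have hQ : IsQIndep VM0 q J1 :=
    IsQIndep.transfer (hostB EL EM q hBL : ↥EL →+* ↥EM) hVM0B hVM0res hJL
      (isQIndep_gaussValSub EL q hEL hq hchar w hcop J hJ hJo hJ0)
  have hBJ1mem : hostB EM EN q hBM J1 ∈ W02 :=
    (comap_mem_iff (hostB EM EN q hBM : ↥EM →+* ↥EN) h02B J1).mpr hJ1mem
  -- the purely inseparable fibre `Gauss / Gauss` along `B`
  set JM : ↥EM := hostA EL EM hLM J with hJM
  have hJMg : (JM : LaurentSeries L) ∈ gaussInt R L := hJ
  have hAJMmem : hostA EM EN hMN JM ∈ gaussValSub R L EN hEN := hJ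
  exact
    { hq := hq
      hιA := fun c => Subtype.ext rfl
      hιB := fun c => inst36_hostB_algebraMap EM EN q hBM c
      finA := hfinA
      sepA := hsepA
      degA := hdegA
      finB := hfinB
      sepB := hsepB
      degB := hdegB
      hNA := hNA
      hNB := hNB
      dvr10 := inferInstance
      dvr01 := hdvr
      hπ0 := hπL0
      hπ10 := hπ10
      hπ01 := hπM0lt
      unif10 := hunif10
      unif01 := hunif01
      char10 := hq10
      char01 := hqVM0
      h20A := hAinf
      h11A := h11A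
      h02A := h02A
      h20B := hBinf
      h11B := h11B
      h02B := h02B
      ne2011 := hne1
      ne0211 := hne3
      hδ := by rw [hδ, eRN]
      hδ20 := hδ20
      hy02 := hBJ1mem
      hkron02 := hkron02
      hind02 := fun a ha => hind_of_isQIndep (hostA EM EN hMN : ↥EM →+* ↥EN) h02A hq hqVM0
        hJ1mem hBJ1mem hkron02 hQ a ha
      hy20 := hAJMmem
      hkron20 := hkron20
      hind20 := fun a ha => hind_B EM EN hMN q hBM hEM hEN w hcop JM hJMg hJo hJ0 a ha }

end Host

end Fermat.Agent.S36
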