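/-
S36 — helper9 — **[INST36-HOST], part 2: `Inst36Data` on a host of level `M q²` from the F-level
sheets** (same generality and same hypotheses as helper7's `host_three_sheet_lift`
(SS/MODEL36_helper7_Lift): hosts `E_L ≥ keyFw K M w`, `E_M ≥ keyFw K (M q) w`,
`E_N ≥ keyFw K (M q q) w`), plus ONE extra F-level literal: the witness `δF` of the middle sheet is a
Gauss unit of `keyFw K (M q q) w`.

Output: `Inst36Data (hostA E_M E_N) (hostB E_M E_N) NA NB (algebraMap R K π) q Gauss(E_M) hostW0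
Gauss(E_N) W11 W02 δ …`, hence (S36/INST36_helper9_Main) every hypothesis of `roots36_coprime` /
`toric36` / `base36_abs` about the sheets and the norms.
-/
import Mathlib
import Fermat.Agent.S36.INST36_helper9_Host
import Fermat.Agent.SS.MODEL36_helper7_Lift

set_option autoImplicit false
set_option linter.unusedSectionVars false
set_option linter.unusedVariables false
set_option linter.style.haveILetI false
set_option synthInstance.maxHeartbeats 200000

open Polynomial ModularCurve IntermediateField IsLocalRing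

namespace Fermat.Agent.S36

open Fermat.Agent.JA Fermat.Agent.Igusa Fermat.Agent.SS

open scoped Fermat.Agent.JA.Host

noncomputable section

section Lift

variable (K : Type*) [Field K] [Algebra ℚ K] (ι : K →+* ℂ) {M q : ℕ} [NeZero M] [NeZero q]
  [NeZero (M * q)] [NeZero (M * q * q)] (w : ℕ) [NeZero w] {x y : ℤ}
  (h : (q : ℤ) * x + M * y = 1) (hq : q.Prime)
  (R : Type*) [CommRing R] [IsDomain R] [IsDiscreteValuationRing R]
  [Algebra R K] [IsFractionRing R K]
  (EL EM EN : IntermediateField K (LaurentSeries K))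
  (hFL : keyFw K M w ≤ EL) (hFM : keyFw K (M * q) w ≤ EM) (hFN : keyFw K (M * q * q) w ≤ EN)
  (hLM : EL ≤ EM) (hMN : EM ≤ EN)
  (hBL : ∀ f ∈ EL, qExpand K q f ∈ EM) (hBM : ∀ f ∈ EM, qExpand K q f ∈ EN)
  (hEL : EL ≤ gaussField R K) (hEM : EM ≤ gaussField R K) (hEN : EN ≤ gaussField R K)

include hFL in
/-- **`Inst36Data` on the hosts** (hypotheses of `host_three_sheet_lift` + `fδ20`). -/
theorem inst36Data_of_lift [CharZero K] (hchar : (q : ResidueField R) = 0) {π : R}
    (hπ : Irreducible π) (hcop : Nat.Coprime w q) (J : ↥EL)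
    (hJ : (J : LaurentSeries K) = jqNModC K w)
    -- level `(M, M q)`
    (hfinA₁ : letI := (hostA EL EM hLM : ↥EL →+* ↥EM).toAlgebra; FiniteDimensional ↥EL ↥EM)
    (hdegA₁ : letI := (hostA EL EM hLM : ↥EL →+* ↥EM).toAlgebra;
      Module.finrank ↥EL ↥EM ≤ q + 1)
    (hfinB₁ : letI := (hostB EL EM q hBL : ↥EL →+* ↥EM).toAlgebra; FiniteDimensional ↥EL ↥EM)
    (hdegB₁ : letI := (hostB EL EM q hBL : ↥EL →+* ↥EM).toAlgebra;
      Module.finrank ↥EL ↥EM ≤ q + 1)
    (huniq : ∀ V : ValuationSubring ↥EL, IsGaussAt R π J V → V = gaussValSub R K EL hEL)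
    -- level `(M q, M q q)`
    (hfinA₂ : letI := (hostA EM EN hMN : ↥EM →+* ↥EN).toAlgebra; FiniteDimensional ↥EM ↥EN)
    (hdegA₂ : letI := (hostA EM EN hMN : ↥EM →+* ↥EN).toAlgebra; Module.finrank ↥EM ↥EN ≤ q)
    (hfinB₂ : letI := (hostB EM EN q hBM : ↥EM →+* ↥EN).toAlgebra; FiniteDimensional ↥EM ↥EN)
    (hdegB₂ : letI := (hostB EM EN q hBM : ↥EM →+* ↥EN).toAlgebra; Module.finrank ↥EM ↥EN ≤ q)
    -- the F-level sheets
    (W11F W02F : ValuationSubring ↥(keyFw K (M * q * q) w))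
    (f11A : W11F.comap (keyFwA (K := K) (M := M * q) (q := q) w) =
      gaussValSub R K (keyFw K (M * q) w) (keyFw_le_gaussField R K (M * q) w))
    (f11B : W11F.comap (keyFwB (K := K) (M := M * q) (q := q) w) = hostW0F K ι w h hq R)
    (f02A : W02F.comap (keyFwA (K := K) (M := M * q) (q := q) w) = hostW0F K ι w h hq R)
    (f02B : W02F.comap (keyFwB (K := K) (M := M * q) (q := q) w) = hostW0F K ι w h hq R)
    (δF : ↥(keyFw K (M * q * q) w))
    (fδ : W11F.valuation (δF ^ (q - 1)) =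
      W11F.valuation (algebraMap R ↥(keyFw K (M * q * q) w) π))
    (fδ20 : (gaussValSub R K (keyFw K (M * q * q) w)
      (keyFw_le_gaussField R K (M * q * q) w)).valuation δF = 1)
    (fkron : W02F.valuation
      (keyFwA (K := K) (M := M * q) (q := q) w
          (keyFwB (K := K) (M := M) (q := q) w ⟨jqNModC K w, jqNModC_mem_keyFw M w⟩) -
        keyFwB (K := K) (M := M * q) (q := q) w
          (keyFwB (K := K) (M := M) (q := q) w ⟨jqNModC K w, jqNModC_mem_keyFw M w⟩) ^ q) < 1)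
    -- the host sheets
    (W11 W02 : ValuationSubring ↥EN)
    (h11 : W11.comap (hostIncl K w EN hFN) = W11F)
    (h02 : W02.comap (hostIncl K w EN hFN) = W02F)
    -- the norms
    (NA NB : ↥EN →*₀ ↥EM)
    (hNA : ∀ z : ↥EN, NA z =
      (letI := (hostA EM EN hMN : ↥EM →+* ↥EN).toAlgebra; Algebra.norm ↥EM z))
    (hNB : ∀ z : ↥EN, NB z =
      (letI := (hostB EM EN q hBM : ↥EM →+* ↥EN).toAlgebra; Algebra.norm ↥EM z)) :
    Inst36Data (hostA EM EN hMN : ↥EM →+* ↥EN) (hostB EM EN q hBM : ↥EM →+* ↥EN) NA NB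
      (algebraMap R K π) q (gaussValSub R K EM hEM) (hostW0 K ι w h hq R EM hFM)
      (gaussValSub R K EN hEN) W11 W02 (hostIncl K w EN hFN δF)
      (hostA EL EM hLM J) (hostB EL EM q hBL J)
      (hostA EM EN hMN (hostA EL EM hLM J)) (hostB EM EN q hBM (hostB EL EM q hBL J)) := by
  classical
  haveI : CharP (ResidueField R) q := charP_of_prime_of_natCast_eq_zero hq hchar
  haveI : Fact q.Prime := ⟨hq⟩
  haveI : ExpChar (ResidueField R) q := ExpChar.prime hq
  -- level `(M, M q)`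
  obtain ⟨-, hB0, -, hne, -, -, hezero, -, hreszero⟩ :=
    host_two_sheet_W0 K ι w h hq R EL EM hFL hFM hLM hBL hEL hEM hchar hπ hcop J hJ
      hfinA₁ hdegA₁ hfinB₁ hdegB₁ huniq
  -- level `(M q, M q q)`
  obtain ⟨hdvr, h11A, h11B, h02A, h02B, hδ, hkron02, -⟩ :=
    host_three_sheet_lift K ι w h hq R EL EM EN hFL hFM hFN hLM hMN hBL hBM hEL hEM hEN hchar hπ
      hcop J hJ hfinA₁ hdegA₁ hfinB₁ hdegB₁ huniq hfinA₂ hdegA₂ hfinB₂ hdegB₂ W11F W02F f11A f11B
      f02A f02B δF fδ fkron W11 W02 h11 h02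
  -- the coordinate
  have hTj := isPrimeSeries_jqNModC R K w
  have hJg : (J : LaurentSeries K) ∈ gaussInt R K := by rw [hJ]; exact hTj.mem_gaussInt
  have hred : gaussRed R K ⟨(J : LaurentSeries K), hJg⟩ = jqNModC (ResidueField R) w := by
    have e : (⟨(J : LaurentSeries K), hJg⟩ : gaussInt R K) = ⟨jqNModC K w, hTj.mem_gaussInt⟩ :=
      Subtype.ext hJ
    rw [e, gaussRed_jqNModC]
  have hord : (gaussRed R K ⟨(J : LaurentSeries K), hJg⟩).order = -(w : ℤ) := by
    rw [hred, order_jqNModC_field]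
  have hne0 : gaussRed R K ⟨(J : LaurentSeries K), hJg⟩ ≠ 0 := by
    intro h0
    rw [h0, HahnSeries.order_zero] at hord
    have hw : (w : ℤ) ≠ 0 := by exact_mod_cast NeZero.ne w
    omega
  -- the witness is a Gauss unit on the host
  have hδ20 : (gaussValSub R K EN hEN).valuation (hostIncl K w EN hFN δF) = 1 := by
    have hc := comap_hostIncl_gaussValSub K w R EN hFN hEN
    have h1 := comap_val_eq_iff (hostIncl K w EN hFN) hc δF 1
    rw [map_one, map_one, map_one] at h1
    exact h1.2 fδ20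
  -- Kronecker on the Gauss sheet
  have hkron20 : (gaussValSub R K EN hEN).valuation
      (hostB EM EN q hBM (hostA EL EM hLM J) - hostA EM EN hMN (hostA EL EM hLM J) ^ q) < 1 := by
    rw [gaussValSub_valuation_lt_one_iff]
    obtain ⟨hk, hk0⟩ := hTj.kronecker_gaussRed q
    have hc : ((hostB EM EN q hBM (hostA EL EM hLM J) -
        hostA EM EN hMN (hostA EL EM hLM J) ^ q : ↥EN) : LaurentSeries K) =
        qExpand K q (jqNModC K w) - jqNModC K w ^ q := by
      show qExpand K q (J : LaurentSeries K) - (J : LaurentSeries K) ^ q = _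
      rw [hJ]
    have hmem : ((hostB EM EN q hBM (hostA EL EM hLM J) -
        hostA EM EN hMN (hostA EL EM hLM J) ^ q : ↥EN) : LaurentSeries K) ∈ gaussInt R K := by
      rw [hc]
      exact hk
    refine ⟨hmem, ?_⟩
    have e2 : (⟨_, hmem⟩ : gaussInt R K) =
        ⟨qExpand K q (jqNModC K w) - jqNModC K w ^ q, hk⟩ := Subtype.ext hc
    rw [e2]
    exact hk0
  exact inst36Data_of_host EL EM EN hLM hMN q hBL hBM hEL hEM hEN hq hchar hπ w hcop J hJg hord
    hne0 (hostW0 K ι w h hq R EM hFM) hdvr hB0 hreszero hezero hne hfinA₂ hdegA₂ hfinB₂ hdegB₂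
    W11 W02 h11A h11B h02A h02B _ hδ hkron02 hδ20 hkron20 NA NB hNA hNB

end Lift

end

end Fermat.Agent.S36
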