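/-
S36 — helper9 — **[INST36-HOST], part 4: `Inst36Data` on the Hesse host of level `M · 4`**
(`q = 2`, `M` odd), under the SAME hypotheses as helper7's `hesE_isThreeSheet`
(S36/HOST36_helper7_Hes) plus the F-level literal
`hδ20 : (keyFqWinf R K (M * 2 * 2)).valuation δ = 1`, for ANY `NA NB` computing the norms along
`hesHostA`, `hesHostB`.
-/
import Mathlib
import Fermat.Agent.S36.INST36_helper9_Lift
import Fermat.Agent.S36.HOST36_helper7_Hes

set_option autoImplicit false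
set_option linter.unusedSectionVars false
set_option linter.unusedVariables false
set_option linter.style.haveILetI false
set_option synthInstance.maxHeartbeats 200000

open Polynomial ModularCurve IntermediateField
open Fermat.Agent.Igusa Fermat.Agent.JA Fermat.Agent.SS Fermat.Agent.X0N
open Fermat.Agent.S35 AlgebraicCurve

open scoped Fermat.Agent.JA.Host

namespace Fermat.Agent.S36

noncomputable section

section Hes

variable (R : Type*) [CommRing R] [IsDomain R] [IsDiscreteValuationRing R] [CharZero R]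
  [DecidableEq R]
  (K : Type*) [Field K] [Algebra R K] [IsFractionRing R K] [Algebra ℚ K] [Algebra K ℂ]
  {M : ℕ} [NeZero M] [NeZero (M * 2)] [NeZero (M * 2 * 2)] {x y : ℤ}
  {π : R}
  {R' : Type*} [CommRing R'] [IsDomain R'] [IsDiscreteValuationRing R']
  {K' : Type*} [Field K'] [Algebra R' K'] [IsFractionRing R' K']

/-- **`Inst36Data` on the Hesse host of level `M · 4`.** -/
theorem hesE_inst36Data (hπ : Irreducible π) (h3 : IsUnit (3 : R)) (ω : R)
    (h : ((2 : ℕ) : ℤ) * x + M * y = 1)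
    (hqπ : ((2 : ℕ) : R) ∈ Ideal.span {π})
    (hgeo : GeoHyps K π (AdjoinSimple.gen K (hesT K)) ↥(hesE K M) M
      ({1, ω, ω ^ 2} : Finset R))
    (φ : R →+* R') [IsLocalHom φ] (κ : K →+* K')
    (hκ : ∀ r : R, κ (algebraMap R K r) = algebraMap R' K' (φ r))
    (ζ : R'ˣ) (hζq : ζ ^ 2 = 1) (hζ1 : ζ ≠ 1)
    (δ : ↥(keyFq K (M * 2 * 2)))
    (hδ : (keyFqW11 R K h Nat.prime_two φ κ hκ ζ hζq hζ1).valuation (δ ^ (2 - 1)) =
      (keyFqW11 R K h Nat.prime_two φ κ hκ ζ hζq hζ1).valuation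
        (algebraMap R ↥(keyFq K (M * 2 * 2)) π))
    (hδ20 : (keyFqWinf R K (M * 2 * 2)).valuation δ = 1)
    (W11 W02 : ValuationSubring ↥(hesE K (M * 2 * 2)))
    (h11 : W11.comap (hesIncl K (M * 2 * 2)) =
      hostImageVal K 3 (keyFqW11 R K h Nat.prime_two φ κ hκ ζ hζq hζ1))
    (h02 : W02.comap (hesIncl K (M * 2 * 2)) =
      hostImageVal K 3 (keyFqW02 R K h Nat.prime_two))
    (NA NB : ↥(hesE K (M * 2 * 2)) →*₀ ↥(hesE K (M * 2)))
    (hNA : ∀ z : ↥(hesE K (M * 2 * 2)), NA z =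
      (letI := (hesHostA K (M * 2) 2 : ↥(hesE K (M * 2)) →+* ↥(hesE K (M * 2 * 2))).toAlgebra;
        Algebra.norm ↥(hesE K (M * 2)) z))
    (hNB : ∀ z : ↥(hesE K (M * 2 * 2)), NB z =
      (letI := (hesHostB K (M * 2) : ↥(hesE K (M * 2)) →+* ↥(hesE K (M * 2 * 2))).toAlgebra;
        Algebra.norm ↥(hesE K (M * 2)) z)) :
    Inst36Data (hesHostA K (M * 2) 2 : ↥(hesE K (M * 2)) →+* ↥(hesE K (M * 2 * 2)))
      (hesHostB K (M * 2) : ↥(hesE K (M * 2)) →+* ↥(hesE K (M * 2 * 2))) NA NB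
      (algebraMap R K π) 2
      (hesWinf R K h3 (M * 2)) (hesW0 R K h Nat.prime_two) (hesWinf R K h3 (M * 2 * 2)) W11 W02
      (hesIncl K (M * 2 * 2) (hostImageEquiv K 3 (keyFq K (M * 2 * 2)) δ))
      (hesHostA K M 2 (hesJE K M)) (hesHostB K M (hesJE K M))
      (hesHostA K (M * 2) 2 (hesHostA K M 2 (hesJE K M)))
      (hesHostB K (M * 2) (hesHostB K M (hesJE K M))) := by
  have hq : (2 : ℕ).Prime := Nat.prime_two
  have hqM : ¬ 2 ∣ M := not_dvd_of_bezout h hq
  haveI : CharP (IsLocalRing.ResidueField R) 2 := charP_residueField_of_mem_span hπ hq hqπ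
  haveI : ExpChar (IsLocalRing.ResidueField R) 2 := ExpChar.prime hq
  have hchar : ((2 : ℕ) : IsLocalRing.ResidueField R) = 0 := CharP.cast_eq_zero _ 2
  have hcop : Nat.Coprime 3 2 := by norm_num
  have hinj : Function.Injective (algebraMap R K) := IsFractionRing.injective R K
  haveI : CharZero K := charZero_of_injective_algebraMap hinj
  have hLM : hesE K M ≤ hesE K (M * 2) := hesE_le_of_dvd K (dvd_mul_right M 2)
  have hMN : hesE K (M * 2) ≤ hesE K (M * 2 * 2) := hesE_le_of_dvd K (dvd_mul_right (M * 2) 2)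
  have hdA := deg2_finrank_hesE_le (K := K) (algebraMap K ℂ) hq hqM hLM
  have hdB := ssModelHes_degB K hqM
  have hdA₂ := hesE_degA_dvd K (M := M * 2) (dvd_mul_left 2 M)
  have hdB₂ := hesE_degB_dvd K (M := M * 2) (dvd_mul_left 2 M)
  -- the F-level hypotheses
  have f11A : (hostImageVal K 3 (keyFqW11 R K h hq φ κ hκ ζ hζq hζ1)).comap
      (keyFwA (K := K) (M := M * 2) (q := 2) 3) =
      gaussValSub R K (keyFw K (M * 2) 3) (keyFw_le_gaussField R K (M * 2) 3) := by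
    rw [hostImageVal_comap_keyFwA, keyFqW11_comap_keyFqA, hostImageVal_keyFqWinf]
  have f11B : (hostImageVal K 3 (keyFqW11 R K h hq φ κ hκ ζ hζq hζ1)).comap
      (keyFwB (K := K) (M := M * 2) (q := 2) 3) = hostW0F K (algebraMap K ℂ) 3 h hq R := by
    rw [hostImageVal_comap_keyFwB, keyFqW11_comap_keyFqB, hostImageVal_keyFqW0]
  have f02A : (hostImageVal K 3 (keyFqW02 R K h hq)).comap
      (keyFwA (K := K) (M := M * 2) (q := 2) 3) = hostW0F K (algebraMap K ℂ) 3 h hq R := by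
    rw [hostImageVal_comap_keyFwA, keyFqW02_comap_keyFqA, hostImageVal_keyFqW0]
  have f02B : (hostImageVal K 3 (keyFqW02 R K h hq)).comap
      (keyFwB (K := K) (M := M * 2) (q := 2) 3) = hostW0F K (algebraMap K ℂ) 3 h hq R := by
    rw [hostImageVal_comap_keyFwB, keyFqW02_comap_keyFqB, hostImageVal_keyFqW0]
  have fδ : (hostImageVal K 3 (keyFqW11 R K h hq φ κ hκ ζ hζq hζ1)).valuation
      (hostImageEquiv K 3 (keyFq K (M * 2 * 2)) δ ^ (2 - 1)) =
      (hostImageVal K 3 (keyFqW11 R K h hq φ κ hκ ζ hζq hζ1)).valuation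
        (algebraMap R ↥(keyFw K (M * 2 * 2) 3) π) := by
    have e1 : algebraMap R ↥(keyFw K (M * 2 * 2) 3) π =
        hostImageEquiv K 3 (keyFq K (M * 2 * 2)) (algebraMap R ↥(keyFq K (M * 2 * 2)) π) := by
      rw [IsScalarTower.algebraMap_apply R K ↥(keyFq K (M * 2 * 2)), AlgEquiv.commutes,
        ← IsScalarTower.algebraMap_apply R K ↥(keyFw K (M * 2 * 2) 3)]
    rw [e1, ← map_pow, hostImageVal_val_eq_iff]
    exact hδ
  have fδ20 : (gaussValSub R K (keyFw K (M * 2 * 2) 3)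
      (keyFw_le_gaussField R K (M * 2 * 2) 3)).valuation
        (hostImageEquiv K 3 (keyFq K (M * 2 * 2)) δ) = 1 := by
    rw [← hostImageVal_keyFqWinf (R := R) K 3 (M * 2 * 2)]
    have h1 := hostImageVal_val_eq_iff K 3 (keyFqWinf R K (M * 2 * 2)) δ 1
    rw [map_one, map_one, map_one] at h1
    exact h1.2 hδ20
  have ejL : (⟨jqNModC K 3, jqNModC_mem_keyFw M 3⟩ : ↥(keyFw K M 3)) =
      hostImageEquiv K 3 (keyFq K M) (jGen K M) := by
    apply Subtype.ext
    rw [coe_hostImageEquiv, coe_jGen_eq_jqModC]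
    rfl
  have fkron : (hostImageVal K 3 (keyFqW02 R K h hq)).valuation
      (keyFwA (K := K) (M := M * 2) (q := 2) 3
          (keyFwB (K := K) (M := M) (q := 2) 3 ⟨jqNModC K 3, jqNModC_mem_keyFw M 3⟩) -
        keyFwB (K := K) (M := M * 2) (q := 2) 3
          (keyFwB (K := K) (M := M) (q := 2) 3 ⟨jqNModC K 3, jqNModC_mem_keyFw M 3⟩) ^ 2) < 1 := by
    rw [ejL, keyFwB_hostImageEquiv, keyFwA_hostImageEquiv, keyFwB_hostImageEquiv, ← map_pow,
      ← map_sub, hostImageVal_val_lt_one_iff]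
    exact keyFqW02_kron R K h hq
  exact inst36Data_of_lift K (algebraMap K ℂ) 3 h hq R (hesE K M) (hesE K (M * 2))
      (hesE K (M * 2 * 2)) (keyFw_le_hesE K M) (keyFw_le_hesE K (M * 2))
      (keyFw_le_hesE K (M * 2 * 2)) hLM hMN
      (fun _ hf => qExpand_mem_hesE_of_mem K (by rw [mul_comm]) hf)
      (fun _ hf => qExpand_mem_hesE_of_mem K (by rw [mul_comm]) hf)
      (hesE_le_gaussField R K h3 M) (hesE_le_gaussField R K h3 (M * 2))
      (hesE_le_gaussField R K h3 (M * 2 * 2)) hchar hπ hcop (hesJE K M) rfl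
      hdA.1 hdA.2 hdB.1 hdB.2 (hesE_eq_hesWinf_of_isGaussAt R K hπ h3 ω hgeo)
      hdA₂.1 hdA₂.2 hdB₂.1 hdB₂.2
      (hostImageVal K 3 (keyFqW11 R K h hq φ κ hκ ζ hζq hζ1))
      (hostImageVal K 3 (keyFqW02 R K h hq)) f11A f11B f02A f02B
      (hostImageEquiv K 3 (keyFq K (M * 2 * 2)) δ) fδ fδ20 fkron W11 W02 h11 h02 NA NB hNA hNB

end Hes

end

end Fermat.Agent.S36
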