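/-
S36 — helper9 — **[INST36-HOST], part 3: `Inst36Data` on the Legendre host of level `M q²`**
(`q` odd, `q ∤ M`), under the SAME hypotheses as helper7's `legE_isThreeSheet`
(S36/HOST36_helper7_Leg) plus the F-level literal `hδ20 : (keyFqWinf R K (M q q)).valuation δ = 1`
(the witness of the middle sheet is a Gauss unit), for ANY `NA NB` computing the norms along
`legHostA`, `legHostB`.
-/
import Mathlib
import Fermat.Agent.S36.INST36_helper9_Lift
import Fermat.Agent.S36.HOST36_helper7_Leg

set_option autoImplicit false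
set_option linter.unusedSectionVars false
set_option linter.unusedVariables false
set_option linter.style.haveILetI false
set_option synthInstance.maxHeartbeats 200000

open Polynomial ModularCurve IntermediateField
open Fermat.Agent.Igusa Fermat.Agent.JA Fermat.Agent.SS Fermat.Agent.X0N
open Fermat.Agent.S35 AlgebraicCurve

open scoped Fermat.Agent.JA.Host

namespace Fermat.Agent.S36

noncomputable section

section Leg

variable (R : Type*) [CommRing R] [IsDomain R] [IsDiscreteValuationRing R] [CharZero R]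
  [DecidableEq R]
  (K : Type*) [Field K] [Algebra R K] [IsFractionRing R K] [Algebra ℚ K] [Algebra K ℂ]
  {M q : ℕ} [NeZero M] [NeZero q] [NeZero (M * q)] [NeZero (M * q * q)] {x y : ℤ}
  {π : R}
  {R' : Type*} [CommRing R'] [IsDomain R'] [IsDiscreteValuationRing R']
  {K' : Type*} [Field K'] [Algebra R' K'] [IsFractionRing R' K']

/-- **`Inst36Data` on the Legendre host of level `M q²`.** -/
theorem legE_inst36Data (hπ : Irreducible π) (h2 : IsUnit (2 : R))
    (h : (q : ℤ) * x + M * y = 1) (hq : q.Prime) (hq2 : q ≠ 2)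
    (hqπ : (q : R) ∈ Ideal.span {π})
    (hgeo : GeoHyps K π (AdjoinSimple.gen K (legT K)) ↥(legE K M) M ({0, 1} : Finset R))
    (φ : R →+* R') [IsLocalHom φ] (κ : K →+* K')
    (hκ : ∀ r : R, κ (algebraMap R K r) = algebraMap R' K' (φ r))
    (ζ : R'ˣ) (hζq : ζ ^ q = 1) (hζ1 : ζ ≠ 1)
    (δ : ↥(keyFq K (M * q * q)))
    (hδ : (keyFqW11 R K h hq φ κ hκ ζ hζq hζ1).valuation (δ ^ (q - 1)) =
      (keyFqW11 R K h hq φ κ hκ ζ hζq hζ1).valuation
        (algebraMap R ↥(keyFq K (M * q * q)) π))
    (hδ20 : (keyFqWinf R K (M * q * q)).valuation δ = 1)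
    (W11 W02 : ValuationSubring ↥(legE K (M * q * q)))
    (h11 : W11.comap (legIncl K (M * q * q)) =
      hostImageVal K 2 (keyFqW11 R K h hq φ κ hκ ζ hζq hζ1))
    (h02 : W02.comap (legIncl K (M * q * q)) = hostImageVal K 2 (keyFqW02 R K h hq))
    (NA NB : ↥(legE K (M * q * q)) →*₀ ↥(legE K (M * q)))
    (hNA : ∀ z : ↥(legE K (M * q * q)), NA z =
      (letI := (legHostA K (M * q) q : ↥(legE K (M * q)) →+* ↥(legE K (M * q * q))).toAlgebra;
        Algebra.norm ↥(legE K (M * q)) z))
    (hNB : ∀ z : ↥(legE K (M * q * q)), NB z =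
      (letI := (legHostB K (M * q) q hq hq2 :
          ↥(legE K (M * q)) →+* ↥(legE K (M * q * q))).toAlgebra;
        Algebra.norm ↥(legE K (M * q)) z)) :
    Inst36Data (legHostA K (M * q) q : ↥(legE K (M * q)) →+* ↥(legE K (M * q * q)))
      (legHostB K (M * q) q hq hq2 : ↥(legE K (M * q)) →+* ↥(legE K (M * q * q))) NA NB
      (algebraMap R K π) q
      (legWinf R K h2 (M * q)) (legW0 R K h hq) (legWinf R K h2 (M * q * q)) W11 W02
      (legIncl K (M * q * q) (hostImageEquiv K 2 (keyFq K (M * q * q)) δ))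
      (legHostA K M q (legJE K M)) (legHostB K M q hq hq2 (legJE K M))
      (legHostA K (M * q) q (legHostA K M q (legJE K M)))
      (legHostB K (M * q) q hq hq2 (legHostB K M q hq hq2 (legJE K M))) := by
  have hqM : ¬ q ∣ M := not_dvd_of_bezout h hq
  haveI : CharP (IsLocalRing.ResidueField R) q := charP_residueField_of_mem_span hπ hq hqπ
  haveI : ExpChar (IsLocalRing.ResidueField R) q := ExpChar.prime hq
  have hchar : (q : IsLocalRing.ResidueField R) = 0 := CharP.cast_eq_zero _ q
  have hcop : Nat.Coprime 2 q := (Nat.coprime_primes Nat.prime_two hq).mpr (Ne.symm hq2)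
  have hinj : Function.Injective (algebraMap R K) := IsFractionRing.injective R K
  haveI : CharZero K := charZero_of_injective_algebraMap hinj
  have hLM : legE K M ≤ legE K (M * q) := legE_le_of_dvd K (dvd_mul_right M q)
  have hMN : legE K (M * q) ≤ legE K (M * q * q) := legE_le_of_dvd K (dvd_mul_right (M * q) q)
  have hdA := deg2_finrank_legE_le (K := K) (algebraMap K ℂ) hq hqM hLM
  have hdB := ssModelLeg_degB K hq hq2 hqM
  have hdA₂ := legE_degA_dvd K (M := M * q) hq (dvd_mul_left q M)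
  have hdB₂ := legE_degB_dvd K (M := M * q) hq hq2 (dvd_mul_left q M)
  -- the F-level hypotheses
  have f11A : (hostImageVal K 2 (keyFqW11 R K h hq φ κ hκ ζ hζq hζ1)).comap
      (keyFwA (K := K) (M := M * q) (q := q) 2) =
      gaussValSub R K (keyFw K (M * q) 2) (keyFw_le_gaussField R K (M * q) 2) := by
    rw [hostImageVal_comap_keyFwA, keyFqW11_comap_keyFqA, hostImageVal_keyFqWinf]
  have f11B : (hostImageVal K 2 (keyFqW11 R K h hq φ κ hκ ζ hζq hζ1)).comap
      (keyFwB (K := K) (M := M * q) (q := q) 2) = hostW0F K (algebraMap K ℂ) 2 h hq R := by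
    rw [hostImageVal_comap_keyFwB, keyFqW11_comap_keyFqB, hostImageVal_keyFqW0]
  have f02A : (hostImageVal K 2 (keyFqW02 R K h hq)).comap
      (keyFwA (K := K) (M := M * q) (q := q) 2) = hostW0F K (algebraMap K ℂ) 2 h hq R := by
    rw [hostImageVal_comap_keyFwA, keyFqW02_comap_keyFqA, hostImageVal_keyFqW0]
  have f02B : (hostImageVal K 2 (keyFqW02 R K h hq)).comap
      (keyFwB (K := K) (M := M * q) (q := q) 2) = hostW0F K (algebraMap K ℂ) 2 h hq R := by
    rw [hostImageVal_comap_keyFwB, keyFqW02_comap_keyFqB, hostImageVal_keyFqW0]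
  have fδ : (hostImageVal K 2 (keyFqW11 R K h hq φ κ hκ ζ hζq hζ1)).valuation
      (hostImageEquiv K 2 (keyFq K (M * q * q)) δ ^ (q - 1)) =
      (hostImageVal K 2 (keyFqW11 R K h hq φ κ hκ ζ hζq hζ1)).valuation
        (algebraMap R ↥(keyFw K (M * q * q) 2) π) := by
    have e1 : algebraMap R ↥(keyFw K (M * q * q) 2) π =
        hostImageEquiv K 2 (keyFq K (M * q * q)) (algebraMap R ↥(keyFq K (M * q * q)) π) := by
      rw [IsScalarTower.algebraMap_apply R K ↥(keyFq K (M * q * q)), AlgEquiv.commutes,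
        ← IsScalarTower.algebraMap_apply R K ↥(keyFw K (M * q * q) 2)]
    rw [e1, ← map_pow, hostImageVal_val_eq_iff]
    exact hδ
  have fδ20 : (gaussValSub R K (keyFw K (M * q * q) 2)
      (keyFw_le_gaussField R K (M * q * q) 2)).valuation
        (hostImageEquiv K 2 (keyFq K (M * q * q)) δ) = 1 := by
    rw [← hostImageVal_keyFqWinf (R := R) K 2 (M * q * q)]
    have h1 := hostImageVal_val_eq_iff K 2 (keyFqWinf R K (M * q * q)) δ 1
    rw [map_one, map_one, map_one] at h1
    exact h1.2 hδ20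
  have ejL : (⟨jqNModC K 2, jqNModC_mem_keyFw M 2⟩ : ↥(keyFw K M 2)) =
      hostImageEquiv K 2 (keyFq K M) (jGen K M) := by
    apply Subtype.ext
    rw [coe_hostImageEquiv, coe_jGen_eq_jqModC]
    rfl
  have fkron : (hostImageVal K 2 (keyFqW02 R K h hq)).valuation
      (keyFwA (K := K) (M := M * q) (q := q) 2
          (keyFwB (K := K) (M := M) (q := q) 2 ⟨jqNModC K 2, jqNModC_mem_keyFw M 2⟩) -
        keyFwB (K := K) (M := M * q) (q := q) 2
          (keyFwB (K := K) (M := M) (q := q) 2 ⟨jqNModC K 2, jqNModC_mem_keyFw M 2⟩) ^ q) < 1 := by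
    rw [ejL, keyFwB_hostImageEquiv, keyFwA_hostImageEquiv, keyFwB_hostImageEquiv, ← map_pow,
      ← map_sub, hostImageVal_val_lt_one_iff]
    exact keyFqW02_kron R K h hq
  exact inst36Data_of_lift K (algebraMap K ℂ) 2 h hq R (legE K M) (legE K (M * q))
      (legE K (M * q * q)) (keyFw_le_legE K M) (keyFw_le_legE K (M * q))
      (keyFw_le_legE K (M * q * q)) hLM hMN
      (fun _ hf => qExpand_mem_legE_of_mem K hq hq2 (by rw [mul_comm]) hf)
      (fun _ hf => qExpand_mem_legE_of_mem K hq hq2 (by rw [mul_comm]) hf)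
      (legE_le_gaussField R K h2 M) (legE_le_gaussField R K h2 (M * q))
      (legE_le_gaussField R K h2 (M * q * q)) hchar hπ hcop (legJE K M) rfl
      hdA.1 hdA.2 hdB.1 hdB.2 (legE_eq_legWinf_of_isGaussAt R K hπ h2 hgeo)
      hdA₂.1 hdA₂.2 hdB₂.1 hdB₂.2
      (hostImageVal K 2 (keyFqW11 R K h hq φ κ hκ ζ hζq hζ1))
      (hostImageVal K 2 (keyFqW02 R K h hq)) f11A f11B f02A f02B
      (hostImageEquiv K 2 (keyFq K (M * q * q)) δ) fδ fδ20 fkron W11 W02 h11 h02 NA NB hNA hNB

end Leg

end

end Fermat.Agent.S36
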