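/-
S36 — helper9 — **[INST36-HOST], part 5: the witness `δ = j₂ - j₀` of helper6 is a Gauss unit, and
the fully discharged `Inst36Data` on the hosts.**

* `inst36_gauss_val_eq_one` : a Gauss-integral element with nonzero reduction has Gauss valuation 1;
* `keyFqWinf_valuation_keyFqDelta` : `W20 (δ) = 1` for `δ = keyFqDelta = j(x^{q²}) - j(x)`;
* `legE_inst36Data_delta`, `hesE_inst36Data_delta` : `Inst36Data` on the Legendre / Hesse host of
  level `M q²` with `δ := keyFqDelta`, from the cyclotomic datum `φ π = (ζ - 1)^(q-1) · u`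
  (helper1's `exists_cyclo_datum`) — no open hypothesis about `δ` left.
-/
import Mathlib
import Fermat.Agent.S36.INST36_helper9_Leg
import Fermat.Agent.S36.INST36_helper9_Hes
import Fermat.Agent.S36.MODEL36_helper6_Kron

set_option autoImplicit false
set_option linter.unusedSectionVars false
set_option linter.unusedVariables false
set_option linter.style.haveILetI false
set_option synthInstance.maxHeartbeats 200000

open Polynomial ModularCurve IntermediateField
open Fermat.Agent.Igusa Fermat.Agent.JA Fermat.Agent.SS Fermat.Agent.X0N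
open Fermat.Agent.S35 AlgebraicCurve

open scoped Fermat.Agent.JA.Host

namespace Fermat.Agent.S36

noncomputable section

section Gauss

variable {R : Type*} [CommRing R] [IsDomain R] [IsDiscreteValuationRing R]
  {L : Type*} [Field L] [Algebra R L] [IsFractionRing R L]
  (E : IntermediateField L (LaurentSeries L)) (hE : E ≤ gaussField R L)

/-- a Gauss-integral element with nonzero reduction is a Gauss unit. -/
theorem inst36_gauss_val_eq_one (x : ↥E) (hx : (x : LaurentSeries L) ∈ gaussInt R L)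
    (hred : gaussRed R L ⟨(x : LaurentSeries L), hx⟩ ≠ 0) :
    (gaussValSub R L E hE).valuation x = 1 := by
  have h1 : (gaussValSub R L E hE).valuation x ≤ 1 :=
    (gaussValSub_valuation_le_one_iff E hE x).2 hx
  rcases lt_or_eq_of_le h1 with h2 | h2
  · exfalso
    obtain ⟨h3, h4⟩ := (gaussValSub_valuation_lt_one_iff E hE x).1 h2
    exact hred h4
  · exact h2

end Gauss

section Delta

/-- `j(x) ≠ j(x^{q²})` over any nontrivial coefficient ring. -/
theorem inst36_jqModC_ne_qExpand_qExpand (k : Type*) [CommRing k] [Nontrivial k] {q : ℕ}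
    [NeZero q] (hq : q.Prime) : jqModC k ≠ qExpand k q (qExpand k q (jqModC k)) := by
  intro h0
  have h1 : (jqModC k).coeff (-1) = (qExpand k q (qExpand k q (jqModC k))).coeff (-1) := by
    rw [← h0]
  rw [coeff_jqModC_neg_one, qExpand_coeff_of_not_dvd] at h1
  · exact one_ne_zero h1
  · intro hd
    have h2 : ((q : ℤ)) ∣ 1 := (dvd_neg (a := (q : ℤ)) (b := 1)).mp hd
    have h3 := Int.natAbs_dvd_natAbs.mpr h2
    rw [Int.natAbs_natCast, Int.natAbs_one, Nat.dvd_one] at h3
    exact hq.one_lt.ne' h3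

variable (R : Type*) [CommRing R] [IsDomain R] [IsDiscreteValuationRing R]
  (K : Type*) [Field K] [Algebra R K] [IsFractionRing R K] [Algebra ℚ K] [Algebra K ℂ]
  {M q : ℕ} [NeZero M] [NeZero q] [NeZero (M * q)] [NeZero (M * q * q)]

/-- **`δ = j₂ - j₀` is a unit of the Gauss sheet `W20`.** -/
theorem keyFqWinf_valuation_keyFqDelta (hq : q.Prime) :
    (keyFqWinf R K (M * q * q)).valuation (keyFqDelta K (M := M) (q := q)) = 1 := by
  have hj : jqModC K ∈ gaussInt R K := jqModC_mem_gaussInt R K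
  have hj1 : qExpand K q (jqModC K) ∈ gaussInt R K :=
    (gaussHomQExpand R K q).map_mem_gaussInt hj
  have hj2 : qExpand K q (qExpand K q (jqModC K)) ∈ gaussInt R K :=
    (gaussHomQExpand R K q).map_mem_gaussInt hj1
  have hmem : ((keyFqDelta K (M := M) (q := q) : ↥(keyFq K (M * q * q))) : LaurentSeries K) ∈
      gaussInt R K := by
    rw [coe_keyFqDelta]
    exact sub_mem hj2 hj
  apply inst36_gauss_val_eq_one (R := R) (keyFq K (M * q * q))
    (laurentBaseChange_full_le_gaussField R K (M * q * q)) _ hmem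
  have e : (⟨_, hmem⟩ : gaussInt R K) =
      (⟨qExpand K q (qExpand K q (jqModC K)), hj2⟩ : gaussInt R K) - ⟨jqModC K, hj⟩ :=
    Subtype.ext (coe_keyFqDelta K)
  rw [e, map_sub, gaussRed_qExpand q hj1, gaussRed_qExpand q hj, gaussRed_jqModC, sub_ne_zero]
  exact (inst36_jqModC_ne_qExpand_qExpand (IsLocalRing.ResidueField R) hq).symm

end Delta

section Leg

variable (R : Type*) [CommRing R] [IsDomain R] [IsDiscreteValuationRing R] [CharZero R]
  [DecidableEq R]
  (K : Type*) [Field K] [Algebra R K] [IsFractionRing R K] [Algebra ℚ K] [Algebra K ℂ]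
  {M q : ℕ} [NeZero M] [NeZero q] [NeZero (M * q)] [NeZero (M * q * q)] {x y : ℤ}
  {π : R}
  {R' : Type*} [CommRing R'] [IsDomain R'] [IsDiscreteValuationRing R']
  {K' : Type*} [Field K'] [Algebra R' K'] [IsFractionRing R' K']

/-- **`Inst36Data` on the Legendre host of level `M q²`, witness `δ = j₂ - j₀` discharged.** -/
theorem legE_inst36Data_delta (hπ : Irreducible π) (h2 : IsUnit (2 : R))
    (h : (q : ℤ) * x + M * y = 1) (hq : q.Prime) (hq2 : q ≠ 2)
    (hqπ : (q : R) ∈ Ideal.span {π})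
    (hgeo : GeoHyps K π (AdjoinSimple.gen K (legT K)) ↥(legE K M) M ({0, 1} : Finset R))
    (φ : R →+* R') [IsLocalHom φ] (κ : K →+* K')
    (hκ : ∀ r : R, κ (algebraMap R K r) = algebraMap R' K' (φ r))
    (ζ : R'ˣ) (hζq : ζ ^ q = 1) (hζ1 : ζ ≠ 1)
    (u : R'ˣ) (hπζ : φ π = ((ζ : R') - 1) ^ (q - 1) * u)
    (W11 W02 : ValuationSubring ↥(legE K (M * q * q)))
    (h11 : W11.comap (legIncl K (M * q * q)) =
      hostImageVal K 2 (keyFqW11 R K h hq φ κ hκ ζ hζq hζ1))
    (h02 : W02.comap (legIncl K (M * q * q)) = hostImageVal K 2 (keyFqW02 R K h hq))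
    (NA NB : ↥(legE K (M * q * q)) →*₀ ↥(legE K (M * q)))
    (hNA : ∀ z : ↥(legE K (M * q * q)), NA z =
      (letI := (legHostA K (M * q) q : ↥(legE K (M * q)) →+* ↥(legE K (M * q * q))).toAlgebra;
        Algebra.norm ↥(legE K (M * q)) z))
    (hNB : ∀ z : ↥(legE K (M * q * q)), NB z =
      (letI := (legHostB K (M * q) q hq hq2 :
          ↥(legE K (M * q)) →+* ↥(legE K (M * q * q))).toAlgebra;
        Algebra.norm ↥(legE K (M * q)) z)) :
    Inst36Data (legHostA K (M * q) q : ↥(legE K (M * q)) →+* ↥(legE K (M * q * q)))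
      (legHostB K (M * q) q hq hq2 : ↥(legE K (M * q)) →+* ↥(legE K (M * q * q))) NA NB
      (algebraMap R K π) q
      (legWinf R K h2 (M * q)) (legW0 R K h hq) (legWinf R K h2 (M * q * q)) W11 W02
      (legIncl K (M * q * q)
        (hostImageEquiv K 2 (keyFq K (M * q * q)) (keyFqDelta K (M := M) (q := q))))
      (legHostA K M q (legJE K M)) (legHostB K M q hq hq2 (legJE K M))
      (legHostA K (M * q) q (legHostA K M q (legJE K M)))
      (legHostB K (M * q) q hq hq2 (legHostB K M q hq hq2 (legJE K M))) :=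
  legE_inst36Data R K hπ h2 h hq hq2 hqπ hgeo φ κ hκ ζ hζq hζ1 (keyFqDelta K (M := M) (q := q))
    (keyFqW11_valuation_keyFqDelta R K h hq φ κ hκ ζ hζq hζ1 u hπζ)
    (keyFqWinf_valuation_keyFqDelta R K hq) W11 W02 h11 h02 NA NB hNA hNB

end Leg

section Hes

variable (R : Type*) [CommRing R] [IsDomain R] [IsDiscreteValuationRing R] [CharZero R]
  [DecidableEq R]
  (K : Type*) [Field K] [Algebra R K] [IsFractionRing R K] [Algebra ℚ K] [Algebra K ℂ]
  {M : ℕ} [NeZero M] [NeZero (M * 2)] [NeZero (M * 2 * 2)] {x y : ℤ}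
  {π : R}
  {R' : Type*} [CommRing R'] [IsDomain R'] [IsDiscreteValuationRing R']
  {K' : Type*} [Field K'] [Algebra R' K'] [IsFractionRing R' K']

/-- **`Inst36Data` on the Hesse host of level `M · 4`, witness `δ = j₂ - j₀` discharged.** -/
theorem hesE_inst36Data_delta (hπ : Irreducible π) (h3 : IsUnit (3 : R)) (ω : R)
    (h : ((2 : ℕ) : ℤ) * x + M * y = 1)
    (hqπ : ((2 : ℕ) : R) ∈ Ideal.span {π})
    (hgeo : GeoHyps K π (AdjoinSimple.gen K (hesT K)) ↥(hesE K M) M
      ({1, ω, ω ^ 2} : Finset R))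
    (φ : R →+* R') [IsLocalHom φ] (κ : K →+* K')
    (hκ : ∀ r : R, κ (algebraMap R K r) = algebraMap R' K' (φ r))
    (ζ : R'ˣ) (hζq : ζ ^ 2 = 1) (hζ1 : ζ ≠ 1)
    (u : R'ˣ) (hπζ : φ π = ((ζ : R') - 1) ^ (2 - 1) * u)
    (W11 W02 : ValuationSubring ↥(hesE K (M * 2 * 2)))
    (h11 : W11.comap (hesIncl K (M * 2 * 2)) =
      hostImageVal K 3 (keyFqW11 R K h Nat.prime_two φ κ hκ ζ hζq hζ1))
    (h02 : W02.comap (hesIncl K (M * 2 * 2)) =
      hostImageVal K 3 (keyFqW02 R K h Nat.prime_two))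
    (NA NB : ↥(hesE K (M * 2 * 2)) →*₀ ↥(hesE K (M * 2)))
    (hNA : ∀ z : ↥(hesE K (M * 2 * 2)), NA z =
      (letI := (hesHostA K (M * 2) 2 : ↥(hesE K (M * 2)) →+* ↥(hesE K (M * 2 * 2))).toAlgebra;
        Algebra.norm ↥(hesE K (M * 2)) z))
    (hNB : ∀ z : ↥(hesE K (M * 2 * 2)), NB z =
      (letI := (hesHostB K (M * 2) : ↥(hesE K (M * 2)) →+* ↥(hesE K (M * 2 * 2))).toAlgebra;
        Algebra.norm ↥(hesE K (M * 2)) z)) :
    Inst36Data (hesHostA K (M * 2) 2 : ↥(hesE K (M * 2)) →+* ↥(hesE K (M * 2 * 2)))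
      (hesHostB K (M * 2) : ↥(hesE K (M * 2)) →+* ↥(hesE K (M * 2 * 2))) NA NB
      (algebraMap R K π) 2
      (hesWinf R K h3 (M * 2)) (hesW0 R K h Nat.prime_two) (hesWinf R K h3 (M * 2 * 2)) W11 W02
      (hesIncl K (M * 2 * 2)
        (hostImageEquiv K 3 (keyFq K (M * 2 * 2)) (keyFqDelta K (M := M) (q := 2))))
      (hesHostA K M 2 (hesJE K M)) (hesHostB K M (hesJE K M))
      (hesHostA K (M * 2) 2 (hesHostA K M 2 (hesJE K M)))
      (hesHostB K (M * 2) (hesHostB K M (hesJE K M))) :=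
  hesE_inst36Data R K hπ h3 ω h hqπ hgeo φ κ hκ ζ hζq hζ1 (keyFqDelta K (M := M) (q := 2))
    (keyFqW11_valuation_keyFqDelta R K h Nat.prime_two φ κ hκ ζ hζq hζ1 u hπζ)
    (keyFqWinf_valuation_keyFqDelta R K Nat.prime_two) W11 W02 h11 h02 NA NB hNA hNB

end Hes

end

end Fermat.Agent.S36
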