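/-
S36 [MODEL36 / host transfer] — helper7 — the one-stop existence statements
`exists_legE_model36`, `exists_hesE_model36` (`IsThreeSheet ∧ IsSheetFamily ∧ Inst36Data` for the
SAME sheets `W11`, `W02`), on top of helper9's `legE_inst36Data_delta`/`hesE_inst36Data_delta`
(S36/INST36_helper9_Delta) and `HOST36_helper7_Delta`.
-/
import Mathlib
import Fermat.Agent.S36.HOST36_helper7_Delta
import Fermat.Agent.S36.INST36_helper9_Delta

set_option autoImplicit false
set_option linter.unusedSectionVars false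
set_option linter.unusedVariables false
set_option linter.style.haveILetI false
set_option synthInstance.maxHeartbeats 200000

open Polynomial ModularCurve IntermediateField
open Fermat.Agent.Igusa Fermat.Agent.JA Fermat.Agent.SS Fermat.Agent.X0N
open Fermat.Agent.S35 AlgebraicCurve

open scoped Fermat.Agent.JA.Host

namespace Fermat.Agent.S36

noncomputable section

section GaussUnitF

variable {R : Type*} [CommRing R] [IsDomain R] [IsDiscreteValuationRing R]
  {K : Type*} [Field K] [Algebra R K] [IsFractionRing R K]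

/-- **`δ = j(x^{q²}) - j(x)` is a unit of the Gauss valuation subring of any field of Gauss
type** (`F`-level form, no outer dilation). -/
theorem gaussValSub_valuation_deltaF_eq_one {q : ℕ} [NeZero q] (hq : 2 ≤ q)
    (E : IntermediateField K (LaurentSeries K)) (hE : E ≤ gaussField R K) (d : ↥E)
    (hd : (d : LaurentSeries K) = qExpand K q (qExpand K q (jqModC K)) - jqModC K) :
    (gaussValSub R K E hE).valuation d = 1 := by
  have hemb : (d : LaurentSeries K) =
      emb R K (qExpand R q (qExpand R q (jqModC R)) - jqModC R) := by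
    rw [hd, map_sub (emb R K), emb_qExpand, emb_qExpand, emb_jqModC]
  have hmem : (d : LaurentSeries K) ∈ gaussInt R K := by
    rw [hemb]
    exact emb_mem_gaussInt R K _
  refine eq_of_le_of_not_lt ((gaussValSub_valuation_le_one_iff E hE d).mpr hmem) ?_
  rw [gaussValSub_valuation_lt_one_iff]
  rintro ⟨hm, h0⟩
  have e2 : (⟨(d : LaurentSeries K), hm⟩ : gaussInt R K) =
      ⟨emb R K (qExpand R q (qExpand R q (jqModC R)) - jqModC R),
        emb_mem_gaussInt R K _⟩ := Subtype.ext hemb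
  rw [e2, gaussRed_emb, map_sub (red R), red_qExpand, red_qExpand, red_jqModC] at h0
  exact qExpand_qExpand_jqModC_sub_ne_zero (IsLocalRing.ResidueField R) hq h0

end GaussUnitF

section Leg

variable (R : Type*) [CommRing R] [IsDomain R] [IsDiscreteValuationRing R] [CharZero R]
  [DecidableEq R]
  (K : Type*) [Field K] [Algebra R K] [IsFractionRing R K] [Algebra ℚ K] [Algebra K ℂ]
  {M q : ℕ} [NeZero M] [NeZero q] [NeZero (M * q)] [NeZero (M * q * q)] {x y : ℤ}
  {π : R}
  {R' : Type*} [CommRing R'] [IsDomain R'] [IsDiscreteValuationRing R']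
  {K' : Type*} [Field K'] [Algebra R' K'] [IsFractionRing R' K']

/-- **one-stop existence on the Legendre host of level `M q²`**: sheets `W11`, `W02` with
`IsThreeSheet`, `IsSheetFamily` and `Inst36Data` (for any `NA`, `NB` computing the norms). -/
theorem exists_legE_model36 (hπ : Irreducible π) (h2 : IsUnit (2 : R))
    (h : (q : ℤ) * x + M * y = 1) (hq : q.Prime) (hq2 : q ≠ 2)
    (hqπ : (q : R) ∈ Ideal.span {π})
    (hgeo : GeoHyps K π (AdjoinSimple.gen K (legT K)) ↥(legE K M) M ({0, 1} : Finset R))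
    (φ : R →+* R') [IsLocalHom φ] (κ : K →+* K')
    (hκ : ∀ r : R, κ (algebraMap R K r) = algebraMap R' K' (φ r))
    (ζ : R'ˣ) (hζq : ζ ^ q = 1) (hζ1 : ζ ≠ 1)
    (u : R'ˣ) (hπζ : φ π = ((ζ : R') - 1) ^ (q - 1) * u)
    (NA NB : ↥(legE K (M * q * q)) →*₀ ↥(legE K (M * q)))
    (hNA : ∀ z : ↥(legE K (M * q * q)), NA z =
      (letI := (legHostA K (M * q) q : ↥(legE K (M * q)) →+* ↥(legE K (M * q * q))).toAlgebra;
        Algebra.norm ↥(legE K (M * q)) z))
    (hNB : ∀ z : ↥(legE K (M * q * q)), NB z =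
      (letI := (legHostB K (M * q) q hq hq2 :
          ↥(legE K (M * q)) →+* ↥(legE K (M * q * q))).toAlgebra;
        Algebra.norm ↥(legE K (M * q)) z)) :
    haveI : FiniteDimensional ↥K⟮jqNModC K 2⟯ ↥(legE K (M * q * q)) :=
      finite_legE_adjoin_j K (M * q * q)
    ∃ W11 W02 : ValuationSubring ↥(legE K (M * q * q)),
      W11.comap (legIncl K (M * q * q)) =
        hostImageVal K 2 (keyFqW11 R K h hq φ κ hκ ζ hζq hζ1) ∧
      W02.comap (legIncl K (M * q * q)) = hostImageVal K 2 (keyFqW02 R K h hq) ∧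
      IsDiscreteValuationRing ↥(legW0 R K h hq) ∧
      IsThreeSheet (legHostA K (M * q) q : ↥(legE K (M * q)) →+* ↥(legE K (M * q * q)))
        (legHostB K (M * q) q hq hq2 : ↥(legE K (M * q)) →+* ↥(legE K (M * q * q))) q
        (legWinf R K h2 (M * q)) (legW0 R K h hq) (legWinf R K h2 (M * q * q)) W11 W02
        (algebraMap R ↥(legE K (M * q * q)) π) (legDelta K M q) ∧
      IsSheetFamily π (AdjoinSimple.gen K (jqNModC K 2))
        (IsThreeSheet.fam (legWinf R K h2 (M * q * q)) W11 W02) ∧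
      Inst36Data (legHostA K (M * q) q : ↥(legE K (M * q)) →+* ↥(legE K (M * q * q)))
        (legHostB K (M * q) q hq hq2 : ↥(legE K (M * q)) →+* ↥(legE K (M * q * q))) NA NB
        (algebraMap R K π) q
        (legWinf R K h2 (M * q)) (legW0 R K h hq) (legWinf R K h2 (M * q * q)) W11 W02
        (legDelta K M q)
        (legHostA K M q (legJE K M)) (legHostB K M q hq hq2 (legJE K M))
        (legHostA K (M * q) q (legHostA K M q (legJE K M)))
        (legHostB K (M * q) q hq hq2 (legHostB K M q hq hq2 (legJE K M))) := by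
  obtain ⟨W11, W02, h11, h02, hd, hT, hF⟩ :=
    exists_legE_threeSheet R K hπ h2 h hq hq2 hqπ hgeo φ κ hκ ζ hζq hζ1 u hπζ
  exact ⟨W11, W02, h11, h02, hd, hT, hF,
    legE_inst36Data_delta R K hπ h2 h hq hq2 hqπ hgeo φ κ hκ ζ hζq hζ1 u hπζ W11 W02 h11 h02
      NA NB hNA hNB⟩

end Leg

section Hes

variable (R : Type*) [CommRing R] [IsDomain R] [IsDiscreteValuationRing R] [CharZero R]
  [DecidableEq R]
  (K : Type*) [Field K] [Algebra R K] [IsFractionRing R K] [Algebra ℚ K] [Algebra K ℂ]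
  {M : ℕ} [NeZero M] [NeZero (M * 2)] [NeZero (M * 2 * 2)] {x y : ℤ}
  {π : R}
  {R' : Type*} [CommRing R'] [IsDomain R'] [IsDiscreteValuationRing R']
  {K' : Type*} [Field K'] [Algebra R' K'] [IsFractionRing R' K']

/-- **one-stop existence on the Hesse host of level `M · 4`.** -/
theorem exists_hesE_model36 (hπ : Irreducible π) (h3 : IsUnit (3 : R)) (ω : R)
    (h : ((2 : ℕ) : ℤ) * x + M * y = 1)
    (hqπ : ((2 : ℕ) : R) ∈ Ideal.span {π})
    (hgeo : GeoHyps K π (AdjoinSimple.gen K (hesT K)) ↥(hesE K M) M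
      ({1, ω, ω ^ 2} : Finset R))
    (φ : R →+* R') [IsLocalHom φ] (κ : K →+* K')
    (hκ : ∀ r : R, κ (algebraMap R K r) = algebraMap R' K' (φ r))
    (ζ : R'ˣ) (hζq : ζ ^ 2 = 1) (hζ1 : ζ ≠ 1)
    (u : R'ˣ) (hπζ : φ π = ((ζ : R') - 1) ^ (2 - 1) * u)
    (NA NB : ↥(hesE K (M * 2 * 2)) →*₀ ↥(hesE K (M * 2)))
    (hNA : ∀ z : ↥(hesE K (M * 2 * 2)), NA z =
      (letI := (hesHostA K (M * 2) 2 : ↥(hesE K (M * 2)) →+* ↥(hesE K (M * 2 * 2))).toAlgebra;
        Algebra.norm ↥(hesE K (M * 2)) z))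
    (hNB : ∀ z : ↥(hesE K (M * 2 * 2)), NB z =
      (letI := (hesHostB K (M * 2) : ↥(hesE K (M * 2)) →+* ↥(hesE K (M * 2 * 2))).toAlgebra;
        Algebra.norm ↥(hesE K (M * 2)) z)) :
    haveI : FiniteDimensional ↥K⟮jqNModC K 3⟯ ↥(hesE K (M * 2 * 2)) :=
      finite_hesE_adjoin_j K (M * 2 * 2)
    ∃ W11 W02 : ValuationSubring ↥(hesE K (M * 2 * 2)),
      W11.comap (hesIncl K (M * 2 * 2)) =
        hostImageVal K 3 (keyFqW11 R K h Nat.prime_two φ κ hκ ζ hζq hζ1) ∧
      W02.comap (hesIncl K (M * 2 * 2)) =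
        hostImageVal K 3 (keyFqW02 R K h Nat.prime_two) ∧
      IsDiscreteValuationRing ↥(hesW0 R K h Nat.prime_two) ∧
      IsThreeSheet (hesHostA K (M * 2) 2 : ↥(hesE K (M * 2)) →+* ↥(hesE K (M * 2 * 2)))
        (hesHostB K (M * 2) : ↥(hesE K (M * 2)) →+* ↥(hesE K (M * 2 * 2))) 2
        (hesWinf R K h3 (M * 2)) (hesW0 R K h Nat.prime_two) (hesWinf R K h3 (M * 2 * 2))
        W11 W02 (algebraMap R ↥(hesE K (M * 2 * 2)) π) (hesDelta K M) ∧
      IsSheetFamily π (AdjoinSimple.gen K (jqNModC K 3))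
        (IsThreeSheet.fam (hesWinf R K h3 (M * 2 * 2)) W11 W02) ∧
      Inst36Data (hesHostA K (M * 2) 2 : ↥(hesE K (M * 2)) →+* ↥(hesE K (M * 2 * 2)))
        (hesHostB K (M * 2) : ↥(hesE K (M * 2)) →+* ↥(hesE K (M * 2 * 2))) NA NB
        (algebraMap R K π) 2
        (hesWinf R K h3 (M * 2)) (hesW0 R K h Nat.prime_two) (hesWinf R K h3 (M * 2 * 2))
        W11 W02 (hesDelta K M)
        (hesHostA K M 2 (hesJE K M)) (hesHostB K M (hesJE K M))
        (hesHostA K (M * 2) 2 (hesHostA K M 2 (hesJE K M)))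
        (hesHostB K (M * 2) (hesHostB K M (hesJE K M))) := by
  obtain ⟨W11, W02, h11, h02, hd, hT, hF⟩ :=
    exists_hesE_threeSheet R K hπ h3 ω h hqπ hgeo φ κ hκ ζ hζq hζ1 u hπζ
  exact ⟨W11, W02, h11, h02, hd, hT, hF,
    hesE_inst36Data_delta R K hπ h3 ω h hqπ hgeo φ κ hκ ζ hζq hζ1 u hπζ W11 W02 h11 h02
      NA NB hNA hNB⟩

end Hes

end

end Fermat.Agent.S36
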