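/-
S36 [POINTS36] — helper3 — **(P4): the hypothesis `hpoints` of `base36_abs`** (the closed data at all
closed points of both charts of the three-sheet model), from

* the level-`M'q` model (`IsTwoSheet`, `IsModelChart` on the chart `j₁`),
* the three-sheet family on the chart `j₂`, the two degeneracy maps `α β` (chart maps, integrality,
  comaps, residue fields, (INS), ramification `e = 1` on `W20`, `W02`),
* the local equations on the chart `j₂` (`hLE1` : `W11`-only points, `hLE3` : three-sheet points),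
* the norms (`hNlocA`, `hNlocB`),
* the single-sheet structure at the cusps of the chart `j₂⁻¹` (`hcusp`).
-/
import Mathlib
import Fermat.Agent.S36.POINTS36_helper3_Inv
import Fermat.Agent.S36.BASE36_helper4_Abs

set_option autoImplicit false
set_option linter.unusedSectionVars false
set_option linter.style.haveILetI false

namespace Fermat.Agent.S36

open Fermat.Agent.SS Fermat.Agent.JA

section Final

variable {R : Type*} [CommRing R] [IsDomain R] [IsDiscreteValuationRing R] [CharZero R]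
  {K₁ : Type*} [Field K₁] [Algebra R K₁] [IsFractionRing R K₁]
  {KN₁ : Type*} [Field KN₁] [Algebra K₁ KN₁] [Algebra R KN₁] [IsScalarTower R K₁ KN₁]
  {E₁ : Type*} [Field E₁] [Algebra KN₁ E₁] [Algebra R E₁] [IsScalarTower R KN₁ E₁]
  [FiniteDimensional KN₁ E₁]
  {KN₂ : Type*} [Field KN₂] [Algebra K₁ KN₂] [Algebra R KN₂] [IsScalarTower R K₁ KN₂]
  {E : Type*} [Field E] [Algebra KN₂ E] [Algebra R E] [IsScalarTower R KN₂ E]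
  [FiniteDimensional KN₂ E]
  {π : R} {j₁ : KN₁} {j₂ : KN₂} {W10 W01 : ValuationSubring E₁} {W : Fin 3 → ValuationSubring E}

set_option maxHeartbeats 1600000 in
/-- **the hypothesis `hpoints` of `base36_abs`, for a general three-sheet family `W`.** -/
theorem points36_of_local [IsAlgClosed (IsLocalRing.ResidueField R)] (hπ : Irreducible π)
    (hj₁ : Transcendental K₁ j₁) (hKj₁ : IntermediateField.adjoin K₁ {j₁} = ⊤)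
    (hj₂ : Transcendental K₁ j₂) (hKj₂ : IntermediateField.adjoin K₁ {j₂} = ⊤)
    (h2 : IsTwoSheet π j₁ W10 W01)
    (hmod : IsModelChart E₁ π (sheetIdeal j₁ W10 h2.chart_le_inf)
      (sheetIdeal j₁ W01 h2.chart_le_zero))
    (fam : IsSheetFamily π j₂ W) (fam' : IsSheetFamily π j₂⁻¹ W) (α β : E₁ →+* E)
    (hαR : ∀ r : R, α (algebraMap R E₁ r) = algebraMap R E r)
    (hβR : ∀ r : R, β (algebraMap R E₁ r) = algebraMap R E r)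
    (hαB : ∀ b ∈ chartOne R E₁ j₁, α b ∈ chartOne R E j₂)
    (hβB : ∀ b ∈ chartOne R E₁ j₁, β b ∈ chartOne R E j₂)
    (hαint : (chartRestrictHom (B' := chartOne R E₁ j₁) (B := chartOne R E j₂) α hαB).IsIntegral)
    (hβint : (chartRestrictHom (B' := chartOne R E₁ j₁) (B := chartOne R E j₂) β hβB).IsIntegral)
    (hα0 : (W 0).comap α = W10) (hα1 : (W 1).comap α = W10) (hα2 : (W 2).comap α = W01)
    (hβ0 : (W 0).comap β = W10) (hβ1 : (W 1).comap β = W01) (hβ2 : (W 2).comap β = W01)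
    {q : ℕ} (hq : 0 < q)
    (hinsα : ∀ x ∈ W 2, ∃ a ∈ W01, (W 2).valuation (x ^ q - α a) < 1)
    (hinsβ : ∀ x ∈ W 0, ∃ a ∈ W10, (W 0).valuation (x ^ q - β a) < 1)
    (hresα0 : ∀ x ∈ W 0, ∃ a ∈ W10, (W 0).valuation (x - α a) < 1)
    (hresα1 : ∀ x ∈ W 1, ∃ a ∈ W10, (W 1).valuation (x - α a) < 1)
    (hresβ1 : ∀ x ∈ W 1, ∃ a ∈ W01, (W 1).valuation (x - β a) < 1)
    (hresβ2 : ∀ x ∈ W 2, ∃ a ∈ W01, (W 2).valuation (x - β a) < 1)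
    (he0 : ∀ x : E, (W 0).valuation x < 1 → x * (algebraMap R E π)⁻¹ ∈ W 0)
    (he2 : ∀ x : E, (W 2).valuation x < 1 → x * (algebraMap R E π)⁻¹ ∈ W 2)
    -- local equations on the chart `j₂`: `W11`-only points, three-sheet points
    (hLE1 : ∀ (𝔫 : Ideal ↥(chartOne R E j₂)) (_ : 𝔫.IsMaximal),
      sheetIdeal j₂ (W 1) (fam.chart_le 1) ≤ 𝔫 →
      (∀ l, sheetIdeal j₂ (W l) (fam.chart_le l) ≤ 𝔫 → l = 1) →
      ∃ z : ↥(chartOne R E j₂), z ∈ sheetIdeal j₂ (W 1) (fam.chart_le 1) ∧ z ≠ 0 ∧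
        ∀ w ∈ sheetIdeal j₂ (W 1) (fam.chart_le 1),
          ∃ s : ↥(chartOne R E j₂), s ∉ 𝔫 ∧ z ∣ s * w)
    (hLE3 : ∀ (𝔫 : Ideal ↥(chartOne R E j₂)) (_ : 𝔫.IsMaximal),
      (∀ l, sheetIdeal j₂ (W l) (fam.chart_le l) ≤ 𝔫) →
      ∃ (l₁ : Fin 3) (z : ↥(chartOne R E j₂)), z ∈ sheetIdeal j₂ (W l₁) (fam.chart_le l₁) ∧
        z ≠ 0 ∧ ∀ w ∈ sheetIdeal j₂ (W l₁) (fam.chart_le l₁),
          ∃ s : ↥(chartOne R E j₂), s ∉ 𝔫 ∧ z ∣ s * w)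
    -- the cusps of the chart `j₂⁻¹`
    (hcusp : ∀ (𝔫 : Ideal ↥(chartOne R E j₂⁻¹)) (_ : 𝔫.IsMaximal),
      algebraMap R ↥(chartOne R E j₂⁻¹) π ∈ 𝔫 →
      (⟨algebraMap KN₂ E j₂⁻¹, algebraMap_coord_mem_chartOne j₂⁻¹⟩ : ↥(chartOne R E j₂⁻¹)) ∈ 𝔫 →
      ∃ (l₀ : Fin 3) (z v : ↥(chartOne R E j₂⁻¹)),
        sheetIdeal j₂⁻¹ (W l₀) (fam'.chart_le l₀) ≤ 𝔫 ∧
        (∀ l, sheetIdeal j₂⁻¹ (W l) (fam'.chart_le l) ≤ 𝔫 → l = l₀) ∧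
        z ∈ sheetIdeal j₂⁻¹ (W l₀) (fam'.chart_le l₀) ∧ z ≠ 0 ∧
        (∀ w ∈ sheetIdeal j₂⁻¹ (W l₀) (fam'.chart_le l₀),
          ∃ s : ↥(chartOne R E j₂⁻¹), s ∉ 𝔫 ∧ z ∣ s * w) ∧
        IsBranchUniformizer (sheetIdeal j₂⁻¹ (W l₀) (fam'.chart_le l₀)) 𝔫 v)
    -- the norms
    {m : ℕ} (hm : 0 < m) (NA NB : E →* E₁)
    (hNlocA : ∀ (𝔫 : Ideal ↥(chartOne R E j₂)) [𝔫.IsPrime]
      (𝔫₁ : Ideal ↥(chartOne R E₁ j₁)) [h𝔫₁ : 𝔫₁.IsMaximal],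
      (∀ b : ↥(chartOne R E₁ j₁), b ∈ 𝔫₁ ↔
        (⟨α b, hαB b b.2⟩ : ↥(chartOne R E j₂)) ∈ 𝔫) →
      (∀ Q : Ideal ↥(chartOne R E j₂), Q.IsPrime → (∀ b : ↥(chartOne R E₁ j₁), b ∈ 𝔫₁ ↔
        (⟨α b, hαB b b.2⟩ : ↥(chartOne R E j₂)) ∈ Q) → Q ≤ 𝔫) →
      ∀ x ∈ locRing (chartOne R E j₂) 𝔫,
        NA x ∈ @locRing R _ E₁ _ _ (chartOne R E₁ j₁) 𝔫₁ h𝔫₁.isPrime)
    (hNlocB : ∀ (𝔫 : Ideal ↥(chartOne R E j₂)) [𝔫.IsPrime]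
      (𝔫₁ : Ideal ↥(chartOne R E₁ j₁)) [h𝔫₁ : 𝔫₁.IsMaximal],
      (∀ b : ↥(chartOne R E₁ j₁), b ∈ 𝔫₁ ↔
        (⟨β b, hβB b b.2⟩ : ↥(chartOne R E j₂)) ∈ 𝔫) →
      (∀ Q : Ideal ↥(chartOne R E j₂), Q.IsPrime → (∀ b : ↥(chartOne R E₁ j₁), b ∈ 𝔫₁ ↔
        (⟨β b, hβB b b.2⟩ : ↥(chartOne R E j₂)) ∈ Q) → Q ≤ 𝔫) →
      ∀ x ∈ locRing (chartOne R E j₂) 𝔫,
        NB x ∈ @locRing R _ E₁ _ _ (chartOne R E₁ j₁) 𝔫₁ h𝔫₁.isPrime) :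
    ∀ (G₁ : E) (lam : Fin 3 → E) (ζ20 ζ11 : R), G₁ ≠ 0 → (∀ i, lam i ≠ 0) →
      ζ20 ^ m = 1 → ζ11 ^ m = 1 →
      (∀ i, (W i).valuation (G₁ / lam i ^ m - 1) < 1) →
      HorPow36 (K₁ := K₁) j₂ hKj₂ π m G₁ →
      HorPow36 (K₁ := K₁) j₂⁻¹ (adjoin_inv_eq_top hKj₂) π m G₁ →
      ToricRel36 α β NA NB (W 0) (W 1) (W 2) (q - 1) m G₁ (lam 0) (lam 1) (lam 2) ζ20 ζ11 →
      (∀ (𝔫 : Ideal ↥(chartOne R E j₂)) (h𝔫 : 𝔫.IsMaximal),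
        algebraMap R ↥(chartOne R E j₂) π ∈ 𝔫 →
        @SheetDatumAt R _ E _ _ (chartOne R E j₂) (Fin 3)
          (fun i => sheetIdeal j₂ (W i) (fam.chart_le i)) 𝔫 h𝔫.isPrime
          W m (G₁ ^ ((q - 1) * (q - 1 + 2)))
          (fun i => algebraMap R E (![ζ20, ζ11, 1] i) * lam i ^ ((q - 1) * (q - 1 + 2)))) ∧
      (∀ (𝔫 : Ideal ↥(chartOne R E j₂⁻¹)) (h𝔫 : 𝔫.IsMaximal),
        algebraMap R ↥(chartOne R E j₂⁻¹) π ∈ 𝔫 →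
        @SheetDatumAt R _ E _ _ (chartOne R E j₂⁻¹) (Fin 3)
          (fun i => sheetIdeal j₂⁻¹ (W i) (fam'.chart_le i)) 𝔫 h𝔫.isPrime
          W m (G₁ ^ ((q - 1) * (q - 1 + 2)))
          (fun i => algebraMap R E (![ζ20, ζ11, 1] i) * lam i ^ ((q - 1) * (q - 1 + 2)))) := by
  intro G₁ lam ζ20 ζ11 hG₁ hlam h20 h11 hGW hhor₁ hhor₂ hrel
  have hd₁ : ∀ (𝔫 : Ideal ↥(chartOne R E j₂)) (h𝔫 : 𝔫.IsMaximal),
      algebraMap R ↥(chartOne R E j₂) π ∈ 𝔫 →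
      @SheetDatumAt R _ E _ _ (chartOne R E j₂) (Fin 3)
        (fun i => sheetIdeal j₂ (W i) (fam.chart_le i)) 𝔫 h𝔫.isPrime
        W m (G₁ ^ ((q - 1) * (q - 1 + 2)))
        (fun i => algebraMap R E (![ζ20, ζ11, 1] i) * lam i ^ ((q - 1) * (q - 1 + 2))) := by
    intro 𝔫 h𝔫 hπ𝔫
    exact sheetDatumAt_three_sheet_chart hπ hj₁ hKj₁ hj₂ hKj₂ h2 hmod fam α β hαR hβR hαB hβB
      hαint hβint hα0 hα1 hα2 hβ0 hβ1 hβ2 hq hinsα hinsβ hresα0 hresα1 hresβ1 hresβ2 he0 he2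
      hLE1 hLE3 hm hG₁ hlam hGW (fun 𝔫 _ 𝔮 h𝔮 hh hπ𝔮 _ => hhor₁ 𝔮 h𝔮 hh hπ𝔮) NA NB hNlocA hNlocB
      h20 h11 hrel 𝔫 h𝔫 hπ𝔫
  refine ⟨hd₁, ?_⟩
  have hz3 : ∀ i : Fin 3, (![ζ20, ζ11, 1] i) ^ m = 1 := by
    intro i
    fin_cases i
    · simpa using h20
    · simpa using h11
    · simp
  intro 𝔫 h𝔫 hπ𝔫
  exact sheetDatumAt_chart_inv fam fam' hπ hj₂ hKj₂ hcusp hm hG₁ hlam hGW hhor₂
    (fun i => ![ζ20, ζ11, 1] i) hz3 _ hd₁ 𝔫 h𝔫 hπ𝔫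

end Final

end Fermat.Agent.S36
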