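/-
S36 [NODENORM] — helper5 — part 9: **(N-loc) the norm maps the local ring at a point into the local
ring at the image point**, when the point is the only one above its image.

`ι : E₁ →+* E`, charts `B₁ ⊆ E₁`, `B ⊆ E` with `ι B₁ ⊆ B`, `B` integral over `ι B₁`, `B₁` integrally
closed, `𝔫` the only prime of `B` above the prime `𝔫₁` of `B₁`.

* `exists_mul_eq_map_of_notMem` : every `s ∈ B ∖ 𝔫` divides (in `B`) the image of some
  `t ∈ B₁ ∖ 𝔫₁` (the local ring of `B` at `𝔫` is the localisation of `B` at `B₁ ∖ 𝔫₁`);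
* `norm_mem_locRing` : `Algebra.norm` (along `ι`) maps `locRing B 𝔫` into `locRing B₁ 𝔫₁`
  (the hypotheses `hNA𝔫`, `hNB𝔫` of `toric36`).
-/
import Mathlib
import Fermat.Agent.SS.EXPORT_helper4_Loc
import Fermat.Agent.S36.LOCAL36_helper3_Transfer

set_option autoImplicit false
set_option linter.unusedSectionVars false
set_option linter.style.haveILetI false

namespace Fermat.Agent.S36

open Fermat.Agent.SS

section NormLoc

variable {R : Type*} [CommRing R] {E₁ E : Type*} [Field E₁] [Field E] [Algebra R E₁] [Algebra R E]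
  (ι : E₁ →+* E) {B₁ : Subalgebra R E₁} {B : Subalgebra R E} (hB : ∀ b ∈ B₁, ι b ∈ B)

/-- the localisation of `B` at the image of the complement of the prime `𝔫₁` of `B₁`, inside `E`. -/
def semiLocSubring (𝔫₁ : Ideal ↥B₁) [h𝔫₁ : 𝔫₁.IsPrime] : Subring E where
  carrier := {e | ∃ (r : ↥B) (t : ↥B₁), t ∉ 𝔫₁ ∧ e * ι (t : E₁) = (r : E)}
  mul_mem' := by
    rintro e f ⟨r, t, ht, hrt⟩ ⟨r', t', ht', hrt'⟩
    refine ⟨r * r', t * t', fun h => ?_, ?_⟩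
    · rcases h𝔫₁.mem_or_mem h with h | h
      exacts [ht h, ht' h]
    · show e * f * ι ((t : E₁) * (t' : E₁)) = (r : E) * (r' : E)
      rw [map_mul, ← hrt, ← hrt']; ring
  one_mem' := ⟨1, 1, fun h => h𝔫₁.ne_top ((Ideal.eq_top_iff_one _).mpr h), by
    show (1 : E) * ι ((1 : E₁)) = (1 : E)
    rw [map_one, mul_one]⟩
  add_mem' := by
    rintro e f ⟨r, t, ht, hrt⟩ ⟨r', t', ht', hrt'⟩
    refine ⟨r * ⟨ι t', hB _ t'.2⟩ + r' * ⟨ι t, hB _ t.2⟩, t * t', fun h => ?_, ?_⟩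
    · rcases h𝔫₁.mem_or_mem h with h | h
      exacts [ht h, ht' h]
    · show (e + f) * ι ((t : E₁) * (t' : E₁)) = (r : E) * ι (t' : E₁) + (r' : E) * ι (t : E₁)
      rw [map_mul, ← hrt, ← hrt']; ring
  zero_mem' := ⟨0, 1, fun h => h𝔫₁.ne_top ((Ideal.eq_top_iff_one _).mpr h), by
    show (0 : E) * ι ((1 : E₁)) = (0 : E)
    rw [zero_mul]⟩
  neg_mem' := by
    rintro e ⟨r, t, ht, hrt⟩
    refine ⟨-r, t, ht, ?_⟩
    show -e * ι (t : E₁) = -(r : E)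
    rw [← hrt]; ring

theorem mem_semiLocSubring_iff (𝔫₁ : Ideal ↥B₁) [h𝔫₁ : 𝔫₁.IsPrime] (e : E) :
    e ∈ semiLocSubring ι hB 𝔫₁ ↔
      ∃ (r : ↥B) (t : ↥B₁), t ∉ 𝔫₁ ∧ e * ι (t : E₁) = (r : E) := Iff.rfl

theorem le_semiLocSubring (𝔫₁ : Ideal ↥B₁) [h𝔫₁ : 𝔫₁.IsPrime] {b : E} (hb : b ∈ B) :
    b ∈ semiLocSubring ι hB 𝔫₁ :=
  ⟨⟨b, hb⟩, 1, fun h => h𝔫₁.ne_top ((Ideal.eq_top_iff_one _).mpr h), by
    show b * ι ((1 : E₁)) = b
    rw [map_one, mul_one]⟩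

variable {𝔫 : Ideal ↥B} [h𝔫 : 𝔫.IsPrime] {𝔫₁ : Ideal ↥B₁} [h𝔫₁ : 𝔫₁.IsPrime]

/-- **the local ring at the only point above `𝔫₁` is the localisation at `B₁ ∖ 𝔫₁`**: every
`s ∈ B ∖ 𝔫` divides the image of some `t ∈ B₁ ∖ 𝔫₁`. -/
theorem exists_mul_eq_map_of_notMem
    (hint : ∀ b ∈ B, (ι.comp (algebraMap ↥B₁ E₁)).IsIntegralElem b)
    (huniq : ∀ Q : Ideal ↥B, Q.IsPrime →
      (∀ b : ↥B₁, b ∈ 𝔫₁ ↔ (⟨ι b, hB b b.2⟩ : ↥B) ∈ Q) → Q ≤ 𝔫)
    (s : ↥B) (hs : s ∉ 𝔫) :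
    ∃ (t : ↥B₁) (b : ↥B), t ∉ 𝔫₁ ∧ (s : E) * (b : E) = ι (t : E₁) := by
  classical
  by_contra hcon
  push Not at hcon
  set A : Subring E := semiLocSubring ι hB 𝔫₁ with hA
  have hsA : (s : E) ∈ A := le_semiLocSubring ι hB 𝔫₁ s.2
  have hI : Ideal.span {(⟨(s : E), hsA⟩ : ↥A)} ≠ ⊤ := by
    intro htop
    rw [Ideal.eq_top_iff_one, Ideal.mem_span_singleton'] at htop
    obtain ⟨⟨e, r, t, ht, hrt⟩, he⟩ := htop
    have he' : e * (s : E) = 1 := congrArg (fun w : ↥A => (w : E)) he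
    apply hcon t r ht
    calc (s : E) * (r : E) = (e * (s : E)) * ι (t : E₁) := by rw [← hrt]; ring
      _ = ι (t : E₁) := by rw [he', one_mul]
  obtain ⟨V, hAV, hIV⟩ := Ideal.image_subset_nonunits_valuationSubring _ hI
  have hsV : V.valuation (s : E) < 1 := by
    have : (s : E) ∈ V.nonunits := hIV ⟨⟨(s : E), hsA⟩, Ideal.subset_span rfl, rfl⟩
    exact (ValuationSubring.mem_nonunits_iff (A := V)).mp this
  have hBV : ∀ b ∈ B, b ∈ V := fun b hb => hAV (le_semiLocSubring ι hB 𝔫₁ hb)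
  -- the center of `V` on `B`
  let f : ↥B →+* ↥V := (Subring.inclusion (fun b hb => hBV b hb : B.toSubring ≤ V.toSubring))
  set 𝔫' : Ideal ↥B := (IsLocalRing.maximalIdeal ↥V).comap f with h𝔫'
  haveI h𝔫'p : 𝔫'.IsPrime := Ideal.comap_isPrime f _
  have hmem : ∀ b : ↥B, b ∈ 𝔫' ↔ V.valuation (b : E) < 1 := by
    intro b
    rw [h𝔫', Ideal.mem_comap, ValuationSubring.valuation_lt_one_iff]
    rfl
  letI alg : Algebra ↥B₁ ↥B := (chartRestrictHom ι hB).toAlgebra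
  haveI hintI : Algebra.IsIntegral ↥B₁ ↥B := by
    refine ⟨fun b => ?_⟩
    obtain ⟨p, hp, hpb⟩ := hint b b.2
    refine ⟨p, hp, ?_⟩
    apply Subtype.ext
    have h1 := Polynomial.hom_eval₂ p (algebraMap ↥B₁ ↥B) (B.val : ↥B →+* E) b
    exact h1.trans hpb
  have hcomap : 𝔫'.comap (algebraMap ↥B₁ ↥B) ≤ 𝔫₁ := by
    intro t ht
    rw [Ideal.mem_comap, hmem] at ht
    by_contra htn
    have ht0 : (t : E₁) ≠ 0 := by
      intro h0
      apply htn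
      have : t = 0 := Subtype.ext h0
      rw [this]; exact 𝔫₁.zero_mem
    have hιt0 : ι (t : E₁) ≠ 0 := (_root_.map_ne_zero ι).mpr ht0
    have hinvA : (ι (t : E₁))⁻¹ ∈ A :=
      ⟨1, t, htn, by
        show (ι (t : E₁))⁻¹ * ι (t : E₁) = (1 : E)
        rw [inv_mul_cancel₀ hιt0]⟩
    have hinvV : (ι (t : E₁))⁻¹ ∈ V := hAV hinvA
    have h1 : V.valuation (ι (t : E₁))⁻¹ ≤ 1 := (ValuationSubring.valuation_le_one_iff _ _).mpr hinvV
    have h2 : V.valuation (ι (t : E₁)) * V.valuation (ι (t : E₁))⁻¹ = 1 := by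
      rw [← map_mul, mul_inv_cancel₀ hιt0, map_one]
    have h3 : V.valuation (ι (t : E₁)) < 1 := ht
    have h4 : V.valuation (ι (t : E₁)) * V.valuation (ι (t : E₁))⁻¹ < 1 := by
      calc V.valuation (ι (t : E₁)) * V.valuation (ι (t : E₁))⁻¹
          ≤ V.valuation (ι (t : E₁)) * 1 := mul_le_mul_right h1 _
        _ < 1 := by rw [mul_one]; exact h3
    rw [h2] at h4
    exact lt_irrefl _ h4
  obtain ⟨Q, hQle, hQp, hQc⟩ := Ideal.exists_ideal_over_prime_of_isIntegral 𝔫₁ 𝔫' hcomap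
  have hQ𝔫 : Q ≤ 𝔫 := by
    refine huniq Q hQp (fun b => ?_)
    rw [← hQc, Ideal.mem_comap]
    rfl
  exact hs (hQ𝔫 (hQle ((hmem s).mpr hsV)))

/-- **(N-loc)**: the norm along `ι` maps the local ring at `𝔫` into the local ring at `𝔫₁`. -/
theorem norm_mem_locRing
    (hint : ∀ b ∈ B, (ι.comp (algebraMap ↥B₁ E₁)).IsIntegralElem b)
    (hB₁ : ∀ e : E₁, IsIntegral ↥B₁ e → e ∈ B₁)
    (huniq : ∀ Q : Ideal ↥B, Q.IsPrime →
      (∀ b : ↥B₁, b ∈ 𝔫₁ ↔ (⟨ι b, hB b b.2⟩ : ↥B) ∈ Q) → Q ≤ 𝔫)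
    {x : E} (hx : x ∈ locRing B 𝔫) :
    @Algebra.norm E₁ E _ _ ι.toAlgebra x ∈ locRing B₁ 𝔫₁ := by
  obtain ⟨r, s, hs, hrs⟩ := hx
  obtain ⟨t, b, ht, hsb⟩ := exists_mul_eq_map_of_notMem ι hB hint huniq s hs
  letI algE : Algebra E₁ E := ι.toAlgebra
  have hxt : x * algebraMap E₁ E (t : E₁) = (r : E) * (b : E) := by
    show x * ι (t : E₁) = (r : E) * (b : E)
    rw [← hsb, ← mul_assoc, hrs]
  have hrb : IsIntegral ↥B₁ ((r : E) * (b : E)) := hint _ (B.mul_mem r.2 b.2)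
  have hN : IsIntegral ↥B₁ (Algebra.norm E₁ ((r : E) * (b : E))) := Algebra.isIntegral_norm E₁ hrb
  have hNmem : Algebra.norm E₁ ((r : E) * (b : E)) ∈ B₁ := hB₁ _ hN
  have hnorm := congrArg (Algebra.norm E₁) hxt
  rw [map_mul, Algebra.norm_algebraMap] at hnorm
  refine ⟨⟨_, hNmem⟩, t ^ Module.finrank E₁ E, fun h => ht (h𝔫₁.mem_of_pow_mem _ h), ?_⟩
  exact hnorm

end NormLoc

end Fermat.Agent.S36
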