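/-
# S36 [BASE36] layer 1.5 (helper4): the generic-base statements from the LOCAL inputs

* `points36_of_local_norm` : helper3's `points36_of_local` with the norm clauses `hNlocA`, `hNlocB`
  discharged by helper5's `norm_mem_locRing` (for `NA`, `NB` the field norms along `α`, `β`);
* `legGeneric_of_local`, `hesGeneric_of_local` : the conclusion of `LegGenericBase` /
  `HesGenericBase` from helper7's one-stop model `exists_legE_model36` (sheets, family,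
  `Inst36Data`), the two-sheet model of level `M q` (`ssModelLeg`), and the REMAINING local inputs,
  each stated for ANY extensions `W11`, `W02` of helper6's `F`-level sheets:
  (3) the chart maps `hαB hβB hαint hβint`, (5) `hLE1`, (6) `hLE3`, (7) `hcusps` (literals of
  `points36_of_local`), and `hcusp` (the order along `W20` of a monic function with `m`-divisible
  horizontal divisor is divisible by `m`; CUSP36).
-/
import Mathlib
import Fermat.Agent.S36.BASE36_helper4_Hosts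
import Fermat.Agent.S36.BASE36_helper4_Bases
import Fermat.Agent.S36.HOST36_helper7_DeltaInst
import Fermat.Agent.S36.POINTS36_helper3_Final
import Fermat.Agent.S36.TORIC36_helper5_NormLoc
import Fermat.Agent.SS.EXPORT_helper4_Charts
import Fermat.Agent.SS.EXPORT_helper4_Model
import Fermat.Agent.SS.MODEL_helper7_Leg
import Fermat.Agent.SS.MODEL_helper7_Hes

set_option autoImplicit false
set_option linter.unusedSectionVars false
set_option linter.unusedVariables false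
set_option linter.style.haveILetI false
set_option synthInstance.maxHeartbeats 200000

open Polynomial ModularCurve IntermediateField
open Fermat.Agent.Igusa Fermat.Agent.JA Fermat.Agent.SS Fermat.Agent.X0N
open Fermat.Agent.S35 AlgebraicCurve

open scoped Fermat.Agent.JA.Host

namespace Fermat.Agent.S36

noncomputable section

section Final

variable {R : Type*} [CommRing R] [IsDomain R] [IsDiscreteValuationRing R] [CharZero R]
  {K₁ : Type*} [Field K₁] [Algebra R K₁] [IsFractionRing R K₁]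
  {KN₁ : Type*} [Field KN₁] [Algebra K₁ KN₁] [Algebra R KN₁] [IsScalarTower R K₁ KN₁]
  {E₁ : Type*} [Field E₁] [Algebra KN₁ E₁] [Algebra R E₁] [IsScalarTower R KN₁ E₁]
  [FiniteDimensional KN₁ E₁]
  {KN₂ : Type*} [Field KN₂] [Algebra K₁ KN₂] [Algebra R KN₂] [IsScalarTower R K₁ KN₂]
  {E : Type*} [Field E] [Algebra KN₂ E] [Algebra R E] [IsScalarTower R KN₂ E]
  [FiniteDimensional KN₂ E]
  {π : R} {j₁ : KN₁} {j₂ : KN₂} {W10 W01 : ValuationSubring E₁} {W : Fin 3 → ValuationSubring E}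

set_option maxHeartbeats 1600000 in
/-- **`points36_of_local` with the norm clauses `hNlocA`, `hNlocB` discharged** (helper5's
`norm_mem_locRing`): `NA`, `NB` are the field norms along `α`, `β`. -/
theorem points36_of_local_norm [IsAlgClosed (IsLocalRing.ResidueField R)] (hπ : Irreducible π)
    (hj₁ : Transcendental K₁ j₁) (hKj₁ : IntermediateField.adjoin K₁ {j₁} = ⊤)
    (hj₂ : Transcendental K₁ j₂) (hKj₂ : IntermediateField.adjoin K₁ {j₂} = ⊤)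
    (h2 : IsTwoSheet π j₁ W10 W01)
    (hmod : IsModelChart E₁ π (sheetIdeal j₁ W10 h2.chart_le_inf)
      (sheetIdeal j₁ W01 h2.chart_le_zero))
    (fam : IsSheetFamily π j₂ W) (fam' : IsSheetFamily π j₂⁻¹ W) (α β : E₁ →+* E)
    (hαR : ∀ r : R, α (algebraMap R E₁ r) = algebraMap R E r)
    (hβR : ∀ r : R, β (algebraMap R E₁ r) = algebraMap R E r)
    (hαB : ∀ b ∈ chartOne R E₁ j₁, α b ∈ chartOne R E j₂)
    (hβB : ∀ b ∈ chartOne R E₁ j₁, β b ∈ chartOne R E j₂)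
    (hαint : (chartRestrictHom (B' := chartOne R E₁ j₁) (B := chartOne R E j₂) α hαB).IsIntegral)
    (hβint : (chartRestrictHom (B' := chartOne R E₁ j₁) (B := chartOne R E j₂) β hβB).IsIntegral)
    (hα0 : (W 0).comap α = W10) (hα1 : (W 1).comap α = W10) (hα2 : (W 2).comap α = W01)
    (hβ0 : (W 0).comap β = W10) (hβ1 : (W 1).comap β = W01) (hβ2 : (W 2).comap β = W01)
    {q : ℕ} (hq : 0 < q)
    (hinsα : ∀ x ∈ W 2, ∃ a ∈ W01, (W 2).valuation (x ^ q - α a) < 1)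
    (hinsβ : ∀ x ∈ W 0, ∃ a ∈ W10, (W 0).valuation (x ^ q - β a) < 1)
    (hresα0 : ∀ x ∈ W 0, ∃ a ∈ W10, (W 0).valuation (x - α a) < 1)
    (hresα1 : ∀ x ∈ W 1, ∃ a ∈ W10, (W 1).valuation (x - α a) < 1)
    (hresβ1 : ∀ x ∈ W 1, ∃ a ∈ W01, (W 1).valuation (x - β a) < 1)
    (hresβ2 : ∀ x ∈ W 2, ∃ a ∈ W01, (W 2).valuation (x - β a) < 1)
    (he0 : ∀ x : E, (W 0).valuation x < 1 → x * (algebraMap R E π)⁻¹ ∈ W 0)
    (he2 : ∀ x : E, (W 2).valuation x < 1 → x * (algebraMap R E π)⁻¹ ∈ W 2)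
    -- local equations on the chart `j₂`: `W11`-only points, three-sheet points
    (hLE1 : ∀ (𝔫 : Ideal ↥(chartOne R E j₂)) (_ : 𝔫.IsMaximal),
      sheetIdeal j₂ (W 1) (fam.chart_le 1) ≤ 𝔫 →
      (∀ l, sheetIdeal j₂ (W l) (fam.chart_le l) ≤ 𝔫 → l = 1) →
      ∃ z : ↥(chartOne R E j₂), z ∈ sheetIdeal j₂ (W 1) (fam.chart_le 1) ∧ z ≠ 0 ∧
        ∀ w ∈ sheetIdeal j₂ (W 1) (fam.chart_le 1),
          ∃ s : ↥(chartOne R E j₂), s ∉ 𝔫 ∧ z ∣ s * w)
    (hLE3 : ∀ (𝔫 : Ideal ↥(chartOne R E j₂)) (_ : 𝔫.IsMaximal),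
      (∀ l, sheetIdeal j₂ (W l) (fam.chart_le l) ≤ 𝔫) →
      ∃ (l₁ : Fin 3) (z : ↥(chartOne R E j₂)), z ∈ sheetIdeal j₂ (W l₁) (fam.chart_le l₁) ∧
        z ≠ 0 ∧ ∀ w ∈ sheetIdeal j₂ (W l₁) (fam.chart_le l₁),
          ∃ s : ↥(chartOne R E j₂), s ∉ 𝔫 ∧ z ∣ s * w)
    -- the cusps of the chart `j₂⁻¹`
    (hcusp : ∀ (𝔫 : Ideal ↥(chartOne R E j₂⁻¹)) (_ : 𝔫.IsMaximal),
      algebraMap R ↥(chartOne R E j₂⁻¹) π ∈ 𝔫 →
      (⟨algebraMap KN₂ E j₂⁻¹, algebraMap_coord_mem_chartOne j₂⁻¹⟩ : ↥(chartOne R E j₂⁻¹)) ∈ 𝔫 →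
      ∃ (l₀ : Fin 3) (z v : ↥(chartOne R E j₂⁻¹)),
        sheetIdeal j₂⁻¹ (W l₀) (fam'.chart_le l₀) ≤ 𝔫 ∧
        (∀ l, sheetIdeal j₂⁻¹ (W l) (fam'.chart_le l) ≤ 𝔫 → l = l₀) ∧
        z ∈ sheetIdeal j₂⁻¹ (W l₀) (fam'.chart_le l₀) ∧ z ≠ 0 ∧
        (∀ w ∈ sheetIdeal j₂⁻¹ (W l₀) (fam'.chart_le l₀),
          ∃ s : ↥(chartOne R E j₂⁻¹), s ∉ 𝔫 ∧ z ∣ s * w) ∧
        IsBranchUniformizer (sheetIdeal j₂⁻¹ (W l₀) (fam'.chart_le l₀)) 𝔫 v)
    -- the norms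
    {m : ℕ} (hm : 0 < m) (NA NB : E →* E₁)
    (hNA : ∀ z : E, NA z = @Algebra.norm E₁ E _ _ α.toAlgebra z)
    (hNB : ∀ z : E, NB z = @Algebra.norm E₁ E _ _ β.toAlgebra z) :
    ∀ (G₁ : E) (lam : Fin 3 → E) (ζ20 ζ11 : R), G₁ ≠ 0 → (∀ i, lam i ≠ 0) →
      ζ20 ^ m = 1 → ζ11 ^ m = 1 →
      (∀ i, (W i).valuation (G₁ / lam i ^ m - 1) < 1) →
      HorPow36 (K₁ := K₁) j₂ hKj₂ π m G₁ →
      HorPow36 (K₁ := K₁) j₂⁻¹ (adjoin_inv_eq_top hKj₂) π m G₁ →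
      ToricRel36 α β NA NB (W 0) (W 1) (W 2) (q - 1) m G₁ (lam 0) (lam 1) (lam 2) ζ20 ζ11 →
      (∀ (𝔫 : Ideal ↥(chartOne R E j₂)) (h𝔫 : 𝔫.IsMaximal),
        algebraMap R ↥(chartOne R E j₂) π ∈ 𝔫 →
        @SheetDatumAt R _ E _ _ (chartOne R E j₂) (Fin 3)
          (fun i => sheetIdeal j₂ (W i) (fam.chart_le i)) 𝔫 h𝔫.isPrime
          W m (G₁ ^ ((q - 1) * (q - 1 + 2)))
          (fun i => algebraMap R E (![ζ20, ζ11, 1] i) * lam i ^ ((q - 1) * (q - 1 + 2)))) ∧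
      (∀ (𝔫 : Ideal ↥(chartOne R E j₂⁻¹)) (h𝔫 : 𝔫.IsMaximal),
        algebraMap R ↥(chartOne R E j₂⁻¹) π ∈ 𝔫 →
        @SheetDatumAt R _ E _ _ (chartOne R E j₂⁻¹) (Fin 3)
          (fun i => sheetIdeal j₂⁻¹ (W i) (fam'.chart_le i)) 𝔫 h𝔫.isPrime
          W m (G₁ ^ ((q - 1) * (q - 1 + 2)))
          (fun i => algebraMap R E (![ζ20, ζ11, 1] i) * lam i ^ ((q - 1) * (q - 1 + 2)))) := by
  refine points36_of_local hπ hj₁ hKj₁ hj₂ hKj₂ h2 hmod fam fam' α β hαR hβR hαB hβB hαint hβint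
    hα0 hα1 hα2 hβ0 hβ1 hβ2 hq hinsα hinsβ hresα0 hresα1 hresβ1 hresβ2 he0 he2 hLE1 hLE3 hcusp
    hm NA NB ?_ ?_
  · intro 𝔫 _ 𝔫₁ h𝔫₁ hmem huniq x hx
    haveI := h𝔫₁.isPrime
    rw [hNA]
    exact norm_mem_locRing α hαB
      (fun b hb => (chartRestrictHom_isIntegralElem_iff α hαB ⟨b, hb⟩).1 (hαint ⟨b, hb⟩))
      (fun e he => mem_chartOne_of_isIntegral j₁ e he) huniq hx
  · intro 𝔫 _ 𝔫₁ h𝔫₁ hmem huniq x hx
    haveI := h𝔫₁.isPrime
    rw [hNB]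
    exact norm_mem_locRing β hβB
      (fun b hb => (chartRestrictHom_isIntegralElem_iff β hβB ⟨b, hb⟩).1 (hβint ⟨b, hb⟩))
      (fun e he => mem_chartOne_of_isIntegral j₁ e he) huniq hx

end Final

section Leg

variable (R : Type*) [CommRing R] [IsDomain R] [IsDiscreteValuationRing R] [CharZero R]
  [DecidableEq R]
  (K : Type*) [Field K] [Algebra R K] [IsFractionRing R K] [Algebra ℚ K] [Algebra K ℂ]
  {M q : ℕ} [NeZero M] [NeZero q] [NeZero (M * q)] [NeZero (M * q * q)] {x y : ℤ}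
  {π : R}
  {R' : Type*} [CommRing R'] [IsDomain R'] [IsDiscreteValuationRing R']
  {K' : Type*} [Field K'] [Algebra R' K'] [IsFractionRing R' K']

set_option maxHeartbeats 3200000 in
/-- Layer 1.5, Legendre. -/
theorem legGeneric_of_local [IsAlgClosed (IsLocalRing.ResidueField R)]
    (hπ : Irreducible π) (h2 : IsUnit (2 : R))
    (h : (q : ℤ) * x + M * y = 1) (hq : q.Prime) (hq2 : q ≠ 2)
    (hqπ : (q : R) ∈ Ideal.span {π})
    (hgeo : GeoHyps K π (AdjoinSimple.gen K (legT K)) ↥(legE K M) M ({0, 1} : Finset R))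
    (φ : R →+* R') [IsLocalHom φ] (κ : K →+* K')
    (hκ : ∀ r : R, κ (algebraMap R K r) = algebraMap R' K' (φ r))
    (ζ u : R'ˣ) (hζq : ζ ^ q = 1) (hζ1 : ζ ≠ 1)
    (hπζ : φ π = ((ζ : R') - 1) ^ (q - 1) * u)
    -- (3) the chart maps
    (hαB : ∀ b ∈ chartOne R ↥(legE K (M * q)) (AdjoinSimple.gen K (jqNModC K 2)),
      (legHostA K (M * q) q : ↥(legE K (M * q)) →+* ↥(legE K (M * q * q))) b ∈
        chartOne R ↥(legE K (M * q * q)) (AdjoinSimple.gen K (jqNModC K 2)))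
    (hβB : ∀ b ∈ chartOne R ↥(legE K (M * q)) (AdjoinSimple.gen K (jqNModC K 2)),
      (legHostB K (M * q) q hq hq2 : ↥(legE K (M * q)) →+* ↥(legE K (M * q * q))) b ∈
        chartOne R ↥(legE K (M * q * q)) (AdjoinSimple.gen K (jqNModC K 2)))
    (hαint : (chartRestrictHom
      (B' := chartOne R ↥(legE K (M * q)) (AdjoinSimple.gen K (jqNModC K 2)))
      (B := chartOne R ↥(legE K (M * q * q)) (AdjoinSimple.gen K (jqNModC K 2)))
      (legHostA K (M * q) q : ↥(legE K (M * q)) →+* ↥(legE K (M * q * q))) hαB).IsIntegral)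
    (hβint : (chartRestrictHom
      (B' := chartOne R ↥(legE K (M * q)) (AdjoinSimple.gen K (jqNModC K 2)))
      (B := chartOne R ↥(legE K (M * q * q)) (AdjoinSimple.gen K (jqNModC K 2)))
      (legHostB K (M * q) q hq hq2 : ↥(legE K (M * q)) →+* ↥(legE K (M * q * q))) hβB).IsIntegral)
    -- (5) local equation of `W11` at the `W11`-only points of the chart `j`
    (hLE1 : ∀ (W11 W02 : ValuationSubring ↥(legE K (M * q * q))),
      W11.comap (legIncl K (M * q * q)) =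
        hostImageVal K 2 (keyFqW11 R K h hq φ κ hκ ζ hζq hζ1) →
      W02.comap (legIncl K (M * q * q)) = hostImageVal K 2 (keyFqW02 R K h hq) →
      haveI : FiniteDimensional ↥K⟮jqNModC K 2⟯ ↥(legE K (M * q * q)) :=
        finite_legE_adjoin_j K (M * q * q)
      ∀ (fam : IsSheetFamily π (AdjoinSimple.gen K (jqNModC K 2))
        ![legWinf R K h2 (M * q * q), W11, W02]),
      ∀ (𝔫 : Ideal ↥(chartOne R ↥(legE K (M * q * q)) (AdjoinSimple.gen K (jqNModC K 2))))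
        (_ : 𝔫.IsMaximal),
      sheetIdeal (AdjoinSimple.gen K (jqNModC K 2)) (![legWinf R K h2 (M * q * q), W11, W02] 1)
        (fam.chart_le 1) ≤ 𝔫 →
      (∀ l, sheetIdeal (AdjoinSimple.gen K (jqNModC K 2))
        (![legWinf R K h2 (M * q * q), W11, W02] l) (fam.chart_le l) ≤ 𝔫 → l = 1) →
      ∃ z : ↥(chartOne R ↥(legE K (M * q * q)) (AdjoinSimple.gen K (jqNModC K 2))),
        z ∈ sheetIdeal (AdjoinSimple.gen K (jqNModC K 2))
          (![legWinf R K h2 (M * q * q), W11, W02] 1) (fam.chart_le 1) ∧ z ≠ 0 ∧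
        ∀ w ∈ sheetIdeal (AdjoinSimple.gen K (jqNModC K 2))
          (![legWinf R K h2 (M * q * q), W11, W02] 1) (fam.chart_le 1),
          ∃ s : ↥(chartOne R ↥(legE K (M * q * q)) (AdjoinSimple.gen K (jqNModC K 2))),
            s ∉ 𝔫 ∧ z ∣ s * w)
    -- (6) local equation of one sheet at the three-sheet points of the chart `j`
    (hLE3 : ∀ (W11 W02 : ValuationSubring ↥(legE K (M * q * q))),
      W11.comap (legIncl K (M * q * q)) =
        hostImageVal K 2 (keyFqW11 R K h hq φ κ hκ ζ hζq hζ1) →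
      W02.comap (legIncl K (M * q * q)) = hostImageVal K 2 (keyFqW02 R K h hq) →
      haveI : FiniteDimensional ↥K⟮jqNModC K 2⟯ ↥(legE K (M * q * q)) :=
        finite_legE_adjoin_j K (M * q * q)
      ∀ (fam : IsSheetFamily π (AdjoinSimple.gen K (jqNModC K 2))
        ![legWinf R K h2 (M * q * q), W11, W02]),
      ∀ (𝔫 : Ideal ↥(chartOne R ↥(legE K (M * q * q)) (AdjoinSimple.gen K (jqNModC K 2))))
        (_ : 𝔫.IsMaximal),
      (∀ l, sheetIdeal (AdjoinSimple.gen K (jqNModC K 2))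
        (![legWinf R K h2 (M * q * q), W11, W02] l) (fam.chart_le l) ≤ 𝔫) →
      ∃ (l₁ : Fin 3)
        (z : ↥(chartOne R ↥(legE K (M * q * q)) (AdjoinSimple.gen K (jqNModC K 2)))),
        z ∈ sheetIdeal (AdjoinSimple.gen K (jqNModC K 2))
          (![legWinf R K h2 (M * q * q), W11, W02] l₁) (fam.chart_le l₁) ∧ z ≠ 0 ∧
        ∀ w ∈ sheetIdeal (AdjoinSimple.gen K (jqNModC K 2))
          (![legWinf R K h2 (M * q * q), W11, W02] l₁) (fam.chart_le l₁),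
          ∃ s : ↥(chartOne R ↥(legE K (M * q * q)) (AdjoinSimple.gen K (jqNModC K 2))),
            s ∉ 𝔫 ∧ z ∣ s * w)
    -- (7) the cusps of the chart `j⁻¹`
    (hcusps : ∀ (W11 W02 : ValuationSubring ↥(legE K (M * q * q))),
      W11.comap (legIncl K (M * q * q)) =
        hostImageVal K 2 (keyFqW11 R K h hq φ κ hκ ζ hζq hζ1) →
      W02.comap (legIncl K (M * q * q)) = hostImageVal K 2 (keyFqW02 R K h hq) →
      haveI : FiniteDimensional ↥K⟮jqNModC K 2⟯ ↥(legE K (M * q * q)) :=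
        finite_legE_adjoin_j K (M * q * q)
      ∀ (fam' : IsSheetFamily π (AdjoinSimple.gen K (jqNModC K 2))⁻¹
        ![legWinf R K h2 (M * q * q), W11, W02]),
      ∀ (𝔫 : Ideal ↥(chartOne R ↥(legE K (M * q * q)) (AdjoinSimple.gen K (jqNModC K 2))⁻¹))
        (_ : 𝔫.IsMaximal),
      algebraMap R ↥(chartOne R ↥(legE K (M * q * q)) (AdjoinSimple.gen K (jqNModC K 2))⁻¹) π ∈
        𝔫 →
      (⟨algebraMap ↥K⟮jqNModC K 2⟯ ↥(legE K (M * q * q)) (AdjoinSimple.gen K (jqNModC K 2))⁻¹,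
        algebraMap_coord_mem_chartOne (AdjoinSimple.gen K (jqNModC K 2))⁻¹⟩ :
        ↥(chartOne R ↥(legE K (M * q * q)) (AdjoinSimple.gen K (jqNModC K 2))⁻¹)) ∈ 𝔫 →
      ∃ (l₀ : Fin 3)
        (z v : ↥(chartOne R ↥(legE K (M * q * q)) (AdjoinSimple.gen K (jqNModC K 2))⁻¹)),
        sheetIdeal (AdjoinSimple.gen K (jqNModC K 2))⁻¹
          (![legWinf R K h2 (M * q * q), W11, W02] l₀) (fam'.chart_le l₀) ≤ 𝔫 ∧
        (∀ l, sheetIdeal (AdjoinSimple.gen K (jqNModC K 2))⁻¹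
          (![legWinf R K h2 (M * q * q), W11, W02] l) (fam'.chart_le l) ≤ 𝔫 → l = l₀) ∧
        z ∈ sheetIdeal (AdjoinSimple.gen K (jqNModC K 2))⁻¹
          (![legWinf R K h2 (M * q * q), W11, W02] l₀) (fam'.chart_le l₀) ∧ z ≠ 0 ∧
        (∀ w ∈ sheetIdeal (AdjoinSimple.gen K (jqNModC K 2))⁻¹
          (![legWinf R K h2 (M * q * q), W11, W02] l₀) (fam'.chart_le l₀),
          ∃ s : ↥(chartOne R ↥(legE K (M * q * q)) (AdjoinSimple.gen K (jqNModC K 2))⁻¹),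
            s ∉ 𝔫 ∧ z ∣ s * w) ∧
        IsBranchUniformizer (sheetIdeal (AdjoinSimple.gen K (jqNModC K 2))⁻¹
          (![legWinf R K h2 (M * q * q), W11, W02] l₀) (fam'.chart_le l₀)) 𝔫 v)
    -- the cusp `∞` of `W20` (CUSP36): the order of a monic function along `W20`
    (hcusp : ∀ (W11 W02 : ValuationSubring ↥(legE K (M * q * q))),
      W11.comap (legIncl K (M * q * q)) =
        hostImageVal K 2 (keyFqW11 R K h hq φ κ hκ ζ hζq hζ1) →
      W02.comap (legIncl K (M * q * q)) = hostImageVal K 2 (keyFqW02 R K h hq) →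
      ∀ {m : ℕ}, 0 < m → ∀ G : ↥(legE K (M * q * q)), G ≠ 0 →
      (∀ v : (↥(legE K (M * q * q)))ˣ, (v : ↥(legE K (M * q * q))) = G →
        hostLc (legE K (M * q * q)) v = 1) →
      (haveI : FiniteDimensional ↥K⟮jqNModC K 2⟯ ↥(legE K (M * q * q)) :=
        finite_legE_adjoin_j K (M * q * q)
      HorPow36 (K₁ := K) (AdjoinSimple.gen K (jqNModC K 2))⁻¹
        (adjoin_inv_eq_top (ssModelLeg_j_adjoin K)) π m G) →
      ∀ a : ℤ, (legWinf R K h2 (M * q * q)).valuation G =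
        (legWinf R K h2 (M * q * q)).valuation
          (algebraMap K ↥(legE K (M * q * q)) (algebraMap R K π)) ^ a → (m : ℤ) ∣ a)
    {m : ℕ} (hm : 0 < m) (hmq : Nat.Coprime m q) (hmR : IsUnit (m : R)) (ζm : R)
    (hζm : IsPrimitiveRoot ζm m)
    (f₀ : ↥(keyFq K (M * q * q))) (hf₀ : f₀ ≠ 0)
    (hlead : ((f₀ : ↥(keyFq K (M * q * q))) : LaurentSeries K).leadingCoeff = 1)
    (hord : ∀ P : Place K ↥(legE K (M * q * q)),
      (m : ℤ) ∣ P.ord (fullToLegE K (M * q * q) f₀))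
    (hNA : ∃ (a : K) (h : ↥(keyFq K (M * q))), a ≠ 0 ∧ h ≠ 0 ∧
      normAlong (heckeAlphaBar K (M * q) q) f₀ = algebraMap K ↥(keyFq K (M * q)) a * h ^ m)
    (hNB : ∃ (a : K) (h : ↥(keyFq K (M * q))), a ≠ 0 ∧ h ≠ 0 ∧
      normAlong (heckeBetaBar K (M * q) q) f₀ = algebraMap K ↥(keyFq K (M * q)) a * h ^ m) :
    ∃ w : ↥(legE K (M * q * q)),
      fullToLegE K (M * q * q) f₀ ^ ((q ^ 2 - 1) * ((q - 1) * (q - 1 + 2))) = w ^ m := by
  haveI : FiniteDimensional ↥K⟮jqNModC K 2⟯ ↥(legE K (M * q * q)) :=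
    finite_legE_adjoin_j K (M * q * q)
  haveI : FiniteDimensional ↥K⟮jqNModC K 2⟯ ↥(legE K (M * q)) := finite_legE_adjoin_j K (M * q)
  haveI : CharP (IsLocalRing.ResidueField R) q := charP_residueField_of_mem_span hπ hq hqπ
  have hchar : (q : IsLocalRing.ResidueField R) = 0 := CharP.cast_eq_zero _ q
  obtain ⟨hfinA, hdegA⟩ :=
    normhost_finrank_legHostA R K (M := M * q) h2 hq hq2 (dvd_mul_left q M) hchar
  obtain ⟨hfinB, hdegB⟩ :=
    normhost_finrank_legHostB R K (M := M * q) h2 hq hq2 (dvd_mul_left q M) hchar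
  obtain ⟨W11, W02, h11, h02, hdvr, hT, hfam, D⟩ := exists_legE_model36 R K hπ h2 h hq hq2 hqπ
    hgeo φ κ hκ ζ hζq hζ1 u hπζ
    (normvalNormAlong₀ (legHostA K (M * q) q : ↥(legE K (M * q)) →+* ↥(legE K (M * q * q))) hfinA)
    (normvalNormAlong₀ (legHostB K (M * q) q hq hq2 :
      ↥(legE K (M * q)) →+* ↥(legE K (M * q * q))) hfinB)
    (fun _ => rfl) (fun _ => rfl)
  have hmodel := ssModelLeg R K hπ h2 h hq hq2 hqπ hgeo
  unfold SSModelLeg at hmodel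
  have hpoints := points36_of_local_norm (R := R) (K₁ := K) (KN₁ := ↥K⟮jqNModC K 2⟯)
    (E₁ := ↥(legE K (M * q))) (KN₂ := ↥K⟮jqNModC K 2⟯) (E := ↥(legE K (M * q * q)))
    hπ (ssModelLeg_j_transcendental K) (ssModelLeg_j_adjoin K)
    (ssModelLeg_j_transcendental K) (ssModelLeg_j_adjoin K) hmodel.two
    (hmodel.isModelChart_one hπ) hfam (hfam.inv hπ)
    (legHostA K (M * q) q : ↥(legE K (M * q)) →+* ↥(legE K (M * q * q)))
    (legHostB K (M * q) q hq hq2 : ↥(legE K (M * q)) →+* ↥(legE K (M * q * q)))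
    (ssModelLeg_A_algebraMap R K) (ssModelLeg_B_algebraMap R K hq hq2) hαB hβB hαint hβint
    hT.comap_A_20 hT.comap_A_11 hT.comap_A_02 hT.comap_B_20 hT.comap_B_11 hT.comap_B_02
    hq.pos D.hinsA D.hinsB hT.res_A_20 hT.res_A_11 hT.res_B_11 hT.res_B_02 hT.unif_20 hT.unif_02
    (hLE1 W11 W02 h11 h02 hfam) (hLE3 W11 W02 h11 h02 hfam)
    (hcusps W11 W02 h11 h02 (hfam.inv hπ)) hm
    (normvalNormAlong₀ (legHostA K (M * q) q : ↥(legE K (M * q)) →+* ↥(legE K (M * q * q)))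
      hfinA).toMonoidHom
    (normvalNormAlong₀ (legHostB K (M * q) q hq hq2 :
      ↥(legE K (M * q)) →+* ↥(legE K (M * q * q))) hfinB).toMonoidHom
    (fun _ => rfl) (fun _ => rfl)
  exact legInert_of_model R K hπ h2 h hq hq2 hqπ W11 W02 hfam _ _ (fun _ => rfl) (fun _ => rfl) D
    hm hmq hmR ζm hζm f₀ hf₀ hlead hord hNA hNB hpoints (hcusp W11 W02 h11 h02 hm)

end Leg

section Hes

variable (R : Type*) [CommRing R] [IsDomain R] [IsDiscreteValuationRing R] [CharZero R]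
  [DecidableEq R]
  (K : Type*) [Field K] [Algebra R K] [IsFractionRing R K] [Algebra ℚ K] [Algebra K ℂ]
  {M : ℕ} [NeZero M] [NeZero (M * 2)] [NeZero (M * 2 * 2)] {x y : ℤ}
  {π : R}
  {R' : Type*} [CommRing R'] [IsDomain R'] [IsDiscreteValuationRing R']
  {K' : Type*} [Field K'] [Algebra R' K'] [IsFractionRing R' K']

set_option maxHeartbeats 3200000 in
/-- Layer 1.5, Hesse. -/
theorem hesGeneric_of_local [IsAlgClosed (IsLocalRing.ResidueField R)]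
    (hπ : Irreducible π) (h3 : IsUnit (3 : R)) (ω : R) (hω : ω ^ 2 + ω + 1 = 0)
    (h : ((2 : ℕ) : ℤ) * x + M * y = 1)
    (hqπ : ((2 : ℕ) : R) ∈ Ideal.span {π})
    (hgeo : GeoHyps K π (AdjoinSimple.gen K (hesT K)) ↥(hesE K M) M
      ({1, ω, ω ^ 2} : Finset R))
    (φ : R →+* R') [IsLocalHom φ] (κ : K →+* K')
    (hκ : ∀ r : R, κ (algebraMap R K r) = algebraMap R' K' (φ r))
    (ζ u : R'ˣ) (hζq : ζ ^ 2 = 1) (hζ1 : ζ ≠ 1)
    (hπζ : φ π = ((ζ : R') - 1) ^ (2 - 1) * u)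
    -- (3) the chart maps
    (hαB : ∀ b ∈ chartOne R ↥(hesE K (M * 2)) (AdjoinSimple.gen K (jqNModC K 3)),
      (hesHostA K (M * 2) 2 : ↥(hesE K (M * 2)) →+* ↥(hesE K (M * 2 * 2))) b ∈
        chartOne R ↥(hesE K (M * 2 * 2)) (AdjoinSimple.gen K (jqNModC K 3)))
    (hβB : ∀ b ∈ chartOne R ↥(hesE K (M * 2)) (AdjoinSimple.gen K (jqNModC K 3)),
      (hesHostB K (M * 2) : ↥(hesE K (M * 2)) →+* ↥(hesE K (M * 2 * 2))) b ∈
        chartOne R ↥(hesE K (M * 2 * 2)) (AdjoinSimple.gen K (jqNModC K 3)))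
    (hαint : (chartRestrictHom
      (B' := chartOne R ↥(hesE K (M * 2)) (AdjoinSimple.gen K (jqNModC K 3)))
      (B := chartOne R ↥(hesE K (M * 2 * 2)) (AdjoinSimple.gen K (jqNModC K 3)))
      (hesHostA K (M * 2) 2 : ↥(hesE K (M * 2)) →+* ↥(hesE K (M * 2 * 2))) hαB).IsIntegral)
    (hβint : (chartRestrictHom
      (B' := chartOne R ↥(hesE K (M * 2)) (AdjoinSimple.gen K (jqNModC K 3)))
      (B := chartOne R ↥(hesE K (M * 2 * 2)) (AdjoinSimple.gen K (jqNModC K 3)))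
      (hesHostB K (M * 2) : ↥(hesE K (M * 2)) →+* ↥(hesE K (M * 2 * 2))) hβB).IsIntegral)
    -- (5) local equation of `W11` at the `W11`-only points of the chart `j`
    (hLE1 : ∀ (W11 W02 : ValuationSubring ↥(hesE K (M * 2 * 2))),
      W11.comap (hesIncl K (M * 2 * 2)) =
        hostImageVal K 3 (keyFqW11 R K h Nat.prime_two φ κ hκ ζ hζq hζ1) →
      W02.comap (hesIncl K (M * 2 * 2)) = hostImageVal K 3 (keyFqW02 R K h Nat.prime_two) →
      haveI : FiniteDimensional ↥K⟮jqNModC K 3⟯ ↥(hesE K (M * 2 * 2)) :=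
        finite_hesE_adjoin_j K (M * 2 * 2)
      ∀ (fam : IsSheetFamily π (AdjoinSimple.gen K (jqNModC K 3))
        ![hesWinf R K h3 (M * 2 * 2), W11, W02]),
      ∀ (𝔫 : Ideal ↥(chartOne R ↥(hesE K (M * 2 * 2)) (AdjoinSimple.gen K (jqNModC K 3))))
        (_ : 𝔫.IsMaximal),
      sheetIdeal (AdjoinSimple.gen K (jqNModC K 3)) (![hesWinf R K h3 (M * 2 * 2), W11, W02] 1)
        (fam.chart_le 1) ≤ 𝔫 →
      (∀ l, sheetIdeal (AdjoinSimple.gen K (jqNModC K 3))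
        (![hesWinf R K h3 (M * 2 * 2), W11, W02] l) (fam.chart_le l) ≤ 𝔫 → l = 1) →
      ∃ z : ↥(chartOne R ↥(hesE K (M * 2 * 2)) (AdjoinSimple.gen K (jqNModC K 3))),
        z ∈ sheetIdeal (AdjoinSimple.gen K (jqNModC K 3))
          (![hesWinf R K h3 (M * 2 * 2), W11, W02] 1) (fam.chart_le 1) ∧ z ≠ 0 ∧
        ∀ w ∈ sheetIdeal (AdjoinSimple.gen K (jqNModC K 3))
          (![hesWinf R K h3 (M * 2 * 2), W11, W02] 1) (fam.chart_le 1),
          ∃ s : ↥(chartOne R ↥(hesE K (M * 2 * 2)) (AdjoinSimple.gen K (jqNModC K 3))),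
            s ∉ 𝔫 ∧ z ∣ s * w)
    -- (6) local equation of one sheet at the three-sheet points of the chart `j`
    (hLE3 : ∀ (W11 W02 : ValuationSubring ↥(hesE K (M * 2 * 2))),
      W11.comap (hesIncl K (M * 2 * 2)) =
        hostImageVal K 3 (keyFqW11 R K h Nat.prime_two φ κ hκ ζ hζq hζ1) →
      W02.comap (hesIncl K (M * 2 * 2)) = hostImageVal K 3 (keyFqW02 R K h Nat.prime_two) →
      haveI : FiniteDimensional ↥K⟮jqNModC K 3⟯ ↥(hesE K (M * 2 * 2)) :=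
        finite_hesE_adjoin_j K (M * 2 * 2)
      ∀ (fam : IsSheetFamily π (AdjoinSimple.gen K (jqNModC K 3))
        ![hesWinf R K h3 (M * 2 * 2), W11, W02]),
      ∀ (𝔫 : Ideal ↥(chartOne R ↥(hesE K (M * 2 * 2)) (AdjoinSimple.gen K (jqNModC K 3))))
        (_ : 𝔫.IsMaximal),
      (∀ l, sheetIdeal (AdjoinSimple.gen K (jqNModC K 3))
        (![hesWinf R K h3 (M * 2 * 2), W11, W02] l) (fam.chart_le l) ≤ 𝔫) →
      ∃ (l₁ : Fin 3)
        (z : ↥(chartOne R ↥(hesE K (M * 2 * 2)) (AdjoinSimple.gen K (jqNModC K 3)))),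
        z ∈ sheetIdeal (AdjoinSimple.gen K (jqNModC K 3))
          (![hesWinf R K h3 (M * 2 * 2), W11, W02] l₁) (fam.chart_le l₁) ∧ z ≠ 0 ∧
        ∀ w ∈ sheetIdeal (AdjoinSimple.gen K (jqNModC K 3))
          (![hesWinf R K h3 (M * 2 * 2), W11, W02] l₁) (fam.chart_le l₁),
          ∃ s : ↥(chartOne R ↥(hesE K (M * 2 * 2)) (AdjoinSimple.gen K (jqNModC K 3))),
            s ∉ 𝔫 ∧ z ∣ s * w)
    -- (7) the cusps of the chart `j⁻¹`
    (hcusps : ∀ (W11 W02 : ValuationSubring ↥(hesE K (M * 2 * 2))),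
      W11.comap (hesIncl K (M * 2 * 2)) =
        hostImageVal K 3 (keyFqW11 R K h Nat.prime_two φ κ hκ ζ hζq hζ1) →
      W02.comap (hesIncl K (M * 2 * 2)) = hostImageVal K 3 (keyFqW02 R K h Nat.prime_two) →
      haveI : FiniteDimensional ↥K⟮jqNModC K 3⟯ ↥(hesE K (M * 2 * 2)) :=
        finite_hesE_adjoin_j K (M * 2 * 2)
      ∀ (fam' : IsSheetFamily π (AdjoinSimple.gen K (jqNModC K 3))⁻¹
        ![hesWinf R K h3 (M * 2 * 2), W11, W02]),
      ∀ (𝔫 : Ideal ↥(chartOne R ↥(hesE K (M * 2 * 2)) (AdjoinSimple.gen K (jqNModC K 3))⁻¹))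
        (_ : 𝔫.IsMaximal),
      algebraMap R ↥(chartOne R ↥(hesE K (M * 2 * 2)) (AdjoinSimple.gen K (jqNModC K 3))⁻¹) π ∈
        𝔫 →
      (⟨algebraMap ↥K⟮jqNModC K 3⟯ ↥(hesE K (M * 2 * 2)) (AdjoinSimple.gen K (jqNModC K 3))⁻¹,
        algebraMap_coord_mem_chartOne (AdjoinSimple.gen K (jqNModC K 3))⁻¹⟩ :
        ↥(chartOne R ↥(hesE K (M * 2 * 2)) (AdjoinSimple.gen K (jqNModC K 3))⁻¹)) ∈ 𝔫 →
      ∃ (l₀ : Fin 3)
        (z v : ↥(chartOne R ↥(hesE K (M * 2 * 2)) (AdjoinSimple.gen K (jqNModC K 3))⁻¹)),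
        sheetIdeal (AdjoinSimple.gen K (jqNModC K 3))⁻¹
          (![hesWinf R K h3 (M * 2 * 2), W11, W02] l₀) (fam'.chart_le l₀) ≤ 𝔫 ∧
        (∀ l, sheetIdeal (AdjoinSimple.gen K (jqNModC K 3))⁻¹
          (![hesWinf R K h3 (M * 2 * 2), W11, W02] l) (fam'.chart_le l) ≤ 𝔫 → l = l₀) ∧
        z ∈ sheetIdeal (AdjoinSimple.gen K (jqNModC K 3))⁻¹
          (![hesWinf R K h3 (M * 2 * 2), W11, W02] l₀) (fam'.chart_le l₀) ∧ z ≠ 0 ∧
        (∀ w ∈ sheetIdeal (AdjoinSimple.gen K (jqNModC K 3))⁻¹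
          (![hesWinf R K h3 (M * 2 * 2), W11, W02] l₀) (fam'.chart_le l₀),
          ∃ s : ↥(chartOne R ↥(hesE K (M * 2 * 2)) (AdjoinSimple.gen K (jqNModC K 3))⁻¹),
            s ∉ 𝔫 ∧ z ∣ s * w) ∧
        IsBranchUniformizer (sheetIdeal (AdjoinSimple.gen K (jqNModC K 3))⁻¹
          (![hesWinf R K h3 (M * 2 * 2), W11, W02] l₀) (fam'.chart_le l₀)) 𝔫 v)
    -- the cusp `∞` of `W20` (CUSP36): the order of a monic function along `W20`
    (hcusp : ∀ (W11 W02 : ValuationSubring ↥(hesE K (M * 2 * 2))),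
      W11.comap (hesIncl K (M * 2 * 2)) =
        hostImageVal K 3 (keyFqW11 R K h Nat.prime_two φ κ hκ ζ hζq hζ1) →
      W02.comap (hesIncl K (M * 2 * 2)) = hostImageVal K 3 (keyFqW02 R K h Nat.prime_two) →
      ∀ {m : ℕ}, 0 < m → ∀ G : ↥(hesE K (M * 2 * 2)), G ≠ 0 →
      (∀ v : (↥(hesE K (M * 2 * 2)))ˣ, (v : ↥(hesE K (M * 2 * 2))) = G →
        hostLc (hesE K (M * 2 * 2)) v = 1) →
      (haveI : FiniteDimensional ↥K⟮jqNModC K 3⟯ ↥(hesE K (M * 2 * 2)) :=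
        finite_hesE_adjoin_j K (M * 2 * 2)
      HorPow36 (K₁ := K) (AdjoinSimple.gen K (jqNModC K 3))⁻¹
        (adjoin_inv_eq_top (ssModelHes_j_adjoin K)) π m G) →
      ∀ a : ℤ, (hesWinf R K h3 (M * 2 * 2)).valuation G =
        (hesWinf R K h3 (M * 2 * 2)).valuation
          (algebraMap K ↥(hesE K (M * 2 * 2)) (algebraMap R K π)) ^ a → (m : ℤ) ∣ a)
    {m : ℕ} (hm : 0 < m) (hmq : Nat.Coprime m 2) (hmR : IsUnit (m : R)) (ζm : R)
    (hζm : IsPrimitiveRoot ζm m)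
    (f₀ : ↥(keyFq K (M * 2 * 2))) (hf₀ : f₀ ≠ 0)
    (hlead : ((f₀ : ↥(keyFq K (M * 2 * 2))) : LaurentSeries K).leadingCoeff = 1)
    (hord : ∀ P : Place K ↥(hesE K (M * 2 * 2)),
      (m : ℤ) ∣ P.ord (fullToHesE K (M * 2 * 2) f₀))
    (hNA : ∃ (a : K) (h : ↥(keyFq K (M * 2))), a ≠ 0 ∧ h ≠ 0 ∧
      normAlong (heckeAlphaBar K (M * 2) 2) f₀ = algebraMap K ↥(keyFq K (M * 2)) a * h ^ m)
    (hNB : ∃ (a : K) (h : ↥(keyFq K (M * 2))), a ≠ 0 ∧ h ≠ 0 ∧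
      normAlong (heckeBetaBar K (M * 2) 2) f₀ = algebraMap K ↥(keyFq K (M * 2)) a * h ^ m) :
    ∃ w : ↥(hesE K (M * 2 * 2)),
      fullToHesE K (M * 2 * 2) f₀ ^ ((2 ^ 2 - 1) * ((2 - 1) * (2 - 1 + 2))) = w ^ m := by
  haveI : FiniteDimensional ↥K⟮jqNModC K 3⟯ ↥(hesE K (M * 2 * 2)) :=
    finite_hesE_adjoin_j K (M * 2 * 2)
  haveI : FiniteDimensional ↥K⟮jqNModC K 3⟯ ↥(hesE K (M * 2)) := finite_hesE_adjoin_j K (M * 2)
  haveI : CharP (IsLocalRing.ResidueField R) 2 := charP_residueField_of_mem_span hπ Nat.prime_two hqπ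
  have hchar : ((2 : ℕ) : IsLocalRing.ResidueField R) = 0 := CharP.cast_eq_zero _ 2
  obtain ⟨hfinA, hdegA⟩ :=
    normhost_finrank_hesHostA R K (M := M * 2) h3 (dvd_mul_left 2 M) hchar
  obtain ⟨hfinB, hdegB⟩ :=
    normhost_finrank_hesHostB R K (M := M * 2) h3 (dvd_mul_left 2 M) hchar
  obtain ⟨W11, W02, h11, h02, hdvr, hT, hfam, D⟩ := exists_hesE_model36 R K hπ h3 ω h hqπ
    hgeo φ κ hκ ζ hζq hζ1 u hπζ
    (normvalNormAlong₀ (hesHostA K (M * 2) 2 : ↥(hesE K (M * 2)) →+* ↥(hesE K (M * 2 * 2))) hfinA)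
    (normvalNormAlong₀ (hesHostB K (M * 2) :
      ↥(hesE K (M * 2)) →+* ↥(hesE K (M * 2 * 2))) hfinB)
    (fun _ => rfl) (fun _ => rfl)
  have hmodel := ssModelHes R K hπ h3 ω hω h hqπ hgeo
  unfold SSModelHes at hmodel
  have hpoints := points36_of_local_norm (R := R) (K₁ := K) (KN₁ := ↥K⟮jqNModC K 3⟯)
    (E₁ := ↥(hesE K (M * 2))) (KN₂ := ↥K⟮jqNModC K 3⟯) (E := ↥(hesE K (M * 2 * 2)))
    hπ (ssModelHes_j_transcendental K) (ssModelHes_j_adjoin K)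
    (ssModelHes_j_transcendental K) (ssModelHes_j_adjoin K) hmodel.two
    (hmodel.isModelChart_one hπ) hfam (hfam.inv hπ)
    (hesHostA K (M * 2) 2 : ↥(hesE K (M * 2)) →+* ↥(hesE K (M * 2 * 2)))
    (hesHostB K (M * 2) : ↥(hesE K (M * 2)) →+* ↥(hesE K (M * 2 * 2)))
    (ssModelHes_A_algebraMap R K) (ssModelHes_B_algebraMap R K) hαB hβB hαint hβint
    hT.comap_A_20 hT.comap_A_11 hT.comap_A_02 hT.comap_B_20 hT.comap_B_11 hT.comap_B_02
    Nat.prime_two.pos D.hinsA D.hinsB hT.res_A_20 hT.res_A_11 hT.res_B_11 hT.res_B_02 hT.unif_20 hT.unif_02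
    (hLE1 W11 W02 h11 h02 hfam) (hLE3 W11 W02 h11 h02 hfam)
    (hcusps W11 W02 h11 h02 (hfam.inv hπ)) hm
    (normvalNormAlong₀ (hesHostA K (M * 2) 2 : ↥(hesE K (M * 2)) →+* ↥(hesE K (M * 2 * 2)))
      hfinA).toMonoidHom
    (normvalNormAlong₀ (hesHostB K (M * 2) :
      ↥(hesE K (M * 2)) →+* ↥(hesE K (M * 2 * 2))) hfinB).toMonoidHom
    (fun _ => rfl) (fun _ => rfl)
  exact hesInert_of_model R K hπ h3 h hqπ W11 W02 hfam _ _ (fun _ => rfl) (fun _ => rfl) D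
    hm hmq hmR ζm hζm f₀ hf₀ hlead hord hNA hNB hpoints (hcusp W11 W02 h11 h02 hm)

end Hes

end

end Fermat.Agent.S36
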