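/-
S36 — lead — package [REG1], part 1: **the Kähler lemma**.

`L` a local `R`-algebra with finitely generated module of differentials, `I` an ideal of `L`,
`τ` in the maximal ideal, such that every `g ∈ L` is `c + a τ` modulo `I` with `c` a constant
(`L ⧸ I` is a discrete valuation ring with uniformizer `τ` and residue field a quotient of `R`).
Then every `R`-derivation `D` of `L` killing `I` takes its values in the cyclic submodule
generated by `D τ`.
-/
import Mathlib

set_option autoImplicit false
set_option linter.unusedSectionVars false

open scoped KaehlerDifferential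

namespace Fermat.Agent.S36

section Kaehler

variable {R L : Type*} [CommRing R] [CommRing L] [Algebra R L] [IsLocalRing L]
  [Module.Finite L Ω[L⁄R]]

/-- the module of differentials is generated by `dτ` and the `dp`, `p ∈ I`. -/
theorem kaehler_span_eq_top (I : Ideal L) (τ : L) (hτ : τ ∈ IsLocalRing.maximalIdeal L)
    (hres : ∀ g : L, ∃ (c : R) (a : L), g - algebraMap R L c - a * τ ∈ I) :
    Submodule.span L ({KaehlerDifferential.D R L τ} ∪ (KaehlerDifferential.D R L) '' (I : Set L)) =
      ⊤ := by
  rw [eq_top_iff]
  refine Submodule.le_of_le_smul_of_le_jacobson_bot (I := IsLocalRing.maximalIdeal L)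
    (Module.finite_def.mp inferInstance) ?_ ?_
  · rw [IsLocalRing.jacobson_eq_maximalIdeal ⊥ bot_ne_top]
  · rw [← KaehlerDifferential.span_range_derivation R L, Submodule.span_le]
    rintro _ ⟨g, rfl⟩
    obtain ⟨c, a, hp⟩ := hres g
    have hg : g = algebraMap R L c + a * τ + (g - algebraMap R L c - a * τ) := by ring
    have hd : KaehlerDifferential.D R L g =
        (a • KaehlerDifferential.D R L τ +
          KaehlerDifferential.D R L (g - algebraMap R L c - a * τ)) +
        τ • KaehlerDifferential.D R L a := by
      conv_lhs => rw [hg]
      rw [map_add, map_add, Derivation.map_algebraMap, Derivation.leibniz, zero_add]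
      abel
    rw [hd]
    refine Submodule.add_mem_sup (Submodule.add_mem _ ?_ ?_) ?_
    · exact Submodule.smul_mem _ _ (Submodule.subset_span (Or.inl rfl))
    · exact Submodule.subset_span (Or.inr ⟨_, hp, rfl⟩)
    · refine Submodule.smul_mem_smul hτ ?_
      rw [KaehlerDifferential.span_range_derivation]
      exact Submodule.mem_top

/-- **the Kähler lemma**: a derivation killing `I` takes its values in the cyclic submodule
generated by its value at the uniformizer. -/
theorem derivation_mem_span_of_local (I : Ideal L) (τ : L)
    (hτ : τ ∈ IsLocalRing.maximalIdeal L)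
    (hres : ∀ g : L, ∃ (c : R) (a : L), g - algebraMap R L c - a * τ ∈ I)
    {M : Type*} [AddCommGroup M] [Module R M] [Module L M] [IsScalarTower R L M]
    (D : Derivation R L M) (hD : ∀ p ∈ I, D p = 0) (g : L) :
    D g ∈ Submodule.span L {D τ} := by
  have htop := kaehler_span_eq_top (R := R) I τ hτ hres
  have hmem : KaehlerDifferential.D R L g ∈
      Submodule.span L ({KaehlerDifferential.D R L τ} ∪
        (KaehlerDifferential.D R L) '' (I : Set L)) := by
    rw [htop]; exact Submodule.mem_top
  have hle : Submodule.span L ({KaehlerDifferential.D R L τ} ∪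
      (KaehlerDifferential.D R L) '' (I : Set L)) ≤
      (Submodule.span L {D τ}).comap D.liftKaehlerDifferential := by
    rw [Submodule.span_le]
    rintro _ (rfl | ⟨p, hp, rfl⟩)
    · rw [SetLike.mem_coe, Submodule.mem_comap, Derivation.liftKaehlerDifferential_comp_D]
      exact Submodule.subset_span rfl
    · rw [SetLike.mem_coe, Submodule.mem_comap, Derivation.liftKaehlerDifferential_comp_D,
        hD p hp]
      exact Submodule.zero_mem _
  have := hle hmem
  rw [Submodule.mem_comap, Derivation.liftKaehlerDifferential_comp_D] at this
  exact this

end Kaehler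

end Fermat.Agent.S36
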