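/-
S36 — lead — package [REG1], part 2: **derivations and the local ring of a chart at a closed
point** (local currency of `SS/EXPORT_helper4_Loc`).

* `isLocalRing_locRing`, `isLocalization_locRing`, `essFiniteType_locRing`: `locRing B 𝔪` is a local
  ring, the localization of `B` at `𝔪`, essentially of finite type over `R` when `B` is of finite
  type.
* `exists_deriv_cong_of_isLocBranch`: a derivation `∂` of `E` preserving the maximal ideal of a
  valuation subring `W ⊇ B` whose sheet passes through `𝔪`, with `∂ ζ ≡ ν ∈ locRing` for a local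
  branch uniformizer `ζ`, preserves `locRing B 𝔪` modulo the maximal ideal of `W` (the induced
  derivation of the residue field of `W` preserves the local ring of the branch).
-/
import Mathlib
import Fermat.Agent.S36.REG1_lead_Kaehler
import Fermat.Agent.SS.EXPORT_helper4_Loc

set_option autoImplicit false
set_option linter.unusedSectionVars false
set_option linter.style.haveILetI false

open scoped KaehlerDifferential

namespace Fermat.Agent.S36

open Fermat.Agent.SS

section Loc

variable {R : Type*} [CommRing R] {E : Type*} [Field E] [Algebra R E]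
  {B : Subalgebra R E} {𝔪 : Ideal ↥B} [h𝔪 : 𝔪.IsPrime]

/-- the non-units of `locRing B 𝔪` are the elements of `locMax B 𝔪`. -/
theorem isUnit_locRing_iff (e : ↥(locRing B 𝔪)) : IsUnit e ↔ (e : E) ∉ locMax B 𝔪 := by
  constructor
  · rintro ⟨u, rfl⟩ hmem
    have h1 : ((u : ↥(locRing B 𝔪)) : E) * ((u⁻¹ : (↥(locRing B 𝔪))ˣ) : ↥(locRing B 𝔪)) = 1 :=
      congrArg (fun z : ↥(locRing B 𝔪) => (z : E)) (u.mul_inv)
    have h2 : (1 : E) ∈ locMax B 𝔪 := by
      rw [← h1, mul_comm]
      exact mul_mem_locMax (Subtype.mem _) hmem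
    exact one_notMem_locMax h2
  · intro hnot
    have hinv : (e : E)⁻¹ ∈ locRing B 𝔪 := inv_mem_locRing e.2 hnot
    have he0 : (e : E) ≠ 0 := fun h0 => hnot (by rw [h0]; exact zero_mem_locMax)
    exact IsUnit.of_mul_eq_one ⟨(e : E)⁻¹, hinv⟩ (Subtype.ext (mul_inv_cancel₀ he0))

/-- `locRing B 𝔪` is a local ring. -/
theorem isLocalRing_locRing : IsLocalRing ↥(locRing B 𝔪) := by
  haveI : Nontrivial ↥(locRing B 𝔪) := inferInstance
  refine IsLocalRing.of_nonunits_add ?_
  intro a b ha hb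
  rw [mem_nonunits_iff, isUnit_locRing_iff, not_not] at ha hb ⊢
  exact add_mem_locMax ha hb

theorem mem_maximalIdeal_locRing_iff [IsLocalRing ↥(locRing B 𝔪)] (e : ↥(locRing B 𝔪)) :
    e ∈ IsLocalRing.maximalIdeal ↥(locRing B 𝔪) ↔ (e : E) ∈ locMax B 𝔪 := by
  rw [IsLocalRing.mem_maximalIdeal, mem_nonunits_iff, isUnit_locRing_iff, not_not]

/-- the inclusion `B → locRing B 𝔪`. -/
@[reducible] def locRingAlgebra : Algebra ↥B ↥(locRing B 𝔪) :=
  (Subalgebra.inclusion (le_locRing (B := B) (𝔪 := 𝔪))).toRingHom.toAlgebra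

/-- `locRing B 𝔪` is the localization of `B` at `𝔪`. -/
theorem isLocalization_locRing :
    letI := locRingAlgebra (B := B) (𝔪 := 𝔪)
    IsLocalization.AtPrime ↥(locRing B 𝔪) 𝔪 := by
  letI := locRingAlgebra (B := B) (𝔪 := 𝔪)
  have halg : ∀ b : ↥B, ((algebraMap ↥B ↥(locRing B 𝔪) b : ↥(locRing B 𝔪)) : E) = (b : E) :=
    fun b => rfl
  refine ⟨?_, ?_, ?_⟩
  · rintro ⟨s, hs⟩
    rw [isUnit_locRing_iff, halg, coe_mem_locMax_iff]
    exact hs
  · rintro ⟨e, r, s, hs, hrs⟩
    refine ⟨(r, ⟨s, hs⟩), ?_⟩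
    apply Subtype.ext
    show e * (s : E) = (r : E)
    exact hrs
  · intro a b hab
    refine ⟨1, ?_⟩
    have : (a : E) = (b : E) := congrArg (fun z : ↥(locRing B 𝔪) => (z : E)) hab
    rw [Submonoid.coe_one, one_mul, one_mul]
    exact Subtype.ext this

/-- `locRing B 𝔪` is essentially of finite type over `R` when `B` is of finite type. -/
theorem essFiniteType_locRing [Algebra.FiniteType R ↥B] :
    Algebra.EssFiniteType R ↥(locRing B 𝔪) := by
  letI := locRingAlgebra (B := B) (𝔪 := 𝔪)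
  haveI : IsLocalization.AtPrime ↥(locRing B 𝔪) 𝔪 := isLocalization_locRing
  haveI : IsScalarTower R ↥B ↥(locRing B 𝔪) :=
    IsScalarTower.of_algebraMap_eq (fun r => Subtype.ext rfl)
  haveI : Algebra.EssFiniteType ↥B ↥(locRing B 𝔪) :=
    Algebra.EssFiniteType.of_isLocalization ↥(locRing B 𝔪) 𝔪.primeCompl
  exact Algebra.EssFiniteType.comp R ↥B ↥(locRing B 𝔪)

end Loc

section Deriv

variable {R : Type*} [CommRing R] {E : Type*} [Field E] [Algebra R E]
  {B : Subalgebra R E} {𝔪 : Ideal ↥B} [h𝔪 : 𝔪.IsPrime] [Algebra.FiniteType R ↥B]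

/-- the elements of `E` of valuation `< 1`, as a module over the local ring of a chart. -/
def valLtSubmodule (W : ValuationSubring E) (hLW : ∀ e ∈ locRing B 𝔪, e ∈ W) :
    Submodule ↥(locRing B 𝔪) E where
  carrier := {e | W.valuation e < 1}
  add_mem' := by
    intro a b ha hb
    exact lt_of_le_of_lt (W.valuation.map_add a b) (max_lt ha hb)
  zero_mem' := by
    show W.valuation 0 < 1
    rw [map_zero]; exact zero_lt_one
  smul_mem' := by
    intro c e he
    show W.valuation ((c : E) * e) < 1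
    rw [map_mul]
    calc W.valuation (c : E) * W.valuation e ≤ 1 * W.valuation e :=
          mul_le_mul_left ((ValuationSubring.valuation_le_one_iff _ _).mpr (hLW _ c.2)) _
      _ < 1 := by rw [one_mul]; exact he

theorem mem_valLtSubmodule_iff (W : ValuationSubring E) (hLW : ∀ e ∈ locRing B 𝔪, e ∈ W)
    (e : E) : e ∈ valLtSubmodule W hLW ↔ W.valuation e < 1 := Iff.rfl

/-- the derivation of the local ring with values in `E` modulo the maximal ideal of `W` induced by
a derivation of `E`. -/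
noncomputable def derivModVal (W : ValuationSubring E) (hLW : ∀ e ∈ locRing B 𝔪, e ∈ W)
    (D : Derivation R E E) : Derivation R ↥(locRing B 𝔪) (E ⧸ valLtSubmodule W hLW) where
  toLinearMap := (((valLtSubmodule W hLW).mkQ.restrictScalars R).comp D.toLinearMap).comp
    (locRing B 𝔪).val.toLinearMap
  map_one_eq_zero' := by
    show (valLtSubmodule W hLW).mkQ (D ((1 : ↥(locRing B 𝔪)) : E)) = 0
    rw [OneMemClass.coe_one, Derivation.map_one_eq_zero, map_zero]
  leibniz' := by
    intro a b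
    show (valLtSubmodule W hLW).mkQ (D ((a * b : ↥(locRing B 𝔪)) : E)) =
      a • (valLtSubmodule W hLW).mkQ (D (b : E)) + b • (valLtSubmodule W hLW).mkQ (D (a : E))
    rw [MulMemClass.coe_mul, Derivation.leibniz, map_add, ← LinearMap.map_smul,
      ← LinearMap.map_smul]
    rfl

theorem derivModVal_apply (W : ValuationSubring E) (hLW : ∀ e ∈ locRing B 𝔪, e ∈ W)
    (D : Derivation R E E) (a : ↥(locRing B 𝔪)) :
    derivModVal W hLW D a = (valLtSubmodule W hLW).mkQ (D (a : E)) := rfl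

/-- **a derivation preserves the local ring of a branch**: `∂` an `R`-derivation of `E` preserving
the maximal ideal of `W`, `ζ` a local branch uniformizer at `𝔪` with `∂ ζ ≡ ν` modulo the maximal
ideal of `W`, `ν` in the local ring; residue field of `𝔪` the image of `R`.  Then for every `g`
in the local ring `∂ g` is congruent to an element of the local ring. -/
theorem exists_deriv_cong_of_isLocBranch (W : ValuationSubring E)
    (hLW : ∀ e ∈ locRing B 𝔪, e ∈ W)
    (hres : ∀ g ∈ locRing B 𝔪, ∃ c : R, g - algebraMap R E c ∈ locMax B 𝔪)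
    {ζ : E} (hζ : IsLocBranch W (locRing B 𝔪) (locMax B 𝔪) ζ)
    (D : Derivation R E E) (hD : ∀ e : E, W.valuation e < 1 → W.valuation (D e) < 1)
    {ν : E} (hν : ν ∈ locRing B 𝔪) (hζν : W.valuation (D ζ - ν) < 1)
    {g : E} (hg : g ∈ locRing B 𝔪) :
    ∃ β ∈ locRing B 𝔪, W.valuation (D g - β) < 1 := by
  haveI : IsLocalRing ↥(locRing B 𝔪) := isLocalRing_locRing
  haveI : Algebra.EssFiniteType R ↥(locRing B 𝔪) := essFiniteType_locRing
  -- the module `E ⧸ 𝔪_W` over the local ring and the induced derivation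
  obtain ⟨N, D', hN, hD'⟩ : ∃ (N : Submodule ↥(locRing B 𝔪) E)
      (D' : Derivation R ↥(locRing B 𝔪) (E ⧸ N)), (∀ e, e ∈ N ↔ W.valuation e < 1) ∧
      ∀ a : ↥(locRing B 𝔪), D' a = N.mkQ (D (a : E)) :=
    ⟨valLtSubmodule W hLW, derivModVal W hLW D, fun e => Iff.rfl, fun a => rfl⟩
  -- the ideal of the branch
  obtain ⟨I, hI⟩ : ∃ I : Ideal ↥(locRing B 𝔪), ∀ a, a ∈ I ↔ W.valuation (a : E) < 1 := by
    refine ⟨{ carrier := {a | W.valuation (a : E) < 1}
              add_mem' := ?_
              zero_mem' := ?_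
              smul_mem' := ?_ }, fun a => Iff.rfl⟩
    · intro a b ha hb
      exact (valLtSubmodule W hLW).add_mem ha hb
    · exact (valLtSubmodule W hLW).zero_mem
    · intro c a ha
      exact (valLtSubmodule W hLW).smul_mem c ha
  have hζL : ζ ∈ locRing B 𝔪 := locMax_subset_locRing hζ.mem
  have hτ : (⟨ζ, hζL⟩ : ↥(locRing B 𝔪)) ∈ IsLocalRing.maximalIdeal ↥(locRing B 𝔪) := by
    rw [mem_maximalIdeal_locRing_iff]; exact hζ.mem
  have hres' : ∀ a : ↥(locRing B 𝔪), ∃ (c : R) (b : ↥(locRing B 𝔪)),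
      a - algebraMap R ↥(locRing B 𝔪) c - b * ⟨ζ, hζL⟩ ∈ I := by
    intro a
    obtain ⟨c, hc⟩ := hres (a : E) a.2
    obtain ⟨α, hα, hval⟩ := hζ.gen _ hc
    refine ⟨c, ⟨α, hα⟩, ?_⟩
    rw [hI]
    exact hval
  have hkill : ∀ p ∈ I, D' p = 0 := by
    intro p hp
    rw [hD', Submodule.mkQ_apply, Submodule.Quotient.mk_eq_zero, hN]
    exact hD _ ((hI p).mp hp)
  have key := derivation_mem_span_of_local (R := R) I ⟨ζ, hζL⟩ hτ hres' D' hkill ⟨g, hg⟩
  rw [Submodule.mem_span_singleton] at key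
  obtain ⟨a, ha⟩ := key
  rw [hD', hD', ← LinearMap.map_smul, ← sub_eq_zero, ← map_sub, Submodule.mkQ_apply,
    Submodule.Quotient.mk_eq_zero, hN] at ha
  -- `a * ∂ζ - ∂g ∈ 𝔪_W`
  refine ⟨(a : E) * ν, (locRing B 𝔪).mul_mem a.2 hν, ?_⟩
  have h1 : D g - (a : E) * ν = -((a • D ζ : E) - D g) + (a : E) * (D ζ - ν) := by
    show D g - (a : E) * ν = -((a : E) * D ζ - D g) + (a : E) * (D ζ - ν)
    ring
  rw [h1]
  refine lt_of_le_of_lt (W.valuation.map_add _ _) (max_lt ?_ ?_)
  · rw [Valuation.map_neg]; exact ha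
  · exact (valLtSubmodule W hLW).smul_mem a hζν

end Deriv

end Fermat.Agent.S36
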