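/-
S36 — lead — package [REG1], part 3: **the nodes are regular (abstract form)**.

`B` a chart of finite type over the base `R`, `𝔪` a closed point with residue field the image of
`R`, `Winf`, `W0` the two sheets through `𝔪` (special fibre reduced: `𝔭inf ⊓ 𝔭0 ≤ (π)`),
`x ∈ 𝔭0` a branch uniformizer of `𝔭inf` and `y ∈ 𝔭inf` a branch uniformizer of `𝔭0` at `𝔪`.
Given a derivation `∂` of `E` preserving the maximal ideal of `Winf`, with `∂ ζ ≡ 1` for a local
branch uniformizer `ζ` of `Winf` at `𝔪`, and `∂ y = π (μ - ρ)` with `ρ` regular at `𝔪` and `μ⁻¹`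
vanishing at `𝔪`:

* `node_unit_of_derivation`: `x y = π r` implies `r ∉ 𝔪` (the node has thickness one);
* `node_gen_inf`, `node_gen_zero`: `y` generates `𝔭inf` and `x` generates `𝔭0` locally at `𝔪`.
-/
import Mathlib
import Fermat.Agent.S36.REG1_lead_Loc

set_option autoImplicit false
set_option linter.unusedSectionVars false
set_option linter.style.haveILetI false

namespace Fermat.Agent.S36

open Fermat.Agent.SS

section Node

variable {R : Type*} [CommRing R] {E : Type*} [Field E] [Algebra R E]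
  {B : Subalgebra R E} {𝔪 : Ideal ↥B} [h𝔪 : 𝔪.IsPrime] [Algebra.FiniteType R ↥B]

/-- **the thickness of a node is one.** -/
theorem node_unit_of_derivation (Winf : ValuationSubring E) (hBW : ∀ b ∈ B, b ∈ Winf)
    {𝔭inf : Ideal ↥B} (h𝔭inf : ∀ b : ↥B, b ∈ 𝔭inf ↔ Winf.valuation (b : E) < 1)
    (hle : 𝔭inf ≤ 𝔪)
    (hres : ∀ g ∈ locRing B 𝔪, ∃ c : R, g - algebraMap R E c ∈ locMax B 𝔪)
    {π : R} (hπ0 : algebraMap R E π ≠ 0)
    {x y r : ↥B} (hx : IsBranchUniformizer 𝔭inf 𝔪 x)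
    (hxy : x * y = algebraMap R ↥B π * r)
    {ζ : E} (hζ : IsLocBranch Winf (locRing B 𝔪) (locMax B 𝔪) ζ)
    (D : Derivation R E E) (hD : ∀ e : E, Winf.valuation e < 1 → Winf.valuation (D e) < 1)
    (hDζ : Winf.valuation (D ζ - 1) < 1)
    {μ Z ρ : E} (hρ : ρ ∈ locRing B 𝔪) (hZ : Z ∈ locMax B 𝔪) (hμZ : μ * Z = 1)
    (hDy : D (y : E) = algebraMap R E π * (μ - ρ)) :
    r ∉ 𝔪 := by
  intro hr
  have hLW : ∀ e ∈ locRing B 𝔪, e ∈ Winf := by
    rintro e ⟨a, s, hs, has⟩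
    have hvs : Winf.valuation (s : E) = 1 :=
      valuation_eq_one_of_notMem hBW h𝔭inf (fun h => hs (hle h))
    have hs0 : (s : E) ≠ 0 := fun h0 => by rw [h0, map_zero] at hvs; exact zero_ne_one hvs
    rw [← ValuationSubring.valuation_le_one_iff]
    have : e = (a : E) * (s : E)⁻¹ := by rw [← has, mul_assoc, mul_inv_cancel₀ hs0, mul_one]
    rw [this, map_mul, map_inv₀, hvs, inv_one, mul_one]
    exact (ValuationSubring.valuation_le_one_iff _ _).mpr (hBW _ a.2)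
  have hLM := (sheet_le_iff (B := B) (𝔪 := 𝔪) hBW h𝔭inf).mp hle
  -- `x` is a local branch uniformizer
  have hxloc := hx.isLocBranch hBW h𝔭inf hle
  have hvx : Winf.valuation (x : E) = 1 := valuation_eq_one_of_notMem hBW h𝔭inf hx.notMem
  have hx0 : (x : E) ≠ 0 := fun h0 => by rw [h0, map_zero] at hvx; exact zero_ne_one hvx
  -- `r ≡ α x`
  obtain ⟨α, hα, hrα⟩ := hxloc.gen (r : E) ((coe_mem_locMax_iff r).mpr hr)
  -- `y / π ≡ α`
  have hxyE : (x : E) * (y : E) = algebraMap R E π * (r : E) := by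
    have := congrArg (fun z : ↥B => (z : E)) hxy
    exact this
  have hyπ : (y : E) * (algebraMap R E π)⁻¹ - α = ((r : E) - α * (x : E)) * (x : E)⁻¹ := by
    have hy : (y : E) = algebraMap R E π * (r : E) * (x : E)⁻¹ := by
      rw [← hxyE, mul_comm (x : E), mul_assoc, mul_inv_cancel₀ hx0, mul_one]
    rw [hy]
    field_simp
  have hcong : Winf.valuation ((y : E) * (algebraMap R E π)⁻¹ - α) < 1 := by
    rw [hyπ, map_mul, map_inv₀, hvx, inv_one, mul_one]
    exact hrα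
  -- apply the derivation
  have hDcong := hD _ hcong
  have hDπ : D ((y : E) * (algebraMap R E π)⁻¹ - α) = (μ - ρ) - D α := by
    have h1 : (y : E) * (algebraMap R E π)⁻¹ = (algebraMap R E π)⁻¹ • (y : E) := by
      rw [smul_eq_mul, mul_comm]
    have h2 : D ((algebraMap R E π)⁻¹ • (y : E)) = (algebraMap R E π)⁻¹ • D (y : E) := by
      have h3 : D (algebraMap R E π * ((algebraMap R E π)⁻¹ • (y : E))) = D (y : E) := by
        rw [smul_eq_mul, ← mul_assoc, mul_inv_cancel₀ hπ0, one_mul]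
      rw [Derivation.leibniz, Derivation.map_algebraMap, smul_zero, add_zero] at h3
      rw [← h3, smul_eq_mul, smul_eq_mul, smul_eq_mul, ← mul_assoc, inv_mul_cancel₀ hπ0, one_mul]
    rw [map_sub, h1, h2, hDy, smul_eq_mul, ← mul_assoc, inv_mul_cancel₀ hπ0, one_mul]
  rw [hDπ] at hDcong
  -- `∂ α ≡ β`
  obtain ⟨β, hβ, hαβ⟩ := exists_deriv_cong_of_isLocBranch (R := R) Winf hLW hres hζ D hD
    (ν := 1) (locRing B 𝔪).one_mem hDζ hα
  -- `μ ≡ ρ + β`
  have hμcong : Winf.valuation (μ - (ρ + β)) < 1 := by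
    have : μ - (ρ + β) = ((μ - ρ) - D α) + (D α - β) := by ring
    rw [this]
    exact lt_of_le_of_lt (Winf.valuation.map_add _ _) (max_lt hDcong hαβ)
  -- multiply by `Z = μ⁻¹`
  have hγ : ρ + β ∈ locRing B 𝔪 := (locRing B 𝔪).add_mem hρ hβ
  have hZL : Z ∈ locRing B 𝔪 := locMax_subset_locRing hZ
  have h1 : Winf.valuation (1 - (ρ + β) * Z) < 1 := by
    have : 1 - (ρ + β) * Z = Z * (μ - (ρ + β)) := by rw [mul_sub, mul_comm Z μ, hμZ]; ring
    rw [this, map_mul]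
    calc Winf.valuation Z * Winf.valuation (μ - (ρ + β)) ≤ 1 * Winf.valuation (μ - (ρ + β)) :=
          mul_le_mul_left ((ValuationSubring.valuation_le_one_iff _ _).mpr (hLW _ hZL)) _
      _ < 1 := by rw [one_mul]; exact hμcong
  have h2 : 1 - (ρ + β) * Z ∈ locMax B 𝔪 :=
    hLM _ ((locRing B 𝔪).sub_mem (locRing B 𝔪).one_mem ((locRing B 𝔪).mul_mem hγ hZL)) h1
  have h3 : (ρ + β) * Z ∈ locMax B 𝔪 := mul_mem_locMax hγ hZ
  have h4 : (1 : E) ∈ locMax B 𝔪 := by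
    have : (1 : E) = (1 - (ρ + β) * Z) + (ρ + β) * Z := by ring
    rw [this]
    exact add_mem_locMax h2 h3
  exact one_notMem_locMax (B := B) (𝔪 := 𝔪) h4

omit [Algebra.FiniteType R ↥B] in
/-- **a node of thickness one is a regular point**: `y` generates `𝔭inf` locally at `𝔪`. -/
theorem node_gen_of_unit {𝔭inf 𝔭0 : Ideal ↥B} (hle : 𝔭inf ≤ 𝔪) {π : R}
    (hinf : 𝔭inf ⊓ 𝔭0 ≤ Ideal.span {algebraMap R ↥B π})
    {x y r : ↥B} (hy : IsBranchUniformizer 𝔭0 𝔪 y) (hyinf : y ∈ 𝔭inf)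
    (hxy : x * y = algebraMap R ↥B π * r) (hr : r ∉ 𝔪) :
    ∀ w ∈ 𝔭inf, ∃ s : ↥B, s ∉ 𝔪 ∧ y ∣ s * w := by
  intro w hw
  obtain ⟨a, s, hs, has⟩ := hy.gen w (hle hw)
  have h1 : s * w - a * y ∈ 𝔭inf :=
    𝔭inf.sub_mem (𝔭inf.mul_mem_left _ hw) (𝔭inf.mul_mem_left _ hyinf)
  obtain ⟨b, hb⟩ := Ideal.mem_span_singleton'.mp (hinf ⟨h1, has⟩)
  refine ⟨r * s, fun h => ?_, ⟨r * a + x * b, ?_⟩⟩
  · rcases h𝔪.mem_or_mem h with h | h
    exacts [hr h, hs h]
  · have h2 : r * (s * w - a * y) = x * y * b := by rw [← hb, hxy]; ring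
    linear_combination h2

end Node

end Fermat.Agent.S36
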