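/-
S36 [REG1] — lead — **the nodes of the semistable model are regular** (abstract form over the
interface structure `SSModel`).

Inputs beyond `SSModel`: the base is unramified (`q = π · unit`); a derivation `∂` of `E_N` with
`∂ (A t) = 1`, `∂ (B t) = q μ`, `μ` a unit of `W_∞`, preserving `W_∞` and its maximal ideal; an
Atkin–Lehner automorphism `σ` (fixing the constants and the chart, mapping `W_∞` into `W_0`) with
`q² σ(μ) μ = 1`; `μ` lies in every horizontal valuation subring containing the chart.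

* `SSModel.inv_mu_mem_locMax` : **(A4)** `μ⁻¹` vanishes at every point of the sheet `W_0`;
* `SSModel.node_unit` : at a node, `x y = π r` with `y = B t - (A t)^q` forces `r ∉ 𝔪`;
* `SSModel.node_gen_inf`, `SSModel.node_gen_zero` : `y` generates `𝔭_∞` and `x` generates `𝔭_0`
  locally at the node.
-/
import Mathlib
import Fermat.Agent.S36.REG1_lead_Abs
import Fermat.Agent.SS.NODE_helper8_Model
import Fermat.Agent.SS.HART_helper4
import Fermat.Agent.SS.CUSPHOST_helper8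
import Fermat.Agent.SS.SINFEMB_helper9_One

set_option autoImplicit false
set_option linter.unusedSectionVars false
set_option linter.style.haveILetI false

namespace Fermat.Agent.S36

open Fermat.Agent.SS Fermat.Agent.JA

section Node

variable {R : Type*} [CommRing R] [IsDomain R] [IsDiscreteValuationRing R] [CharZero R]
  {K₁ : Type*} [Field K₁] [Algebra R K₁] [IsFractionRing R K₁]
  {KM : Type*} [Field KM] [Algebra K₁ KM] [Algebra R KM] [IsScalarTower R K₁ KM]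
  {EM : Type*} [Field EM] [Algebra KM EM] [Algebra K₁ EM] [IsScalarTower K₁ KM EM] [Algebra R EM]
  [IsScalarTower R KM EM]
  {KN : Type*} [Field KN] [Algebra K₁ KN] [Algebra R KN] [IsScalarTower R K₁ KN]
  {EN : Type*} [Field EN] [Algebra KN EN] [Algebra K₁ EN] [IsScalarTower K₁ KN EN] [Algebra R EN]
  [IsScalarTower R KN EN] [FiniteDimensional KN EN]
  {π : R} {q n : ℕ} {S : Finset R} {t : KM} {jM : EM} {j : KN} {A B : EM →+* EN}
  {VM : ValuationSubring EM} {Winf W0 : ValuationSubring EN}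

theorem _root_.Fermat.Agent.SS.SSModel.valuation_q_zero_lt_one (h : SSModel K₁ π q n S t jM j A B VM Winf W0)
    (hπ : Irreducible π) : W0.valuation ((q : ℕ) : EN) < 1 := by
  obtain ⟨c, hc⟩ := Ideal.mem_span_singleton.mp h.q_mem
  have h1 : ((q : ℕ) : EN) = algebraMap R EN π * algebraMap R EN c := by
    rw [← map_mul, ← hc, map_natCast]
  have h2 : W0.valuation (algebraMap R EN π) < 1 :=
    (mem_sheetIdeal_iff j W0 h.two.chart_le_zero _).mp (IsTwoSheet.pi_mem_zero (K₁ := K₁) h.two hπ)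
  have h3 : W0.valuation (algebraMap R EN c) ≤ 1 :=
    (ValuationSubring.valuation_le_one_iff _ _).mpr
      (h.two.chart_le_zero _ (algebraMap R ↥(chartOne R EN j) c).2)
  rw [h1, map_mul]
  calc W0.valuation (algebraMap R EN π) * W0.valuation (algebraMap R EN c)
      ≤ W0.valuation (algebraMap R EN π) * 1 := mul_le_mul_right h3 _
    _ < 1 := by rw [mul_one]; exact h2

theorem _root_.Fermat.Agent.SS.SSModel.valuation_q_inf_lt_one (h : SSModel K₁ π q n S t jM j A B VM Winf W0)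
    (hπ : Irreducible π) : Winf.valuation ((q : ℕ) : EN) < 1 := by
  obtain ⟨c, hc⟩ := Ideal.mem_span_singleton.mp h.q_mem
  have h1 : ((q : ℕ) : EN) = algebraMap R EN π * algebraMap R EN c := by
    rw [← map_mul, ← hc, map_natCast]
  have h2 : Winf.valuation (algebraMap R EN π) < 1 :=
    (mem_sheetIdeal_iff j Winf h.two.chart_le_inf _).mp (IsTwoSheet.pi_mem_inf (K₁ := K₁) h.two hπ)
  have h3 : Winf.valuation (algebraMap R EN c) ≤ 1 :=
    (ValuationSubring.valuation_le_one_iff _ _).mpr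
      (h.two.chart_le_inf _ (algebraMap R ↥(chartOne R EN j) c).2)
  rw [h1, map_mul]
  calc Winf.valuation (algebraMap R EN π) * Winf.valuation (algebraMap R EN c)
      ≤ Winf.valuation (algebraMap R EN π) * 1 := mul_le_mul_right h3 _
    _ < 1 := by rw [mul_one]; exact h2

/-- **(A4)**: `Z = μ⁻¹ = q² σ(μ)` lies in the maximal ideal of the local ring of the chart at every
point of the sheet `W_0`. -/
theorem _root_.Fermat.Agent.SS.SSModel.inv_mu_mem_locMax (h : SSModel K₁ π q n S t jM j A B VM Winf W0)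
    (hπ : Irreducible π) (𝔪 : Ideal ↥(chartOne R EN j)) [𝔪.IsPrime]
    (h0 : sheetIdeal j W0 h.two.chart_le_zero ≤ 𝔪)
    (σ : EN →+* EN) (hσK : ∀ a : K₁, σ (algebraMap K₁ EN a) = algebraMap K₁ EN a)
    (hσchart : ∀ b ∈ chartOne R EN j, σ b ∈ chartOne R EN j)
    (hσW : ∀ z ∈ Winf, σ z ∈ W0)
    {μ Z : EN} (hμ : Winf.valuation μ = 1) (hμZ : μ * Z = 1)
    (hZ : Z = ((q : ℕ) : EN) ^ 2 * σ μ)
    (hhor : ∀ V : ValuationSubring EN, (∀ a : K₁, algebraMap K₁ EN a ∈ V) →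
      (∀ b ∈ chartOne R EN j, b ∈ V) → μ ∈ V) :
    Z ∈ locMax (chartOne R EN j) 𝔪 := by
  haveI : IsScalarTower R K₁ EN := IsScalarTower.of_algebraMap_eq (fun r => by
    rw [IsScalarTower.algebraMap_apply R KN EN, IsScalarTower.algebraMap_apply R K₁ KN,
      ← IsScalarTower.algebraMap_apply K₁ KN EN])
  have hμ0 : μ ≠ 0 := fun h0 => by rw [h0, zero_mul] at hμZ; exact zero_ne_one hμZ
  have hZinv : Z = μ⁻¹ := eq_inv_of_mul_eq_one_right hμZ
  have hμW : μ ∈ Winf := (ValuationSubring.valuation_le_one_iff _ _).mp hμ.le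
  have hZinf : Z ∈ Winf := by
    rw [← ValuationSubring.valuation_le_one_iff, hZinv, map_inv₀, hμ, inv_one]
  have hq0 := h.valuation_q_zero_lt_one hπ
  have hσμ : W0.valuation (σ μ) ≤ 1 :=
    (ValuationSubring.valuation_le_one_iff _ _).mpr (hσW μ hμW)
  have hZval : W0.valuation Z < 1 := by
    rw [hZ, map_mul, map_pow]
    calc W0.valuation ((q : ℕ) : EN) ^ 2 * W0.valuation (σ μ)
        ≤ W0.valuation ((q : ℕ) : EN) ^ 2 * 1 := mul_le_mul_right hσμ _
      _ < 1 := by rw [mul_one]; exact pow_lt_one₀ zero_le hq0 two_ne_zero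
  have hZ0 : Z ∈ W0 := (ValuationSubring.valuation_le_one_iff _ _).mp hZval.le
  have hZloc : Z ∈ locRing (chartOne R EN j) 𝔪 := by
    refine h.two.mem_locRing_of_forall hπ h.j_transcendental h.j_adjoin 𝔪 Z (fun _ => hZinf)
      (fun _ => hZ0) (fun V hπV hBV hV𝔪 => ?_)
    have hRV : ∀ r : R, algebraMap R EN r ∈ V := fun r =>
      hBV _ (algebraMap R ↥(chartOne R EN j) r).2
    have hKV : ∀ a : K₁, algebraMap K₁ EN a ∈ V :=
      algebraMap_mem_of_inv_uniformizer_mem hπ V hRV hπV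
    have hqV : ((q : ℕ) : EN) ∈ V := by
      have := hRV ((q : ℕ) : R)
      rwa [map_natCast] at this
    have hσμV : σ μ ∈ V := by
      have := hhor (V.comap σ) (fun a => by
        show σ (algebraMap K₁ EN a) ∈ V
        rw [hσK]; exact hKV a) (fun b hb => hBV _ (hσchart b hb))
      exact this
    rw [hZ]
    exact V.mul_mem _ _ (pow_mem hqV 2) hσμV
  exact (sheet_le_iff h.two.chart_le_zero (mem_sheetIdeal_iff j W0 h.two.chart_le_zero)).mp h0
    Z hZloc hZval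

/-- `Z = μ⁻¹ = q² σ(μ)` is regular at every point of the chart. -/
theorem _root_.Fermat.Agent.SS.SSModel.inv_mu_mem_locRing
    (h : SSModel K₁ π q n S t jM j A B VM Winf W0)
    (hπ : Irreducible π) (𝔪 : Ideal ↥(chartOne R EN j)) [𝔪.IsPrime]
    (σ : EN →+* EN) (hσK : ∀ a : K₁, σ (algebraMap K₁ EN a) = algebraMap K₁ EN a)
    (hσchart : ∀ b ∈ chartOne R EN j, σ b ∈ chartOne R EN j)
    (hσW : ∀ z ∈ Winf, σ z ∈ W0)
    {μ Z : EN} (hμ : Winf.valuation μ = 1) (hμZ : μ * Z = 1)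
    (hZ : Z = ((q : ℕ) : EN) ^ 2 * σ μ)
    (hhor : ∀ V : ValuationSubring EN, (∀ a : K₁, algebraMap K₁ EN a ∈ V) →
      (∀ b ∈ chartOne R EN j, b ∈ V) → μ ∈ V) :
    Z ∈ locRing (chartOne R EN j) 𝔪 := by
  haveI : IsScalarTower R K₁ EN := IsScalarTower.of_algebraMap_eq (fun r => by
    rw [IsScalarTower.algebraMap_apply R KN EN, IsScalarTower.algebraMap_apply R K₁ KN,
      ← IsScalarTower.algebraMap_apply K₁ KN EN])
  have hZinv : Z = μ⁻¹ := eq_inv_of_mul_eq_one_right hμZ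
  have hμW : μ ∈ Winf := (ValuationSubring.valuation_le_one_iff _ _).mp hμ.le
  have hZinf : Z ∈ Winf := by
    rw [← ValuationSubring.valuation_le_one_iff, hZinv, map_inv₀, hμ, inv_one]
  have hq0 := h.valuation_q_zero_lt_one hπ
  have hZ0 : Z ∈ W0 := by
    rw [hZ]
    exact W0.mul_mem _ _ (pow_mem ((ValuationSubring.valuation_le_one_iff _ _).mp hq0.le) 2)
      (hσW μ hμW)
  refine h.two.mem_locRing_of_forall hπ h.j_transcendental h.j_adjoin 𝔪 Z (fun _ => hZinf)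
    (fun _ => hZ0) (fun V hπV hBV hV𝔪 => ?_)
  have hRV : ∀ r : R, algebraMap R EN r ∈ V := fun r =>
    hBV _ (algebraMap R ↥(chartOne R EN j) r).2
  have hKV : ∀ a : K₁, algebraMap K₁ EN a ∈ V :=
    algebraMap_mem_of_inv_uniformizer_mem hπ V hRV hπV
  have hqV : ((q : ℕ) : EN) ∈ V := by
    have := hRV ((q : ℕ) : R)
    rwa [map_natCast] at this
  have hσμV : σ μ ∈ V := by
    have := hhor (V.comap σ) (fun a => by
      show σ (algebraMap K₁ EN a) ∈ V
      rw [hσK]; exact hKV a) (fun b hb => hBV _ (hσchart b hb))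
    exact this
  rw [hZ]
  exact V.mul_mem _ _ (pow_mem hqV 2) hσμV

/-- `μ` is a unit of the local ring at every point of the chart not on the sheet `W_0`. -/
theorem _root_.Fermat.Agent.SS.SSModel.mu_mem_locRing_of_not_le
    (h : SSModel K₁ π q n S t jM j A B VM Winf W0)
    (hπ : Irreducible π) (𝔪 : Ideal ↥(chartOne R EN j)) [𝔪.IsPrime]
    (h0 : ¬ sheetIdeal j W0 h.two.chart_le_zero ≤ 𝔪)
    (σ : EN →+* EN) (hσK : ∀ a : K₁, σ (algebraMap K₁ EN a) = algebraMap K₁ EN a)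
    (hσchart : ∀ b ∈ chartOne R EN j, σ b ∈ chartOne R EN j)
    (hσW : ∀ z ∈ Winf, σ z ∈ W0)
    {μ Z : EN} (hμ : Winf.valuation μ = 1) (hμZ : μ * Z = 1)
    (hZ : Z = ((q : ℕ) : EN) ^ 2 * σ μ)
    (hhor : ∀ V : ValuationSubring EN, (∀ a : K₁, algebraMap K₁ EN a ∈ V) →
      (∀ b ∈ chartOne R EN j, b ∈ V) → μ ∈ V) :
    μ ∈ locRing (chartOne R EN j) 𝔪 ∧ μ ∉ locMax (chartOne R EN j) 𝔪 := by
  haveI : IsScalarTower R K₁ EN := IsScalarTower.of_algebraMap_eq (fun r => by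
    rw [IsScalarTower.algebraMap_apply R KN EN, IsScalarTower.algebraMap_apply R K₁ KN,
      ← IsScalarTower.algebraMap_apply K₁ KN EN])
  have hμW : μ ∈ Winf := (ValuationSubring.valuation_le_one_iff _ _).mp hμ.le
  have hμloc : μ ∈ locRing (chartOne R EN j) 𝔪 := by
    refine h.two.mem_locRing_of_forall hπ h.j_transcendental h.j_adjoin 𝔪 μ (fun _ => hμW)
      (fun hle => absurd hle h0) (fun V hπV hBV hV𝔪 => ?_)
    have hRV : ∀ r : R, algebraMap R EN r ∈ V := fun r =>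
      hBV _ (algebraMap R ↥(chartOne R EN j) r).2
    exact hhor V (algebraMap_mem_of_inv_uniformizer_mem hπ V hRV hπV) hBV
  refine ⟨hμloc, fun hmax => ?_⟩
  have hZloc := h.inv_mu_mem_locRing hπ 𝔪 σ hσK hσchart hσW hμ hμZ hZ hhor
  have h1 : Z * μ ∈ locMax (chartOne R EN j) 𝔪 := mul_mem_locMax hZloc hmax
  rw [mul_comm, hμZ] at h1
  exact one_notMem_locMax (B := chartOne R EN j) (𝔪 := 𝔪) h1

set_option maxHeartbeats 800000 in
/-- **the nodes have thickness one.** -/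
theorem _root_.Fermat.Agent.SS.SSModel.node_unit (h : SSModel K₁ π q n S t jM j A B VM Winf W0)
    (hπ : Irreducible π) [IsAlgClosed (IsLocalRing.ResidueField R)]
    {cq : R} (hcq : IsUnit cq) (hq : ((q : ℕ) : R) = π * cq)
    (D : Derivation R EN EN) (hD1 : ∀ e ∈ Winf, D e ∈ Winf)
    (hD2 : ∀ e : EN, Winf.valuation e < 1 → Winf.valuation (D e) < 1)
    (hDA : D (A (algebraMap KM EM t)) = 1)
    {μ : EN} (hDB : D (B (algebraMap KM EM t)) = ((q : ℕ) : EN) * μ)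
    (hμ : Winf.valuation μ = 1)
    (σ : EN →+* EN) (hσK : ∀ a : K₁, σ (algebraMap K₁ EN a) = algebraMap K₁ EN a)
    (hσchart : ∀ b ∈ chartOne R EN j, σ b ∈ chartOne R EN j)
    (hσW : ∀ z ∈ Winf, σ z ∈ W0)
    (hσμ : ((q : ℕ) : EN) ^ 2 * σ μ * μ = 1)
    (hhor : ∀ V : ValuationSubring EN, (∀ a : K₁, algebraMap K₁ EN a ∈ V) →
      (∀ b ∈ chartOne R EN j, b ∈ V) → μ ∈ V)
    (𝔪 : Ideal ↥(chartOne R EN j)) [h𝔪 : 𝔪.IsMaximal]
    (hinf : sheetIdeal j Winf h.two.chart_le_inf ≤ 𝔪)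
    (h0 : sheetIdeal j W0 h.two.chart_le_zero ≤ 𝔪)
    {x y r : ↥(chartOne R EN j)} {s' : EN} (hs' : s' ∈ Winf)
    (hxs : (x : EN) = A (algebraMap KM EM t) - s' ^ q)
    (hx : IsBranchUniformizer (sheetIdeal j Winf h.two.chart_le_inf) 𝔪 x)
    (hys : (y : EN) = B (algebraMap KM EM t) - A (algebraMap KM EM t) ^ q)
    (hxy : x * y = algebraMap R ↥(chartOne R EN j) π * r) : r ∉ 𝔪 := by
  haveI := h𝔪.isPrime
  haveI : Algebra.FiniteType R ↥(chartOne R EN j) :=
    finiteType_chartOne (R := R) (K₁ := K₁) (E := EN) j h.j_transcendental h.j_adjoin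
  have hπ𝔪 : algebraMap R ↥(chartOne R EN j) π ∈ 𝔪 :=
    hinf (IsTwoSheet.pi_mem_inf (K₁ := K₁) h.two hπ)
  have hresB := exists_sub_mem_of_isMaximal_chartOne (K₁ := K₁) hπ h.j_transcendental h.j_adjoin
    𝔪 hπ𝔪
  have hres : ∀ g ∈ locRing (chartOne R EN j) 𝔪,
      ∃ c : R, g - algebraMap R EN c ∈ locMax (chartOne R EN j) 𝔪 :=
    fun g hg => exists_sub_algebraMap_mem_locMax hresB hg
  have hπ0 : algebraMap R EN π ≠ 0 := algebraMap_pi_ne_zero (K₁ := K₁) (K := KN) hπ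
  have h𝔭inf := mem_sheetIdeal_iff j Winf h.two.chart_le_inf
  have hζ := hx.isLocBranch h.two.chart_le_inf h𝔭inf hinf
  have hqinf := h.valuation_q_inf_lt_one hπ
  have hAt : A (algebraMap KM EM t) ∈ chartOne R EN j := h.A_t_mem
  -- `∂ x ≡ 1`
  have hDx : Winf.valuation (D (x : EN) - 1) < 1 := by
    have e1 : D (x : EN) - 1 = -(((q : ℕ) : EN) * (s' ^ (q - 1) * D s')) := by
      rw [hxs, map_sub, hDA, Derivation.leibniz_pow, nsmul_eq_mul, smul_eq_mul]
      ring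
    rw [e1, Valuation.map_neg, map_mul]
    have h1 : Winf.valuation (s' ^ (q - 1) * D s') ≤ 1 :=
      (ValuationSubring.valuation_le_one_iff _ _).mpr
        (Winf.mul_mem _ _ (pow_mem hs' _) (hD1 _ hs'))
    calc Winf.valuation ((q : ℕ) : EN) * Winf.valuation (s' ^ (q - 1) * D s')
        ≤ Winf.valuation ((q : ℕ) : EN) * 1 := mul_le_mul_right h1 _
      _ < 1 := by rw [mul_one]; exact hqinf
  -- the constant `c_q`
  obtain ⟨u, rfl⟩ := hcq
  have hqE : ((q : ℕ) : EN) = algebraMap R EN π * algebraMap R EN (u : R) := by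
    rw [← map_mul, ← hq, map_natCast]
  have huinv : algebraMap R EN ((u⁻¹ : Rˣ) : R) * algebraMap R EN (u : R) = 1 := by
    rw [← map_mul, Units.inv_mul, map_one]
  -- `Z`
  set Z : EN := ((q : ℕ) : EN) ^ 2 * σ μ with hZdef
  have hμZ : μ * Z = 1 := by rw [hZdef, ← hσμ]; ring
  have hZmem := h.inv_mu_mem_locMax hπ 𝔪 h0 σ hσK hσchart hσW hμ hμZ hZdef hhor
  have hcloc : ∀ c : R, algebraMap R EN c ∈ locRing (chartOne R EN j) 𝔪 := fun c =>
    coe_mem_locRing (algebraMap R ↥(chartOne R EN j) c)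
  refine node_unit_of_derivation Winf h.two.chart_le_inf h𝔭inf hinf hres hπ0 hx hxy hζ D hD2 hDx
    (μ := algebraMap R EN (u : R) * μ) (Z := algebraMap R EN ((u⁻¹ : Rˣ) : R) * Z)
    (ρ := algebraMap R EN (u : R) * A (algebraMap KM EM t) ^ (q - 1)) ?_ ?_ ?_ ?_
  · exact (locRing (chartOne R EN j) 𝔪).mul_mem (hcloc _)
      (pow_mem (coe_mem_locRing (⟨_, hAt⟩ : ↥(chartOne R EN j))) _)
  · exact mul_mem_locMax (hcloc _) hZmem
  · have : algebraMap R EN (u : R) * μ * (algebraMap R EN ((u⁻¹ : Rˣ) : R) * Z) =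
        (algebraMap R EN ((u⁻¹ : Rˣ) : R) * algebraMap R EN (u : R)) * (μ * Z) := by ring
    rw [this, huinv, hμZ, one_mul]
  · rw [hys, map_sub, hDB, Derivation.leibniz_pow, hDA, nsmul_eq_mul, smul_eq_mul, mul_one, hqE]
    ring

/-- the node uniformizers of the chart `j` in explicit form: `x = A t - s'^q`,
`y = B t - (A t)^q`. -/
theorem _root_.Fermat.Agent.SS.SSModel.exists_node_uniformizers_explicit
    (h : SSModel K₁ π q n S t jM j A B VM Winf W0)
    (hπ : Irreducible π) [IsAlgClosed (IsLocalRing.ResidueField R)]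
    (hjq : B jM ∈ chartOne R EN j) :
    ∃ s' : EN, s' ∈ chartOne R EN j ∧ ∃ x y : ↥(chartOne R EN j),
      (x : EN) = A (algebraMap KM EM t) - s' ^ q ∧
      (y : EN) = B (algebraMap KM EM t) - A (algebraMap KM EM t) ^ q ∧
      x ∈ sheetIdeal j W0 h.two.chart_le_zero ∧ y ∈ sheetIdeal j Winf h.two.chart_le_inf ∧
      ∀ (𝔪 : Ideal ↥(chartOne R EN j)) [𝔪.IsMaximal],
        sheetIdeal j Winf h.two.chart_le_inf ≤ 𝔪 → sheetIdeal j W0 h.two.chart_le_zero ≤ 𝔪 →
        IsBranchUniformizer (sheetIdeal j Winf h.two.chart_le_inf) 𝔪 x ∧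
        IsBranchUniformizer (sheetIdeal j W0 h.two.chart_le_zero) 𝔪 y := by
  obtain ⟨s', -, hs'int, -, hs'0, -⟩ := h.kron_t_zero
  have hs'mem : s' ∈ chartOne R EN j := h.mem_chartOne_of_isIntegral_jq hjq hs'int
  set τA : ↥(chartOne R EN j) := ⟨A (algebraMap KM EM t), h.A_t_mem⟩ with hτA
  set τB : ↥(chartOne R EN j) := ⟨B (algebraMap KM EM t), h.B_t_mem hjq⟩ with hτB
  set σ' : ↥(chartOne R EN j) := ⟨s', hs'mem⟩ with hσ'
  have hx : τA - σ' ^ q ∈ sheetIdeal j W0 h.two.chart_le_zero := by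
    rw [mem_sheetIdeal_iff]
    exact hs'0
  have hy : τB - τA ^ q ∈ sheetIdeal j Winf h.two.chart_le_inf := by
    rw [mem_sheetIdeal_iff]
    exact h.kron_t_inf
  refine ⟨s', hs'mem, τA - σ' ^ q, τB - τA ^ q, rfl, rfl, hx, hy, ?_⟩
  intro 𝔪 h𝔪 hinf h0
  haveI := h𝔪.isPrime
  obtain ⟨a, yA, sA, hsA, hyA, hbrA⟩ := h.exists_branch_inf_one 𝔪 hinf
  obtain ⟨b, yB, sB, hsB, hyB, hbrB⟩ := h.exists_branch_zero_one hjq 𝔪 h0
  have hπ𝔪 : algebraMap R ↥(chartOne R EN j) π ∈ 𝔪 :=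
    hinf (IsTwoSheet.pi_mem_inf (K₁ := K₁) h.two hπ)
  have hres := exists_sub_mem_of_isMaximal_chartOne (K₁ := K₁) hπ h.j_transcendental h.j_adjoin
    𝔪 hπ𝔪
  have hRinf : ∀ r : R, algebraMap R ↥(chartOne R EN j) r ∈ 𝔪 →
      algebraMap R ↥(chartOne R EN j) r ∈ sheetIdeal j Winf h.two.chart_le_inf := by
    intro r hr
    obtain ⟨c, rfl⟩ := algebraMap_mem_span_of_mem_maximal hπ 𝔪 hr
    rw [map_mul]
    exact Ideal.mul_mem_right _ _ (IsTwoSheet.pi_mem_inf (K₁ := K₁) h.two hπ)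
  have hR0 : ∀ r : R, algebraMap R ↥(chartOne R EN j) r ∈ 𝔪 →
      algebraMap R ↥(chartOne R EN j) r ∈ sheetIdeal j W0 h.two.chart_le_zero := by
    intro r hr
    obtain ⟨c, rfl⟩ := algebraMap_mem_span_of_mem_maximal hπ 𝔪 hr
    rw [map_mul]
    exact Ideal.mul_mem_right _ _ (IsTwoSheet.pi_mem_zero (K₁ := K₁) h.two hπ)
  obtain ⟨c, hc⟩ := Ideal.mem_span_singleton.mp h.q_mem
  have hqc : ((q : ℕ) : ↥(chartOne R EN j)) =
      algebraMap R ↥(chartOne R EN j) π * algebraMap R ↥(chartOne R EN j) c := by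
    rw [← map_mul, ← hc, map_natCast]
  have hqinf : ((q : ℕ) : ↥(chartOne R EN j)) ∈ sheetIdeal j Winf h.two.chart_le_inf := by
    rw [hqc]
    exact Ideal.mul_mem_right _ _ (IsTwoSheet.pi_mem_inf (K₁ := K₁) h.two hπ)
  have hq0 : ((q : ℕ) : ↥(chartOne R EN j)) ∈ sheetIdeal j W0 h.two.chart_le_zero := by
    rw [hqc]
    exact Ideal.mul_mem_right _ _ (IsTwoSheet.pi_mem_zero (K₁ := K₁) h.two hπ)
  have hyA' : (τA - algebraMap R ↥(chartOne R EN j) a) * sA = yA := by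
    apply Subtype.ext
    rw [← hyA]
    rfl
  have hyB' : (τB - algebraMap R ↥(chartOne R EN j) b) * sB = yB := by
    apply Subtype.ext
    rw [← hyB]
    rfl
  exact exists_node_uniformizers_of_kron hinf h0 h.q_prime hqinf hq0 hres hRinf hR0
    hx hy hsA hyA' hbrA hsB hyB' hbrB

/-- **the conclusion of [REG1]**: the nodes of the chart `j` are regular points, with local
equations `x = A t - s'^q` of `𝔭_0` and `y = B t - (A t)^q` of `𝔭_∞`, `x y = π r`, `r` a unit at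
every node. -/
def _root_.Fermat.Agent.SS.SSModel.NodeRegular
    (h : SSModel K₁ π q n S t jM j A B VM Winf W0) : Prop :=
    ∃ s' : EN, s' ∈ chartOne R EN j ∧ ∃ x y r : ↥(chartOne R EN j),
      (x : EN) = A (algebraMap KM EM t) - s' ^ q ∧
      (y : EN) = B (algebraMap KM EM t) - A (algebraMap KM EM t) ^ q ∧
      x ∈ sheetIdeal j W0 h.two.chart_le_zero ∧ y ∈ sheetIdeal j Winf h.two.chart_le_inf ∧
      x * y = algebraMap R ↥(chartOne R EN j) π * r ∧
      ∀ (𝔪 : Ideal ↥(chartOne R EN j)) [𝔪.IsMaximal],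
        sheetIdeal j Winf h.two.chart_le_inf ≤ 𝔪 → sheetIdeal j W0 h.two.chart_le_zero ≤ 𝔪 →
        IsBranchUniformizer (sheetIdeal j Winf h.two.chart_le_inf) 𝔪 x ∧
        IsBranchUniformizer (sheetIdeal j W0 h.two.chart_le_zero) 𝔪 y ∧ r ∉ 𝔪 ∧
        (∀ w ∈ sheetIdeal j Winf h.two.chart_le_inf, ∃ s : ↥(chartOne R EN j), s ∉ 𝔪 ∧ y ∣ s * w) ∧
        (∀ w ∈ sheetIdeal j W0 h.two.chart_le_zero, ∃ s : ↥(chartOne R EN j), s ∉ 𝔪 ∧ x ∣ s * w)

/-- **[REG1] the nodes of the chart `j` are regular points with local equations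
`x = A t - s'^q` of `𝔭_0` and `y = B t - (A t)^q` of `𝔭_∞`.** -/
theorem _root_.Fermat.Agent.SS.SSModel.node_regular
    (h : SSModel K₁ π q n S t jM j A B VM Winf W0)
    (hπ : Irreducible π) [IsAlgClosed (IsLocalRing.ResidueField R)]
    (hjq : B jM ∈ chartOne R EN j)
    {cq : R} (hcq : IsUnit cq) (hq : ((q : ℕ) : R) = π * cq)
    (D : Derivation R EN EN) (hD1 : ∀ e ∈ Winf, D e ∈ Winf)
    (hD2 : ∀ e : EN, Winf.valuation e < 1 → Winf.valuation (D e) < 1)
    (hDA : D (A (algebraMap KM EM t)) = 1)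
    {μ : EN} (hDB : D (B (algebraMap KM EM t)) = ((q : ℕ) : EN) * μ)
    (hμ : Winf.valuation μ = 1)
    (σ : EN →+* EN) (hσK : ∀ a : K₁, σ (algebraMap K₁ EN a) = algebraMap K₁ EN a)
    (hσchart : ∀ b ∈ chartOne R EN j, σ b ∈ chartOne R EN j)
    (hσW : ∀ z ∈ Winf, σ z ∈ W0)
    (hσμ : ((q : ℕ) : EN) ^ 2 * σ μ * μ = 1)
    (hhor : ∀ V : ValuationSubring EN, (∀ a : K₁, algebraMap K₁ EN a ∈ V) →
      (∀ b ∈ chartOne R EN j, b ∈ V) → μ ∈ V) :
    h.NodeRegular := by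
  obtain ⟨s', hs', x, y, hxs, hys, hx0, hyinf, hnode⟩ := h.exists_node_uniformizers_explicit hπ hjq
  have hspan := h.two.inf_le_span hπ h.j_transcendental h.j_adjoin
  have hxy : x * y ∈ sheetIdeal j Winf h.two.chart_le_inf ⊓ sheetIdeal j W0 h.two.chart_le_zero :=
    ⟨Ideal.mul_mem_left _ _ hyinf, Ideal.mul_mem_right _ _ hx0⟩
  obtain ⟨r, hr⟩ := Ideal.mem_span_singleton'.mp (hspan hxy)
  have hxy' : x * y = algebraMap R ↥(chartOne R EN j) π * r := by rw [← hr, mul_comm]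
  refine ⟨s', hs', x, y, r, hxs, hys, hx0, hyinf, hxy', ?_⟩
  intro 𝔪 h𝔪 hinf h0
  haveI := h𝔪.isPrime
  obtain ⟨hbx, hby⟩ := hnode 𝔪 hinf h0
  have hr𝔪 : r ∉ 𝔪 := h.node_unit hπ hcq hq D hD1 hD2 hDA hDB hμ σ hσK hσchart hσW hσμ hhor 𝔪
    hinf h0 (h.two.chart_le_inf _ hs') hxs hbx hys hxy'
  refine ⟨hbx, hby, hr𝔪, ?_, ?_⟩
  · exact node_gen_of_unit hinf hspan hby hyinf hxy' hr𝔪
  · have hspan' : sheetIdeal j W0 h.two.chart_le_zero ⊓ sheetIdeal j Winf h.two.chart_le_inf ≤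
        Ideal.span {algebraMap R ↥(chartOne R EN j) π} := by rw [inf_comm]; exact hspan
    have hyx : y * x = algebraMap R ↥(chartOne R EN j) π * r := by rw [mul_comm]; exact hxy'
    exact node_gen_of_unit h0 hspan' hbx hx0 hyx hr𝔪

end Node

end Fermat.Agent.S36
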