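/-
S36 [POINTS36] — helper3 — **(P5): the local equation at the three-sheet points (`hLE3`) from the
regularity of the nodes of level `M'q`** ([REG1]).

At a three-sheet point `𝔫` of the chart `j₂`, the point `𝔫.comap β` of the chart `j₁` is a node;
if `y` is a local equation of `𝔭_∞ = W10` at that node which is a unit of `W01`, then `β y` is a
local equation of the sheet `W20` at `𝔫`: it is a uniformizer of `W20` (`e = 1`), a unit on `W11`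
and `W02` (which restrict to `W01` along `β`), and no horizontal prime through `𝔫` contains it
(its contraction would contain `y`, which divides `s π` with `s` a unit at the node).
-/
import Mathlib
import Fermat.Agent.S36.POINTS36_helper3_Final
import Fermat.Agent.S36.REG1_lead_Node

set_option autoImplicit false
set_option linter.unusedSectionVars false
set_option linter.style.haveILetI false

namespace Fermat.Agent.S36

open Fermat.Agent.SS Fermat.Agent.JA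

section Node

variable {R : Type*} [CommRing R] [IsDomain R] [IsDiscreteValuationRing R] [CharZero R]
  {K₁ : Type*} [Field K₁] [Algebra R K₁] [IsFractionRing R K₁]
  {KN₁ : Type*} [Field KN₁] [Algebra K₁ KN₁] [Algebra R KN₁] [IsScalarTower R K₁ KN₁]
  {E₁ : Type*} [Field E₁] [Algebra KN₁ E₁] [Algebra R E₁] [IsScalarTower R KN₁ E₁]
  [FiniteDimensional KN₁ E₁]
  {KN₂ : Type*} [Field KN₂] [Algebra K₁ KN₂] [Algebra R KN₂] [IsScalarTower R K₁ KN₂]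
  {E : Type*} [Field E] [Algebra KN₂ E] [Algebra R E] [IsScalarTower R KN₂ E]
  [FiniteDimensional KN₂ E]
  {π : R} {j₁ : KN₁} {j₂ : KN₂} {W10 W01 : ValuationSubring E₁} {W : Fin 3 → ValuationSubring E}

/-- **`hLE3` from the regularity of the nodes of level `M'q`.** -/
theorem exists_local_equation_three_of_node (hπ : Irreducible π)
    (hj₂ : Transcendental K₁ j₂) (hKj₂ : IntermediateField.adjoin K₁ {j₂} = ⊤)
    (h2 : IsTwoSheet π j₁ W10 W01)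
    (fam : IsSheetFamily π j₂ W) (β : E₁ →+* E)
    (hβR : ∀ r : R, β (algebraMap R E₁ r) = algebraMap R E r)
    (hβB : ∀ b ∈ chartOne R E₁ j₁, β b ∈ chartOne R E j₂)
    (hβ0 : (W 0).comap β = W10) (hβ1 : (W 1).comap β = W01) (hβ2 : (W 2).comap β = W01)
    (he0 : ∀ x : E, (W 0).valuation x < 1 → x * (algebraMap R E π)⁻¹ ∈ W 0)
    (hnode : ∀ (𝔪 : Ideal ↥(chartOne R E₁ j₁)) [𝔪.IsMaximal],
      sheetIdeal j₁ W10 h2.chart_le_inf ≤ 𝔪 → sheetIdeal j₁ W01 h2.chart_le_zero ≤ 𝔪 →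
      ∃ y : ↥(chartOne R E₁ j₁), y ∈ sheetIdeal j₁ W10 h2.chart_le_inf ∧
        y ∉ sheetIdeal j₁ W01 h2.chart_le_zero ∧
        ∀ w ∈ sheetIdeal j₁ W10 h2.chart_le_inf,
          ∃ s : ↥(chartOne R E₁ j₁), s ∉ 𝔪 ∧ y ∣ s * w)
    (hβmax : ∀ (𝔫 : Ideal ↥(chartOne R E j₂)), 𝔫.IsMaximal →
      (𝔫.comap (chartRestrictHom (B' := chartOne R E₁ j₁) (B := chartOne R E j₂) β hβB)).IsMaximal)
    (𝔫 : Ideal ↥(chartOne R E j₂)) (h𝔫 : 𝔫.IsMaximal)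
    (hall : ∀ l, sheetIdeal j₂ (W l) (fam.chart_le l) ≤ 𝔫) :
    ∃ (l₁ : Fin 3) (z : ↥(chartOne R E j₂)), z ∈ sheetIdeal j₂ (W l₁) (fam.chart_le l₁) ∧
      z ≠ 0 ∧ ∀ w ∈ sheetIdeal j₂ (W l₁) (fam.chart_le l₁),
        ∃ s : ↥(chartOne R E j₂), s ∉ 𝔫 ∧ z ∣ s * w := by
  classical
  haveI := h𝔫
  haveI h𝔫p : 𝔫.IsPrime := h𝔫.isPrime
  set ψβ := chartRestrictHom (B' := chartOne R E₁ j₁) (B := chartOne R E j₂) β hβB with hψβ
  have hcm : ∀ {V : ValuationSubring E} {V' : ValuationSubring E₁},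
      V.comap β = V' → ∀ x : E₁, x ∈ V' ↔ β x ∈ V := by
    intro V V' h x
    rw [← h]
    exact ValuationSubring.mem_comap
  -- the image point is a node
  haveI hmβ : (𝔫.comap ψβ).IsMaximal := hβmax 𝔫 h𝔫
  have hB10 : sheetIdeal j₁ W10 h2.chart_le_inf ≤ 𝔫.comap ψβ := by
    intro b hb
    rw [Ideal.mem_comap]
    refine hall 0 ?_
    rw [mem_sheetIdeal_iff]
    exact (valuation_lt_one_iff_of_comap β (hcm hβ0) (b : E₁)).mp
      ((mem_sheetIdeal_iff j₁ W10 h2.chart_le_inf b).mp hb)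
  have hB01 : sheetIdeal j₁ W01 h2.chart_le_zero ≤ 𝔫.comap ψβ := by
    intro b hb
    rw [Ideal.mem_comap]
    refine hall 2 ?_
    rw [mem_sheetIdeal_iff]
    exact (valuation_lt_one_iff_of_comap β (hcm hβ2) (b : E₁)).mp
      ((mem_sheetIdeal_iff j₁ W01 h2.chart_le_zero b).mp hb)
  obtain ⟨y, hy10, hy01, hygen⟩ := hnode (𝔫.comap ψβ) hB10 hB01
  have hy0 : y ≠ 0 := by
    rintro rfl
    exact hy01 (Ideal.zero_mem _)
  have hyE : (y : E₁) ≠ 0 := fun h => hy0 (Subtype.ext h)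
  have hzE : β (y : E₁) ≠ 0 := (map_ne_zero β).mpr hyE
  -- `π` is a multiple of `y` up to a unit at the node
  have hπ10 : algebraMap R ↥(chartOne R E₁ j₁) π ∈ sheetIdeal j₁ W10 h2.chart_le_inf :=
    IsTwoSheet.pi_mem_inf (K₁ := K₁) h2 hπ
  obtain ⟨s, hs, c, hc⟩ := hygen _ hπ10
  have hcE : (s : E₁) * algebraMap R E₁ π = (y : E₁) * (c : E₁) :=
    congrArg (fun b : ↥(chartOne R E₁ j₁) => (b : E₁)) hc
  -- the valuations of `β y`
  have hval_other : ∀ l : Fin 3, (W l).comap β = W01 → (W l).valuation (β (y : E₁)) = 1 := by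
    intro l hl
    have h1 : ¬ (W l).valuation (β (y : E₁)) < 1 := fun h =>
      hy01 ((mem_sheetIdeal_iff j₁ W01 h2.chart_le_zero y).mpr
        ((valuation_lt_one_iff_of_comap β (hcm hl) (y : E₁)).mpr h))
    have h2' : (W l).valuation (β (y : E₁)) ≤ 1 :=
      (ValuationSubring.valuation_le_one_iff _ _).mpr ((hcm hl _).mp (h2.chart_le_zero _ y.2))
    exact le_antisymm h2' (not_lt.mp h1)
  refine ⟨0, ψβ y, ?_, ?_, ?_⟩
  · rw [mem_sheetIdeal_iff]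
    exact (valuation_lt_one_iff_of_comap β (hcm hβ0) (y : E₁)).mp
      ((mem_sheetIdeal_iff j₁ W10 h2.chart_le_inf y).mp hy10)
  · intro h0
    exact hzE (congrArg (fun b : ↥(chartOne R E j₂) => (b : E)) h0)
  · refine exists_dvd_of_local_equation fam hπ hj₂ hKj₂ 𝔫 0 ?_ ?_ ?_ ?_
    · intro h0
      exact hzE (congrArg (fun b : ↥(chartOne R E j₂) => (b : E)) h0)
    · -- `β y` is a uniformizer of `W 0`
      intro x hx
      have hs1 : (W 0).valuation (β (s : E₁)) = 1 := by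
        have h1 : ¬ (W 0).valuation (β (s : E₁)) < 1 := fun h =>
          hs (hB10 ((mem_sheetIdeal_iff j₁ W10 h2.chart_le_inf s).mpr
            ((valuation_lt_one_iff_of_comap β (hcm hβ0) (s : E₁)).mpr h)))
        have h2' : (W 0).valuation (β (s : E₁)) ≤ 1 :=
          (ValuationSubring.valuation_le_one_iff _ _).mpr ((hcm hβ0 _).mp (h2.chart_le_inf _ s.2))
        exact le_antisymm h2' (not_lt.mp h1)
      have hπE : algebraMap R E π ≠ 0 := algebraMap_pi_ne_zero (K₁ := K₁) (K := KN₂) hπ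
      have hsE : β (s : E₁) ≠ 0 := by
        intro h0
        rw [h0, map_zero] at hs1
        exact zero_ne_one hs1
      -- `π / β y = β c / β s`
      have hβeq : β (s : E₁) * algebraMap R E π = β (y : E₁) * β (c : E₁) := by
        rw [← hβR, ← map_mul, ← map_mul, hcE]
      have hquot : algebraMap R E π * (β (y : E₁))⁻¹ = β (c : E₁) * (β (s : E₁))⁻¹ := by
        field_simp
        rw [mul_comm, hβeq, mul_comm]
      have hmem : algebraMap R E π * (β (y : E₁))⁻¹ ∈ W 0 := by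
        rw [hquot, ← ValuationSubring.valuation_le_one_iff, map_mul, map_inv₀, hs1, inv_one,
          mul_one]
        exact (ValuationSubring.valuation_le_one_iff _ _).mpr
          ((hcm hβ0 _).mp (h2.chart_le_inf _ c.2))
      have hx' := (W 0).mul_mem _ _ (he0 x hx) hmem
      have : x * (algebraMap R E π)⁻¹ * (algebraMap R E π * (β (y : E₁))⁻¹) =
          x * (β (y : E₁))⁻¹ := by
        field_simp
      rw [this] at hx'
      exact hx'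
    · intro l hl _
      fin_cases l
      · exact absurd rfl hl
      · exact hval_other 1 hβ1
      · exact hval_other 2 hβ2
    · -- no horizontal prime through `𝔫` contains `β y`
      intro 𝔮 h𝔮 _ hπ𝔮 hle hz𝔮
      haveI := h𝔮
      have h1 : ψβ (s * algebraMap R ↥(chartOne R E₁ j₁) π) ∈ 𝔮 := by
        rw [hc, map_mul]
        exact Ideal.mul_mem_right _ _ hz𝔮
      rw [map_mul] at h1
      rcases h𝔮.mem_or_mem h1 with h | h
      · exact hs (Ideal.mem_comap.mpr (hle h))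
      · apply hπ𝔮
        have h3 : ψβ (algebraMap R ↥(chartOne R E₁ j₁) π) = algebraMap R ↥(chartOne R E j₂) π :=
          Subtype.ext (hβR π)
        rwa [h3] at h

set_option maxHeartbeats 1600000 in
/-- **the hypothesis `hpoints` of `base36_abs`**, with the local equation at the three-sheet points
replaced by the regularity of the nodes of level `M'q` (`hnode`). -/
theorem points36_of_node [IsAlgClosed (IsLocalRing.ResidueField R)] (hπ : Irreducible π)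
    (hj₁ : Transcendental K₁ j₁) (hKj₁ : IntermediateField.adjoin K₁ {j₁} = ⊤)
    (hj₂ : Transcendental K₁ j₂) (hKj₂ : IntermediateField.adjoin K₁ {j₂} = ⊤)
    (h2 : IsTwoSheet π j₁ W10 W01)
    (hmod : IsModelChart E₁ π (sheetIdeal j₁ W10 h2.chart_le_inf)
      (sheetIdeal j₁ W01 h2.chart_le_zero))
    (fam : IsSheetFamily π j₂ W) (fam' : IsSheetFamily π j₂⁻¹ W) (α β : E₁ →+* E)
    (hαR : ∀ r : R, α (algebraMap R E₁ r) = algebraMap R E r)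
    (hβR : ∀ r : R, β (algebraMap R E₁ r) = algebraMap R E r)
    (hαB : ∀ b ∈ chartOne R E₁ j₁, α b ∈ chartOne R E j₂)
    (hβB : ∀ b ∈ chartOne R E₁ j₁, β b ∈ chartOne R E j₂)
    (hαint : (chartRestrictHom (B' := chartOne R E₁ j₁) (B := chartOne R E j₂) α hαB).IsIntegral)
    (hβint : (chartRestrictHom (B' := chartOne R E₁ j₁) (B := chartOne R E j₂) β hβB).IsIntegral)
    (hα0 : (W 0).comap α = W10) (hα1 : (W 1).comap α = W10) (hα2 : (W 2).comap α = W01)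
    (hβ0 : (W 0).comap β = W10) (hβ1 : (W 1).comap β = W01) (hβ2 : (W 2).comap β = W01)
    {q : ℕ} (hq : 0 < q)
    (hinsα : ∀ x ∈ W 2, ∃ a ∈ W01, (W 2).valuation (x ^ q - α a) < 1)
    (hinsβ : ∀ x ∈ W 0, ∃ a ∈ W10, (W 0).valuation (x ^ q - β a) < 1)
    (hresα0 : ∀ x ∈ W 0, ∃ a ∈ W10, (W 0).valuation (x - α a) < 1)
    (hresα1 : ∀ x ∈ W 1, ∃ a ∈ W10, (W 1).valuation (x - α a) < 1)
    (hresβ1 : ∀ x ∈ W 1, ∃ a ∈ W01, (W 1).valuation (x - β a) < 1)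
    (hresβ2 : ∀ x ∈ W 2, ∃ a ∈ W01, (W 2).valuation (x - β a) < 1)
    (he0 : ∀ x : E, (W 0).valuation x < 1 → x * (algebraMap R E π)⁻¹ ∈ W 0)
    (he2 : ∀ x : E, (W 2).valuation x < 1 → x * (algebraMap R E π)⁻¹ ∈ W 2)
    -- local equations on the chart `j₂`: `W11`-only points; nodes of level `M'q`
    (hLE1 : ∀ (𝔫 : Ideal ↥(chartOne R E j₂)) (_ : 𝔫.IsMaximal),
      sheetIdeal j₂ (W 1) (fam.chart_le 1) ≤ 𝔫 →
      (∀ l, sheetIdeal j₂ (W l) (fam.chart_le l) ≤ 𝔫 → l = 1) →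
      ∃ z : ↥(chartOne R E j₂), z ∈ sheetIdeal j₂ (W 1) (fam.chart_le 1) ∧ z ≠ 0 ∧
        ∀ w ∈ sheetIdeal j₂ (W 1) (fam.chart_le 1),
          ∃ s : ↥(chartOne R E j₂), s ∉ 𝔫 ∧ z ∣ s * w)
    (hnode : ∀ (𝔪 : Ideal ↥(chartOne R E₁ j₁)) [𝔪.IsMaximal],
      sheetIdeal j₁ W10 h2.chart_le_inf ≤ 𝔪 → sheetIdeal j₁ W01 h2.chart_le_zero ≤ 𝔪 →
      ∃ y : ↥(chartOne R E₁ j₁), y ∈ sheetIdeal j₁ W10 h2.chart_le_inf ∧
        y ∉ sheetIdeal j₁ W01 h2.chart_le_zero ∧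
        ∀ w ∈ sheetIdeal j₁ W10 h2.chart_le_inf,
          ∃ s : ↥(chartOne R E₁ j₁), s ∉ 𝔪 ∧ y ∣ s * w)
    -- the cusps of the chart `j₂⁻¹`
    (hcusp : ∀ (𝔫 : Ideal ↥(chartOne R E j₂⁻¹)) (_ : 𝔫.IsMaximal),
      algebraMap R ↥(chartOne R E j₂⁻¹) π ∈ 𝔫 →
      (⟨algebraMap KN₂ E j₂⁻¹, algebraMap_coord_mem_chartOne j₂⁻¹⟩ : ↥(chartOne R E j₂⁻¹)) ∈ 𝔫 →
      ∃ (l₀ : Fin 3) (z v : ↥(chartOne R E j₂⁻¹)),
        sheetIdeal j₂⁻¹ (W l₀) (fam'.chart_le l₀) ≤ 𝔫 ∧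
        (∀ l, sheetIdeal j₂⁻¹ (W l) (fam'.chart_le l) ≤ 𝔫 → l = l₀) ∧
        z ∈ sheetIdeal j₂⁻¹ (W l₀) (fam'.chart_le l₀) ∧ z ≠ 0 ∧
        (∀ w ∈ sheetIdeal j₂⁻¹ (W l₀) (fam'.chart_le l₀),
          ∃ s : ↥(chartOne R E j₂⁻¹), s ∉ 𝔫 ∧ z ∣ s * w) ∧
        IsBranchUniformizer (sheetIdeal j₂⁻¹ (W l₀) (fam'.chart_le l₀)) 𝔫 v)
    -- the norms
    {m : ℕ} (hm : 0 < m) (NA NB : E →* E₁)
    (hNlocA : ∀ (𝔫 : Ideal ↥(chartOne R E j₂)) [𝔫.IsPrime]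
      (𝔫₁ : Ideal ↥(chartOne R E₁ j₁)) [h𝔫₁ : 𝔫₁.IsMaximal],
      (∀ b : ↥(chartOne R E₁ j₁), b ∈ 𝔫₁ ↔
        (⟨α b, hαB b b.2⟩ : ↥(chartOne R E j₂)) ∈ 𝔫) →
      (∀ Q : Ideal ↥(chartOne R E j₂), Q.IsPrime → (∀ b : ↥(chartOne R E₁ j₁), b ∈ 𝔫₁ ↔
        (⟨α b, hαB b b.2⟩ : ↥(chartOne R E j₂)) ∈ Q) → Q ≤ 𝔫) →
      ∀ x ∈ locRing (chartOne R E j₂) 𝔫,
        NA x ∈ @locRing R _ E₁ _ _ (chartOne R E₁ j₁) 𝔫₁ h𝔫₁.isPrime)
    (hNlocB : ∀ (𝔫 : Ideal ↥(chartOne R E j₂)) [𝔫.IsPrime]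
      (𝔫₁ : Ideal ↥(chartOne R E₁ j₁)) [h𝔫₁ : 𝔫₁.IsMaximal],
      (∀ b : ↥(chartOne R E₁ j₁), b ∈ 𝔫₁ ↔
        (⟨β b, hβB b b.2⟩ : ↥(chartOne R E j₂)) ∈ 𝔫) →
      (∀ Q : Ideal ↥(chartOne R E j₂), Q.IsPrime → (∀ b : ↥(chartOne R E₁ j₁), b ∈ 𝔫₁ ↔
        (⟨β b, hβB b b.2⟩ : ↥(chartOne R E j₂)) ∈ Q) → Q ≤ 𝔫) →
      ∀ x ∈ locRing (chartOne R E j₂) 𝔫,
        NB x ∈ @locRing R _ E₁ _ _ (chartOne R E₁ j₁) 𝔫₁ h𝔫₁.isPrime) :
    ∀ (G₁ : E) (lam : Fin 3 → E) (ζ20 ζ11 : R), G₁ ≠ 0 → (∀ i, lam i ≠ 0) →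
      ζ20 ^ m = 1 → ζ11 ^ m = 1 →
      (∀ i, (W i).valuation (G₁ / lam i ^ m - 1) < 1) →
      HorPow36 (K₁ := K₁) j₂ hKj₂ π m G₁ →
      HorPow36 (K₁ := K₁) j₂⁻¹ (adjoin_inv_eq_top hKj₂) π m G₁ →
      ToricRel36 α β NA NB (W 0) (W 1) (W 2) (q - 1) m G₁ (lam 0) (lam 1) (lam 2) ζ20 ζ11 →
      (∀ (𝔫 : Ideal ↥(chartOne R E j₂)) (h𝔫 : 𝔫.IsMaximal),
        algebraMap R ↥(chartOne R E j₂) π ∈ 𝔫 →
        @SheetDatumAt R _ E _ _ (chartOne R E j₂) (Fin 3)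
          (fun i => sheetIdeal j₂ (W i) (fam.chart_le i)) 𝔫 h𝔫.isPrime
          W m (G₁ ^ ((q - 1) * (q - 1 + 2)))
          (fun i => algebraMap R E (![ζ20, ζ11, 1] i) * lam i ^ ((q - 1) * (q - 1 + 2)))) ∧
      (∀ (𝔫 : Ideal ↥(chartOne R E j₂⁻¹)) (h𝔫 : 𝔫.IsMaximal),
        algebraMap R ↥(chartOne R E j₂⁻¹) π ∈ 𝔫 →
        @SheetDatumAt R _ E _ _ (chartOne R E j₂⁻¹) (Fin 3)
          (fun i => sheetIdeal j₂⁻¹ (W i) (fam'.chart_le i)) 𝔫 h𝔫.isPrime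
          W m (G₁ ^ ((q - 1) * (q - 1 + 2)))
          (fun i => algebraMap R E (![ζ20, ζ11, 1] i) * lam i ^ ((q - 1) * (q - 1 + 2)))) :=
  points36_of_local hπ hj₁ hKj₁ hj₂ hKj₂ h2 hmod fam fam' α β hαR hβR hαB hβB hαint hβint
    hα0 hα1 hα2 hβ0 hβ1 hβ2 hq hinsα hinsβ hresα0 hresα1 hresβ1 hresβ2 he0 he2 hLE1
    (fun 𝔫 h𝔫 hall => exists_local_equation_three_of_node hπ hj₂ hKj₂ h2 fam β hβR hβB hβ0 hβ1 hβ2
      he0 hnode
      (fun 𝔫 h𝔫 => haveI := h𝔫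
        Ideal.isMaximal_comap_of_isIntegral_of_isMaximal' _ hβint 𝔫) 𝔫 h𝔫 hall)
    hcusp hm NA NB hNlocA hNlocB

end Node

section Reg

variable {R : Type*} [CommRing R] [IsDomain R] [IsDiscreteValuationRing R] [CharZero R]
  {K₁ : Type*} [Field K₁] [Algebra R K₁] [IsFractionRing R K₁]
  {KM : Type*} [Field KM] [Algebra K₁ KM] [Algebra R KM] [IsScalarTower R K₁ KM]
  {EM : Type*} [Field EM] [Algebra KM EM] [Algebra K₁ EM] [IsScalarTower K₁ KM EM] [Algebra R EM]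
  [IsScalarTower R KM EM]
  {KN : Type*} [Field KN] [Algebra K₁ KN] [Algebra R KN] [IsScalarTower R K₁ KN]
  {EN : Type*} [Field EN] [Algebra KN EN] [Algebra K₁ EN] [IsScalarTower K₁ KN EN] [Algebra R EN]
  [IsScalarTower R KN EN] [FiniteDimensional KN EN]
  {π : R} {q n : ℕ} {S : Finset R} {t : KM} {jM : EM} {j : KN} {A B : EM →+* EN}
  {VM : ValuationSubring EM} {Winf W0 : ValuationSubring EN}

/-- the hypothesis `hnode` of `points36_of_node` from lead's [REG1] `SSModel.NodeRegular`. -/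
theorem node_local_equation_of_nodeRegular (h : SSModel K₁ π q n S t jM j A B VM Winf W0)
    (hreg : h.NodeRegular) :
    ∀ (𝔪 : Ideal ↥(chartOne R EN j)) [𝔪.IsMaximal],
      sheetIdeal j Winf h.two.chart_le_inf ≤ 𝔪 → sheetIdeal j W0 h.two.chart_le_zero ≤ 𝔪 →
      ∃ y : ↥(chartOne R EN j), y ∈ sheetIdeal j Winf h.two.chart_le_inf ∧
        y ∉ sheetIdeal j W0 h.two.chart_le_zero ∧
        ∀ w ∈ sheetIdeal j Winf h.two.chart_le_inf,
          ∃ s : ↥(chartOne R EN j), s ∉ 𝔪 ∧ y ∣ s * w := by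
  obtain ⟨s', -, x, y, r, -, -, -, hyinf, -, hnode⟩ := hreg
  intro 𝔪 h𝔪 hinf h0
  obtain ⟨-, hby, -, hgen, -⟩ := hnode 𝔪 hinf h0
  exact ⟨y, hyinf, hby.notMem, hgen⟩

end Reg

end Fermat.Agent.S36
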