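/-
S36 — helper8 — **[REG1-hor], part 1: RAM0 without roots of unity.**

helper2's RAM0 (`ram0_generic'`, `ram0_zero_dvd`, `ram0_1728_dvd`, `ram0_infty_neg`: ramification of
`F_N(L) / L(j)` in characteristic `0`) is stated for fields `L ⊆ ℂ` containing a primitive `N`-th
root of unity.  Here the same statements for EVERY field `L ⊇ ℚ`, by base change of places to the
algebraic closure `L'` of `L` (helper9's dictionary `exists_place_comap_eq`,
`ord_map_eq_of_comap_eq`: constant field extensions are unramified).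
-/
import Mathlib
import Fermat.Agent.JA.RAM0_helper2_Shapes
import Fermat.Agent.JA.BCD_helper9_Host
import Fermat.Agent.JA.BCD_helper9_Rational
import Fermat.Agent.X0N.S24_helper7_Generic

set_option autoImplicit false
set_option linter.unusedSectionVars false
set_option linter.style.haveILetI false
set_option synthInstance.maxHeartbeats 200000

open AlgebraicCurve Polynomial IntermediateField ModularCurve

namespace Fermat.Agent.S36

open Fermat.Agent.JA Fermat.Agent.FF Fermat.Agent.X0N

noncomputable section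

section BC

variable {L : Type*} [Field L] [Algebra ℚ L] {N : ℕ} [NeZero N]
  (L' : Type*) [Field L'] [Algebra ℚ L'] [Algebra L L']

/-- coefficientwise base change `F_N(L) → F_N(L')`. -/
def ramBC : ↥(keyFq L N) →+* ↥(keyFq L' N) :=
  coeffHom (algebraMap L L') (keyFq L N) (keyFq L' N)
    (fun _ hx => coeffMap_hom_mem_laurentBaseChange (algebraMap L L') _ hx)

theorem ramBC_algebraMap (a : L) :
    ramBC (N := N) L' (algebraMap L ↥(keyFq L N) a) =
      algebraMap L' ↥(keyFq L' N) (algebraMap L L' a) :=
  coeffHom_algebraMap _ _ _ _ a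

theorem ramBC_jGen : ramBC (N := N) L' (jGen L N) = jGen L' N := by
  apply Subtype.ext
  show coeffMap (algebraMap L L') (coeffEmb L jq) = coeffEmb L' jq
  exact coeffMap_coeffEmb_hom (algebraMap L L') jq

theorem ramBC_aeval (p : L[X]) :
    ramBC (N := N) L' (aeval (jGen L N) p) =
      aeval (jGen L' N) (p.map (algebraMap L L')) := by
  have hc : (ramBC (L := L) (N := N) L').comp (algebraMap L ↥(keyFq L N)) =
      (algebraMap L' ↥(keyFq L' N)).comp (algebraMap L L') :=
    RingHom.ext fun a => ramBC_algebraMap (N := N) L' a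
  rw [aeval_def, aeval_def, eval₂_map, hom_eval₂, ramBC_jGen, hc]

theorem closure_range_ramBC :
    Subfield.closure (Set.range (ramBC (L := L) (N := N) L') ∪
      Set.range (algebraMap L' ↥(keyFq L' N))) = ⊤ :=
  closure_range_coeffHom _ _ _ _ (keyFq_le_adjoin_image (algebraMap L L') N)

variable [Algebra.IsAlgebraic L L']

/-- every place of `F_N(L)` is the restriction of a place of `F_N(L')` with the same orders. -/
theorem exists_place_ramBC (P₁ : Place L ↥(keyFq L N)) :
    ∃ P : Place L' ↥(keyFq L' N), ∀ x : ↥(keyFq L N), P.ord (ramBC L' x) = P₁.ord x := by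
  haveI : CharZero L' := algebraRat.charZero L'
  haveI : CharZero ↥(keyFq L' N) :=
    charZero_of_injective_algebraMap (algebraMap L' ↥(keyFq L' N)).injective
  obtain ⟨P, hP⟩ := exists_place_comap_eq (ramBC (L := L) (N := N) L')
    (ramBC_algebraMap L') (closure_range_ramBC L') P₁
  exact ⟨P, fun x => ord_map_eq_of_comap_eq (ramBC (L := L) (N := N) L')
    (ramBC_algebraMap L') (closure_range_ramBC L') P P₁ hP x⟩

end BC

section Descent

variable {L : Type*} [Field L] [Algebra ℚ L] {N : ℕ} [NeZero N]
  (L' : Type*) [Field L'] [Algebra ℚ L'] [Algebra L L'] [Algebra.IsAlgebraic L L'] [IsAlgClosed L']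
  [Algebra L' ℂ] [IsScalarTower ℚ L' ℂ]

theorem exists_primitiveRoot_of_isAlgClosed : ∃ z : L', IsPrimitiveRoot z N := by
  haveI : CharZero L' := algebraRat.charZero L'
  exact HasEnoughRootsOfUnity.exists_primitiveRoot L' N

include L' in
/-- (ii) without roots of unity. -/
theorem ram0_zero_dvd_gen (P : Place L ↥(keyFq L N)) (hP : 0 < P.ord (jGen L N)) :
    P.ord (jGen L N) ∣ 3 := by
  obtain ⟨P', hP'⟩ := exists_place_ramBC L' P
  have h := hP' (jGen L N)
  rw [ramBC_jGen] at h
  rw [← h] at hP ⊢
  exact ram0_zero_dvd (exists_primitiveRoot_of_isAlgClosed L') P' hP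

include L' in
/-- (iii) without roots of unity. -/
theorem ram0_1728_dvd_gen (P : Place L ↥(keyFq L N)) (hP : 0 < P.ord (jGen L N - 1728)) :
    P.ord (jGen L N - 1728) ∣ 2 := by
  obtain ⟨P', hP'⟩ := exists_place_ramBC L' P
  have h := hP' (jGen L N - 1728)
  rw [map_sub, ramBC_jGen, map_ofNat] at h
  rw [← h] at hP ⊢
  exact ram0_1728_dvd (exists_primitiveRoot_of_isAlgClosed L') P' hP

include L' in
/-- (iv) without roots of unity. -/
theorem ram0_infty_neg_gen (P : Place L ↥(keyFq L N)) (hP : P.ord (jGen L N) < 0) :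
    (-P.ord (jGen L N)) ∣ (N : ℤ) := by
  obtain ⟨P', hP'⟩ := exists_place_ramBC L' P
  have h := hP' (jGen L N)
  rw [ramBC_jGen] at h
  rw [← h] at hP ⊢
  exact ram0_infty_neg (exists_primitiveRoot_of_isAlgClosed L') P' hP

include L' in
/-- (i) without roots of unity. -/
theorem ram0_generic_gen (P : Place L ↥(keyFq L N)) (p : L[X]) (hp : Irreducible p)
    (hm : p.Monic) (h0 : p ≠ X) (h1 : p ≠ X - C 1728)
    (hP : 0 < P.ord (aeval (jGen L N) p)) : P.ord (aeval (jGen L N) p) = 1 := by
  classical
  haveI : CharZero L := algebraRat.charZero L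
  haveI : CharZero L' := algebraRat.charZero L'
  obtain ⟨P', hP'⟩ := exists_place_ramBC L' P
  have h := hP' (aeval (jGen L N) p)
  rw [ramBC_aeval] at h
  rw [← h] at hP ⊢
  set p' : L'[X] := p.map (algebraMap L L') with hp'
  set j' := jGen L' N with hj'
  -- the value of `j'` at `P'`
  have hjmem : j' ∈ P'.toValuationSubring := mem_of_ord_aeval_pos P' hP
  have hdeg : P'.deg = 1 := (jCoordK L' N).deg_eq_one P'
  obtain ⟨c, hc⟩ := HasValueAt.exists_of_mem hdeg hjmem
  have hval : HasValueAt P' (aeval j' p') (p'.eval c) := by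
    rw [aeval_def]
    exact hc.eval₂_algebraMap p'
  have hval0 : HasValueAt P' (aeval j' p') 0 := HasValueAt.zero_iff.mpr (Or.inr hP)
  have hroot : p'.eval c = 0 := hval.unique hval0
  -- `c ≠ 0, 1728`
  have hp0 : p.eval 0 ≠ 0 := by
    intro h
    have hdvd : (X - C 0 : L[X]) ∣ p := dvd_iff_isRoot.mpr h
    rw [C_0, sub_zero] at hdvd
    have := (irreducible_X (R := L)).associated_of_dvd hp hdvd
    exact h0 (eq_of_monic_of_associated hm monic_X this.symm)
  have hp1 : p.eval 1728 ≠ 0 := by
    intro h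
    have hdvd : (X - C 1728 : L[X]) ∣ p := dvd_iff_isRoot.mpr h
    have := (irreducible_X_sub_C (1728 : L)).associated_of_dvd hp hdvd
    exact h1 (eq_of_monic_of_associated hm (monic_X_sub_C _) this.symm)
  have hc0 : c ≠ 0 := by
    rintro rfl
    rw [hp', ← map_zero (algebraMap L L'), eval_map_apply] at hroot
    exact hp0 ((algebraMap L L').injective (by rw [hroot, map_zero]))
  have hc1 : c ≠ 1728 := by
    rintro rfl
    rw [hp', ← map_ofNat (algebraMap L L') 1728, eval_map_apply] at hroot
    exact hp1 ((algebraMap L L').injective (by rw [hroot, map_zero]))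
  -- factor `p' = (X - c) * s`, `(X - c) ∤ s`
  obtain ⟨s, hs⟩ : (X - C c : L'[X]) ∣ p' := dvd_iff_isRoot.mpr hroot
  have hsep : p'.Separable := hp.separable.map
  have hnd : ¬ (X - C c : L'[X]) ∣ s := by
    intro hd
    obtain ⟨s', rfl⟩ := hd
    have hsq : Squarefree p' := hsep.squarefree
    have : IsUnit (X - C c : L'[X]) := hsq (X - C c) ⟨s', by rw [hs]; ring⟩
    exact (irreducible_X_sub_C c).not_isUnit this
  have hlin : aeval j' (X - C c : L'[X]) = j' - algebraMap L' _ c := by
    rw [map_sub, aeval_X, aeval_C]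
  have hlinpos : 0 < P'.ord (aeval j' (X - C c : L'[X])) := by
    rw [hlin]
    rcases HasValueAt.iff_ord.mp hc with h | h
    · exfalso
      have : aeval j' p' = 0 := by rw [hs, map_mul, hlin, h, zero_mul]
      rw [this, P'.ord_zero] at hP
      exact lt_irrefl _ hP
    · exact h
  obtain ⟨hs0, hsord⟩ := ord_aeval_eq_zero_of_not_dvd P' (irreducible_X_sub_C c) hlinpos hnd
  have hlin0 : aeval j' (X - C c : L'[X]) ≠ 0 := by
    intro h
    rw [h, P'.ord_zero] at hlinpos
    exact lt_irrefl _ hlinpos
  have hone : P'.ord (aeval j' (X - C c : L'[X])) = 1 :=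
    ram0_generic (exists_primitiveRoot_of_isAlgClosed L') P' (X - C c) (irreducible_X_sub_C c)
      (by rw [eval_sub, eval_X, eval_C, zero_sub]; exact neg_ne_zero.mpr hc0)
      (by rw [eval_sub, eval_X, eval_C]; exact sub_ne_zero.mpr (Ne.symm hc1)) hlinpos
  rw [hs, map_mul, P'.ord_mul hlin0 hs0, hone, hsord, add_zero]

end Descent

end

end Fermat.Agent.S36
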