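/-
S36 — helper8 — **[REG1-hor], part 2: the hosts are unramified over the `t`-line at every
non-cuspidal place, in characteristic zero, at EVERY level** (no hypothesis on reduction).

`gm_unr_of_mem` (helper1) only uses the characteristic-zero fields of `LineHyp` / `JLineHyp`; at
`π = 1` the Gauss fields are vacuous (`IsGaussAt R 1 t 𝒢` is contradictory), and RAM0 without roots
of unity (part 1) gives the characteristic-zero fields of `JLineHyp` at every level.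
-/
import Mathlib
import Fermat.Agent.S36.REG1HOR_helper8_Ram
import Fermat.Agent.JA.GEOBASE_helper8_Base
import Fermat.Agent.SS.CUSPT_helper3_Host

set_option autoImplicit false
set_option linter.unusedSectionVars false
set_option linter.style.haveILetI false
set_option synthInstance.maxHeartbeats 200000

open AlgebraicCurve Polynomial IntermediateField ModularCurve

namespace Fermat.Agent.S36

open Fermat.Agent.JA Fermat.Agent.FF Fermat.Agent.X0N Fermat.Agent.SS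

open scoped Fermat.Agent.JA.Host

section Vacuous

variable {R : Type*} [CommRing R] {K : Type*} [Field K] [Algebra R K]

/-- there is no Gauss valuation subring at `π = 1`. -/
theorem not_isGaussAt_one (t : K) (𝒢 : ValuationSubring K) : ¬ IsGaussAt R (1 : R) t 𝒢 := by
  rintro ⟨-, h, -⟩
  apply h
  rw [map_one, inv_one]
  exact 𝒢.one_mem

end Vacuous

section RamC

variable {L : Type*} [Field L] [Algebra ℚ L] [Algebra L ℂ] {N : ℕ} [NeZero N]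

/-- the four RAM0 statements for every field `L ⊆ ℂ` (no roots of unity). -/
theorem ram0_all (P : Place L ↥(keyFq L N)) :
    (∀ p : L[X], Irreducible p → p.Monic → p ≠ X → p ≠ X - C 1728 →
      0 < P.ord (aeval (jGen L N) p) → P.ord (aeval (jGen L N) p) = 1) ∧
    (0 < P.ord (jGen L N) → P.ord (jGen L N) ∣ 3) ∧
    (0 < P.ord (jGen L N - 1728) → P.ord (jGen L N - 1728) ∣ 2) ∧
    (P.ord (jGen L N) < 0 → (-P.ord (jGen L N)) ∣ (N : ℤ)) := by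
  letI : Algebra (AlgebraicClosure L) ℂ :=
    ((IsAlgClosed.lift : AlgebraicClosure L →ₐ[L] ℂ) : AlgebraicClosure L →+* ℂ).toAlgebra
  haveI : @IsScalarTower ℚ (AlgebraicClosure L) ℂ (AlgebraicClosure.instAlgebra L).toSMul _ _ :=
    IsScalarTower.of_algebraMap_eq (fun r => by
    show algebraMap ℚ ℂ r = (IsAlgClosed.lift : AlgebraicClosure L →ₐ[L] ℂ)
      (algebraMap ℚ (AlgebraicClosure L) r)
    rw [eq_ratCast, eq_ratCast, map_ratCast])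
  exact ⟨fun p hp hm h0 h1 hP => ram0_generic_gen (AlgebraicClosure L) P p hp hm h0 h1 hP,
    ram0_zero_dvd_gen (AlgebraicClosure L) P, ram0_1728_dvd_gen (AlgebraicClosure L) P,
    ram0_infty_neg_gen (AlgebraicClosure L) P⟩

end RamC

section Host

variable {R : Type*} [CommRing R] [IsDomain R] [IsDiscreteValuationRing R] [CharZero R]
  {K₁ : Type*} [Field K₁] [Algebra ℚ K₁] [Algebra R K₁] [IsFractionRing R K₁] [Algebra K₁ ℂ]
  (N : ℕ) [NeZero N] (w : ℕ) [NeZero w]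

/-- **`JLineHyp` at `π = 1` for `F_w`, at every level**: the characteristic-zero fields from RAM0
without roots of unity; the Gauss field is vacuous. -/
theorem jLineHyp_keyFw_one [Fact (K₁⟮jqNModC K₁ w⟯ ≤ keyFw K₁ N w)] :
    JLineHyp (K₁ := K₁) (1 : R) (AdjoinSimple.gen K₁ (jqNModC K₁ w)) ↥(keyFw K₁ N w) N := by
  haveI : Module.Finite ↥K₁⟮jqNModC K₁ w⟯ ↥(keyFw K₁ N w) := finite_hostImage_full N w
  set e := hostImageEquiv K₁ w (keyFq K₁ N) with he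
  have hj : algebraMap ↥K₁⟮jqNModC K₁ w⟯ ↥(keyFw K₁ N w)
      (AdjoinSimple.gen K₁ (jqNModC K₁ w)) = e (jGen K₁ N) := by
    apply Subtype.ext
    rw [Host.coe_algebraMap, AdjoinSimple.coe_gen, he, coe_hostImageEquiv_jGen]
  have haev : ∀ q : K₁[X], aeval (e (jGen K₁ N)) q = e (aeval (jGen K₁ N) q) := fun q =>
    Polynomial.aeval_algHom_apply e (jGen K₁ N) q
  refine jLineHyp_of_ram (1 : R) (AdjoinSimple.gen K₁ (jqNModC K₁ w))
    (adjoin_simple_gen_eq_top _) N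
    (fun P' q hq hm h0 h1 hpos => ?_) (fun P' hpos => ?_) (fun P' hpos => ?_)
    (fun P' hneg => ?_) (fun 𝒢 h𝒢 => absurd h𝒢 (not_isGaussAt_one _ 𝒢))
  · obtain ⟨P, hP⟩ := exists_place_ord_comp_equiv e P'
    rw [hj, haev, ← hP] at hpos ⊢
    exact (ram0_all P).1 q hq hm h0 h1 hpos
  · obtain ⟨P, hP⟩ := exists_place_ord_comp_equiv e P'
    rw [hj, ← hP] at hpos ⊢
    exact (ram0_all P).2.1 hpos
  · obtain ⟨P, hP⟩ := exists_place_ord_comp_equiv e P'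
    have h1728 : e (jGen K₁ N) - 1728 = e (jGen K₁ N - 1728) := by
      rw [map_sub, map_ofNat]
    rw [hj, h1728, ← hP] at hpos ⊢
    exact (ram0_all P).2.2.1 hpos
  · obtain ⟨P, hP⟩ := exists_place_ord_comp_equiv e P'
    rw [hj, ← hP] at hneg ⊢
    exact (ram0_all P).2.2.2 hneg

/-- the same for `F_w(1) = F_w` (the trivial Kummer step), the shape `gm` consumes. -/
theorem jLineHyp_Fu_one_one [Fact (K₁⟮jqNModC K₁ w⟯ ≤ keyFw K₁ N w)] :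
    JLineHyp (K₁ := K₁) (1 : R) (AdjoinSimple.gen K₁ (jqNModC K₁ w))
      ↥(Host.Fu (keyFw K₁ N w) 1) N := by
  classical
  haveI : Module.Finite ↥K₁⟮jqNModC K₁ w⟯ ↥(keyFw K₁ N w) := finite_hostImage_full N w
  have hKj : IntermediateField.adjoin K₁ {AdjoinSimple.gen K₁ (jqNModC K₁ w)} = ⊤ :=
    Host.adjoin_gen_eq_top _
  have hu' : (⟨1, Host.mem_Fu_self (keyFw K₁ N w) 1⟩ : ↥(Host.Fu (keyFw K₁ N w) 1)) ^ 1 =
      algebraMap ↥(keyFw K₁ N w) ↥(Host.Fu (keyFw K₁ N w) 1) 1 := by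
    rw [pow_one, map_one]
    rfl
  have huint : IsIntegral ↥(keyFw K₁ N w)
      (⟨1, Host.mem_Fu_self (keyFw K₁ N w) 1⟩ : ↥(Host.Fu (keyFw K₁ N w) 1)) := by
    have : (⟨1, Host.mem_Fu_self (keyFw K₁ N w) 1⟩ : ↥(Host.Fu (keyFw K₁ N w) 1)) = 1 := rfl
    rw [this]
    exact isIntegral_one
  have hgen : Algebra.adjoin ↥(keyFw K₁ N w)
      {(⟨1, Host.mem_Fu_self (keyFw K₁ N w) 1⟩ : ↥(Host.Fu (keyFw K₁ N w) 1))} = ⊤ := by
    rw [← IntermediateField.adjoin_simple_toSubalgebra_of_isAlgebraic huint.isAlgebraic,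
      Host.adjoin_u_eq_top]
    rfl
  refine jLineHyp_kummer_of_dvd_ord (K₁ := K₁) (1 : R) (AdjoinSimple.gen K₁ (jqNModC K₁ w)) N 1
    (by rw [Nat.cast_one]; exact isUnit_one) (1 : ↥(keyFw K₁ N w)) one_ne_zero
    (⟨1, Host.mem_Fu_self (keyFw K₁ N w) 1⟩ : ↥(Host.Fu (keyFw K₁ N w) 1)) hu' hgen ?_ ?_ ?_ ?_
    (jLineHyp_keyFw_one (R := R) N w)
  · intro 𝒱₀ hne h𝒱₀
    exact isDiscreteValuationRing_of_adjoin_eq_top 𝒱₀ h𝒱₀ hne hKj
  · intro 𝒢 h𝒢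
    exact absurd h𝒢 (not_isGaussAt_one _ 𝒢)
  · intro P'
    rw [Nat.cast_one]
    exact one_dvd _
  · intro 𝒢 h𝒢
    exact absurd h𝒢 (not_isGaussAt_one _ 𝒢)

end Host

section Unr

open Host

variable {R : Type*} [CommRing R] [IsDomain R] [IsDiscreteValuationRing R] [CharZero R]
  {K₁ : Type*} [Field K₁] [Algebra ℚ K₁] [Algebra R K₁] [IsFractionRing R K₁] [Algebra K₁ ℂ]
  (N : ℕ) [NeZero N]

/-- `LineHyp` at `π = 1` (the Gauss field is vacuous). -/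
theorem lineHyp_one {K₀ K : Type*} [Field K₀] [Algebra K₁ K₀] [Algebra R K₀] [IsScalarTower R K₁ K₀]
    [Field K] [Algebra K₁ K] [Algebra R K] [IsScalarTower R K₁ K] [Algebra K₀ K]
    [IsScalarTower K₁ K₀ K] {π : R} {j : K₀} {t : K} {S : Finset R}
    (h : LineHyp (K₁ := K₁) π j t S) : LineHyp (K₁ := K₁) (1 : R) j t S :=
  ⟨h.dvr, h.noncusp, h.e_zero, h.e_1728, fun 𝒢 h𝒢 => absurd h𝒢 (not_isGaussAt_one _ 𝒢)⟩

set_option maxHeartbeats 1600000 in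
/-- **the Legendre host is unramified over the `t`-line at every non-cuspidal place**
(characteristic zero; residue characteristic of `R` odd; EVERY level `N`). -/
theorem unr_legE_of_mem (h2 : (2 : IsLocalRing.ResidueField R) ≠ 0)
    (𝒱 : ValuationSubring ↥K₁⟮legT K₁⟯) (hne : 𝒱 ≠ ⊤)
    (hK : ∀ a : K₁, algebraMap K₁ ↥K₁⟮legT K₁⟯ a ∈ 𝒱)
    (hj : algebraMap ↥K₁⟮jqNModC K₁ 2⟯ ↥K₁⟮legT K₁⟯ (AdjoinSimple.gen K₁ (jqNModC K₁ 2)) ∈ 𝒱) :
    Unr 𝒱 ↥(legE K₁ N) := by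
  classical
  haveI : CharZero K₁ := algebraRat.charZero K₁
  obtain ⟨π₀, hπ₀⟩ := IsDiscreteValuationRing.exists_irreducible R
  haveI : Module.Finite ↥K₁⟮jqNModC K₁ 2⟯ ↥(keyFw K₁ N 2) := finite_hostImage_full N 2
  have hL := Host.lineHyp_legendre_host (jqNModC K₁ 2) (legT K₁) (transcendental_legT K₁)
    (jqNModC_mul_aeval_legT K₁) π₀ hπ₀ h2 ({0, 1} : Finset R) (by simp) (by simp)
  haveI : Module.Finite ↥K₁⟮legT K₁⟯ ↥(Etu (keyFw K₁ N 2) (legT K₁) 1) :=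
    finite_Kt_Etu (keyFw K₁ N 2) (jqNModC K₁ 2) (legT K₁) 1 (isIntegral_legT K₁) isIntegral_one
  haveI : Module.Finite ↥K₁⟮jqNModC K₁ 2⟯ ↥(Fu (keyFw K₁ N 2) 1) :=
    finite_Kj_Fu (keyFw K₁ N 2) (jqNModC K₁ 2) 1 isIntegral_one
  exact gm_unr_of_mem (K₁ := K₁) (K₀ := ↥K₁⟮jqNModC K₁ 2⟯) (K := ↥K₁⟮legT K₁⟯)
    (F' := ↥(Fu (keyFw K₁ N 2) 1)) (E := ↥(Etu (keyFw K₁ N 2) (legT K₁) 1)) (1 : R)
    (AdjoinSimple.gen K₁ (jqNModC K₁ 2)) (AdjoinSimple.gen K₁ (legT K₁)) _ N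
    (adjoin_range_Fu_eq_top (keyFw K₁ N 2) (legT K₁) 1) (lineHyp_one hL)
    (jLineHyp_Fu_one_one (R := R) N 2) 𝒱 hne hK hj

set_option maxHeartbeats 1600000 in
/-- **the Hesse host is unramified over the `t`-line at every non-cuspidal place**
(characteristic zero; residue characteristic of `R` different from `3`, `ω ∈ R` a primitive cube
root of unity; EVERY level `N`). -/
theorem unr_hesE_of_mem (h3 : (3 : IsLocalRing.ResidueField R) ≠ 0) (ω : R)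
    (hω : ω ^ 2 + ω + 1 = 0)
    (𝒱 : ValuationSubring ↥K₁⟮hesT K₁⟯) (hne : 𝒱 ≠ ⊤)
    (hK : ∀ a : K₁, algebraMap K₁ ↥K₁⟮hesT K₁⟯ a ∈ 𝒱)
    (hj : algebraMap ↥K₁⟮jqNModC K₁ 3⟯ ↥K₁⟮hesT K₁⟯ (AdjoinSimple.gen K₁ (jqNModC K₁ 3)) ∈ 𝒱) :
    Unr 𝒱 ↥(hesE K₁ N) := by
  classical
  haveI : CharZero K₁ := algebraRat.charZero K₁
  obtain ⟨π₀, hπ₀⟩ := IsDiscreteValuationRing.exists_irreducible R
  haveI : Module.Finite ↥K₁⟮jqNModC K₁ 3⟯ ↥(keyFw K₁ N 3) := finite_hostImage_full N 3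
  have hL := Host.lineHyp_hesse_host (jqNModC K₁ 3) (hesT K₁) (transcendental_hesT K₁)
    (jqNModC_mul_aeval_hesT K₁) π₀ hπ₀ h3 ω hω ({1, ω, ω ^ 2} : Finset R) (by simp) (by simp)
    (by simp)
  haveI : Module.Finite ↥K₁⟮hesT K₁⟯ ↥(Etu (keyFw K₁ N 3) (hesT K₁) 1) :=
    finite_Kt_Etu (keyFw K₁ N 3) (jqNModC K₁ 3) (hesT K₁) 1 (isIntegral_hesT K₁) isIntegral_one
  haveI : Module.Finite ↥K₁⟮jqNModC K₁ 3⟯ ↥(Fu (keyFw K₁ N 3) 1) :=
    finite_Kj_Fu (keyFw K₁ N 3) (jqNModC K₁ 3) 1 isIntegral_one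
  exact gm_unr_of_mem (K₁ := K₁) (K₀ := ↥K₁⟮jqNModC K₁ 3⟯) (K := ↥K₁⟮hesT K₁⟯)
    (F' := ↥(Fu (keyFw K₁ N 3) 1)) (E := ↥(Etu (keyFw K₁ N 3) (hesT K₁) 1)) (1 : R)
    (AdjoinSimple.gen K₁ (jqNModC K₁ 3)) (AdjoinSimple.gen K₁ (hesT K₁)) _ N
    (adjoin_range_Fu_eq_top (keyFw K₁ N 3) (hesT K₁) 1) (lineHyp_one hL)
    (jLineHyp_Fu_one_one (R := R) N 3) 𝒱 hne hK hj

/-- the restriction to a subfield `K` of a nontrivial valuation subring of an algebraic extension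
`E / K` is nontrivial. -/
theorem comap_ne_top_of_isAlgebraic {K E : Type*} [Field K] [Field E] [Algebra K E]
    [Algebra.IsAlgebraic K E] (V : ValuationSubring E) (hV : V ≠ ⊤) :
    V.comap (algebraMap K E) ≠ ⊤ := by
  intro htop
  apply hV
  refine SetLike.ext fun z => ⟨fun _ => ValuationSubring.mem_top z, fun _ => ?_⟩
  refine mem_valuationSubring_of_isIntegral_subfield V (algebraMap K E).fieldRange ?_ ?_
  · rintro _ ⟨x, rfl⟩
    have : x ∈ V.comap (algebraMap K E) := by rw [htop]; exact ValuationSubring.mem_top x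
    exact this
  · obtain ⟨p, hp, hpz⟩ := (Algebra.IsAlgebraic.isAlgebraic (R := K) z).isIntegral
    let ψ : K →+* ↥(algebraMap K E).fieldRange := (algebraMap K E).rangeRestrictField
    refine ⟨p.map ψ, hp.map ψ, ?_⟩
    rw [Polynomial.eval₂_map]
    exact hpz

set_option maxHeartbeats 1600000 in
/-- **[REG1-hor], Legendre, lead's literal**: for every nontrivial valuation subring `V` of the
Legendre host (any level) containing the constants and `j`, the host is unramified over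
`V ∩ K(t)`. -/
theorem formallyUnramified_legE_of_valuationSubring (h2 : (2 : IsLocalRing.ResidueField R) ≠ 0)
    (V : ValuationSubring ↥(legE K₁ N)) (hK : ∀ a : K₁, algebraMap K₁ ↥(legE K₁ N) a ∈ V)
    (hne : V ≠ ⊤) (hj : legJE K₁ N ∈ V) :
    Algebra.FormallyUnramified ↥(V.comap (algebraMap ↥K₁⟮legT K₁⟯ ↥(legE K₁ N)))
      ↥(integralClosure ↥(V.comap (algebraMap ↥K₁⟮legT K₁⟯ ↥(legE K₁ N))) ↥(legE K₁ N)) := by
  haveI : Module.Finite ↥K₁⟮legT K₁⟯ ↥(legE K₁ N) := finite_legE K₁ N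
  haveI : Algebra.IsAlgebraic ↥K₁⟮legT K₁⟯ ↥(legE K₁ N) := Algebra.IsAlgebraic.of_finite _ _
  refine unr_legE_of_mem (R := R) N h2 _ (comap_ne_top_of_isAlgebraic V hne) (fun a => ?_) ?_
  · show algebraMap ↥K₁⟮legT K₁⟯ ↥(legE K₁ N) (algebraMap K₁ ↥K₁⟮legT K₁⟯ a) ∈ V
    rw [← IsScalarTower.algebraMap_apply K₁ ↥K₁⟮legT K₁⟯ ↥(legE K₁ N)]
    exact hK a
  · show algebraMap ↥K₁⟮legT K₁⟯ ↥(legE K₁ N) (algebraMap ↥K₁⟮jqNModC K₁ 2⟯ ↥K₁⟮legT K₁⟯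
      (AdjoinSimple.gen K₁ (jqNModC K₁ 2))) ∈ V
    have e : algebraMap ↥K₁⟮legT K₁⟯ ↥(legE K₁ N) (algebraMap ↥K₁⟮jqNModC K₁ 2⟯ ↥K₁⟮legT K₁⟯
        (AdjoinSimple.gen K₁ (jqNModC K₁ 2))) = legJE K₁ N := Subtype.ext rfl
    rw [e]
    exact hj

set_option maxHeartbeats 1600000 in
/-- **[REG1-hor], Hesse, lead's literal.** -/
theorem formallyUnramified_hesE_of_valuationSubring (h3 : (3 : IsLocalRing.ResidueField R) ≠ 0)
    (ω : R) (hω : ω ^ 2 + ω + 1 = 0)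
    (V : ValuationSubring ↥(hesE K₁ N)) (hK : ∀ a : K₁, algebraMap K₁ ↥(hesE K₁ N) a ∈ V)
    (hne : V ≠ ⊤) (hj : hesJE K₁ N ∈ V) :
    Algebra.FormallyUnramified ↥(V.comap (algebraMap ↥K₁⟮hesT K₁⟯ ↥(hesE K₁ N)))
      ↥(integralClosure ↥(V.comap (algebraMap ↥K₁⟮hesT K₁⟯ ↥(hesE K₁ N))) ↥(hesE K₁ N)) := by
  haveI : Module.Finite ↥K₁⟮hesT K₁⟯ ↥(hesE K₁ N) := finite_hesE K₁ N
  haveI : Algebra.IsAlgebraic ↥K₁⟮hesT K₁⟯ ↥(hesE K₁ N) := Algebra.IsAlgebraic.of_finite _ _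
  refine unr_hesE_of_mem (R := R) N h3 ω hω _ (comap_ne_top_of_isAlgebraic V hne) (fun a => ?_) ?_
  · show algebraMap ↥K₁⟮hesT K₁⟯ ↥(hesE K₁ N) (algebraMap K₁ ↥K₁⟮hesT K₁⟯ a) ∈ V
    rw [← IsScalarTower.algebraMap_apply K₁ ↥K₁⟮hesT K₁⟯ ↥(hesE K₁ N)]
    exact hK a
  · show algebraMap ↥K₁⟮hesT K₁⟯ ↥(hesE K₁ N) (algebraMap ↥K₁⟮jqNModC K₁ 3⟯ ↥K₁⟮hesT K₁⟯
      (AdjoinSimple.gen K₁ (jqNModC K₁ 3))) ∈ V
    have e : algebraMap ↥K₁⟮hesT K₁⟯ ↥(hesE K₁ N) (algebraMap ↥K₁⟮jqNModC K₁ 3⟯ ↥K₁⟮hesT K₁⟯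
        (AdjoinSimple.gen K₁ (jqNModC K₁ 3))) = hesJE K₁ N := Subtype.ext rfl
    rw [e]
    exact hj

end Unr

end Fermat.Agent.S36
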