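/-
S36 [HOST4] — helper6 — part 1 (Legendre): **the Legendre coordinate is a modular function of
level 4 in the host variable**: `legT K ∈ keyFq K 4` (as Laurent series in `x`), hence
`legE K N ≤ keyFq K (4 * N)` as intermediate fields of `K⸨x⸩`.

The three units of determinant 2 of HOSTB are `2¹² Δ(x⁴)/Δ(x²)`, `Δ(x)/Δ(x²)` (modular units of
level 4) and `-48` minus their sum; the algebraic statement `legAlgStatement` then puts `t`
into the field generated by them and `j(x²)`.
-/
import Mathlib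
import Fermat.Agent.SS.HOSTB_helper8_Main
import Fermat.Agent.SS.HOSTB_helper8_Map
import Fermat.Agent.SS.HOSTB_helper8_HostB
import Fermat.Agent.SS.UNIT_helper6_Int

set_option autoImplicit false
set_option linter.unusedSectionVars false
set_option linter.style.haveILetI false
set_option synthInstance.maxHeartbeats 200000

open HahnSeries ModularCurve Fermat.Agent.Igusa Fermat.Agent.X0N Fermat.Agent.RatStr
open IntermediateField Fermat.Agent.JA Fermat.Agent.SS

namespace Fermat.Agent.S36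

noncomputable section

section Delta

variable (A : Type*) [CommRing A]

theorem deltaModC_eq_deltaSer : deltaModC A = deltaSer A := rfl

/-- `Δ(x^d)⁻¹` as the dilated formal inverse. -/
theorem qExpand_deltaInvSer_mul (d : ℕ) [NeZero d] :
    deltaNModC A d * qExpand A d (deltaInvSer A) = 1 := by
  rw [deltaNModC, deltaModC_eq_deltaSer, ← map_mul, deltaSer_mul_deltaInvSer, map_one]

end Delta

section Phi

variable (k : Type*) [Field k] [Algebra ℚ k]

/-- the formal `a¹² Δ(x^e)/Δ(x^N)` is a `deltaRatio` series. -/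
theorem phiSer_eq_deltaRatio (ζ : kˣ) (N : ℕ) [NeZero N] (α : Idx N) (hc : α.c = 0)
    (e : ℕ) [NeZero e] (he : α.e = e) :
    phiSer k ζ N α = HahnSeries.C ((α.a : k) ^ 12) * coeffEmb k (deltaRatioSeries e N) := by
  have h1 : deltaSubSer k ζ N α = deltaNModC k e := by
    rw [deltaSubSer, hc, pow_zero, twist_one, deltaNModC, deltaModC_eq_deltaSer]
    exact qExpand_congr he _
  have h2 : coeffEmb k (deltaRatioSeries e N) = deltaNModC k e * qExpand k N (deltaInvSer k) := by
    have h3 := coeffEmb_deltaRatioSeries_mul k e N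
    have h4 := qExpand_deltaInvSer_mul k N
    calc coeffEmb k (deltaRatioSeries e N)
        = coeffEmb k (deltaRatioSeries e N) * (deltaNModC k N * qExpand k N (deltaInvSer k)) := by
          rw [h4, mul_one]
      _ = _ := by rw [← mul_assoc, h3]
  rw [phiSer, h1, h2, mul_assoc]

end Phi

section Complex

/-- `C c` lies in every intermediate field. -/
theorem hahnC_mem {k : Type*} [Field k] (F : IntermediateField k (LaurentSeries k)) (c : k) :
    (HahnSeries.C c : LaurentSeries k) ∈ F := by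
  have h := F.algebraMap_mem c
  rwa [LaurentSeries.algebraMap_apply] at h

theorem primPhi_two_zero_mem :
    ((primPhi 2 0 : ↥(fieldM ℂ (zetaC 2) 2)) : LaurentSeries ℂ) ∈ keyFq ℂ 4 := by
  have h : ((primPhi 2 0 : ↥(fieldM ℂ (zetaC 2) 2)) : LaurentSeries ℂ) =
      phiSer ℂ (zetaC 2) 2 (idxI 2 (by norm_num)) := rfl
  rw [h, phiSer_eq_deltaRatio ℂ (zetaC 2) 2 _ (by rfl) 4 (by rfl)]
  exact mul_mem (hahnC_mem _ _) (coeffEmb_deltaRatioSeries_mem_complex 4 2 (N := 4)
    (dvd_refl 4) (by norm_num))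

theorem primPhi_two_one_mem :
    ((primPhi 2 1 : ↥(fieldM ℂ (zetaC 2) 2)) : LaurentSeries ℂ) ∈ keyFq ℂ 4 := by
  have h : ((primPhi 2 1 : ↥(fieldM ℂ (zetaC 2) 2)) : LaurentSeries ℂ) =
      phiSer ℂ (zetaC 2) 2 (idxB 2 0 (by norm_num)) := rfl
  rw [h, phiSer_eq_deltaRatio ℂ (zetaC 2) 2 _ (by rfl) 1 (by rfl)]
  exact mul_mem (hahnC_mem _ _) (coeffEmb_deltaRatioSeries_mem_complex 1 2 (N := 4)
    (one_dvd 4) (by norm_num))

theorem primPhi_two_mem (i : Fin 3) :
    ((primPhi 2 i : ↥(fieldM ℂ (zetaC 2) 2)) : LaurentSeries ℂ) ∈ keyFq ℂ 4 := by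
  have e1 := leg_e1 legCoeffStatement
  rw [Fin.sum_univ_three] at e1
  have e1L := congrArg Subtype.val e1
  simp only [IntermediateField.coe_add, ZeroMemClass.coe_zero] at e1L
  have c48 : (((48 : ↥(fieldM ℂ (zetaC 2) 2))) : LaurentSeries ℂ) = 48 := rfl
  rw [c48] at e1L
  have h2 : ((primPhi 2 2 : ↥(fieldM ℂ (zetaC 2) 2)) : LaurentSeries ℂ) =
      -48 - ((primPhi 2 0 : ↥(fieldM ℂ (zetaC 2) 2)) : LaurentSeries ℂ) -
        ((primPhi 2 1 : ↥(fieldM ℂ (zetaC 2) 2)) : LaurentSeries ℂ) := by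
    linear_combination e1L
  fin_cases i
  · exact primPhi_two_zero_mem
  · exact primPhi_two_one_mem
  · show ((primPhi 2 2 : ↥(fieldM ℂ (zetaC 2) 2)) : LaurentSeries ℂ) ∈ keyFq ℂ 4
    rw [h2]
    exact sub_mem (sub_mem (neg_mem (ofNat_mem _ 48)) primPhi_two_zero_mem) primPhi_two_one_mem

/-- **HOST4 over `ℂ`, Legendre.** -/
theorem legT_mem_keyFq_complex : legT ℂ ∈ keyFq ℂ 4 := by
  haveI := charZero_laurentSeries_complex
  have hj : jtSer ℂ 2 ∈ keyFq ℂ 4 := by
    rw [jtSer]
    exact qExpand_mem_keyFq ℂ (M := 1) (N := 4) (q := 2) (by norm_num) (jqModC_mem_keyFq 1)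
  obtain ⟨ht, -⟩ := legAlgStatement (F := LaurentSeries ℂ) (keyFq ℂ 4).toSubfield
    (jtSer ℂ 2) (legT ℂ) (fun i => ((primPhi 2 i : ↥(fieldM ℂ (zetaC 2) 2)) : LaurentSeries ℂ))
    hj primPhi_two_mem
    (leg_cubic (leg_e1 legCoeffStatement) (leg_e3 legCoeffStatement) (leg_e2 legCoeffStatement))
    leg_relation (transcendental_rat_of_complex (transcendental_legT ℂ))
  exact ht

end Complex

section Descent

variable (K : Type*) [Field K] [Algebra ℚ K]

/-- **HOST4, Legendre**: the Legendre coordinate is a modular function of level 4 in the host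
variable. -/
theorem legT_mem_keyFq : legT K ∈ keyFq K 4 := by
  have h0 : coeffEmb ℂ (legT ℚ) ∈ laurentBaseChange ℂ (modularFunctionFieldFull 4) := by
    rw [coeffEmb_legT]
    exact legT_mem_keyFq_complex
  have h1 : legT ℚ ∈ laurentBaseChange ℚ (modularFunctionFieldFull 4) :=
    Fermat.Agent.GR.mem_laurentBaseChange_of_iota_mem' (K := ℚ) (L := ℂ)
      (modularFunctionFieldFull 4) (legT ℚ) h0
  have h2 := Fermat.Agent.JA.coeffMap_hom_mem_laurentBaseChange (algebraMap ℚ K)
    (modularFunctionFieldFull 4) h1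
  rw [← coeffEmb_legT K]
  exact h2

/-- a tower field `K(t) · F_w` of level `N` lies in `F_{N'}` (`w² N ∣ N'`) as soon as its
coordinate lies in `F_{w²}`. -/
theorem Etu_le_keyFq_of_dvd (w : ℕ) [NeZero w] (N N' : ℕ) [NeZero N] [NeZero N']
    (hdvd : w * w * N ∣ N') (t : LaurentSeries K) [NeZero (w * w)] (ht : t ∈ keyFq K (w * w)) :
    Host.Etu (keyFw K N w) t 1 ≤ keyFq K N' := by
  rw [Host.Etu, Host.Fu]
  refine sup_le ?_ (sup_le ?_ ?_)
  · rw [IntermediateField.adjoin_simple_le_iff]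
    exact keyFq_le_of_dvd K (dvd_trans (dvd_mul_right (w * w) N) hdvd) ht
  · exact map_keyFq_le K (dvd_trans (by rw [mul_assoc]; exact dvd_mul_left (w * N) w) hdvd)
  · rw [IntermediateField.adjoin_simple_le_iff]
    exact one_mem _

/-- a tower field `K(t) · F_w` lies in `F_{w² N}` as soon as its coordinate lies in `F_{w²}`. -/
theorem Etu_le_keyFq (w : ℕ) [NeZero w] (N : ℕ) [NeZero N] [NeZero (w * w * N)]
    (t : LaurentSeries K) (ht : t ∈ keyFq K (w * w)) [NeZero (w * w)] :
    Host.Etu (keyFw K N w) t 1 ≤ keyFq K (w * w * N) :=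
  Etu_le_keyFq_of_dvd K w N (w * w * N) (dvd_refl _) t ht

/-- **HOST4, Legendre**: the Legendre host of level `N` lies in the function field of
`X₀(4N)` (in the host variable). -/
theorem legE_le_keyFq (N : ℕ) [NeZero N] [NeZero (4 * N)] : legE K N ≤ keyFq K (4 * N) := by
  haveI : NeZero (2 * 2 * N) := ⟨by have := NeZero.ne N; omega⟩
  haveI : NeZero (2 * 2) := ⟨by norm_num⟩
  have h := Etu_le_keyFq K 2 N (legT K) (legT_mem_keyFq K)
  exact h

/-- the same for any level divisible by `4 N`. -/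
theorem legE_le_keyFq_of_dvd (N N' : ℕ) [NeZero N] [NeZero N'] (hdvd : 4 * N ∣ N') :
    legE K N ≤ keyFq K N' := by
  haveI : NeZero (2 * 2) := ⟨by norm_num⟩
  exact Etu_le_keyFq_of_dvd K 2 N N' hdvd (legT K) (legT_mem_keyFq K)

end Descent

end

end Fermat.Agent.S36
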