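/-
S36 [HOST4] — helper6 — part 2 (Hesse): **the Hesse coordinate is a modular function of level 9
in the host variable**: `hesT K ∈ keyFq K 9`, hence `hesE K N ≤ keyFq K (9 * N)`.

Two of the four units of determinant 3 are `3¹² Δ(x⁹)/Δ(x³)` and `Δ(x)/Δ(x³)` (modular units of
level 9); the other two have non-rational leading coefficients `ω`, `ω²`, so the two units
`(27/(t³-1))²`, `(27/(u³-1))²` (`u = (t+2)/(t-1)`) of `ℚ(t)` are the first two, and the Hesse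
algebra only needs these.
-/
import Mathlib
import Fermat.Agent.S36.HOST4_helper6_Leg

set_option autoImplicit false
set_option linter.unusedSectionVars false
set_option linter.style.haveILetI false
set_option synthInstance.maxHeartbeats 200000

open HahnSeries ModularCurve Fermat.Agent.Igusa Fermat.Agent.X0N Fermat.Agent.RatStr
open IntermediateField Fermat.Agent.JA Fermat.Agent.SS Polynomial

namespace Fermat.Agent.S36

noncomputable section

/-! ### algebra with two roots -/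

section Alg

variable {F : Type} [Field F] [CharZero F]

/-- a root `a ≠ 1` of `27 a (a+8)³ = j (a-1)³` lies in every subfield containing `j` and
`(27/(a-1))²`. -/
theorem hes_root_mem (M : Subfield F) (j a p : F) (hjM : j ∈ M) (hpM : p ∈ M)
    (hp : p = (27 / (a - 1)) ^ 2) (hne : j - 756 - 36 * p ≠ 0) (ha1 : a - 1 ≠ 0)
    (ha : j * (a - 1) ^ 3 = 27 * a * (a + 8) ^ 3) : a ∈ M := by
  obtain ⟨g, hg⟩ : ∃ g : F, g = 27 / (a - 1) := ⟨_, rfl⟩
  rw [← hg] at hp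
  have hga : g * (a - 1) = 27 := by rw [hg]; field_simp
  have hg0 : g ≠ 0 := by
    intro h
    rw [h, zero_mul] at hga
    norm_num at hga
  have hjg : j * g = (g + 27) * (g + 3) ^ 3 := by
    have h4 : (a - 1) ^ 4 ≠ 0 := pow_ne_zero 4 ha1
    apply mul_right_cancel₀ h4
    have e1 : j * g * (a - 1) ^ 4 = 27 * (j * (a - 1) ^ 3) := by
      linear_combination (j * (a - 1) ^ 3) * hga
    have e2 : (g + 27) * (g + 3) ^ 3 * (a - 1) ^ 4 =
        (g * (a - 1) + 27 * (a - 1)) * (g * (a - 1) + 3 * (a - 1)) ^ 3 := by ring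
    rw [e1, e2, hga, ha]
    ring
  have hgi : g = (p ^ 2 + 270 * p + 729) / (j - 756 - 36 * p) := by
    rw [eq_div_iff hne, hp]
    linear_combination hjg
  have hgM : g ∈ M := by
    rw [hgi]
    have h270 : (270 : F) ∈ M := ofNat_mem M 270
    have h729 : (729 : F) ∈ M := ofNat_mem M 729
    have h756 : (756 : F) ∈ M := ofNat_mem M 756
    have h36 : (36 : F) ∈ M := ofNat_mem M 36
    exact M.div_mem (M.add_mem (M.add_mem (M.pow_mem hpM 2) (M.mul_mem h270 hpM)) h729)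
      (M.sub_mem (M.sub_mem hjM h756) (M.mul_mem h36 hpM))
  have haM : a = 1 + 27 / g := by
    field_simp
    linear_combination hga
  rw [haM]
  exact M.add_mem M.one_mem (M.div_mem (ofNat_mem M 27) hgM)

/-- a transcendental `t` lies in every subfield containing `t³` and `((t+2)/(t-1))³`. -/
theorem hes_coord_mem (M : Subfield F) (t : F) (ht : Transcendental ℚ t) (haM : t ^ 3 ∈ M)
    (hbM : ((t + 2) / (t - 1)) ^ 3 ∈ M) : t ∈ M := by
  have h1 : t - 1 ≠ 0 := by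
    have := hb2_aeval_ne_zero ht (X - 1) 0 (by simp)
    simpa [map_ofNat] using this
  have h3 : (t ^ 2 + t + 1) ^ 2 + 3 * (t - 1) ^ 2 ≠ 0 := by
    have := hb2_aeval_ne_zero ht ((X ^ 2 + X + 1) ^ 2 + 3 * (X - 1) ^ 2) 0 (by simp; norm_num)
    simpa [map_ofNat] using this
  have h4 : t ^ 4 - t ^ 3 + 3 * t ^ 2 + 2 * t + 4 ≠ 0 := by
    have := hb2_aeval_ne_zero ht (X ^ 4 - X ^ 3 + 3 * X ^ 2 + 2 * X + 4) 0 (by simp)
    simpa [map_ofNat] using this
  obtain ⟨u, hu⟩ : ∃ u : F, u = (t + 2) / (t - 1) := ⟨_, rfl⟩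
  rw [← hu] at hbM
  obtain ⟨S, hS⟩ : ∃ S : F, S = t + u + 1 := ⟨_, rfl⟩
  have hS2 : S ^ 2 = (t ^ 3 - 1) * (u ^ 3 - 1) / 9 := by
    rw [hS, hu]
    field_simp
    ring
  have hS3 : S * (S ^ 2 + 3) = t ^ 3 * u ^ 3 - 1 - 3 * S ^ 2 := by
    rw [hS, hu]
    field_simp
    ring
  have hS23 : S ^ 2 + 3 = ((t ^ 2 + t + 1) ^ 2 + 3 * (t - 1) ^ 2) / (t - 1) ^ 2 := by
    rw [hS, hu]
    field_simp
    ring
  have hS23' : S ^ 2 + 3 ≠ 0 := by
    rw [hS23]
    exact div_ne_zero h3 (pow_ne_zero 2 h1)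
  have hsp : (S - 1) ^ 2 - (S + 1) = (t ^ 4 - t ^ 3 + 3 * t ^ 2 + 2 * t + 4) / (t - 1) ^ 2 := by
    rw [hS, hu]
    field_simp
    ring
  have hsp' : (S - 1) ^ 2 - (S + 1) ≠ 0 := by
    rw [hsp]
    exact div_ne_zero h4 (pow_ne_zero 2 h1)
  have ht' : t * ((S - 1) ^ 2 - (S + 1)) = t ^ 3 + (S - 1) * (S + 1) := by
    rw [hS, hu]
    field_simp
    ring
  have h9 : (9 : F) ∈ M := ofNat_mem M 9
  have h3M : (3 : F) ∈ M := ofNat_mem M 3
  have hS2M : S ^ 2 ∈ M := by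
    rw [hS2]
    exact M.div_mem (M.mul_mem (M.sub_mem haM M.one_mem) (M.sub_mem hbM M.one_mem)) h9
  have hSM : S ∈ M := by
    have : S = (t ^ 3 * u ^ 3 - 1 - 3 * S ^ 2) / (S ^ 2 + 3) := by
      rw [eq_div_iff hS23']
      exact hS3
    rw [this]
    exact M.div_mem (M.sub_mem (M.sub_mem (M.mul_mem haM hbM) M.one_mem) (M.mul_mem h3M hS2M))
      (M.add_mem hS2M h3M)
  have : t = (t ^ 3 + (S - 1) * (S + 1)) / ((S - 1) ^ 2 - (S + 1)) := by
    rw [eq_div_iff hsp']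
    exact ht'
  rw [this]
  exact M.div_mem (M.add_mem haM (M.mul_mem (M.sub_mem hSM M.one_mem) (M.add_mem hSM M.one_mem)))
    (M.sub_mem (M.pow_mem (M.sub_mem hSM M.one_mem) 2) (M.add_mem hSM M.one_mem))

/-- the Hesse relation for `u = (t+2)/(t-1)`. -/
theorem hes_relation_u (j t : F) (ht : Transcendental ℚ t)
    (hj : j * (t ^ 3 - 1) ^ 3 = 27 * t ^ 3 * (t ^ 3 + 8) ^ 3) :
    t ^ 3 - 1 ≠ 0 ∧ ((t + 2) / (t - 1)) ^ 3 - 1 ≠ 0 ∧
      j * (((t + 2) / (t - 1)) ^ 3 - 1) ^ 3 =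
        27 * ((t + 2) / (t - 1)) ^ 3 * (((t + 2) / (t - 1)) ^ 3 + 8) ^ 3 := by
  have h1 : t - 1 ≠ 0 := by
    have := hb2_aeval_ne_zero ht (X - 1) 0 (by simp)
    simpa [map_ofNat] using this
  have h2 : t ^ 2 + t + 1 ≠ 0 := by
    have := hb2_aeval_ne_zero ht (X ^ 2 + X + 1) 0 (by simp)
    simpa [map_ofNat] using this
  have ha1 : t ^ 3 - 1 ≠ 0 := by
    have e : t ^ 3 - 1 = (t - 1) * (t ^ 2 + t + 1) := by ring
    rw [e]
    exact mul_ne_zero h1 h2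
  obtain ⟨u, hu⟩ : ∃ u : F, u = (t + 2) / (t - 1) := ⟨_, rfl⟩
  rw [← hu]
  have hb1e : u ^ 3 - 1 = 9 * (t ^ 2 + t + 1) / (t - 1) ^ 3 := by
    rw [hu]
    field_simp
    ring
  have hb1 : u ^ 3 - 1 ≠ 0 := by
    rw [hb1e]
    exact div_ne_zero (mul_ne_zero (by norm_num) h2) (pow_ne_zero 3 h1)
  have hjt : j = 27 * t ^ 3 * (t ^ 3 + 8) ^ 3 / (t ^ 3 - 1) ^ 3 := by
    rw [eq_div_iff (pow_ne_zero 3 ha1)]
    exact hj
  refine ⟨ha1, hb1, ?_⟩
  rw [hjt, hu]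
  field_simp
  ring

end Alg

/-! ### the primitive cube root of unity is not rational -/

section Omega

theorem zetaC_three_pow_three : ((zetaC 3 : ℂˣ) : ℂ) ^ 3 = 1 := by
  rw [coe_zetaC]
  exact zetaH_nat_pow_self 3

theorem zetaC_three_ne_one : ((zetaC 3 : ℂˣ) : ℂ) ≠ 1 := by
  rw [coe_zetaC, zetaH]
  have h := Complex.isPrimitiveRoot_exp 3 (by norm_num)
  have h1 := h.ne_one (by norm_num)
  have e : (((3 : ℕ) : ℝ) : ℂ) = ((3 : ℕ) : ℂ) := by push_cast; rfl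
  rw [e]
  exact h1

theorem zetaC_three_quad : ((zetaC 3 : ℂˣ) : ℂ) ^ 2 + ((zetaC 3 : ℂˣ) : ℂ) + 1 = 0 := by
  have h3 := zetaC_three_pow_three
  have h1 := zetaC_three_ne_one
  have h : (((zetaC 3 : ℂˣ) : ℂ) - 1) * (((zetaC 3 : ℂˣ) : ℂ) ^ 2 + ((zetaC 3 : ℂˣ) : ℂ) + 1) = 0 := by
    linear_combination h3
  rcases mul_eq_zero.mp h with h | h
  · exact (h1 (sub_eq_zero.mp h)).elim
  · exact h

theorem rat_quad_ne_zero (r : ℚ) : (algebraMap ℚ ℂ r) ^ 2 + algebraMap ℚ ℂ r + 1 ≠ 0 := by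
  intro h
  have h1 : algebraMap ℚ ℂ (r ^ 2 + r + 1) = 0 := by
    rw [map_add, map_add, map_pow, map_one]
    exact h
  have h2 : r ^ 2 + r + 1 = 0 := (map_eq_zero (algebraMap ℚ ℂ)).mp h1
  nlinarith [sq_nonneg (2 * r + 1)]

theorem zetaC_three_pow_not_rat (n : ℕ) (hn : n = 1 ∨ n = 2) (r : ℚ) :
    ((zetaC 3 ^ n : ℂˣ) : ℂ) ≠ algebraMap ℚ ℂ r := by
  intro h
  apply rat_quad_ne_zero r
  rw [← h]
  have h3 := zetaC_three_pow_three
  have hq := zetaC_three_quad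
  rcases hn with rfl | rfl
  · rw [pow_one]
    exact hq
  · rw [Units.val_pow_eq_pow_val]
    linear_combination (((zetaC 3 : ℂˣ) : ℂ)) * h3 + hq

end Omega

/-! ### the units of determinant 3 -/

section Complex

theorem primPhi_three_zero_mem :
    ((primPhi 3 0 : ↥(fieldM ℂ (zetaC 3) 3)) : LaurentSeries ℂ) ∈ keyFq ℂ 9 := by
  have h : ((primPhi 3 0 : ↥(fieldM ℂ (zetaC 3) 3)) : LaurentSeries ℂ) =
      phiSer ℂ (zetaC 3) 3 (idxI 3 (by norm_num)) := rfl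
  rw [h, phiSer_eq_deltaRatio ℂ (zetaC 3) 3 _ (by rfl) 9 (by rfl)]
  exact mul_mem (hahnC_mem _ _) (coeffEmb_deltaRatioSeries_mem_complex 9 3 (N := 9)
    (dvd_refl 9) (by norm_num))

theorem primPhi_three_one_mem :
    ((primPhi 3 1 : ↥(fieldM ℂ (zetaC 3) 3)) : LaurentSeries ℂ) ∈ keyFq ℂ 9 := by
  have h : ((primPhi 3 1 : ↥(fieldM ℂ (zetaC 3) 3)) : LaurentSeries ℂ) =
      phiSer ℂ (zetaC 3) 3 (idxB 3 0 (by norm_num)) := rfl
  rw [h, phiSer_eq_deltaRatio ℂ (zetaC 3) 3 _ (by rfl) 1 (by rfl)]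
  exact mul_mem (hahnC_mem _ _) (coeffEmb_deltaRatioSeries_mem_complex 1 3 (N := 9)
    (one_dvd 9) (by norm_num))

/-- the units `Δ(ω^b x)/Δ(x³)`, `b = 1, 2`, do not have rational coefficients. -/
theorem phiSer_idxB_three_ne (b : ℕ) (hb : b < 3) (hb' : b = 1 ∨ b = 2) (s : LaurentSeries ℚ) :
    phiSer ℂ (zetaC 3) 3 (idxB 3 b hb) ≠ coeffEmb ℂ s := by
  intro h
  have h1 := (phiSer_coeff (A := ℂ) (zetaC 3) 3 (idxB 3 b hb)).1
  rw [h, coeffEmb_coeff] at h1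
  have ha : ((idxB 3 b hb).a : ℂ) = 1 := by
    show ((1 : ℕ) : ℂ) = 1
    simp
  have hc : (idxB 3 b hb).c = b := by
    show 3 / 3 * b = b
    simp
  rw [ha, one_pow, one_mul, hc] at h1
  exact zetaC_three_pow_not_rat b hb' _ h1.symm

theorem primPhi_three_mem_of_rat (i : Fin 4) (s : LaurentSeries ℚ)
    (h : ((primPhi 3 i : ↥(fieldM ℂ (zetaC 3) 3)) : LaurentSeries ℂ) = coeffEmb ℂ s) :
    ((primPhi 3 i : ↥(fieldM ℂ (zetaC 3) 3)) : LaurentSeries ℂ) ∈ keyFq ℂ 9 := by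
  fin_cases i
  · exact primPhi_three_zero_mem
  · exact primPhi_three_one_mem
  · exact (phiSer_idxB_three_ne 1 (by norm_num) (Or.inl rfl) s h).elim
  · exact (phiSer_idxB_three_ne 2 (by norm_num) (Or.inr rfl) s h).elim

set_option maxHeartbeats 1600000 in
/-- **HOST4 over `ℂ`, Hesse.** -/
theorem hesT_mem_keyFq_complex : hesT ℂ ∈ keyFq ℂ 9 := by
  haveI := charZero_laurentSeries_complex
  have htr := transcendental_rat_of_complex (transcendental_hesT ℂ)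
  have hj : jtSer ℂ 3 ∈ keyFq ℂ 9 := by
    rw [jtSer]
    exact qExpand_mem_keyFq ℂ (M := 1) (N := 9) (q := 3) (by norm_num) (jqModC_mem_keyFq 1)
  have hne : ∀ i, jtSer ℂ 3 - 756 -
      36 * ((primPhi 3 i : ↥(fieldM ℂ (zetaC 3) 3)) : LaurentSeries ℂ) ≠ 0 := fun i => by
    have := jtSer_sub_ne_zero (primIdx 3 i) 756 36
    rwa [map_ofNat, map_ofNat] at this
  obtain ⟨-, i, k, -, hi, hk⟩ := hesAlgStatement (F := LaurentSeries ℂ)
    (fieldM ℂ (zetaC 3) 3).toSubfield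
    (jtSer ℂ 3) (hesT ℂ) (fun i => ((primPhi 3 i : ↥(fieldM ℂ (zetaC 3) 3)) : LaurentSeries ℂ))
    (by rw [← coe_jt' (L := ℂ) (ζ := zetaC 3)]; exact (jt : ↥(fieldM ℂ (zetaC 3) 3)).2)
    (fun i => (primPhi 3 i).2)
    (hes_quartic (hes_e1 hesCoeffStatement) (hes_e4 hesCoeffStatement)
      (hes_e3 hesCoeffStatement) (hes_e2 hesCoeffStatement))
    hne hes_relation htr
  obtain ⟨ha1, hb1, hrel⟩ := hes_relation_u (jtSer ℂ 3) (hesT ℂ) htr hes_relation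
  -- rationality of the two units
  have hi_rat : ((primPhi 3 i : ↥(fieldM ℂ (zetaC 3) 3)) : LaurentSeries ℂ) =
      coeffEmb ℂ ((27 / (hesT ℚ ^ 3 - 1)) ^ 2) := by
    rw [hi, ← coeffEmb_hesT ℂ]
    simp only [map_pow, map_div₀, map_sub, map_one, map_ofNat]
  have hk_rat : ((primPhi 3 k : ↥(fieldM ℂ (zetaC 3) 3)) : LaurentSeries ℂ) =
      coeffEmb ℂ ((27 / (((hesT ℚ + 2) / (hesT ℚ - 1)) ^ 3 - 1)) ^ 2) := by
    rw [hk, ← coeffEmb_hesT ℂ]
    simp only [map_pow, map_div₀, map_sub, map_add, map_one, map_ofNat]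
  have hiM := primPhi_three_mem_of_rat i _ hi_rat
  have hkM := primPhi_three_mem_of_rat k _ hk_rat
  have haM : hesT ℂ ^ 3 ∈ (keyFq ℂ 9).toSubfield :=
    hes_root_mem (keyFq ℂ 9).toSubfield (jtSer ℂ 3) (hesT ℂ ^ 3) _ hj hiM hi (hne i) ha1
      hes_relation
  have hbM : ((hesT ℂ + 2) / (hesT ℂ - 1)) ^ 3 ∈ (keyFq ℂ 9).toSubfield :=
    hes_root_mem (keyFq ℂ 9).toSubfield (jtSer ℂ 3) (((hesT ℂ + 2) / (hesT ℂ - 1)) ^ 3) _ hj hkM
      hk (hne k) hb1 hrel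
  exact hes_coord_mem (keyFq ℂ 9).toSubfield (hesT ℂ) htr haM hbM

end Complex

section Descent

variable (K : Type*) [Field K] [Algebra ℚ K]

/-- **HOST4, Hesse**: the Hesse coordinate is a modular function of level 9 in the host
variable. -/
theorem hesT_mem_keyFq : hesT K ∈ keyFq K 9 := by
  have h0 : coeffEmb ℂ (hesT ℚ) ∈ laurentBaseChange ℂ (modularFunctionFieldFull 9) := by
    rw [coeffEmb_hesT]
    exact hesT_mem_keyFq_complex
  have h1 : hesT ℚ ∈ laurentBaseChange ℚ (modularFunctionFieldFull 9) :=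
    Fermat.Agent.GR.mem_laurentBaseChange_of_iota_mem' (K := ℚ) (L := ℂ)
      (modularFunctionFieldFull 9) (hesT ℚ) h0
  have h2 := Fermat.Agent.JA.coeffMap_hom_mem_laurentBaseChange (algebraMap ℚ K)
    (modularFunctionFieldFull 9) h1
  rw [← coeffEmb_hesT K]
  exact h2

/-- **HOST4, Hesse**: the Hesse host of level `N` lies in the function field of `X₀(9N)`
(in the host variable). -/
theorem hesE_le_keyFq (N : ℕ) [NeZero N] [NeZero (9 * N)] : hesE K N ≤ keyFq K (9 * N) := by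
  haveI : NeZero (3 * 3 * N) := ⟨by have := NeZero.ne N; omega⟩
  haveI : NeZero (3 * 3) := ⟨by norm_num⟩
  have h := Etu_le_keyFq K 3 N (hesT K) (hesT_mem_keyFq K)
  exact h

/-- the same for any level divisible by `9 N`. -/
theorem hesE_le_keyFq_of_dvd (N N' : ℕ) [NeZero N] [NeZero N'] (hdvd : 9 * N ∣ N') :
    hesE K N ≤ keyFq K N' := by
  haveI : NeZero (3 * 3) := ⟨by norm_num⟩
  exact Etu_le_keyFq_of_dvd K 3 N N' hdvd (hesT K) (hesT_mem_keyFq K)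

end Descent

end

end Fermat.Agent.S36
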