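/-
S36 [HOST4] — helper6 — part 3: **the Atkin–Lehner involution on the hosts.**
For a tower field `E_N = K(t) · F_{N,w} ⊆ K⸨x⸩` whose coordinate `t` is a modular function of
level `w²` in the host variable (Legendre: `w = 2`, Hesse: `w = 3`), `E_{Mq} ≤ F_{Lq}` for every
level `L` with `w² M ∣ L`, and the Atkin–Lehner involution `W_q` of `F_{Lq}` (`q ∤ L`) restricts
to an involution `wE` of `E_{Mq}` with `wE ∘ A = B`, `wE ∘ B = A`, which induces the
Atkin–Lehner involution of `F_{Mq}` on the host image `F_{Mq,w}`.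
-/
import Mathlib
import Fermat.Agent.S36.HOST4_helper6_Hes
import Fermat.Agent.S35.FROBKRON_helper6_Key

set_option autoImplicit false
set_option linter.unusedSectionVars false
set_option linter.style.haveILetI false
set_option synthInstance.maxHeartbeats 200000

open HahnSeries ModularCurve Fermat.Agent.Igusa Fermat.Agent.X0N Fermat.Agent.RatStr
open IntermediateField Fermat.Agent.JA Fermat.Agent.SS Fermat.Agent.S35

namespace Fermat.Agent.S36

noncomputable section

section Ext

variable (K : Type*) [Field K] [Algebra ℚ K] {M q : ℕ} [NeZero M] [NeZero q] [NeZero (M * q)]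

/-- two ring homomorphisms out of `F_{Mq}` which agree on `A F_M` and `B F_M` are equal. -/
theorem keyFq_ringHom_ext (hq : q.Prime) {X : Type*} [Field X]
    (θ θ' : ↥(keyFq K (M * q)) →+* X)
    (hA : ∀ a : ↥(keyFq K M), θ (keyFqA K M q a) = θ' (keyFqA K M q a))
    (hB : ∀ b : ↥(keyFq K M), θ (keyFqB K M q b) = θ' (keyFqB K M q b)) : θ = θ' := by
  ext z
  induction z using induction_alpha_beta M q hq with
  | hconst c =>
    have := hA (algebraMap K _ c)
    rwa [AlgHom.commutes] at this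
  | hα y =>
    have := hA y
    rwa [keyFqA_eq_heckeAlphaBar] at this
  | hβ y =>
    have := hB y
    rwa [keyFqB_eq_heckeBetaBar] at this
  | hadd a b h1 h2 => rw [map_add, map_add, h1, h2]
  | hmul a b h1 h2 => rw [map_mul, map_mul, h1, h2]
  | hinv a h1 => rw [map_inv₀, map_inv₀, h1]

end Ext

section EtuExt

variable {K : Type*} [Field K]

/-- two `K`-algebra homomorphisms out of a tower field `K(t) · F(u)` which agree on `t`, `u` and
`F` are equal. -/
theorem Etu_algHom_ext {X : Type*} [Field X] [Algebra K X]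
    (F : IntermediateField K (LaurentSeries K)) (t u : LaurentSeries K)
    (f g : ↥(Host.Etu F t u) →ₐ[K] X)
    (ht : ∀ h : t ∈ Host.Etu F t u, f ⟨t, h⟩ = g ⟨t, h⟩)
    (hu : ∀ h : u ∈ Host.Etu F t u, f ⟨u, h⟩ = g ⟨u, h⟩)
    (hF : ∀ c (_ : c ∈ F) (h : c ∈ Host.Etu F t u), f ⟨c, h⟩ = g ⟨c, h⟩) : f = g := by
  set T : IntermediateField K (LaurentSeries K) :=
    Subfield.toIntermediateField
      ((RingHom.eqLocusField (f : ↥(Host.Etu F t u) →+* X) (g : ↥(Host.Etu F t u) →+* X)).map
        ((Host.Etu F t u).val : ↥(Host.Etu F t u) →+* LaurentSeries K))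
      (fun c => ⟨algebraMap K _ c, by
        show f (algebraMap K _ c) = g (algebraMap K _ c)
        rw [AlgHom.commutes, AlgHom.commutes], rfl⟩) with hT
  have hmem : ∀ s : LaurentSeries K, s ∈ T ↔ ∃ z : ↥(Host.Etu F t u), f z = g z ∧
      (z : LaurentSeries K) = s := fun s => Iff.rfl
  have hle : Host.Etu F t u ≤ T := by
    have h1 : t ∈ Host.Etu F t u :=
      (le_sup_left : K⟮t⟯ ≤ Host.Etu F t u) (IntermediateField.mem_adjoin_simple_self K t)
    have h2 : Host.Fu F u ≤ Host.Etu F t u := le_sup_right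
    have h3 : u ∈ Host.Etu F t u := h2 (Host.mem_Fu_self F u)
    have h4 : F ≤ Host.Etu F t u := le_trans (le_sup_left : F ≤ Host.Fu F u) h2
    conv_lhs => rw [Host.Etu, Host.Fu]
    refine sup_le ?_ (sup_le ?_ ?_)
    · rw [IntermediateField.adjoin_simple_le_iff, hmem]
      exact ⟨⟨t, h1⟩, ht h1, rfl⟩
    · intro c hc
      rw [hmem]
      exact ⟨⟨c, h4 hc⟩, hF c hc (h4 hc), rfl⟩
    · rw [IntermediateField.adjoin_simple_le_iff, hmem]
      exact ⟨⟨u, h3⟩, hu h3, rfl⟩
  apply AlgHom.ext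
  intro z
  obtain ⟨z', hz', hzz⟩ := (hmem _).mp (hle z.2)
  have e : z' = z := Subtype.ext hzz
  rwa [e] at hz'

end EtuExt

section Dilate

variable (K : Type*) [Field K] [Algebra ℚ K] [Algebra K ℂ]
  {M q : ℕ} [NeZero M] [NeZero q] [NeZero (M * q)]
  (w : ℕ) [NeZero w] (L : ℕ) [NeZero L] [NeZero (L * q)]
  {x y x' y' : ℤ} (h : (q : ℤ) * x + M * y = 1) (h' : (q : ℤ) * x' + L * y' = 1) (hq : q.Prime)
  (hwL : w * M ∣ L)

/-- dilation `x ↦ x^w` from `F_M` to `F_L` (`w M ∣ L`). -/
def keyFqDil (M L : ℕ) [NeZero M] [NeZero L] (w : ℕ) [NeZero w] (hwL : w * M ∣ L) :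
    ↥(keyFq K M) →ₐ[K] ↥(keyFq K L) :=
  dilateAlgHom K w (keyFq K M) (keyFq K L) (fun _ hf => qExpand_mem_keyFq K hwL hf)

@[simp] theorem coe_keyFqDil (M L : ℕ) [NeZero M] [NeZero L] (w : ℕ) [NeZero w]
    (hwL : w * M ∣ L) (f : ↥(keyFq K M)) :
    ((keyFqDil K M L w hwL f : ↥(keyFq K L)) : LaurentSeries K) =
      qExpand K w (f : LaurentSeries K) := rfl

include hwL in
theorem dil_dvd_mul : w * (M * q) ∣ L * q := by
  rw [← mul_assoc]
  exact Nat.mul_dvd_mul_right hwL q

/-- **the Atkin–Lehner involution commutes with dilation by `w`** (`w M ∣ L`, `q ∤ L`). -/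
theorem atkinLehnerN_keyFqDil (g : ↥(keyFq K (M * q))) :
    atkinLehnerN (algebraMap K ℂ) h' hq (keyFqDil K (M * q) (L * q) w (dil_dvd_mul w L hwL) g) =
      keyFqDil K (M * q) (L * q) w (dil_dvd_mul w L hwL)
        (atkinLehnerN (algebraMap K ℂ) h hq g) := by
  have key : ((atkinLehnerN (algebraMap K ℂ) h' hq).comp
      ((keyFqDil K (M * q) (L * q) w (dil_dvd_mul w L hwL) :
        ↥(keyFq K (M * q)) →ₐ[K] ↥(keyFq K (L * q))) : ↥(keyFq K (M * q)) →+* _)) =
      ((keyFqDil K (M * q) (L * q) w (dil_dvd_mul w L hwL) :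
        ↥(keyFq K (M * q)) →ₐ[K] ↥(keyFq K (L * q))) : ↥(keyFq K (M * q)) →+* _).comp
        (atkinLehnerN (algebraMap K ℂ) h hq) := by
    apply keyFq_ringHom_ext K hq
    · intro a
      simp only [RingHom.comp_apply, RingHom.coe_coe]
      rw [atkinLehnerN_keyFqA K (algebraMap K ℂ) h hq a]
      have e1 : keyFqDil K (M * q) (L * q) w (dil_dvd_mul w L hwL) (keyFqA K M q a) =
          keyFqA K L q (keyFqDil K M L w hwL a) := by
        apply Subtype.ext
        rw [coe_keyFqDil, coe_keyFqA, coe_keyFqA, coe_keyFqDil]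
      have e2 : keyFqDil K (M * q) (L * q) w (dil_dvd_mul w L hwL) (keyFqB K M q a) =
          keyFqB K L q (keyFqDil K M L w hwL a) := by
        apply Subtype.ext
        rw [coe_keyFqDil, coe_keyFqB, coe_keyFqB, coe_keyFqDil, qExpand_qExpand, qExpand_qExpand]
        exact qExpand_congr (mul_comm w q) _
      rw [e1, e2, atkinLehnerN_keyFqA K (algebraMap K ℂ) h' hq]
    · intro b
      simp only [RingHom.comp_apply, RingHom.coe_coe]
      rw [atkinLehnerN_keyFqB K (algebraMap K ℂ) h hq b]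
      have e1 : keyFqDil K (M * q) (L * q) w (dil_dvd_mul w L hwL) (keyFqA K M q b) =
          keyFqA K L q (keyFqDil K M L w hwL b) := by
        apply Subtype.ext
        rw [coe_keyFqDil, coe_keyFqA, coe_keyFqA, coe_keyFqDil]
      have e2 : keyFqDil K (M * q) (L * q) w (dil_dvd_mul w L hwL) (keyFqB K M q b) =
          keyFqB K L q (keyFqDil K M L w hwL b) := by
        apply Subtype.ext
        rw [coe_keyFqDil, coe_keyFqB, coe_keyFqB, coe_keyFqDil, qExpand_qExpand, qExpand_qExpand]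
        exact qExpand_congr (mul_comm w q) _
      rw [e1, e2, atkinLehnerN_keyFqB K (algebraMap K ℂ) h' hq]
  exact RingHom.congr_fun key g

end Dilate

section Host

variable (K : Type*) [Field K] [Algebra ℚ K] [Algebra K ℂ]
  {M q : ℕ} [NeZero M] [NeZero q] [NeZero (M * q)]
  (w : ℕ) [NeZero w] [NeZero (w * w)] (L : ℕ) [NeZero L] [NeZero (L * q)]
  {x y x' y' : ℤ} (h : (q : ℤ) * x + M * y = 1) (h' : (q : ℤ) * x' + L * y' = 1) (hq : q.Prime)
  (hL : w * w * M ∣ L) (t : LaurentSeries K) (ht : t ∈ keyFq K (w * w))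
  (htq : qExpand K q t ∈ Host.Etu (keyFw K (M * q) w) t 1)

include hL in
theorem host_dvd_one : w * M ∣ L :=
  dvd_trans (by rw [mul_assoc]; exact dvd_mul_left (w * M) w) hL

include hL in
theorem host_dvd_two : w * w ∣ L := dvd_trans (dvd_mul_right (w * w) M) hL

include hL in
theorem host_dvd_three : w * w * (M * q) ∣ L * q := by
  rw [← mul_assoc]
  exact Nat.mul_dvd_mul_right hL q

include hL ht in
theorem Etu_le_keyFq_mul : Host.Etu (keyFw K (M * q) w) t 1 ≤ keyFq K (L * q) :=
  Etu_le_keyFq_of_dvd K w (M * q) (L * q) (host_dvd_three w L hL) t ht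

variable (M) in
/-- the set of series of `F_{Lq}` whose Atkin–Lehner transform lies in the tower field. -/
def alHostSet : IntermediateField K (LaurentSeries K) :=
  Subfield.toIntermediateField
    ((((Host.Etu (keyFw K (M * q) w) t 1).toSubfield.comap
      ((keyFq K (L * q)).val : ↥(keyFq K (L * q)) →+* LaurentSeries K)).comap
        (atkinLehnerN (algebraMap K ℂ) h' hq)).map
          ((keyFq K (L * q)).val : ↥(keyFq K (L * q)) →+* LaurentSeries K))
    (fun c => by
      refine ⟨algebraMap K _ c, ?_, rfl⟩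
      show ((atkinLehnerN (algebraMap K ℂ) h' hq (algebraMap K _ c) : ↥(keyFq K (L * q))) :
        LaurentSeries K) ∈ Host.Etu (keyFw K (M * q) w) t 1
      rw [atkinLehnerN_algebraMap]
      exact (Host.Etu (keyFw K (M * q) w) t 1).algebraMap_mem c)

theorem mem_alHostSet_iff (s : LaurentSeries K) :
    s ∈ alHostSet K M w L h' hq t ↔ ∃ z : ↥(keyFq K (L * q)),
      ((atkinLehnerN (algebraMap K ℂ) h' hq z : ↥(keyFq K (L * q))) : LaurentSeries K) ∈
        Host.Etu (keyFw K (M * q) w) t 1 ∧ (z : LaurentSeries K) = s := Iff.rfl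

include h hL ht htq in
theorem Etu_le_alHostSet :
    Host.Etu (keyFw K (M * q) w) t 1 ≤ alHostSet K M w L h' hq t := by
  have hF : keyFw K (M * q) w ≤ Host.Etu (keyFw K (M * q) w) t 1 :=
    le_trans (le_sup_left : keyFw K (M * q) w ≤ Host.Fu (keyFw K (M * q) w) 1) le_sup_right
  conv_lhs => rw [Host.Etu, Host.Fu]
  refine sup_le ?_ (sup_le ?_ ?_)
  · rw [IntermediateField.adjoin_simple_le_iff, mem_alHostSet_iff]
    refine ⟨keyFqA K L q ⟨t, keyFq_le_of_dvd K (host_dvd_two w L hL) ht⟩, ?_, ?_⟩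
    · rw [atkinLehnerN_keyFqA K (algebraMap K ℂ) h' hq, coe_keyFqB]
      exact htq
    · rw [coe_keyFqA]
  · rintro _ ⟨g, hg, rfl⟩
    rw [mem_alHostSet_iff]
    refine ⟨keyFqDil K (M * q) (L * q) w (dil_dvd_mul w L (host_dvd_one w L hL)) ⟨g, hg⟩, ?_, ?_⟩
    · rw [atkinLehnerN_keyFqDil K w L h h' hq (host_dvd_one w L hL), coe_keyFqDil]
      exact hF (qExpand_mem_hostImage (SetLike.coe_mem _))
    · rw [coe_keyFqDil]
      rfl
  · rw [IntermediateField.adjoin_simple_le_iff, mem_alHostSet_iff]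
    refine ⟨1, ?_, rfl⟩
    rw [map_one]
    exact one_mem _

include h hL ht htq in
/-- **the Atkin–Lehner involution of `F_{Lq}` preserves the tower field of level `M q`.** -/
theorem atkinLehnerN_mem_Etu (z : ↥(keyFq K (L * q)))
    (hz : (z : LaurentSeries K) ∈ Host.Etu (keyFw K (M * q) w) t 1) :
    ((atkinLehnerN (algebraMap K ℂ) h' hq z : ↥(keyFq K (L * q))) : LaurentSeries K) ∈
      Host.Etu (keyFw K (M * q) w) t 1 := by
  obtain ⟨z', hz', hzz⟩ := (mem_alHostSet_iff K w L h' hq t _).mp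
    (Etu_le_alHostSet K w L h h' hq hL t ht htq hz)
  have e : z' = z := Subtype.ext hzz
  rwa [e] at hz'

/-- the Atkin–Lehner involution as a `K`-algebra homomorphism. -/
def atkinLehnerNAlg : ↥(keyFq K (L * q)) →ₐ[K] ↥(keyFq K (L * q)) :=
  { atkinLehnerN (algebraMap K ℂ) h' hq with
    commutes' := fun c => atkinLehnerN_algebraMap (algebraMap K ℂ) h' hq c }

@[simp] theorem atkinLehnerNAlg_apply (z : ↥(keyFq K (L * q))) :
    atkinLehnerNAlg K L h' hq z = atkinLehnerN (algebraMap K ℂ) h' hq z := rfl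

variable (M q) in
/-- the inclusion of the tower field of level `M q` into `F_{Lq}`. -/
def hostToFull : ↥(Host.Etu (keyFw K (M * q) w) t 1) →ₐ[K] ↥(keyFq K (L * q)) :=
  IntermediateField.inclusion (Etu_le_keyFq_mul K w L hL t ht)

@[simp] theorem coe_hostToFull (z : ↥(Host.Etu (keyFw K (M * q) w) t 1)) :
    ((hostToFull K M q w L hL t ht z : ↥(keyFq K (L * q))) : LaurentSeries K) = z :=
  IntermediateField.coe_inclusion _ z

/-- the Atkin–Lehner involution on the tower field, with values in `K⸨x⸩`. -/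
def alEtuAux : ↥(Host.Etu (keyFw K (M * q) w) t 1) →ₐ[K] LaurentSeries K :=
  ((keyFq K (L * q)).val).comp ((atkinLehnerNAlg K L h' hq).comp (hostToFull K M q w L hL t ht))

theorem alEtuAux_apply (z : ↥(Host.Etu (keyFw K (M * q) w) t 1)) :
    alEtuAux K w L h' hq hL t ht z =
      ((atkinLehnerN (algebraMap K ℂ) h' hq (hostToFull K M q w L hL t ht z) :
        ↥(keyFq K (L * q))) : LaurentSeries K) := by
  rw [alEtuAux, AlgHom.comp_apply, AlgHom.comp_apply, atkinLehnerNAlg_apply,
    IntermediateField.val_mk]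

include h htq in
theorem alEtuAux_mem (z : ↥(Host.Etu (keyFw K (M * q) w) t 1)) :
    alEtuAux K w L h' hq hL t ht z ∈ (Host.Etu (keyFw K (M * q) w) t 1).toSubalgebra := by
  rw [alEtuAux_apply]
  exact atkinLehnerN_mem_Etu K w L h h' hq hL t ht htq (hostToFull K M q w L hL t ht z)
    (by rw [coe_hostToFull]; exact z.2)

/-- **the Atkin–Lehner involution on the tower field**, as an algebra homomorphism. -/
def alEtuHom : ↥(Host.Etu (keyFw K (M * q) w) t 1) →ₐ[K] ↥(Host.Etu (keyFw K (M * q) w) t 1) :=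
  AlgHom.codRestrict (alEtuAux K w L h' hq hL t ht)
    (Host.Etu (keyFw K (M * q) w) t 1).toSubalgebra
    (alEtuAux_mem K w L h h' hq hL t ht htq)

theorem coe_alEtuHom (z : ↥(Host.Etu (keyFw K (M * q) w) t 1)) :
    ((alEtuHom K w L h h' hq hL t ht htq z : ↥(Host.Etu (keyFw K (M * q) w) t 1)) :
      LaurentSeries K) =
      ((atkinLehnerN (algebraMap K ℂ) h' hq (hostToFull K M q w L hL t ht z) :
        ↥(keyFq K (L * q))) : LaurentSeries K) := by
  rw [alEtuHom, AlgHom.coe_codRestrict, alEtuAux_apply]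

theorem hostToFull_alEtuHom (z : ↥(Host.Etu (keyFw K (M * q) w) t 1)) :
    hostToFull K M q w L hL t ht (alEtuHom K w L h h' hq hL t ht htq z) =
      atkinLehnerN (algebraMap K ℂ) h' hq (hostToFull K M q w L hL t ht z) :=
  Subtype.ext (by rw [coe_hostToFull, coe_alEtuHom])

theorem alEtuHom_alEtuHom (z : ↥(Host.Etu (keyFw K (M * q) w) t 1)) :
    alEtuHom K w L h h' hq hL t ht htq (alEtuHom K w L h h' hq hL t ht htq z) = z := by
  have hinj : Function.Injective (hostToFull K M q w L hL t ht) :=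
    (hostToFull K M q w L hL t ht).injective
  apply hinj
  rw [hostToFull_alEtuHom, hostToFull_alEtuHom, atkinLehnerN_atkinLehnerN]

/-- **the Atkin–Lehner involution on the tower field.** -/
def alEtu : ↥(Host.Etu (keyFw K (M * q) w) t 1) ≃ₐ[K] ↥(Host.Etu (keyFw K (M * q) w) t 1) :=
  AlgEquiv.ofAlgHom (alEtuHom K w L h h' hq hL t ht htq) (alEtuHom K w L h h' hq hL t ht htq)
    (AlgHom.ext fun z => alEtuHom_alEtuHom K w L h h' hq hL t ht htq z)
    (AlgHom.ext fun z => alEtuHom_alEtuHom K w L h h' hq hL t ht htq z)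

theorem coe_alEtu (z : ↥(Host.Etu (keyFw K (M * q) w) t 1)) :
    ((alEtu K w L h h' hq hL t ht htq z : ↥(Host.Etu (keyFw K (M * q) w) t 1)) :
      LaurentSeries K) =
      ((atkinLehnerN (algebraMap K ℂ) h' hq (hostToFull K M q w L hL t ht z) :
        ↥(keyFq K (L * q))) : LaurentSeries K) := by
  rw [← coe_alEtuHom K w L h h' hq hL t ht htq z, alEtu, AlgEquiv.ofAlgHom_apply]

theorem alEtu_alEtu (z : ↥(Host.Etu (keyFw K (M * q) w) t 1)) :
    alEtu K w L h h' hq hL t ht htq (alEtu K w L h h' hq hL t ht htq z) = z := by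
  rw [alEtu, AlgEquiv.ofAlgHom_apply]
  exact alEtuHom_alEtuHom K w L h h' hq hL t ht htq z

/-- on the host image of `F_{Mq}` the involution is the Atkin–Lehner involution of `F_{Mq}`. -/
theorem coe_alEtu_of_coe_eq (z : ↥(Host.Etu (keyFw K (M * q) w) t 1)) (g : ↥(keyFq K (M * q)))
    (hz : (z : LaurentSeries K) = qExpand K w (g : LaurentSeries K)) :
    ((alEtu K w L h h' hq hL t ht htq z : ↥(Host.Etu (keyFw K (M * q) w) t 1)) :
      LaurentSeries K) =
      qExpand K w ((atkinLehnerN (algebraMap K ℂ) h hq g : ↥(keyFq K (M * q))) :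
        LaurentSeries K) := by
  have e : hostToFull K M q w L hL t ht z =
      keyFqDil K (M * q) (L * q) w (dil_dvd_mul w L (host_dvd_one w L hL)) g :=
    Subtype.ext (by rw [coe_hostToFull, coe_keyFqDil, hz])
  rw [coe_alEtu, e, atkinLehnerN_keyFqDil K w L h h' hq (host_dvd_one w L hL), coe_keyFqDil]

/-- the involution maps `t` to `t(x^q)`. -/
theorem coe_alEtu_of_coe_eq_t (z : ↥(Host.Etu (keyFw K (M * q) w) t 1))
    (hz : (z : LaurentSeries K) = t) :
    ((alEtu K w L h h' hq hL t ht htq z : ↥(Host.Etu (keyFw K (M * q) w) t 1)) :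
      LaurentSeries K) = qExpand K q t := by
  have e : hostToFull K M q w L hL t ht z =
      keyFqA K L q ⟨t, keyFq_le_of_dvd K (host_dvd_two w L hL) ht⟩ :=
    Subtype.ext (by rw [coe_hostToFull, coe_keyFqA, hz])
  rw [coe_alEtu, e, atkinLehnerN_keyFqA K (algebraMap K ℂ) h' hq, coe_keyFqB]

include h ht htq in
/-- **`wE ∘ A = B`** on the tower fields: the involution maps a series of the tower field of level
`M` to its dilation `x ↦ x^q`. -/
theorem coe_alEtu_of_mem (z : ↥(Host.Etu (keyFw K (M * q) w) t 1))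
    (hz : (z : LaurentSeries K) ∈ Host.Etu (keyFw K M w) t 1) :
    ((alEtu K w L h h' hq hL t ht htq z : ↥(Host.Etu (keyFw K (M * q) w) t 1)) :
      LaurentSeries K) = qExpand K q (z : LaurentSeries K) := by
  have hle : Host.Etu (keyFw K M w) t 1 ≤ Host.Etu (keyFw K (M * q) w) t 1 :=
    Etu_le_of_dvd K w (dvd_mul_right M q) t
  set f : ↥(Host.Etu (keyFw K M w) t 1) →ₐ[K] LaurentSeries K :=
    ((Host.Etu (keyFw K (M * q) w) t 1).val).comp
      ((alEtu K w L h h' hq hL t ht htq : _ →ₐ[K] _).comp (IntermediateField.inclusion hle))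
    with hf
  set g : ↥(Host.Etu (keyFw K M w) t 1) →ₐ[K] LaurentSeries K :=
    (qExpandAlgHomC K q).comp (Host.Etu (keyFw K M w) t 1).val with hg
  have hfa : ∀ y : ↥(Host.Etu (keyFw K M w) t 1), f y =
      ((alEtu K w L h h' hq hL t ht htq (IntermediateField.inclusion hle y) :
        ↥(Host.Etu (keyFw K (M * q) w) t 1)) : LaurentSeries K) := fun y => rfl
  have hga : ∀ y : ↥(Host.Etu (keyFw K M w) t 1), g y = qExpand K q (y : LaurentSeries K) :=
    fun y => rfl
  have key : f = g := by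
    apply Etu_algHom_ext
    · intro h1
      rw [hfa, hga]
      exact coe_alEtu_of_coe_eq_t K w L h h' hq hL t ht htq _ rfl
    · intro h1
      have e : (⟨1, h1⟩ : ↥(Host.Etu (keyFw K M w) t 1)) = 1 := rfl
      rw [e, map_one, map_one]
    · rintro c ⟨g₀, hg₀, rfl⟩ h1
      rw [hfa, hga]
      rw [coe_alEtu_of_coe_eq K w L h h' hq hL t ht htq _ (keyFqA K M q ⟨g₀, hg₀⟩)
        (by rw [coe_keyFqA]; rfl), atkinLehnerN_keyFqA K (algebraMap K ℂ) h hq, coe_keyFqB]
      show qExpand K w (qExpand K q g₀) = qExpand K q (qExpand K w g₀)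
      rw [qExpand_qExpand, qExpand_qExpand]
      exact qExpand_congr (mul_comm w q) _
  have := AlgHom.congr_fun key ⟨(z : LaurentSeries K), hz⟩
  rw [hfa, hga] at this
  have e : IntermediateField.inclusion hle ⟨(z : LaurentSeries K), hz⟩ = z := Subtype.ext rfl
  rw [e] at this
  exact this

include h ht htq in
/-- **`wE ∘ B = A`** on the tower fields. -/
theorem alEtu_eq_of_coe_eq_qExpand (z z' : ↥(Host.Etu (keyFw K (M * q) w) t 1))
    (hz : (z : LaurentSeries K) ∈ Host.Etu (keyFw K M w) t 1)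
    (hz' : (z' : LaurentSeries K) = qExpand K q (z : LaurentSeries K)) :
    alEtu K w L h h' hq hL t ht htq z' = z := by
  have h1 : alEtu K w L h h' hq hL t ht htq z = z' :=
    Subtype.ext (by rw [coe_alEtu_of_mem K w L h h' hq hL t ht htq z hz, hz'])
  rw [← h1, alEtu_alEtu]

end Host

end

end Fermat.Agent.S36
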