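/-
S36 [HOST4] — helper6 — part 4: **the second sheet of a host of level `M q` is the Atkin–Lehner
transform of the first**: `hostW0 = (gaussValSub).comap wE` as soon as `hostW0` is the only
extension of `w_0` to the host (which follows from the two-sheet theorem), and the resulting
host-level Atkin–Lehner literal for the Legendre and Hesse hosts.
-/
import Mathlib
import Fermat.Agent.S36.HOST4_helper6_AL
import Fermat.Agent.S36.MODEL36_helper6_Sheets
import Fermat.Agent.SS.MODEL_helper7_Defs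
import Fermat.Agent.SS.UNODEHOST_helper6_Val
import Fermat.Agent.SS.FIELD_helper6_W0
import Fermat.Agent.SS.BASE_helper1_Leg
import Fermat.Agent.SS.BASE_helper1_Hes

set_option autoImplicit false
set_option linter.unusedSectionVars false
set_option linter.style.haveILetI false
set_option synthInstance.maxHeartbeats 200000

open HahnSeries ModularCurve Fermat.Agent.Igusa Fermat.Agent.X0N Fermat.Agent.RatStr
open IntermediateField Fermat.Agent.JA Fermat.Agent.SS Fermat.Agent.S35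

namespace Fermat.Agent.S36

noncomputable section

section W0F

variable (K : Type*) [Field K] [Algebra ℚ K] [Algebra K ℂ]
  {M q : ℕ} [NeZero M] [NeZero q] [NeZero (M * q)] (w : ℕ) [NeZero w]
  {x y : ℤ} (h : (q : ℤ) * x + M * y = 1) (hq : q.Prime)
  (R : Type*) [CommRing R] [IsDomain R] [IsDiscreteValuationRing R]
  [Algebra R K] [IsFractionRing R K]

/-- **the two sheets of the host image of `F_{Mq}` are different.** -/
theorem hostW0F_ne_gaussValSub {π : R} (hπ : Irreducible π) (hqπ : (q : R) ∈ Ideal.span {π}) :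
    hostW0F K (algebraMap K ℂ) w h hq R ≠
      gaussValSub R K (keyFw K (M * q) w) (keyFw_le_gaussField R K (M * q) w) := by
  intro heq
  obtain ⟨c, hc1, hU, -⟩ :=
    exists_atkinLehnerN_modUnit_mem_gaussInt R (algebraMap K ℂ) h hπ hq hqπ
  set U' : ↥(keyFq K (M * q)) := modUnit K (M * q) q (Dvd.intro_left M rfl) *
    (algebraMap K _ (algebraMap R K π ^ c))⁻¹ with hU'
  have h1 : hostImageEquiv K w (keyFq K (M * q)) U' ∈ hostW0F K (algebraMap K ℂ) w h hq R := by
    rw [mem_hostW0F_iff, alHost_hostImageEquiv, coe_hostImageEquiv]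
    exact (gaussHomQExpand R K w).map_mem_gaussInt hU
  rw [heq, mem_gaussValSub_iff, coe_hostImageEquiv,
    qExpand_mem_gaussInt_iff' w (laurentBaseChange_full_le_gaussField R K (M * q) U'.2)] at h1
  -- the modular unit is a Gauss unit
  have h2 : ((modUnit K (M * q) q (Dvd.intro_left M rfl))⁻¹ : ↥(keyFq K (M * q))).1 ∈
      gaussInt R K := by
    rw [modUnit, deltaRatio_inv, coe_deltaRatio]
    exact coeffEmb_deltaRatioSeries_mem_gaussInt R K q 1
  have h3 := (gaussInt R K).mul_mem h1 h2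
  have hm0 : modUnit K (M * q) q (Dvd.intro_left M rfl) ≠ 0 := by
    rw [modUnit]
    exact deltaRatio_ne_zero 1 q K (M * q) _ _
  have e : (U' : LaurentSeries K) *
      ((modUnit K (M * q) q (Dvd.intro_left M rfl))⁻¹ : ↥(keyFq K (M * q))).1 =
      ((HahnSeries.C (algebraMap R K π) : LaurentSeries K) ^ c)⁻¹ := by
    rw [← IntermediateField.coe_mul, hU']
    have e1 : modUnit K (M * q) q (Dvd.intro_left M rfl) *
        (algebraMap K ↥(keyFq K (M * q)) (algebraMap R K π ^ c))⁻¹ *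
        (modUnit K (M * q) q (Dvd.intro_left M rfl))⁻¹ =
        (algebraMap K ↥(keyFq K (M * q)) (algebraMap R K π ^ c))⁻¹ := by
      field_simp
    rw [e1, IntermediateField.coe_inv, IntermediateField.coe_algebraMap_apply, map_pow,
      LaurentSeries.algebraMap_apply]
  rw [e] at h3
  apply inv_uniformizer_notMem_gaussInt (L := K) hπ
  have hC : (HahnSeries.C (algebraMap R K π) : LaurentSeries K) ≠ 0 :=
    C_algebraMap_ne_zero (L := K) hπ.ne_zero
  have e2 : ((HahnSeries.C (algebraMap R K π) : LaurentSeries K))⁻¹ =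
      (HahnSeries.C (algebraMap R K π) : LaurentSeries K) ^ (c - 1) *
        ((HahnSeries.C (algebraMap R K π) : LaurentSeries K) ^ c)⁻¹ := by
    have hc : c = (c - 1) + 1 := by omega
    conv_rhs => rw [hc, pow_succ]
    simp only [Nat.add_sub_cancel]
    field_simp
  rw [e2]
  exact (gaussInt R K).mul_mem ((gaussInt R K).pow_mem (C_algebraMap_mem_gaussInt π) _) h3

end W0F

section HostSheet

variable (K : Type*) [Field K] [Algebra ℚ K] [Algebra K ℂ]
  {M q : ℕ} [NeZero M] [NeZero q] [NeZero (M * q)]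
  (w : ℕ) [NeZero w] [NeZero (w * w)] (L : ℕ) [NeZero L] [NeZero (L * q)]
  {x y x' y' : ℤ} (h : (q : ℤ) * x + M * y = 1) (h' : (q : ℤ) * x' + L * y' = 1) (hq : q.Prime)
  (hL : w * w * M ∣ L) (t : LaurentSeries K) (ht : t ∈ keyFq K (w * w))
  (htq : qExpand K q t ∈ Host.Etu (keyFw K (M * q) w) t 1)
  (R : Type*) [CommRing R] [IsDomain R] [IsDiscreteValuationRing R]
  [Algebra R K] [IsFractionRing R K]
  (hEg : Host.Etu (keyFw K (M * q) w) t 1 ≤ gaussField R K)

theorem keyFw_le_hostEtu (N : ℕ) [NeZero N] : keyFw K N w ≤ Host.Etu (keyFw K N w) t 1 :=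
  le_trans (le_sup_left : keyFw K N w ≤ Host.Fu (keyFw K N w) 1) le_sup_right

/-- **the Atkin–Lehner transform of the Gauss sheet of the host restricts to `w_0` on the host
image of `F_{Mq}`.** -/
theorem comap_alEtu_comap_inclusion :
    ((gaussValSub R K (Host.Etu (keyFw K (M * q) w) t 1) hEg).comap
      ((alEtu K w L h h' hq hL t ht htq : _ ≃ₐ[K] _) :
        ↥(Host.Etu (keyFw K (M * q) w) t 1) →+* ↥(Host.Etu (keyFw K (M * q) w) t 1))).comap
      ((IntermediateField.inclusion (keyFw_le_hostEtu K w t (M * q)) :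
        ↥(keyFw K (M * q) w) →ₐ[K] ↥(Host.Etu (keyFw K (M * q) w) t 1)) : _ →+* _) =
      hostW0F K (algebraMap K ℂ) w h hq R := by
  ext c
  obtain ⟨g, rfl⟩ := (hostImageEquiv K w (keyFq K (M * q))).surjective c
  rw [ValuationSubring.mem_comap, ValuationSubring.mem_comap, mem_gaussValSub_iff,
    mem_hostW0F_iff, alHost_hostImageEquiv, coe_hostImageEquiv]
  have e := coe_alEtu_of_coe_eq K w L h h' hq hL t ht htq
    (IntermediateField.inclusion (keyFw_le_hostEtu K w t (M * q))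
      (hostImageEquiv K w (keyFq K (M * q)) g)) g rfl
  show ((alEtu K w L h h' hq hL t ht htq
    (IntermediateField.inclusion (keyFw_le_hostEtu K w t (M * q))
      (hostImageEquiv K w (keyFq K (M * q)) g)) : ↥(Host.Etu (keyFw K (M * q) w) t 1)) :
      LaurentSeries K) ∈ gaussInt R K ↔ _
  rw [e]

/-- **`hostW0 = W_∞ ∘ wE`** as soon as `hostW0` is the only extension of `w_0` to the host. -/
theorem hostW0_eq_comap_alEtu
    (huniq : ∀ V' : ValuationSubring ↥(Host.Etu (keyFw K (M * q) w) t 1),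
      V'.comap ((IntermediateField.inclusion (keyFw_le_hostEtu K w t (M * q)) :
        ↥(keyFw K (M * q) w) →ₐ[K] ↥(Host.Etu (keyFw K (M * q) w) t 1)) : _ →+* _) =
        hostW0F K (algebraMap K ℂ) w h hq R →
      V' = hostW0 K (algebraMap K ℂ) w h hq R (Host.Etu (keyFw K (M * q) w) t 1)
        (keyFw_le_hostEtu K w t (M * q))) :
    hostW0 K (algebraMap K ℂ) w h hq R (Host.Etu (keyFw K (M * q) w) t 1)
        (keyFw_le_hostEtu K w t (M * q)) =
      (gaussValSub R K (Host.Etu (keyFw K (M * q) w) t 1) hEg).comap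
        ((alEtu K w L h h' hq hL t ht htq : _ ≃ₐ[K] _) :
          ↥(Host.Etu (keyFw K (M * q) w) t 1) →+* ↥(Host.Etu (keyFw K (M * q) w) t 1)) :=
  (huniq _ (comap_alEtu_comap_inclusion K w L h h' hq hL t ht htq R hEg)).symm

end HostSheet

section Leg

variable (R : Type*) [CommRing R] [IsDomain R] [IsDiscreteValuationRing R] [CharZero R]
  (K : Type*) [Field K] [Algebra R K] [IsFractionRing R K] [Algebra ℚ K] [Algebra K ℂ]
  {M q : ℕ} [NeZero M] [NeZero q] [NeZero (M * q)] {x y : ℤ}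

open scoped Fermat.Agent.JA.Host

/-- **`legW0` is the only extension of `w_0` to the Legendre host.** -/
theorem legW0_unique [DecidableEq R] {π : R} (hπ : Irreducible π) {h2 : IsUnit (2 : R)}
    {hbez : (q : ℤ) * x + M * y = 1} {hq : q.Prime} {hq2 : q ≠ 2}
    (hmodel : SSModelLeg R K π h2 hbez hq hq2)
    (V' : ValuationSubring ↥(legE K (M * q)))
    (hV' : V'.comap ((IntermediateField.inclusion (keyFw_le_legE K (M * q)) :
        ↥(keyFw K (M * q) 2) →ₐ[K] ↥(legE K (M * q))) : _ →+* _) =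
      hostW0F K (algebraMap K ℂ) 2 hbez hq R) :
    V' = legW0 R K hbez hq := by
  haveI : FiniteDimensional ↥K⟮jqNModC K 2⟯ ↥(legE K (M * q)) := finite_legE_adjoin_j K (M * q)
  have hm := SSModelLeg.ssModel R K hmodel
  have htwo := hm.two
  have hcomap : V'.comap (algebraMap ↥K⟮jqNModC K 2⟯ ↥(legE K (M * q))) =
      (legW0 R K hbez hq).comap (algebraMap ↥K⟮jqNModC K 2⟯ ↥(legE K (M * q))) := by
    ext a
    have hc : (a : LaurentSeries K) ∈ keyFw K (M * q) 2 :=
      adjoin_jqNModC_le_hostImage (M * q) 2 a.2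
    have e : algebraMap ↥K⟮jqNModC K 2⟯ ↥(legE K (M * q)) a =
        IntermediateField.inclusion (keyFw_le_legE K (M * q)) ⟨(a : LaurentSeries K), hc⟩ :=
      Subtype.ext rfl
    rw [ValuationSubring.mem_comap, ValuationSubring.mem_comap, e]
    have h1 : IntermediateField.inclusion (keyFw_le_legE K (M * q))
        ⟨(a : LaurentSeries K), hc⟩ ∈ V' ↔
        (⟨(a : LaurentSeries K), hc⟩ : ↥(keyFw K (M * q) 2)) ∈
          hostW0F K (algebraMap K ℂ) 2 hbez hq R := by
      rw [← hV']; rfl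
    have h2' : IntermediateField.inclusion (keyFw_le_legE K (M * q))
        ⟨(a : LaurentSeries K), hc⟩ ∈ legW0 R K hbez hq ↔
        (⟨(a : LaurentSeries K), hc⟩ : ↥(keyFw K (M * q) 2)) ∈
          hostW0F K (algebraMap K ℂ) 2 hbez hq R := by
      rw [← hostW0_comap K (algebraMap K ℂ) 2 hbez hq R (legE K (M * q))
        (keyFw_le_legE K (M * q))]
      rfl
    rw [h1, h2']
  have hG : IsGaussAt R π (AdjoinSimple.gen K (jqNModC K 2))
      (V'.comap (algebraMap ↥K⟮jqNModC K 2⟯ ↥(legE K (M * q)))) := by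
    rw [hcomap]
    exact htwo.gauss_zero
  rcases htwo.only V' hG with h | h
  · exfalso
    apply hostW0F_ne_gaussValSub K 2 hbez hq R hπ hm.q_mem
    rw [← hV', h]
    ext c
    rfl
  · exact h

/-- Bézout for a prime not dividing `c * M` (`q ∤ c`, `q ∤ M`). -/
theorem exists_bezout_mul {q M c : ℕ} (hq : q.Prime) (hqM : ¬ q ∣ M) (hqc : ¬ q ∣ c) :
    ∃ x' y' : ℤ, (q : ℤ) * x' + ((c * M : ℕ) : ℤ) * y' = 1 := by
  have hc : Nat.Coprime q (c * M) := by
    rw [Nat.Prime.coprime_iff_not_dvd hq]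
    intro hd
    rcases (Nat.Prime.dvd_mul hq).mp hd with h1 | h1
    · exact hqc h1
    · exact hqM h1
  refine ⟨Nat.gcdA q (c * M), Nat.gcdB q (c * M), ?_⟩
  rw [← Nat.gcd_eq_gcd_ab, hc]
  rfl

set_option maxHeartbeats 800000 in
/-- **(A4) the host-level Atkin–Lehner involution, Legendre host.** -/
theorem exists_legHostAL [DecidableEq R] {π : R} (hπ : Irreducible π) {h2 : IsUnit (2 : R)}
    {hbez : (q : ℤ) * x + M * y = 1} {hq : q.Prime} {hq2 : q ≠ 2}
    (hmodel : SSModelLeg R K π h2 hbez hq hq2) :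
    ∃ wE : ↥(legE K (M * q)) ≃ₐ[K] ↥(legE K (M * q)),
      (∀ z : ↥(legE K M), wE (legHostA K M q z) = legHostB K M q hq hq2 z) ∧
      (∀ z : ↥(legE K M), wE (legHostB K M q hq hq2 z) = legHostA K M q z) ∧
      (∀ z, wE (wE z) = z) ∧
      (∀ z, z ∈ legW0 R K hbez hq ↔ wE z ∈ legWinf R K h2 (M * q)) ∧
      (∀ z, z ∈ legWinf R K h2 (M * q) ↔ wE z ∈ legW0 R K hbez hq) := by
  have hqM : ¬ q ∣ M := model36_not_dvd_of_bezout hbez hq
  have hq4 : ¬ q ∣ 4 := by
    intro hd
    have h4 : (4 : ℕ) = 2 ^ 2 := by norm_num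
    rw [h4] at hd
    exact hq2 ((Nat.prime_dvd_prime_iff_eq hq Nat.prime_two).mp (hq.dvd_of_dvd_pow hd))
  obtain ⟨x', y', h'⟩ := exists_bezout_mul hq hqM hq4
  haveI : NeZero (4 * M) := ⟨by have := NeZero.ne M; omega⟩
  haveI : NeZero (4 * M * q) := ⟨mul_ne_zero (NeZero.ne (4 * M)) (NeZero.ne q)⟩
  haveI : NeZero (2 * 2) := ⟨by norm_num⟩
  have hL : 2 * 2 * M ∣ 4 * M := dvd_of_eq (by ring)
  have ht : legT K ∈ keyFq K (2 * 2) := legT_mem_keyFq K
  have htq : qExpand K q (legT K) ∈ Host.Etu (keyFw K (M * q) 2) (legT K) 1 :=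
    qExpand_legT_mem_legE K hq hq2 (Dvd.intro_left M rfl)
  have hEg : Host.Etu (keyFw K (M * q) 2) (legT K) 1 ≤ gaussField R K :=
    legE_le_gaussField R K h2 (M * q)
  set wE : ↥(legE K (M * q)) ≃ₐ[K] ↥(legE K (M * q)) :=
    alEtu K 2 (4 * M) hbez h' hq hL (legT K) ht htq with hwE
  have hinv : ∀ z, wE (wE z) = z := fun z => alEtu_alEtu K 2 (4 * M) hbez h' hq hL (legT K) ht htq z
  have hA : ∀ z : ↥(legE K M), wE (legHostA K M q z) = legHostB K M q hq hq2 z := by
    intro z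
    apply Subtype.ext
    rw [hwE, coe_alEtu_of_mem K 2 (4 * M) hbez h' hq hL (legT K) ht htq (legHostA K M q z)
      (by rw [coe_legHostA]; exact z.2), coe_legHostA, coe_legHostB]
  have hW0 : legW0 R K hbez hq = (legWinf R K h2 (M * q)).comap
      (wE : ↥(legE K (M * q)) →+* ↥(legE K (M * q))) :=
    hostW0_eq_comap_alEtu K 2 (4 * M) hbez h' hq hL (legT K) ht htq R hEg
      (fun V' hV' => legW0_unique R K hπ hmodel V' hV')
  have h4 : ∀ z, z ∈ legW0 R K hbez hq ↔ wE z ∈ legWinf R K h2 (M * q) := by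
    intro z
    rw [hW0]
    rfl
  refine ⟨wE, hA, fun z => ?_, hinv, h4, fun z => ?_⟩
  · rw [← hA z, hinv]
  · rw [h4 (wE z), hinv]

end Leg

section Hes

variable (R : Type*) [CommRing R] [IsDomain R] [IsDiscreteValuationRing R] [CharZero R]
  (K : Type*) [Field K] [Algebra R K] [IsFractionRing R K] [Algebra ℚ K] [Algebra K ℂ]
  {M : ℕ} [NeZero M] [NeZero (M * 2)] {x y : ℤ}

open scoped Fermat.Agent.JA.Host

/-- **`hesW0` is the only extension of `w_0` to the Hesse host.** -/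
theorem hesW0_unique [DecidableEq R] {π : R} (hπ : Irreducible π) {h3 : IsUnit (3 : R)} {ω : R}
    {hbez : ((2 : ℕ) : ℤ) * x + M * y = 1}
    (hmodel : SSModelHes R K π h3 ω hbez)
    (V' : ValuationSubring ↥(hesE K (M * 2)))
    (hV' : V'.comap ((IntermediateField.inclusion (keyFw_le_hesE K (M * 2)) :
        ↥(keyFw K (M * 2) 3) →ₐ[K] ↥(hesE K (M * 2))) : _ →+* _) =
      hostW0F K (algebraMap K ℂ) 3 hbez Nat.prime_two R) :
    V' = hesW0 R K hbez Nat.prime_two := by
  haveI : FiniteDimensional ↥K⟮jqNModC K 3⟯ ↥(hesE K (M * 2)) := finite_hesE_adjoin_j K (M * 2)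
  have hm := SSModelHes.ssModel R K hmodel
  have htwo := hm.two
  have hcomap : V'.comap (algebraMap ↥K⟮jqNModC K 3⟯ ↥(hesE K (M * 2))) =
      (hesW0 R K hbez Nat.prime_two).comap
        (algebraMap ↥K⟮jqNModC K 3⟯ ↥(hesE K (M * 2))) := by
    ext a
    have hc : (a : LaurentSeries K) ∈ keyFw K (M * 2) 3 :=
      adjoin_jqNModC_le_hostImage (M * 2) 3 a.2
    have e : algebraMap ↥K⟮jqNModC K 3⟯ ↥(hesE K (M * 2)) a =
        IntermediateField.inclusion (keyFw_le_hesE K (M * 2)) ⟨(a : LaurentSeries K), hc⟩ :=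
      Subtype.ext rfl
    rw [ValuationSubring.mem_comap, ValuationSubring.mem_comap, e]
    have h1 : IntermediateField.inclusion (keyFw_le_hesE K (M * 2))
        ⟨(a : LaurentSeries K), hc⟩ ∈ V' ↔
        (⟨(a : LaurentSeries K), hc⟩ : ↥(keyFw K (M * 2) 3)) ∈
          hostW0F K (algebraMap K ℂ) 3 hbez Nat.prime_two R := by
      rw [← hV']; rfl
    have h2' : IntermediateField.inclusion (keyFw_le_hesE K (M * 2))
        ⟨(a : LaurentSeries K), hc⟩ ∈ hesW0 R K hbez Nat.prime_two ↔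
        (⟨(a : LaurentSeries K), hc⟩ : ↥(keyFw K (M * 2) 3)) ∈
          hostW0F K (algebraMap K ℂ) 3 hbez Nat.prime_two R := by
      rw [← hostW0_comap K (algebraMap K ℂ) 3 hbez Nat.prime_two R (hesE K (M * 2))
        (keyFw_le_hesE K (M * 2))]
      rfl
    rw [h1, h2']
  have hG : IsGaussAt R π (AdjoinSimple.gen K (jqNModC K 3))
      (V'.comap (algebraMap ↥K⟮jqNModC K 3⟯ ↥(hesE K (M * 2)))) := by
    rw [hcomap]
    exact htwo.gauss_zero
  rcases htwo.only V' hG with h | h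
  · exfalso
    apply hostW0F_ne_gaussValSub K 3 hbez Nat.prime_two R hπ hm.q_mem
    rw [← hV', h]
    ext c
    rfl
  · exact h

set_option maxHeartbeats 800000 in
/-- **(A4) the host-level Atkin–Lehner involution, Hesse host** (`q = 2`). -/
theorem exists_hesHostAL [DecidableEq R] {π : R} (hπ : Irreducible π) {h3 : IsUnit (3 : R)}
    {ω : R} {hbez : ((2 : ℕ) : ℤ) * x + M * y = 1}
    (hmodel : SSModelHes R K π h3 ω hbez) :
    ∃ wE : ↥(hesE K (M * 2)) ≃ₐ[K] ↥(hesE K (M * 2)),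
      (∀ z : ↥(hesE K M), wE (hesHostA K M 2 z) = hesHostB K M z) ∧
      (∀ z : ↥(hesE K M), wE (hesHostB K M z) = hesHostA K M 2 z) ∧
      (∀ z, wE (wE z) = z) ∧
      (∀ z, z ∈ hesW0 R K hbez Nat.prime_two ↔ wE z ∈ hesWinf R K h3 (M * 2)) ∧
      (∀ z, z ∈ hesWinf R K h3 (M * 2) ↔ wE z ∈ hesW0 R K hbez Nat.prime_two) := by
  have hqM : ¬ 2 ∣ M := model36_not_dvd_of_bezout hbez Nat.prime_two
  have hq9 : ¬ 2 ∣ 9 := by norm_num
  obtain ⟨x', y', h'⟩ := exists_bezout_mul Nat.prime_two hqM hq9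
  haveI : NeZero (9 * M) := ⟨by have := NeZero.ne M; omega⟩
  haveI : NeZero (9 * M * 2) := ⟨mul_ne_zero (NeZero.ne (9 * M)) two_ne_zero⟩
  haveI : NeZero (3 * 3) := ⟨by norm_num⟩
  have hL : 3 * 3 * M ∣ 9 * M := dvd_of_eq (by ring)
  have ht : hesT K ∈ keyFq K (3 * 3) := hesT_mem_keyFq K
  have htq : qExpand K 2 (hesT K) ∈ Host.Etu (keyFw K (M * 2) 3) (hesT K) 1 :=
    qExpand_hesT_mem_hesE K (Dvd.intro_left M rfl)
  have hEg : Host.Etu (keyFw K (M * 2) 3) (hesT K) 1 ≤ gaussField R K :=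
    hesE_le_gaussField R K h3 (M * 2)
  set wE : ↥(hesE K (M * 2)) ≃ₐ[K] ↥(hesE K (M * 2)) :=
    alEtu K 3 (9 * M) hbez h' Nat.prime_two hL (hesT K) ht htq with hwE
  have hinv : ∀ z, wE (wE z) = z :=
    fun z => alEtu_alEtu K 3 (9 * M) hbez h' Nat.prime_two hL (hesT K) ht htq z
  have hA : ∀ z : ↥(hesE K M), wE (hesHostA K M 2 z) = hesHostB K M z := by
    intro z
    apply Subtype.ext
    rw [hwE, coe_alEtu_of_mem K 3 (9 * M) hbez h' Nat.prime_two hL (hesT K) ht htq
      (hesHostA K M 2 z) (by rw [coe_hesHostA]; exact z.2), coe_hesHostA, coe_hesHostB]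
  have hW0 : hesW0 R K hbez Nat.prime_two = (hesWinf R K h3 (M * 2)).comap
      (wE : ↥(hesE K (M * 2)) →+* ↥(hesE K (M * 2))) :=
    hostW0_eq_comap_alEtu K 3 (9 * M) hbez h' Nat.prime_two hL (hesT K) ht htq R hEg
      (fun V' hV' => hesW0_unique R K hπ hmodel V' hV')
  have h4 : ∀ z, z ∈ hesW0 R K hbez Nat.prime_two ↔ wE z ∈ hesWinf R K h3 (M * 2) := by
    intro z
    rw [hW0]
    rfl
  refine ⟨wE, hA, fun z => ?_, hinv, h4, fun z => ?_⟩
  · rw [← hA z, hinv]
  · rw [h4 (wE z), hinv]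

end Hes

end

end Fermat.Agent.S36
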