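/-
S36 [REG1] — lead — **derivations of function fields inside a big field.**

* `derivOfLeibniz` : an additive Leibniz map killing the constants is a derivation;
* `deriv_mem_of_isAlgebraic` : a derivation `D` of a big field `Ω` over `K` (char. 0) maps an
  intermediate field `E`, algebraic over `K(t)` with `t ∈ E`, `D t ∈ E`, into itself;
* `restrictDeriv` : the induced derivation of `E` (linear over a subring `R` of constants).
-/
import Mathlib

set_option autoImplicit false
set_option linter.unusedSectionVars false
set_option linter.style.haveILetI false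

namespace Fermat.Agent.S36

open Polynomial IntermediateField

section Leibniz

variable {R : Type*} [CommRing R] {Ω : Type*} [CommRing Ω] [Algebra R Ω]

/-- an additive Leibniz map killing the constants is a derivation. -/
def derivOfLeibniz (D : Ω → Ω) (hadd : ∀ a b, D (a + b) = D a + D b)
    (hmul : ∀ a b, D (a * b) = a * D b + b * D a)
    (hR : ∀ r : R, D (algebraMap R Ω r) = 0) : Derivation R Ω Ω where
  toFun := D
  map_add' := hadd
  map_smul' r x := by
    rw [Algebra.smul_def, hmul, hR, mul_zero, add_zero, RingHom.id_apply, Algebra.smul_def]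
  map_one_eq_zero' := by
    show D 1 = 0
    have := hR 1
    rwa [map_one] at this
  leibniz' a b := by
    show D (a * b) = a • D b + b • D a
    rw [hmul, smul_eq_mul, smul_eq_mul]

@[simp] theorem derivOfLeibniz_apply (D : Ω → Ω) (hadd : ∀ a b, D (a + b) = D a + D b)
    (hmul : ∀ a b, D (a * b) = a * D b + b * D a)
    (hR : ∀ r : R, D (algebraMap R Ω r) = 0) (x : Ω) :
    derivOfLeibniz D hadd hmul hR x = D x := rfl

end Leibniz

/-- `Derivation K Ω Ω` for a field extension, with the module structures coming from the algebra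
structure (for `Ω = K⸨x⸩` the default instance search finds a different, propositionally equal,
module structure). -/
abbrev FieldDer (K Ω : Type*) [Field K] [Field Ω] [Algebra K Ω] : Type _ := Derivation K Ω Ω

section Closure

variable {K : Type*} [Field K] [CharZero K] {Ω : Type*} [Field Ω] [Algebra K Ω]
  (D : Derivation K Ω Ω) (E : IntermediateField K Ω)

/-- the subfield of `E` of elements whose derivative lies in `E`. -/
def derivStable : IntermediateField K Ω where
  carrier := {f | f ∈ E ∧ D f ∈ E}
  mul_mem' := by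
    rintro a b ⟨ha, hDa⟩ ⟨hb, hDb⟩
    refine ⟨E.mul_mem ha hb, ?_⟩
    rw [Derivation.leibniz, smul_eq_mul, smul_eq_mul]
    exact E.add_mem (E.mul_mem ha hDb) (E.mul_mem hb hDa)
  one_mem' := ⟨E.one_mem, by rw [Derivation.map_one_eq_zero]; exact E.zero_mem⟩
  add_mem' := by
    rintro a b ⟨ha, hDa⟩ ⟨hb, hDb⟩
    exact ⟨E.add_mem ha hb, by rw [map_add]; exact E.add_mem hDa hDb⟩
  zero_mem' := ⟨E.zero_mem, by rw [map_zero]; exact E.zero_mem⟩
  algebraMap_mem' r := ⟨E.algebraMap_mem r, by
    rw [Derivation.map_algebraMap]; exact E.zero_mem⟩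
  inv_mem' := by
    rintro a ⟨ha, hDa⟩
    refine ⟨E.inv_mem ha, ?_⟩
    rw [Derivation.leibniz_inv, smul_eq_mul]
    exact E.mul_mem (E.neg_mem (pow_mem (E.inv_mem ha) 2)) hDa

theorem mem_derivStable_iff {f : Ω} : f ∈ derivStable D E ↔ f ∈ E ∧ D f ∈ E := Iff.rfl

theorem derivStable_le : derivStable D E ≤ E := fun _ hf => hf.1

/-- `D (p(f)) - p'(f) D f ∈ E` for `p` with coefficients in the stable subfield. -/
theorem deriv_aeval_sub_mem {f : Ω} (hf : f ∈ E) (p : (↥(derivStable D E))[X]) :
    D (aeval f p) - aeval f (derivative p) * D f ∈ E := by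
  induction p using Polynomial.induction_on' with
  | add p q hp hq =>
    have : D (aeval f (p + q)) - aeval f (derivative (p + q)) * D f =
        (D (aeval f p) - aeval f (derivative p) * D f) +
        (D (aeval f q) - aeval f (derivative q) * D f) := by
      rw [map_add, map_add, derivative_add, map_add]
      ring
    rw [this]
    exact E.add_mem hp hq
  | monomial n c =>
    have h1 : aeval f (monomial n c) = (c : Ω) * f ^ n := by
      rw [aeval_monomial]
      rfl
    have h2 : aeval f (derivative (monomial n c)) = (c : Ω) * (n : Ω) * f ^ (n - 1) := by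
      rw [derivative_monomial, aeval_monomial, map_mul, map_natCast]
      rfl
    rw [h1, h2, Derivation.leibniz, Derivation.leibniz_pow, smul_eq_mul, smul_eq_mul,
      nsmul_eq_mul, smul_eq_mul]
    have : (c : Ω) * ((n : Ω) * (f ^ (n - 1) * D f)) + f ^ n * D (c : Ω) -
        (c : Ω) * (n : Ω) * f ^ (n - 1) * D f = f ^ n * D (c : Ω) := by ring
    rw [this]
    exact E.mul_mem (pow_mem hf n) c.2.2

/-- **a derivation maps an algebraic extension of `K(t)` into itself.** -/
theorem deriv_mem_of_isAlgebraic {t : Ω} (ht : t ∈ E) (hDt : D t ∈ E)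
    (halg : ∀ f ∈ E, IsAlgebraic ↥K⟮t⟯ f) : ∀ f ∈ E, D f ∈ E := by
  intro f hf
  have hle : K⟮t⟯ ≤ derivStable D E := by
    rw [adjoin_simple_le_iff]
    exact ⟨ht, hDt⟩
  letI : Algebra ↥K⟮t⟯ ↥(derivStable D E) := (IntermediateField.inclusion hle).toRingHom.toAlgebra
  haveI : IsScalarTower ↥K⟮t⟯ ↥(derivStable D E) Ω :=
    IsScalarTower.of_algebraMap_eq (fun _ => rfl)
  have hint : IsIntegral ↥(derivStable D E) f :=
    ((halg f hf).tower_top ↥(derivStable D E)).isIntegral
  have hsep : (minpoly ↥(derivStable D E) f).Separable :=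
    (minpoly.irreducible hint).separable
  have h0 : aeval f (minpoly ↥(derivStable D E) f) = 0 := minpoly.aeval _ _
  have hne : aeval f (derivative (minpoly ↥(derivStable D E) f)) ≠ 0 :=
    hsep.aeval_derivative_ne_zero h0
  have hmemd : aeval f (derivative (minpoly ↥(derivStable D E) f)) ∈ E := by
    rw [aeval_eq_sum_range]
    refine E.sum_mem (fun i _ => ?_)
    rw [Algebra.smul_def]
    exact E.mul_mem (derivStable_le D E (Subtype.mem _)) (pow_mem hf i)
  have h1 := deriv_aeval_sub_mem D E hf (minpoly ↥(derivStable D E) f)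
  rw [h0, map_zero, zero_sub] at h1
  have h2 : D f = -(aeval f (derivative (minpoly ↥(derivStable D E) f)))⁻¹ *
      -(aeval f (derivative (minpoly ↥(derivStable D E) f)) * D f) := by
    field_simp
  rw [h2]
  exact E.mul_mem (E.neg_mem (E.inv_mem hmemd)) h1

end Closure

section Restrict

variable {K : Type*} [Field K] {Ω : Type*} [Field Ω] [Algebra K Ω]
  (D : Derivation K Ω Ω) (E : IntermediateField K Ω)
  (R : Type*) [CommRing R] [Algebra R K] [Algebra R ↥E] [IsScalarTower R K ↥E]

/-- the induced derivation of a stable intermediate field, linear over a ring of constants. -/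
noncomputable def restrictDeriv (h : ∀ f ∈ E, D f ∈ E) : Derivation R ↥E ↥E :=
  derivOfLeibniz (fun x => ⟨D (x : Ω), h _ x.2⟩)
    (fun a b => Subtype.ext (by
      show D ((a + b : ↥E) : Ω) = D (a : Ω) + D (b : Ω)
      rw [IntermediateField.coe_add, map_add]))
    (fun a b => Subtype.ext (by
      show D ((a * b : ↥E) : Ω) = (a : Ω) * D (b : Ω) + (b : Ω) * D (a : Ω)
      rw [IntermediateField.coe_mul, Derivation.leibniz, smul_eq_mul, smul_eq_mul]))
    (fun r => Subtype.ext (by
      show D ((algebraMap R ↥E r : ↥E) : Ω) = 0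
      rw [IsScalarTower.algebraMap_apply R K ↥E, IntermediateField.coe_algebraMap_apply,
        Derivation.map_algebraMap]))

@[simp] theorem coe_restrictDeriv (h : ∀ f ∈ E, D f ∈ E) (x : ↥E) :
    ((restrictDeriv D E R h x : ↥E) : Ω) = D (x : Ω) := rfl

end Restrict

end Fermat.Agent.S36
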