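/-
S36 [REG1] — lead — **the derivation `∂ = θ / θ(t)` of the Laurent host and the Gauss valuation.**

`t` a Gauss-integral series whose Euler derivative `θ t` is a Gauss unit (a separating coordinate
of the special fibre).  Then `∂ := (θ t)⁻¹ θ` is a `K`-derivation of `K⸨x⸩` with `∂ t = 1`,
preserving the Gauss ring and its maximal ideal, and `∂ (f(x^q)) = q · (θ t)⁻¹ (θ f)(x^q)`; in
particular `∂ (t(x^q)) = q μ` with `μ = (θ t)(x^q) / (θ t)(x)` a Gauss unit.
-/
import Mathlib
import Fermat.Agent.S36.REG1_lead_Theta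
import Fermat.Agent.S36.REG1_lead_HostD
import Fermat.Agent.Igusa.V_helper5_Funct

set_option autoImplicit false
set_option linter.unusedSectionVars false
set_option linter.style.haveILetI false

namespace Fermat.Agent.S36

open ModularCurve Fermat.Agent.Igusa

section HostDer

variable {K : Type*} [Field K]

/-- the derivation `∂ = θ / θ(t)` of `K⸨x⸩`. -/
noncomputable def hostDer (t : LaurentSeries K) : FieldDer K (LaurentSeries K) :=
  derivOfLeibniz (R := K) (fun f => (eulerFun t)⁻¹ * eulerFun f)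
    (fun a b => by rw [eulerFun_add, mul_add])
    (fun a b => by rw [eulerFun_mul]; ring)
    (fun r => by rw [algebraMap_laurent_eq_C, eulerFun_C, mul_zero])

theorem hostDer_apply (t f : LaurentSeries K) :
    hostDer t f = (eulerFun t)⁻¹ * eulerFun f := derivOfLeibniz_apply _ _ _ _ f

theorem hostDer_self {t : LaurentSeries K} (h : eulerFun t ≠ 0) : hostDer t t = 1 := by
  rw [hostDer_apply, inv_mul_cancel₀ h]

theorem eulerFun_qExpand (q : ℕ) [NeZero q] (f : LaurentSeries K) :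
    eulerFun (qExpand K q f) = (q : LaurentSeries K) * qExpand K q (eulerFun f) := by
  have := eulerD_qExpand q f
  rwa [eulerD_apply, eulerD_apply] at this

/-- `μ = (θ t)(x^q) / (θ t)(x)`. -/
noncomputable def hostMu (t : LaurentSeries K) (q : ℕ) [NeZero q] : LaurentSeries K :=
  (eulerFun t)⁻¹ * qExpand K q (eulerFun t)

theorem hostDer_qExpand (q : ℕ) [NeZero q] (t : LaurentSeries K) :
    hostDer t (qExpand K q t) = (q : LaurentSeries K) * hostMu t q := by
  rw [hostDer_apply, eulerFun_qExpand, hostMu]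
  ring

end HostDer

section Gauss

variable {R : Type*} [CommRing R] [IsDomain R] [IsDiscreteValuationRing R]
  {K : Type*} [Field K] [Algebra R K] [IsFractionRing R K]

theorem eulerFun_mem_gaussInt {x : LaurentSeries K} (hx : x ∈ gaussInt R K) :
    eulerFun x ∈ gaussInt R K := eulerD_mem_gaussInt hx

theorem gaussRed_eulerFun {x : LaurentSeries K} (hx : x ∈ gaussInt R K) :
    gaussRed R K ⟨eulerFun x, eulerFun_mem_gaussInt hx⟩ =
      eulerFun (gaussRed R K ⟨x, hx⟩) := gaussRed_eulerD ⟨x, hx⟩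

variable {t : LaurentSeries K} (ht : t ∈ gaussInt R K)
  (hθ : gaussRed R K ⟨eulerFun t, eulerFun_mem_gaussInt ht⟩ ≠ 0)

include hθ in
theorem eulerFun_ne_zero_of_gaussRed : eulerFun t ≠ 0 := by
  intro h0
  apply hθ
  have : (⟨eulerFun t, eulerFun_mem_gaussInt ht⟩ : gaussInt R K) = 0 := Subtype.ext h0
  rw [this, map_zero]

include hθ in
theorem inv_eulerFun_mem_gaussInt : (eulerFun t)⁻¹ ∈ gaussInt R K :=
  inv_mem_gaussInt_of_gaussRed_ne_zero ⟨eulerFun t, eulerFun_mem_gaussInt ht⟩ hθ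

include hθ in
theorem hostDer_mem_gaussInt {f : LaurentSeries K} (hf : f ∈ gaussInt R K) :
    hostDer t f ∈ gaussInt R K := by
  rw [hostDer_apply]
  exact (gaussInt R K).mul_mem (inv_eulerFun_mem_gaussInt ht hθ) (eulerFun_mem_gaussInt hf)

include hθ in
theorem gaussRed_hostDer_eq_zero {f : LaurentSeries K} (hf : f ∈ gaussInt R K)
    (h0 : gaussRed R K ⟨f, hf⟩ = 0) :
    gaussRed R K ⟨hostDer t f, hostDer_mem_gaussInt ht hθ hf⟩ = 0 := by
  have e : (⟨hostDer t f, hostDer_mem_gaussInt ht hθ hf⟩ : gaussInt R K) =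
      ⟨(eulerFun t)⁻¹, inv_eulerFun_mem_gaussInt ht hθ⟩ * ⟨eulerFun f, eulerFun_mem_gaussInt hf⟩ :=
    Subtype.ext (hostDer_apply t f)
  rw [e, map_mul, gaussRed_eulerFun hf, h0]
  have : eulerFun (0 : LaurentSeries (IsLocalRing.ResidueField R)) = 0 := by
    ext n; simp
  rw [this, mul_zero]

include hθ in
theorem hostMu_mem_gaussInt (q : ℕ) [NeZero q] : hostMu t q ∈ gaussInt R K :=
  (gaussInt R K).mul_mem (inv_eulerFun_mem_gaussInt ht hθ)
    ((gaussHomQExpand R K q).map_mem_gaussInt (eulerFun_mem_gaussInt ht))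

include hθ in
theorem gaussRed_hostMu_ne_zero (q : ℕ) [NeZero q] :
    gaussRed R K ⟨hostMu t q, hostMu_mem_gaussInt ht hθ q⟩ ≠ 0 := by
  have e : (⟨hostMu t q, hostMu_mem_gaussInt ht hθ q⟩ : gaussInt R K) =
      ⟨(eulerFun t)⁻¹, inv_eulerFun_mem_gaussInt ht hθ⟩ *
        ⟨qExpand K q (eulerFun t),
          (gaussHomQExpand R K q).map_mem_gaussInt (eulerFun_mem_gaussInt ht)⟩ :=
    Subtype.ext rfl
  rw [e, map_mul]
  refine mul_ne_zero ?_ ?_
  · intro h0
    have h1 : (⟨(eulerFun t)⁻¹, inv_eulerFun_mem_gaussInt ht hθ⟩ : gaussInt R K) *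
        ⟨eulerFun t, eulerFun_mem_gaussInt ht⟩ = 1 :=
      Subtype.ext (inv_mul_cancel₀ (eulerFun_ne_zero_of_gaussRed ht hθ))
    have h2 := congrArg (gaussRed R K) h1
    rw [map_mul, h0, zero_mul, map_one] at h2
    exact zero_ne_one h2
  · have h1 := (gaussHomQExpand R K q).gaussRed_map (eulerFun_mem_gaussInt ht)
    have h2 : gaussRed R K ⟨qExpand K q (eulerFun t),
        (gaussHomQExpand R K q).map_mem_gaussInt (eulerFun_mem_gaussInt ht)⟩ =
        qExpand _ q (gaussRed R K ⟨eulerFun t, eulerFun_mem_gaussInt ht⟩) := h1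
    rw [h2]
    exact (map_ne_zero_iff _ (qExpand_injective q)).mpr hθ

include hθ in
theorem inv_hostMu_mem_gaussInt (q : ℕ) [NeZero q] : (hostMu t q)⁻¹ ∈ gaussInt R K :=
  inv_mem_gaussInt_of_gaussRed_ne_zero ⟨hostMu t q, hostMu_mem_gaussInt ht hθ q⟩
    (gaussRed_hostMu_ne_zero ht hθ q)

end Gauss

end Fermat.Agent.S36
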