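/-
S36 [REG1] — lead — **the derivation `d/dt` of a host `E ⊂ K⸨x⸩`** (an algebraic extension of
`K(t)` consisting of Gauss-bounded series, `θ t` a Gauss unit), and its behaviour with respect to
the coefficientwise Gauss valuation subring `W_∞ = gaussValSub R K E hE`.
-/
import Mathlib
import Fermat.Agent.S36.REG1_lead_HostGauss
import Fermat.Agent.SS.VAL2_helper7_HostGauss

set_option autoImplicit false
set_option linter.unusedSectionVars false
set_option linter.style.haveILetI false

namespace Fermat.Agent.S36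

open ModularCurve Fermat.Agent.Igusa Fermat.Agent.SS IntermediateField

section HostE

variable {R : Type*} [CommRing R] [IsDomain R] [IsDiscreteValuationRing R]
  {K : Type*} [Field K] [CharZero K] [Algebra R K] [IsFractionRing R K]
  (E : IntermediateField K (LaurentSeries K)) (hE : E ≤ gaussField R K)
  {t : LaurentSeries K} (htE : t ∈ E) (ht : t ∈ gaussInt R K)
  (hθ : gaussRed R K ⟨eulerFun t, eulerFun_mem_gaussInt ht⟩ ≠ 0)
  (halg : ∀ f ∈ E, IsAlgebraic ↥K⟮t⟯ f)

include htE hθ halg in
/-- `∂ = θ/θ(t)` maps the host into itself. -/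
theorem hostDer_mem : ∀ f ∈ E, hostDer t f ∈ E :=
  deriv_mem_of_isAlgebraic (hostDer t) E htE
    (by rw [hostDer_self (eulerFun_ne_zero_of_gaussRed ht hθ)]; exact E.one_mem) halg

/-- **the derivation `d/dt` of the host**, `K`-linear. -/
noncomputable def hostDerE : Derivation K ↥E ↥E :=
  restrictDeriv (hostDer t) E K (hostDer_mem E htE ht hθ halg)

theorem coe_hostDerE (x : ↥E) :
    ((hostDerE E htE ht hθ halg x : ↥E) : LaurentSeries K) = hostDer t (x : LaurentSeries K) :=
  rfl

theorem hostDerE_t : hostDerE E htE ht hθ halg ⟨t, htE⟩ = 1 := by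
  apply Subtype.ext
  rw [coe_hostDerE]
  exact hostDer_self (eulerFun_ne_zero_of_gaussRed ht hθ)

/-- the same derivation, linear over the base ring `R`. -/
noncomputable def hostDerER : Derivation R ↥E ↥E :=
  restrictDeriv (hostDer t) E R (hostDer_mem E htE ht hθ halg)

theorem hostDerER_apply (x : ↥E) :
    hostDerER E htE ht hθ halg x = hostDerE E htE ht hθ halg x := rfl

/-- `∂` preserves `W_∞`. -/
theorem hostDerE_mem_gaussValSub (x : ↥E) (hx : x ∈ gaussValSub R K E hE) :
    hostDerE E htE ht hθ halg x ∈ gaussValSub R K E hE := by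
  show ((hostDerE E htE ht hθ halg x : ↥E) : LaurentSeries K) ∈ gaussInt R K
  rw [coe_hostDerE]
  exact hostDer_mem_gaussInt ht hθ hx

/-- `∂` preserves the maximal ideal of `W_∞`. -/
theorem hostDerE_valuation_lt_one (x : ↥E) (hx : (gaussValSub R K E hE).valuation x < 1) :
    (gaussValSub R K E hE).valuation (hostDerE E htE ht hθ halg x) < 1 := by
  rw [gaussValSub_valuation_lt_one_iff] at hx ⊢
  obtain ⟨h, h0⟩ := hx
  exact ⟨hostDer_mem_gaussInt ht hθ h, gaussRed_hostDer_eq_zero ht hθ h h0⟩

theorem hostDerE_valuation_le_one (x : ↥E) (hx : (gaussValSub R K E hE).valuation x ≤ 1) :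
    (gaussValSub R K E hE).valuation (hostDerE E htE ht hθ halg x) ≤ 1 := by
  rw [ValuationSubring.valuation_le_one_iff] at hx ⊢
  exact hostDerE_mem_gaussValSub E hE htE ht hθ halg x hx

variable (q : ℕ) [NeZero q] (ht1 : qExpand K q t ∈ E)

/-- `μ = ∂ (t(x^q)) / q` as an element of the host. -/
noncomputable def hostMuE : ↥E :=
  (q : ↥E)⁻¹ * hostDerE E htE ht hθ halg ⟨qExpand K q t, ht1⟩

theorem coe_hostMuE :
    ((hostMuE E htE ht hθ halg q ht1 : ↥E) : LaurentSeries K) = hostMu t q := by
  haveI : CharZero (LaurentSeries K) :=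
    charZero_of_injective_algebraMap (algebraMap K (LaurentSeries K)).injective
  have hq : ((q : ℕ) : LaurentSeries K) ≠ 0 := Nat.cast_ne_zero.mpr (NeZero.ne q)
  have hcast : (((q : ℕ) : ↥E) : LaurentSeries K) = ((q : ℕ) : LaurentSeries K) :=
    map_natCast (algebraMap ↥E (LaurentSeries K)) q
  rw [hostMuE, IntermediateField.coe_mul, IntermediateField.coe_inv, coe_hostDerE, hcast]
  show ((q : ℕ) : LaurentSeries K)⁻¹ * hostDer t (qExpand K q t) = hostMu t q
  rw [hostDer_qExpand, ← mul_assoc, inv_mul_cancel₀ hq, one_mul]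

theorem hostDerE_t1 :
    hostDerE E htE ht hθ halg ⟨qExpand K q t, ht1⟩ =
      (q : ↥E) * hostMuE E htE ht hθ halg q ht1 := by
  haveI : CharZero ↥E := charZero_of_injective_algebraMap (algebraMap K ↥E).injective
  have hq : ((q : ℕ) : ↥E) ≠ 0 := Nat.cast_ne_zero.mpr (NeZero.ne q)
  rw [hostMuE, ← mul_assoc, mul_inv_cancel₀ hq, one_mul]

theorem hostMuE_valuation :
    (gaussValSub R K E hE).valuation (hostMuE E htE ht hθ halg q ht1) = 1 := by
  have h1 : hostMuE E htE ht hθ halg q ht1 ∈ gaussValSub R K E hE := by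
    show ((hostMuE E htE ht hθ halg q ht1 : ↥E) : LaurentSeries K) ∈ gaussInt R K
    rw [coe_hostMuE]
    exact hostMu_mem_gaussInt ht hθ q
  have hu : IsUnit (⟨hostMuE E htE ht hθ halg q ht1, h1⟩ : gaussValSub R K E hE) := by
    rw [isUnit_gaussValSub_iff, gaussValRed_apply]
    have h2 := gaussRed_hostMu_ne_zero ht hθ q
    have e : (⟨((hostMuE E htE ht hθ halg q ht1 : ↥E) : LaurentSeries K), h1⟩ : gaussInt R K) =
        ⟨hostMu t q, hostMu_mem_gaussInt ht hθ q⟩ :=
      Subtype.ext (coe_hostMuE E htE ht hθ halg q ht1)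
    rw [e]
    exact h2
  exact (ValuationSubring.valuation_eq_one_iff _ ⟨_, h1⟩).mp hu

end HostE

end Fermat.Agent.S36
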