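/-
S36 [REG1] — lead — **`θ(t)` is a Gauss unit** for the Legendre and Hesse coordinates: the
reductions of `legT`, `hesT` are separating coordinates of the special fibre.

Abstract form (`eulerFun_ne_zero_of_rel`): `t̄` with `j̄ · B(t̄) = A(t̄)`, `B(t̄) ≠ 0`,
`θ j̄ ≠ 0` has `θ t̄ ≠ 0`.
-/
import Mathlib
import Fermat.Agent.S36.REG1_lead_HostGauss
import Fermat.Agent.SS.MODEL_helper7_W0
import Fermat.Agent.SS.HOSTINT_helper6_Main

set_option autoImplicit false
set_option linter.unusedSectionVars false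
set_option linter.style.haveILetI false

namespace Fermat.Agent.S36

open Polynomial ModularCurve Fermat.Agent.Igusa Fermat.Agent.SS Fermat.Agent.JA

section Abs

variable {k : Type*} [Field k]

/-- if `j · B(t) = A(t)` with `B(t) ≠ 0` and `θ t = 0` then `θ j = 0`. -/
theorem eulerFun_eq_zero_of_rel {t J : LaurentSeries k} (PA PB : k[X])
    (hB : aeval t PB ≠ 0) (hrel : J * aeval t PB = aeval t PA) (ht : eulerFun t = 0) :
    eulerFun J = 0 := by
  have hD : ∀ P : k[X], eulerFun (aeval t P) = 0 := by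
    intro P
    induction P using Polynomial.induction_on with
    | C a => rw [aeval_C, algebraMap_laurent_eq_C, eulerFun_C]
    | add p q hp hq => rw [map_add, eulerFun_add, hp, hq, add_zero]
    | monomial n a ih =>
      rw [pow_succ, ← mul_assoc, map_mul, aeval_X, eulerFun_mul, ih, ht, mul_zero, mul_zero,
        add_zero]
  have h2 := congrArg eulerFun hrel
  rw [eulerFun_mul, hD, hD, mul_zero, zero_add] at h2
  exact (mul_eq_zero.mp h2).resolve_left hB

/-- the coefficient of `x^(-w)` in `θ (j(x^w))` is `-w`. -/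
theorem eulerFun_jqNModC_coeff (w : ℕ) [NeZero w] :
    (eulerFun (jqNModC k w)).coeff (-(w : ℤ)) = -(w : k) := by
  rw [eulerFun_coeff]
  have h1 : (jqNModC k w).coeff (-(w : ℤ)) = 1 := by
    have : (-(w : ℤ)) = (w : ℤ) * (-1) := by ring
    rw [this, jqNModC, qExpand_coeff_mul, coeff_jqModC_neg_one]
  rw [h1, mul_one]
  push_cast
  ring

theorem eulerFun_jqNModC_ne_zero (w : ℕ) [NeZero w] (hw : (w : k) ≠ 0) :
    eulerFun (jqNModC k w) ≠ 0 := by
  intro h0
  have := eulerFun_jqNModC_coeff (k := k) w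
  rw [h0, HahnSeries.coeff_zero] at this
  exact hw (neg_eq_zero.mp this.symm)

end Abs

section Concrete

variable (R : Type*) [CommRing R] [IsDomain R] [IsDiscreteValuationRing R]
variable (K : Type*) [Field K] [Algebra R K] [IsFractionRing R K] [Algebra ℚ K]

local notation "kk" => IsLocalRing.ResidueField R

theorem jqNModC_mem_gaussInt' (w : ℕ) [NeZero w] : jqNModC K w ∈ gaussInt R K := by
  rw [← coeffMap_jqNModC (algebraMap R K) w]
  exact emb_mem_gaussInt R K _

/-- **`θ(legT)` is a Gauss unit** (`2 ∈ Rˣ`). -/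
theorem legT_eulerFun_unit (h2 : IsUnit (2 : R)) :
    ∃ ht : legT K ∈ gaussInt R K,
      gaussRed R K ⟨eulerFun (legT K), eulerFun_mem_gaussInt ht⟩ ≠ 0 := by
  obtain ⟨ht, htrans⟩ := legT_mem_gaussInt R K h2
  refine ⟨ht, ?_⟩
  rw [gaussRed_eulerFun ht]
  set T : gaussInt R K := ⟨legT K, ht⟩ with hT
  set Jg : gaussInt R K := ⟨jqNModC K 2, jqNModC_mem_gaussInt' R K 2⟩ with hJg
  have hJred : gaussRed R K Jg = jqNModC kk 2 := gaussRed_jqNModC 2 _
  -- the relation in the Gauss ring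
  have hrel : Jg * (T ^ 2 * (T - 1) ^ 2) = (1 + 1) ^ 8 * (T ^ 2 - T + 1) ^ 3 := by
    apply Subtype.ext
    have := jqNModC_mul_aeval_legT K
    rw [Host.aeval_legA, Host.aeval_legB] at this
    show jqNModC K 2 * (legT K ^ 2 * (legT K - 1) ^ 2) =
      (1 + 1) ^ 8 * (legT K ^ 2 - legT K + 1) ^ 3
    rw [this]
    norm_num
  have hrel' := congrArg (gaussRed R K) hrel
  simp only [map_mul, map_pow, map_sub, map_add, map_one] at hrel'
  rw [hJred] at hrel'
  set tb := gaussRed R K T with htb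
  have hrel'' : jqNModC kk 2 * aeval tb (Host.legB kk) = aeval tb (Host.legA kk) := by
    rw [Host.aeval_legA, Host.aeval_legB, hrel']
    norm_num
  have hB : aeval tb (Host.legB kk) ≠ 0 := by
    intro h0
    apply htrans
    refine ⟨Host.legB kk, ?_, h0⟩
    have hm : (Host.legB kk).Monic := by
      have : Host.legB kk = X ^ 2 * (X - C 1) ^ 2 := by rw [Host.legB, map_one]
      rw [this]
      exact (monic_X_pow 2).mul ((monic_X_sub_C 1).pow 2)
    exact hm.ne_zero
  intro h0
  have h2k : ((2 : ℕ) : kk) ≠ 0 := by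
    have : ((2 : ℕ) : kk) = IsLocalRing.residue R (2 : R) := by
      rw [Nat.cast_ofNat]; exact (map_ofNat (IsLocalRing.residue R) 2).symm
    rw [this]
    exact (h2.map (IsLocalRing.residue R)).ne_zero
  exact eulerFun_jqNModC_ne_zero 2 h2k
    (eulerFun_eq_zero_of_rel (Host.legA kk) (Host.legB kk) hB hrel'' h0)

/-- **`θ(hesT)` is a Gauss unit** (`3 ∈ Rˣ`). -/
theorem hesT_eulerFun_unit (h3 : IsUnit (3 : R)) :
    ∃ ht : hesT K ∈ gaussInt R K,
      gaussRed R K ⟨eulerFun (hesT K), eulerFun_mem_gaussInt ht⟩ ≠ 0 := by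
  obtain ⟨ht, htrans⟩ := hesT_mem_gaussInt R K h3
  refine ⟨ht, ?_⟩
  rw [gaussRed_eulerFun ht]
  set T : gaussInt R K := ⟨hesT K, ht⟩ with hT
  set Jg : gaussInt R K := ⟨jqNModC K 3, jqNModC_mem_gaussInt' R K 3⟩ with hJg
  have hJred : gaussRed R K Jg = jqNModC kk 3 := gaussRed_jqNModC 3 _
  have hrel : Jg * ((T ^ 3 - 1) ^ 3) =
      (1 + 1 + 1) ^ 3 * T ^ 3 * (T ^ 3 + (1 + 1) ^ 3) ^ 3 := by
    apply Subtype.ext
    have := jqNModC_mul_aeval_hesT K
    rw [Host.aeval_hesA, Host.aeval_hesB] at this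
    show jqNModC K 3 * (hesT K ^ 3 - 1) ^ 3 =
      (1 + 1 + 1) ^ 3 * hesT K ^ 3 * (hesT K ^ 3 + (1 + 1) ^ 3) ^ 3
    rw [this]
    norm_num
  have hrel' := congrArg (gaussRed R K) hrel
  simp only [map_mul, map_pow, map_sub, map_add, map_one] at hrel'
  rw [hJred] at hrel'
  set tb := gaussRed R K T with htb
  have hrel'' : jqNModC kk 3 * aeval tb (Host.hesB kk) = aeval tb (Host.hesA kk) := by
    rw [Host.aeval_hesA, Host.aeval_hesB, hrel']
    norm_num
  have hB : aeval tb (Host.hesB kk) ≠ 0 := by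
    intro h0
    apply htrans
    refine ⟨Host.hesB kk, ?_, h0⟩
    have hm : (Host.hesB kk).Monic := by
      have : Host.hesB kk = (X ^ 3 - C 1) ^ 3 := by rw [Host.hesB, map_one]
      rw [this]
      exact (monic_X_pow_sub_C 1 (by norm_num)).pow 3
    exact hm.ne_zero
  intro h0
  have h3k : ((3 : ℕ) : kk) ≠ 0 := by
    have : ((3 : ℕ) : kk) = IsLocalRing.residue R (3 : R) := by
      rw [Nat.cast_ofNat]; exact (map_ofNat (IsLocalRing.residue R) 3).symm
    rw [this]
    exact (h3.map (IsLocalRing.residue R)).ne_zero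
  exact eulerFun_jqNModC_ne_zero 3 h3k
    (eulerFun_eq_zero_of_rel (Host.hesA kk) (Host.hesB kk) hB hrel'' h0)

end Concrete

end Fermat.Agent.S36
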