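/-
S36 [REG1] — lead — **derivations and unramified places.**

* `deriv_eq_zero_of_isAlgebraic`, `deriv_eq_zero_of_adjoin` : uniqueness of the extension of
  `d/dt` from `K(t)` to an algebraic extension (characteristic zero);
* `deriv_mem_of_formallyUnramified` : if `B / A` is formally unramified, a `K₀`-derivation of `B`
  into a `B`-module mapping `A` into a `B`-submodule `N` maps `B` into `N`;
* `exists_coprime_repr`, `deriv_algebraMap_mem` : `d/dt` preserves every valuation subring of
  `K(t)` containing `K[t]`;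
* `deriv_mem_integralClosure_of_unr` : **`d/dt` preserves the integral closure of an unramified
  place**.
-/
import Mathlib
import Fermat.Agent.S36.REG1_lead_HostD

set_option autoImplicit false
set_option linter.unusedSectionVars false
set_option linter.style.haveILetI false

namespace Fermat.Agent.S36

open Polynomial IntermediateField

section Uniq

/-- a derivation of an algebraic extension (char. 0), linear over the base field, vanishes. -/
theorem deriv_eq_zero_of_isAlgebraic {F : Type*} [Field F] [CharZero F] {E : Type*} [Field E]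
    [Algebra F E] [Algebra.IsAlgebraic F E] (D : Derivation F E E) (f : E) : D f = 0 := by
  have hint : IsIntegral F f := (Algebra.IsAlgebraic.isAlgebraic f).isIntegral
  have hsep : (minpoly F f).Separable := (minpoly.irreducible hint).separable
  have h0 : aeval f (minpoly F f) = 0 := minpoly.aeval _ _
  have hne : aeval f (derivative (minpoly F f)) ≠ 0 := hsep.aeval_derivative_ne_zero h0
  have h1 := Derivation.comp_aeval_eq f D (minpoly F f)
  rw [h0, map_zero, smul_eq_mul] at h1
  exact (mul_eq_zero.mp h1.symm).resolve_left hne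

variable {K : Type*} [Field K] {F : Type*} [Field F] [Algebra K F] [CharZero F]
  {E : Type*} [Field E] [Algebra F E] [Algebra K E] [IsScalarTower K F E]
  [Algebra.IsAlgebraic F E]

/-- the subfield of `F` killed by a derivation of `E`. -/
def derivKer (D : Derivation K E E) : IntermediateField K F where
  carrier := {x | D (algebraMap F E x) = 0}
  mul_mem' := by
    intro a b ha hb
    show D (algebraMap F E (a * b)) = 0
    have ha' : D (algebraMap F E a) = 0 := ha
    have hb' : D (algebraMap F E b) = 0 := hb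
    rw [map_mul, Derivation.leibniz, ha', hb', smul_zero, smul_zero, add_zero]
  one_mem' := by
    show D (algebraMap F E 1) = 0
    rw [map_one, Derivation.map_one_eq_zero]
  add_mem' := by
    intro a b ha hb
    show D (algebraMap F E (a + b)) = 0
    have ha' : D (algebraMap F E a) = 0 := ha
    have hb' : D (algebraMap F E b) = 0 := hb
    rw [map_add, map_add, ha', hb', add_zero]
  zero_mem' := by
    show D (algebraMap F E 0) = 0
    rw [map_zero, map_zero]
  algebraMap_mem' r := by
    show D (algebraMap F E (algebraMap K F r)) = 0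
    rw [← IsScalarTower.algebraMap_apply K F E, Derivation.map_algebraMap]
  inv_mem' := by
    intro a ha
    show D (algebraMap F E a⁻¹) = 0
    have ha' : D (algebraMap F E a) = 0 := ha
    rw [map_inv₀, Derivation.leibniz_inv, ha', smul_zero]

/-- **uniqueness of `d/dt`**: a `K`-derivation of an algebraic extension `E` of `F = K(t)` killing
`t` vanishes. -/
theorem deriv_eq_zero_of_adjoin {t : F} (hF : IntermediateField.adjoin K {t} = ⊤)
    (D : Derivation K E E) (hDt : D (algebraMap F E t) = 0) (f : E) : D f = 0 := by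
  have htop : derivKer (F := F) D = ⊤ := by
    rw [eq_top_iff, ← hF, adjoin_simple_le_iff]
    exact hDt
  have hF0 : ∀ x : F, D (algebraMap F E x) = 0 := fun x => by
    have : x ∈ derivKer (F := F) D := by rw [htop]; exact IntermediateField.mem_top
    exact this
  exact deriv_eq_zero_of_isAlgebraic
    (derivOfLeibniz (R := F) D (fun a b => map_add D a b)
      (fun a b => by rw [Derivation.leibniz, smul_eq_mul, smul_eq_mul]) hF0) f

/-- two `K`-derivations of `E` agreeing at `t` are equal. -/
theorem deriv_eq_of_adjoin {t : F} (hF : IntermediateField.adjoin K {t} = ⊤)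
    (D₁ D₂ : Derivation K E E) (h : D₁ (algebraMap F E t) = D₂ (algebraMap F E t)) (f : E) :
    D₁ f = D₂ f := by
  have := deriv_eq_zero_of_adjoin hF (D₁ - D₂) (by
    rw [Derivation.sub_apply, h, sub_self]) f
  rwa [Derivation.sub_apply, sub_eq_zero] at this

end Uniq

section Kaehler

open KaehlerDifferential

/-- **derivations and formally unramified extensions.** -/
theorem deriv_mem_of_formallyUnramified {K₀ A B M : Type*} [CommRing K₀] [CommRing A]
    [CommRing B] [Algebra K₀ A] [Algebra K₀ B] [Algebra A B] [IsScalarTower K₀ A B]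
    [AddCommGroup M] [Module B M] [Module K₀ M] [IsScalarTower K₀ B M]
    [Algebra.FormallyUnramified A B] (D : Derivation K₀ B M) (N : Submodule B M)
    (hA : ∀ a : A, D (algebraMap A B a) ∈ N) (b : B) : D b ∈ N := by
  set φ : Ω[B⁄K₀] →ₗ[B] M := D.liftKaehlerDifferential with hφ
  have hφD : ∀ x : B, φ (KaehlerDifferential.D K₀ B x) = D x := fun x =>
    Derivation.liftKaehlerDifferential_comp_D D x
  have hrange : LinearMap.range (mapBaseChange K₀ A B) = ⊤ := by
    rw [range_mapBaseChange, LinearMap.ker_eq_top]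
    haveI : Subsingleton Ω[B⁄A] := inferInstance
    exact Subsingleton.elim _ _
  have hle : LinearMap.range (mapBaseChange K₀ A B) ≤ N.comap φ := by
    rintro _ ⟨x, rfl⟩
    induction x using TensorProduct.induction_on with
    | zero => rw [map_zero]; exact Submodule.zero_mem _
    | tmul r s =>
      rw [mapBaseChange_tmul]
      refine Submodule.smul_mem _ _ ?_
      have hs : s ∈ Submodule.span A (Set.range (KaehlerDifferential.D K₀ A)) := by
        rw [span_range_derivation]; exact Submodule.mem_top
      induction hs using Submodule.span_induction with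
      | mem y hy =>
        obtain ⟨a, rfl⟩ := hy
        rw [KaehlerDifferential.map_D, Submodule.mem_comap, hφD]
        exact hA a
      | zero => rw [map_zero]; exact Submodule.zero_mem _
      | add y z _ _ hy hz => rw [map_add]; exact Submodule.add_mem _ hy hz
      | smul c y _ hy =>
        rw [map_smul, Submodule.mem_comap, algebra_compatible_smul B c, map_smul]
        exact Submodule.smul_mem _ _ hy
    | add x y hx hy => rw [map_add]; exact Submodule.add_mem _ hx hy
  have hmem : KaehlerDifferential.D K₀ B b ∈ N.comap φ := hle (by rw [hrange]; exact Submodule.mem_top)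
  rw [Submodule.mem_comap, hφD] at hmem
  exact hmem

end Kaehler

section Place

variable {K : Type*} [Field K] {F : Type*} [Field F] [Algebra K F]

theorem inv_eq_of_bezout {F : Type*} [Field F] {U W R' S' : F} (hS : S' ≠ 0)
    (h1 : U * R' + W * S' = 1) : S'⁻¹ = U * (R' / S') + W := by
  field_simp
  linear_combination -h1

theorem aeval_mem_valuationSubring {t : F} (𝒱 : ValuationSubring F)
    (hK : ∀ a : K, algebraMap K F a ∈ 𝒱) (ht : t ∈ 𝒱) (p : K[X]) : aeval t p ∈ 𝒱 := by
  rw [aeval_eq_sum_range]
  refine 𝒱.toSubring.sum_mem (fun i _ => ?_)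
  rw [Algebra.smul_def]
  exact 𝒱.mul_mem _ _ (hK _) (pow_mem ht i)

/-- elements of a valuation subring of `K(t)` containing `K[t]` are fractions of polynomials in
`t` with unit denominator. -/
theorem exists_coprime_repr {t : F} (hF : IntermediateField.adjoin K {t} = ⊤)
    (𝒱 : ValuationSubring F) (hK : ∀ a : K, algebraMap K F a ∈ 𝒱) (ht : t ∈ 𝒱) (v : F)
    (hv : v ∈ 𝒱) :
    ∃ r s : K[X], aeval t s ≠ 0 ∧ (aeval t s)⁻¹ ∈ 𝒱 ∧ v = aeval t r / aeval t s := by
  have hmem : v ∈ IntermediateField.adjoin K {t} := by rw [hF]; exact IntermediateField.mem_top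
  obtain ⟨r, s, hrs⟩ := (IntermediateField.mem_adjoin_simple_iff K v).mp hmem
  classical
  by_cases hs0 : aeval t s = 0
  · refine ⟨0, 1, by rw [map_one]; exact one_ne_zero, by rw [map_one, inv_one]; exact 𝒱.one_mem, ?_⟩
    rw [hrs, hs0, div_zero, map_zero, zero_div]
  have hsne : s ≠ 0 := fun h => hs0 (by rw [h, map_zero])
  obtain ⟨r', hr'⟩ := EuclideanDomain.gcd_dvd_left r s
  obtain ⟨s', hs'⟩ := EuclideanDomain.gcd_dvd_right r s
  have hbez := EuclideanDomain.gcd_eq_gcd_ab r s
  generalize EuclideanDomain.gcd r s = g at hr' hs' hbez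
  generalize EuclideanDomain.gcdA r s = u at hbez
  generalize EuclideanDomain.gcdB r s = w at hbez
  have hg0 : g ≠ 0 := fun h0 => hsne (by rw [hs', h0, zero_mul])
  have huw : u * r' + w * s' = 1 := by
    have h1 : g * (u * r' + w * s') = g * 1 := by
      rw [mul_one]
      conv_rhs => rw [hbez, hr', hs']
      ring
    exact mul_left_cancel₀ hg0 h1
  have hgt : aeval t g ≠ 0 := fun h0 => hs0 (by rw [hs', map_mul, h0, zero_mul])
  have hst : aeval t s' ≠ 0 := fun h0 => hs0 (by rw [hs', map_mul, h0, mul_zero])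
  have hv' : v = aeval t r' / aeval t s' := by
    rw [hrs, hr', hs', map_mul, map_mul]
    exact mul_div_mul_left _ _ hgt
  refine ⟨r', s', hst, ?_, hv'⟩
  have h1 : aeval t u * aeval t r' + aeval t w * aeval t s' = 1 := by
    rw [← map_mul, ← map_mul, ← map_add, huw, map_one]
  have h2 : (aeval t s')⁻¹ = aeval t u * v + aeval t w := by
    rw [hv']
    exact inv_eq_of_bezout hst h1
  rw [h2]
  exact 𝒱.add_mem _ _ (𝒱.mul_mem _ _ (aeval_mem_valuationSubring 𝒱 hK ht u) hv)
    (aeval_mem_valuationSubring 𝒱 hK ht w)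

variable {E : Type*} [Field E] [Algebra F E] [Algebra K E] [IsScalarTower K F E]

theorem deriv_algebraMap_aeval {t : F} (D : Derivation K E E)
    (hDt : D (algebraMap F E t) = 1) (p : K[X]) :
    D (algebraMap F E (aeval t p)) = algebraMap F E (aeval t (derivative p)) := by
  rw [← aeval_algebraMap_apply, ← aeval_algebraMap_apply, Derivation.comp_aeval_eq, hDt,
    smul_eq_mul, mul_one]

/-- **`d/dt` preserves the valuation subrings of `K(t)` containing `K[t]`.** -/
theorem deriv_algebraMap_mem {t : F} (hF : IntermediateField.adjoin K {t} = ⊤)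
    (D : Derivation K E E) (hDt : D (algebraMap F E t) = 1)
    (𝒱 : ValuationSubring F) (hK : ∀ a : K, algebraMap K F a ∈ 𝒱) (ht : t ∈ 𝒱) (v : F)
    (hv : v ∈ 𝒱) : ∃ w ∈ 𝒱, D (algebraMap F E v) = algebraMap F E w := by
  obtain ⟨r, s, hs0, hsinv, rfl⟩ := exists_coprime_repr hF 𝒱 hK ht v hv
  refine ⟨(aeval t s)⁻¹ * aeval t (derivative r) -
    aeval t r * ((aeval t s)⁻¹ ^ 2 * aeval t (derivative s)), ?_, ?_⟩
  · exact sub_mem (𝒱.mul_mem _ _ hsinv (aeval_mem_valuationSubring 𝒱 hK ht _))
      (𝒱.mul_mem _ _ (aeval_mem_valuationSubring 𝒱 hK ht _)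
        (𝒱.mul_mem _ _ (pow_mem hsinv 2) (aeval_mem_valuationSubring 𝒱 hK ht _)))
  · rw [div_eq_mul_inv, map_mul, Derivation.leibniz, map_inv₀, Derivation.leibniz_inv,
      deriv_algebraMap_aeval D hDt, deriv_algebraMap_aeval D hDt, smul_eq_mul, smul_eq_mul,
      smul_eq_mul, map_sub, map_mul, map_mul, map_mul, map_pow, map_inv₀]
    ring

/-- **`d/dt` preserves the integral closure of an unramified place of `K(t)`.** -/
theorem deriv_mem_integralClosure_of_unr {t : F} (hF : IntermediateField.adjoin K {t} = ⊤)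
    (D : Derivation K E E) (hDt : D (algebraMap F E t) = 1)
    (𝒱 : ValuationSubring F) (hK : ∀ a : K, algebraMap K F a ∈ 𝒱) (ht : t ∈ 𝒱)
    (hunr : Algebra.FormallyUnramified ↥𝒱 ↥(integralClosure ↥𝒱 E)) :
    ∀ b ∈ integralClosure ↥𝒱 E, D b ∈ integralClosure ↥𝒱 E := by
  intro b hb
  let φ : K →+* ↥𝒱 := (algebraMap K F).codRestrict 𝒱.toSubring hK
  letI algKV : Algebra K ↥𝒱 := φ.toAlgebra
  letI algKB : Algebra K ↥(integralClosure ↥𝒱 E) :=
    ((algebraMap ↥𝒱 ↥(integralClosure ↥𝒱 E)).comp φ).toAlgebra
  haveI tow1 : IsScalarTower K ↥𝒱 ↥(integralClosure ↥𝒱 E) :=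
    IsScalarTower.of_algebraMap_eq (fun _ => rfl)
  haveI tow2 : IsScalarTower K ↥(integralClosure ↥𝒱 E) E := by
    refine IsScalarTower.of_algebraMap_eq (fun k => ?_)
    rw [IsScalarTower.algebraMap_apply K F E]
    rfl
  set D' : Derivation K ↥(integralClosure ↥𝒱 E) E := D.compAlgebraMap ↥(integralClosure ↥𝒱 E)
    with hD'
  set N : Submodule ↥(integralClosure ↥𝒱 E) E :=
    LinearMap.range (Algebra.linearMap ↥(integralClosure ↥𝒱 E) E) with hN
  have hA : ∀ a : ↥𝒱, D' (algebraMap ↥𝒱 ↥(integralClosure ↥𝒱 E) a) ∈ N := by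
    intro a
    obtain ⟨w, hw, hDw⟩ := deriv_algebraMap_mem hF D hDt 𝒱 hK ht (a : F) a.2
    refine ⟨algebraMap ↥𝒱 ↥(integralClosure ↥𝒱 E) ⟨w, hw⟩, ?_⟩
    show algebraMap F E w = D (algebraMap F E (a : F))
    exact hDw.symm
  obtain ⟨c, hc⟩ := deriv_mem_of_formallyUnramified (K₀ := K) (A := ↥𝒱) D' N hA ⟨b, hb⟩
  have : D b = (c : E) := hc.symm
  rw [this]
  exact c.2

end Place

section Transport

variable {K : Type*} [Field K] {F : Type*} [Field F] [Algebra K F] [CharZero F]
  {E : Type*} [Field E] [Algebra F E] [Algebra K E] [IsScalarTower K F E]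
  [Algebra.IsAlgebraic F E]

/-- **transport of `d/dt` by an automorphism**: `σ (D f) = D (σ f) / D (σ t)`. -/
theorem algEquiv_deriv_eq {t : F} (hF : IntermediateField.adjoin K {t} = ⊤)
    (D : Derivation K E E) (hDt : D (algebraMap F E t) = 1) (σ : E ≃ₐ[K] E)
    (hne : D (σ (algebraMap F E t)) ≠ 0) (f : E) :
    σ (D f) = D (σ f) / D (σ (algebraMap F E t)) := by
  set c := D (σ (algebraMap F E t)) with hc
  set D₁ : Derivation K E E := derivOfLeibniz (R := K) (fun f => σ.symm (D (σ f) / c))
    (fun a b => by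
      show σ.symm (D (σ (a + b)) / c) = σ.symm (D (σ a) / c) + σ.symm (D (σ b) / c)
      rw [map_add, map_add, add_div, map_add])
    (fun a b => by
      show σ.symm (D (σ (a * b)) / c) = a * σ.symm (D (σ b) / c) + b * σ.symm (D (σ a) / c)
      rw [map_mul, Derivation.leibniz, smul_eq_mul, smul_eq_mul, add_div, map_add,
        mul_div_assoc, mul_div_assoc, map_mul, map_mul, AlgEquiv.symm_apply_apply,
        AlgEquiv.symm_apply_apply])
    (fun r => by
      show σ.symm (D (σ (algebraMap K E r)) / c) = 0
      rw [AlgEquiv.commutes, Derivation.map_algebraMap, zero_div, map_zero]) with hD₁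
  have h1 : D₁ (algebraMap F E t) = D (algebraMap F E t) := by
    rw [hDt]
    show σ.symm (D (σ (algebraMap F E t)) / c) = 1
    rw [← hc, div_self hne, map_one]
  have h2 := deriv_eq_of_adjoin hF D₁ D h1 f
  have h3 : σ.symm (D (σ f) / c) = D f := h2
  rw [← h3, AlgEquiv.apply_symm_apply]

/-- if `σ` swaps `t₀ = t` and `t₁`, then `σ (D t₁) · D t₁ = 1`. -/
theorem algEquiv_deriv_swap {t : F} (hF : IntermediateField.adjoin K {t} = ⊤)
    (D : Derivation K E E) (hDt : D (algebraMap F E t) = 1) (σ : E ≃ₐ[K] E) {t₁ : E}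
    (h0 : σ (algebraMap F E t) = t₁) (h1 : σ t₁ = algebraMap F E t) (hne : D t₁ ≠ 0) :
    σ (D t₁) * D t₁ = 1 := by
  have h := algEquiv_deriv_eq hF D hDt σ (by rw [h0]; exact hne) t₁
  rw [h0, h1, hDt] at h
  rw [h, one_div, inv_mul_cancel₀ hne]

end Transport

end Fermat.Agent.S36
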