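/-
S36 [REG1] — lead — **the nodes of the Legendre model of level `M q` over an unramified base are
regular**, with local equations `x = A t - s'^q` of `𝔭_0` and `y = B t - (A t)^q` of `𝔭_∞`.

Concrete instantiation of `SSModel.node_regular` for `SSModelLeg`: the derivation is `d/dt₀`
(`legDer`), the Atkin–Lehner automorphism is helper6's `exists_legHostAL`, and the horizontal
clause comes from the char-0 unramifiedness of the host over the `t`-line at non-cuspidal places
(hypothesis `hunr`, literal of [REG1-hor]).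
-/
import Mathlib
import Fermat.Agent.S36.REG1_lead_Node
import Fermat.Agent.S36.REG1_lead_HostE
import Fermat.Agent.S36.REG1_lead_Unr
import Fermat.Agent.S36.REG1_lead_TUnit
import Fermat.Agent.S36.HOST4_helper6_Sheet
import Fermat.Agent.SS.EXPORT_helper4_Model
import Fermat.Agent.JA.BCD_helper9_Host
import Fermat.Agent.JA.ABH_helper4_Local
import Fermat.Agent.JA.LINE_helper2_Ram

set_option autoImplicit false
set_option linter.unusedSectionVars false
set_option linter.style.haveILetI false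
set_option synthInstance.maxHeartbeats 200000

namespace Fermat.Agent.S36

open Polynomial ModularCurve IntermediateField Fermat.Agent.Igusa Fermat.Agent.SS Fermat.Agent.JA

open scoped Fermat.Agent.JA.Host

section Generic

variable {R : Type*} [CommRing R] {K : Type*} [Field K] {E : Type*} [Field E] [Algebra R K]
  [Algebra K E] [Algebra R E] [IsScalarTower R K E]

/-- a ring endomorphism over `R` mapping the coordinate into the chart maps the chart into
itself. -/
theorem chartOne_map_mem (σ : E →+* E) (hσR : ∀ r : R, σ (algebraMap R E r) = algebraMap R E r)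
    (u : K) (hu : σ (algebraMap K E u) ∈ chartOne R E u) {b : E} (hb : b ∈ chartOne R E u) :
    σ b ∈ chartOne R E u := by
  set σ' : K →ₐ[R] E :=
    { toRingHom := σ.comp (algebraMap K E)
      commutes' := fun r => by
        show σ (algebraMap K E (algebraMap R K r)) = algebraMap R E r
        rw [← IsScalarTower.algebraMap_apply, hσR] } with hσ'
  have hmem : ∀ c : ↥(Algebra.adjoin R {u}), σ' (c : K) ∈ Algebra.adjoin R {σ' u} := by
    intro c
    have h1 : σ' (c : K) ∈ (Algebra.adjoin R {u}).map σ' := ⟨c, c.2, rfl⟩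
    rwa [AlgHom.map_adjoin, Set.image_singleton] at h1
  set φ₀ : ↥(Algebra.adjoin R {u}) →ₐ[R] ↥(Algebra.adjoin R {σ' u}) :=
    (σ'.comp (Algebra.adjoin R {u}).val).codRestrict (Algebra.adjoin R {σ' u}) hmem with hφ₀
  have hint : IsIntegral ↥(Algebra.adjoin R {σ' u}) (σ b) :=
    IsIntegral.map_of_comp_eq (φ₀ : ↥(Algebra.adjoin R {u}) →+* ↥(Algebra.adjoin R {σ' u})) σ
      (RingHom.ext fun c => rfl) ((mem_chartOne_iff u b).mp hb)
  exact mem_chartOne_of_isIntegral_adjoin u hu hint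

/-- the chart lies in the integral closure of the trace of a valuation subring containing it. -/
theorem isIntegral_comap_of_mem_chartOne {F : Type*} [Field F] [Algebra K F] [Algebra F E]
    [IsScalarTower K F E] (u : K) (V : ValuationSubring E) (hV : ∀ b ∈ chartOne R E u, b ∈ V)
    {b : E} (hb : b ∈ chartOne R E u) : IsIntegral ↥(V.comap (algebraMap F E)) b := by
  have hmem : ∀ c : ↥(Algebra.adjoin R {u}), algebraMap K F (c : K) ∈ V.comap (algebraMap F E) := by
    intro c
    show algebraMap F E (algebraMap K F (c : K)) ∈ V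
    rw [← IsScalarTower.algebraMap_apply K F E]
    refine hV _ ?_
    rw [mem_chartOne_iff]
    exact (isIntegral_algebraMap : IsIntegral ↥(Algebra.adjoin R {u})
      (algebraMap ↥(Algebra.adjoin R {u}) E c))
  set φ : ↥(Algebra.adjoin R {u}) →+* ↥(V.comap (algebraMap F E)) :=
    ((algebraMap K F).comp (Algebra.adjoin R {u}).val.toRingHom).codRestrict
      (V.comap (algebraMap F E)).toSubring hmem with hφ
  have h := IsIntegral.map_of_comp_eq φ (RingHom.id E) (RingHom.ext fun c => by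
    show algebraMap F E (algebraMap K F (c : K)) = algebraMap K E (c : K)
    rw [← IsScalarTower.algebraMap_apply K F E]) ((mem_chartOne_iff u b).mp hb)
  exact h

end Generic

section Leg

attribute [local instance] algebraRat.charZero

variable (R : Type*) [CommRing R] [IsDomain R] [IsDiscreteValuationRing R] [CharZero R]
  (K : Type*) [Field K] [Algebra R K] [IsFractionRing R K] [Algebra ℚ K] [Algebra K ℂ]

theorem legE_isAlgebraic (N : ℕ) [NeZero N] :
    ∀ f ∈ legE K N, IsAlgebraic ↥K⟮legT K⟯ f := by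
  intro f hf
  haveI : Module.Finite ↥K⟮legT K⟯ ↥(legE K N) := finite_legE K N
  have h1 : IsIntegral ↥K⟮legT K⟯ (⟨f, hf⟩ : ↥(legE K N)) := Algebra.IsIntegral.isIntegral _
  have h2 := h1.map (IsScalarTower.toAlgHom ↥K⟮legT K⟯ ↥(legE K N) (LaurentSeries K))
  exact h2.isAlgebraic

/-- **`d/dt₀` on the Legendre host**, `K`-linear. -/
noncomputable def legDer (h2 : IsUnit (2 : R)) (N : ℕ) [NeZero N] :
    Derivation K ↥(legE K N) ↥(legE K N) :=
  hostDerE (R := R) (legE K N) (legT_mem_legE (K := K) N) (legT_eulerFun_unit R K h2).choose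
    (legT_eulerFun_unit R K h2).choose_spec (legE_isAlgebraic K N)

/-- **`d/dt₀` on the Legendre host**, `R`-linear. -/
noncomputable def legDerR (h2 : IsUnit (2 : R)) (N : ℕ) [NeZero N] :
    Derivation R ↥(legE K N) ↥(legE K N) :=
  hostDerER (R := R) (legE K N) (legT_mem_legE (K := K) N) (legT_eulerFun_unit R K h2).choose
    (legT_eulerFun_unit R K h2).choose_spec (legE_isAlgebraic K N)

theorem legDerR_apply (h2 : IsUnit (2 : R)) (N : ℕ) [NeZero N] (z : ↥(legE K N)) :
    legDerR R K h2 N z = legDer R K h2 N z := rfl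

variable {M q : ℕ} [NeZero M] [NeZero q] [NeZero (M * q)]

theorem qExpand_legT_mem (hq : q.Prime) (hq2 : q ≠ 2) :
    qExpand K q (legT K) ∈ legE K (M * q) := by
  have := (legHostB K M q hq hq2 ⟨legT K, legT_mem_legE (K := K) M⟩).2
  rwa [coe_legHostB] at this

/-- `μ = ∂ t₁ / q` on the Legendre host. -/
noncomputable def legMu (h2 : IsUnit (2 : R)) (hq : q.Prime) (hq2 : q ≠ 2) : ↥(legE K (M * q)) :=
  hostMuE (R := R) (legE K (M * q)) (legT_mem_legE (K := K) (M * q))
    (legT_eulerFun_unit R K h2).choose (legT_eulerFun_unit R K h2).choose_spec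
    (legE_isAlgebraic K (M * q)) q (qExpand_legT_mem K hq hq2)

theorem coe_legMu (h2 : IsUnit (2 : R)) (hq : q.Prime) (hq2 : q ≠ 2) :
    ((legMu R K (M := M) h2 hq hq2 : ↥(legE K (M * q))) : LaurentSeries K) =
      hostMu (legT K) q :=
  coe_hostMuE _ _ _ _ _ _ _

theorem legHostA_t_eq :
    legHostA K M q (algebraMap ↥K⟮legT K⟯ ↥(legE K M) (AdjoinSimple.gen K (legT K))) =
      ⟨legT K, legT_mem_legE (K := K) (M * q)⟩ := Subtype.ext rfl

theorem legHostB_t_eq (hq : q.Prime) (hq2 : q ≠ 2) :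
    legHostB K M q hq hq2 (algebraMap ↥K⟮legT K⟯ ↥(legE K M) (AdjoinSimple.gen K (legT K))) =
      ⟨qExpand K q (legT K), qExpand_legT_mem K hq hq2⟩ := Subtype.ext rfl

theorem legDer_A_t (h2 : IsUnit (2 : R)) :
    legDer R K h2 (M * q)
      (legHostA K M q (algebraMap ↥K⟮legT K⟯ ↥(legE K M) (AdjoinSimple.gen K (legT K)))) = 1 := by
  rw [legHostA_t_eq]
  exact hostDerE_t _ _ _ _ _

theorem legDer_B_t (h2 : IsUnit (2 : R)) (hq : q.Prime) (hq2 : q ≠ 2) :
    legDer R K h2 (M * q)
      (legHostB K M q hq hq2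
        (algebraMap ↥K⟮legT K⟯ ↥(legE K M) (AdjoinSimple.gen K (legT K)))) =
      ((q : ℕ) : ↥(legE K (M * q))) * legMu R K h2 hq hq2 := by
  rw [legHostB_t_eq]
  exact hostDerE_t1 _ _ _ _ _ q _

theorem legMu_valuation (h2 : IsUnit (2 : R)) (hq : q.Prime) (hq2 : q ≠ 2) :
    (legWinf R K h2 (M * q)).valuation (legMu R K (M := M) h2 hq hq2) = 1 :=
  hostMuE_valuation _ _ _ _ _ _ _ _

theorem legDer_mem_legWinf (h2 : IsUnit (2 : R)) (N : ℕ) [NeZero N] (e : ↥(legE K N))
    (he : e ∈ legWinf R K h2 N) : legDer R K h2 N e ∈ legWinf R K h2 N :=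
  hostDerE_mem_gaussValSub _ _ _ _ _ _ e he

theorem legDer_valuation_lt_one (h2 : IsUnit (2 : R)) (N : ℕ) [NeZero N] (e : ↥(legE K N))
    (he : (legWinf R K h2 N).valuation e < 1) :
    (legWinf R K h2 N).valuation (legDer R K h2 N e) < 1 :=
  hostDerE_valuation_lt_one _ _ _ _ _ _ e he

/-- **[REG1-hor], literal**: the Legendre host of level `N` is unramified over the `t`-line at
every non-cuspidal place (characteristic zero). -/
def LegHorUnr (N : ℕ) [NeZero N] : Prop :=
  ∀ V : ValuationSubring ↥(legE K N), (∀ a : K, algebraMap K ↥(legE K N) a ∈ V) → V ≠ ⊤ →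
    legJE K N ∈ V →
    Algebra.FormallyUnramified ↥(V.comap (algebraMap ↥K⟮legT K⟯ ↥(legE K N)))
      ↥(integralClosure ↥(V.comap (algebraMap ↥K⟮legT K⟯ ↥(legE K N))) ↥(legE K N))

variable {x y : ℤ} [DecidableEq R] {π : R} {h2 : IsUnit (2 : R)}
  {hbez : (q : ℤ) * x + M * y = 1} {hq : q.Prime} {hq2 : q ≠ 2}

set_option maxHeartbeats 1600000 in
/-- `μ` lies in every horizontal valuation subring containing the chart. -/
theorem legMu_mem_of_chart_le (hmodel : SSModelLeg R K π h2 hbez hq hq2)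
    (hπ : Irreducible π) (hunr : LegHorUnr K (M * q))
    (V : ValuationSubring ↥(legE K (M * q)))
    (hKV : ∀ a : K, algebraMap K ↥(legE K (M * q)) a ∈ V)
    (hBV : ∀ b ∈ chartOne R ↥(legE K (M * q)) (AdjoinSimple.gen K (jqNModC K 2)), b ∈ V) :
    legMu R K (M := M) h2 hq hq2 ∈ V := by
  by_cases hV : V = ⊤
  · rw [hV]; exact ValuationSubring.mem_top _
  haveI : FiniteDimensional ↥K⟮jqNModC K 2⟯ ↥(legE K (M * q)) := finite_legE_adjoin_j K (M * q)
  have hjq := hmodel.jq_mem_chartOne hπ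
  -- the `j`-function lies in `V`
  have hjV : legJE K (M * q) ∈ V := by
    refine hBV _ ?_
    have h1 : legJE K (M * q) = algebraMap ↥K⟮jqNModC K 2⟯ ↥(legE K (M * q))
        (AdjoinSimple.gen K (jqNModC K 2)) := Subtype.ext rfl
    rw [h1]
    exact algebraMap_coord_mem_chartOne _
  have hU := hunr V hKV hV hjV
  set 𝒱 := V.comap (algebraMap ↥K⟮legT K⟯ ↥(legE K (M * q))) with h𝒱
  haveI : Module.Finite ↥K⟮legT K⟯ ↥(legE K (M * q)) := finite_legE K (M * q)
  have hF : IntermediateField.adjoin K {AdjoinSimple.gen K (legT K)} = ⊤ :=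
    adjoin_simple_gen_eq_top _
  have hDt : legDer R K h2 (M * q)
      (algebraMap ↥K⟮legT K⟯ ↥(legE K (M * q)) (AdjoinSimple.gen K (legT K))) = 1 := by
    have e : algebraMap ↥K⟮legT K⟯ ↥(legE K (M * q)) (AdjoinSimple.gen K (legT K)) =
        ⟨legT K, legT_mem_legE (K := K) (M * q)⟩ := Subtype.ext rfl
    rw [e]
    exact hostDerE_t _ _ _ _ _
  have hK𝒱 : ∀ a : K, algebraMap K ↥K⟮legT K⟯ a ∈ 𝒱 := by
    intro a
    show algebraMap ↥K⟮legT K⟯ ↥(legE K (M * q)) (algebraMap K ↥K⟮legT K⟯ a) ∈ V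
    rw [← IsScalarTower.algebraMap_apply K ↥K⟮legT K⟯ ↥(legE K (M * q))]
    exact hKV a
  have hAt : legHostA K M q (algebraMap ↥K⟮legT K⟯ ↥(legE K M) (AdjoinSimple.gen K (legT K))) ∈
      chartOne R ↥(legE K (M * q)) (AdjoinSimple.gen K (jqNModC K 2)) := hmodel.A_t_mem
  have hBt : legHostB K M q hq hq2
      (algebraMap ↥K⟮legT K⟯ ↥(legE K M) (AdjoinSimple.gen K (legT K))) ∈
      chartOne R ↥(legE K (M * q)) (AdjoinSimple.gen K (jqNModC K 2)) := hmodel.B_t_mem hjq
  have ht𝒱 : AdjoinSimple.gen K (legT K) ∈ 𝒱 := by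
    show algebraMap ↥K⟮legT K⟯ ↥(legE K (M * q)) (AdjoinSimple.gen K (legT K)) ∈ V
    have e : algebraMap ↥K⟮legT K⟯ ↥(legE K (M * q)) (AdjoinSimple.gen K (legT K)) =
        legHostA K M q (algebraMap ↥K⟮legT K⟯ ↥(legE K M) (AdjoinSimple.gen K (legT K))) :=
      Subtype.ext rfl
    rw [e]
    exact hBV _ hAt
  have hH := deriv_mem_integralClosure_of_unr (K := K) (F := ↥K⟮legT K⟯)
    (E := ↥(legE K (M * q))) hF (legDer R K h2 (M * q)) hDt 𝒱 hK𝒱 ht𝒱 hU
  have hBt𝒱 : IsIntegral ↥𝒱 (legHostB K M q hq hq2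
      (algebraMap ↥K⟮legT K⟯ ↥(legE K M) (AdjoinSimple.gen K (legT K)))) :=
    isIntegral_comap_of_mem_chartOne (F := ↥K⟮legT K⟯) _ V hBV hBt
  have hDB := hH _ hBt𝒱
  rw [legDer_B_t] at hDB
  have hDBV : ((q : ℕ) : ↥(legE K (M * q))) * legMu R K h2 hq hq2 ∈ V := by
    rw [← ValuationSubring.valuation_le_one_iff]
    refine val_le_one_of_isIntegral (O := ↥𝒱) (ν := V.valuation) (fun a => ?_) hDB
    exact (ValuationSubring.valuation_le_one_iff _ _).mpr a.2
  have hqinv : (((q : ℕ) : ↥(legE K (M * q))))⁻¹ ∈ V := by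
    have := hKV ((q : K)⁻¹)
    rwa [map_inv₀, map_natCast] at this
  have hq0 : ((q : ℕ) : ↥(legE K (M * q))) ≠ 0 := Nat.cast_ne_zero.mpr (NeZero.ne q)
  have : legMu R K (M := M) h2 hq hq2 = (((q : ℕ) : ↥(legE K (M * q))))⁻¹ *
      (((q : ℕ) : ↥(legE K (M * q))) * legMu R K h2 hq hq2) := by
    rw [← mul_assoc, inv_mul_cancel₀ hq0, one_mul]
  rw [this]
  exact V.mul_mem _ _ hqinv hDBV

set_option maxHeartbeats 1600000 in
/-- **[REG1], Legendre**: the nodes of the chart `j` of the Legendre model of level `M q` over an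
unramified base are regular, with the explicit local equations. -/
theorem leg_node_regular (hmodel : SSModelLeg R K π h2 hbez hq hq2) (hπ : Irreducible π)
    [IsAlgClosed (IsLocalRing.ResidueField R)] {cq : R} (hcq : IsUnit cq)
    (hqπ : ((q : ℕ) : R) = π * cq) (hunr : LegHorUnr K (M * q)) :
    haveI : FiniteDimensional ↥K⟮jqNModC K 2⟯ ↥(legE K (M * q)) := finite_legE_adjoin_j K (M * q)
    SSModel.NodeRegular (K₁ := K) hmodel := by
  haveI : FiniteDimensional ↥K⟮jqNModC K 2⟯ ↥(legE K (M * q)) := finite_legE_adjoin_j K (M * q)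
  haveI : Module.Finite ↥K⟮legT K⟯ ↥(legE K (M * q)) := finite_legE K (M * q)
  have hjq := hmodel.jq_mem_chartOne hπ
  obtain ⟨wE, hAB, hBA, -, -, hW⟩ := exists_legHostAL R K hπ hmodel
  have hF : IntermediateField.adjoin K {AdjoinSimple.gen K (legT K)} = ⊤ :=
    adjoin_simple_gen_eq_top _
  have eA : algebraMap ↥K⟮legT K⟯ ↥(legE K (M * q)) (AdjoinSimple.gen K (legT K)) =
      legHostA K M q (algebraMap ↥K⟮legT K⟯ ↥(legE K M) (AdjoinSimple.gen K (legT K))) :=
    Subtype.ext rfl
  have hDt : legDer R K h2 (M * q)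
      (algebraMap ↥K⟮legT K⟯ ↥(legE K (M * q)) (AdjoinSimple.gen K (legT K))) = 1 := by
    rw [eA]; exact legDer_A_t R K h2
  have hq0 : ((q : ℕ) : ↥(legE K (M * q))) ≠ 0 := Nat.cast_ne_zero.mpr (NeZero.ne q)
  have hμ := legMu_valuation R K (M := M) h2 hq hq2
  have hμ0 : legMu R K (M := M) h2 hq hq2 ≠ 0 := by
    intro h0
    rw [h0, map_zero] at hμ
    exact zero_ne_one hμ
  -- the swap relation
  have hswap := algEquiv_deriv_swap (K := K) (F := ↥K⟮legT K⟯) (E := ↥(legE K (M * q))) hF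
    (legDer R K h2 (M * q)) hDt wE
    (t₁ := legHostB K M q hq hq2
      (algebraMap ↥K⟮legT K⟯ ↥(legE K M) (AdjoinSimple.gen K (legT K))))
    (by rw [eA]; exact hAB _) (by rw [eA]; exact hBA _)
    (by rw [legDer_B_t]; exact mul_ne_zero hq0 hμ0)
  rw [legDer_B_t, map_mul, map_natCast] at hswap
  have hσμ : ((q : ℕ) : ↥(legE K (M * q))) ^ 2 * (wE : ↥(legE K (M * q)) →+* ↥(legE K (M * q)))
      (legMu R K h2 hq hq2) * legMu R K h2 hq hq2 = 1 := by
    have e : (wE : ↥(legE K (M * q)) →+* ↥(legE K (M * q))) (legMu R K h2 hq hq2) =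
        wE (legMu R K h2 hq hq2) := rfl
    rw [e]
    linear_combination hswap
  -- the chart is stable under `wE`
  have hσR : ∀ r : R, (wE : ↥(legE K (M * q)) →+* ↥(legE K (M * q)))
      (algebraMap R ↥(legE K (M * q)) r) = algebraMap R ↥(legE K (M * q)) r := by
    intro r
    rw [IsScalarTower.algebraMap_apply R K ↥(legE K (M * q))]
    exact wE.commutes _
  have hσchart : ∀ b ∈ chartOne R ↥(legE K (M * q)) (AdjoinSimple.gen K (jqNModC K 2)),
      (wE : ↥(legE K (M * q)) →+* ↥(legE K (M * q))) b ∈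
        chartOne R ↥(legE K (M * q)) (AdjoinSimple.gen K (jqNModC K 2)) := by
    intro b hb
    refine chartOne_map_mem _ hσR _ ?_ hb
    have e : algebraMap ↥K⟮jqNModC K 2⟯ ↥(legE K (M * q)) (AdjoinSimple.gen K (jqNModC K 2)) =
        legHostA K M q (legJE K M) := Subtype.ext rfl
    rw [e]
    show wE (legHostA K M q (legJE K M)) ∈ _
    rw [hAB]
    exact hjq
  exact SSModel.node_regular (K₁ := K) hmodel hπ hjq hcq hqπ (legDerR R K h2 (M * q))
    (fun e he => legDer_mem_legWinf R K h2 (M * q) e he)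
    (fun e he => legDer_valuation_lt_one R K h2 (M * q) e he)
    (legDer_A_t R K h2) (legDer_B_t R K h2 hq hq2) hμ
    (wE : ↥(legE K (M * q)) →+* ↥(legE K (M * q))) (fun a => wE.commutes a) hσchart
    (fun z hz => (hW z).mp hz) hσμ
    (fun V hKV hBV => legMu_mem_of_chart_le R K hmodel hπ hunr V hKV hBV)

end Leg

end Fermat.Agent.S36
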