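/-
S36 [REG1] — lead — **the nodes of the Hesse model of level `M · 2` over an unramified base are
regular** (`q = 2`): the Hesse twin of `REG1_lead_Leg`.
-/
import Mathlib
import Fermat.Agent.S36.REG1_lead_Leg

set_option autoImplicit false
set_option linter.unusedSectionVars false
set_option linter.style.haveILetI false
set_option synthInstance.maxHeartbeats 200000

namespace Fermat.Agent.S36

open Polynomial ModularCurve IntermediateField Fermat.Agent.Igusa Fermat.Agent.SS Fermat.Agent.JA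

open scoped Fermat.Agent.JA.Host

section Hes

attribute [local instance] algebraRat.charZero

variable (R : Type*) [CommRing R] [IsDomain R] [IsDiscreteValuationRing R] [CharZero R]
  (K : Type*) [Field K] [Algebra R K] [IsFractionRing R K] [Algebra ℚ K] [Algebra K ℂ]

theorem hesE_isAlgebraic (N : ℕ) [NeZero N] :
    ∀ f ∈ hesE K N, IsAlgebraic ↥K⟮hesT K⟯ f := by
  intro f hf
  haveI : Module.Finite ↥K⟮hesT K⟯ ↥(hesE K N) := finite_hesE K N
  have h1 : IsIntegral ↥K⟮hesT K⟯ (⟨f, hf⟩ : ↥(hesE K N)) := Algebra.IsIntegral.isIntegral _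
  have h4 := h1.map (IsScalarTower.toAlgHom ↥K⟮hesT K⟯ ↥(hesE K N) (LaurentSeries K))
  exact h4.isAlgebraic

/-- **`d/dt₀` on the Hesse host**, `K`-linear. -/
noncomputable def hesDer (h3 : IsUnit (3 : R)) (N : ℕ) [NeZero N] :
    Derivation K ↥(hesE K N) ↥(hesE K N) :=
  hostDerE (R := R) (hesE K N) (hesT_mem_hesE (K := K) N) (hesT_eulerFun_unit R K h3).choose
    (hesT_eulerFun_unit R K h3).choose_spec (hesE_isAlgebraic K N)

/-- **`d/dt₀` on the Hesse host**, `R`-linear. -/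
noncomputable def hesDerR (h3 : IsUnit (3 : R)) (N : ℕ) [NeZero N] :
    Derivation R ↥(hesE K N) ↥(hesE K N) :=
  hostDerER (R := R) (hesE K N) (hesT_mem_hesE (K := K) N) (hesT_eulerFun_unit R K h3).choose
    (hesT_eulerFun_unit R K h3).choose_spec (hesE_isAlgebraic K N)

theorem hesDerR_apply (h3 : IsUnit (3 : R)) (N : ℕ) [NeZero N] (z : ↥(hesE K N)) :
    hesDerR R K h3 N z = hesDer R K h3 N z := rfl

variable {M : ℕ} [NeZero M] [NeZero (M * 2)]

theorem qExpand_hesT_mem  :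
    qExpand K 2 (hesT K) ∈ hesE K (M * 2) := by
  have := (hesHostB K M ⟨hesT K, hesT_mem_hesE (K := K) M⟩).2
  rwa [coe_hesHostB] at this

/-- `μ = ∂ t₁ / q` on the Hesse host. -/
noncomputable def hesMu (h3 : IsUnit (3 : R))  : ↥(hesE K (M * 2)) :=
  hostMuE (R := R) (hesE K (M * 2)) (hesT_mem_hesE (K := K) (M * 2))
    (hesT_eulerFun_unit R K h3).choose (hesT_eulerFun_unit R K h3).choose_spec
    (hesE_isAlgebraic K (M * 2)) 2 (qExpand_hesT_mem K)

theorem coe_hesMu (h3 : IsUnit (3 : R))  :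
    ((hesMu R K (M := M) h3 : ↥(hesE K (M * 2))) : LaurentSeries K) =
      hostMu (hesT K) 2 :=
  coe_hostMuE _ _ _ _ _ _ _

theorem hesHostA_t_eq :
    hesHostA K M 2 (algebraMap ↥K⟮hesT K⟯ ↥(hesE K M) (AdjoinSimple.gen K (hesT K))) =
      ⟨hesT K, hesT_mem_hesE (K := K) (M * 2)⟩ := Subtype.ext rfl

theorem hesHostB_t_eq  :
    hesHostB K M (algebraMap ↥K⟮hesT K⟯ ↥(hesE K M) (AdjoinSimple.gen K (hesT K))) =
      ⟨qExpand K 2 (hesT K), qExpand_hesT_mem K⟩ := Subtype.ext rfl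

theorem hesDer_A_t (h3 : IsUnit (3 : R)) :
    hesDer R K h3 (M * 2)
      (hesHostA K M 2 (algebraMap ↥K⟮hesT K⟯ ↥(hesE K M) (AdjoinSimple.gen K (hesT K)))) = 1 := by
  rw [hesHostA_t_eq]
  exact hostDerE_t _ _ _ _ _

theorem hesDer_B_t (h3 : IsUnit (3 : R))  :
    hesDer R K h3 (M * 2)
      (hesHostB K M
        (algebraMap ↥K⟮hesT K⟯ ↥(hesE K M) (AdjoinSimple.gen K (hesT K)))) =
      ((2 : ℕ) : ↥(hesE K (M * 2))) * hesMu R K h3 := by
  rw [hesHostB_t_eq]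
  exact hostDerE_t1 _ _ _ _ _ 2 _

theorem hesMu_valuation (h3 : IsUnit (3 : R))  :
    (hesWinf R K h3 (M * 2)).valuation (hesMu R K (M := M) h3) = 1 :=
  hostMuE_valuation _ _ _ _ _ _ _ _

theorem hesDer_mem_hesWinf (h3 : IsUnit (3 : R)) (N : ℕ) [NeZero N] (e : ↥(hesE K N))
    (he : e ∈ hesWinf R K h3 N) : hesDer R K h3 N e ∈ hesWinf R K h3 N :=
  hostDerE_mem_gaussValSub _ _ _ _ _ _ e he

theorem hesDer_valuation_lt_one (h3 : IsUnit (3 : R)) (N : ℕ) [NeZero N] (e : ↥(hesE K N))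
    (he : (hesWinf R K h3 N).valuation e < 1) :
    (hesWinf R K h3 N).valuation (hesDer R K h3 N e) < 1 :=
  hostDerE_valuation_lt_one _ _ _ _ _ _ e he

/-- **[REG1-hor], literal**: the Hesse host of level `N` is unramified over the `t`-line at
every non-cuspidal place (characteristic zero). -/
def HesHorUnr (N : ℕ) [NeZero N] : Prop :=
  ∀ V : ValuationSubring ↥(hesE K N), (∀ a : K, algebraMap K ↥(hesE K N) a ∈ V) → V ≠ ⊤ →
    hesJE K N ∈ V →
    Algebra.FormallyUnramified ↥(V.comap (algebraMap ↥K⟮hesT K⟯ ↥(hesE K N)))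
      ↥(integralClosure ↥(V.comap (algebraMap ↥K⟮hesT K⟯ ↥(hesE K N))) ↥(hesE K N))

variable {x y : ℤ} [DecidableEq R] {π : R} {h3 : IsUnit (3 : R)}
  {ω : R} {hbez : ((2 : ℕ) : ℤ) * x + M * y = 1}

set_option maxHeartbeats 1600000 in
/-- `μ` lies in every horizontal valuation subring containing the chart. -/
theorem hesMu_mem_of_chart_le (hmodel : SSModelHes R K π h3 ω hbez)
    (hπ : Irreducible π) (hunr : HesHorUnr K (M * 2))
    (V : ValuationSubring ↥(hesE K (M * 2)))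
    (hKV : ∀ a : K, algebraMap K ↥(hesE K (M * 2)) a ∈ V)
    (hBV : ∀ b ∈ chartOne R ↥(hesE K (M * 2)) (AdjoinSimple.gen K (jqNModC K 3)), b ∈ V) :
    hesMu R K (M := M) h3 ∈ V := by
  by_cases hV : V = ⊤
  · rw [hV]; exact ValuationSubring.mem_top _
  haveI : FiniteDimensional ↥K⟮jqNModC K 3⟯ ↥(hesE K (M * 2)) := finite_hesE_adjoin_j K (M * 2)
  have hjq := hmodel.jq_mem_chartOne hπ
  -- the `j`-function lies in `V`
  have hjV : hesJE K (M * 2) ∈ V := by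
    refine hBV _ ?_
    have h1 : hesJE K (M * 2) = algebraMap ↥K⟮jqNModC K 3⟯ ↥(hesE K (M * 2))
        (AdjoinSimple.gen K (jqNModC K 3)) := Subtype.ext rfl
    rw [h1]
    exact algebraMap_coord_mem_chartOne _
  have hU := hunr V hKV hV hjV
  set 𝒱 := V.comap (algebraMap ↥K⟮hesT K⟯ ↥(hesE K (M * 2))) with h𝒱
  haveI : Module.Finite ↥K⟮hesT K⟯ ↥(hesE K (M * 2)) := finite_hesE K (M * 2)
  have hF : IntermediateField.adjoin K {AdjoinSimple.gen K (hesT K)} = ⊤ :=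
    adjoin_simple_gen_eq_top _
  have hDt : hesDer R K h3 (M * 2)
      (algebraMap ↥K⟮hesT K⟯ ↥(hesE K (M * 2)) (AdjoinSimple.gen K (hesT K))) = 1 := by
    have e : algebraMap ↥K⟮hesT K⟯ ↥(hesE K (M * 2)) (AdjoinSimple.gen K (hesT K)) =
        ⟨hesT K, hesT_mem_hesE (K := K) (M * 2)⟩ := Subtype.ext rfl
    rw [e]
    exact hostDerE_t _ _ _ _ _
  have hK𝒱 : ∀ a : K, algebraMap K ↥K⟮hesT K⟯ a ∈ 𝒱 := by
    intro a
    show algebraMap ↥K⟮hesT K⟯ ↥(hesE K (M * 2)) (algebraMap K ↥K⟮hesT K⟯ a) ∈ V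
    rw [← IsScalarTower.algebraMap_apply K ↥K⟮hesT K⟯ ↥(hesE K (M * 2))]
    exact hKV a
  have hAt : hesHostA K M 2 (algebraMap ↥K⟮hesT K⟯ ↥(hesE K M) (AdjoinSimple.gen K (hesT K))) ∈
      chartOne R ↥(hesE K (M * 2)) (AdjoinSimple.gen K (jqNModC K 3)) := hmodel.A_t_mem
  have hBt : hesHostB K M
      (algebraMap ↥K⟮hesT K⟯ ↥(hesE K M) (AdjoinSimple.gen K (hesT K))) ∈
      chartOne R ↥(hesE K (M * 2)) (AdjoinSimple.gen K (jqNModC K 3)) := hmodel.B_t_mem hjq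
  have ht𝒱 : AdjoinSimple.gen K (hesT K) ∈ 𝒱 := by
    show algebraMap ↥K⟮hesT K⟯ ↥(hesE K (M * 2)) (AdjoinSimple.gen K (hesT K)) ∈ V
    have e : algebraMap ↥K⟮hesT K⟯ ↥(hesE K (M * 2)) (AdjoinSimple.gen K (hesT K)) =
        hesHostA K M 2 (algebraMap ↥K⟮hesT K⟯ ↥(hesE K M) (AdjoinSimple.gen K (hesT K))) :=
      Subtype.ext rfl
    rw [e]
    exact hBV _ hAt
  have hH := deriv_mem_integralClosure_of_unr (K := K) (F := ↥K⟮hesT K⟯)
    (E := ↥(hesE K (M * 2))) hF (hesDer R K h3 (M * 2)) hDt 𝒱 hK𝒱 ht𝒱 hU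
  have hBt𝒱 : IsIntegral ↥𝒱 (hesHostB K M
      (algebraMap ↥K⟮hesT K⟯ ↥(hesE K M) (AdjoinSimple.gen K (hesT K)))) :=
    isIntegral_comap_of_mem_chartOne (F := ↥K⟮hesT K⟯) _ V hBV hBt
  have hDB := hH _ hBt𝒱
  rw [hesDer_B_t] at hDB
  have hDBV : ((2 : ℕ) : ↥(hesE K (M * 2))) * hesMu R K h3 ∈ V := by
    rw [← ValuationSubring.valuation_le_one_iff]
    refine val_le_one_of_isIntegral (O := ↥𝒱) (ν := V.valuation) (fun a => ?_) hDB
    exact (ValuationSubring.valuation_le_one_iff _ _).mpr a.2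
  have hqinv : (((2 : ℕ) : ↥(hesE K (M * 2))))⁻¹ ∈ V := by
    have := hKV (((2 : ℕ) : K)⁻¹)
    rwa [map_inv₀, map_natCast] at this
  have hq0 : ((2 : ℕ) : ↥(hesE K (M * 2))) ≠ 0 := Nat.cast_ne_zero.mpr (NeZero.ne 2)
  have : hesMu R K (M := M) h3 = (((2 : ℕ) : ↥(hesE K (M * 2))))⁻¹ *
      (((2 : ℕ) : ↥(hesE K (M * 2))) * hesMu R K h3) := by
    rw [← mul_assoc, inv_mul_cancel₀ hq0, one_mul]
  rw [this]
  exact V.mul_mem _ _ hqinv hDBV

set_option maxHeartbeats 1600000 in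
/-- **[REG1], Hesse**: the nodes of the chart `j` of the Hesse model of level `M q` over an
unramified base are regular, with the explicit local equations. -/
theorem hes_node_regular (hmodel : SSModelHes R K π h3 ω hbez) (hπ : Irreducible π)
    [IsAlgClosed (IsLocalRing.ResidueField R)] {cq : R} (hcq : IsUnit cq)
    (hqπ : ((2 : ℕ) : R) = π * cq) (hunr : HesHorUnr K (M * 2)) :
    haveI : FiniteDimensional ↥K⟮jqNModC K 3⟯ ↥(hesE K (M * 2)) := finite_hesE_adjoin_j K (M * 2)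
    SSModel.NodeRegular (K₁ := K) hmodel := by
  haveI : FiniteDimensional ↥K⟮jqNModC K 3⟯ ↥(hesE K (M * 2)) := finite_hesE_adjoin_j K (M * 2)
  haveI : Module.Finite ↥K⟮hesT K⟯ ↥(hesE K (M * 2)) := finite_hesE K (M * 2)
  have hjq := hmodel.jq_mem_chartOne hπ
  obtain ⟨wE, hAB, hBA, -, -, hW⟩ := exists_hesHostAL R K hπ hmodel
  have hF : IntermediateField.adjoin K {AdjoinSimple.gen K (hesT K)} = ⊤ :=
    adjoin_simple_gen_eq_top _
  have eA : algebraMap ↥K⟮hesT K⟯ ↥(hesE K (M * 2)) (AdjoinSimple.gen K (hesT K)) =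
      hesHostA K M 2 (algebraMap ↥K⟮hesT K⟯ ↥(hesE K M) (AdjoinSimple.gen K (hesT K))) :=
    Subtype.ext rfl
  have hDt : hesDer R K h3 (M * 2)
      (algebraMap ↥K⟮hesT K⟯ ↥(hesE K (M * 2)) (AdjoinSimple.gen K (hesT K))) = 1 := by
    rw [eA]; exact hesDer_A_t R K h3
  have hq0 : ((2 : ℕ) : ↥(hesE K (M * 2))) ≠ 0 := Nat.cast_ne_zero.mpr (NeZero.ne 2)
  have hμ := hesMu_valuation R K (M := M) h3
  have hμ0 : hesMu R K (M := M) h3 ≠ 0 := by
    intro h0
    rw [h0, map_zero] at hμ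
    exact zero_ne_one hμ
  -- the swap relation
  have hswap := algEquiv_deriv_swap (K := K) (F := ↥K⟮hesT K⟯) (E := ↥(hesE K (M * 2))) hF
    (hesDer R K h3 (M * 2)) hDt wE
    (t₁ := hesHostB K M
      (algebraMap ↥K⟮hesT K⟯ ↥(hesE K M) (AdjoinSimple.gen K (hesT K))))
    (by rw [eA]; exact hAB _) (by rw [eA]; exact hBA _)
    (by rw [hesDer_B_t]; exact mul_ne_zero hq0 hμ0)
  rw [hesDer_B_t, map_mul, map_natCast] at hswap
  have hσμ : ((2 : ℕ) : ↥(hesE K (M * 2))) ^ 2 * (wE : ↥(hesE K (M * 2)) →+* ↥(hesE K (M * 2)))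
      (hesMu R K h3) * hesMu R K h3 = 1 := by
    have e : (wE : ↥(hesE K (M * 2)) →+* ↥(hesE K (M * 2))) (hesMu R K h3) =
        wE (hesMu R K h3) := rfl
    rw [e]
    linear_combination hswap
  -- the chart is stable under `wE`
  have hσR : ∀ r : R, (wE : ↥(hesE K (M * 2)) →+* ↥(hesE K (M * 2)))
      (algebraMap R ↥(hesE K (M * 2)) r) = algebraMap R ↥(hesE K (M * 2)) r := by
    intro r
    rw [IsScalarTower.algebraMap_apply R K ↥(hesE K (M * 2))]
    exact wE.commutes _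
  have hσchart : ∀ b ∈ chartOne R ↥(hesE K (M * 2)) (AdjoinSimple.gen K (jqNModC K 3)),
      (wE : ↥(hesE K (M * 2)) →+* ↥(hesE K (M * 2))) b ∈
        chartOne R ↥(hesE K (M * 2)) (AdjoinSimple.gen K (jqNModC K 3)) := by
    intro b hb
    refine chartOne_map_mem _ hσR _ ?_ hb
    have e : algebraMap ↥K⟮jqNModC K 3⟯ ↥(hesE K (M * 2)) (AdjoinSimple.gen K (jqNModC K 3)) =
        hesHostA K M 2 (hesJE K M) := Subtype.ext rfl
    rw [e]
    show wE (hesHostA K M 2 (hesJE K M)) ∈ _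
    rw [hAB]
    exact hjq
  exact SSModel.node_regular (K₁ := K) hmodel hπ hjq hcq hqπ (hesDerR R K h3 (M * 2))
    (fun e he => hesDer_mem_hesWinf R K h3 (M * 2) e he)
    (fun e he => hesDer_valuation_lt_one R K h3 (M * 2) e he)
    (hesDer_A_t R K h3) (hesDer_B_t R K h3) hμ
    (wE : ↥(hesE K (M * 2)) →+* ↥(hesE K (M * 2))) (fun a => wE.commutes a) hσchart
    (fun z hz => (hW z).mp hz) hσμ
    (fun V hKV hBV => hesMu_mem_of_chart_le R K hmodel hπ hunr V hKV hBV)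

end Hes

end Fermat.Agent.S36
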