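/-
S36 [REG1] — lead — **`μ = ∂ t₁ / q` at the points of the chart `j` of the model of level `M q`**
(concrete Legendre / Hesse wrappers of the abstract exports `SSModel.inv_mu_mem_locRing`,
`SSModel.inv_mu_mem_locMax`, `SSModel.mu_mem_locRing_of_not_le`).

* `legMu_inv_mem_locRing` : `μ⁻¹` is regular at every point of the chart;
* `legMu_inv_mem_locMax` : `μ⁻¹` vanishes at every point of the sheet `W_0`;
* `legMu_unit_of_not_le` : `μ` is a unit of the local ring at every point NOT on `W_0`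
  (the `W_∞`-only points).
Same for `hesMu`.  The only open input is the horizontal literal `LegHorUnr` / `HesHorUnr`.
-/
import Mathlib
import Fermat.Agent.S36.REG1_lead_Leg
import Fermat.Agent.S36.REG1_lead_Hes

set_option autoImplicit false
set_option linter.unusedSectionVars false
set_option linter.style.haveILetI false
set_option synthInstance.maxHeartbeats 200000

namespace Fermat.Agent.S36

open Polynomial ModularCurve IntermediateField Fermat.Agent.Igusa Fermat.Agent.SS Fermat.Agent.JA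

open scoped Fermat.Agent.JA.Host

section Leg

attribute [local instance] algebraRat.charZero

variable (R : Type*) [CommRing R] [IsDomain R] [IsDiscreteValuationRing R] [CharZero R]
  (K : Type*) [Field K] [Algebra R K] [IsFractionRing R K] [Algebra ℚ K] [Algebra K ℂ]

variable {M q : ℕ} [NeZero M] [NeZero q] [NeZero (M * q)]

variable {x y : ℤ} [DecidableEq R] {π : R} {h2 : IsUnit (2 : R)}
  {hbez : (q : ℤ) * x + M * y = 1} {hq : q.Prime} {hq2 : q ≠ 2}

set_option maxHeartbeats 1600000 in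
/-- the Atkin–Lehner data for `μ` on the Legendre host. -/
theorem exists_leg_mu_swap (hmodel : SSModelLeg R K π h2 hbez hq hq2) (hπ : Irreducible π) :
    ∃ σ : ↥(legE K (M * q)) →+* ↥(legE K (M * q)),
      (∀ a : K, σ (algebraMap K ↥(legE K (M * q)) a) = algebraMap K ↥(legE K (M * q)) a) ∧
      (∀ b ∈ chartOne R ↥(legE K (M * q)) (AdjoinSimple.gen K (jqNModC K 2)),
        σ b ∈ chartOne R ↥(legE K (M * q)) (AdjoinSimple.gen K (jqNModC K 2))) ∧
      (∀ z ∈ legWinf R K h2 (M * q), σ z ∈ legW0 R K hbez hq) ∧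
      ((q : ℕ) : ↥(legE K (M * q))) ^ 2 * σ (legMu R K h2 hq hq2) * legMu R K h2 hq hq2 = 1 := by
  haveI : FiniteDimensional ↥K⟮jqNModC K 2⟯ ↥(legE K (M * q)) := finite_legE_adjoin_j K (M * q)
  haveI : Module.Finite ↥K⟮legT K⟯ ↥(legE K (M * q)) := finite_legE K (M * q)
  have hjq := hmodel.jq_mem_chartOne hπ
  obtain ⟨wE, hAB, hBA, -, -, hW⟩ := exists_legHostAL R K hπ hmodel
  have hF : IntermediateField.adjoin K {AdjoinSimple.gen K (legT K)} = ⊤ :=
    adjoin_simple_gen_eq_top _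
  have eA : algebraMap ↥K⟮legT K⟯ ↥(legE K (M * q)) (AdjoinSimple.gen K (legT K)) =
      legHostA K M q (algebraMap ↥K⟮legT K⟯ ↥(legE K M) (AdjoinSimple.gen K (legT K))) :=
    Subtype.ext rfl
  have hDt : legDer R K h2 (M * q)
      (algebraMap ↥K⟮legT K⟯ ↥(legE K (M * q)) (AdjoinSimple.gen K (legT K))) = 1 := by
    rw [eA]; exact legDer_A_t R K h2
  have hq0 : ((q : ℕ) : ↥(legE K (M * q))) ≠ 0 := Nat.cast_ne_zero.mpr (NeZero.ne q)
  have hμ := legMu_valuation R K (M := M) h2 hq hq2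
  have hμ0 : legMu R K (M := M) h2 hq hq2 ≠ 0 := by
    intro h0
    rw [h0, map_zero] at hμ
    exact zero_ne_one hμ
  have hswap := algEquiv_deriv_swap (K := K) (F := ↥K⟮legT K⟯) (E := ↥(legE K (M * q))) hF
    (legDer R K h2 (M * q)) hDt wE
    (t₁ := legHostB K M q hq hq2
      (algebraMap ↥K⟮legT K⟯ ↥(legE K M) (AdjoinSimple.gen K (legT K))))
    (by rw [eA]; exact hAB _) (by rw [eA]; exact hBA _)
    (by rw [legDer_B_t]; exact mul_ne_zero hq0 hμ0)
  rw [legDer_B_t, map_mul, map_natCast] at hswap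
  have hσμ : ((q : ℕ) : ↥(legE K (M * q))) ^ 2 * (wE : ↥(legE K (M * q)) →+* ↥(legE K (M * q)))
      (legMu R K h2 hq hq2) * legMu R K h2 hq hq2 = 1 := by
    have e : (wE : ↥(legE K (M * q)) →+* ↥(legE K (M * q))) (legMu R K h2 hq hq2) =
        wE (legMu R K h2 hq hq2) := rfl
    rw [e]
    linear_combination hswap
  have hσR : ∀ r : R, (wE : ↥(legE K (M * q)) →+* ↥(legE K (M * q)))
      (algebraMap R ↥(legE K (M * q)) r) = algebraMap R ↥(legE K (M * q)) r := by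
    intro r
    rw [IsScalarTower.algebraMap_apply R K ↥(legE K (M * q))]
    exact wE.commutes _
  have hσchart : ∀ b ∈ chartOne R ↥(legE K (M * q)) (AdjoinSimple.gen K (jqNModC K 2)),
      (wE : ↥(legE K (M * q)) →+* ↥(legE K (M * q))) b ∈
        chartOne R ↥(legE K (M * q)) (AdjoinSimple.gen K (jqNModC K 2)) := by
    intro b hb
    refine chartOne_map_mem _ hσR _ ?_ hb
    have e : algebraMap ↥K⟮jqNModC K 2⟯ ↥(legE K (M * q)) (AdjoinSimple.gen K (jqNModC K 2)) =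
        legHostA K M q (legJE K M) := Subtype.ext rfl
    rw [e]
    show wE (legHostA K M q (legJE K M)) ∈ _
    rw [hAB]
    exact hjq
  exact ⟨(wE : ↥(legE K (M * q)) →+* ↥(legE K (M * q))), fun a => wE.commutes a, hσchart,
    fun z hz => (hW z).mp hz, hσμ⟩

/-- **`μ⁻¹` is regular at every point of the chart** (Legendre). -/
theorem legMu_inv_mem_locRing (hmodel : SSModelLeg R K π h2 hbez hq hq2) (hπ : Irreducible π)
    (hunr : LegHorUnr K (M * q))
    (𝔪 : Ideal ↥(chartOne R ↥(legE K (M * q)) (AdjoinSimple.gen K (jqNModC K 2)))) [𝔪.IsPrime] :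
    (legMu R K (M := M) h2 hq hq2)⁻¹ ∈
      locRing (chartOne R ↥(legE K (M * q)) (AdjoinSimple.gen K (jqNModC K 2))) 𝔪 := by
  haveI : FiniteDimensional ↥K⟮jqNModC K 2⟯ ↥(legE K (M * q)) := finite_legE_adjoin_j K (M * q)
  obtain ⟨σ, hσK, hσchart, hσW, hσμ⟩ := exists_leg_mu_swap R K hmodel hπ
  have hμ := legMu_valuation R K (M := M) h2 hq hq2
  have hμ0 : legMu R K (M := M) h2 hq hq2 ≠ 0 := by
    intro h0
    rw [h0, map_zero] at hμ
    exact zero_ne_one hμ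
  have hZ : (legMu R K (M := M) h2 hq hq2)⁻¹ =
      ((q : ℕ) : ↥(legE K (M * q))) ^ 2 * σ (legMu R K h2 hq hq2) := by
    exact inv_eq_of_mul_eq_one_right (by linear_combination hσμ)
  exact SSModel.inv_mu_mem_locRing (K₁ := K) hmodel hπ 𝔪 σ hσK hσchart hσW hμ
    (mul_inv_cancel₀ hμ0) hZ
    (fun V hKV hBV => legMu_mem_of_chart_le R K hmodel hπ hunr V hKV hBV)

/-- **`μ⁻¹` vanishes at every point of the sheet `W_0`** (Legendre). -/
theorem legMu_inv_mem_locMax (hmodel : SSModelLeg R K π h2 hbez hq hq2) (hπ : Irreducible π)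
    (hunr : LegHorUnr K (M * q))
    (𝔪 : Ideal ↥(chartOne R ↥(legE K (M * q)) (AdjoinSimple.gen K (jqNModC K 2)))) [𝔪.IsPrime]
    (h0 : haveI : FiniteDimensional ↥K⟮jqNModC K 2⟯ ↥(legE K (M * q)) :=
        finite_legE_adjoin_j K (M * q)
      sheetIdeal (AdjoinSimple.gen K (jqNModC K 2)) (legW0 R K hbez hq)
        (SSModel.two (K₁ := K) hmodel).chart_le_zero ≤ 𝔪) :
    (legMu R K (M := M) h2 hq hq2)⁻¹ ∈
      locMax (chartOne R ↥(legE K (M * q)) (AdjoinSimple.gen K (jqNModC K 2))) 𝔪 := by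
  haveI : FiniteDimensional ↥K⟮jqNModC K 2⟯ ↥(legE K (M * q)) := finite_legE_adjoin_j K (M * q)
  obtain ⟨σ, hσK, hσchart, hσW, hσμ⟩ := exists_leg_mu_swap R K hmodel hπ
  have hμ := legMu_valuation R K (M := M) h2 hq hq2
  have hμ0 : legMu R K (M := M) h2 hq hq2 ≠ 0 := by
    intro h0
    rw [h0, map_zero] at hμ
    exact zero_ne_one hμ
  have hZ : (legMu R K (M := M) h2 hq hq2)⁻¹ =
      ((q : ℕ) : ↥(legE K (M * q))) ^ 2 * σ (legMu R K h2 hq hq2) :=
    inv_eq_of_mul_eq_one_right (by linear_combination hσμ)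
  exact SSModel.inv_mu_mem_locMax (K₁ := K) hmodel hπ 𝔪 h0 σ hσK hσchart hσW hμ
    (mul_inv_cancel₀ hμ0) hZ
    (fun V hKV hBV => legMu_mem_of_chart_le R K hmodel hπ hunr V hKV hBV)

/-- **`μ` is a unit of the local ring at every point of the chart NOT on the sheet `W_0`**
(Legendre). -/
theorem legMu_unit_of_not_le (hmodel : SSModelLeg R K π h2 hbez hq hq2) (hπ : Irreducible π)
    (hunr : LegHorUnr K (M * q))
    (𝔪 : Ideal ↥(chartOne R ↥(legE K (M * q)) (AdjoinSimple.gen K (jqNModC K 2)))) [𝔪.IsPrime]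
    (h0 : haveI : FiniteDimensional ↥K⟮jqNModC K 2⟯ ↥(legE K (M * q)) :=
        finite_legE_adjoin_j K (M * q)
      ¬ sheetIdeal (AdjoinSimple.gen K (jqNModC K 2)) (legW0 R K hbez hq)
        (SSModel.two (K₁ := K) hmodel).chart_le_zero ≤ 𝔪) :
    legMu R K (M := M) h2 hq hq2 ∈
        locRing (chartOne R ↥(legE K (M * q)) (AdjoinSimple.gen K (jqNModC K 2))) 𝔪 ∧
      legMu R K (M := M) h2 hq hq2 ∉
        locMax (chartOne R ↥(legE K (M * q)) (AdjoinSimple.gen K (jqNModC K 2))) 𝔪 := by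
  haveI : FiniteDimensional ↥K⟮jqNModC K 2⟯ ↥(legE K (M * q)) := finite_legE_adjoin_j K (M * q)
  obtain ⟨σ, hσK, hσchart, hσW, hσμ⟩ := exists_leg_mu_swap R K hmodel hπ
  have hμ := legMu_valuation R K (M := M) h2 hq hq2
  have hμ0 : legMu R K (M := M) h2 hq hq2 ≠ 0 := by
    intro h0
    rw [h0, map_zero] at hμ
    exact zero_ne_one hμ
  have hZ : (legMu R K (M := M) h2 hq hq2)⁻¹ =
      ((q : ℕ) : ↥(legE K (M * q))) ^ 2 * σ (legMu R K h2 hq hq2) :=
    inv_eq_of_mul_eq_one_right (by linear_combination hσμ)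
  exact SSModel.mu_mem_locRing_of_not_le (K₁ := K) hmodel hπ 𝔪 h0 σ hσK hσchart hσW hμ
    (mul_inv_cancel₀ hμ0) hZ
    (fun V hKV hBV => legMu_mem_of_chart_le R K hmodel hπ hunr V hKV hBV)

end Leg

section Hes

attribute [local instance] algebraRat.charZero

variable (R : Type*) [CommRing R] [IsDomain R] [IsDiscreteValuationRing R] [CharZero R]
  (K : Type*) [Field K] [Algebra R K] [IsFractionRing R K] [Algebra ℚ K] [Algebra K ℂ]

variable {M : ℕ} [NeZero M] [NeZero (M * 2)]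

variable {x y : ℤ} [DecidableEq R] {π : R} {h3 : IsUnit (3 : R)}
  {ω : R} {hbez : ((2 : ℕ) : ℤ) * x + M * y = 1}

set_option maxHeartbeats 1600000 in
/-- the Atkin–Lehner data for `μ` on the Hesse host. -/
theorem exists_hes_mu_swap (hmodel : SSModelHes R K π h3 ω hbez) (hπ : Irreducible π) :
    ∃ σ : ↥(hesE K (M * 2)) →+* ↥(hesE K (M * 2)),
      (∀ a : K, σ (algebraMap K ↥(hesE K (M * 2)) a) = algebraMap K ↥(hesE K (M * 2)) a) ∧
      (∀ b ∈ chartOne R ↥(hesE K (M * 2)) (AdjoinSimple.gen K (jqNModC K 3)),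
        σ b ∈ chartOne R ↥(hesE K (M * 2)) (AdjoinSimple.gen K (jqNModC K 3))) ∧
      (∀ z ∈ hesWinf R K h3 (M * 2), σ z ∈ hesW0 R K hbez Nat.prime_two) ∧
      ((2 : ℕ) : ↥(hesE K (M * 2))) ^ 2 * σ (hesMu R K h3) * hesMu R K h3 = 1 := by
  haveI : FiniteDimensional ↥K⟮jqNModC K 3⟯ ↥(hesE K (M * 2)) := finite_hesE_adjoin_j K (M * 2)
  haveI : Module.Finite ↥K⟮hesT K⟯ ↥(hesE K (M * 2)) := finite_hesE K (M * 2)
  have hjq := hmodel.jq_mem_chartOne hπ
  obtain ⟨wE, hAB, hBA, -, -, hW⟩ := exists_hesHostAL R K hπ hmodel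
  have hF : IntermediateField.adjoin K {AdjoinSimple.gen K (hesT K)} = ⊤ :=
    adjoin_simple_gen_eq_top _
  have eA : algebraMap ↥K⟮hesT K⟯ ↥(hesE K (M * 2)) (AdjoinSimple.gen K (hesT K)) =
      hesHostA K M 2 (algebraMap ↥K⟮hesT K⟯ ↥(hesE K M) (AdjoinSimple.gen K (hesT K))) :=
    Subtype.ext rfl
  have hDt : hesDer R K h3 (M * 2)
      (algebraMap ↥K⟮hesT K⟯ ↥(hesE K (M * 2)) (AdjoinSimple.gen K (hesT K))) = 1 := by
    rw [eA]; exact hesDer_A_t R K h3
  have hq0 : ((2 : ℕ) : ↥(hesE K (M * 2))) ≠ 0 := Nat.cast_ne_zero.mpr (NeZero.ne 2)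
  have hμ := hesMu_valuation R K (M := M) h3
  have hμ0 : hesMu R K (M := M) h3 ≠ 0 := by
    intro h0
    rw [h0, map_zero] at hμ
    exact zero_ne_one hμ
  have hswap := algEquiv_deriv_swap (K := K) (F := ↥K⟮hesT K⟯) (E := ↥(hesE K (M * 2))) hF
    (hesDer R K h3 (M * 2)) hDt wE
    (t₁ := hesHostB K M
      (algebraMap ↥K⟮hesT K⟯ ↥(hesE K M) (AdjoinSimple.gen K (hesT K))))
    (by rw [eA]; exact hAB _) (by rw [eA]; exact hBA _)
    (by rw [hesDer_B_t]; exact mul_ne_zero hq0 hμ0)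
  rw [hesDer_B_t, map_mul, map_natCast] at hswap
  have hσμ : ((2 : ℕ) : ↥(hesE K (M * 2))) ^ 2 * (wE : ↥(hesE K (M * 2)) →+* ↥(hesE K (M * 2)))
      (hesMu R K h3) * hesMu R K h3 = 1 := by
    have e : (wE : ↥(hesE K (M * 2)) →+* ↥(hesE K (M * 2))) (hesMu R K h3) =
        wE (hesMu R K h3) := rfl
    rw [e]
    linear_combination hswap
  have hσR : ∀ r : R, (wE : ↥(hesE K (M * 2)) →+* ↥(hesE K (M * 2)))
      (algebraMap R ↥(hesE K (M * 2)) r) = algebraMap R ↥(hesE K (M * 2)) r := by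
    intro r
    rw [IsScalarTower.algebraMap_apply R K ↥(hesE K (M * 2))]
    exact wE.commutes _
  have hσchart : ∀ b ∈ chartOne R ↥(hesE K (M * 2)) (AdjoinSimple.gen K (jqNModC K 3)),
      (wE : ↥(hesE K (M * 2)) →+* ↥(hesE K (M * 2))) b ∈
        chartOne R ↥(hesE K (M * 2)) (AdjoinSimple.gen K (jqNModC K 3)) := by
    intro b hb
    refine chartOne_map_mem _ hσR _ ?_ hb
    have e : algebraMap ↥K⟮jqNModC K 3⟯ ↥(hesE K (M * 2)) (AdjoinSimple.gen K (jqNModC K 3)) =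
        hesHostA K M 2 (hesJE K M) := Subtype.ext rfl
    rw [e]
    show wE (hesHostA K M 2 (hesJE K M)) ∈ _
    rw [hAB]
    exact hjq
  exact ⟨(wE : ↥(hesE K (M * 2)) →+* ↥(hesE K (M * 2))), fun a => wE.commutes a, hσchart,
    fun z hz => (hW z).mp hz, hσμ⟩

/-- **`μ⁻¹` is regular at every point of the chart** (Hesse). -/
theorem hesMu_inv_mem_locRing (hmodel : SSModelHes R K π h3 ω hbez) (hπ : Irreducible π)
    (hunr : HesHorUnr K (M * 2))
    (𝔪 : Ideal ↥(chartOne R ↥(hesE K (M * 2)) (AdjoinSimple.gen K (jqNModC K 3)))) [𝔪.IsPrime] :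
    (hesMu R K (M := M) h3)⁻¹ ∈
      locRing (chartOne R ↥(hesE K (M * 2)) (AdjoinSimple.gen K (jqNModC K 3))) 𝔪 := by
  haveI : FiniteDimensional ↥K⟮jqNModC K 3⟯ ↥(hesE K (M * 2)) := finite_hesE_adjoin_j K (M * 2)
  obtain ⟨σ, hσK, hσchart, hσW, hσμ⟩ := exists_hes_mu_swap R K hmodel hπ
  have hμ := hesMu_valuation R K (M := M) h3
  have hμ0 : hesMu R K (M := M) h3 ≠ 0 := by
    intro h0
    rw [h0, map_zero] at hμ
    exact zero_ne_one hμ
  have hZ : (hesMu R K (M := M) h3)⁻¹ =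
      ((2 : ℕ) : ↥(hesE K (M * 2))) ^ 2 * σ (hesMu R K h3) := by
    exact inv_eq_of_mul_eq_one_right (by linear_combination hσμ)
  exact SSModel.inv_mu_mem_locRing (K₁ := K) hmodel hπ 𝔪 σ hσK hσchart hσW hμ
    (mul_inv_cancel₀ hμ0) hZ
    (fun V hKV hBV => hesMu_mem_of_chart_le R K hmodel hπ hunr V hKV hBV)

/-- **`μ⁻¹` vanishes at every point of the sheet `W_0`** (Hesse). -/
theorem hesMu_inv_mem_locMax (hmodel : SSModelHes R K π h3 ω hbez) (hπ : Irreducible π)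
    (hunr : HesHorUnr K (M * 2))
    (𝔪 : Ideal ↥(chartOne R ↥(hesE K (M * 2)) (AdjoinSimple.gen K (jqNModC K 3)))) [𝔪.IsPrime]
    (h0 : haveI : FiniteDimensional ↥K⟮jqNModC K 3⟯ ↥(hesE K (M * 2)) :=
        finite_hesE_adjoin_j K (M * 2)
      sheetIdeal (AdjoinSimple.gen K (jqNModC K 3)) (hesW0 R K hbez Nat.prime_two)
        (SSModel.two (K₁ := K) hmodel).chart_le_zero ≤ 𝔪) :
    (hesMu R K (M := M) h3)⁻¹ ∈
      locMax (chartOne R ↥(hesE K (M * 2)) (AdjoinSimple.gen K (jqNModC K 3))) 𝔪 := by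
  haveI : FiniteDimensional ↥K⟮jqNModC K 3⟯ ↥(hesE K (M * 2)) := finite_hesE_adjoin_j K (M * 2)
  obtain ⟨σ, hσK, hσchart, hσW, hσμ⟩ := exists_hes_mu_swap R K hmodel hπ
  have hμ := hesMu_valuation R K (M := M) h3
  have hμ0 : hesMu R K (M := M) h3 ≠ 0 := by
    intro h0
    rw [h0, map_zero] at hμ
    exact zero_ne_one hμ
  have hZ : (hesMu R K (M := M) h3)⁻¹ =
      ((2 : ℕ) : ↥(hesE K (M * 2))) ^ 2 * σ (hesMu R K h3) :=
    inv_eq_of_mul_eq_one_right (by linear_combination hσμ)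
  exact SSModel.inv_mu_mem_locMax (K₁ := K) hmodel hπ 𝔪 h0 σ hσK hσchart hσW hμ
    (mul_inv_cancel₀ hμ0) hZ
    (fun V hKV hBV => hesMu_mem_of_chart_le R K hmodel hπ hunr V hKV hBV)

/-- **`μ` is a unit of the local ring at every point of the chart NOT on the sheet `W_0`**
(Hesse). -/
theorem hesMu_unit_of_not_le (hmodel : SSModelHes R K π h3 ω hbez) (hπ : Irreducible π)
    (hunr : HesHorUnr K (M * 2))
    (𝔪 : Ideal ↥(chartOne R ↥(hesE K (M * 2)) (AdjoinSimple.gen K (jqNModC K 3)))) [𝔪.IsPrime]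
    (h0 : haveI : FiniteDimensional ↥K⟮jqNModC K 3⟯ ↥(hesE K (M * 2)) :=
        finite_hesE_adjoin_j K (M * 2)
      ¬ sheetIdeal (AdjoinSimple.gen K (jqNModC K 3)) (hesW0 R K hbez Nat.prime_two)
        (SSModel.two (K₁ := K) hmodel).chart_le_zero ≤ 𝔪) :
    hesMu R K (M := M) h3 ∈
        locRing (chartOne R ↥(hesE K (M * 2)) (AdjoinSimple.gen K (jqNModC K 3))) 𝔪 ∧
      hesMu R K (M := M) h3 ∉
        locMax (chartOne R ↥(hesE K (M * 2)) (AdjoinSimple.gen K (jqNModC K 3))) 𝔪 := by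
  haveI : FiniteDimensional ↥K⟮jqNModC K 3⟯ ↥(hesE K (M * 2)) := finite_hesE_adjoin_j K (M * 2)
  obtain ⟨σ, hσK, hσchart, hσW, hσμ⟩ := exists_hes_mu_swap R K hmodel hπ
  have hμ := hesMu_valuation R K (M := M) h3
  have hμ0 : hesMu R K (M := M) h3 ≠ 0 := by
    intro h0
    rw [h0, map_zero] at hμ
    exact zero_ne_one hμ
  have hZ : (hesMu R K (M := M) h3)⁻¹ =
      ((2 : ℕ) : ↥(hesE K (M * 2))) ^ 2 * σ (hesMu R K h3) :=
    inv_eq_of_mul_eq_one_right (by linear_combination hσμ)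
  exact SSModel.mu_mem_locRing_of_not_le (K₁ := K) hmodel hπ 𝔪 h0 σ hσK hσchart hσW hμ
    (mul_inv_cancel₀ hμ0) hZ
    (fun V hKV hBV => hesMu_mem_of_chart_le R K hmodel hπ hunr V hKV hBV)

end Hes

end Fermat.Agent.S36
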