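/-
S36 [REG1] — lead — **final forms**: helper8's [REG1-hor] plugged into `leg_node_regular` /
`hes_node_regular` and into the `μ`-unit wrappers: no open hypothesis left.

* `legHorUnr`, `hesHorUnr` : the horizontal literals;
* `leg_node_regular_final`, `hes_node_regular_final` : `SSModel.NodeRegular` for the Legendre /
  Hesse models of level `M q` over an unramified base;
* `legMu_unit_of_not_le_final`, `legMu_inv_mem_locRing_final`, `legMu_inv_mem_locMax_final`
  (+ Hesse twins).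
-/
import Mathlib
import Fermat.Agent.S36.REG1_lead_MuUnit
import Fermat.Agent.S36.REG1HOR_helper8_Host

set_option autoImplicit false
set_option linter.unusedSectionVars false
set_option linter.style.haveILetI false
set_option synthInstance.maxHeartbeats 200000

namespace Fermat.Agent.S36

open Polynomial ModularCurve IntermediateField Fermat.Agent.Igusa Fermat.Agent.SS Fermat.Agent.JA

open scoped Fermat.Agent.JA.Host

section Gen

variable {R : Type*} [CommRing R] [IsLocalRing R]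

theorem residue_natCast_ne_zero_of_isUnit {n : ℕ} (hn : IsUnit ((n : ℕ) : R)) :
    ((n : ℕ) : IsLocalRing.ResidueField R) ≠ 0 := by
  intro h0
  have h1 : IsLocalRing.residue R ((n : ℕ) : R) = 0 := by rw [map_natCast]; exact h0
  exact ((IsLocalRing.residue_eq_zero_iff _).mp h1) hn

end Gen

section Leg

attribute [local instance] algebraRat.charZero

variable (R : Type*) [CommRing R] [IsDomain R] [IsDiscreteValuationRing R] [CharZero R]
  (K : Type*) [Field K] [Algebra R K] [IsFractionRing R K] [Algebra ℚ K] [Algebra K ℂ]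

/-- **[REG1-hor]** (helper8), in the literal form `LegHorUnr`. -/
theorem legHorUnr (h2 : IsUnit (2 : R)) (N : ℕ) [NeZero N] : LegHorUnr K N := by
  have h2' : (2 : IsLocalRing.ResidueField R) ≠ 0 := by
    have := residue_natCast_ne_zero_of_isUnit (R := R) (n := 2) (by exact_mod_cast h2)
    exact_mod_cast this
  exact fun V hK hne hj => formallyUnramified_legE_of_valuationSubring (R := R) N h2' V hK hne hj

/-- **[REG1-hor]** (helper8), in the literal form `HesHorUnr`. -/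
theorem hesHorUnr (h3 : IsUnit (3 : R)) (ω : R) (hω : ω ^ 2 + ω + 1 = 0) (N : ℕ) [NeZero N] :
    HesHorUnr K N := by
  have h3' : (3 : IsLocalRing.ResidueField R) ≠ 0 := by
    have := residue_natCast_ne_zero_of_isUnit (R := R) (n := 3) (by exact_mod_cast h3)
    exact_mod_cast this
  exact fun V hK hne hj =>
    formallyUnramified_hesE_of_valuationSubring (R := R) N h3' ω hω V hK hne hj

variable {M q : ℕ} [NeZero M] [NeZero q] [NeZero (M * q)]

variable {x y : ℤ} [DecidableEq R] {π : R} {h2 : IsUnit (2 : R)}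
  {hbez : (q : ℤ) * x + M * y = 1} {hq : q.Prime} {hq2 : q ≠ 2}

/-- **[REG1], Legendre, final**: the nodes of the chart `j` of the Legendre model of level `M q`
over an unramified base are regular, with the explicit local equations. -/
theorem leg_node_regular_final (hmodel : SSModelLeg R K π h2 hbez hq hq2) (hπ : Irreducible π)
    [IsAlgClosed (IsLocalRing.ResidueField R)] {cq : R} (hcq : IsUnit cq)
    (hqπ : ((q : ℕ) : R) = π * cq) :
    haveI : FiniteDimensional ↥K⟮jqNModC K 2⟯ ↥(legE K (M * q)) := finite_legE_adjoin_j K (M * q)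
    SSModel.NodeRegular (K₁ := K) hmodel :=
  leg_node_regular R K hmodel hπ hcq hqπ (legHorUnr R K h2 (M * q))

theorem legMu_inv_mem_locRing_final (hmodel : SSModelLeg R K π h2 hbez hq hq2)
    (hπ : Irreducible π)
    (𝔪 : Ideal ↥(chartOne R ↥(legE K (M * q)) (AdjoinSimple.gen K (jqNModC K 2)))) [𝔪.IsPrime] :
    (legMu R K (M := M) h2 hq hq2)⁻¹ ∈
      locRing (chartOne R ↥(legE K (M * q)) (AdjoinSimple.gen K (jqNModC K 2))) 𝔪 :=
  legMu_inv_mem_locRing R K hmodel hπ (legHorUnr R K h2 (M * q)) 𝔪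

theorem legMu_inv_mem_locMax_final (hmodel : SSModelLeg R K π h2 hbez hq hq2)
    (hπ : Irreducible π)
    (𝔪 : Ideal ↥(chartOne R ↥(legE K (M * q)) (AdjoinSimple.gen K (jqNModC K 2)))) [𝔪.IsPrime]
    (h0 : haveI : FiniteDimensional ↥K⟮jqNModC K 2⟯ ↥(legE K (M * q)) :=
        finite_legE_adjoin_j K (M * q)
      sheetIdeal (AdjoinSimple.gen K (jqNModC K 2)) (legW0 R K hbez hq)
        (SSModel.two (K₁ := K) hmodel).chart_le_zero ≤ 𝔪) :
    (legMu R K (M := M) h2 hq hq2)⁻¹ ∈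
      locMax (chartOne R ↥(legE K (M * q)) (AdjoinSimple.gen K (jqNModC K 2))) 𝔪 :=
  legMu_inv_mem_locMax R K hmodel hπ (legHorUnr R K h2 (M * q)) 𝔪 h0

theorem legMu_unit_of_not_le_final (hmodel : SSModelLeg R K π h2 hbez hq hq2)
    (hπ : Irreducible π)
    (𝔪 : Ideal ↥(chartOne R ↥(legE K (M * q)) (AdjoinSimple.gen K (jqNModC K 2)))) [𝔪.IsPrime]
    (h0 : haveI : FiniteDimensional ↥K⟮jqNModC K 2⟯ ↥(legE K (M * q)) :=
        finite_legE_adjoin_j K (M * q)
      ¬ sheetIdeal (AdjoinSimple.gen K (jqNModC K 2)) (legW0 R K hbez hq)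
        (SSModel.two (K₁ := K) hmodel).chart_le_zero ≤ 𝔪) :
    legMu R K (M := M) h2 hq hq2 ∈
        locRing (chartOne R ↥(legE K (M * q)) (AdjoinSimple.gen K (jqNModC K 2))) 𝔪 ∧
      legMu R K (M := M) h2 hq hq2 ∉
        locMax (chartOne R ↥(legE K (M * q)) (AdjoinSimple.gen K (jqNModC K 2))) 𝔪 :=
  legMu_unit_of_not_le R K hmodel hπ (legHorUnr R K h2 (M * q)) 𝔪 h0

end Leg

section Hes

attribute [local instance] algebraRat.charZero

variable (R : Type*) [CommRing R] [IsDomain R] [IsDiscreteValuationRing R] [CharZero R]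
  (K : Type*) [Field K] [Algebra R K] [IsFractionRing R K] [Algebra ℚ K] [Algebra K ℂ]

variable {M : ℕ} [NeZero M] [NeZero (M * 2)]

variable {x y : ℤ} [DecidableEq R] {π : R} {h3 : IsUnit (3 : R)}
  {ω : R} {hbez : ((2 : ℕ) : ℤ) * x + M * y = 1}

/-- **[REG1], Hesse, final**. -/
theorem hes_node_regular_final (hmodel : SSModelHes R K π h3 ω hbez) (hπ : Irreducible π)
    (hω : ω ^ 2 + ω + 1 = 0)
    [IsAlgClosed (IsLocalRing.ResidueField R)] {cq : R} (hcq : IsUnit cq)
    (hqπ : ((2 : ℕ) : R) = π * cq) :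
    haveI : FiniteDimensional ↥K⟮jqNModC K 3⟯ ↥(hesE K (M * 2)) := finite_hesE_adjoin_j K (M * 2)
    SSModel.NodeRegular (K₁ := K) hmodel :=
  hes_node_regular R K hmodel hπ hcq hqπ (hesHorUnr R K h3 ω hω (M * 2))

theorem hesMu_inv_mem_locRing_final (hmodel : SSModelHes R K π h3 ω hbez)
    (hπ : Irreducible π) (hω : ω ^ 2 + ω + 1 = 0)
    (𝔪 : Ideal ↥(chartOne R ↥(hesE K (M * 2)) (AdjoinSimple.gen K (jqNModC K 3)))) [𝔪.IsPrime] :
    (hesMu R K (M := M) h3)⁻¹ ∈
      locRing (chartOne R ↥(hesE K (M * 2)) (AdjoinSimple.gen K (jqNModC K 3))) 𝔪 :=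
  hesMu_inv_mem_locRing R K hmodel hπ (hesHorUnr R K h3 ω hω (M * 2)) 𝔪

theorem hesMu_inv_mem_locMax_final (hmodel : SSModelHes R K π h3 ω hbez)
    (hπ : Irreducible π) (hω : ω ^ 2 + ω + 1 = 0)
    (𝔪 : Ideal ↥(chartOne R ↥(hesE K (M * 2)) (AdjoinSimple.gen K (jqNModC K 3)))) [𝔪.IsPrime]
    (h0 : haveI : FiniteDimensional ↥K⟮jqNModC K 3⟯ ↥(hesE K (M * 2)) :=
        finite_hesE_adjoin_j K (M * 2)
      sheetIdeal (AdjoinSimple.gen K (jqNModC K 3)) (hesW0 R K hbez Nat.prime_two)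
        (SSModel.two (K₁ := K) hmodel).chart_le_zero ≤ 𝔪) :
    (hesMu R K (M := M) h3)⁻¹ ∈
      locMax (chartOne R ↥(hesE K (M * 2)) (AdjoinSimple.gen K (jqNModC K 3))) 𝔪 :=
  hesMu_inv_mem_locMax R K hmodel hπ (hesHorUnr R K h3 ω hω (M * 2)) 𝔪 h0

theorem hesMu_unit_of_not_le_final (hmodel : SSModelHes R K π h3 ω hbez)
    (hπ : Irreducible π) (hω : ω ^ 2 + ω + 1 = 0)
    (𝔪 : Ideal ↥(chartOne R ↥(hesE K (M * 2)) (AdjoinSimple.gen K (jqNModC K 3)))) [𝔪.IsPrime]
    (h0 : haveI : FiniteDimensional ↥K⟮jqNModC K 3⟯ ↥(hesE K (M * 2)) :=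
        finite_hesE_adjoin_j K (M * 2)
      ¬ sheetIdeal (AdjoinSimple.gen K (jqNModC K 3)) (hesW0 R K hbez Nat.prime_two)
        (SSModel.two (K₁ := K) hmodel).chart_le_zero ≤ 𝔪) :
    hesMu R K (M := M) h3 ∈
        locRing (chartOne R ↥(hesE K (M * 2)) (AdjoinSimple.gen K (jqNModC K 3))) 𝔪 ∧
      hesMu R K (M := M) h3 ∉
        locMax (chartOne R ↥(hesE K (M * 2)) (AdjoinSimple.gen K (jqNModC K 3))) 𝔪 :=
  hesMu_unit_of_not_le R K hmodel hπ (hesHorUnr R K h3 ω hω (M * 2)) 𝔪 h0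

end Hes

end Fermat.Agent.S36
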