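/-
S36 [PTSMAP36] — helper3 — **the chart maps of the two degeneracy maps `α β : E₁ → E` between the
levels `M'q` and `M'q²`, and their integrality** (hypotheses `hαB hβB hαint hβint` of POINTS36),
abstract form.

Inputs: `α j₁ = j₂`; `β j₁ = α jq₁` with `jq₁` (the second `j`-function of level `M'q`) in the chart
`j₁`, and `j₁` integral over `R[jq₁]`.
-/
import Mathlib
import Fermat.Agent.S36.POINTS36_helper3_Chart
import Fermat.Agent.SS.NODE_helper8_Model

set_option autoImplicit false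
set_option linter.unusedSectionVars false
set_option linter.style.haveILetI false

namespace Fermat.Agent.S36

open Fermat.Agent.SS Fermat.Agent.JA

section Abs

variable {R : Type*} [CommRing R]
  {KN₁ : Type*} [Field KN₁] [Algebra R KN₁]
  {E₁ : Type*} [Field E₁] [Algebra KN₁ E₁] [Algebra R E₁] [IsScalarTower R KN₁ E₁]
  {KN₂ : Type*} [Field KN₂] [Algebra R KN₂]
  {E : Type*} [Field E] [Algebra KN₂ E] [Algebra R E] [IsScalarTower R KN₂ E]
  {j₁ : KN₁} {j₂ : KN₂}

/-- an element integral over `R[φ j₁]` is an integral element for the restricted chart map. -/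
theorem chartRestrictHom_isIntegralElem_of_adjoin (φ : E₁ →+* E)
    (hφR : ∀ r : R, φ (algebraMap R E₁ r) = algebraMap R E r)
    (hφB : ∀ b ∈ chartOne R E₁ j₁, φ b ∈ chartOne R E j₂) (x : ↥(chartOne R E j₂))
    (hx : IsIntegral ↥(Algebra.adjoin R {φ (algebraMap KN₁ E₁ j₁)}) (x : E)) :
    (chartRestrictHom (B' := chartOne R E₁ j₁) (B := chartOne R E j₂) φ hφB).IsIntegralElem x := by
  rw [chartRestrictHom_isIntegralElem_iff]
  letI : Algebra ↥(chartOne R E₁ j₁) E := (φ.comp (algebraMap ↥(chartOne R E₁ j₁) E₁)).toAlgebra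
  show IsIntegral ↥(chartOne R E₁ j₁) (x : E)
  refine isIntegral_of_isIntegral_of_forall hx (fun a => ?_)
  obtain ⟨a, ha⟩ := a
  show IsIntegral ↥(chartOne R E₁ j₁) a
  induction ha using Algebra.adjoin_induction with
  | mem y hy =>
    rw [Set.mem_singleton_iff] at hy
    subst hy
    have h1 : φ (algebraMap KN₁ E₁ j₁) = algebraMap ↥(chartOne R E₁ j₁) E
        ⟨algebraMap KN₁ E₁ j₁, algebraMap_coord_mem_chartOne j₁⟩ := rfl
    rw [h1]
    exact isIntegral_algebraMap
  | algebraMap r =>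
    have h1 : algebraMap R E r =
        algebraMap ↥(chartOne R E₁ j₁) E (algebraMap R ↥(chartOne R E₁ j₁) r) := by
      show _ = φ (algebraMap R E₁ r)
      rw [hφR]
    rw [h1]
    exact isIntegral_algebraMap
  | add y z _ _ hy hz => exact hy.add hz
  | mul y z _ _ hy hz => exact hy.mul hz

/-- **the chart maps of `α` and `β` and their integrality.** -/
theorem chart_maps_of_coord (α β : E₁ →+* E)
    (hαR : ∀ r : R, α (algebraMap R E₁ r) = algebraMap R E r)
    (hβR : ∀ r : R, β (algebraMap R E₁ r) = algebraMap R E r)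
    (hαj : α (algebraMap KN₁ E₁ j₁) = algebraMap KN₂ E j₂)
    {jq₁ : E₁} (hjq₁ : jq₁ ∈ chartOne R E₁ j₁)
    (hjint₁ : IsIntegral ↥(Algebra.adjoin R {jq₁}) (algebraMap KN₁ E₁ j₁))
    (hβj : β (algebraMap KN₁ E₁ j₁) = α jq₁) :
    ∃ (hαB : ∀ b ∈ chartOne R E₁ j₁, α b ∈ chartOne R E j₂)
      (hβB : ∀ b ∈ chartOne R E₁ j₁, β b ∈ chartOne R E j₂),
      (chartRestrictHom (B' := chartOne R E₁ j₁) (B := chartOne R E j₂) α hαB).IsIntegral ∧
      (chartRestrictHom (B' := chartOne R E₁ j₁) (B := chartOne R E j₂) β hβB).IsIntegral := by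
  have hαB : ∀ b ∈ chartOne R E₁ j₁, α b ∈ chartOne R E j₂ :=
    map_mem_chartOne_of_coord α hαR (by rw [hαj]; exact algebraMap_coord_mem_chartOne j₂)
  have hβB : ∀ b ∈ chartOne R E₁ j₁, β b ∈ chartOne R E j₂ :=
    map_mem_chartOne_of_coord β hβR (by rw [hβj]; exact hαB _ hjq₁)
  refine ⟨hαB, hβB, ?_, ?_⟩
  · refine chartRestrictHom_isIntegral_of_coord α hαR hαB ?_
    refine chartRestrictHom_isIntegralElem_of_adjoin α hαR hαB _ ?_
    show IsIntegral ↥(Algebra.adjoin R {α (algebraMap KN₁ E₁ j₁)}) (algebraMap KN₂ E j₂)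
    rw [hαj]
    have : algebraMap KN₂ E j₂ = algebraMap ↥(Algebra.adjoin R {algebraMap KN₂ E j₂}) E
        ⟨algebraMap KN₂ E j₂, Algebra.subset_adjoin (Set.mem_singleton _)⟩ := rfl
    rw [this]
    exact isIntegral_algebraMap
  · refine chartRestrictHom_isIntegral_of_coord β hβR hβB ?_
    refine chartRestrictHom_isIntegralElem_of_adjoin β hβR hβB _ ?_
    show IsIntegral ↥(Algebra.adjoin R {β (algebraMap KN₁ E₁ j₁)}) (algebraMap KN₂ E j₂)
    rw [hβj, ← hαj]
    exact isIntegral_adjoin_map α hαR hjint₁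

end Abs

end Fermat.Agent.S36
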