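/-
S36 [PTSMAP36] — helper3 — **the chart maps of the degeneracy maps on the hosts of level `M q²`**:
`legHostA K (M*q) q`, `legHostB K (M*q) q hq hq2 : legE K (M*q) → legE K (M*q*q)` (and the Hesse
twins) map the chart `j` of level `M q` into the chart `j` of level `M q²`, integrally.
-/
import Mathlib
import Fermat.Agent.S36.PTSMAP36_helper3_Abs
import Fermat.Agent.SS.BASE_helper1_Leg
import Fermat.Agent.SS.BASE_helper1_Hes

set_option autoImplicit false
set_option linter.unusedSectionVars false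
set_option linter.unusedVariables false
set_option linter.style.haveILetI false
set_option synthInstance.maxHeartbeats 200000

open Polynomial ModularCurve IntermediateField
open Fermat.Agent.JA Fermat.Agent.SS

open scoped Fermat.Agent.JA.Host

namespace Fermat.Agent.S36

section Leg

variable (R : Type*) [CommRing R] [IsDomain R] [IsDiscreteValuationRing R] [CharZero R]
  [DecidableEq R]
  (K : Type*) [Field K] [Algebra R K] [IsFractionRing R K] [Algebra ℚ K] [Algebra K ℂ]
  {M q : ℕ} [NeZero M] [NeZero q] [NeZero (M * q)] [NeZero (M * q * q)] {x y : ℤ}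
  {π : R}

/-- **the chart maps of the two degeneracy maps of the Legendre hosts, level `M q → M q²`.** -/
theorem legE_chart_maps (hπ : Irreducible π) {h2 : IsUnit (2 : R)}
    {hbez : (q : ℤ) * x + M * y = 1} {hq : q.Prime} {hq2 : q ≠ 2}
    (hmodel : SSModelLeg R K π h2 hbez hq hq2) :
    ∃ (hαB : ∀ b ∈ chartOne R ↥(legE K (M * q)) (AdjoinSimple.gen K (jqNModC K 2)),
        (legHostA K (M * q) q : ↥(legE K (M * q)) →+* ↥(legE K (M * q * q))) b ∈
          chartOne R ↥(legE K (M * q * q)) (AdjoinSimple.gen K (jqNModC K 2)))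
      (hβB : ∀ b ∈ chartOne R ↥(legE K (M * q)) (AdjoinSimple.gen K (jqNModC K 2)),
        (legHostB K (M * q) q hq hq2 : ↥(legE K (M * q)) →+* ↥(legE K (M * q * q))) b ∈
          chartOne R ↥(legE K (M * q * q)) (AdjoinSimple.gen K (jqNModC K 2))),
      (chartRestrictHom (B' := chartOne R ↥(legE K (M * q)) (AdjoinSimple.gen K (jqNModC K 2)))
        (B := chartOne R ↥(legE K (M * q * q)) (AdjoinSimple.gen K (jqNModC K 2)))
        (legHostA K (M * q) q : ↥(legE K (M * q)) →+* ↥(legE K (M * q * q))) hαB).IsIntegral ∧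
      (chartRestrictHom (B' := chartOne R ↥(legE K (M * q)) (AdjoinSimple.gen K (jqNModC K 2)))
        (B := chartOne R ↥(legE K (M * q * q)) (AdjoinSimple.gen K (jqNModC K 2)))
        (legHostB K (M * q) q hq hq2 : ↥(legE K (M * q)) →+* ↥(legE K (M * q * q))) hβB).IsIntegral := by
  haveI : FiniteDimensional ↥K⟮jqNModC K 2⟯ ↥(legE K (M * q)) := finite_legE_adjoin_j K (M * q)
  have h' := SSModelLeg.ssModel R K hmodel
  have hjint := SSModelLeg.jint R K hπ hmodel
  have hAR : ∀ (N : ℕ) [NeZero N] [NeZero (N * q)] (r : R),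
      (legHostA K N q : ↥(legE K N) →+* ↥(legE K (N * q))) (algebraMap R ↥(legE K N) r) =
        algebraMap R ↥(legE K (N * q)) r := by
    intro N _ _ r
    rw [IsScalarTower.algebraMap_apply R K ↥(legE K N),
      IsScalarTower.algebraMap_apply R K ↥(legE K (N * q))]
    exact (legHostA K N q).commutes _
  have hBR : ∀ r : R,
      (legHostB K (M * q) q hq hq2 : ↥(legE K (M * q)) →+* ↥(legE K (M * q * q)))
        (algebraMap R ↥(legE K (M * q)) r) = algebraMap R ↥(legE K (M * q * q)) r := by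
    intro r
    rw [IsScalarTower.algebraMap_apply R K ↥(legE K (M * q)),
      IsScalarTower.algebraMap_apply R K ↥(legE K (M * q * q))]
    exact (legHostB K (M * q) q hq hq2).commutes _
  refine chart_maps_of_coord (R := R) (KN₁ := ↥K⟮jqNModC K 2⟯) (KN₂ := ↥K⟮jqNModC K 2⟯)
    (j₁ := AdjoinSimple.gen K (jqNModC K 2)) (j₂ := AdjoinSimple.gen K (jqNModC K 2))
    (legHostA K (M * q) q : ↥(legE K (M * q)) →+* ↥(legE K (M * q * q)))
    (legHostB K (M * q) q hq hq2 : ↥(legE K (M * q)) →+* ↥(legE K (M * q * q)))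
    (hAR (M * q)) hBR (Subtype.ext rfl)
    (jq₁ := (legHostB K M q hq hq2 (legJE K M) : ↥(legE K (M * q)))) (h'.jq_mem_chartOne hπ) ?_
    (Subtype.ext rfl)
  rw [← h'.A_j]
  exact hjint

end Leg

section Hes

variable (R : Type*) [CommRing R] [IsDomain R] [IsDiscreteValuationRing R] [CharZero R]
  [DecidableEq R]
  (K : Type*) [Field K] [Algebra R K] [IsFractionRing R K] [Algebra ℚ K] [Algebra K ℂ]
  {M : ℕ} [NeZero M] [NeZero (M * 2)] [NeZero (M * 2 * 2)] {x y : ℤ}
  {π : R}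

/-- **the chart maps of the two degeneracy maps of the Hesse hosts, level `2 M → 4 M`.** -/
theorem hesE_chart_maps (hπ : Irreducible π) {h3 : IsUnit (3 : R)} {ω : R}
    {hbez : ((2 : ℕ) : ℤ) * x + M * y = 1}
    (hmodel : SSModelHes R K π h3 ω hbez) :
    ∃ (hαB : ∀ b ∈ chartOne R ↥(hesE K (M * 2)) (AdjoinSimple.gen K (jqNModC K 3)),
        (hesHostA K (M * 2) 2 : ↥(hesE K (M * 2)) →+* ↥(hesE K (M * 2 * 2))) b ∈
          chartOne R ↥(hesE K (M * 2 * 2)) (AdjoinSimple.gen K (jqNModC K 3)))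
      (hβB : ∀ b ∈ chartOne R ↥(hesE K (M * 2)) (AdjoinSimple.gen K (jqNModC K 3)),
        (hesHostB K (M * 2) : ↥(hesE K (M * 2)) →+* ↥(hesE K (M * 2 * 2))) b ∈
          chartOne R ↥(hesE K (M * 2 * 2)) (AdjoinSimple.gen K (jqNModC K 3))),
      (chartRestrictHom (B' := chartOne R ↥(hesE K (M * 2)) (AdjoinSimple.gen K (jqNModC K 3)))
        (B := chartOne R ↥(hesE K (M * 2 * 2)) (AdjoinSimple.gen K (jqNModC K 3)))
        (hesHostA K (M * 2) 2 : ↥(hesE K (M * 2)) →+* ↥(hesE K (M * 2 * 2))) hαB).IsIntegral ∧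
      (chartRestrictHom (B' := chartOne R ↥(hesE K (M * 2)) (AdjoinSimple.gen K (jqNModC K 3)))
        (B := chartOne R ↥(hesE K (M * 2 * 2)) (AdjoinSimple.gen K (jqNModC K 3)))
        (hesHostB K (M * 2) : ↥(hesE K (M * 2)) →+* ↥(hesE K (M * 2 * 2))) hβB).IsIntegral := by
  haveI : FiniteDimensional ↥K⟮jqNModC K 3⟯ ↥(hesE K (M * 2)) := finite_hesE_adjoin_j K (M * 2)
  have h' := SSModelHes.ssModel R K hmodel
  have hjint := SSModelHes.jint R K hπ hmodel
  have hAR : ∀ r : R,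
      (hesHostA K (M * 2) 2 : ↥(hesE K (M * 2)) →+* ↥(hesE K (M * 2 * 2)))
        (algebraMap R ↥(hesE K (M * 2)) r) = algebraMap R ↥(hesE K (M * 2 * 2)) r := by
    intro r
    rw [IsScalarTower.algebraMap_apply R K ↥(hesE K (M * 2)),
      IsScalarTower.algebraMap_apply R K ↥(hesE K (M * 2 * 2))]
    exact (hesHostA K (M * 2) 2).commutes _
  have hBR : ∀ r : R,
      (hesHostB K (M * 2) : ↥(hesE K (M * 2)) →+* ↥(hesE K (M * 2 * 2)))
        (algebraMap R ↥(hesE K (M * 2)) r) = algebraMap R ↥(hesE K (M * 2 * 2)) r := by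
    intro r
    rw [IsScalarTower.algebraMap_apply R K ↥(hesE K (M * 2)),
      IsScalarTower.algebraMap_apply R K ↥(hesE K (M * 2 * 2))]
    exact (hesHostB K (M * 2)).commutes _
  refine chart_maps_of_coord (R := R) (KN₁ := ↥K⟮jqNModC K 3⟯) (KN₂ := ↥K⟮jqNModC K 3⟯)
    (j₁ := AdjoinSimple.gen K (jqNModC K 3)) (j₂ := AdjoinSimple.gen K (jqNModC K 3))
    (hesHostA K (M * 2) 2 : ↥(hesE K (M * 2)) →+* ↥(hesE K (M * 2 * 2)))
    (hesHostB K (M * 2) : ↥(hesE K (M * 2)) →+* ↥(hesE K (M * 2 * 2)))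
    hAR hBR (Subtype.ext rfl)
    (jq₁ := (hesHostB K M (hesJE K M) : ↥(hesE K (M * 2)))) (h'.jq_mem_chartOne hπ) ?_
    (Subtype.ext rfl)
  rw [← h'.A_j]
  exact hjint

end Hes

end Fermat.Agent.S36
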