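/-
# S36 [BASE36] layer 1.5, step 3 (helper4): the chart maps discharged

`legGeneric_of_local3`, `hesGeneric_of_local3` : `legGeneric_of_local2` / `hesGeneric_of_local2`
with (3) `hαB hβB hαint hβint` discharged by helper3's `legE_chart_maps` / `hesE_chart_maps`.
Remaining hypotheses: (5) `hLE1`, (7) `hcusps`, (C) `hcusp`.
-/
import Mathlib
import Fermat.Agent.S36.BASE36_helper4_Local2
import Fermat.Agent.S36.PTSMAP36_helper3_Host

set_option autoImplicit false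
set_option linter.unusedSectionVars false
set_option linter.unusedVariables false
set_option linter.style.haveILetI false
set_option synthInstance.maxHeartbeats 200000

open Polynomial ModularCurve IntermediateField
open Fermat.Agent.Igusa Fermat.Agent.JA Fermat.Agent.SS Fermat.Agent.X0N
open Fermat.Agent.S35 AlgebraicCurve

open scoped Fermat.Agent.JA.Host

namespace Fermat.Agent.S36

noncomputable section

section Leg

variable (R : Type*) [CommRing R] [IsDomain R] [IsDiscreteValuationRing R] [CharZero R]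
  [DecidableEq R]
  (K : Type*) [Field K] [Algebra R K] [IsFractionRing R K] [Algebra ℚ K] [Algebra K ℂ]
  {M q : ℕ} [NeZero M] [NeZero q] [NeZero (M * q)] [NeZero (M * q * q)] {x y : ℤ}
  {π : R}
  {R' : Type*} [CommRing R'] [IsDomain R'] [IsDiscreteValuationRing R']
  {K' : Type*} [Field K'] [Algebra R' K'] [IsFractionRing R' K']

set_option maxHeartbeats 3200000 in
/-- Layer 1.5 with `hLE3` and the chart maps discharged, Legendre. -/
theorem legGeneric_of_local3 [IsAlgClosed (IsLocalRing.ResidueField R)]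
    (hπ : Irreducible π) (h2 : IsUnit (2 : R))
    (h : (q : ℤ) * x + M * y = 1) (hq : q.Prime) (hq2 : q ≠ 2)
    (hqπ : (q : R) ∈ Ideal.span {π})
    (hgeo : GeoHyps K π (AdjoinSimple.gen K (legT K)) ↥(legE K M) M ({0, 1} : Finset R))
    (φ : R →+* R') [IsLocalHom φ] (κ : K →+* K')
    (hκ : ∀ r : R, κ (algebraMap R K r) = algebraMap R' K' (φ r))
    (ζ u : R'ˣ) (hζq : ζ ^ q = 1) (hζ1 : ζ ≠ 1)
    (hπζ : φ π = ((ζ : R') - 1) ^ (q - 1) * u)
    -- (5) local equation of `W11` at the `W11`-only points of the chart `j`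
    (hLE1 : ∀ (W11 W02 : ValuationSubring ↥(legE K (M * q * q))),
      W11.comap (legIncl K (M * q * q)) =
        hostImageVal K 2 (keyFqW11 R K h hq φ κ hκ ζ hζq hζ1) →
      W02.comap (legIncl K (M * q * q)) = hostImageVal K 2 (keyFqW02 R K h hq) →
      haveI : FiniteDimensional ↥K⟮jqNModC K 2⟯ ↥(legE K (M * q * q)) :=
        finite_legE_adjoin_j K (M * q * q)
      ∀ (fam : IsSheetFamily π (AdjoinSimple.gen K (jqNModC K 2))
        ![legWinf R K h2 (M * q * q), W11, W02]),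
      ∀ (𝔫 : Ideal ↥(chartOne R ↥(legE K (M * q * q)) (AdjoinSimple.gen K (jqNModC K 2))))
        (_ : 𝔫.IsMaximal),
      sheetIdeal (AdjoinSimple.gen K (jqNModC K 2)) (![legWinf R K h2 (M * q * q), W11, W02] 1)
        (fam.chart_le 1) ≤ 𝔫 →
      (∀ l, sheetIdeal (AdjoinSimple.gen K (jqNModC K 2))
        (![legWinf R K h2 (M * q * q), W11, W02] l) (fam.chart_le l) ≤ 𝔫 → l = 1) →
      ∃ z : ↥(chartOne R ↥(legE K (M * q * q)) (AdjoinSimple.gen K (jqNModC K 2))),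
        z ∈ sheetIdeal (AdjoinSimple.gen K (jqNModC K 2))
          (![legWinf R K h2 (M * q * q), W11, W02] 1) (fam.chart_le 1) ∧ z ≠ 0 ∧
        ∀ w ∈ sheetIdeal (AdjoinSimple.gen K (jqNModC K 2))
          (![legWinf R K h2 (M * q * q), W11, W02] 1) (fam.chart_le 1),
          ∃ s : ↥(chartOne R ↥(legE K (M * q * q)) (AdjoinSimple.gen K (jqNModC K 2))),
            s ∉ 𝔫 ∧ z ∣ s * w)
    -- (7) the cusps of the chart `j⁻¹`
    (hcusps : ∀ (W11 W02 : ValuationSubring ↥(legE K (M * q * q))),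
      W11.comap (legIncl K (M * q * q)) =
        hostImageVal K 2 (keyFqW11 R K h hq φ κ hκ ζ hζq hζ1) →
      W02.comap (legIncl K (M * q * q)) = hostImageVal K 2 (keyFqW02 R K h hq) →
      haveI : FiniteDimensional ↥K⟮jqNModC K 2⟯ ↥(legE K (M * q * q)) :=
        finite_legE_adjoin_j K (M * q * q)
      ∀ (fam' : IsSheetFamily π (AdjoinSimple.gen K (jqNModC K 2))⁻¹
        ![legWinf R K h2 (M * q * q), W11, W02]),
      ∀ (𝔫 : Ideal ↥(chartOne R ↥(legE K (M * q * q)) (AdjoinSimple.gen K (jqNModC K 2))⁻¹))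
        (_ : 𝔫.IsMaximal),
      algebraMap R ↥(chartOne R ↥(legE K (M * q * q)) (AdjoinSimple.gen K (jqNModC K 2))⁻¹) π ∈
        𝔫 →
      (⟨algebraMap ↥K⟮jqNModC K 2⟯ ↥(legE K (M * q * q)) (AdjoinSimple.gen K (jqNModC K 2))⁻¹,
        algebraMap_coord_mem_chartOne (AdjoinSimple.gen K (jqNModC K 2))⁻¹⟩ :
        ↥(chartOne R ↥(legE K (M * q * q)) (AdjoinSimple.gen K (jqNModC K 2))⁻¹)) ∈ 𝔫 →
      ∃ (l₀ : Fin 3)
        (z v : ↥(chartOne R ↥(legE K (M * q * q)) (AdjoinSimple.gen K (jqNModC K 2))⁻¹)),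
        sheetIdeal (AdjoinSimple.gen K (jqNModC K 2))⁻¹
          (![legWinf R K h2 (M * q * q), W11, W02] l₀) (fam'.chart_le l₀) ≤ 𝔫 ∧
        (∀ l, sheetIdeal (AdjoinSimple.gen K (jqNModC K 2))⁻¹
          (![legWinf R K h2 (M * q * q), W11, W02] l) (fam'.chart_le l) ≤ 𝔫 → l = l₀) ∧
        z ∈ sheetIdeal (AdjoinSimple.gen K (jqNModC K 2))⁻¹
          (![legWinf R K h2 (M * q * q), W11, W02] l₀) (fam'.chart_le l₀) ∧ z ≠ 0 ∧
        (∀ w ∈ sheetIdeal (AdjoinSimple.gen K (jqNModC K 2))⁻¹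
          (![legWinf R K h2 (M * q * q), W11, W02] l₀) (fam'.chart_le l₀),
          ∃ s : ↥(chartOne R ↥(legE K (M * q * q)) (AdjoinSimple.gen K (jqNModC K 2))⁻¹),
            s ∉ 𝔫 ∧ z ∣ s * w) ∧
        IsBranchUniformizer (sheetIdeal (AdjoinSimple.gen K (jqNModC K 2))⁻¹
          (![legWinf R K h2 (M * q * q), W11, W02] l₀) (fam'.chart_le l₀)) 𝔫 v)
    -- the cusp `∞` of `W20` (CUSP36): the order of a monic function along `W20`
    (hcusp : ∀ (W11 W02 : ValuationSubring ↥(legE K (M * q * q))),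
      W11.comap (legIncl K (M * q * q)) =
        hostImageVal K 2 (keyFqW11 R K h hq φ κ hκ ζ hζq hζ1) →
      W02.comap (legIncl K (M * q * q)) = hostImageVal K 2 (keyFqW02 R K h hq) →
      ∀ {m : ℕ}, 0 < m → ∀ G : ↥(legE K (M * q * q)), G ≠ 0 →
      (∀ v : (↥(legE K (M * q * q)))ˣ, (v : ↥(legE K (M * q * q))) = G →
        hostLc (legE K (M * q * q)) v = 1) →
      (haveI : FiniteDimensional ↥K⟮jqNModC K 2⟯ ↥(legE K (M * q * q)) :=
        finite_legE_adjoin_j K (M * q * q)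
      HorPow36 (K₁ := K) (AdjoinSimple.gen K (jqNModC K 2))⁻¹
        (adjoin_inv_eq_top (ssModelLeg_j_adjoin K)) π m G) →
      ∀ a : ℤ, (legWinf R K h2 (M * q * q)).valuation G =
        (legWinf R K h2 (M * q * q)).valuation
          (algebraMap K ↥(legE K (M * q * q)) (algebraMap R K π)) ^ a → (m : ℤ) ∣ a)
    {m : ℕ} (hm : 0 < m) (hmq : Nat.Coprime m q) (hmR : IsUnit (m : R)) (ζm : R)
    (hζm : IsPrimitiveRoot ζm m)
    (f₀ : ↥(keyFq K (M * q * q))) (hf₀ : f₀ ≠ 0)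
    (hlead : ((f₀ : ↥(keyFq K (M * q * q))) : LaurentSeries K).leadingCoeff = 1)
    (hord : ∀ P : Place K ↥(legE K (M * q * q)),
      (m : ℤ) ∣ P.ord (fullToLegE K (M * q * q) f₀))
    (hNA : ∃ (a : K) (h : ↥(keyFq K (M * q))), a ≠ 0 ∧ h ≠ 0 ∧
      normAlong (heckeAlphaBar K (M * q) q) f₀ = algebraMap K ↥(keyFq K (M * q)) a * h ^ m)
    (hNB : ∃ (a : K) (h : ↥(keyFq K (M * q))), a ≠ 0 ∧ h ≠ 0 ∧
      normAlong (heckeBetaBar K (M * q) q) f₀ = algebraMap K ↥(keyFq K (M * q)) a * h ^ m) :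
    ∃ w : ↥(legE K (M * q * q)),
      fullToLegE K (M * q * q) f₀ ^ ((q ^ 2 - 1) * ((q - 1) * (q - 1 + 2))) = w ^ m := by
  have hmodel := ssModelLeg R K hπ h2 h hq hq2 hqπ hgeo
  obtain ⟨hαB, hβB, hαint, hβint⟩ := legE_chart_maps R K hπ hmodel
  exact legGeneric_of_local2 R K hπ h2 h hq hq2 hqπ hgeo φ κ hκ ζ u hζq hζ1 hπζ hαB hβB hαint
    hβint hLE1 hcusps hcusp hm hmq hmR ζm hζm f₀ hf₀ hlead hord hNA hNB

end Leg

section Hes

variable (R : Type*) [CommRing R] [IsDomain R] [IsDiscreteValuationRing R] [CharZero R]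
  [DecidableEq R]
  (K : Type*) [Field K] [Algebra R K] [IsFractionRing R K] [Algebra ℚ K] [Algebra K ℂ]
  {M : ℕ} [NeZero M] [NeZero (M * 2)] [NeZero (M * 2 * 2)] {x y : ℤ}
  {π : R}
  {R' : Type*} [CommRing R'] [IsDomain R'] [IsDiscreteValuationRing R']
  {K' : Type*} [Field K'] [Algebra R' K'] [IsFractionRing R' K']

set_option maxHeartbeats 3200000 in
/-- Layer 1.5 with `hLE3` and the chart maps discharged, Hesse. -/
theorem hesGeneric_of_local3 [IsAlgClosed (IsLocalRing.ResidueField R)]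
    (hπ : Irreducible π) (h3 : IsUnit (3 : R)) (ω : R) (hω : ω ^ 2 + ω + 1 = 0)
    (h : ((2 : ℕ) : ℤ) * x + M * y = 1)
    (hqπ : ((2 : ℕ) : R) ∈ Ideal.span {π})
    (hgeo : GeoHyps K π (AdjoinSimple.gen K (hesT K)) ↥(hesE K M) M
      ({1, ω, ω ^ 2} : Finset R))
    (φ : R →+* R') [IsLocalHom φ] (κ : K →+* K')
    (hκ : ∀ r : R, κ (algebraMap R K r) = algebraMap R' K' (φ r))
    (ζ u : R'ˣ) (hζq : ζ ^ 2 = 1) (hζ1 : ζ ≠ 1)
    (hπζ : φ π = ((ζ : R') - 1) ^ (2 - 1) * u)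
    -- (5) local equation of `W11` at the `W11`-only points of the chart `j`
    (hLE1 : ∀ (W11 W02 : ValuationSubring ↥(hesE K (M * 2 * 2))),
      W11.comap (hesIncl K (M * 2 * 2)) =
        hostImageVal K 3 (keyFqW11 R K h Nat.prime_two φ κ hκ ζ hζq hζ1) →
      W02.comap (hesIncl K (M * 2 * 2)) = hostImageVal K 3 (keyFqW02 R K h Nat.prime_two) →
      haveI : FiniteDimensional ↥K⟮jqNModC K 3⟯ ↥(hesE K (M * 2 * 2)) :=
        finite_hesE_adjoin_j K (M * 2 * 2)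
      ∀ (fam : IsSheetFamily π (AdjoinSimple.gen K (jqNModC K 3))
        ![hesWinf R K h3 (M * 2 * 2), W11, W02]),
      ∀ (𝔫 : Ideal ↥(chartOne R ↥(hesE K (M * 2 * 2)) (AdjoinSimple.gen K (jqNModC K 3))))
        (_ : 𝔫.IsMaximal),
      sheetIdeal (AdjoinSimple.gen K (jqNModC K 3)) (![hesWinf R K h3 (M * 2 * 2), W11, W02] 1)
        (fam.chart_le 1) ≤ 𝔫 →
      (∀ l, sheetIdeal (AdjoinSimple.gen K (jqNModC K 3))
        (![hesWinf R K h3 (M * 2 * 2), W11, W02] l) (fam.chart_le l) ≤ 𝔫 → l = 1) →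
      ∃ z : ↥(chartOne R ↥(hesE K (M * 2 * 2)) (AdjoinSimple.gen K (jqNModC K 3))),
        z ∈ sheetIdeal (AdjoinSimple.gen K (jqNModC K 3))
          (![hesWinf R K h3 (M * 2 * 2), W11, W02] 1) (fam.chart_le 1) ∧ z ≠ 0 ∧
        ∀ w ∈ sheetIdeal (AdjoinSimple.gen K (jqNModC K 3))
          (![hesWinf R K h3 (M * 2 * 2), W11, W02] 1) (fam.chart_le 1),
          ∃ s : ↥(chartOne R ↥(hesE K (M * 2 * 2)) (AdjoinSimple.gen K (jqNModC K 3))),
            s ∉ 𝔫 ∧ z ∣ s * w)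
    -- (7) the cusps of the chart `j⁻¹`
    (hcusps : ∀ (W11 W02 : ValuationSubring ↥(hesE K (M * 2 * 2))),
      W11.comap (hesIncl K (M * 2 * 2)) =
        hostImageVal K 3 (keyFqW11 R K h Nat.prime_two φ κ hκ ζ hζq hζ1) →
      W02.comap (hesIncl K (M * 2 * 2)) = hostImageVal K 3 (keyFqW02 R K h Nat.prime_two) →
      haveI : FiniteDimensional ↥K⟮jqNModC K 3⟯ ↥(hesE K (M * 2 * 2)) :=
        finite_hesE_adjoin_j K (M * 2 * 2)
      ∀ (fam' : IsSheetFamily π (AdjoinSimple.gen K (jqNModC K 3))⁻¹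
        ![hesWinf R K h3 (M * 2 * 2), W11, W02]),
      ∀ (𝔫 : Ideal ↥(chartOne R ↥(hesE K (M * 2 * 2)) (AdjoinSimple.gen K (jqNModC K 3))⁻¹))
        (_ : 𝔫.IsMaximal),
      algebraMap R ↥(chartOne R ↥(hesE K (M * 2 * 2)) (AdjoinSimple.gen K (jqNModC K 3))⁻¹) π ∈
        𝔫 →
      (⟨algebraMap ↥K⟮jqNModC K 3⟯ ↥(hesE K (M * 2 * 2)) (AdjoinSimple.gen K (jqNModC K 3))⁻¹,
        algebraMap_coord_mem_chartOne (AdjoinSimple.gen K (jqNModC K 3))⁻¹⟩ :
        ↥(chartOne R ↥(hesE K (M * 2 * 2)) (AdjoinSimple.gen K (jqNModC K 3))⁻¹)) ∈ 𝔫 →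
      ∃ (l₀ : Fin 3)
        (z v : ↥(chartOne R ↥(hesE K (M * 2 * 2)) (AdjoinSimple.gen K (jqNModC K 3))⁻¹)),
        sheetIdeal (AdjoinSimple.gen K (jqNModC K 3))⁻¹
          (![hesWinf R K h3 (M * 2 * 2), W11, W02] l₀) (fam'.chart_le l₀) ≤ 𝔫 ∧
        (∀ l, sheetIdeal (AdjoinSimple.gen K (jqNModC K 3))⁻¹
          (![hesWinf R K h3 (M * 2 * 2), W11, W02] l) (fam'.chart_le l) ≤ 𝔫 → l = l₀) ∧
        z ∈ sheetIdeal (AdjoinSimple.gen K (jqNModC K 3))⁻¹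
          (![hesWinf R K h3 (M * 2 * 2), W11, W02] l₀) (fam'.chart_le l₀) ∧ z ≠ 0 ∧
        (∀ w ∈ sheetIdeal (AdjoinSimple.gen K (jqNModC K 3))⁻¹
          (![hesWinf R K h3 (M * 2 * 2), W11, W02] l₀) (fam'.chart_le l₀),
          ∃ s : ↥(chartOne R ↥(hesE K (M * 2 * 2)) (AdjoinSimple.gen K (jqNModC K 3))⁻¹),
            s ∉ 𝔫 ∧ z ∣ s * w) ∧
        IsBranchUniformizer (sheetIdeal (AdjoinSimple.gen K (jqNModC K 3))⁻¹
          (![hesWinf R K h3 (M * 2 * 2), W11, W02] l₀) (fam'.chart_le l₀)) 𝔫 v)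
    -- the cusp `∞` of `W20` (CUSP36): the order of a monic function along `W20`
    (hcusp : ∀ (W11 W02 : ValuationSubring ↥(hesE K (M * 2 * 2))),
      W11.comap (hesIncl K (M * 2 * 2)) =
        hostImageVal K 3 (keyFqW11 R K h Nat.prime_two φ κ hκ ζ hζq hζ1) →
      W02.comap (hesIncl K (M * 2 * 2)) = hostImageVal K 3 (keyFqW02 R K h Nat.prime_two) →
      ∀ {m : ℕ}, 0 < m → ∀ G : ↥(hesE K (M * 2 * 2)), G ≠ 0 →
      (∀ v : (↥(hesE K (M * 2 * 2)))ˣ, (v : ↥(hesE K (M * 2 * 2))) = G →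
        hostLc (hesE K (M * 2 * 2)) v = 1) →
      (haveI : FiniteDimensional ↥K⟮jqNModC K 3⟯ ↥(hesE K (M * 2 * 2)) :=
        finite_hesE_adjoin_j K (M * 2 * 2)
      HorPow36 (K₁ := K) (AdjoinSimple.gen K (jqNModC K 3))⁻¹
        (adjoin_inv_eq_top (ssModelHes_j_adjoin K)) π m G) →
      ∀ a : ℤ, (hesWinf R K h3 (M * 2 * 2)).valuation G =
        (hesWinf R K h3 (M * 2 * 2)).valuation
          (algebraMap K ↥(hesE K (M * 2 * 2)) (algebraMap R K π)) ^ a → (m : ℤ) ∣ a)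
    {m : ℕ} (hm : 0 < m) (hmq : Nat.Coprime m 2) (hmR : IsUnit (m : R)) (ζm : R)
    (hζm : IsPrimitiveRoot ζm m)
    (f₀ : ↥(keyFq K (M * 2 * 2))) (hf₀ : f₀ ≠ 0)
    (hlead : ((f₀ : ↥(keyFq K (M * 2 * 2))) : LaurentSeries K).leadingCoeff = 1)
    (hord : ∀ P : Place K ↥(hesE K (M * 2 * 2)),
      (m : ℤ) ∣ P.ord (fullToHesE K (M * 2 * 2) f₀))
    (hNA : ∃ (a : K) (h : ↥(keyFq K (M * 2))), a ≠ 0 ∧ h ≠ 0 ∧
      normAlong (heckeAlphaBar K (M * 2) 2) f₀ = algebraMap K ↥(keyFq K (M * 2)) a * h ^ m)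
    (hNB : ∃ (a : K) (h : ↥(keyFq K (M * 2))), a ≠ 0 ∧ h ≠ 0 ∧
      normAlong (heckeBetaBar K (M * 2) 2) f₀ = algebraMap K ↥(keyFq K (M * 2)) a * h ^ m) :
    ∃ w : ↥(hesE K (M * 2 * 2)),
      fullToHesE K (M * 2 * 2) f₀ ^ ((2 ^ 2 - 1) * ((2 - 1) * (2 - 1 + 2))) = w ^ m := by
  have hmodel := ssModelHes R K hπ h3 ω hω h hqπ hgeo
  obtain ⟨hαB, hβB, hαint, hβint⟩ := hesE_chart_maps R K hπ hmodel
  exact hesGeneric_of_local2 R K hπ h3 ω hω h hqπ hgeo φ κ hκ ζ u hζq hζ1 hπζ hαB hβB hαint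
    hβint hLE1 hcusps hcusp hm hmq hmR ζm hζm f₀ hf₀ hlead hord hNA hNB

end Hes

end

end Fermat.Agent.S36
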