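/-
S36 [CUSPPT] — helper1 — part 7: **the group (C) `hcusp` of `legGeneric_of_local` /
`hesGeneric_of_local` follows from the group (7) `hcusps`.**

The conclusion of `hcusp` (divisibility by `m` of the order along `W20` of a monic function whose
horizontal divisor on the chart `j⁻¹` is an `m`-th power) does not mention the sheets `W11`, `W02`:
take helper7's three-sheet structure (`exists_legE_threeSheet`), instantiate `hcusps` at the cusp
point `𝔫∞ = hostCuspPt` (a maximal ideal of the chart `j⁻¹` containing `π` and `j⁻¹`); the sheet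
through it is `W20` (`sheetIdeal_gauss_le_hostCuspPt` + uniqueness), and helper4's
`cusp36_dvd_of_family` applies with `lc := hostLc` (`hostCuspPt_hlcπ`, `hostCuspPt_hlcunit`).

* `leg_hcusp_of_hcusps`, `hes_hcusp_of_hcusps`.
-/
import Mathlib
import Fermat.Agent.S36.CUSPPT_helper1_Host
import Fermat.Agent.S36.CUSP36_helper4_Fam
import Fermat.Agent.S36.HOST36_helper7_Delta
import Fermat.Agent.SS.MODEL_helper7_Leg
import Fermat.Agent.SS.MODEL_helper7_Hes
import Fermat.Agent.SS.FIELD_helper9_A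

set_option autoImplicit false
set_option linter.unusedSectionVars false
set_option linter.unusedVariables false
set_option linter.style.haveILetI false
set_option synthInstance.maxHeartbeats 200000

open Polynomial ModularCurve IntermediateField
open Fermat.Agent.Igusa Fermat.Agent.JA Fermat.Agent.SS Fermat.Agent.X0N
open Fermat.Agent.S35 AlgebraicCurve

open scoped Fermat.Agent.JA.Host

namespace Fermat.Agent.S36

noncomputable section

section Abs

variable (R : Type*) [CommRing R] [IsDomain R] [IsDiscreteValuationRing R] [CharZero R]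
  (K : Type*) [Field K] [Algebra R K] [IsFractionRing R K] (w : ℕ) [NeZero w]
  (E : IntermediateField K (LaurentSeries K)) [Fact (K⟮jqNModC K w⟯ ≤ E)]
  [FiniteDimensional ↥K⟮jqNModC K w⟯ ↥E]
  {π : R}

/-- **(C) from (7), generic host**: the order along the Gauss sheet of a monic function with
`m`-divisible horizontal divisor on the chart `j⁻¹` is divisible by `m`, provided the cusp point
`𝔫∞` has a local equation and a branch uniformizer of the sheet through it. -/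
theorem host_hcusp_of_hcusps (hπ : Irreducible π) (hE : E ≤ gaussField R K)
    (hj : Transcendental K (AdjoinSimple.gen K (jqNModC K w)))
    (hKj : IntermediateField.adjoin K {AdjoinSimple.gen K (jqNModC K w)} = ⊤)
    {W : Fin 3 → ValuationSubring ↥E} (hW0 : W 0 = gaussValSub R K E hE)
    (fam' : IsSheetFamily π (AdjoinSimple.gen K (jqNModC K w))⁻¹ W)
    (hcusps : ∀ (𝔫 : Ideal ↥(chartOne R ↥E (AdjoinSimple.gen K (jqNModC K w))⁻¹))
        (_ : 𝔫.IsMaximal),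
      algebraMap R ↥(chartOne R ↥E (AdjoinSimple.gen K (jqNModC K w))⁻¹) π ∈ 𝔫 →
      (⟨algebraMap ↥K⟮jqNModC K w⟯ ↥E (AdjoinSimple.gen K (jqNModC K w))⁻¹,
        algebraMap_coord_mem_chartOne (AdjoinSimple.gen K (jqNModC K w))⁻¹⟩ :
        ↥(chartOne R ↥E (AdjoinSimple.gen K (jqNModC K w))⁻¹)) ∈ 𝔫 →
      ∃ (l₀ : Fin 3) (z v : ↥(chartOne R ↥E (AdjoinSimple.gen K (jqNModC K w))⁻¹)),
        sheetIdeal (AdjoinSimple.gen K (jqNModC K w))⁻¹ (W l₀) (fam'.chart_le l₀) ≤ 𝔫 ∧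
        (∀ l, sheetIdeal (AdjoinSimple.gen K (jqNModC K w))⁻¹ (W l) (fam'.chart_le l) ≤ 𝔫 →
          l = l₀) ∧
        z ∈ sheetIdeal (AdjoinSimple.gen K (jqNModC K w))⁻¹ (W l₀) (fam'.chart_le l₀) ∧ z ≠ 0 ∧
        (∀ w' ∈ sheetIdeal (AdjoinSimple.gen K (jqNModC K w))⁻¹ (W l₀) (fam'.chart_le l₀),
          ∃ s : ↥(chartOne R ↥E (AdjoinSimple.gen K (jqNModC K w))⁻¹), s ∉ 𝔫 ∧ z ∣ s * w') ∧
        IsBranchUniformizer (sheetIdeal (AdjoinSimple.gen K (jqNModC K w))⁻¹ (W l₀)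
          (fam'.chart_le l₀)) 𝔫 v)
    {m : ℕ} (G : ↥E) (hG : G ≠ 0)
    (hlcG : ∀ v : (↥E)ˣ, (v : ↥E) = G → hostLc E v = 1)
    (hhor : HorPow36 (K₁ := K) (AdjoinSimple.gen K (jqNModC K w))⁻¹ (adjoin_inv_eq_top hKj) π m G)
    (a : ℤ) (ha : (gaussValSub R K E hE).valuation G =
      (gaussValSub R K E hE).valuation (algebraMap K ↥E (algebraMap R K π)) ^ a) :
    (m : ℤ) ∣ a := by
  obtain ⟨l₀, z, v, hle, honly, hz, hz0, hgen, hv⟩ := hcusps (hostCuspPt R K w E)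
    (hostCuspPt_isMaximal R K w E) (pi_mem_hostCuspPt R K w E hπ) (coord_mem_hostCuspPt R K w E)
  have hW0' : ∀ b ∈ chartOne R ↥E (AdjoinSimple.gen K (jqNModC K w))⁻¹,
      b ∈ gaussValSub R K E hE := fun b hb => hW0 ▸ fam'.chart_le 0 b hb
  have h0 : sheetIdeal (AdjoinSimple.gen K (jqNModC K w))⁻¹ (W 0) (fam'.chart_le 0) ≤
      hostCuspPt R K w E := by
    intro b hb
    rw [mem_sheetIdeal_iff] at hb
    refine sheetIdeal_gauss_le_hostCuspPt R K w E hE hW0' ?_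
    rw [mem_sheetIdeal_iff, ← hW0]
    exact hb
  have hl0 : (0 : Fin 3) = l₀ := honly 0 h0
  subst hl0
  refine cusp36_dvd_of_family (R := R) (K₁ := K) (K := ↥K⟮jqNModC K w⟯) (F := ↥E) fam' hπ
    (transcendental_inv_of_transcendental hj) (adjoin_inv_eq_top hKj) (hostCuspPt R K w E) 0 hle
    honly hz hz0 hgen hv (hostLc E) ?_ ?_ hG hlcG hhor a ?_
  · intro u hu
    exact hostCuspPt_hlcπ R K w E π u (by rw [hu]; rfl)
  · intro b hb u hu
    exact hostCuspPt_hlcunit R K w E b hb u (by rw [hu]; rfl)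
  · rw [hW0, ha]
    congr 2
    apply Subtype.ext
    rw [hostCusp_hR R K E π]
    rfl

end Abs

section Leg

variable (R : Type*) [CommRing R] [IsDomain R] [IsDiscreteValuationRing R] [CharZero R]
  [DecidableEq R]
  (K : Type*) [Field K] [Algebra R K] [IsFractionRing R K] [Algebra ℚ K] [Algebra K ℂ]
  {M q : ℕ} [NeZero M] [NeZero q] [NeZero (M * q)] [NeZero (M * q * q)] {x y : ℤ}
  {π : R}
  {R' : Type*} [CommRing R'] [IsDomain R'] [IsDiscreteValuationRing R']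
  {K' : Type*} [Field K'] [Algebra R' K'] [IsFractionRing R' K']

set_option maxHeartbeats 1600000 in
/-- **(C) from (7), Legendre**: the `hcusp` hypothesis of `legGeneric_of_local` from its `hcusps`
hypothesis (both literal). -/
theorem leg_hcusp_of_hcusps [IsAlgClosed (IsLocalRing.ResidueField R)]
    (hπ : Irreducible π) (h2 : IsUnit (2 : R))
    (h : (q : ℤ) * x + M * y = 1) (hq : q.Prime) (hq2 : q ≠ 2)
    (hqπ : (q : R) ∈ Ideal.span {π})
    (hgeo : GeoHyps K π (AdjoinSimple.gen K (legT K)) ↥(legE K M) M ({0, 1} : Finset R))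
    (φ : R →+* R') [IsLocalHom φ] (κ : K →+* K')
    (hκ : ∀ r : R, κ (algebraMap R K r) = algebraMap R' K' (φ r))
    (ζ u : R'ˣ) (hζq : ζ ^ q = 1) (hζ1 : ζ ≠ 1)
    (hπζ : φ π = ((ζ : R') - 1) ^ (q - 1) * u)
    (hcusps : ∀ (W11 W02 : ValuationSubring ↥(legE K (M * q * q))),
      W11.comap (legIncl K (M * q * q)) =
        hostImageVal K 2 (keyFqW11 R K h hq φ κ hκ ζ hζq hζ1) →
      W02.comap (legIncl K (M * q * q)) = hostImageVal K 2 (keyFqW02 R K h hq) →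
      haveI : FiniteDimensional ↥K⟮jqNModC K 2⟯ ↥(legE K (M * q * q)) :=
        finite_legE_adjoin_j K (M * q * q)
      ∀ (fam' : IsSheetFamily π (AdjoinSimple.gen K (jqNModC K 2))⁻¹
        ![legWinf R K h2 (M * q * q), W11, W02]),
      ∀ (𝔫 : Ideal ↥(chartOne R ↥(legE K (M * q * q)) (AdjoinSimple.gen K (jqNModC K 2))⁻¹))
        (_ : 𝔫.IsMaximal),
      algebraMap R ↥(chartOne R ↥(legE K (M * q * q)) (AdjoinSimple.gen K (jqNModC K 2))⁻¹) π ∈
        𝔫 →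
      (⟨algebraMap ↥K⟮jqNModC K 2⟯ ↥(legE K (M * q * q)) (AdjoinSimple.gen K (jqNModC K 2))⁻¹,
        algebraMap_coord_mem_chartOne (AdjoinSimple.gen K (jqNModC K 2))⁻¹⟩ :
        ↥(chartOne R ↥(legE K (M * q * q)) (AdjoinSimple.gen K (jqNModC K 2))⁻¹)) ∈ 𝔫 →
      ∃ (l₀ : Fin 3)
        (z v : ↥(chartOne R ↥(legE K (M * q * q)) (AdjoinSimple.gen K (jqNModC K 2))⁻¹)),
        sheetIdeal (AdjoinSimple.gen K (jqNModC K 2))⁻¹
          (![legWinf R K h2 (M * q * q), W11, W02] l₀) (fam'.chart_le l₀) ≤ 𝔫 ∧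
        (∀ l, sheetIdeal (AdjoinSimple.gen K (jqNModC K 2))⁻¹
          (![legWinf R K h2 (M * q * q), W11, W02] l) (fam'.chart_le l) ≤ 𝔫 → l = l₀) ∧
        z ∈ sheetIdeal (AdjoinSimple.gen K (jqNModC K 2))⁻¹
          (![legWinf R K h2 (M * q * q), W11, W02] l₀) (fam'.chart_le l₀) ∧ z ≠ 0 ∧
        (∀ w ∈ sheetIdeal (AdjoinSimple.gen K (jqNModC K 2))⁻¹
          (![legWinf R K h2 (M * q * q), W11, W02] l₀) (fam'.chart_le l₀),
          ∃ s : ↥(chartOne R ↥(legE K (M * q * q)) (AdjoinSimple.gen K (jqNModC K 2))⁻¹),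
            s ∉ 𝔫 ∧ z ∣ s * w) ∧
        IsBranchUniformizer (sheetIdeal (AdjoinSimple.gen K (jqNModC K 2))⁻¹
          (![legWinf R K h2 (M * q * q), W11, W02] l₀) (fam'.chart_le l₀)) 𝔫 v) :
    ∀ (W11 W02 : ValuationSubring ↥(legE K (M * q * q))),
      W11.comap (legIncl K (M * q * q)) =
        hostImageVal K 2 (keyFqW11 R K h hq φ κ hκ ζ hζq hζ1) →
      W02.comap (legIncl K (M * q * q)) = hostImageVal K 2 (keyFqW02 R K h hq) →
      ∀ {m : ℕ}, 0 < m → ∀ G : ↥(legE K (M * q * q)), G ≠ 0 →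
      (∀ v : (↥(legE K (M * q * q)))ˣ, (v : ↥(legE K (M * q * q))) = G →
        hostLc (legE K (M * q * q)) v = 1) →
      (haveI : FiniteDimensional ↥K⟮jqNModC K 2⟯ ↥(legE K (M * q * q)) :=
        finite_legE_adjoin_j K (M * q * q)
      HorPow36 (K₁ := K) (AdjoinSimple.gen K (jqNModC K 2))⁻¹
        (adjoin_inv_eq_top (ssModelLeg_j_adjoin K)) π m G) →
      ∀ a : ℤ, (legWinf R K h2 (M * q * q)).valuation G =
        (legWinf R K h2 (M * q * q)).valuation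
          (algebraMap K ↥(legE K (M * q * q)) (algebraMap R K π)) ^ a → (m : ℤ) ∣ a := by
  intro _ _ _ _ m _ G hG hlcG hhor a ha
  haveI : FiniteDimensional ↥K⟮jqNModC K 2⟯ ↥(legE K (M * q * q)) :=
    finite_legE_adjoin_j K (M * q * q)
  obtain ⟨W11, W02, h11, h02, -, -, hfam⟩ := exists_legE_threeSheet R K hπ h2 h hq hq2 hqπ
    hgeo φ κ hκ ζ hζq hζ1 u hπζ
  exact host_hcusp_of_hcusps R K 2 (legE K (M * q * q)) hπ (legE_le_gaussField R K h2 (M * q * q))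
    (ssModelLeg_j_transcendental K) (ssModelLeg_j_adjoin K)
    (W := ![legWinf R K h2 (M * q * q), W11, W02]) rfl (hfam.inv hπ)
    (hcusps W11 W02 h11 h02 (hfam.inv hπ)) G hG hlcG hhor a ha

end Leg

section Hes

variable (R : Type*) [CommRing R] [IsDomain R] [IsDiscreteValuationRing R] [CharZero R]
  [DecidableEq R]
  (K : Type*) [Field K] [Algebra R K] [IsFractionRing R K] [Algebra ℚ K] [Algebra K ℂ]
  {M : ℕ} [NeZero M] [NeZero (M * 2)] [NeZero (M * 2 * 2)] {x y : ℤ}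
  {π : R}
  {R' : Type*} [CommRing R'] [IsDomain R'] [IsDiscreteValuationRing R']
  {K' : Type*} [Field K'] [Algebra R' K'] [IsFractionRing R' K']

set_option maxHeartbeats 1600000 in
/-- **(C) from (7), Hesse**: the `hcusp` hypothesis of `hesGeneric_of_local` from its `hcusps`
hypothesis (both literal). -/
theorem hes_hcusp_of_hcusps [IsAlgClosed (IsLocalRing.ResidueField R)]
    (hπ : Irreducible π) (h3 : IsUnit (3 : R)) (ω : R)
    (h : ((2 : ℕ) : ℤ) * x + M * y = 1)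
    (hqπ : ((2 : ℕ) : R) ∈ Ideal.span {π})
    (hgeo : GeoHyps K π (AdjoinSimple.gen K (hesT K)) ↥(hesE K M) M
      ({1, ω, ω ^ 2} : Finset R))
    (φ : R →+* R') [IsLocalHom φ] (κ : K →+* K')
    (hκ : ∀ r : R, κ (algebraMap R K r) = algebraMap R' K' (φ r))
    (ζ u : R'ˣ) (hζq : ζ ^ 2 = 1) (hζ1 : ζ ≠ 1)
    (hπζ : φ π = ((ζ : R') - 1) ^ (2 - 1) * u)
    (hcusps : ∀ (W11 W02 : ValuationSubring ↥(hesE K (M * 2 * 2))),
      W11.comap (hesIncl K (M * 2 * 2)) =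
        hostImageVal K 3 (keyFqW11 R K h Nat.prime_two φ κ hκ ζ hζq hζ1) →
      W02.comap (hesIncl K (M * 2 * 2)) = hostImageVal K 3 (keyFqW02 R K h Nat.prime_two) →
      haveI : FiniteDimensional ↥K⟮jqNModC K 3⟯ ↥(hesE K (M * 2 * 2)) :=
        finite_hesE_adjoin_j K (M * 2 * 2)
      ∀ (fam' : IsSheetFamily π (AdjoinSimple.gen K (jqNModC K 3))⁻¹
        ![hesWinf R K h3 (M * 2 * 2), W11, W02]),
      ∀ (𝔫 : Ideal ↥(chartOne R ↥(hesE K (M * 2 * 2)) (AdjoinSimple.gen K (jqNModC K 3))⁻¹))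
        (_ : 𝔫.IsMaximal),
      algebraMap R ↥(chartOne R ↥(hesE K (M * 2 * 2)) (AdjoinSimple.gen K (jqNModC K 3))⁻¹) π ∈
        𝔫 →
      (⟨algebraMap ↥K⟮jqNModC K 3⟯ ↥(hesE K (M * 2 * 2)) (AdjoinSimple.gen K (jqNModC K 3))⁻¹,
        algebraMap_coord_mem_chartOne (AdjoinSimple.gen K (jqNModC K 3))⁻¹⟩ :
        ↥(chartOne R ↥(hesE K (M * 2 * 2)) (AdjoinSimple.gen K (jqNModC K 3))⁻¹)) ∈ 𝔫 →
      ∃ (l₀ : Fin 3)
        (z v : ↥(chartOne R ↥(hesE K (M * 2 * 2)) (AdjoinSimple.gen K (jqNModC K 3))⁻¹)),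
        sheetIdeal (AdjoinSimple.gen K (jqNModC K 3))⁻¹
          (![hesWinf R K h3 (M * 2 * 2), W11, W02] l₀) (fam'.chart_le l₀) ≤ 𝔫 ∧
        (∀ l, sheetIdeal (AdjoinSimple.gen K (jqNModC K 3))⁻¹
          (![hesWinf R K h3 (M * 2 * 2), W11, W02] l) (fam'.chart_le l) ≤ 𝔫 → l = l₀) ∧
        z ∈ sheetIdeal (AdjoinSimple.gen K (jqNModC K 3))⁻¹
          (![hesWinf R K h3 (M * 2 * 2), W11, W02] l₀) (fam'.chart_le l₀) ∧ z ≠ 0 ∧
        (∀ w ∈ sheetIdeal (AdjoinSimple.gen K (jqNModC K 3))⁻¹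
          (![hesWinf R K h3 (M * 2 * 2), W11, W02] l₀) (fam'.chart_le l₀),
          ∃ s : ↥(chartOne R ↥(hesE K (M * 2 * 2)) (AdjoinSimple.gen K (jqNModC K 3))⁻¹),
            s ∉ 𝔫 ∧ z ∣ s * w) ∧
        IsBranchUniformizer (sheetIdeal (AdjoinSimple.gen K (jqNModC K 3))⁻¹
          (![hesWinf R K h3 (M * 2 * 2), W11, W02] l₀) (fam'.chart_le l₀)) 𝔫 v) :
    ∀ (W11 W02 : ValuationSubring ↥(hesE K (M * 2 * 2))),
      W11.comap (hesIncl K (M * 2 * 2)) =
        hostImageVal K 3 (keyFqW11 R K h Nat.prime_two φ κ hκ ζ hζq hζ1) →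
      W02.comap (hesIncl K (M * 2 * 2)) = hostImageVal K 3 (keyFqW02 R K h Nat.prime_two) →
      ∀ {m : ℕ}, 0 < m → ∀ G : ↥(hesE K (M * 2 * 2)), G ≠ 0 →
      (∀ v : (↥(hesE K (M * 2 * 2)))ˣ, (v : ↥(hesE K (M * 2 * 2))) = G →
        hostLc (hesE K (M * 2 * 2)) v = 1) →
      (haveI : FiniteDimensional ↥K⟮jqNModC K 3⟯ ↥(hesE K (M * 2 * 2)) :=
        finite_hesE_adjoin_j K (M * 2 * 2)
      HorPow36 (K₁ := K) (AdjoinSimple.gen K (jqNModC K 3))⁻¹
        (adjoin_inv_eq_top (ssModelHes_j_adjoin K)) π m G) →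
      ∀ a : ℤ, (hesWinf R K h3 (M * 2 * 2)).valuation G =
        (hesWinf R K h3 (M * 2 * 2)).valuation
          (algebraMap K ↥(hesE K (M * 2 * 2)) (algebraMap R K π)) ^ a → (m : ℤ) ∣ a := by
  intro _ _ _ _ m _ G hG hlcG hhor a ha
  haveI : FiniteDimensional ↥K⟮jqNModC K 3⟯ ↥(hesE K (M * 2 * 2)) :=
    finite_hesE_adjoin_j K (M * 2 * 2)
  obtain ⟨W11, W02, h11, h02, -, -, hfam⟩ := exists_hesE_threeSheet R K hπ h3 ω h hqπ
    hgeo φ κ hκ ζ hζq hζ1 u hπζ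
  exact host_hcusp_of_hcusps R K 3 (hesE K (M * 2 * 2)) hπ (hesE_le_gaussField R K h3 (M * 2 * 2))
    (ssModelHes_j_transcendental K) (ssModelHes_j_adjoin K)
    (W := ![hesWinf R K h3 (M * 2 * 2), W11, W02]) rfl (hfam.inv hπ)
    (hcusps W11 W02 h11 h02 (hfam.inv hπ)) G hG hlcG hhor a ha

end Hes

end

end Fermat.Agent.S36
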