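/-
S36 [CUSPPT] — helper1 — part 4: **no crossing at the cusps of a chart with a family of sheets**
(level `M q²`: three sheets `W20`, `W11`, `W02`; abstract form).

* `IsSheetFamily.mem_locRing_of_forall` : local Hartogs for a family of sheets (helper4's [HART] (L)
  for `IsSheetFamily`);
* `false_of_cong_one_of_pow_cong` : `φ ≡ 1` along one sheet and `φ ^ q ≡ z ^ n`, `z` vanishing at the
  point, along another sheet through the same point: contradiction;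
* `kron_step` : one Kronecker step at a point where `X⁻¹` vanishes (`X = j_k`, `Y = j_{k+1}`):
  `φ = Y / X ^ q` is regular at the point, the sheets with `Y ≡ X ^ q` and those with `X ≡ Y ^ q` do
  not meet there, and `Y⁻¹` vanishes at the point as soon as a sheet of the first kind passes;
* `not_crossing_of_cusp_three` : at a point of the chart `j⁻¹` where `j⁻¹` vanishes no two of the
  three sheets `a` (`j₁ ≡ j₀^q`, `j₂ ≡ j₁^q`), `b` (`j₁ ≡ j₀^q`, `j₁ ≡ j₂^q`), `c` (`j₀ ≡ j₁^q`)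
  meet.
-/
import Mathlib
import Fermat.Agent.SS.HART_helper4
import Fermat.Agent.S36.KUM36_helper3_Sheet

set_option autoImplicit false
set_option linter.unusedSectionVars false
set_option linter.style.haveILetI false

namespace Fermat.Agent.S36

open Fermat.Agent.JA Fermat.Agent.SS Polynomial

section Abs

variable {R : Type*} [CommRing R] {E : Type*} [Field E] [Algebra R E]
  {B : Subalgebra R E} {𝔪 : Ideal ↥B} [h𝔪 : 𝔪.IsPrime]

/-- a product of an element of valuation `< 1` and an integral element has valuation `< 1`. -/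
theorem cusppt_val_mul_lt_one {F : Type*} [Field F] (V : ValuationSubring F) {a b : F}
    (ha : V.valuation a < 1) (hb : b ∈ V) : V.valuation (a * b) < 1 := by
  rw [map_mul]
  calc V.valuation a * V.valuation b ≤ V.valuation a * 1 :=
        mul_le_mul_right ((ValuationSubring.valuation_le_one_iff _ _).mpr hb) _
    _ < 1 := by rw [mul_one]; exact ha

theorem pow_mem_locMax {z : E} (hz : z ∈ locMax B 𝔪) {n : ℕ} (hn : 0 < n) :
    z ^ n ∈ locMax B 𝔪 := by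
  obtain ⟨k, rfl⟩ : ∃ k, n = k + 1 := ⟨n - 1, (Nat.sub_add_cancel hn).symm⟩
  rw [pow_succ]
  exact mul_mem_locMax (pow_mem (locMax_subset_locRing hz) k) hz

/-- `φ ≡ 1` along a sheet through `𝔪` and `φ ^ q ≡ z ^ n` (`z` vanishing at `𝔪`, `n > 0`) along
another sheet through `𝔪`: impossible. -/
theorem false_of_cong_one_of_pow_cong {WA WC : ValuationSubring E} (hBA : ∀ b ∈ B, b ∈ WA)
    (hBC : ∀ b ∈ B, b ∈ WC) {𝔭A 𝔭C : Ideal ↥B}
    (h𝔭A : ∀ b : ↥B, b ∈ 𝔭A ↔ WA.valuation (b : E) < 1)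
    (h𝔭C : ∀ b : ↥B, b ∈ 𝔭C ↔ WC.valuation (b : E) < 1) (hA : 𝔭A ≤ 𝔪) (hC : 𝔭C ≤ 𝔪)
    {φ z : E} (hφ : φ ∈ locRing B 𝔪) (hz : z ∈ locMax B 𝔪) {q n : ℕ} (hn : 0 < n)
    (h1 : WA.valuation (φ - 1) < 1) (h2 : WC.valuation (φ ^ q - z ^ n) < 1) : False := by
  have hsA := (sheet_le_iff (B := B) (𝔪 := 𝔪) hBA h𝔭A).mp hA
  have hsC := (sheet_le_iff (B := B) (𝔪 := 𝔪) hBC h𝔭C).mp hC
  have e1 : φ - 1 ∈ locMax B 𝔪 :=
    hsA _ ((locRing B 𝔪).sub_mem hφ (Subalgebra.one_mem _)) h1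
  have hzn : z ^ n ∈ locMax B 𝔪 := pow_mem_locMax hz hn
  have e2 : φ ^ q ∈ locMax B 𝔪 := by
    have he : φ ^ q = (φ ^ q - z ^ n) + z ^ n := by ring
    rw [he]
    exact add_mem_locMax (hsC _ ((locRing B 𝔪).sub_mem (pow_mem hφ q)
      (locMax_subset_locRing hzn)) h2) hzn
  have e3 : φ ^ q - 1 ∈ locMax B 𝔪 := by
    rw [← geom_sum_mul]
    exact mul_mem_locMax (Subalgebra.sum_mem _ (fun i _ => pow_mem hφ i)) e1
  have e4 : (1 : E) ∈ locMax B 𝔪 := by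
    have : (1 : E) = φ ^ q - (φ ^ q - 1) := by ring
    rw [this]
    exact sub_mem_locMax e2 e3
  exact one_notMem_locMax (B := B) (𝔪 := 𝔪) e4

/-- a valuation subring containing `B` whose centre on `B` lies in `𝔪` contains the local ring
of `B` at `𝔪`. -/
theorem locRing_le_of_center_le (V : ValuationSubring E) (hBV : ∀ b ∈ B, b ∈ V)
    (hV𝔪 : ∀ b : ↥B, V.valuation (b : E) < 1 → b ∈ 𝔪) : ∀ e ∈ locRing B 𝔪, e ∈ V := by
  rintro e ⟨r, s, hs, hrs⟩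
  have hs1 : V.valuation (s : E) = 1 :=
    le_antisymm ((ValuationSubring.valuation_le_one_iff _ _).mpr (hBV _ s.2))
      (not_lt.mp (fun h => hs (hV𝔪 s h)))
  rw [← ValuationSubring.valuation_le_one_iff]
  have h1 : V.valuation e = V.valuation (r : E) := by
    rw [← hrs, map_mul, hs1, mul_one]
  rw [h1]
  exact (ValuationSubring.valuation_le_one_iff _ _).mpr (hBV _ r.2)

end Abs

section Family

variable {R : Type*} [CommRing R] [IsDomain R] [IsDiscreteValuationRing R] [CharZero R]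
  {K₁ : Type*} [Field K₁] [Algebra R K₁] [IsFractionRing R K₁]
  {K : Type*} [Field K] [Algebra K₁ K] [Algebra R K] [IsScalarTower R K₁ K]
  {E : Type*} [Field E] [Algebra K E] [Algebra R E] [IsScalarTower R K E] [FiniteDimensional K E]
  {π : R} {u : K} {ι : Type*} {W : ι → ValuationSubring E}

/-- **local Hartogs for a family of sheets.** -/
theorem IsSheetFamily.mem_locRing_of_forall (h : IsSheetFamily π u W) (hπ : Irreducible π)
    (hu : Transcendental K₁ u) (hK : IntermediateField.adjoin K₁ {u} = ⊤)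
    (𝔪 : Ideal ↥(chartOne R E u)) [h𝔪 : 𝔪.IsPrime] (x : E)
    (hxW : ∀ i, sheetIdeal u (W i) (h.chart_le i) ≤ 𝔪 → x ∈ W i)
    (hhor : ∀ V : ValuationSubring E, (algebraMap R E π)⁻¹ ∈ V → (∀ b ∈ chartOne R E u, b ∈ V) →
      (∀ b : ↥(chartOne R E u), V.valuation (b : E) < 1 → b ∈ 𝔪) → x ∈ V) :
    x ∈ locRing (chartOne R E u) 𝔪 := by
  haveI : IsFractionRing ↥(chartOne R E u) E := isFractionRing_chartOne (K₁ := K₁) u hK
  haveI : IsIntegrallyClosed ↥(chartOne R E u) := isIntegrallyClosed_chartOne (K₁ := K₁) u hK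
  haveI : IsNoetherianRing ↥(chartOne R E u) := isNoetherianRing_chartOne (K₁ := K₁) u hu hK
  refine mem_locRing_of_forall_height_one x (fun 𝔮 h𝔮 hh hle => ?_)
  haveI := h𝔮
  by_cases hπ𝔮 : algebraMap R ↥(chartOne R E u) π ∈ 𝔮
  · obtain ⟨i, hi⟩ := h.exists_eq_of_height_one hπ hu hK 𝔮 hh hπ𝔮
    obtain ⟨r, s, hs, hrs⟩ := h.exists_mul_eq_of_mem hπ hu hK i x (hxW i (hi ▸ hle))
    exact ⟨r, s, hi ▸ hs, hrs⟩
  · obtain ⟨V, hV1, hV2, hV3, hV4⟩ := exists_horizontal_valuationSubring hu hK 𝔮 hh hπ𝔮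
    exact hV4 x (hhor V hV1 hV2 (fun b hb => hle (hV3 b hb)))

/-- **one Kronecker step at a point where `X⁻¹` vanishes.** -/
theorem kron_step (h : IsSheetFamily π u W) (hπ : Irreducible π)
    (hu : Transcendental K₁ u) (hK : IntermediateField.adjoin K₁ {u} = ⊤)
    (𝔪 : Ideal ↥(chartOne R E u)) [h𝔪 : 𝔪.IsPrime] {q : ℕ} (hq : 2 ≤ q) {X Y : E} (hX0 : X ≠ 0)
    (hX : X⁻¹ ∈ locMax (chartOne R E u) 𝔪)
    (hXW : ∀ i, sheetIdeal u (W i) (h.chart_le i) ≤ 𝔪 → X⁻¹ ∈ W i)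
    (hYW : ∀ i, sheetIdeal u (W i) (h.chart_le i) ≤ 𝔪 → Y ∈ W i)
    (c1 : ∀ V : ValuationSubring E, (∀ r : R, algebraMap R E r ∈ V) → (algebraMap R E π)⁻¹ ∈ V →
      X ∉ V → Y * (X ^ q)⁻¹ ∈ V)
    (c1' : ∀ V : ValuationSubring E, (∀ r : R, algebraMap R E r ∈ V) → (algebraMap R E π)⁻¹ ∈ V →
      Y ∉ V → X ∉ V) :
    Y * (X ^ q)⁻¹ ∈ locRing (chartOne R E u) 𝔪 ∧
    (∀ a, sheetIdeal u (W a) (h.chart_le a) ≤ 𝔪 → (W a).valuation (Y - X ^ q) < 1 →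
      Y * (X ^ q)⁻¹ - 1 ∈ locMax (chartOne R E u) 𝔪 ∧ Y ≠ 0 ∧
      Y⁻¹ ∈ locMax (chartOne R E u) 𝔪 ∧ (W a).valuation (Y * (X ^ q)⁻¹ - 1) < 1) ∧
    (∀ a c, sheetIdeal u (W a) (h.chart_le a) ≤ 𝔪 → sheetIdeal u (W c) (h.chart_le c) ≤ 𝔪 →
      (W a).valuation (Y - X ^ q) < 1 → (W c).valuation (X - Y ^ q) < 1 → False) := by
  set z : E := X⁻¹ with hz
  have hz0 : z ≠ 0 := inv_ne_zero hX0
  have hXz : X * z = 1 := mul_inv_cancel₀ hX0
  have hq0 : 0 < q := by omega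
  set φ : E := Y * (X ^ q)⁻¹ with hφdef
  have hφ' : φ = Y * z ^ q := by rw [hφdef, hz, inv_pow]
  have hzL : z ∈ locRing (chartOne R E u) 𝔪 := locMax_subset_locRing hX
  -- (1) `φ` is regular at `𝔪`
  have hφL : φ ∈ locRing (chartOne R E u) 𝔪 := by
    refine h.mem_locRing_of_forall hπ hu hK 𝔪 φ (fun i hi => ?_) (fun V hπV hV hV𝔪 => ?_)
    · rw [hφ']
      exact (W i).mul_mem _ _ (hYW i hi) (pow_mem (hXW i hi) q)
    · have hR : ∀ r : R, algebraMap R E r ∈ V :=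
        fun r => hV _ (Subalgebra.algebraMap_mem _ r)
      have hzV : z ∈ V := locRing_le_of_center_le V hV hV𝔪 z hzL
      by_cases hXV : X ∈ V
      · have hYV : Y ∈ V := by
          by_contra hY
          exact c1' V hR hπV hY hXV
        rw [hφ']
        exact V.mul_mem _ _ hYV (pow_mem hzV q)
      · exact c1 V hR hπV hXV
  -- (2) the sheets with `Y ≡ X ^ q`
  have h2 : ∀ a, sheetIdeal u (W a) (h.chart_le a) ≤ 𝔪 → (W a).valuation (Y - X ^ q) < 1 →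
      φ - 1 ∈ locMax (chartOne R E u) 𝔪 ∧ Y ≠ 0 ∧
      Y⁻¹ ∈ locMax (chartOne R E u) 𝔪 ∧ (W a).valuation (φ - 1) < 1 := by
    intro a ha hka
    have hsa := (sheet_le_iff (B := chartOne R E u) (𝔪 := 𝔪) (h.chart_le a)
      (mem_sheetIdeal_iff u (W a) (h.chart_le a))).mp ha
    have he : φ - 1 = (Y - X ^ q) * z ^ q := by
      rw [hφ', sub_mul, ← mul_pow, hXz, one_pow]
    have hv : (W a).valuation (φ - 1) < 1 := by
      rw [he]
      exact cusppt_val_mul_lt_one (W a) hka (pow_mem (hXW a ha) q)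
    have h1 : φ - 1 ∈ locMax (chartOne R E u) 𝔪 :=
      hsa _ ((locRing (chartOne R E u) 𝔪).sub_mem hφL (Subalgebra.one_mem _)) hv
    have hφM : φ ∉ locMax (chartOne R E u) 𝔪 := by
      intro hm
      have : (1 : E) = φ - (φ - 1) := by ring
      exact one_notMem_locMax (B := chartOne R E u) (𝔪 := 𝔪) (this ▸ sub_mem_locMax hm h1)
    have hφ0 : φ ≠ 0 := fun h0 => hφM (h0 ▸ zero_mem_locMax)
    have hY0 : Y ≠ 0 := by
      intro h0
      apply hφ0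
      rw [hφ', h0, zero_mul]
    have hφi : φ⁻¹ ∈ locRing (chartOne R E u) 𝔪 := inv_mem_locRing hφL hφM
    have hYi : Y⁻¹ = φ⁻¹ * z ^ q := by
      rw [hφ', mul_inv, mul_assoc, inv_mul_cancel₀ (pow_ne_zero q hz0), mul_one]
    refine ⟨h1, hY0, ?_, hv⟩
    rw [hYi]
    exact mul_mem_locMax hφi (pow_mem_locMax hX hq0)
  refine ⟨hφL, h2, ?_⟩
  -- (3) no crossing
  intro a c ha hc hka hkc
  obtain ⟨n, hn⟩ : ∃ n : ℕ, q * q = n + 1 :=
    ⟨q * q - 1, (Nat.sub_add_cancel (Nat.mul_pos hq0 hq0)).symm⟩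
  have hn0 : 0 < n := by nlinarith
  refine false_of_cong_one_of_pow_cong (B := chartOne R E u) (𝔪 := 𝔪) (h.chart_le a)
    (h.chart_le c) (mem_sheetIdeal_iff u (W a) (h.chart_le a))
    (mem_sheetIdeal_iff u (W c) (h.chart_le c)) ha hc hφL hX hn0 (h2 a ha hka).2.2.2
    (q := q) ?_
  have he : φ ^ q - z ^ n = -((X - Y ^ q) * z ^ (n + 1)) := by
    have h5 : z ^ n = X * z ^ (n + 1) := by
      rw [pow_succ, mul_comm (z ^ n), ← mul_assoc, hXz, one_mul]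
    have h6 : φ ^ q = Y ^ q * z ^ (n + 1) := by
      rw [hφ', mul_pow, ← pow_mul, hn]
    rw [h6]
    nth_rewrite 1 [h5]
    ring
  rw [he, Valuation.map_neg]
  exact cusppt_val_mul_lt_one (W c) hkc (pow_mem (hXW c hc) _)

/-- **no crossing at the cusps, three sheets.**  At a point of the chart `j⁻¹` where `j⁻¹` vanishes,
no two of the sheets `a` (`j₁ ≡ j₀ ^ q`, `j₂ ≡ j₁ ^ q`), `b` (`j₁ ≡ j₀ ^ q`, `j₁ ≡ j₂ ^ q`),
`c` (`j₀ ≡ j₁ ^ q`) meet. -/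
theorem not_crossing_of_cusp_three {j : K} (h : IsSheetFamily π j⁻¹ W) (hπ : Irreducible π)
    (hj : Transcendental K₁ j) (hK : IntermediateField.adjoin K₁ {j} = ⊤)
    {q : ℕ} (hq : 2 ≤ q) (J1 J2 : E)
    (hJ1W : ∀ i, J1 ∈ W i) (hJ1iW : ∀ i, J1⁻¹ ∈ W i) (hJ2W : ∀ i, J2 ∈ W i)
    (c1 : ∀ V : ValuationSubring E, (∀ r : R, algebraMap R E r ∈ V) → (algebraMap R E π)⁻¹ ∈ V →
      algebraMap K E j ∉ V → J1 * (algebraMap K E j ^ q)⁻¹ ∈ V)
    (c1' : ∀ V : ValuationSubring E, (∀ r : R, algebraMap R E r ∈ V) → (algebraMap R E π)⁻¹ ∈ V →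
      J1 ∉ V → algebraMap K E j ∉ V)
    (c2 : ∀ V : ValuationSubring E, (∀ r : R, algebraMap R E r ∈ V) → (algebraMap R E π)⁻¹ ∈ V →
      J1 ∉ V → J2 * (J1 ^ q)⁻¹ ∈ V)
    (c2' : ∀ V : ValuationSubring E, (∀ r : R, algebraMap R E r ∈ V) → (algebraMap R E π)⁻¹ ∈ V →
      J2 ∉ V → J1 ∉ V)
    (a b c : ι)
    (ka1 : (W a).valuation (J1 - algebraMap K E j ^ q) < 1)
    (ka2 : (W a).valuation (J2 - J1 ^ q) < 1)
    (kb1 : (W b).valuation (J1 - algebraMap K E j ^ q) < 1)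
    (kb2 : (W b).valuation (J1 - J2 ^ q) < 1)
    (kc1 : (W c).valuation (algebraMap K E j - J1 ^ q) < 1)
    (𝔪 : Ideal ↥(chartOne R E j⁻¹)) [h𝔪 : 𝔪.IsPrime]
    (hx : (⟨algebraMap K E j⁻¹, algebraMap_coord_mem_chartOne j⁻¹⟩ : ↥(chartOne R E j⁻¹)) ∈ 𝔪) :
    (sheetIdeal j⁻¹ (W a) (h.chart_le a) ≤ 𝔪 → sheetIdeal j⁻¹ (W c) (h.chart_le c) ≤ 𝔪 → False) ∧
    (sheetIdeal j⁻¹ (W b) (h.chart_le b) ≤ 𝔪 → sheetIdeal j⁻¹ (W c) (h.chart_le c) ≤ 𝔪 → False) ∧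
    (sheetIdeal j⁻¹ (W a) (h.chart_le a) ≤ 𝔪 → sheetIdeal j⁻¹ (W b) (h.chart_le b) ≤ 𝔪 →
      False) := by
  have hu' := transcendental_inv_of_transcendental hj
  have hK' := adjoin_inv_eq_top hK
  have hj0 : j ≠ 0 := by
    rintro rfl
    exact hj isAlgebraic_zero
  set J : E := algebraMap K E j with hJ
  have hJ0 : J ≠ 0 := by rw [hJ, Ne, map_eq_zero]; exact hj0
  have hxJ : algebraMap K E j⁻¹ = J⁻¹ := by rw [map_inv₀]
  have hJiM : J⁻¹ ∈ locMax (chartOne R E j⁻¹) 𝔪 := by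
    have h4 := (coe_mem_locMax_iff (B := chartOne R E j⁻¹) (𝔪 := 𝔪) _).mpr hx
    change algebraMap K E j⁻¹ ∈ _ at h4
    rwa [hxJ] at h4
  have hJiW : ∀ i, J⁻¹ ∈ W i := by
    intro i
    rw [← hxJ]
    exact h.chart_le i _ (algebraMap_coord_mem_chartOne j⁻¹)
  obtain ⟨-, s2, s3⟩ := kron_step h hπ hu' hK' 𝔪 hq hJ0 hJiM (fun i _ => hJiW i)
    (fun i _ => hJ1W i) c1 c1'
  refine ⟨fun ha hc => s3 a c ha hc ka1 kc1, fun hb hc => s3 b c hb hc kb1 kc1, fun ha hb => ?_⟩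
  obtain ⟨-, hJ10, hJ1M, -⟩ := s2 a ha ka1
  obtain ⟨-, -, t3⟩ := kron_step h hπ hu' hK' 𝔪 hq hJ10 hJ1M (fun i _ => hJ1iW i)
    (fun i _ => hJ2W i) c2 c2'
  exact t3 a b ha hb ka2 kb2

end Family

end Fermat.Agent.S36
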