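/-
S36 [CUSPS36] — helper2 — part 2 (algebra): 
* `cusps36_exists_cyclo_expansion` : `1 + (1+X) + ⋯ + (1+X)^(q-1) = X^(q-1) + q (1 + X g)` in `ℤ[X]`;
* `cusps36_eq_zero_of_forall_pow` : Krull intersection in the local ring of a chart at a prime;
* `cusps36_harch` : the valuation ring of a prime of a noetherian chart is archimedean (the
  hypothesis `harch` of `cusps36_val_geom_sum_lt_one`);
* `cusps36_exists_height_one_le` : a prime of height one through a given point containing a given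
  nonzero element (Krull's Hauptidealsatz).
-/
import Mathlib
import Fermat.Agent.SS.EXPORT_helper4_Loc

set_option autoImplicit false
set_option linter.unusedSectionVars false
set_option linter.style.haveILetI false

namespace Fermat.Agent.S36

open Fermat.Agent.SS Polynomial

/-- **the cyclotomic expansion** `Φ_q(1 + X) = X^(q-1) + q (1 + X g)`. -/
theorem cusps36_exists_cyclo_expansion {q : ℕ} (hq : q.Prime) :
    ∃ g : ℤ[X], ∑ i ∈ Finset.range q, (1 + X : ℤ[X]) ^ i =
      X ^ (q - 1) + C (q : ℤ) * (1 + X * g) := by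
  have : Fact q.Prime := ⟨hq⟩
  set f : ℤ[X] := (cyclotomic q ℤ).comp (X + 1) with hf
  have hfsum : f = ∑ i ∈ Finset.range q, (1 + X : ℤ[X]) ^ i := by
    rw [hf, cyclotomic_prime, sum_comp]
    refine Finset.sum_congr rfl (fun i _ => ?_)
    rw [X_pow_comp, add_comm]
  have hE := cyclotomic_comp_X_add_one_isEisensteinAt (p := q)
  have hX1 : (X + 1 : ℤ[X]).natDegree = 1 := by
    have := natDegree_X_add_C (1 : ℤ)
    simpa using this
  have hX1m : (X + 1 : ℤ[X]).Monic := by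
    have := monic_X_add_C (1 : ℤ)
    simpa using this
  have hmonic : f.Monic := (cyclotomic.monic q ℤ).comp hX1m (by
    rw [hX1]; exact one_ne_zero)
  have hdeg : f.natDegree = q - 1 := by
    rw [hf, natDegree_comp, natDegree_cyclotomic, Nat.totient_prime hq]
    rw [hX1, mul_one]
  have hc0 : f.coeff 0 = q := by
    rw [coeff_zero_eq_eval_zero, hf, eval_comp, eval_add, eval_X, eval_one, zero_add,
      eval_one_cyclotomic_prime]
  have hq1 : 1 ≤ q - 1 := by have := hq.two_le; omega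
  have hdvd : C (q : ℤ) ∣ f - X ^ (q - 1) := by
    rw [C_dvd_iff_dvd_coeff]
    intro n
    rw [coeff_sub, coeff_X_pow]
    rcases lt_trichotomy n (q - 1) with hn | hn | hn
    · rw [if_neg hn.ne, sub_zero]
      have := hE.mem (n := n) (by rw [hdeg]; exact hn)
      rw [← hf] at this
      exact Ideal.mem_span_singleton.mp this
    · rw [if_pos hn, hn, ← hdeg, hmonic.coeff_natDegree, sub_self]
      exact dvd_zero _
    · rw [if_neg hn.ne', sub_zero, coeff_eq_zero_of_natDegree_lt (by rw [hdeg]; exact hn)]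
      exact dvd_zero _
  obtain ⟨g₀, hg₀⟩ := hdvd
  have hq0 : (q : ℤ) ≠ 0 := by exact_mod_cast hq.ne_zero
  have hg00 : g₀.coeff 0 = 1 := by
    have h1 : (f - X ^ (q - 1)).coeff 0 = (q : ℤ) * g₀.coeff 0 := by
      rw [hg₀, coeff_C_mul]
    rw [coeff_sub, hc0, coeff_X_pow, if_neg (by omega), sub_zero] at h1
    have h2 : (q : ℤ) * 1 = (q : ℤ) * g₀.coeff 0 := by rw [mul_one]; exact h1
    exact (mul_left_cancel₀ hq0 h2).symm
  have hX : X ∣ g₀ - 1 := by
    rw [X_dvd_iff, coeff_sub, hg00, coeff_one_zero, sub_self]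
  obtain ⟨g, hg⟩ := hX
  refine ⟨g, ?_⟩
  rw [← hfsum]
  have : f = X ^ (q - 1) + (f - X ^ (q - 1)) := by ring
  rw [this, hg₀]
  congr 2
  rw [← hg]; ring

/-- the cyclotomic expansion evaluated in a commutative ring. -/
theorem cusps36_geom_sum_one_add {q : ℕ} (hq : q.Prime) :
    ∃ g : ℤ[X], ∀ {A : Type*} [CommRing A] (y : A),
      ∑ i ∈ Finset.range q, (1 + y) ^ i = y ^ (q - 1) + (q : A) * (1 + y * aeval y g) := by
  obtain ⟨g, hg⟩ := cusps36_exists_cyclo_expansion hq
  refine ⟨g, fun {A} _ y => ?_⟩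
  have h := congrArg (aeval y) hg
  simpa [map_sum, map_pow, map_add, map_mul, aeval_X, map_one] using h

section Krull

variable {R : Type*} [CommRing R] {E : Type*} [Field E] [Algebra R E]
  {B : Subalgebra R E}

/-- **Krull intersection in the local ring of a noetherian domain at a prime.** -/
theorem cusps36_eq_zero_of_forall_pow [IsNoetherianRing ↥B] [IsFractionRing ↥B E]
    (𝔮 : Ideal ↥B) [h𝔮 : 𝔮.IsPrime] {m t : E} (ht : t ∈ locMax B 𝔮)
    (h : ∀ N : ℕ, ∃ y ∈ locRing B 𝔮, m = t ^ N * y) : m = 0 := by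
  have hS : 𝔮.primeCompl ≤ nonZeroDivisors ↥B := by
    intro s hs
    exact mem_nonZeroDivisors_of_ne_zero (fun h0 => hs (h0 ▸ 𝔮.zero_mem))
  haveI : IsNoetherianRing (Localization.AtPrime 𝔮) :=
    IsLocalization.isNoetherianRing 𝔮.primeCompl (Localization.AtPrime 𝔮) inferInstance
  have hunits : ∀ s : 𝔮.primeCompl, IsUnit (algebraMap ↥B E s) := fun s =>
    Localization.map_isUnit_of_le E 𝔮.primeCompl hS s
  letI : Algebra (Localization.AtPrime 𝔮) E :=
    (IsLocalization.lift (M := 𝔮.primeCompl) (S := Localization.AtPrime 𝔮) hunits).toAlgebra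
  haveI : IsScalarTower ↥B (Localization.AtPrime 𝔮) E :=
    IsScalarTower.of_algebraMap_eq (fun b => (IsLocalization.lift_eq hunits b).symm)
  haveI : IsFractionRing (Localization.AtPrime 𝔮) E :=
    IsFractionRing.isFractionRing_of_isDomain_of_isLocalization 𝔮.primeCompl
      (Localization.AtPrime 𝔮) E
  have hinj : Function.Injective (algebraMap (Localization.AtPrime 𝔮) E) :=
    IsFractionRing.injective _ _
  -- lifting elements of the local ring
  have key : ∀ (x : E) (r s : ↥B) (hs : s ∉ 𝔮), x * (s : E) = (r : E) →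
      algebraMap (Localization.AtPrime 𝔮) E
        (IsLocalization.mk' (Localization.AtPrime 𝔮) r (⟨s, hs⟩ : 𝔮.primeCompl)) = x := by
    intro x r s hs hrs
    have h1 := IsLocalization.mk'_spec (Localization.AtPrime 𝔮) r (⟨s, hs⟩ : 𝔮.primeCompl)
    have h2 := congrArg (algebraMap (Localization.AtPrime 𝔮) E) h1
    rw [map_mul, ← IsScalarTower.algebraMap_apply ↥B (Localization.AtPrime 𝔮) E,
      ← IsScalarTower.algebraMap_apply ↥B (Localization.AtPrime 𝔮) E] at h2
    have hs0 : (s : E) ≠ 0 := by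
      intro h0
      apply hs
      have : s = 0 := Subtype.ext h0
      rw [this]; exact 𝔮.zero_mem
    have h3 : algebraMap (Localization.AtPrime 𝔮) E
        (IsLocalization.mk' (Localization.AtPrime 𝔮) r (⟨s, hs⟩ : 𝔮.primeCompl)) * (s : E) =
        x * (s : E) := by
      rw [hrs]; exact h2
    exact mul_right_cancel₀ hs0 h3
  have lift : ∀ x ∈ locRing B 𝔮, ∃ l : Localization.AtPrime 𝔮,
      algebraMap (Localization.AtPrime 𝔮) E l = x := by
    rintro x ⟨r, s, hs, hrs⟩
    exact ⟨_, key x r s hs hrs⟩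
  -- `t` lifts to the maximal ideal
  obtain ⟨lt, hlt, hltm⟩ : ∃ l : Localization.AtPrime 𝔮,
      algebraMap (Localization.AtPrime 𝔮) E l = t ∧
        l ∈ IsLocalRing.maximalIdeal (Localization.AtPrime 𝔮) := by
    obtain ⟨r, s, hr, hs, hrs⟩ := ht
    exact ⟨_, key t r s hs hrs, (IsLocalization.AtPrime.mk'_mem_maximal_iff
      (Localization.AtPrime 𝔮) 𝔮 r (⟨s, hs⟩ : 𝔮.primeCompl)).mpr hr⟩
  obtain ⟨y0, hy0, hmy0⟩ := h 0
  obtain ⟨lm, hlm⟩ := lift m (by rw [hmy0, pow_zero, one_mul]; exact hy0)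
  have hmem : ∀ N : ℕ, lm ∈ IsLocalRing.maximalIdeal (Localization.AtPrime 𝔮) ^ N := by
    intro N
    obtain ⟨y, hy, hmy⟩ := h N
    obtain ⟨ly, hly⟩ := lift y hy
    have h1 : lm = lt ^ N * ly := by
      apply hinj
      rw [map_mul, map_pow, hlm, hlt, hly, hmy]
    rw [h1]
    exact Ideal.mul_mem_right _ _ (Ideal.pow_mem_pow hltm N)
  have hbot := Ideal.iInf_pow_eq_bot_of_isLocalRing
    (IsLocalRing.maximalIdeal (Localization.AtPrime 𝔮))
    (IsLocalRing.maximalIdeal.isMaximal (Localization.AtPrime 𝔮)).ne_top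
  have h0 : lm ∈ (⨅ i : ℕ, IsLocalRing.maximalIdeal (Localization.AtPrime 𝔮) ^ i) :=
    (Ideal.mem_iInf).mpr hmem
  rw [hbot, Ideal.mem_bot] at h0
  rw [← hlm, h0, map_zero]

/-- **the valuation ring of a prime of a noetherian chart is archimedean.** -/
theorem cusps36_harch [IsNoetherianRing ↥B] [IsFractionRing ↥B E]
    (𝔮 : Ideal ↥B) [h𝔮 : 𝔮.IsPrime] (V : ValuationSubring E)
    (hVL : ∀ x ∈ V, x ∈ locRing B 𝔮)
    (hV𝔮 : ∀ b : ↥B, V.valuation (b : E) < 1 → b ∈ 𝔮) (hBV : ∀ b ∈ B, b ∈ V) :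
    ∀ m t : E, V.valuation t < 1 → (∀ N : ℕ, V.valuation m ≤ V.valuation t ^ N) → m = 0 := by
  intro m t ht hN
  by_cases ht0 : t = 0
  · have h1 := hN 1
    rw [ht0, map_zero, pow_one] at h1
    exact (Valuation.zero_iff _).mp (le_antisymm h1 zero_le)
  have htM : t ∈ locMax B 𝔮 := by
    obtain ⟨r, s, hs, hrs⟩ := hVL t ((ValuationSubring.valuation_le_one_iff _ _).mp ht.le)
    refine ⟨r, s, hV𝔮 r ?_, hs, hrs⟩
    rw [← hrs, map_mul]
    calc V.valuation t * V.valuation (s : E) ≤ V.valuation t * 1 :=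
          mul_le_mul_right ((ValuationSubring.valuation_le_one_iff _ _).mpr (hBV _ s.2)) _
      _ < 1 := by rw [mul_one]; exact ht
  refine cusps36_eq_zero_of_forall_pow 𝔮 htM (fun N => ?_)
  have htN : t ^ N ≠ 0 := pow_ne_zero N ht0
  refine ⟨m / t ^ N, hVL _ ?_, by field_simp⟩
  rw [← ValuationSubring.valuation_le_one_iff, map_div₀, map_pow]
  have h0 : V.valuation t ^ N ≠ 0 := by
    rw [← map_pow]; exact (Valuation.ne_zero_iff _).mpr htN
  exact (div_le_one₀ (zero_lt_iff.mpr h0)).mpr (hN N)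

/-- **a prime of height one through a point, containing a given nonzero element of the point.** -/
theorem cusps36_exists_height_one_le [IsNoetherianRing ↥B] [IsDomain ↥B] (𝔫 : Ideal ↥B)
    [h𝔫 : 𝔫.IsPrime] {r : ↥B} (hr : r ∈ 𝔫) (hr0 : r ≠ 0) :
    ∃ 𝔮 : Ideal ↥B, 𝔮.IsPrime ∧ 𝔮.height = 1 ∧ r ∈ 𝔮 ∧ 𝔮 ≤ 𝔫 := by
  have hle : Ideal.span {r} ≤ 𝔫 := by
    rw [Ideal.span_le, Set.singleton_subset_iff]; exact hr
  obtain ⟨Q, hQmin, hQle⟩ := Ideal.exists_minimalPrimes_le hle
  haveI : Q.IsPrime := hQmin.1.1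
  have hrQ : r ∈ Q := hQmin.1.2 (Ideal.subset_span (Set.mem_singleton _))
  have h1 : Q.height ≤ 1 := Ideal.height_le_one_of_isPrincipal_of_mem_minimalPrimes _ Q hQmin
  have h0 : Q.height ≠ 0 := by
    intro h
    rw [Ideal.height_eq_zero_iff_eq_bot] at h
    rw [h, Ideal.mem_bot] at hrQ
    exact hr0 hrQ
  exact ⟨Q, inferInstance, le_antisymm h1 (Order.one_le_iff_pos.2 (pos_iff_ne_zero.2 h0)), hrQ,
    hQle⟩

end Krull

end Fermat.Agent.S36
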