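/-
S36 [NODENORM] — helper5 — part 1: **the local relation between the toric data at a supersingular
point of the three-sheeted model and at its image node of the two-sheeted model.**

`ι : E₁ →+* E` one of the two degeneracy embeddings (`E₁` the host of level `M'q`, `E` of level
`M'q²`), `B₁ ⊆ E₁`, `B ⊆ E` the charts (`ι B₁ ⊆ B`), `𝔫` a closed point of `B`, `𝔫₁` its image.

* `comap_valuation_lt_one_iff`, `comap_valuation_eq_one_iff` : valuations along `W.comap ι = W₁`;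
* `mem_locMax_of_valuation_lt_one` : an element of the local ring at `𝔫` which is small on a sheet
  through `𝔫` lies in the maximal ideal;
* `map_mem_locRing`, `map_mem_locMax` : `ι` maps the local ring at `𝔫₁` to the local ring at `𝔫`;
* `node_rel` : **the node relation**: if `y ∈ O_{𝔫₁}` is congruent to `c · a · b ^ k` on the
  sheet `W₁` below `W`, `W'` (`a`, `b` representing the local units `w`, `w'` on `W`, `W'`) and
  `ι y` is congruent to `c'' · w'' ^ l` on the sheet `W''`, then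
  `c · w · w' ^ k ≡ c'' · w'' ^ l` modulo `𝔫`.
-/
import Mathlib
import Fermat.Agent.S35.NODEFROB_helper5_Frob

set_option autoImplicit false
set_option linter.unusedSectionVars false
set_option linter.style.haveILetI false

namespace Fermat.Agent.S36

open Fermat.Agent.SS

section Comap

variable {E₁ E : Type*} [Field E₁] [Field E]

/-- `v(z) < 1` iff `z⁻¹` is not in the valuation subring. -/
theorem val_lt_one_iff_inv_notMem_h5 {F : Type*} [Field F] (V : ValuationSubring F) {z : F}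
    (hz : z ≠ 0) : V.valuation z < 1 ↔ z⁻¹ ∉ V := by
  rw [← ValuationSubring.valuation_le_one_iff, map_inv₀, not_le]
  have h0 : V.valuation z ≠ 0 := (Valuation.ne_zero_iff _).mpr hz
  exact (one_lt_inv₀ (zero_lt_iff.mpr h0)).symm

/-- valuations `< 1` along `W.comap ι = W₁`. -/
theorem comap_valuation_lt_one_iff (ι : E₁ →+* E) {W : ValuationSubring E}
    {W₁ : ValuationSubring E₁} (h : W.comap ι = W₁) (x : E₁) :
    W.valuation (ι x) < 1 ↔ W₁.valuation x < 1 := by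
  by_cases hx : x = 0
  · rw [hx, map_zero, map_zero, map_zero]
    exact ⟨fun _ => zero_lt_one, fun _ => zero_lt_one⟩
  have hx' : ι x ≠ 0 := (_root_.map_ne_zero ι).mpr hx
  rw [val_lt_one_iff_inv_notMem_h5 W hx', val_lt_one_iff_inv_notMem_h5 W₁ hx, ← h,
    ValuationSubring.mem_comap, map_inv₀]

/-- valuations `≤ 1` along `W.comap ι = W₁`. -/
theorem comap_valuation_le_one_iff (ι : E₁ →+* E) {W : ValuationSubring E}
    {W₁ : ValuationSubring E₁} (h : W.comap ι = W₁) (x : E₁) :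
    W.valuation (ι x) ≤ 1 ↔ W₁.valuation x ≤ 1 := by
  rw [ValuationSubring.valuation_le_one_iff, ValuationSubring.valuation_le_one_iff, ← h,
    ValuationSubring.mem_comap]

/-- valuations `= 1` along `W.comap ι = W₁`. -/
theorem comap_valuation_eq_one_iff (ι : E₁ →+* E) {W : ValuationSubring E}
    {W₁ : ValuationSubring E₁} (h : W.comap ι = W₁) (x : E₁) :
    W.valuation (ι x) = 1 ↔ W₁.valuation x = 1 := by
  have h1 := comap_valuation_le_one_iff ι h x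
  have h2 := comap_valuation_lt_one_iff ι h x
  constructor
  · intro hx
    exact le_antisymm (h1.mp hx.le) (not_lt.mp (fun hlt => absurd (h2.mpr hlt) (by rw [hx]; exact lt_irrefl _)))
  · intro hx
    exact le_antisymm (h1.mpr hx.le) (not_lt.mp (fun hlt => absurd (h2.mp hlt) (by rw [hx]; exact lt_irrefl _)))

end Comap

section Loc

variable {R : Type*} [CommRing R] {E : Type*} [Field E] [Algebra R E]

/-- an element of the local ring at `𝔪` which is small on a sheet through `𝔪` lies in the maximal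
ideal of the local ring. -/
theorem mem_locMax_of_valuation_lt_one {B : Subalgebra R E} {W : ValuationSubring E}
    (hBW : ∀ b ∈ B, b ∈ W) {𝔭 : Ideal ↥B}
    (h𝔭 : ∀ b : ↥B, b ∈ 𝔭 ↔ W.valuation (b : E) < 1)
    {𝔪 : Ideal ↥B} [h𝔪 : 𝔪.IsPrime] (hle : 𝔭 ≤ 𝔪) {e : E} (he : e ∈ locRing B 𝔪)
    (hval : W.valuation e < 1) : e ∈ locMax B 𝔪 := by
  obtain ⟨r, s, hs, hrs⟩ := he
  have hvs : W.valuation (s : E) = 1 := valuation_eq_one_of_notMem hBW h𝔭 (fun h => hs (hle h))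
  have hr : r ∈ 𝔭 := by
    rw [h𝔭, ← hrs, map_mul, hvs, mul_one]
    exact hval
  exact ⟨r, s, hle hr, hs, hrs⟩

/-- a difference of an element of the local ring and an element congruent to it on a sheet. -/
theorem sub_mem_locMax_of_valuation_lt_one {B : Subalgebra R E} {W : ValuationSubring E}
    (hBW : ∀ b ∈ B, b ∈ W) {𝔭 : Ideal ↥B}
    (h𝔭 : ∀ b : ↥B, b ∈ 𝔭 ↔ W.valuation (b : E) < 1)
    {𝔪 : Ideal ↥B} [h𝔪 : 𝔪.IsPrime] (hle : 𝔭 ≤ 𝔪) {e f : E} (he : e ∈ locRing B 𝔪)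
    (hf : f ∈ locRing B 𝔪) (hval : W.valuation (e - f) < 1) : e - f ∈ locMax B 𝔪 :=
  mem_locMax_of_valuation_lt_one hBW h𝔭 hle ((locRing B 𝔪).sub_mem he hf) hval

end Loc

section Map

variable {R : Type*} [CommRing R] {E₁ E : Type*} [Field E₁] [Field E] [Algebra R E₁] [Algebra R E]
  (ι : E₁ →+* E) {B₁ : Subalgebra R E₁} {B : Subalgebra R E} (hB : ∀ b ∈ B₁, ι b ∈ B)
  {𝔫 : Ideal ↥B} [h𝔫 : 𝔫.IsPrime] {𝔫₁ : Ideal ↥B₁} [h𝔫₁p : 𝔫₁.IsPrime]
  (h𝔫₁ : ∀ b : ↥B₁, b ∈ 𝔫₁ ↔ (⟨ι b, hB b b.2⟩ : ↥B) ∈ 𝔫)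

include h𝔫₁ in
/-- `ι` maps the local ring at the image point to the local ring at the point. -/
theorem map_mem_locRing {x : E₁} (hx : x ∈ locRing B₁ 𝔫₁) : ι x ∈ locRing B 𝔫 := by
  obtain ⟨r, s, hs, hrs⟩ := hx
  refine ⟨⟨ι r, hB r r.2⟩, ⟨ι s, hB s s.2⟩, fun h => hs ((h𝔫₁ s).mpr h), ?_⟩
  show ι x * ι (s : E₁) = ι (r : E₁)
  rw [← map_mul, hrs]

include h𝔫₁ in
/-- `ι` maps the maximal ideal at the image point to the maximal ideal at the point. -/
theorem map_mem_locMax {x : E₁} (hx : x ∈ locMax B₁ 𝔫₁) : ι x ∈ locMax B 𝔫 := by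
  obtain ⟨r, s, hr, hs, hrs⟩ := hx
  refine ⟨⟨ι r, hB r r.2⟩, ⟨ι s, hB s s.2⟩, (h𝔫₁ r).mp hr, fun h => hs ((h𝔫₁ s).mpr h), ?_⟩
  show ι x * ι (s : E₁) = ι (r : E₁)
  rw [← map_mul, hrs]

end Map

section NodeRel

variable {R : Type*} [CommRing R] {E₁ E : Type*} [Field E₁] [Field E] [Algebra R E₁] [Algebra R E]
  (ι : E₁ →+* E) (hι : ∀ r : R, ι (algebraMap R E₁ r) = algebraMap R E r)
  {B₁ : Subalgebra R E₁} {B : Subalgebra R E} (hB : ∀ b ∈ B₁, ι b ∈ B)
  {𝔫 : Ideal ↥B} [h𝔫 : 𝔫.IsPrime] {𝔫₁ : Ideal ↥B₁} [h𝔫₁p : 𝔫₁.IsPrime]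
  (h𝔫₁ : ∀ b : ↥B₁, b ∈ 𝔫₁ ↔ (⟨ι b, hB b b.2⟩ : ↥B) ∈ 𝔫)

include hι h𝔫₁ in
/-- **the node relation.**  `W`, `W'` two sheets of `E` through `𝔫` lying over the same sheet `W₁`
of `E₁`, `W''` a third sheet through `𝔫`; `w`, `w'`, `w''` elements of the local ring at `𝔫`.
If `y ∈ O_{𝔫₁}` is congruent on `W₁` to `c · a · b ^ k` with `a ≡ w` on `W`, `b ≡ w'` on `W'`,
and `ι y` is congruent on `W''` to `c'' · w'' ^ l`, then `c · w · w' ^ k ≡ c'' · w'' ^ l` modulo the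
maximal ideal at `𝔫`.  (`hbr'`: the branch of `B` along `W'` at `𝔫` is the branch of `B₁` along
`W₁` at `𝔫₁`.) -/
theorem node_rel {W W' W'' : ValuationSubring E} {W₁ : ValuationSubring E₁}
    (hc : W.comap ι = W₁) (hc' : W'.comap ι = W₁)
    (hBW : ∀ b ∈ B, b ∈ W) (hBW' : ∀ b ∈ B, b ∈ W') (hBW'' : ∀ b ∈ B, b ∈ W'')
    {𝔭 𝔭' 𝔭'' : Ideal ↥B}
    (h𝔭 : ∀ b : ↥B, b ∈ 𝔭 ↔ W.valuation (b : E) < 1)
    (h𝔭' : ∀ b : ↥B, b ∈ 𝔭' ↔ W'.valuation (b : E) < 1)
    (h𝔭'' : ∀ b : ↥B, b ∈ 𝔭'' ↔ W''.valuation (b : E) < 1)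
    (hle : 𝔭 ≤ 𝔫) (hle' : 𝔭' ≤ 𝔫) (hle'' : 𝔭'' ≤ 𝔫)
    (hbr' : ∀ x ∈ locRing B 𝔫, ∃ x' ∈ locRing B₁ 𝔫₁, W'.valuation (x - ι x') < 1)
    {w w' w'' : E} (hw : w ∈ locRing B 𝔫) (hw' : w' ∈ locRing B 𝔫) (hw'' : w'' ∈ locRing B 𝔫)
    {y a b : E₁} (hy : y ∈ locRing B₁ 𝔫₁) (c c'' : R) (k l : ℕ)
    (ha : W.valuation (w - ι a) < 1) (hb : W'.valuation (w' - ι b) < 1)
    (h1 : W₁.valuation (y - algebraMap R E₁ c * a * b ^ k) < 1)
    (h2 : W''.valuation (ι y - algebraMap R E c'' * w'' ^ l) < 1) :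
    algebraMap R E c * w * w' ^ k - algebraMap R E c'' * w'' ^ l ∈ locMax B 𝔫 := by
  obtain ⟨b', hb'loc, hb'⟩ := hbr' w' hw'
  have hιb' : ι b' ∈ locRing B 𝔫 := map_mem_locRing ι hB h𝔫₁ hb'loc
  have hιy : ι y ∈ locRing B 𝔫 := map_mem_locRing ι hB h𝔫₁ hy
  have hcE : algebraMap R E c ∈ locRing B 𝔫 := (locRing B 𝔫).algebraMap_mem c
  have hc''E : algebraMap R E c'' ∈ locRing B 𝔫 := (locRing B 𝔫).algebraMap_mem c''
  -- valuations `≤ 1` on `W`
  have vle : ∀ e ∈ locRing B 𝔫, W.valuation e ≤ 1 := fun e he =>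
    valuation_le_one_of_mem_locRing hBW h𝔭 hle he
  -- `ι b ≡ ι b'` on `W'`, hence on `W₁`, hence on `W`
  have hbb' : W'.valuation (ι (b - b')) < 1 := by
    have : ι (b - b') = (w' - ι b') - (w' - ι b) := by rw [map_sub]; ring
    rw [this]
    exact lt_of_le_of_lt (Valuation.map_sub _ _ _) (max_lt hb' hb)
  have hbb'W : W.valuation (ι b - ι b') < 1 := by
    rw [← map_sub]
    exact (comap_valuation_lt_one_iff ι hc _).mpr ((comap_valuation_lt_one_iff ι hc' _).mp hbb')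
  have hvb' : W.valuation (ι b') ≤ 1 := vle _ hιb'
  have hvb : W.valuation (ι b) ≤ 1 := by
    have : ι b = ι b' + (ι b - ι b') := by ring
    rw [this]
    exact le_trans (Valuation.map_add _ _ _) (max_le hvb' hbb'W.le)
  have hvw : W.valuation w ≤ 1 := vle _ hw
  have hvc : W.valuation (algebraMap R E c) ≤ 1 := vle _ hcE
  -- `ι y ≡ c · w · (ι b') ^ k` on `W`
  have h1W : W.valuation (ι y - algebraMap R E c * ι a * ι b ^ k) < 1 := by
    have := (comap_valuation_lt_one_iff ι hc (y - algebraMap R E₁ c * a * b ^ k)).mpr h1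
    rwa [map_sub, map_mul, map_mul, map_pow, hι] at this
  have hpow : W.valuation (ι b ^ k - ι b' ^ k) < 1 :=
    valuation_pow_sub_pow_lt_one W hvb hvb' hbb'W k
  have hkey : W.valuation (ι y - algebraMap R E c * w * ι b' ^ k) < 1 := by
    have : ι y - algebraMap R E c * w * ι b' ^ k =
        (ι y - algebraMap R E c * ι a * ι b ^ k) +
          algebraMap R E c * (w * (ι b ^ k - ι b' ^ k) - (w - ι a) * ι b ^ k) := by ring
    rw [this]
    refine lt_of_le_of_lt (Valuation.map_add _ _ _) (max_lt h1W ?_)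
    rw [map_mul]
    refine lt_of_le_of_lt (mul_le_of_le_one_left' hvc) ?_
    refine lt_of_le_of_lt (Valuation.map_sub _ _ _) (max_lt ?_ ?_)
    · rw [map_mul]
      exact lt_of_le_of_lt (mul_le_of_le_one_left' hvw) hpow
    · rw [map_mul, map_pow]
      exact lt_of_le_of_lt (mul_le_of_le_one_right' (pow_le_one' hvb k)) ha
  -- the three congruences modulo the maximal ideal
  have e1 : ι y - algebraMap R E c * w * ι b' ^ k ∈ locMax B 𝔫 :=
    sub_mem_locMax_of_valuation_lt_one hBW h𝔭 hle hιy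
      ((locRing B 𝔫).mul_mem ((locRing B 𝔫).mul_mem hcE hw) (pow_mem hιb' k)) hkey
  have e2 : w' - ι b' ∈ locMax B 𝔫 :=
    sub_mem_locMax_of_valuation_lt_one hBW' h𝔭' hle' hw' hιb' hb'
  have e3 : ι y - algebraMap R E c'' * w'' ^ l ∈ locMax B 𝔫 :=
    sub_mem_locMax_of_valuation_lt_one hBW'' h𝔭'' hle'' hιy
      ((locRing B 𝔫).mul_mem hc''E (pow_mem hw'' l)) h2
  have e4 : w' ^ k - ι b' ^ k ∈ locMax B 𝔫 := pow_sub_pow_mem_locMax hw' hιb' e2 k
  have : algebraMap R E c * w * w' ^ k - algebraMap R E c'' * w'' ^ l =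
      (algebraMap R E c * w) * (w' ^ k - ι b' ^ k) +
        ((ι y - algebraMap R E c'' * w'' ^ l) - (ι y - algebraMap R E c * w * ι b' ^ k)) := by
    ring
  rw [this]
  exact add_mem_locMax (mul_mem_locMax ((locRing B 𝔫).mul_mem hcE hw) e4) (sub_mem_locMax e3 e1)

end NodeRel

end Fermat.Agent.S36
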