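/-
S36 [CUSPS36] — helper2 — part 4: **the cusps of the chart `j₂⁻¹` of the three-sheeted level**
(`hcusp` of helper3's `points36_of_local`), abstract form.

Levels `M'` (good reduction, `VM`) → `M'q` (two sheets `W10`, `W01`; `SSModel`) → `M'q²` (three
sheets `W 0 = W20`, `W 1 = W11`, `W 2 = W02`; `α β : E₁ →+* E`).  At a closed point `𝔫` of the chart
`j₂⁻¹` of level `M'q²` containing `π` and the coordinate `j₂⁻¹`:
* exactly one sheet passes through `𝔫` (helper1's `not_crossing_of_cusp_three`);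
* that sheet has a branch uniformizer at `𝔫` (helper9's SINF-EMB along `α ∘ A`, resp. `β ∘ B`, from
  the good reduction of level `M'`; regularity of the level-`M'` coordinate by helper1's CUSPREG);
* its ideal is locally principal at `𝔫`: generated by `π` on `W20`, `W02` (`e = 1`), and by
  `j₂₂ / j₂ - 1` on `W11` (`cusps36_middle_local_equation`; hypothesis `hDkey`).
-/
import Mathlib
import Fermat.Agent.SS.SINFEMB_helper9_Chart
import Fermat.Agent.SS.CUSPREG_helper1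
import Fermat.Agent.SS.EXPORT_helper4_Model
import Fermat.Agent.S36.POINTS36_helper3_Chart
import Fermat.Agent.S36.CUSPS36_helper2_Mid

set_option autoImplicit false
set_option linter.unusedSectionVars false
set_option linter.style.haveILetI false

namespace Fermat.Agent.S36

open Fermat.Agent.JA Fermat.Agent.SS Polynomial

section Main

variable {R : Type*} [CommRing R] [IsDomain R] [IsDiscreteValuationRing R] [CharZero R]
  {K₁ : Type*} [Field K₁] [Algebra R K₁] [IsFractionRing R K₁]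
  {KM : Type*} [Field KM] [Algebra K₁ KM] [Algebra R KM] [IsScalarTower R K₁ KM]
  {EM : Type*} [Field EM] [Algebra KM EM] [Algebra K₁ EM] [IsScalarTower K₁ KM EM] [Algebra R EM]
  [IsScalarTower R KM EM]
  {KN₁ : Type*} [Field KN₁] [Algebra K₁ KN₁] [Algebra R KN₁] [IsScalarTower R K₁ KN₁]
  {E₁ : Type*} [Field E₁] [Algebra KN₁ E₁] [Algebra K₁ E₁] [IsScalarTower K₁ KN₁ E₁]
  [Algebra R E₁] [IsScalarTower R KN₁ E₁] [FiniteDimensional KN₁ E₁]
  {KN₂ : Type*} [Field KN₂] [Algebra K₁ KN₂] [Algebra R KN₂] [IsScalarTower R K₁ KN₂]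
  {E : Type*} [Field E] [Algebra KN₂ E] [Algebra R E] [IsScalarTower R KN₂ E]
  [FiniteDimensional KN₂ E]
  {π : R} {q n : ℕ} {S : Finset R} {t : KM} {jM : EM} {j₁ : KN₁} {A B : EM →+* E₁}
  {VM : ValuationSubring EM} {W10 W01 : ValuationSubring E₁} {j₂ : KN₂}
  {W : Fin 3 → ValuationSubring E}

/-- the inverse of the coordinate lies in a Gauss valuation ring. -/
theorem cusps36_coord_inv_mem_of_isGaussAt {K : Type*} [Field K] [Algebra R K] {π : R}
    (hπ : Irreducible π) {u : K} {𝒱 : ValuationSubring K} (hG : IsGaussAt R π u 𝒱) :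
    u⁻¹ ∈ 𝒱 := by
  have h := hG.2.2 X (by
    intro hdvd
    rw [C_dvd_iff_dvd_coeff] at hdvd
    have h1 := hdvd 1
    rw [coeff_X_one] at h1
    exact hπ.not_isUnit (isUnit_of_dvd_one h1))
  rwa [aeval_X] at h

/-- `jM⁻¹` is integral for the Gauss valuation of level `M`. -/
theorem cusps36_jM_inv_mem (h : SSModel K₁ π q n S t jM j₁ A B VM W10 W01)
    (hπ : Irreducible π) : jM⁻¹ ∈ VM := by
  rw [← h.comap_A_inf]
  show A jM⁻¹ ∈ W10
  rw [map_inv₀, h.A_j, ← map_inv₀]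
  exact cusps36_coord_inv_mem_of_isGaussAt hπ h.two.gauss_inf

set_option maxHeartbeats 3200000 in
/-- **`hcusp`: the cusps of the chart `j₂⁻¹` of the three-sheeted level.** -/
theorem cusps36_hcusp [IsAlgClosed (IsLocalRing.ResidueField R)]
    (h : SSModel K₁ π q n S t jM j₁ A B VM W10 W01) (hπ : Irreducible π)
    (hj₂ : Transcendental K₁ j₂) (hKj₂ : IntermediateField.adjoin K₁ {j₂} = ⊤)
    (fam' : IsSheetFamily π j₂⁻¹ W) (α β : E₁ →+* E)
    (hαR : ∀ r : R, α (algebraMap R E₁ r) = algebraMap R E r)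
    (hβR : ∀ r : R, β (algebraMap R E₁ r) = algebraMap R E r)
    (hαj : α (algebraMap KN₁ E₁ j₁) = algebraMap KN₂ E j₂)
    (hαβ : α (B jM) = β (A jM))
    (hα0 : (W 0).comap α = W10) (hα1 : (W 1).comap α = W10) (hα2 : (W 2).comap α = W01)
    (hβ0 : (W 0).comap β = W10) (hβ1 : (W 1).comap β = W01) (hβ2 : (W 2).comap β = W01)
    (hresα0 : ∀ x ∈ W 0, ∃ a ∈ W10, (W 0).valuation (x - α a) < 1)
    (hresα1 : ∀ x ∈ W 1, ∃ a ∈ W10, (W 1).valuation (x - α a) < 1)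
    (hresβ2 : ∀ x ∈ W 2, ∃ a ∈ W01, (W 2).valuation (x - β a) < 1)
    (he0 : ∀ x : E, (W 0).valuation x < 1 → x * (algebraMap R E π)⁻¹ ∈ W 0)
    (he2 : ∀ x : E, (W 2).valuation x < 1 → x * (algebraMap R E π)⁻¹ ∈ W 2)
    (hunif1 : ∀ x : E, (W 1).valuation x < 1 →
      x * (β (B jM) - algebraMap KN₂ E j₂)⁻¹ ∈ W 1)
    (hδval : (W 1).valuation ((β (B jM) - algebraMap KN₂ E j₂) ^ (q - 1)) =
      (W 1).valuation (algebraMap R E π))
    (hjint : IsIntegral ↥(Algebra.adjoin R {B jM}) (A jM))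
    {cq : R} (hcq : IsUnit cq) (hqπ : ((q : ℕ) : R) = π * cq)
    (hDkey : ∀ V : ValuationSubring E, (∀ r : R, algebraMap R E r ∈ V) →
      (algebraMap R E π)⁻¹ ∈ V → algebraMap KN₂ E j₂ ∉ V →
      α (B jM) * (algebraMap KN₂ E j₂ ^ q)⁻¹ ∈ V →
      (α (B jM) * (algebraMap KN₂ E j₂ ^ q)⁻¹)⁻¹ ∈ V →
      α (B jM) * (β (B jM) ^ q)⁻¹ ∈ V → (α (B jM) * (β (B jM) ^ q)⁻¹)⁻¹ ∈ V →
      (∀ m t : E, V.valuation t < 1 → (∀ N : ℕ, V.valuation m ≤ V.valuation t ^ N) → m = 0) →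
      V.valuation (∑ i ∈ Finset.range q, (β (B jM) * (algebraMap KN₂ E j₂)⁻¹) ^ i) < 1) :
    ∀ (𝔫 : Ideal ↥(chartOne R E j₂⁻¹)) (_ : 𝔫.IsMaximal),
      algebraMap R ↥(chartOne R E j₂⁻¹) π ∈ 𝔫 →
      (⟨algebraMap KN₂ E j₂⁻¹, algebraMap_coord_mem_chartOne j₂⁻¹⟩ : ↥(chartOne R E j₂⁻¹)) ∈ 𝔫 →
      ∃ (l₀ : Fin 3) (z v : ↥(chartOne R E j₂⁻¹)),
        sheetIdeal j₂⁻¹ (W l₀) (fam'.chart_le l₀) ≤ 𝔫 ∧
        (∀ l, sheetIdeal j₂⁻¹ (W l) (fam'.chart_le l) ≤ 𝔫 → l = l₀) ∧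
        z ∈ sheetIdeal j₂⁻¹ (W l₀) (fam'.chart_le l₀) ∧ z ≠ 0 ∧
        (∀ w ∈ sheetIdeal j₂⁻¹ (W l₀) (fam'.chart_le l₀),
          ∃ s : ↥(chartOne R E j₂⁻¹), s ∉ 𝔫 ∧ z ∣ s * w) ∧
        IsBranchUniformizer (sheetIdeal j₂⁻¹ (W l₀) (fam'.chart_le l₀)) 𝔫 v := by
  intro 𝔫 h𝔫 hπ𝔫 hτ𝔫
  haveI := h𝔫
  haveI h𝔫p : 𝔫.IsPrime := h𝔫.isPrime
  have hq := h.q_prime
  have hq2 : 2 ≤ q := hq.two_le
  have hτ := transcendental_inv_of_transcendental hj₂
  have hKτ := adjoin_inv_eq_top hKj₂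
  have hj0 : j₂ ≠ 0 := by
    rintro rfl
    exact hj₂ isAlgebraic_zero
  set J0 : E := algebraMap KN₂ E j₂ with hJ0
  set J1 : E := α (B jM) with hJ1
  set J2 : E := β (B jM) with hJ2
  have hJ00 : J0 ≠ 0 := by rw [hJ0, Ne, map_eq_zero]; exact hj0
  have hAj : α (A jM) = J0 := by rw [h.A_j, hαj]
  have hJ1β : β (A jM) = J1 := hαβ.symm
  have hxJ : algebraMap KN₂ E j₂⁻¹ = J0⁻¹ := by rw [map_inv₀]
  have hπE : algebraMap R E π ≠ 0 := algebraMap_pi_ne_zero (K₁ := K₁) (K := KN₂) hπ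
  -- memberships in the sheets
  have hJ0iW : ∀ i, J0⁻¹ ∈ W i := by
    intro i
    rw [← hxJ]
    exact fam'.chart_le i _ (algebraMap_coord_mem_chartOne j₂⁻¹)
  have hJ0W : ∀ i, J0 ∈ W i := by
    intro i
    have h1 := cusps36_coord_inv_mem_of_isGaussAt hπ (fam'.gauss i)
    rw [inv_inv] at h1
    exact h1
  have hjMi : jM⁻¹ ∈ VM := cusps36_jM_inv_mem h hπ
  have hBj10 : B jM ∈ W10 := h.jq_mem_inf
  have hBj01 : B jM ∈ W01 := h.jq_mem_zero
  have hBji10 : (B jM)⁻¹ ∈ W10 := by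
    have : jM⁻¹ ∈ W10.comap B := by rw [h.comap_B_inf]; exact hjMi
    rw [ValuationSubring.mem_comap, map_inv₀] at this
    exact this
  have hBji01 : (B jM)⁻¹ ∈ W01 := by
    have : jM⁻¹ ∈ W01.comap B := by rw [h.comap_B_zero]; exact hjMi
    rw [ValuationSubring.mem_comap, map_inv₀] at this
    exact this
  have hcomα : ∀ i, (W i).comap α = W10 ∨ (W i).comap α = W01 := by
    intro i
    fin_cases i
    · exact Or.inl hα0
    · exact Or.inl hα1
    · exact Or.inr hα2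
  have hcomβ : ∀ i, (W i).comap β = W10 ∨ (W i).comap β = W01 := by
    intro i
    fin_cases i
    · exact Or.inl hβ0
    · exact Or.inr hβ1
    · exact Or.inr hβ2
  have hmemα : ∀ i (x : E₁), x ∈ W10 → x ∈ W01 → α x ∈ W i := by
    intro i x h1 h2
    rcases hcomα i with hc | hc
    · have : x ∈ (W i).comap α := by rw [hc]; exact h1
      exact this
    · have : x ∈ (W i).comap α := by rw [hc]; exact h2
      exact this
  have hmemβ : ∀ i (x : E₁), x ∈ W10 → x ∈ W01 → β x ∈ W i := by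
    intro i x h1 h2
    rcases hcomβ i with hc | hc
    · have : x ∈ (W i).comap β := by rw [hc]; exact h1
      exact this
    · have : x ∈ (W i).comap β := by rw [hc]; exact h2
      exact this
  have hJ1W : ∀ i, J1 ∈ W i := fun i => hmemα i _ hBj10 hBj01
  have hJ1iW : ∀ i, J1⁻¹ ∈ W i := by
    intro i
    rw [hJ1, ← map_inv₀]
    exact hmemα i _ hBji10 hBji01
  have hJ2W : ∀ i, J2 ∈ W i := fun i => hmemβ i _ hBj10 hBj01
  have hJ2iW : ∀ i, J2⁻¹ ∈ W i := by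
    intro i
    rw [hJ2, ← map_inv₀]
    exact hmemβ i _ hBji10 hBji01
  -- the cusp conditions through the comaps
  have hcompR : ∀ (ι : E₁ →+* E), (∀ r : R, ι (algebraMap R E₁ r) = algebraMap R E r) →
      ∀ V : ValuationSubring E, (∀ r : R, algebraMap R E r ∈ V) →
      ∀ r : R, algebraMap R E₁ r ∈ V.comap ι := by
    intro ι hι V hR r
    rw [ValuationSubring.mem_comap, hι]
    exact hR r
  have hcompπ : ∀ (ι : E₁ →+* E), (∀ r : R, ι (algebraMap R E₁ r) = algebraMap R E r) →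
      ∀ V : ValuationSubring E, (algebraMap R E π)⁻¹ ∈ V →
      (algebraMap R E₁ π)⁻¹ ∈ V.comap ι := by
    intro ι hι V hπV
    rw [ValuationSubring.mem_comap, map_inv₀, hι]
    exact hπV
  have c1 : ∀ V : ValuationSubring E, (∀ r : R, algebraMap R E r ∈ V) →
      (algebraMap R E π)⁻¹ ∈ V → J0 ∉ V → J1 * (J0 ^ q)⁻¹ ∈ V := by
    intro V hR hπV hJ
    have h1 := (h.cuspord (V.comap α) (hcompR α hαR V hR) (hcompπ α hαR V hπV)
      (by rw [ValuationSubring.mem_comap, hAj]; exact hJ)).1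
    rw [ValuationSubring.mem_comap, map_mul, map_inv₀, map_pow, hAj] at h1
    exact h1
  have c1' : ∀ V : ValuationSubring E, (∀ r : R, algebraMap R E r ∈ V) →
      (algebraMap R E π)⁻¹ ∈ V → J1 ∉ V → J0 ∉ V := by
    intro V hR hπV hJ
    have h1 := h.cuspord' (V.comap α) (hcompR α hαR V hR) (hcompπ α hαR V hπV)
      (by rw [ValuationSubring.mem_comap]; exact hJ)
    rw [ValuationSubring.mem_comap, hAj] at h1
    exact h1
  have c2 : ∀ V : ValuationSubring E, (∀ r : R, algebraMap R E r ∈ V) →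
      (algebraMap R E π)⁻¹ ∈ V → J1 ∉ V → J2 * (J1 ^ q)⁻¹ ∈ V := by
    intro V hR hπV hJ
    have h1 := (h.cuspord (V.comap β) (hcompR β hβR V hR) (hcompπ β hβR V hπV)
      (by rw [ValuationSubring.mem_comap, hJ1β]; exact hJ)).1
    rw [ValuationSubring.mem_comap, map_mul, map_inv₀, map_pow, hJ1β] at h1
    exact h1
  have c2' : ∀ V : ValuationSubring E, (∀ r : R, algebraMap R E r ∈ V) →
      (algebraMap R E π)⁻¹ ∈ V → J2 ∉ V → J1 ∉ V := by
    intro V hR hπV hJ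
    have h1 := h.cuspord' (V.comap β) (hcompR β hβR V hR) (hcompπ β hβR V hπV)
      (by rw [ValuationSubring.mem_comap]; exact hJ)
    rw [ValuationSubring.mem_comap, hJ1β] at h1
    exact h1
  -- `c3`: `J2 ∉ V → J1 * (J2 ^ q)⁻¹ ∈ V`
  have c3 : ∀ V : ValuationSubring E, (∀ r : R, algebraMap R E r ∈ V) →
      (algebraMap R E π)⁻¹ ∈ V → J2 ∉ V → J1 * (J2 ^ q)⁻¹ ∈ V := by
    intro V hR hπV hJ
    have hA : A jM ∉ V.comap β := h.cuspord' (V.comap β) (hcompR β hβR V hR)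
      (hcompπ β hβR V hπV) (by rw [ValuationSubring.mem_comap]; exact hJ)
    have h1 := (h.cuspord (V.comap β) (hcompR β hβR V hR) (hcompπ β hβR V hπV) hA).2.1
    rw [ValuationSubring.mem_comap, map_mul, map_inv₀, map_pow, hJ1β] at h1
    exact h1
  -- integrality: `J2 ∈ V → J1 ∈ V → J0 ∈ V`
  have hint_α : ∀ V : ValuationSubring E, (∀ r : R, algebraMap R E r ∈ V) → J1 ∈ V → J0 ∈ V := by
    intro V hR hJ
    have h1 : A jM ∈ V.comap α :=
      mem_valuationSubring_of_isIntegral_adjoin_singleton (V.comap α) (hcompR α hαR V hR)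
        (by rw [ValuationSubring.mem_comap]; exact hJ) hjint
    rw [ValuationSubring.mem_comap, hAj] at h1
    exact h1
  have hint_β : ∀ V : ValuationSubring E, (∀ r : R, algebraMap R E r ∈ V) → J2 ∈ V → J1 ∈ V := by
    intro V hR hJ
    have h1 : A jM ∈ V.comap β :=
      mem_valuationSubring_of_isIntegral_adjoin_singleton (V.comap β) (hcompR β hβR V hR)
        (by rw [ValuationSubring.mem_comap]; exact hJ) hjint
    rw [ValuationSubring.mem_comap, hJ1β] at h1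
    exact h1
  -- the Kronecker congruences
  have ka1 : (W 0).valuation (J1 - J0 ^ q) < 1 := by
    have := (comap_valuation_lt_one_iff α hα0 (B jM - A jM ^ q)).mpr h.kron_j_inf
    rwa [map_sub, map_pow, hAj] at this
  have ka2 : (W 0).valuation (J2 - J1 ^ q) < 1 := by
    have := (comap_valuation_lt_one_iff β hβ0 (B jM - A jM ^ q)).mpr h.kron_j_inf
    rwa [map_sub, map_pow, hJ1β] at this
  have kb1 : (W 1).valuation (J1 - J0 ^ q) < 1 := by
    have := (comap_valuation_lt_one_iff α hα1 (B jM - A jM ^ q)).mpr h.kron_j_inf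
    rwa [map_sub, map_pow, hAj] at this
  have kb2 : (W 1).valuation (J1 - J2 ^ q) < 1 := by
    have := (comap_valuation_lt_one_iff β hβ1 (A jM - B jM ^ q)).mpr h.kron_j_zero
    rwa [map_sub, map_pow, hJ1β] at this
  have kc1 : (W 2).valuation (J0 - J1 ^ q) < 1 := by
    have := (comap_valuation_lt_one_iff α hα2 (A jM - B jM ^ q)).mpr h.kron_j_zero
    rwa [map_sub, map_pow, hAj] at this
  -- exactly one sheet
  obtain ⟨nac, nbc, nab⟩ := not_crossing_of_cusp_three fam' hπ hj₂ hKj₂ hq2 J1 J2 hJ1W hJ1iW hJ2W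
    c1 c1' c2 c2' 0 1 2 ka1 ka2 kb1 kb2 kc1 𝔫 hτ𝔫
  obtain ⟨l₀, hle⟩ := fam'.exists_sheet_le_of_mem hπ hτ hKτ 𝔫 hπ𝔫
  have honly : ∀ l, sheetIdeal j₂⁻¹ (W l) (fam'.chart_le l) ≤ 𝔫 → l = l₀ := by
    intro l hl
    fin_cases l <;> fin_cases l₀
    · rfl
    · exact (nab hl hle).elim
    · exact (nac hl hle).elim
    · exact (nab hle hl).elim
    · rfl
    · exact (nbc hl hle).elim
    · exact (nac hle hl).elim
    · exact (nbc hle hl).elim
    · rfl
  -- the local parameters at the cusp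
  have hJ0M : J0⁻¹ ∈ locMax (chartOne R E j₂⁻¹) 𝔫 := by
    have h4 := (coe_mem_locMax_iff (B := chartOne R E j₂⁻¹) (𝔪 := 𝔫) _).mpr hτ𝔫
    change algebraMap KN₂ E j₂⁻¹ ∈ _ at h4
    rwa [hxJ] at h4
  have hJ10 : J1 ≠ 0 := by
    intro h0
    have h1 := hJ1iW 0
    have h2 := hJ1W 0
    have hB0 : B jM = 0 := by
      rw [hJ1] at h0
      exact (map_eq_zero α).mp h0
    have hj : jM = 0 := (map_eq_zero B).mp hB0
    have hA0 : A jM = 0 := by rw [hj, map_zero]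
    rw [hA0, map_zero] at hAj
    exact hJ00 hAj.symm
  have hJ20 : J2 ≠ 0 := by
    intro h0
    have hB0 : B jM = 0 := by
      rw [hJ2] at h0
      exact (map_eq_zero β).mp h0
    apply hJ10
    rw [hJ1, hB0, map_zero]
  have hJ2M : J2⁻¹ ∈ locMax (chartOne R E j₂⁻¹) 𝔫 := by
    refine mem_locMax_of_forall_valuationSubring (mem_chartOne_of_isIntegral j₂⁻¹) _
      (fun V hBV h𝔫V => ?_)
    have hRV : ∀ r : R, algebraMap R E r ∈ V := fun r =>
      hBV _ ((chartOne R E j₂⁻¹).algebraMap_mem r)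
    have h1 : V.valuation J0⁻¹ < 1 := by
      have := h𝔫V ⟨algebraMap KN₂ E j₂⁻¹, algebraMap_coord_mem_chartOne j₂⁻¹⟩ hτ𝔫
      change V.valuation (algebraMap KN₂ E j₂⁻¹) < 1 at this
      rwa [hxJ] at this
    have hJ0V : J0 ∉ V := by
      rw [val_lt_one_iff_inv_notMem_h5 V (inv_ne_zero hJ00), inv_inv] at h1
      exact h1
    have hJ2V : J2 ∉ V := fun h2 => hJ0V (hint_α V hRV (hint_β V hRV h2))
    rw [val_lt_one_iff_inv_notMem_h5 V (inv_ne_zero hJ20), inv_inv]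
    exact hJ2V
  -- regularity of the level-`M'` coordinate at the cusp
  have hιA : ∀ c : R, (α.comp A) (algebraMap R EM c) = algebraMap R E c := by
    intro c
    rw [RingHom.comp_apply, h.A_algebraMap, hαR]
  have hιB : ∀ c : R, (β.comp B) (algebraMap R EM c) = algebraMap R E c := by
    intro c
    rw [RingHom.comp_apply, h.B_algebraMap, hβR]
  -- branch uniformizer along a composite embedding
  have hbranch : ∀ (ι : EM →+* E) (_ : ∀ c : R, ι (algebraMap R EM c) = algebraMap R E c)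
      (l : Fin 3) (_ : (W l).comap ι = VM)
      (_ : ∀ x ∈ W l, ∃ a ∈ VM, (W l).valuation (x - ι a) < 1)
      (_ : sheetIdeal j₂⁻¹ (W l) (fam'.chart_le l) ≤ 𝔫)
      (_ : (ι jM)⁻¹ ∈ locMax (chartOne R E j₂⁻¹) 𝔫) (_ : ι jM ≠ 0),
      ∃ v : ↥(chartOne R E j₂⁻¹),
        IsBranchUniformizer (sheetIdeal j₂⁻¹ (W l) (fam'.chart_le l)) 𝔫 v := by
    intro ι hι l hcomap hres hlel hjι hjι0
    rcases mem_locRing_or_inv_mem_of_cusp ι hι (mem_chartOne_of_isIntegral j₂⁻¹) 𝔫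
      (algebraMap KM EM t) jM h.cusp_t hjι hjι0 with h1 | h1
    · exact GeoHyps.exists_isBranchUniformizer_sheet h.geo VM h.gauss_M hτ hKτ ι hι
        (fam'.gauss l) hcomap hres 𝔫 hlel h1
    · obtain ⟨S', hgeo'⟩ := h.geo.inv
      have hGM' := isGaussAt_inv π h.geo.irreducible.prime t _ h.gauss_M
      rw [← map_inv₀] at h1
      exact GeoHyps.exists_isBranchUniformizer_sheet hgeo' VM hGM' hτ hKτ ι hι
        (fam'.gauss l) hcomap hres 𝔫 hlel h1
  -- residue degree one along the composites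
  have hres_comp : ∀ (ι₁ : EM →+* E₁) (ι₂ : E₁ →+* E) (l : Fin 3) (W' : ValuationSubring E₁),
      (W l).comap ι₂ = W' → (∀ x ∈ W l, ∃ a ∈ W', (W l).valuation (x - ι₂ a) < 1) →
      (∀ x ∈ W', ∃ a ∈ VM, W'.valuation (x - ι₁ a) < 1) →
      ∀ x ∈ W l, ∃ a ∈ VM, (W l).valuation (x - (ι₂.comp ι₁) a) < 1 := by
    intro ι₁ ι₂ l W' hc hr2 hr1 x hx
    obtain ⟨b, hb, hxb⟩ := hr2 x hx
    obtain ⟨a, ha, hba⟩ := hr1 b hb
    refine ⟨a, ha, ?_⟩
    have h1 : (W l).valuation (ι₂ (b - ι₁ a)) < 1 :=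
      (comap_valuation_lt_one_iff ι₂ hc (b - ι₁ a)).mpr hba
    have e : x - (ι₂.comp ι₁) a = (x - ι₂ b) + ι₂ (b - ι₁ a) := by
      rw [RingHom.comp_apply, map_sub]; ring
    rw [e]
    exact lt_of_le_of_lt (Valuation.map_add _ _ _) (max_lt hxb h1)
  have hπmem : ∀ l : Fin 3, algebraMap R ↥(chartOne R E j₂⁻¹) π ∈
      sheetIdeal j₂⁻¹ (W l) (fam'.chart_le l) := by
    intro l
    rw [mem_sheetIdeal_iff]
    exact cusps36_val_pi_lt_one fam' l
  have hπ0 : algebraMap R ↥(chartOne R E j₂⁻¹) π ≠ 0 := by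
    intro h0
    apply hπE
    have := congrArg (fun b : ↥(chartOne R E j₂⁻¹) => (b : E)) h0
    exact this
  -- the three cases
  have hαA0 : (α.comp A) jM = J0 := by rw [RingHom.comp_apply, hAj]
  have hβB0 : (β.comp B) jM = J2 := by rw [RingHom.comp_apply]
  fin_cases l₀
  · -- `W20`
    obtain ⟨v, hv⟩ := hbranch (α.comp A) hιA 0
      (by rw [← ValuationSubring.comap_comap, hα0, h.comap_A_inf])
      (hres_comp A α 0 W10 hα0 hresα0 h.res_inf) hle (by rw [hαA0]; exact hJ0M)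
      (by rw [hαA0]; exact hJ00)
    exact ⟨0, algebraMap R ↥(chartOne R E j₂⁻¹) π, v, hle, honly, hπmem 0, hπ0,
      exists_dvd_pi_of_single_sheet fam' hπ hτ hKτ 𝔫 0 he0 honly, hv⟩
  · -- `W11`
    obtain ⟨v, hv⟩ := hbranch (α.comp A) hιA 1
      (by rw [← ValuationSubring.comap_comap, hα1, h.comap_A_inf])
      (hres_comp A α 1 W10 hα1 hresα1 h.res_inf) hle (by rw [hαA0]; exact hJ0M)
      (by rw [hαA0]; exact hJ00)
    -- the Kronecker units
    obtain ⟨haL, ha2, -⟩ := kron_step fam' hπ hτ hKτ 𝔫 hq2 hJ00 hJ0M (fun i _ => hJ0iW i)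
      (fun i _ => hJ1W i) c1 c1'
    obtain ⟨haM, -, -, -⟩ := ha2 1 hle kb1
    obtain ⟨hcL, hc2, -⟩ := kron_step fam' hπ hτ hKτ 𝔫 hq2 hJ20 hJ2M (fun i _ => hJ2iW i)
      (fun i _ => hJ1W i) c3
      (fun V hR _ hJ1V hJ2V => hJ1V (hint_β V hR hJ2V))
    obtain ⟨hcM, -, -, -⟩ := hc2 1 hle kb2
    have hne : J2 ≠ J0 := by
      intro heq
      rw [heq, sub_self, zero_pow (by omega), map_zero] at hδval
      exact (Valuation.ne_zero_iff _).mpr hπE hδval.symm
    obtain ⟨z, hz, hz0, hgen⟩ := cusps36_middle_local_equation fam' hπ hτ hKτ 𝔫 1 hle honly hq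
      hcq hqπ hJ00 hJ10 hJ20 hJ0M (hJ0W 1) haL haM hcL hcM hne hunif1 hδval hDkey
    exact ⟨1, z, v, hle, honly, hz, hz0, hgen, hv⟩
  · -- `W02`
    obtain ⟨v, hv⟩ := hbranch (β.comp B) hιB 2
      (by rw [← ValuationSubring.comap_comap, hβ2, h.comap_B_zero])
      (hres_comp B β 2 W01 hβ2 hresβ2 h.res_zero) hle (by rw [hβB0]; exact hJ2M)
      (by rw [hβB0]; exact hJ20)
    exact ⟨2, algebraMap R ↥(chartOne R E j₂⁻¹) π, v, hle, honly, hπmem 2, hπ0,
      exists_dvd_pi_of_single_sheet fam' hπ hτ hKτ 𝔫 2 he2 honly, hv⟩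

end Main

end Fermat.Agent.S36
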