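/-
S36 [CUSPS36-HOST], Hesse — helper8 — **the cusps of the chart `j⁻¹` of the Hesse host of level
`M · 4`** (`q = 2`): the hypothesis `hcusps` (7) of helper4's `hesGeneric_of_local`, literally,
from helper2's abstract `cusps36_hcusp`, helper7's three sheets (`hesE_isThreeSheet_delta`), the
two-sheet model of level `M · 2` (`ssModelHes`) and the D-key `cuspord2_host`.
-/
import Mathlib
import Fermat.Agent.S36.CUSPS36_helper2_Main
import Fermat.Agent.S36.CUSPORD2_helper8_Host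
import Fermat.Agent.S36.HOST36_helper7_Delta
import Fermat.Agent.S36.BASE36_helper4_Local2
import Fermat.Agent.SS.BASE_helper1_Hes

set_option autoImplicit false
set_option linter.unusedSectionVars false
set_option linter.unusedVariables false
set_option linter.style.haveILetI false
set_option synthInstance.maxHeartbeats 200000

open Polynomial ModularCurve IntermediateField
open Fermat.Agent.Igusa Fermat.Agent.JA Fermat.Agent.SS Fermat.Agent.X0N
open Fermat.Agent.S35 AlgebraicCurve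

open scoped Fermat.Agent.JA.Host

namespace Fermat.Agent.S36

noncomputable section

section Hes

variable (R : Type*) [CommRing R] [IsDomain R] [IsDiscreteValuationRing R] [CharZero R]
  [DecidableEq R]
  (K : Type*) [Field K] [Algebra R K] [IsFractionRing R K] [Algebra ℚ K] [Algebra K ℂ]
  {M : ℕ} [NeZero M] [NeZero (M * 2)] [NeZero (M * 2 * 2)] {x y : ℤ}
  {π : R}
  {R' : Type*} [CommRing R'] [IsDomain R'] [IsDiscreteValuationRing R']
  {K' : Type*} [Field K'] [Algebra R' K'] [IsFractionRing R' K']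

/-- the host-level witness `hesDelta` is `j2 - j0`. -/
theorem hesDelta_eq_sub :
    hesDelta K M =
      (hesHostB K (M * 2) : ↥(hesE K (M * 2)) →+* ↥(hesE K (M * 2 * 2)))
        ((hesHostB K M : ↥(hesE K M) →+* ↥(hesE K (M * 2))) (hesJE K M)) -
      algebraMap ↥K⟮jqNModC K 3⟯ ↥(hesE K (M * 2 * 2)) (AdjoinSimple.gen K (jqNModC K 3)) := by
  apply Subtype.ext
  rw [coe_hesDelta, AddSubgroupClass.coe_sub]
  show _ = qExpand K 2 (qExpand K 2 (jqNModC K 3)) - jqNModC K 3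
  rw [map_sub, jqNModC,
    Fermat.Agent.SS.qExpand_qExpand' 3 2 (3 * 2) rfl,
    Fermat.Agent.SS.qExpand_qExpand' (3 * 2) 2 (3 * 2 * 2) rfl,
    Fermat.Agent.SS.qExpand_qExpand' 2 3 (3 * 2) (mul_comm 3 2),
    Fermat.Agent.SS.qExpand_qExpand' 2 (3 * 2) (3 * 2 * 2) (by ring)]

set_option maxHeartbeats 3200000 in
/-- **(7) `hcusps`, Hesse**: the literal of `hesGeneric_of_local`. -/
theorem hes_hcusps [IsAlgClosed (IsLocalRing.ResidueField R)]
    (hπ : Irreducible π) (h3 : IsUnit (3 : R)) (ω : R) (hω : ω ^ 2 + ω + 1 = 0)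
    (h : ((2 : ℕ) : ℤ) * x + M * y = 1)
    (hqπ : ((2 : ℕ) : R) ∈ Ideal.span {π})
    (hgeo : GeoHyps K π (AdjoinSimple.gen K (hesT K)) ↥(hesE K M) M
      ({1, ω, ω ^ 2} : Finset R))
    (φ : R →+* R') [IsLocalHom φ] (κ : K →+* K')
    (hκ : ∀ r : R, κ (algebraMap R K r) = algebraMap R' K' (φ r))
    (ζ u : R'ˣ) (hζq : ζ ^ 2 = 1) (hζ1 : ζ ≠ 1)
    (hπζ : φ π = ((ζ : R') - 1) ^ (2 - 1) * u) :
    ∀ (W11 W02 : ValuationSubring ↥(hesE K (M * 2 * 2))),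
      W11.comap (hesIncl K (M * 2 * 2)) =
        hostImageVal K 3 (keyFqW11 R K h Nat.prime_two φ κ hκ ζ hζq hζ1) →
      W02.comap (hesIncl K (M * 2 * 2)) = hostImageVal K 3 (keyFqW02 R K h Nat.prime_two) →
      haveI : FiniteDimensional ↥K⟮jqNModC K 3⟯ ↥(hesE K (M * 2 * 2)) :=
        finite_hesE_adjoin_j K (M * 2 * 2)
      ∀ (fam' : IsSheetFamily π (AdjoinSimple.gen K (jqNModC K 3))⁻¹
        ![hesWinf R K h3 (M * 2 * 2), W11, W02]),
      ∀ (𝔫 : Ideal ↥(chartOne R ↥(hesE K (M * 2 * 2)) (AdjoinSimple.gen K (jqNModC K 3))⁻¹))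
        (_ : 𝔫.IsMaximal),
      algebraMap R ↥(chartOne R ↥(hesE K (M * 2 * 2)) (AdjoinSimple.gen K (jqNModC K 3))⁻¹) π ∈
        𝔫 →
      (⟨algebraMap ↥K⟮jqNModC K 3⟯ ↥(hesE K (M * 2 * 2)) (AdjoinSimple.gen K (jqNModC K 3))⁻¹,
        algebraMap_coord_mem_chartOne (AdjoinSimple.gen K (jqNModC K 3))⁻¹⟩ :
        ↥(chartOne R ↥(hesE K (M * 2 * 2)) (AdjoinSimple.gen K (jqNModC K 3))⁻¹)) ∈ 𝔫 →
      ∃ (l₀ : Fin 3)
        (z v : ↥(chartOne R ↥(hesE K (M * 2 * 2)) (AdjoinSimple.gen K (jqNModC K 3))⁻¹)),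
        sheetIdeal (AdjoinSimple.gen K (jqNModC K 3))⁻¹
          (![hesWinf R K h3 (M * 2 * 2), W11, W02] l₀) (fam'.chart_le l₀) ≤ 𝔫 ∧
        (∀ l, sheetIdeal (AdjoinSimple.gen K (jqNModC K 3))⁻¹
          (![hesWinf R K h3 (M * 2 * 2), W11, W02] l) (fam'.chart_le l) ≤ 𝔫 → l = l₀) ∧
        z ∈ sheetIdeal (AdjoinSimple.gen K (jqNModC K 3))⁻¹
          (![hesWinf R K h3 (M * 2 * 2), W11, W02] l₀) (fam'.chart_le l₀) ∧ z ≠ 0 ∧
        (∀ w ∈ sheetIdeal (AdjoinSimple.gen K (jqNModC K 3))⁻¹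
          (![hesWinf R K h3 (M * 2 * 2), W11, W02] l₀) (fam'.chart_le l₀),
          ∃ s : ↥(chartOne R ↥(hesE K (M * 2 * 2)) (AdjoinSimple.gen K (jqNModC K 3))⁻¹),
            s ∉ 𝔫 ∧ z ∣ s * w) ∧
        IsBranchUniformizer (sheetIdeal (AdjoinSimple.gen K (jqNModC K 3))⁻¹
          (![hesWinf R K h3 (M * 2 * 2), W11, W02] l₀) (fam'.chart_le l₀)) 𝔫 v := by
  intro W11 W02 h11 h02
  haveI : FiniteDimensional ↥K⟮jqNModC K 3⟯ ↥(hesE K (M * 2 * 2)) :=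
    finite_hesE_adjoin_j K (M * 2 * 2)
  haveI : FiniteDimensional ↥K⟮jqNModC K 3⟯ ↥(hesE K (M * 2)) := finite_hesE_adjoin_j K (M * 2)
  intro fam'
  obtain ⟨-, hT⟩ := hesE_isThreeSheet_delta R K hπ h3 ω h hqπ hgeo φ κ hκ ζ hζq hζ1 u hπζ
    W11 W02 h11 h02
  have hmodel := ssModelHes R K hπ h3 ω hω h hqπ hgeo
  have hjint := SSModelHes.jint R K hπ hmodel
  have hmodel' := SSModelHes.ssModel R K hmodel
  obtain ⟨cq, hcq, hqπ'⟩ := base36_exists_unit_mul φ hπ Nat.prime_two hqπ ζ u hζq hζ1 hπζ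
  have hδ := hesDelta_eq_sub K (M := M)
  have hunif1 := hT.unif_11
  have hδval := hT.val_δ
  rw [hδ] at hunif1 hδval
  refine cusps36_hcusp (R := R) (K₁ := K) (KN₁ := ↥K⟮jqNModC K 3⟯) (E₁ := ↥(hesE K (M * 2)))
    (KN₂ := ↥K⟮jqNModC K 3⟯) (E := ↥(hesE K (M * 2 * 2)))
    (W := ![hesWinf R K h3 (M * 2 * 2), W11, W02])
    hmodel' hπ (ssModelHes_j_transcendental K) (ssModelHes_j_adjoin K) fam'
    (hesHostA K (M * 2) 2 : ↥(hesE K (M * 2)) →+* ↥(hesE K (M * 2 * 2)))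
    (hesHostB K (M * 2) : ↥(hesE K (M * 2)) →+* ↥(hesE K (M * 2 * 2)))
    (ssModelHes_A_algebraMap R K) (ssModelHes_B_algebraMap R K)
    (Subtype.ext rfl) (Subtype.ext rfl)
    hT.comap_A_20 hT.comap_A_11 hT.comap_A_02 hT.comap_B_20 hT.comap_B_11 hT.comap_B_02
    hT.res_A_20 hT.res_A_11 hT.res_B_02 hT.unif_20 hT.unif_02 hunif1 hδval hjint hcq hqπ' ?_
  intro V hRV hπV hj0V _ ha' hc hc' harch
  exact cuspord2_host (algebraMap K ℂ) 3 Nat.prime_two ⟨M, by ring⟩ (hesT K) V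
    (algebraMap_mem_of_inv_uniformizer_mem hπ V hRV hπV) _ _ _ rfl rfl rfl hj0V ha' hc hc' harch

end Hes

end

end Fermat.Agent.S36
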