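/-
S36 [CUSPS36-HOST], Legendre — helper8 — **the cusps of the chart `j⁻¹` of the Legendre host of
level `M q²`**: the hypothesis `hcusps` (7) of helper4's `legGeneric_of_local`, literally, from
helper2's abstract `cusps36_hcusp`, helper7's three sheets (`legE_isThreeSheet_delta`), the
two-sheet model of level `M q` (`ssModelLeg`) and the D-key `cuspord2_host`.
-/
import Mathlib
import Fermat.Agent.S36.CUSPS36_helper2_Main
import Fermat.Agent.S36.CUSPORD2_helper8_Host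
import Fermat.Agent.S36.HOST36_helper7_Delta
import Fermat.Agent.S36.BASE36_helper4_Local2
import Fermat.Agent.SS.BASE_helper1_Leg

set_option autoImplicit false
set_option linter.unusedSectionVars false
set_option linter.unusedVariables false
set_option linter.style.haveILetI false
set_option synthInstance.maxHeartbeats 200000

open Polynomial ModularCurve IntermediateField
open Fermat.Agent.Igusa Fermat.Agent.JA Fermat.Agent.SS Fermat.Agent.X0N
open Fermat.Agent.S35 AlgebraicCurve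

open scoped Fermat.Agent.JA.Host

namespace Fermat.Agent.S36

noncomputable section

section Leg

variable (R : Type*) [CommRing R] [IsDomain R] [IsDiscreteValuationRing R] [CharZero R]
  [DecidableEq R]
  (K : Type*) [Field K] [Algebra R K] [IsFractionRing R K] [Algebra ℚ K] [Algebra K ℂ]
  {M q : ℕ} [NeZero M] [NeZero q] [NeZero (M * q)] [NeZero (M * q * q)] {x y : ℤ}
  {π : R}
  {R' : Type*} [CommRing R'] [IsDomain R'] [IsDiscreteValuationRing R']
  {K' : Type*} [Field K'] [Algebra R' K'] [IsFractionRing R' K']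

/-- the host-level witness `legDelta` is `j2 - j0`. -/
theorem legDelta_eq_sub (hq : q.Prime) (hq2 : q ≠ 2) :
    legDelta K M q =
      (legHostB K (M * q) q hq hq2 : ↥(legE K (M * q)) →+* ↥(legE K (M * q * q)))
        ((legHostB K M q hq hq2 : ↥(legE K M) →+* ↥(legE K (M * q))) (legJE K M)) -
      algebraMap ↥K⟮jqNModC K 2⟯ ↥(legE K (M * q * q)) (AdjoinSimple.gen K (jqNModC K 2)) := by
  apply Subtype.ext
  rw [coe_legDelta, AddSubgroupClass.coe_sub]
  show _ = qExpand K q (qExpand K q (jqNModC K 2)) - jqNModC K 2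
  rw [map_sub, jqNModC,
    Fermat.Agent.SS.qExpand_qExpand' 2 q (2 * q) rfl,
    Fermat.Agent.SS.qExpand_qExpand' (2 * q) q (2 * q * q) rfl,
    Fermat.Agent.SS.qExpand_qExpand' q 2 (2 * q) (mul_comm 2 q),
    Fermat.Agent.SS.qExpand_qExpand' q (2 * q) (2 * q * q) (by ring)]

set_option maxHeartbeats 3200000 in
/-- **(7) `hcusps`, Legendre**: the literal of `legGeneric_of_local`. -/
theorem leg_hcusps [IsAlgClosed (IsLocalRing.ResidueField R)]
    (hπ : Irreducible π) (h2 : IsUnit (2 : R))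
    (h : (q : ℤ) * x + M * y = 1) (hq : q.Prime) (hq2 : q ≠ 2)
    (hqπ : (q : R) ∈ Ideal.span {π})
    (hgeo : GeoHyps K π (AdjoinSimple.gen K (legT K)) ↥(legE K M) M ({0, 1} : Finset R))
    (φ : R →+* R') [IsLocalHom φ] (κ : K →+* K')
    (hκ : ∀ r : R, κ (algebraMap R K r) = algebraMap R' K' (φ r))
    (ζ u : R'ˣ) (hζq : ζ ^ q = 1) (hζ1 : ζ ≠ 1)
    (hπζ : φ π = ((ζ : R') - 1) ^ (q - 1) * u) :
    ∀ (W11 W02 : ValuationSubring ↥(legE K (M * q * q))),
      W11.comap (legIncl K (M * q * q)) =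
        hostImageVal K 2 (keyFqW11 R K h hq φ κ hκ ζ hζq hζ1) →
      W02.comap (legIncl K (M * q * q)) = hostImageVal K 2 (keyFqW02 R K h hq) →
      haveI : FiniteDimensional ↥K⟮jqNModC K 2⟯ ↥(legE K (M * q * q)) :=
        finite_legE_adjoin_j K (M * q * q)
      ∀ (fam' : IsSheetFamily π (AdjoinSimple.gen K (jqNModC K 2))⁻¹
        ![legWinf R K h2 (M * q * q), W11, W02]),
      ∀ (𝔫 : Ideal ↥(chartOne R ↥(legE K (M * q * q)) (AdjoinSimple.gen K (jqNModC K 2))⁻¹))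
        (_ : 𝔫.IsMaximal),
      algebraMap R ↥(chartOne R ↥(legE K (M * q * q)) (AdjoinSimple.gen K (jqNModC K 2))⁻¹) π ∈
        𝔫 →
      (⟨algebraMap ↥K⟮jqNModC K 2⟯ ↥(legE K (M * q * q)) (AdjoinSimple.gen K (jqNModC K 2))⁻¹,
        algebraMap_coord_mem_chartOne (AdjoinSimple.gen K (jqNModC K 2))⁻¹⟩ :
        ↥(chartOne R ↥(legE K (M * q * q)) (AdjoinSimple.gen K (jqNModC K 2))⁻¹)) ∈ 𝔫 →
      ∃ (l₀ : Fin 3)
        (z v : ↥(chartOne R ↥(legE K (M * q * q)) (AdjoinSimple.gen K (jqNModC K 2))⁻¹)),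
        sheetIdeal (AdjoinSimple.gen K (jqNModC K 2))⁻¹
          (![legWinf R K h2 (M * q * q), W11, W02] l₀) (fam'.chart_le l₀) ≤ 𝔫 ∧
        (∀ l, sheetIdeal (AdjoinSimple.gen K (jqNModC K 2))⁻¹
          (![legWinf R K h2 (M * q * q), W11, W02] l) (fam'.chart_le l) ≤ 𝔫 → l = l₀) ∧
        z ∈ sheetIdeal (AdjoinSimple.gen K (jqNModC K 2))⁻¹
          (![legWinf R K h2 (M * q * q), W11, W02] l₀) (fam'.chart_le l₀) ∧ z ≠ 0 ∧
        (∀ w ∈ sheetIdeal (AdjoinSimple.gen K (jqNModC K 2))⁻¹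
          (![legWinf R K h2 (M * q * q), W11, W02] l₀) (fam'.chart_le l₀),
          ∃ s : ↥(chartOne R ↥(legE K (M * q * q)) (AdjoinSimple.gen K (jqNModC K 2))⁻¹),
            s ∉ 𝔫 ∧ z ∣ s * w) ∧
        IsBranchUniformizer (sheetIdeal (AdjoinSimple.gen K (jqNModC K 2))⁻¹
          (![legWinf R K h2 (M * q * q), W11, W02] l₀) (fam'.chart_le l₀)) 𝔫 v := by
  intro W11 W02 h11 h02
  haveI : FiniteDimensional ↥K⟮jqNModC K 2⟯ ↥(legE K (M * q * q)) :=
    finite_legE_adjoin_j K (M * q * q)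
  haveI : FiniteDimensional ↥K⟮jqNModC K 2⟯ ↥(legE K (M * q)) := finite_legE_adjoin_j K (M * q)
  intro fam'
  obtain ⟨-, hT⟩ := legE_isThreeSheet_delta R K hπ h2 h hq hq2 hqπ hgeo φ κ hκ ζ hζq hζ1 u hπζ
    W11 W02 h11 h02
  have hmodel := ssModelLeg R K hπ h2 h hq hq2 hqπ hgeo
  have hjint := SSModelLeg.jint R K hπ hmodel
  have hmodel' := SSModelLeg.ssModel R K hmodel
  obtain ⟨cq, hcq, hqπ'⟩ := base36_exists_unit_mul φ hπ hq hqπ ζ u hζq hζ1 hπζ
  have hδ := legDelta_eq_sub K (M := M) hq hq2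
  have hunif1 := hT.unif_11
  have hδval := hT.val_δ
  rw [hδ] at hunif1 hδval
  refine cusps36_hcusp (R := R) (K₁ := K) (KN₁ := ↥K⟮jqNModC K 2⟯) (E₁ := ↥(legE K (M * q)))
    (KN₂ := ↥K⟮jqNModC K 2⟯) (E := ↥(legE K (M * q * q)))
    (W := ![legWinf R K h2 (M * q * q), W11, W02])
    hmodel' hπ (ssModelLeg_j_transcendental K) (ssModelLeg_j_adjoin K) fam'
    (legHostA K (M * q) q : ↥(legE K (M * q)) →+* ↥(legE K (M * q * q)))
    (legHostB K (M * q) q hq hq2 : ↥(legE K (M * q)) →+* ↥(legE K (M * q * q)))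
    (ssModelLeg_A_algebraMap R K) (ssModelLeg_B_algebraMap R K hq hq2)
    (Subtype.ext rfl) (Subtype.ext rfl)
    hT.comap_A_20 hT.comap_A_11 hT.comap_A_02 hT.comap_B_20 hT.comap_B_11 hT.comap_B_02
    hT.res_A_20 hT.res_A_11 hT.res_B_02 hT.unif_20 hT.unif_02 hunif1 hδval hjint hcq hqπ' ?_
  intro V hRV hπV hj0V _ ha' hc hc' harch
  exact cuspord2_host (algebraMap K ℂ) 2 hq ⟨M, by ring⟩ (legT K) V
    (algebraMap_mem_of_inv_uniformizer_mem hπ V hRV hπV) _ _ _ rfl rfl rfl hj0V ha' hc hc' harch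

end Leg

end

end Fermat.Agent.S36
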