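/-
S36 [HOST11] — helper6 — part 1: **the middle sheet and the far sheet of a host of level `M q²`
by restriction from `F_{L q²}`** (`w² M ∣ L`; `L = 4 M` for the Legendre host, `L = 9 M` for the
Hesse host, whose coordinates lie in `F_4`, `F_9`).

`hostW11 := keyFqW11 (level L) ∘ inclusion`, `hostW02 := keyFqW02 (level L) ∘ inclusion`, and their
restrictions along `A` (inclusion) and `B` (`x ↦ x^q`) to the host of level `M q`: the Gauss sheet
and its Atkin–Lehner transform `(gaussValSub).comap wE` (`wE = alEtu`, which is `legW0`/`hesW0`).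
-/
import Mathlib
import Fermat.Agent.S36.HOST4_helper6_Sheet
import Fermat.Agent.S36.MODEL36_helper6_Kron

set_option autoImplicit false
set_option linter.unusedSectionVars false
set_option linter.style.haveILetI false
set_option synthInstance.maxHeartbeats 200000

open HahnSeries ModularCurve Fermat.Agent.Igusa Fermat.Agent.X0N Fermat.Agent.RatStr
open IntermediateField Fermat.Agent.JA Fermat.Agent.SS Fermat.Agent.S35

namespace Fermat.Agent.S36

noncomputable section

section HostMid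

variable (K : Type*) [Field K] [Algebra ℚ K] [Algebra K ℂ]
  {M q : ℕ} [NeZero M] [NeZero q] [NeZero (M * q)] [NeZero (M * q * q)]
  (w : ℕ) [NeZero w] [NeZero (w * w)] (L : ℕ) [NeZero L] [NeZero (L * q)] [NeZero (L * q * q)]
  {x y x' y' : ℤ} (h : (q : ℤ) * x + M * y = 1) (h' : (q : ℤ) * x' + L * y' = 1) (hq : q.Prime)
  (hL : w * w * M ∣ L) (t : LaurentSeries K) (ht : t ∈ keyFq K (w * w))
  (htq : qExpand K q t ∈ Host.Etu (keyFw K (M * q) w) t 1)
  (R : Type*) [CommRing R] [IsDomain R] [IsDiscreteValuationRing R]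
  [Algebra R K] [IsFractionRing R K]
  (hEg : Host.Etu (keyFw K (M * q) w) t 1 ≤ gaussField R K)
  {R' : Type*} [CommRing R'] [IsDomain R'] [IsDiscreteValuationRing R']
  {K' : Type*} [Field K'] [Algebra R' K'] [IsFractionRing R' K']
  (φ : R →+* R') [IsLocalHom φ] (κ : K →+* K')
  (hκ : ∀ r : R, κ (algebraMap R K r) = algebraMap R' K' (φ r))
  (ζ : R'ˣ) (hζq : ζ ^ q = 1) (hζ1 : ζ ≠ 1)

include hL in
theorem host_dvd_four : w * w * (M * q * q) ∣ L * q * q := by
  rw [← mul_assoc, ← mul_assoc]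
  exact Nat.mul_dvd_mul_right (Nat.mul_dvd_mul_right hL q) q

include hL ht in
theorem Etu_le_keyFq_mul_mul : Host.Etu (keyFw K (M * q * q) w) t 1 ≤ keyFq K (L * q * q) :=
  Etu_le_keyFq_of_dvd K w (M * q * q) (L * q * q) (host_dvd_four w L hL) t ht

variable (M q) in
/-- the inclusion of the tower field of level `M q²` into `F_{Lq²}`. -/
def hostToFullSq : ↥(Host.Etu (keyFw K (M * q * q) w) t 1) →ₐ[K] ↥(keyFq K (L * q * q)) :=
  IntermediateField.inclusion (Etu_le_keyFq_mul_mul K w L hL t ht)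

@[simp] theorem coe_hostToFullSq (z : ↥(Host.Etu (keyFw K (M * q * q) w) t 1)) :
    ((hostToFullSq K M q w L hL t ht z : ↥(keyFq K (L * q * q))) : LaurentSeries K) = z :=
  IntermediateField.coe_inclusion _ z

/-- **the middle sheet of the host of level `M q²`**, by restriction from `F_{Lq²}`. -/
def hostW11 : ValuationSubring ↥(Host.Etu (keyFw K (M * q * q) w) t 1) :=
  (keyFqW11 R K h' hq φ κ hκ ζ hζq hζ1).comap
    ((hostToFullSq K M q w L hL t ht : _ →ₐ[K] _) :
      ↥(Host.Etu (keyFw K (M * q * q) w) t 1) →+* ↥(keyFq K (L * q * q)))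

/-- **the far sheet of the host of level `M q²`**, by restriction from `F_{Lq²}`. -/
def hostW02 : ValuationSubring ↥(Host.Etu (keyFw K (M * q * q) w) t 1) :=
  (keyFqW02 R K h' hq).comap
    ((hostToFullSq K M q w L hL t ht : _ →ₐ[K] _) :
      ↥(Host.Etu (keyFw K (M * q * q) w) t 1) →+* ↥(keyFq K (L * q * q)))

theorem mem_hostW11_iff (z : ↥(Host.Etu (keyFw K (M * q * q) w) t 1)) :
    z ∈ hostW11 K w L h' hq hL t ht R φ κ hκ ζ hζq hζ1 ↔
      midEmb K h' hq κ ζ hζq hζ1 (hostToFullSq K M q w L hL t ht z) ∈ gaussInt R' K' := Iff.rfl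

theorem mem_hostW02_iff (z : ↥(Host.Etu (keyFw K (M * q * q) w) t 1)) :
    z ∈ hostW02 K w L h' hq hL t ht R ↔
      ((keyFqAL2 K h' hq (hostToFullSq K M q w L hL t ht z) : ↥(keyFq K (L * q * q))) :
        LaurentSeries K) ∈ gaussInt R K := Iff.rfl

theorem hostW11_valuation_eq (z : ↥(Host.Etu (keyFw K (M * q * q) w) t 1)) :
    (hostW11 K w L h' hq hL t ht R φ κ hκ ζ hζq hζ1).valuation z < 1 ↔
      (keyFqW11 R K h' hq φ κ hκ ζ hζq hζ1).valuation (hostToFullSq K M q w L hL t ht z) < 1 :=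
  sinfemb_comap_valuation_lt_one_iff _ _ z

variable (A B : ↥(Host.Etu (keyFw K (M * q) w) t 1) →+* ↥(Host.Etu (keyFw K (M * q * q) w) t 1))
  (hA : ∀ z, ((A z : ↥(Host.Etu (keyFw K (M * q * q) w) t 1)) : LaurentSeries K) = z)
  (hB : ∀ z, ((B z : ↥(Host.Etu (keyFw K (M * q * q) w) t 1)) : LaurentSeries K) =
    qExpand K q (z : LaurentSeries K))

include hA in
theorem hostToFullSq_A (z : ↥(Host.Etu (keyFw K (M * q) w) t 1)) :
    hostToFullSq K M q w L hL t ht (A z) = keyFqA K (L * q) q (hostToFull K M q w L hL t ht z) := by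
  apply Subtype.ext
  rw [coe_hostToFullSq, hA, coe_keyFqA, coe_hostToFull]

include hB in
theorem hostToFullSq_B (z : ↥(Host.Etu (keyFw K (M * q) w) t 1)) :
    hostToFullSq K M q w L hL t ht (B z) = keyFqB K (L * q) q (hostToFull K M q w L hL t ht z) := by
  apply Subtype.ext
  rw [coe_hostToFullSq, hB, coe_keyFqB, coe_hostToFull]

include hA in
/-- `hostW11 ∩ A E_{Mq} =` the Gauss sheet. -/
theorem hostW11_comap_A :
    (hostW11 K w L h' hq hL t ht R φ κ hκ ζ hζq hζ1).comap A =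
      gaussValSub R K (Host.Etu (keyFw K (M * q) w) t 1) hEg := by
  ext z
  rw [ValuationSubring.mem_comap, mem_hostW11_iff, hostToFullSq_A K w L hL t ht A hA,
    keyFqMid_keyFqA, coe_hostToFull, mem_gaussValSub_iff]
  exact coeffMap_mem_gaussInt_iff' R K φ κ hκ (hEg z.2)

include hB in
/-- `hostW11 ∩ B E_{Mq} =` the Atkin–Lehner transform of the Gauss sheet. -/
theorem hostW11_comap_B :
    (hostW11 K w L h' hq hL t ht R φ κ hκ ζ hζq hζ1).comap B =
      (gaussValSub R K (Host.Etu (keyFw K (M * q) w) t 1) hEg).comap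
        ((alEtu K w L h h' hq hL t ht htq : _ ≃ₐ[K] _) :
          ↥(Host.Etu (keyFw K (M * q) w) t 1) →+* ↥(Host.Etu (keyFw K (M * q) w) t 1)) := by
  ext z
  rw [ValuationSubring.mem_comap, mem_hostW11_iff, hostToFullSq_B K w L hL t ht B hB,
    keyFqMid_keyFqB, twist_mem_gaussInt_iff, ValuationSubring.mem_comap, mem_gaussValSub_iff]
  show _ ↔ ((alEtu K w L h h' hq hL t ht htq z : ↥(Host.Etu (keyFw K (M * q) w) t 1)) :
    LaurentSeries K) ∈ gaussInt R K
  rw [coe_alEtu]
  exact coeffMap_mem_gaussInt_iff' R K φ κ hκ (coe_mem_gaussField R K (L * q) _)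

include hA in
/-- `hostW02 ∩ A E_{Mq} =` the Atkin–Lehner transform of the Gauss sheet. -/
theorem hostW02_comap_A :
    (hostW02 K w L h' hq hL t ht R).comap A =
      (gaussValSub R K (Host.Etu (keyFw K (M * q) w) t 1) hEg).comap
        ((alEtu K w L h h' hq hL t ht htq : _ ≃ₐ[K] _) :
          ↥(Host.Etu (keyFw K (M * q) w) t 1) →+* ↥(Host.Etu (keyFw K (M * q) w) t 1)) := by
  ext z
  rw [ValuationSubring.mem_comap, mem_hostW02_iff, hostToFullSq_A K w L hL t ht A hA,
    keyFqAL2_keyFqA, coe_keyFqB, ValuationSubring.mem_comap, mem_gaussValSub_iff]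
  show _ ↔ ((alEtu K w L h h' hq hL t ht htq z : ↥(Host.Etu (keyFw K (M * q) w) t 1)) :
    LaurentSeries K) ∈ gaussInt R K
  rw [coe_alEtu]
  exact qExpand_mem_gaussInt_iff' q (coe_mem_gaussField R K (L * q) _)

include hB in
/-- `hostW02 ∩ B E_{Mq} =` the Atkin–Lehner transform of the Gauss sheet. -/
theorem hostW02_comap_B :
    (hostW02 K w L h' hq hL t ht R).comap B =
      (gaussValSub R K (Host.Etu (keyFw K (M * q) w) t 1) hEg).comap
        ((alEtu K w L h h' hq hL t ht htq : _ ≃ₐ[K] _) :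
          ↥(Host.Etu (keyFw K (M * q) w) t 1) →+* ↥(Host.Etu (keyFw K (M * q) w) t 1)) := by
  ext z
  rw [ValuationSubring.mem_comap, mem_hostW02_iff, hostToFullSq_B K w L hL t ht B hB,
    keyFqAL2_keyFqB, coe_keyFqA, ValuationSubring.mem_comap, mem_gaussValSub_iff]
  show _ ↔ ((alEtu K w L h h' hq hL t ht htq z : ↥(Host.Etu (keyFw K (M * q) w) t 1)) :
    LaurentSeries K) ∈ gaussInt R K
  rw [coe_alEtu]

end HostMid

end

end Fermat.Agent.S36
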