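/-
S36 [HOST11] — helper6 — part 2: **the middle and far sheets of the Legendre host of level `M q²`**
(`q` odd, `q ∤ M`), by restriction from `F_{4Mq²}`: `legW11`, `legW02`, their restrictions to the
two sheets `legWinf`, `legW0` of the host of level `M q`, and the identification with the sheets
of any `IsThreeSheet` structure (helper7's `legE_isThreeSheet`).
-/
import Mathlib
import Fermat.Agent.S36.HOST11_helper6_Restrict
import Fermat.Agent.S36.HOST36_helper7_Iface

set_option autoImplicit false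
set_option linter.unusedSectionVars false
set_option linter.style.haveILetI false
set_option synthInstance.maxHeartbeats 200000

open HahnSeries ModularCurve Fermat.Agent.Igusa Fermat.Agent.X0N Fermat.Agent.RatStr
open IntermediateField Fermat.Agent.JA Fermat.Agent.SS Fermat.Agent.S35

namespace Fermat.Agent.S36

noncomputable section

section Uniq

variable {EM EN : Type*} [Field EM] [Field EN] {A B : EM →+* EN} {q : ℕ}
  {Vinf V0 : ValuationSubring EM} {W20 W11 W02 : ValuationSubring EN} {ϖ δ : EN}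

/-- the two sheets of level `M q` of a three-sheet structure are different. -/
theorem IsThreeSheet.inf_ne_zero (h : IsThreeSheet A B q Vinf V0 W20 W11 W02 ϖ δ) :
    Vinf ≠ V0 := by
  intro heq
  apply h.ne_20_02
  have h1 : W02.comap B = Vinf := by rw [heq]; exact h.comap_B_02
  exact (h.only_B_inf W02 h1).symm

/-- **the middle sheet is determined by its two restrictions.** -/
theorem IsThreeSheet.eq_mid (h : IsThreeSheet A B q Vinf V0 W20 W11 W02 ϖ δ)
    (V : ValuationSubring EN) (hA : V.comap A = Vinf) (hB : V.comap B = V0) : V = W11 := by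
  rcases h.only_A_inf V hA with h1 | h1
  · exfalso
    apply h.inf_ne_zero
    rw [← hB, h1, h.comap_B_20]
  · exact h1

/-- **the far sheet is determined by its restriction along `A`.** -/
theorem IsThreeSheet.eq_far (h : IsThreeSheet A B q Vinf V0 W20 W11 W02 ϖ δ)
    (V : ValuationSubring EN) (hA : V.comap A = V0) : V = W02 :=
  h.only_A_zero V hA

end Uniq

section Leg

variable (R : Type*) [CommRing R] [IsDomain R] [IsDiscreteValuationRing R] [CharZero R]
  (K : Type*) [Field K] [Algebra R K] [IsFractionRing R K] [Algebra ℚ K] [Algebra K ℂ]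
  {M q : ℕ} [NeZero M] [NeZero q] [NeZero (M * q)] [NeZero (M * q * q)]
  [NeZero (4 * M)] [NeZero (4 * M * q)] [NeZero (4 * M * q * q)]
  {x y x' y' : ℤ} (hbez : (q : ℤ) * x + M * y = 1)
  (h' : (q : ℤ) * x' + ((4 * M : ℕ) : ℤ) * y' = 1) (hq : q.Prime) (hq2 : q ≠ 2)
  {R' : Type*} [CommRing R'] [IsDomain R'] [IsDiscreteValuationRing R']
  {K' : Type*} [Field K'] [Algebra R' K'] [IsFractionRing R' K']
  (φ : R →+* R') [IsLocalHom φ] (κ : K →+* K')
  (hκ : ∀ r : R, κ (algebraMap R K r) = algebraMap R' K' (φ r))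
  (ζ : R'ˣ) (hζq : ζ ^ q = 1) (hζ1 : ζ ≠ 1)

open scoped Fermat.Agent.JA.Host

instance neZero_two_mul_two : NeZero (2 * 2) := ⟨by norm_num⟩

theorem leg_dvd_four (M : ℕ) : 2 * 2 * M ∣ 4 * M := dvd_of_eq (by ring)

/-- **the middle sheet `W11` of the Legendre host of level `M q²`.** -/
def legW11 : ValuationSubring ↥(legE K (M * q * q)) :=
  hostW11 K 2 (4 * M) h' hq (leg_dvd_four M) (legT K) (legT_mem_keyFq K) R φ κ hκ ζ hζq hζ1

/-- **the far sheet `W02` of the Legendre host of level `M q²`.** -/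
def legW02 : ValuationSubring ↥(legE K (M * q * q)) :=
  hostW02 K 2 (4 * M) h' hq (leg_dvd_four M) (legT K) (legT_mem_keyFq K) R

variable (M q) in
/-- the inclusion of the Legendre host of level `M q²` into `F_{4Mq²}`. -/
def legToFullSq : ↥(legE K (M * q * q)) →ₐ[K] ↥(keyFq K (4 * M * q * q)) :=
  hostToFullSq K M q 2 (4 * M) (leg_dvd_four M) (legT K) (legT_mem_keyFq K)

@[simp] theorem coe_legToFullSq (z : ↥(legE K (M * q * q))) :
    ((legToFullSq K M q z : ↥(keyFq K (4 * M * q * q))) : LaurentSeries K) = z :=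
  IntermediateField.coe_inclusion _ z

theorem mem_legW11_iff (z : ↥(legE K (M * q * q))) :
    z ∈ legW11 R K h' hq φ κ hκ ζ hζq hζ1 ↔
      midEmb K h' hq κ ζ hζq hζ1 (legToFullSq K M q z) ∈ gaussInt R' K' := Iff.rfl

theorem legW11_eq_comap :
    legW11 R K h' hq φ κ hκ ζ hζq hζ1 =
      (keyFqW11 R K h' hq φ κ hκ ζ hζq hζ1).comap
        ((legToFullSq K M q : _ →ₐ[K] _) : ↥(legE K (M * q * q)) →+* ↥(keyFq K (4 * M * q * q))) :=
  rfl

theorem legW02_eq_comap :
    legW02 R K h' hq =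
      (keyFqW02 R K h' hq).comap
        ((legToFullSq K M q : _ →ₐ[K] _) : ↥(legE K (M * q * q)) →+* ↥(keyFq K (4 * M * q * q))) :=
  rfl

/-- the host-level Atkin–Lehner involution of the Legendre host of level `M q`. -/
def legAL : ↥(legE K (M * q)) ≃ₐ[K] ↥(legE K (M * q)) :=
  alEtu K 2 (4 * M) hbez h' hq (leg_dvd_four M) (legT K) (legT_mem_keyFq K)
    (qExpand_legT_mem_legE K hq hq2 (Dvd.intro_left M rfl))

/-- **`legW0 = legWinf ∘ wE`.** -/
theorem legW0_eq_comap_legAL [DecidableEq R] {π : R} (hπ : Irreducible π) {h2 : IsUnit (2 : R)}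
    (hmodel : SSModelLeg R K π h2 hbez hq hq2) :
    legW0 R K hbez hq = (legWinf R K h2 (M * q)).comap
      ((legAL K hbez h' hq hq2 : _ ≃ₐ[K] _) : ↥(legE K (M * q)) →+* ↥(legE K (M * q))) :=
  hostW0_eq_comap_alEtu K 2 (4 * M) hbez h' hq (leg_dvd_four M) (legT K) (legT_mem_keyFq K)
    (qExpand_legT_mem_legE K hq hq2 (Dvd.intro_left M rfl)) R (legE_le_gaussField R K h2 (M * q))
    (fun V' hV' => legW0_unique R K hπ hmodel V' hV')

/-- `legW11 ∩ A E_{Mq} = legWinf`. -/
theorem legW11_comap_legHostA (h2 : IsUnit (2 : R)) :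
    (legW11 R K h' hq φ κ hκ ζ hζq hζ1).comap
      (legHostA K (M * q) q : ↥(legE K (M * q)) →+* ↥(legE K (M * q * q))) =
      legWinf R K h2 (M * q) :=
  hostW11_comap_A K 2 (4 * M) h' hq (leg_dvd_four M) (legT K) (legT_mem_keyFq K) R
    (legE_le_gaussField R K h2 (M * q)) φ κ hκ ζ hζq hζ1 _ (coe_legHostA K (M * q) q)

/-- `legW11 ∩ B E_{Mq} = legW0`. -/
theorem legW11_comap_legHostB [DecidableEq R] {π : R} (hπ : Irreducible π) {h2 : IsUnit (2 : R)}
    (hmodel : SSModelLeg R K π h2 hbez hq hq2) :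
    (legW11 R K h' hq φ κ hκ ζ hζq hζ1).comap
      (legHostB K (M * q) q hq hq2 : ↥(legE K (M * q)) →+* ↥(legE K (M * q * q))) =
      legW0 R K hbez hq := by
  rw [legW0_eq_comap_legAL R K hbez h' hq hq2 hπ hmodel]
  exact hostW11_comap_B K 2 (4 * M) hbez h' hq (leg_dvd_four M) (legT K) (legT_mem_keyFq K)
    (qExpand_legT_mem_legE K hq hq2 (Dvd.intro_left M rfl)) R
    (legE_le_gaussField R K h2 (M * q)) φ κ hκ ζ hζq hζ1 _ (coe_legHostB K (M * q) q hq hq2)

/-- `legW02 ∩ A E_{Mq} = legW0`. -/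
theorem legW02_comap_legHostA [DecidableEq R] {π : R} (hπ : Irreducible π) {h2 : IsUnit (2 : R)}
    (hmodel : SSModelLeg R K π h2 hbez hq hq2) :
    (legW02 R K h' hq).comap
      (legHostA K (M * q) q : ↥(legE K (M * q)) →+* ↥(legE K (M * q * q))) =
      legW0 R K hbez hq := by
  rw [legW0_eq_comap_legAL R K hbez h' hq hq2 hπ hmodel]
  exact hostW02_comap_A K 2 (4 * M) hbez h' hq (leg_dvd_four M) (legT K) (legT_mem_keyFq K)
    (qExpand_legT_mem_legE K hq hq2 (Dvd.intro_left M rfl)) R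
    (legE_le_gaussField R K h2 (M * q)) _ (coe_legHostA K (M * q) q)

/-- `legW02 ∩ B E_{Mq} = legW0`. -/
theorem legW02_comap_legHostB [DecidableEq R] {π : R} (hπ : Irreducible π) {h2 : IsUnit (2 : R)}
    (hmodel : SSModelLeg R K π h2 hbez hq hq2) :
    (legW02 R K h' hq).comap
      (legHostB K (M * q) q hq hq2 : ↥(legE K (M * q)) →+* ↥(legE K (M * q * q))) =
      legW0 R K hbez hq := by
  rw [legW0_eq_comap_legAL R K hbez h' hq hq2 hπ hmodel]
  exact hostW02_comap_B K 2 (4 * M) hbez h' hq (leg_dvd_four M) (legT K) (legT_mem_keyFq K)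
    (qExpand_legT_mem_legE K hq hq2 (Dvd.intro_left M rfl)) R
    (legE_le_gaussField R K h2 (M * q)) _ (coe_legHostB K (M * q) q hq hq2)

/-- **`legW11` is the middle sheet of every three-sheet structure on the Legendre hosts.** -/
theorem legW11_eq_of_isThreeSheet [DecidableEq R] {π : R} (hπ : Irreducible π)
    {h2 : IsUnit (2 : R)} (hmodel : SSModelLeg R K π h2 hbez hq hq2)
    {W20 W11 W02 : ValuationSubring ↥(legE K (M * q * q))} {ϖ δ : ↥(legE K (M * q * q))}
    (h3 : IsThreeSheet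
      (legHostA K (M * q) q : ↥(legE K (M * q)) →+* ↥(legE K (M * q * q)))
      (legHostB K (M * q) q hq hq2 : ↥(legE K (M * q)) →+* ↥(legE K (M * q * q))) q
      (legWinf R K h2 (M * q)) (legW0 R K hbez hq) W20 W11 W02 ϖ δ) :
    legW11 R K h' hq φ κ hκ ζ hζq hζ1 = W11 :=
  h3.eq_mid _ (legW11_comap_legHostA R K h' hq φ κ hκ ζ hζq hζ1 h2)
    (legW11_comap_legHostB R K hbez h' hq hq2 φ κ hκ ζ hζq hζ1 hπ hmodel)

/-- **`legW02` is the far sheet of every three-sheet structure on the Legendre hosts.** -/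
theorem legW02_eq_of_isThreeSheet [DecidableEq R] {π : R} (hπ : Irreducible π)
    {h2 : IsUnit (2 : R)} (hmodel : SSModelLeg R K π h2 hbez hq hq2)
    {W20 W11 W02 : ValuationSubring ↥(legE K (M * q * q))} {ϖ δ : ↥(legE K (M * q * q))}
    (h3 : IsThreeSheet
      (legHostA K (M * q) q : ↥(legE K (M * q)) →+* ↥(legE K (M * q * q)))
      (legHostB K (M * q) q hq hq2 : ↥(legE K (M * q)) →+* ↥(legE K (M * q * q))) q
      (legWinf R K h2 (M * q)) (legW0 R K hbez hq) W20 W11 W02 ϖ δ) :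
    legW02 R K h' hq = W02 :=
  h3.eq_far _ (legW02_comap_legHostA R K hbez h' hq hq2 hπ hmodel)

end Leg

end

end Fermat.Agent.S36
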