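/-
S36 [HOST11], Hesse twin — helper9 — part 1: **the middle and far sheets of the Hesse host of level
`M · 4`** (`q = 2`, `M` odd), by restriction from `F_{9 M 4}` (helper6's generic
`HOST11_helper6_Restrict` with `w = 3`, `L = 9 M`): `hesW11`, `hesW02`, their restrictions to the
two sheets `hesWinf`, `hesW0` of the host of level `M · 2`, and the identification with the sheets
of any `IsThreeSheet` structure.  Mirror of `HOST11_helper6_Leg`.
-/
import Mathlib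
import Fermat.Agent.S36.HOST11_helper6_Leg

set_option autoImplicit false
set_option linter.unusedSectionVars false
set_option linter.style.haveILetI false
set_option synthInstance.maxHeartbeats 200000

open HahnSeries ModularCurve Fermat.Agent.Igusa Fermat.Agent.X0N Fermat.Agent.RatStr
open IntermediateField Fermat.Agent.JA Fermat.Agent.SS Fermat.Agent.S35

namespace Fermat.Agent.S36

noncomputable section

section Hes

variable (R : Type*) [CommRing R] [IsDomain R] [IsDiscreteValuationRing R] [CharZero R]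
  (K : Type*) [Field K] [Algebra R K] [IsFractionRing R K] [Algebra ℚ K] [Algebra K ℂ]
  {M : ℕ} [NeZero M] [NeZero (M * 2)] [NeZero (M * 2 * 2)]
  [NeZero (9 * M)] [NeZero (9 * M * 2)] [NeZero (9 * M * 2 * 2)]
  {x y x' y' : ℤ} (hbez : ((2 : ℕ) : ℤ) * x + M * y = 1)
  (h' : ((2 : ℕ) : ℤ) * x' + ((9 * M : ℕ) : ℤ) * y' = 1)
  {R' : Type*} [CommRing R'] [IsDomain R'] [IsDiscreteValuationRing R']
  {K' : Type*} [Field K'] [Algebra R' K'] [IsFractionRing R' K']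
  (φ : R →+* R') [IsLocalHom φ] (κ : K →+* K')
  (hκ : ∀ r : R, κ (algebraMap R K r) = algebraMap R' K' (φ r))
  (ζ : R'ˣ) (hζq : ζ ^ 2 = 1) (hζ1 : ζ ≠ 1)

open scoped Fermat.Agent.JA.Host

instance neZero_three_mul_three : NeZero (3 * 3) := ⟨by norm_num⟩

theorem hes_dvd_nine (M : ℕ) : 3 * 3 * M ∣ 9 * M := dvd_of_eq (by ring)

/-- **the middle sheet `W11` of the Hesse host of level `M · 4`.** -/
def hesW11 : ValuationSubring ↥(hesE K (M * 2 * 2)) :=
  hostW11 K 3 (9 * M) h' Nat.prime_two (hes_dvd_nine M) (hesT K) (hesT_mem_keyFq K) R φ κ hκ ζ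
    hζq hζ1

/-- **the far sheet `W02` of the Hesse host of level `M · 4`.** -/
def hesW02 : ValuationSubring ↥(hesE K (M * 2 * 2)) :=
  hostW02 K 3 (9 * M) h' Nat.prime_two (hes_dvd_nine M) (hesT K) (hesT_mem_keyFq K) R

variable (M) in
/-- the inclusion of the Hesse host of level `M · 4` into `F_{9 M 4}`. -/
def hesToFullSq : ↥(hesE K (M * 2 * 2)) →ₐ[K] ↥(keyFq K (9 * M * 2 * 2)) :=
  hostToFullSq K M 2 3 (9 * M) (hes_dvd_nine M) (hesT K) (hesT_mem_keyFq K)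

@[simp] theorem coe_hesToFullSq (z : ↥(hesE K (M * 2 * 2))) :
    ((hesToFullSq K M z : ↥(keyFq K (9 * M * 2 * 2))) : LaurentSeries K) = z :=
  IntermediateField.coe_inclusion _ z

theorem mem_hesW11_iff (z : ↥(hesE K (M * 2 * 2))) :
    z ∈ hesW11 R K h' φ κ hκ ζ hζq hζ1 ↔
      midEmb K h' Nat.prime_two κ ζ hζq hζ1 (hesToFullSq K M z) ∈ gaussInt R' K' := Iff.rfl

theorem hesW11_eq_comap :
    hesW11 R K h' φ κ hκ ζ hζq hζ1 =
      (keyFqW11 R K h' Nat.prime_two φ κ hκ ζ hζq hζ1).comap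
        ((hesToFullSq K M : _ →ₐ[K] _) :
          ↥(hesE K (M * 2 * 2)) →+* ↥(keyFq K (9 * M * 2 * 2))) :=
  rfl

theorem hesW02_eq_comap :
    hesW02 R K h' =
      (keyFqW02 R K h' Nat.prime_two).comap
        ((hesToFullSq K M : _ →ₐ[K] _) :
          ↥(hesE K (M * 2 * 2)) →+* ↥(keyFq K (9 * M * 2 * 2))) :=
  rfl

/-- the host-level Atkin–Lehner involution of the Hesse host of level `M · 2`. -/
def hesAL : ↥(hesE K (M * 2)) ≃ₐ[K] ↥(hesE K (M * 2)) :=
  alEtu K 3 (9 * M) hbez h' Nat.prime_two (hes_dvd_nine M) (hesT K) (hesT_mem_keyFq K)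
    (qExpand_hesT_mem_hesE K (Dvd.intro_left M rfl))

/-- **`hesW0 = hesWinf ∘ wE`.** -/
theorem hesW0_eq_comap_hesAL [DecidableEq R] {π : R} (hπ : Irreducible π) {h3 : IsUnit (3 : R)}
    {ω : R} (hmodel : SSModelHes R K π h3 ω hbez) :
    hesW0 R K hbez Nat.prime_two = (hesWinf R K h3 (M * 2)).comap
      ((hesAL K hbez h' : _ ≃ₐ[K] _) : ↥(hesE K (M * 2)) →+* ↥(hesE K (M * 2))) :=
  hostW0_eq_comap_alEtu K 3 (9 * M) hbez h' Nat.prime_two (hes_dvd_nine M) (hesT K)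
    (hesT_mem_keyFq K) (qExpand_hesT_mem_hesE K (Dvd.intro_left M rfl)) R
    (hesE_le_gaussField R K h3 (M * 2))
    (fun V' hV' => hesW0_unique R K hπ hmodel V' hV')

/-- `hesW11 ∩ A E_{M·2} = hesWinf`. -/
theorem hesW11_comap_hesHostA (h3 : IsUnit (3 : R)) :
    (hesW11 R K h' φ κ hκ ζ hζq hζ1).comap
      (hesHostA K (M * 2) 2 : ↥(hesE K (M * 2)) →+* ↥(hesE K (M * 2 * 2))) =
      hesWinf R K h3 (M * 2) :=
  hostW11_comap_A K 3 (9 * M) h' Nat.prime_two (hes_dvd_nine M) (hesT K) (hesT_mem_keyFq K) R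
    (hesE_le_gaussField R K h3 (M * 2)) φ κ hκ ζ hζq hζ1 _ (coe_hesHostA K (M * 2) 2)

/-- `hesW11 ∩ B E_{M·2} = hesW0`. -/
theorem hesW11_comap_hesHostB [DecidableEq R] {π : R} (hπ : Irreducible π) {h3 : IsUnit (3 : R)}
    {ω : R} (hmodel : SSModelHes R K π h3 ω hbez) :
    (hesW11 R K h' φ κ hκ ζ hζq hζ1).comap
      (hesHostB K (M * 2) : ↥(hesE K (M * 2)) →+* ↥(hesE K (M * 2 * 2))) =
      hesW0 R K hbez Nat.prime_two := by
  rw [hesW0_eq_comap_hesAL R K hbez h' hπ hmodel]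
  exact hostW11_comap_B K 3 (9 * M) hbez h' Nat.prime_two (hes_dvd_nine M) (hesT K)
    (hesT_mem_keyFq K) (qExpand_hesT_mem_hesE K (Dvd.intro_left M rfl)) R
    (hesE_le_gaussField R K h3 (M * 2)) φ κ hκ ζ hζq hζ1 _ (coe_hesHostB K (M * 2))

/-- `hesW02 ∩ A E_{M·2} = hesW0`. -/
theorem hesW02_comap_hesHostA [DecidableEq R] {π : R} (hπ : Irreducible π) {h3 : IsUnit (3 : R)}
    {ω : R} (hmodel : SSModelHes R K π h3 ω hbez) :
    (hesW02 R K h').comap
      (hesHostA K (M * 2) 2 : ↥(hesE K (M * 2)) →+* ↥(hesE K (M * 2 * 2))) =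
      hesW0 R K hbez Nat.prime_two := by
  rw [hesW0_eq_comap_hesAL R K hbez h' hπ hmodel]
  exact hostW02_comap_A K 3 (9 * M) hbez h' Nat.prime_two (hes_dvd_nine M) (hesT K)
    (hesT_mem_keyFq K) (qExpand_hesT_mem_hesE K (Dvd.intro_left M rfl)) R
    (hesE_le_gaussField R K h3 (M * 2)) _ (coe_hesHostA K (M * 2) 2)

/-- `hesW02 ∩ B E_{M·2} = hesW0`. -/
theorem hesW02_comap_hesHostB [DecidableEq R] {π : R} (hπ : Irreducible π) {h3 : IsUnit (3 : R)}
    {ω : R} (hmodel : SSModelHes R K π h3 ω hbez) :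
    (hesW02 R K h').comap
      (hesHostB K (M * 2) : ↥(hesE K (M * 2)) →+* ↥(hesE K (M * 2 * 2))) =
      hesW0 R K hbez Nat.prime_two := by
  rw [hesW0_eq_comap_hesAL R K hbez h' hπ hmodel]
  exact hostW02_comap_B K 3 (9 * M) hbez h' Nat.prime_two (hes_dvd_nine M) (hesT K)
    (hesT_mem_keyFq K) (qExpand_hesT_mem_hesE K (Dvd.intro_left M rfl)) R
    (hesE_le_gaussField R K h3 (M * 2)) _ (coe_hesHostB K (M * 2))

/-- **`hesW11` is the middle sheet of every three-sheet structure on the Hesse hosts.** -/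
theorem hesW11_eq_of_isThreeSheet [DecidableEq R] {π : R} (hπ : Irreducible π)
    {h3 : IsUnit (3 : R)} {ω : R} (hmodel : SSModelHes R K π h3 ω hbez)
    {W20 W11 W02 : ValuationSubring ↥(hesE K (M * 2 * 2))} {ϖ δ : ↥(hesE K (M * 2 * 2))}
    (hT : IsThreeSheet
      (hesHostA K (M * 2) 2 : ↥(hesE K (M * 2)) →+* ↥(hesE K (M * 2 * 2)))
      (hesHostB K (M * 2) : ↥(hesE K (M * 2)) →+* ↥(hesE K (M * 2 * 2))) 2
      (hesWinf R K h3 (M * 2)) (hesW0 R K hbez Nat.prime_two) W20 W11 W02 ϖ δ) :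
    hesW11 R K h' φ κ hκ ζ hζq hζ1 = W11 :=
  hT.eq_mid _ (hesW11_comap_hesHostA R K h' φ κ hκ ζ hζq hζ1 h3)
    (hesW11_comap_hesHostB R K hbez h' φ κ hκ ζ hζq hζ1 hπ hmodel)

/-- **`hesW02` is the far sheet of every three-sheet structure on the Hesse hosts.** -/
theorem hesW02_eq_of_isThreeSheet [DecidableEq R] {π : R} (hπ : Irreducible π)
    {h3 : IsUnit (3 : R)} {ω : R} (hmodel : SSModelHes R K π h3 ω hbez)
    {W20 W11 W02 : ValuationSubring ↥(hesE K (M * 2 * 2))} {ϖ δ : ↥(hesE K (M * 2 * 2))}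
    (hT : IsThreeSheet
      (hesHostA K (M * 2) 2 : ↥(hesE K (M * 2)) →+* ↥(hesE K (M * 2 * 2)))
      (hesHostB K (M * 2) : ↥(hesE K (M * 2)) →+* ↥(hesE K (M * 2 * 2))) 2
      (hesWinf R K h3 (M * 2)) (hesW0 R K hbez Nat.prime_two) W20 W11 W02 ϖ δ) :
    hesW02 R K h' = W02 :=
  hT.eq_far _ (hesW02_comap_hesHostA R K hbez h' hπ hmodel)

end Hes

end

end Fermat.Agent.S36
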