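/-
S36 [HOST11] — helper6 — part 4: **Laurent-series computations for the local equation of the
middle sheet.**  Over a discrete valuation ring `R` (`L = Frac R`, residue field `k` of
characteristic `q`), for a series `s ∈ R⸨x⸩` whose reduction has coefficients in `𝔽_q`:
* `red_twistQuot_of_residue_eq_one` : `(s(ζx) − s(x))/(ζ − 1) ≡ θ s` when `ζ ≡ 1`;
* `exists_gaussRed_hostMu_emb` : `μ = (θ s)(x^q)/(θ s)(x) ≡ (θ s)^{q-1}`;
* `exists_gaussRed_pow_sub_hostMu` : `((s(ζx) − s(x))/(ζ − 1))^{q-1} · a − b · μ ≡ 0` when `a ≡ b`.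
-/
import Mathlib
import Fermat.Agent.S36.MODEL36_helper6_TwistDiv
import Fermat.Agent.S36.REG1_lead_HostGauss
import Fermat.Agent.SS.VAL2_helper7_HostTwo
import Fermat.Agent.SS.VAL2_helper7_LegInt
import Fermat.Agent.JA.ES_helper4_Frob

set_option autoImplicit false
set_option linter.unusedSectionVars false
set_option linter.style.haveILetI false

open ModularCurve Fermat.Agent.Igusa Fermat.Agent.JA Fermat.Agent.SS

namespace Fermat.Agent.S36

noncomputable section

section Mu

variable {R : Type*} [CommRing R] [IsDomain R] [IsDiscreteValuationRing R]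
  {L : Type*} [Field L] [Algebra R L] [IsFractionRing R L]

local notation "k" => IsLocalRing.ResidueField R

/-- **`(s(ζx) − s(x))/(ζ − 1) ≡ θ s`** when `ζ ≡ 1` modulo the maximal ideal. -/
theorem red_twistQuot_of_residue_eq_one (ζ : Rˣ) (hζ : IsLocalRing.residue R (ζ : R) = 1)
    (s : LaurentSeries R) : red R (twistQuot ζ s) = eulerFun (red R s) := by
  ext n
  have h1 : Units.map (IsLocalRing.residue R : R →* IsLocalRing.ResidueField R) ζ = 1 :=
    Units.ext hζ
  rw [red_coeff, twistQuot_coeff, map_mul, map_geomZ, h1, geomZ_of_eq_one, eulerFun_coeff,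
    red_coeff]

variable (q : ℕ) [NeZero q] [ExpChar (IsLocalRing.ResidueField R) q]

/-- `θ` of a series with coefficients in `𝔽_q` has coefficients in `𝔽_q`. -/
theorem coeffMap_frobenius_eulerFun {y : LaurentSeries k}
    (hy : coeffMap (frobenius k q) y = y) :
    coeffMap (frobenius k q) (eulerFun y) = eulerFun y := by
  have h1 := eulerD_coeffMap (frobenius k q) y
  rw [eulerD_apply, eulerD_apply] at h1
  rw [← h1, hy]

/-- **`μ = (θ s)(x^q)/(θ s)(x) ≡ (θ s)^{q-1}`** for a series over `R` whose reduction has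
coefficients in `𝔽_q` and `θ s ≢ 0`. -/
theorem exists_gaussRed_hostMu_emb (s : LaurentSeries R)
    (hfrob : coeffMap (frobenius k q) (red R s) = red R s)
    (hθ : eulerFun (red R s) ≠ 0) :
    ∃ h : hostMu (emb R L s) q ∈ gaussInt R L,
      gaussRed R L ⟨hostMu (emb R L s) q, h⟩ = eulerFun (red R s) ^ (q - 1) := by
  have ht : emb R L s ∈ gaussInt R L := emb_mem_gaussInt R L s
  have hred : gaussRed R L ⟨eulerFun (emb R L s), eulerFun_mem_gaussInt ht⟩ =
      eulerFun (red R s) := by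
    rw [gaussRed_eulerFun ht, gaussRed_emb]
  have hθ' : gaussRed R L ⟨eulerFun (emb R L s), eulerFun_mem_gaussInt ht⟩ ≠ 0 := by
    rw [hred]; exact hθ
  refine ⟨hostMu_mem_gaussInt ht hθ' q, ?_⟩
  have e : (⟨hostMu (emb R L s) q, hostMu_mem_gaussInt ht hθ' q⟩ : gaussInt R L) =
      ⟨(eulerFun (emb R L s))⁻¹, inv_eulerFun_mem_gaussInt ht hθ'⟩ *
        ⟨qExpand L q (eulerFun (emb R L s)),
          (gaussHomQExpand R L q).map_mem_gaussInt (eulerFun_mem_gaussInt ht)⟩ :=
    Subtype.ext rfl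
  have h2 : gaussRed R L ⟨(eulerFun (emb R L s))⁻¹, inv_eulerFun_mem_gaussInt ht hθ'⟩ =
      (eulerFun (red R s))⁻¹ := by
    rw [← hred]
    exact gaussRed_inv ⟨eulerFun (emb R L s), eulerFun_mem_gaussInt ht⟩ hθ'
  have h3 : gaussRed R L ⟨qExpand L q (eulerFun (emb R L s)),
      (gaussHomQExpand R L q).map_mem_gaussInt (eulerFun_mem_gaussInt ht)⟩ =
      eulerFun (red R s) ^ q := by
    rw [gaussRed_qExpand (q := q) (hx := eulerFun_mem_gaussInt ht), hred,
      laurent_pow_char q (eulerFun (red R s)), coeffMap_frobenius_eulerFun q hfrob]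
  rw [e, map_mul, h2, h3]
  have hq1 : q = (q - 1) + 1 := (Nat.sub_add_cancel (Nat.pos_of_ne_zero (NeZero.ne q))).symm
  conv_lhs => rw [hq1, pow_succ, ← mul_assoc, mul_comm _ (eulerFun (red R s) ^ (q - 1)),
    mul_assoc, inv_mul_cancel₀ hθ, mul_one]

/-- **the congruence behind the local equation of the middle sheet**:
`U^{q-1} · a − b · μ ≡ 0` for `U = (s(ζx) − s(x))/(ζ − 1)`, `μ = (θ s)(x^q)/(θ s)(x)`,
constants `a ≡ b`. -/
theorem exists_gaussRed_pow_sub_hostMu (ζ : Rˣ) (hζ : IsLocalRing.residue R (ζ : R) = 1)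
    (s : LaurentSeries R)
    (hfrob : coeffMap (frobenius k q) (red R s) = red R s)
    (hθ : eulerFun (red R s) ≠ 0) (a b : R)
    (hab : IsLocalRing.residue R a = IsLocalRing.residue R b) :
    ∃ h : emb R L (twistQuot ζ s) ^ (q - 1) * HahnSeries.C (algebraMap R L a) -
        HahnSeries.C (algebraMap R L b) * hostMu (emb R L s) q ∈ gaussInt R L,
      gaussRed R L ⟨_, h⟩ = 0 := by
  obtain ⟨hμ, hμred⟩ := exists_gaussRed_hostMu_emb (L := L) q s hfrob hθ
  have hU : emb R L (twistQuot ζ s) ∈ gaussInt R L := emb_mem_gaussInt R L _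
  have ha : (HahnSeries.C (algebraMap R L a) : LaurentSeries L) ∈ gaussInt R L :=
    C_algebraMap_mem_gaussInt a
  have hb : (HahnSeries.C (algebraMap R L b) : LaurentSeries L) ∈ gaussInt R L :=
    C_algebraMap_mem_gaussInt b
  have hmem : emb R L (twistQuot ζ s) ^ (q - 1) * HahnSeries.C (algebraMap R L a) -
      HahnSeries.C (algebraMap R L b) * hostMu (emb R L s) q ∈ gaussInt R L :=
    sub_mem (mul_mem (pow_mem hU _) ha) (mul_mem hb hμ)
  refine ⟨hmem, ?_⟩
  have e : (⟨_, hmem⟩ : gaussInt R L) =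
      (⟨emb R L (twistQuot ζ s), hU⟩ : gaussInt R L) ^ (q - 1) * ⟨_, ha⟩ -
        ⟨_, hb⟩ * ⟨hostMu (emb R L s) q, hμ⟩ := Subtype.ext rfl
  have hCa : gaussRed R L ⟨HahnSeries.C (algebraMap R L a), ha⟩ =
      HahnSeries.C (IsLocalRing.residue R a) := by
    have e1 : (⟨HahnSeries.C (algebraMap R L a), ha⟩ : gaussInt R L) =
        ⟨emb R L (HahnSeries.C a), emb_mem_gaussInt R L _⟩ := Subtype.ext (emb_C R L a).symm
    rw [e1, gaussRed_emb, red_C]
  have hCb : gaussRed R L ⟨HahnSeries.C (algebraMap R L b), hb⟩ =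
      HahnSeries.C (IsLocalRing.residue R b) := by
    have e1 : (⟨HahnSeries.C (algebraMap R L b), hb⟩ : gaussInt R L) =
        ⟨emb R L (HahnSeries.C b), emb_mem_gaussInt R L _⟩ := Subtype.ext (emb_C R L b).symm
    rw [e1, gaussRed_emb, red_C]
  rw [e, map_sub, map_mul, map_mul, map_pow, gaussRed_emb,
    red_twistQuot_of_residue_eq_one ζ hζ, hμred, hCa, hCb, hab]
  ring

end Mu

end

end Fermat.Agent.S36
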