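/-
S36 [HOST11] — helper6 — part 5: **the congruence `δ^{q-1}/π ≡ c₀⁻¹ · A'(μ)` on the middle
sheet** (`F`-level).  For `c ∈ F_M` given by a series over `R` with coefficients in `𝔽_q` modulo
the maximal ideal and a unit coefficient in degree `±1`, `δ = B'B c − A'A c`, and `m ∈ F_{Mq}` with
expansion `μ = (θ c)(x^q)/(θ c)(x)` (`= (1/q) · d(Bc)/d(Ac)`):
`w11 (δ^{q-1} · π⁻¹ · c₀ − A' m) < 1` when `π = (ζ-1)^{q-1} u` in `R'` and `c₀ ≡ u`.
-/
import Mathlib
import Fermat.Agent.S36.MODEL36_helper6_Kron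
import Fermat.Agent.S36.HOST11_helper6_Mu

set_option autoImplicit false
set_option linter.unusedSectionVars false
set_option linter.style.haveILetI false
set_option synthInstance.maxHeartbeats 200000

open ModularCurve Fermat.Agent.Igusa Fermat.Agent.JA Fermat.Agent.SS Fermat.Agent.X0N
open Fermat.Agent.S35 AlgebraicCurve

namespace Fermat.Agent.S36

noncomputable section

section BaseChange

variable {R : Type*} [CommRing R] [IsDomain R] [IsDiscreteValuationRing R]
  {R' : Type*} [CommRing R'] [IsDomain R'] [IsDiscreteValuationRing R']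
  (φ : R →+* R') [IsLocalHom φ]

/-- coefficient extension along a local homomorphism commutes with reduction. -/
theorem red_coeffMap_local (s : LaurentSeries R) :
    red R' (coeffMap φ s) = coeffMap (IsLocalRing.ResidueField.map φ) (red R s) := by
  rw [red, red, coeffMap_coeffMap, coeffMap_coeffMap]
  exact coeffMap_congr (RingHom.ext fun r => rfl) s

/-- Frobenius-fixed reductions stay Frobenius-fixed under a local homomorphism. -/
theorem coeffMap_frobenius_red_coeffMap_local (q : ℕ)
    [ExpChar (IsLocalRing.ResidueField R) q] [ExpChar (IsLocalRing.ResidueField R') q]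
    (s : LaurentSeries R)
    (hs : coeffMap (frobenius (IsLocalRing.ResidueField R) q) (red R s) = red R s) :
    coeffMap (frobenius (IsLocalRing.ResidueField R') q) (red R' (coeffMap φ s)) =
      red R' (coeffMap φ s) := by
  rw [red_coeffMap_local, coeffMap_coeffMap]
  conv_rhs => rw [← hs, coeffMap_coeffMap]
  refine coeffMap_congr (RingHom.ext fun a => ?_) _
  rw [RingHom.comp_apply, RingHom.comp_apply, frobenius_def, frobenius_def, map_pow]

end BaseChange

section HostMuMap

variable {K K' : Type*} [Field K] [Field K'] (κ : K →+* K') (q : ℕ) [NeZero q]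

/-- `μ` commutes with coefficient extensions. -/
theorem coeffMap_hostMu (t : LaurentSeries K) :
    coeffMap κ (hostMu t q) = hostMu (coeffMap κ t) q := by
  have h1 : ∀ f : LaurentSeries K, coeffMap κ (eulerFun f) = eulerFun (coeffMap κ f) := by
    intro f
    have := eulerD_coeffMap κ f
    rw [eulerD_apply, eulerD_apply] at this
    exact this.symm
  rw [hostMu, hostMu, map_mul, map_inv₀, coeffMap_qExpand, h1]

end HostMuMap

section Eq

variable (R : Type*) [CommRing R] [IsDomain R] [IsDiscreteValuationRing R]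
  (K : Type*) [Field K] [Algebra R K] [IsFractionRing R K] [Algebra ℚ K] [Algebra K ℂ]
  {M q : ℕ} [NeZero M] [NeZero q] [NeZero (M * q)] [NeZero (M * q * q)] {x y : ℤ}
  (h : (q : ℤ) * x + M * y = 1) (hq : q.Prime)
  {R' : Type*} [CommRing R'] [IsDomain R'] [IsDiscreteValuationRing R']
  {K' : Type*} [Field K'] [Algebra R' K'] [IsFractionRing R' K']
  (φ : R →+* R') [IsLocalHom φ] (κ : K →+* K')
  (hκ : ∀ r : R, κ (algebraMap R K r) = algebraMap R' K' (φ r))
  (ζ : R'ˣ) (hζq : ζ ^ q = 1) (hζ1 : ζ ≠ 1)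

include hκ in
/-- **`δ^{q-1} · π⁻¹ · c₀ ≡ A'(μ)` on the middle sheet.** -/
theorem keyFqW11_valuation_pow_sub_mu [ExpChar (IsLocalRing.ResidueField R) q]
    {π : R} (hπ : ¬ IsUnit π) (u : R'ˣ)
    (hπζ : φ π = ((ζ : R') - 1) ^ (q - 1) * u)
    (c₀ : R) (hc₀ : IsLocalRing.residue R' (φ c₀) = IsLocalRing.residue R' (u : R'))
    (c : ↥(keyFq K M)) (s : LaurentSeries R)
    (hs : (c : LaurentSeries K) = emb R K s)
    (hfrob : coeffMap (frobenius (IsLocalRing.ResidueField R) q) (red R s) = red R s)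
    {n : ℤ} (hn : n = 1 ∨ n = -1) (hu : IsUnit (s.coeff n))
    (m : ↥(keyFq K (M * q)))
    (hm : (m : LaurentSeries K) = hostMu (c : LaurentSeries K) q) :
    (keyFqW11 R K h hq φ κ hκ ζ hζq hζ1).valuation
      ((pull2 K M q c - pull0 K M q c) ^ (q - 1) *
        (algebraMap R ↥(keyFq K (M * q * q)) π)⁻¹ * algebraMap R ↥(keyFq K (M * q * q)) c₀ -
        keyFqA K (M * q) q m) < 1 := by
  haveI : ExpChar (IsLocalRing.ResidueField R') q :=
    expChar_of_injective_ringHom (IsLocalRing.ResidueField.map φ).injective q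
  have hζres : IsLocalRing.residue R' (ζ : R') = 1 :=
    residue_zeta_eq_one_of_eq R φ ζ hπ u hπζ
  set s' : LaurentSeries R' := coeffMap φ s with hs'
  have hfrob' := coeffMap_frobenius_red_coeffMap_local φ q s hfrob
  have hus : IsUnit (s'.coeff n) := by rw [hs', coeffMap_coeff]; exact hu.map φ
  have hθ : eulerFun (red R' s') ≠ 0 := by
    intro h0
    have h1 := congrArg (fun z => HahnSeries.coeff z n) h0
    simp only [eulerFun_coeff, red_coeff, HahnSeries.coeff_zero] at h1
    have h2 : IsLocalRing.residue R' (s'.coeff n) ≠ 0 := by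
      intro h3
      rw [IsLocalRing.residue_eq_zero_iff] at h3
      exact (IsLocalRing.mem_maximalIdeal _).1 h3 hus
    rcases hn with rfl | rfl
    · simp only [Int.cast_one, one_mul] at h1
      exact h2 h1
    · simp only [Int.cast_neg, Int.cast_one, neg_mul, one_mul, neg_eq_zero] at h1
      exact h2 h1
  have hab : IsLocalRing.residue R' (((u⁻¹ : R'ˣ) : R') * φ c₀) = IsLocalRing.residue R' 1 := by
    rw [map_mul, hc₀, ← map_mul, Units.inv_mul]
  obtain ⟨hX, hX0⟩ := exists_gaussRed_pow_sub_hostMu (L := K') q ζ hζres s' hfrob' hθ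
    (((u⁻¹ : R'ˣ) : R') * φ c₀) 1 hab
  -- the expansion
  have hζ0 : ((ζ : R') - 1) ≠ 0 := by
    intro h0
    exact hζ1 (Units.ext (by rw [Units.val_one]; exact sub_eq_zero.1 h0))
  have ha0 : (HahnSeries.C (algebraMap R' K' ((ζ : R') - 1)) : LaurentSeries K') ≠ 0 :=
    C_algebraMap_ne_zero hζ0
  have hvinv : (HahnSeries.C (algebraMap R' K' (u : R')) : LaurentSeries K')⁻¹ =
      HahnSeries.C (algebraMap R' K' ((u⁻¹ : R'ˣ) : R')) := by
    apply inv_eq_of_mul_eq_one_right
    rw [← map_mul, ← map_mul, Units.mul_inv, map_one, map_one]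
  have hexp : midEmb K h hq κ ζ hζq hζ1
      ((pull2 K M q c - pull0 K M q c) ^ (q - 1) *
        (algebraMap R ↥(keyFq K (M * q * q)) π)⁻¹ * algebraMap R ↥(keyFq K (M * q * q)) c₀ -
        keyFqA K (M * q) q m) =
      emb R' K' (twistQuot ζ s') ^ (q - 1) *
        HahnSeries.C (algebraMap R' K' (((u⁻¹ : R'ˣ) : R') * φ c₀)) -
        HahnSeries.C (algebraMap R' K' 1) * hostMu (emb R' K' s') q := by
    rw [map_sub, map_mul, map_mul, map_pow, map_inv₀,
      midEmb_pull2_sub_pull0 R K h hq φ κ hκ ζ hζq hζ1 c s hs,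
      midEmb_algebraMap_base R K h hq φ κ hκ ζ hζq hζ1,
      midEmb_algebraMap_base R K h hq φ κ hκ ζ hζq hζ1, keyFqMid_keyFqA, hm, coeffMap_hostMu, hs,
      coeffMap_emb_eq_emb R K φ κ hκ, hπζ, map_one, map_one, one_mul]
    congr 1
    rw [map_mul (algebraMap R' K'), map_mul (HahnSeries.C), map_pow, map_pow, mul_pow, mul_inv,
      hvinv, map_mul (algebraMap R' K'), map_mul (HahnSeries.C)]
    have hp0 := pow_ne_zero (q - 1) ha0
    field_simp
    rw [hs', mul_comm]
  unfold keyFqW11
  rw [sinfemb_comap_valuation_lt_one_iff, gaussValSub_valuation_lt_one_iff]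
  have hcoe : ((midEmbGauss R K h hq φ κ hκ ζ hζq hζ1
      ((pull2 K M q c - pull0 K M q c) ^ (q - 1) *
        (algebraMap R ↥(keyFq K (M * q * q)) π)⁻¹ * algebraMap R ↥(keyFq K (M * q * q)) c₀ -
        keyFqA K (M * q) q m) : ↥(gaussField R' K')) : LaurentSeries K') =
      emb R' K' (twistQuot ζ s') ^ (q - 1) *
        HahnSeries.C (algebraMap R' K' (((u⁻¹ : R'ˣ) : R') * φ c₀)) -
        HahnSeries.C (algebraMap R' K' 1) * hostMu (emb R' K' s') q := hexp
  have hmem : ((midEmbGauss R K h hq φ κ hκ ζ hζq hζ1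
      ((pull2 K M q c - pull0 K M q c) ^ (q - 1) *
        (algebraMap R ↥(keyFq K (M * q * q)) π)⁻¹ * algebraMap R ↥(keyFq K (M * q * q)) c₀ -
        keyFqA K (M * q) q m) : ↥(gaussField R' K')) : LaurentSeries K') ∈ gaussInt R' K' := by
    rw [hcoe]; exact hX
  refine ⟨hmem, ?_⟩
  have e : (⟨_, hmem⟩ : gaussInt R' K') = ⟨_, hX⟩ := Subtype.ext hcoe
  rw [e]
  exact hX0

end Eq

end

end Fermat.Agent.S36
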