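/-
S36 [HOST11], Hesse twin — helper9 — part 3: **the uniformizer `δ_t = t(x⁴) − t(x)` of the middle
sheet of the Hesse host of level `M · 4`** and the congruence `δ_t/π · c₀ ≡ A'(μ)` on `hesW11`
(`μ ∈ hesE K (M · 2)` with expansion `(θ t)(x²)/(θ t)(x)`, i.e. `μ = (1/2) · dt₁/dt₀`).  Mirror of
`HOST11_helper6_LegEq` (the `F`-level statements of helper6 are generic in `q`).
-/
import Mathlib
import Fermat.Agent.S36.HOST11H_helper9_Hes
import Fermat.Agent.S36.HOST11H_helper9_Series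
import Fermat.Agent.S36.HOST11_helper6_Eq

set_option autoImplicit false
set_option linter.unusedSectionVars false
set_option linter.style.haveILetI false
set_option synthInstance.maxHeartbeats 200000

open HahnSeries ModularCurve Fermat.Agent.Igusa Fermat.Agent.X0N Fermat.Agent.RatStr
open IntermediateField Fermat.Agent.JA Fermat.Agent.SS Fermat.Agent.S35

namespace Fermat.Agent.S36

noncomputable section

section Val

variable {F E : Type*} [Field F] [Field E]

/-- equality of valuations through a restriction (own copy: `HOST11_helper6_LegEq` is not imported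
because of the name `legDelta`). -/
theorem host11h_comap_valuation_eq_iff (ι : F →+* E) (V : ValuationSubring E) (a b : F) :
    (V.comap ι).valuation a = (V.comap ι).valuation b ↔
      V.valuation (ι a) = V.valuation (ι b) := by
  by_cases ha : a = 0
  · subst ha
    rw [map_zero, map_zero, map_zero, eq_comm, Valuation.zero_iff, eq_comm (a := (0 : _)),
      Valuation.zero_iff, map_eq_zero]
  by_cases hb : b = 0
  · subst hb
    rw [map_zero, map_zero, map_zero, Valuation.zero_iff, Valuation.zero_iff, map_eq_zero]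
  have ha' : ι a ≠ 0 := (map_ne_zero ι).mpr ha
  have hb' : ι b ≠ 0 := (map_ne_zero ι).mpr hb
  rw [TwoExt.val_eq_iff_mul_inv_mem _ ha hb, TwoExt.val_eq_iff_mul_inv_mem _ ha' hb',
    ValuationSubring.mem_comap, ValuationSubring.mem_comap, map_mul, map_mul, map_inv₀, map_inv₀]

end Val

section Hes

variable (R : Type*) [CommRing R] [IsDomain R] [IsDiscreteValuationRing R] [CharZero R]
  (K : Type*) [Field K] [Algebra R K] [IsFractionRing R K] [Algebra ℚ K] [Algebra K ℂ]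
  {M : ℕ} [NeZero M] [NeZero (M * 2)] [NeZero (M * 2 * 2)]
  [NeZero (9 * M)] [NeZero (9 * M * 2)] [NeZero (9 * M * 2 * 2)]
  {x y x' y' : ℤ} (hbez : ((2 : ℕ) : ℤ) * x + M * y = 1)
  (h' : ((2 : ℕ) : ℤ) * x' + ((9 * M : ℕ) : ℤ) * y' = 1)
  {R' : Type*} [CommRing R'] [IsDomain R'] [IsDiscreteValuationRing R']
  {K' : Type*} [Field K'] [Algebra R' K'] [IsFractionRing R' K']
  (φ : R →+* R') [IsLocalHom φ] (κ : K →+* K')
  (hκ : ∀ r : R, κ (algebraMap R K r) = algebraMap R' K' (φ r))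
  (ζ : R'ˣ) (hζq : ζ ^ 2 = 1) (hζ1 : ζ ≠ 1)

open scoped Fermat.Agent.JA.Host

/-- the Hesse coordinate as an element of the host. -/
def hesTE (N : ℕ) [NeZero N] : ↥(hesE K N) :=
  ⟨hesT K, (le_sup_left : K⟮hesT K⟯ ≤ hesE K N) (mem_adjoin_simple_self K _)⟩

@[simp] theorem coe_hesTE (N : ℕ) [NeZero N] : ((hesTE K N : ↥(hesE K N)) : LaurentSeries K) =
    hesT K := rfl

variable (M) in
/-- the Hesse coordinate as an element of `F_{9M}`. -/
def hesTFull : ↥(keyFq K (9 * M)) :=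
  ⟨hesT K, keyFq_le_of_dvd K (Dvd.intro M rfl) (hesT_mem_keyFq K)⟩

@[simp] theorem coe_hesTFull : ((hesTFull K M : ↥(keyFq K (9 * M))) : LaurentSeries K) =
    hesT K := rfl

variable (M) in
/-- **`δ_t = t₂ − t₀`**, `t₂ = B'B t`, `t₀ = A'A t` (Hesse). -/
def hesDeltaT : ↥(hesE K (M * 2 * 2)) :=
  hesHostB K (M * 2) (hesHostB K M (hesTE K M)) -
    hesHostA K (M * 2) 2 (hesHostA K M 2 (hesTE K M))

theorem coe_hesDeltaT : ((hesDeltaT K M : ↥(hesE K (M * 2 * 2))) : LaurentSeries K) =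
    qExpand K 2 (qExpand K 2 (hesT K)) - hesT K := by
  rw [hesDeltaT, AddSubgroupClass.coe_sub, coe_hesHostB, coe_hesHostB, coe_hesHostA, coe_hesHostA,
    coe_hesTE]

theorem hesToFullSq_hesDeltaT :
    hesToFullSq K M (hesDeltaT K M) =
      pull2 K (9 * M) 2 (hesTFull K M) - pull0 K (9 * M) 2 (hesTFull K M) := by
  apply Subtype.ext
  rw [coe_hesToFullSq, coe_hesDeltaT, AddSubgroupClass.coe_sub, coe_pull2, coe_pull0, coe_hesTFull]

theorem hesToFullSq_algebraMap_base (r : R) :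
    hesToFullSq K M (algebraMap R ↥(hesE K (M * 2 * 2)) r) =
      algebraMap R ↥(keyFq K (9 * M * 2 * 2)) r := by
  rw [IsScalarTower.algebraMap_apply R K ↥(hesE K (M * 2 * 2)), AlgHom.commutes,
    ← IsScalarTower.algebraMap_apply R K ↥(keyFq K (9 * M * 2 * 2))]

/-- **`w11 (δ_t^{2-1}) = w11 π`** on the Hesse host. -/
theorem hesW11_valuation_hesDeltaT (h3 : IsUnit (3 : R)) {π : R} (u : R'ˣ)
    (hπζ : φ π = ((ζ : R') - 1) ^ (2 - 1) * u) :
    (hesW11 R K h' φ κ hκ ζ hζq hζ1).valuation (hesDeltaT K M ^ (2 - 1)) =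
      (hesW11 R K h' φ κ hκ ζ hζq hζ1).valuation
        (algebraMap R ↥(hesE K (M * 2 * 2)) π) := by
  obtain ⟨s, hs, ⟨n, hn, hu⟩, -⟩ := exists_hesT_series R K h3
  rw [hesW11_eq_comap, host11h_comap_valuation_eq_iff]
  show (keyFqW11 R K h' Nat.prime_two φ κ hκ ζ hζq hζ1).valuation
      (hesToFullSq K M (hesDeltaT K M ^ (2 - 1))) =
    (keyFqW11 R K h' Nat.prime_two φ κ hκ ζ hζq hζ1).valuation
      (hesToFullSq K M (algebraMap R ↥(hesE K (M * 2 * 2)) π))
  rw [map_pow, hesToFullSq_hesDeltaT, hesToFullSq_algebraMap_base]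
  exact keyFqW11_valuation_witness R K h' Nat.prime_two φ κ hκ ζ hζq hζ1 u hπζ (hesTFull K M) s
    hs hn hu

/-- **`δ_t^{2-1} · π⁻¹ · c₀ ≡ A'(μ)` on the middle sheet of the Hesse host.** -/
theorem hesW11_valuation_pow_sub_mu [ExpChar (IsLocalRing.ResidueField R) 2]
    (h3 : IsUnit (3 : R)) {π : R} (hπ : ¬ IsUnit π) (u : R'ˣ)
    (hπζ : φ π = ((ζ : R') - 1) ^ (2 - 1) * u)
    (c₀ : R) (hc₀ : IsLocalRing.residue R' (φ c₀) = IsLocalRing.residue R' (u : R'))
    (m : ↥(hesE K (M * 2))) (hm : (m : LaurentSeries K) = hostMu (hesT K) 2) :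
    (hesW11 R K h' φ κ hκ ζ hζq hζ1).valuation
      (hesDeltaT K M ^ (2 - 1) * (algebraMap R ↥(hesE K (M * 2 * 2)) π)⁻¹ *
        algebraMap R ↥(hesE K (M * 2 * 2)) c₀ - hesHostA K (M * 2) 2 m) < 1 := by
  obtain ⟨s, hs, ⟨n, hn, hu⟩, hfrob⟩ := exists_hesT_series R K h3
  rw [hesW11_eq_comap, sinfemb_comap_valuation_lt_one_iff]
  show (keyFqW11 R K h' Nat.prime_two φ κ hκ ζ hζq hζ1).valuation
      (hesToFullSq K M (hesDeltaT K M ^ (2 - 1) *
        (algebraMap R ↥(hesE K (M * 2 * 2)) π)⁻¹ *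
        algebraMap R ↥(hesE K (M * 2 * 2)) c₀ - hesHostA K (M * 2) 2 m)) < 1
  rw [map_sub, map_mul, map_mul, map_inv₀, map_pow, hesToFullSq_hesDeltaT,
    hesToFullSq_algebraMap_base, hesToFullSq_algebraMap_base]
  have e : hesToFullSq K M (hesHostA K (M * 2) 2 m) =
      keyFqA K (9 * M * 2) 2
        (hostToFull K M 2 3 (9 * M) (hes_dvd_nine M) (hesT K) (hesT_mem_keyFq K) m) :=
    hostToFullSq_A K 3 (9 * M) (hes_dvd_nine M) (hesT K) (hesT_mem_keyFq K) _
      (coe_hesHostA K (M * 2) 2) m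
  rw [e]
  exact keyFqW11_valuation_pow_sub_mu R K h' Nat.prime_two φ κ hκ ζ hζq hζ1 hπ u hπζ c₀ hc₀
    (hesTFull K M) s hs (hfrob 2) hn hu _ (by rw [coe_hostToFull, hm, coe_hesTFull])

end Hes

end

end Fermat.Agent.S36
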