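/-
S36 [W11LOC] — helper5 — abstract assembly: **the local equation of the middle sheet `W11` at its
non-cuspidal single-sheet closed points** (= hypothesis `hLE1` of helper3's
`sheetDatumAt_three_sheet_chart`).

Two levels as in `POINTS36_helper3_Chart`: the two-sheet chart `chartOne R E₁ j₁` (sheets `W10`,
`W01`) and the three-sheet chart `chartOne R E j₂` (`W 0 = W20`, `W 1 = W11`, `W 2 = W02`),
`α : E₁ → E` the degeneracy map with `W20, W11 ↦ W10`, `W02 ↦ W01`.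
Inputs: `μ ∈ E₁` a unit of the local ring at every closed point of the lower chart off the sheet
`W01` (REG1: `μ = ∂_{t0}(t1)/q`, the Hasse invariant), `z` in the upper chart, a uniformizer of
`W11`, with `z ^ k / π ≡ c · α μ` on `W11` (`c ∈ Rˣ`; (C2): `z = t0 − t2`, `k = q − 1`).
Then `z` is a local equation of `W11` at every closed point lying on `W11` only.
-/
import Mathlib
import Fermat.Agent.S36.POINTS36_helper3_Chart
import Fermat.Agent.S36.W11LOC_helper5_Abs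

set_option autoImplicit false
set_option linter.unusedSectionVars false
set_option linter.style.haveILetI false

namespace Fermat.Agent.S36

open Fermat.Agent.JA Fermat.Agent.SS

section Asm

variable {R : Type*} [CommRing R] [IsDomain R] [IsDiscreteValuationRing R] [CharZero R]
  {K₁ : Type*} [Field K₁] [Algebra R K₁] [IsFractionRing R K₁]
  {KN₁ : Type*} [Field KN₁] [Algebra K₁ KN₁] [Algebra R KN₁] [IsScalarTower R K₁ KN₁]
  {E₁ : Type*} [Field E₁] [Algebra KN₁ E₁] [Algebra R E₁] [IsScalarTower R KN₁ E₁]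
  [FiniteDimensional KN₁ E₁]
  {KN₂ : Type*} [Field KN₂] [Algebra K₁ KN₂] [Algebra R KN₂] [IsScalarTower R K₁ KN₂]
  {E : Type*} [Field E] [Algebra KN₂ E] [Algebra R E] [IsScalarTower R KN₂ E]
  [FiniteDimensional KN₂ E]
  {π : R} {j₁ : KN₁} {j₂ : KN₂} {W10 W01 : ValuationSubring E₁} {W : Fin 3 → ValuationSubring E}

/-- the contraction along `α` of a closed point lying on `W11` only is a closed point off `W01`. -/
theorem comap_not_le_zero_of_only (hπ : Irreducible π)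
    (hj₁ : Transcendental K₁ j₁) (hKj₁ : IntermediateField.adjoin K₁ {j₁} = ⊤)
    (hj₂ : Transcendental K₁ j₂) (hKj₂ : IntermediateField.adjoin K₁ {j₂} = ⊤)
    (h2 : IsTwoSheet π j₁ W10 W01) (fam : IsSheetFamily π j₂ W) (α : E₁ →+* E)
    (hαR : ∀ r : R, α (algebraMap R E₁ r) = algebraMap R E r)
    (hαB : ∀ b ∈ chartOne R E₁ j₁, α b ∈ chartOne R E j₂)
    (hαint : (chartRestrictHom (B' := chartOne R E₁ j₁) (B := chartOne R E j₂) α hαB).IsIntegral)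
    (hα0 : (W 0).comap α = W10) (hα1 : (W 1).comap α = W10)
    (𝔫 : Ideal ↥(chartOne R E j₂)) [h𝔫 : 𝔫.IsPrime]
    (honly : ∀ l, sheetIdeal j₂ (W l) (fam.chart_le l) ≤ 𝔫 → l = 1) :
    ¬ sheetIdeal j₁ W01 h2.chart_le_zero ≤
      𝔫.comap (chartRestrictHom (B' := chartOne R E₁ j₁) (B := chartOne R E j₂) α hαB) := by
  classical
  haveI : IsIntegrallyClosed ↥(chartOne R E₁ j₁) := isIntegrallyClosed_chartOne (K₁ := K₁) j₁ hKj₁
  intro hle₁
  obtain ⟨hne, -, -, -⟩ := h2.not_le hπ hj₁ hKj₁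
  have hcm : ∀ {V : ValuationSubring E} {V' : ValuationSubring E₁},
      V.comap α = V' → ∀ x : E₁, x ∈ V' ↔ α x ∈ V := by
    intro V V' h x
    rw [← h]
    exact ValuationSubring.mem_comap
  have hra : ∀ b ∈ sheetIdeal j₁ W10 h2.chart_le_inf,
      chartRestrictHom α hαB b ∈ sheetIdeal j₂ (W 0) (fam.chart_le 0) := by
    intro b hb
    rw [mem_sheetIdeal_iff] at hb ⊢
    exact (valuation_lt_one_iff_of_comap α (hcm hα0) _).mp hb
  have hrb : ∀ b ∈ sheetIdeal j₁ W10 h2.chart_le_inf,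
      chartRestrictHom α hαB b ∈ sheetIdeal j₂ (W 1) (fam.chart_le 1) := by
    intro b hb
    rw [mem_sheetIdeal_iff] at hb ⊢
    exact (valuation_lt_one_iff_of_comap α (hcm hα1) _).mp hb
  have hcover : ∀ 𝔮 : Ideal ↥(chartOne R E j₂), 𝔮.IsPrime →
      chartRestrictHom α hαB (algebraMap R ↥(chartOne R E₁ j₁) π) ∈ 𝔮 →
      sheetIdeal j₂ (W 0) (fam.chart_le 0) ≤ 𝔮 ∨ sheetIdeal j₂ (W 1) (fam.chart_le 1) ≤ 𝔮 ∨
        sheetIdeal j₂ (W 2) (fam.chart_le 2) ≤ 𝔮 := by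
    intro 𝔮 h𝔮 hπ𝔮
    haveI := h𝔮
    have hπ𝔮' : algebraMap R ↥(chartOne R E j₂) π ∈ 𝔮 := by
      have e : chartRestrictHom α hαB (algebraMap R ↥(chartOne R E₁ j₁) π) =
          algebraMap R ↥(chartOne R E j₂) π := Subtype.ext (hαR π)
      rwa [e] at hπ𝔮
    obtain ⟨l, hl⟩ := fam.exists_sheet_le_of_mem hπ hj₂ hKj₂ 𝔮 hπ𝔮'
    fin_cases l
    · exact Or.inl hl
    · exact Or.inr (Or.inl hl)
    · exact Or.inr (Or.inr hl)
  haveI : (𝔫.comap (chartRestrictHom (B' := chartOne R E₁ j₁) (B := chartOne R E j₂) α hαB)).IsPrime :=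
    Ideal.comap_isPrime _ _
  have h2le : sheetIdeal j₂ (W 2) (fam.chart_le 2) ≤ 𝔫 :=
    sheet_le_of_under α hαB hαint hne hra hrb (h2.pi_mem_zero (K₁ := K₁) hπ) hcover hle₁
      (fun b => Iff.rfl)
  have := honly 2 h2le
  exact absurd this (by decide)

/-- **the local equation of `W11` at its non-cuspidal single-sheet closed points** (`hLE1`). -/
theorem local_equation_w11_of_unit_cong (hπ : Irreducible π)
    (hj₁ : Transcendental K₁ j₁) (hKj₁ : IntermediateField.adjoin K₁ {j₁} = ⊤)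
    (hj₂ : Transcendental K₁ j₂) (hKj₂ : IntermediateField.adjoin K₁ {j₂} = ⊤)
    (h2 : IsTwoSheet π j₁ W10 W01) (fam : IsSheetFamily π j₂ W) (α : E₁ →+* E)
    (hαR : ∀ r : R, α (algebraMap R E₁ r) = algebraMap R E r)
    (hαB : ∀ b ∈ chartOne R E₁ j₁, α b ∈ chartOne R E j₂)
    (hαint : (chartRestrictHom (B' := chartOne R E₁ j₁) (B := chartOne R E j₂) α hαB).IsIntegral)
    (hα0 : (W 0).comap α = W10) (hα1 : (W 1).comap α = W10)
    {μ : E₁}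
    (hμ : ∀ (𝔪 : Ideal ↥(chartOne R E₁ j₁)) [𝔪.IsPrime], 𝔪.IsMaximal →
      algebraMap R ↥(chartOne R E₁ j₁) π ∈ 𝔪 → ¬ sheetIdeal j₁ W01 h2.chart_le_zero ≤ 𝔪 →
      μ ∈ locRing (chartOne R E₁ j₁) 𝔪 ∧ μ ∉ locMax (chartOne R E₁ j₁) 𝔪)
    {z : ↥(chartOne R E j₂)} (hz1 : (W 1).valuation (z : E) < 1) (hz0 : z ≠ 0)
    (hzunif : ∀ x : E, (W 1).valuation x < 1 → x * (z : E)⁻¹ ∈ W 1)
    {k : ℕ} (hk : k ≠ 0) {c : R} (hc : IsUnit c)
    (hcong : (W 1).valuation ((z : E) ^ k / algebraMap R E π - algebraMap R E c * α μ) < 1) :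
    ∀ (𝔫 : Ideal ↥(chartOne R E j₂)) (_ : 𝔫.IsMaximal),
      sheetIdeal j₂ (W 1) (fam.chart_le 1) ≤ 𝔫 →
      (∀ l, sheetIdeal j₂ (W l) (fam.chart_le l) ≤ 𝔫 → l = 1) →
      ∃ z : ↥(chartOne R E j₂), z ∈ sheetIdeal j₂ (W 1) (fam.chart_le 1) ∧ z ≠ 0 ∧
        ∀ w ∈ sheetIdeal j₂ (W 1) (fam.chart_le 1),
          ∃ s : ↥(chartOne R E j₂), s ∉ 𝔫 ∧ z ∣ s * w := by
  classical
  intro 𝔫 h𝔫 hle honly
  haveI := h𝔫
  haveI h𝔫p : 𝔫.IsPrime := h𝔫.isPrime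
  set ψ : ↥(chartOne R E₁ j₁) →+* ↥(chartOne R E j₂) :=
    chartRestrictHom (B' := chartOne R E₁ j₁) (B := chartOne R E j₂) α hαB with hψ
  set 𝔫₁ : Ideal ↥(chartOne R E₁ j₁) := 𝔫.comap ψ with h𝔫₁def
  haveI h𝔫₁ : 𝔫₁.IsMaximal := Ideal.isMaximal_comap_of_isIntegral_of_isMaximal' ψ hαint 𝔫
  haveI h𝔫₁p : 𝔫₁.IsPrime := h𝔫₁.isPrime
  have hu : ∀ b : ↥(chartOne R E₁ j₁), b ∈ 𝔫₁ ↔
      (⟨α b, hαB b b.2⟩ : ↥(chartOne R E j₂)) ∈ 𝔫 := fun b => Iff.rfl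
  -- `π ∈ 𝔫₁`
  have hπ1 : algebraMap R ↥(chartOne R E j₂) π ∈ sheetIdeal j₂ (W 1) (fam.chart_le 1) := by
    rw [mem_sheetIdeal_iff]
    have h1 : (W10).valuation (algebraMap R E₁ π) < 1 := by
      have := h2.pi_mem_inf (K₁ := K₁) hπ
      rwa [mem_sheetIdeal_iff] at this
    have hcm : ∀ x : E₁, x ∈ W10 ↔ α x ∈ W 1 := by
      intro x
      rw [← hα1]
      exact ValuationSubring.mem_comap
    have := (valuation_lt_one_iff_of_comap α hcm _).mp h1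
    rwa [hαR] at this
  have hπ𝔫₁ : algebraMap R ↥(chartOne R E₁ j₁) π ∈ 𝔫₁ := by
    show ψ (algebraMap R ↥(chartOne R E₁ j₁) π) ∈ 𝔫
    have e : ψ (algebraMap R ↥(chartOne R E₁ j₁) π) = algebraMap R ↥(chartOne R E j₂) π :=
      Subtype.ext (hαR π)
    rw [e]
    exact hle hπ1
  have hnot := comap_not_le_zero_of_only hπ hj₁ hKj₁ hj₂ hKj₂ h2 fam α hαR hαB hαint hα0 hα1 𝔫
    honly
  obtain ⟨hμ1, hμ2⟩ := hμ 𝔫₁ h𝔫₁ hπ𝔫₁ hnot
  -- `α μ` is a unit of the local ring at `𝔫`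
  have hαμ : α μ ∈ locRing (chartOne R E j₂) 𝔫 := map_mem_locRing α hαB hu hμ1
  have hαμinv : α μ⁻¹ ∈ locRing (chartOne R E j₂) 𝔫 :=
    map_mem_locRing α hαB hu (inv_mem_locRing hμ1 hμ2)
  have hμ0 : μ ≠ 0 := fun h0 => hμ2 (h0 ▸ zero_mem_locMax)
  obtain ⟨uc, rfl⟩ := hc
  set ν : E := algebraMap R E (uc : R) * α μ with hνdef
  have hν : ν ∈ locRing (chartOne R E j₂) 𝔫 :=
    (locRing (chartOne R E j₂) 𝔫).mul_mem ((locRing (chartOne R E j₂) 𝔫).algebraMap_mem _) hαμ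
  have hν' : ν ∉ locMax (chartOne R E j₂) 𝔫 := by
    intro hmax
    have h1 : algebraMap R E ((uc⁻¹ : Rˣ) : R) * α μ⁻¹ ∈ locRing (chartOne R E j₂) 𝔫 :=
      (locRing (chartOne R E j₂) 𝔫).mul_mem ((locRing (chartOne R E j₂) 𝔫).algebraMap_mem _)
        hαμinv
    have h2 := mul_mem_locMax h1 hmax
    have h3 : algebraMap R E ((uc⁻¹ : Rˣ) : R) * α μ⁻¹ * ν = 1 := by
      rw [hνdef, mul_mul_mul_comm, ← map_mul, ← map_mul, Units.inv_mul, inv_mul_cancel₀ hμ0,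
        map_one, map_one, mul_one]
    rw [h3] at h2
    exact one_notMem_locMax h2
  have hzhor := notMem_horizontal_of_pow_div_cong fam hπ hj₂ hKj₂ 𝔫 1 honly hle hk hν hν' hcong
  refine ⟨z, (mem_sheetIdeal_iff j₂ (W 1) (fam.chart_le 1) z).mpr hz1, hz0, ?_⟩
  exact exists_dvd_of_local_equation fam hπ hj₂ hKj₂ 𝔫 1 hz0 hzunif
    (fun l hl hle' => absurd (honly l hle') hl) hzhor

end Asm

end Fermat.Agent.S36
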