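/-
S36 [HOST11], Hesse twin — helper9 — part 4: **`hLE1` on the Hesse host of level `M · 4`** = the
local equation of the middle sheet `W11` at its single-sheet closed points of the chart `j`, in the
literal shape of hypothesis (5) of helper4's `hesGeneric_of_local`.

`z = δ_t = B'B t − A'A t`; `δ_t/π · c₀ ≡ A'(μ)` on `W11` (part 3, from helper6's `F`-level
congruence), `μ = hesMu` a unit of the local rings off `W01` (lead's REG1), then helper5's abstract
assembly `local_equation_w11_of_unit_cong`.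
-/
import Mathlib
import Fermat.Agent.S36.HOST11H_helper9_HesEq
import Fermat.Agent.S36.W11LOC_helper5_Asm
import Fermat.Agent.S36.REG1_lead_Final
import Fermat.Agent.S36.PTSMAP36_helper3_Host
import Fermat.Agent.S36.HOST36_helper7_Delta

set_option autoImplicit false
set_option linter.unusedSectionVars false
set_option linter.unusedVariables false
set_option linter.style.haveILetI false
set_option synthInstance.maxHeartbeats 200000

open HahnSeries ModularCurve Fermat.Agent.Igusa Fermat.Agent.X0N Fermat.Agent.RatStr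
open IntermediateField Fermat.Agent.JA Fermat.Agent.SS Fermat.Agent.S35

namespace Fermat.Agent.S36

noncomputable section

section Cyclo2

variable {R R' : Type*} [CommRing R] [CommRing R'] [IsDomain R'] (φ : R →+* R')

/-- a square root of `1` different from `1` in a domain is `-1`. -/
theorem host11h_zeta_eq_neg_one (ζ : R'ˣ) (hζq : ζ ^ 2 = 1) (hζ1 : ζ ≠ 1) : (ζ : R') = -1 := by
  have h1 : ((ζ : R') - 1) * ((ζ : R') + 1) = 0 := by
    have h2 : (ζ : R') ^ 2 = 1 := by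
      rw [← Units.val_pow_eq_pow_val, hζq, Units.val_one]
    linear_combination h2
  rcases mul_eq_zero.mp h1 with h | h
  · exact absurd (Units.ext (by rw [Units.val_one]; exact sub_eq_zero.mp h)) hζ1
  · exact eq_neg_of_add_eq_zero_left h

/-- **the cyclotomic datum at `q = 2`**: `2 = π · c` and `φ π = (ζ - 1) · u` force
`u · φ c = -1`. -/
theorem host11h_cyclo_two {π c : R} (hq : ((2 : ℕ) : R) = π * c) (ζ u : R'ˣ) (hζq : ζ ^ 2 = 1)
    (hζ1 : ζ ≠ 1) (hπζ : φ π = ((ζ : R') - 1) ^ (2 - 1) * u) : (u : R') * φ c = -1 := by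
  have hζ := host11h_zeta_eq_neg_one ζ hζq hζ1
  have h2 : (2 : R') ≠ 0 := by
    intro h0
    apply hζ1
    apply Units.ext
    rw [Units.val_one, hζ]
    linear_combination -h0
  have h1 : φ ((2 : ℕ) : R) = φ π * φ c := by rw [hq, map_mul]
  rw [map_natCast, hπζ, hζ] at h1
  have h3 : (2 : R') * ((u : R') * φ c + 1) = 0 := by
    have : ((2 : ℕ) : R') = 2 := by norm_num
    rw [this] at h1
    have h4 : (2 - 1 : ℕ) = 1 := rfl
    rw [h4, pow_one] at h1
    linear_combination h1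
  rcases mul_eq_zero.mp h3 with h | h
  · exact absurd h h2
  · exact eq_neg_of_add_eq_zero_left h

/-- the base is unramified at `q = 2`, from the cyclotomic datum. -/
theorem host11h_exists_unit_two [IsLocalRing R] [IsLocalRing R'] [IsLocalHom φ] {π : R}
    (hqπ : ((2 : ℕ) : R) ∈ Ideal.span {π}) (ζ u : R'ˣ) (hζq : ζ ^ 2 = 1)
    (hζ1 : ζ ≠ 1) (hπζ : φ π = ((ζ : R') - 1) ^ (2 - 1) * u) :
    ∃ c : R, IsUnit c ∧ ((2 : ℕ) : R) = π * c := by
  obtain ⟨c, hc⟩ := Ideal.mem_span_singleton'.1 hqπ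
  have hq : ((2 : ℕ) : R) = π * c := by rw [← hc, mul_comm]
  refine ⟨c, ?_, hq⟩
  have h1 := host11h_cyclo_two φ hq ζ u hζq hζ1 hπζ
  have h2 : IsUnit (φ c) := by
    refine IsUnit.of_mul_eq_one (-(u : R')) ?_
    linear_combination -h1
  exact isUnit_of_map_unit φ c h2

end Cyclo2

section Hes

variable (R : Type*) [CommRing R] [IsDomain R] [IsDiscreteValuationRing R] [CharZero R]
  [DecidableEq R]
  (K : Type*) [Field K] [Algebra R K] [IsFractionRing R K] [Algebra ℚ K] [Algebra K ℂ]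
  {M : ℕ} [NeZero M] [NeZero (M * 2)] [NeZero (M * 2 * 2)] {x y : ℤ}
  {π : R}
  {R' : Type*} [CommRing R'] [IsDomain R'] [IsDiscreteValuationRing R']
  {K' : Type*} [Field K'] [Algebra R' K'] [IsFractionRing R' K']

open scoped Fermat.Agent.JA.Host

set_option maxHeartbeats 1600000 in
/-- **`hLE1` on the Hesse host**: the literal of hypothesis (5) of `hesGeneric_of_local`. -/
theorem hesE_hLE1
    (hπ : Irreducible π) (h3 : IsUnit (3 : R)) (ω : R) (hω : ω ^ 2 + ω + 1 = 0)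
    (h : ((2 : ℕ) : ℤ) * x + M * y = 1)
    (hqπ : ((2 : ℕ) : R) ∈ Ideal.span {π})
    (hgeo : GeoHyps K π (AdjoinSimple.gen K (hesT K)) ↥(hesE K M) M
      ({1, ω, ω ^ 2} : Finset R))
    (φ : R →+* R') [IsLocalHom φ] (κ : K →+* K')
    (hκ : ∀ r : R, κ (algebraMap R K r) = algebraMap R' K' (φ r))
    (ζ u : R'ˣ) (hζq : ζ ^ 2 = 1) (hζ1 : ζ ≠ 1)
    (hπζ : φ π = ((ζ : R') - 1) ^ (2 - 1) * u) :
    ∀ (W11 W02 : ValuationSubring ↥(hesE K (M * 2 * 2))),
      W11.comap (hesIncl K (M * 2 * 2)) =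
        hostImageVal K 3 (keyFqW11 R K h Nat.prime_two φ κ hκ ζ hζq hζ1) →
      W02.comap (hesIncl K (M * 2 * 2)) = hostImageVal K 3 (keyFqW02 R K h Nat.prime_two) →
      haveI : FiniteDimensional ↥K⟮jqNModC K 3⟯ ↥(hesE K (M * 2 * 2)) :=
        finite_hesE_adjoin_j K (M * 2 * 2)
      ∀ (fam : IsSheetFamily π (AdjoinSimple.gen K (jqNModC K 3))
        ![hesWinf R K h3 (M * 2 * 2), W11, W02]),
      ∀ (𝔫 : Ideal ↥(chartOne R ↥(hesE K (M * 2 * 2)) (AdjoinSimple.gen K (jqNModC K 3))))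
        (_ : 𝔫.IsMaximal),
      sheetIdeal (AdjoinSimple.gen K (jqNModC K 3)) (![hesWinf R K h3 (M * 2 * 2), W11, W02] 1)
        (fam.chart_le 1) ≤ 𝔫 →
      (∀ l, sheetIdeal (AdjoinSimple.gen K (jqNModC K 3))
        (![hesWinf R K h3 (M * 2 * 2), W11, W02] l) (fam.chart_le l) ≤ 𝔫 → l = 1) →
      ∃ z : ↥(chartOne R ↥(hesE K (M * 2 * 2)) (AdjoinSimple.gen K (jqNModC K 3))),
        z ∈ sheetIdeal (AdjoinSimple.gen K (jqNModC K 3))
          (![hesWinf R K h3 (M * 2 * 2), W11, W02] 1) (fam.chart_le 1) ∧ z ≠ 0 ∧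
        ∀ w ∈ sheetIdeal (AdjoinSimple.gen K (jqNModC K 3))
          (![hesWinf R K h3 (M * 2 * 2), W11, W02] 1) (fam.chart_le 1),
          ∃ s : ↥(chartOne R ↥(hesE K (M * 2 * 2)) (AdjoinSimple.gen K (jqNModC K 3))),
            s ∉ 𝔫 ∧ z ∣ s * w := by
  intro W11 W02 h11 h02
  haveI : FiniteDimensional ↥K⟮jqNModC K 3⟯ ↥(hesE K (M * 2 * 2)) :=
    finite_hesE_adjoin_j K (M * 2 * 2)
  haveI : FiniteDimensional ↥K⟮jqNModC K 3⟯ ↥(hesE K (M * 2)) := finite_hesE_adjoin_j K (M * 2)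
  intro fam
  have hmodel := ssModelHes R K hπ h3 ω hω h hqπ hgeo
  have hm' := SSModelHes.ssModel R K hmodel
  obtain ⟨-, hT⟩ := hesE_isThreeSheet_delta R K hπ h3 ω h hqπ hgeo φ κ hκ ζ hζq hζ1 u hπζ
    W11 W02 h11 h02
  -- the auxiliary level `9 M`
  have hqM : ¬ 2 ∣ M := model36_not_dvd_of_bezout h Nat.prime_two
  obtain ⟨x', y', h'⟩ := exists_bezout_mul Nat.prime_two hqM (by norm_num : ¬ 2 ∣ 9)
  haveI : NeZero (9 * M) := ⟨by have := NeZero.ne M; omega⟩
  haveI : NeZero (9 * M * 2) := ⟨mul_ne_zero (NeZero.ne (9 * M)) two_ne_zero⟩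
  haveI : NeZero (9 * M * 2 * 2) := ⟨mul_ne_zero (NeZero.ne (9 * M * 2)) two_ne_zero⟩
  have hW : hesW11 R K h' φ κ hκ ζ hζq hζ1 = W11 :=
    hesW11_eq_of_isThreeSheet R K h h' φ κ hκ ζ hζq hζ1 hπ hmodel hT
  obtain ⟨hαB, hβB, hαint, hβint⟩ := hesE_chart_maps R K hπ hmodel
  -- the base is unramified
  obtain ⟨cq, hcq, hqcq⟩ := host11h_exists_unit_two φ hqπ ζ u hζq hζ1 hπζ
  have hucq := host11h_cyclo_two φ hqcq ζ u hζq hζ1 hπζ
  obtain ⟨cu, rfl⟩ := hcq
  set c₀ : R := -((cu⁻¹ : Rˣ) : R) with hc₀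
  have hφc₀ : φ c₀ = (u : R') := by
    have h1 : φ c₀ * φ (cu : R) = -1 := by
      rw [← map_mul, hc₀, neg_mul, Units.inv_mul, map_neg, map_one]
    have h2 : IsUnit (φ (cu : R)) := cu.isUnit.map φ
    have h3 : (φ c₀ - (u : R')) * φ (cu : R) = 0 := by linear_combination h1 - hucq
    rcases mul_eq_zero.mp h3 with h4 | h4
    · exact sub_eq_zero.mp h4
    · exact absurd h4 h2.ne_zero
  haveI : CharP (IsLocalRing.ResidueField R) 2 :=
    charP_residueField_of_mem_span hπ Nat.prime_two hqπ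
  haveI : ExpChar (IsLocalRing.ResidueField R) 2 := ExpChar.prime Nat.prime_two
  -- the element `z = δ_t` of the chart
  have hjq := hm'.jq_mem_chartOne hπ
  have eT : algebraMap ↥K⟮hesT K⟯ ↥(hesE K M) (AdjoinSimple.gen K (hesT K)) = hesTE K M :=
    Subtype.ext rfl
  have hAt : (hesHostA K M 2 : ↥(hesE K M) →+* ↥(hesE K (M * 2))) (hesTE K M) ∈
      chartOne R ↥(hesE K (M * 2)) (AdjoinSimple.gen K (jqNModC K 3)) := by
    rw [← eT]; exact hm'.A_t_mem
  have hBt : (hesHostB K M : ↥(hesE K M) →+* ↥(hesE K (M * 2))) (hesTE K M) ∈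
      chartOne R ↥(hesE K (M * 2)) (AdjoinSimple.gen K (jqNModC K 3)) := by
    rw [← eT]; exact hm'.B_t_mem hjq
  have hzmem : hesDeltaT K M ∈
      chartOne R ↥(hesE K (M * 2 * 2)) (AdjoinSimple.gen K (jqNModC K 3)) :=
    Subalgebra.sub_mem _ (hβB _ hBt) (hαB _ hAt)
  set z : ↥(chartOne R ↥(hesE K (M * 2 * 2)) (AdjoinSimple.gen K (jqNModC K 3))) :=
    ⟨hesDeltaT K M, hzmem⟩ with hz
  -- valuations on `W11`
  have hπE : algebraMap R ↥(hesE K (M * 2 * 2)) π ≠ 0 := by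
    rw [IsScalarTower.algebraMap_apply R K ↥(hesE K (M * 2 * 2))]
    exact (_root_.map_ne_zero _).mpr
      ((_root_.map_ne_zero_iff _ (IsFractionRing.injective R K)).mpr hπ.ne_zero)
  have hvz : W11.valuation (hesDeltaT K M) =
      W11.valuation (algebraMap R ↥(hesE K (M * 2 * 2)) π) := by
    have := hesW11_valuation_hesDeltaT R K h' φ κ hκ ζ hζq hζ1 h3 u hπζ
    rw [hW] at this
    have h4 : (2 - 1 : ℕ) = 1 := rfl
    rwa [h4, pow_one] at this
  have hαR := ssModelHes_A_algebraMap R K (M := M * 2)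
  have hπ11 : W11.valuation (algebraMap R ↥(hesE K (M * 2 * 2)) π) < 1 := by
    have h1 : (hesWinf R K h3 (M * 2)).valuation (algebraMap R ↥(hesE K (M * 2)) π) < 1 := by
      have := hm'.two.pi_mem_inf (K₁ := K) hπ
      rwa [mem_sheetIdeal_iff] at this
    have hcm : ∀ x : ↥(hesE K (M * 2)), x ∈ hesWinf R K h3 (M * 2) ↔
        (hesHostA K (M * 2) 2 : ↥(hesE K (M * 2)) →+* ↥(hesE K (M * 2 * 2))) x ∈ W11 := by
      intro x
      rw [← hT.comap_A_11]
      exact ValuationSubring.mem_comap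
    have := (valuation_lt_one_iff_of_comap
      (hesHostA K (M * 2) 2 : ↥(hesE K (M * 2)) →+* ↥(hesE K (M * 2 * 2))) hcm _).mp h1
    rwa [hαR] at this
  have hz1 : W11.valuation (hesDeltaT K M) < 1 := by rw [hvz]; exact hπ11
  have hzE0 : hesDeltaT K M ≠ 0 := by
    intro h0
    rw [h0, map_zero] at hvz
    exact ((Valuation.ne_zero_iff _).mpr hπE) hvz.symm
  have hz0 : z ≠ 0 := fun h0 => hzE0 (congrArg Subtype.val h0)
  have hvδ : W11.valuation (hesDelta K M) = W11.valuation (hesDeltaT K M) := by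
    have := hT.val_δ
    have h4 : (2 - 1 : ℕ) = 1 := rfl
    rw [h4, pow_one] at this
    rw [this, hvz]
  have hzunif : ∀ e : ↥(hesE K (M * 2 * 2)), W11.valuation e < 1 →
      e * (hesDeltaT K M)⁻¹ ∈ W11 := by
    intro e he
    have hδ0 : hesDelta K M ≠ 0 := by
      intro h0
      rw [h0, map_zero] at hvδ
      exact ((Valuation.ne_zero_iff _).mpr hzE0) hvδ.symm
    have e1 : e * (hesDeltaT K M)⁻¹ =
        (e * (hesDelta K M)⁻¹) * (hesDelta K M * (hesDeltaT K M)⁻¹) := by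
      field_simp
    rw [e1]
    refine W11.mul_mem _ _ (hT.unif_11 e he) ?_
    rw [← ValuationSubring.valuation_le_one_iff, map_mul, map_inv₀, hvδ,
      mul_inv_cancel₀ ((Valuation.ne_zero_iff _).mpr hzE0)]
  -- the congruence
  have hπnu : ¬ IsUnit π := hπ.not_isUnit
  have hcong₀ := hesW11_valuation_pow_sub_mu R K h' φ κ hκ ζ hζq hζ1 h3 hπnu u hπζ c₀
    (by rw [hφc₀]) (hesMu R K (M := M) h3) (coe_hesMu R K h3)
  rw [hW] at hcong₀
  have hRW : ∀ r : R, W11.valuation (algebraMap R ↥(hesE K (M * 2 * 2)) r) ≤ 1 := fun r =>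
    (ValuationSubring.valuation_le_one_iff _ _).mpr
      (fam.chart_le 1 _ ((chartOne R ↥(hesE K (M * 2 * 2))
        (AdjoinSimple.gen K (jqNModC K 3))).algebraMap_mem r))
  have hcong : W11.valuation ((z : ↥(hesE K (M * 2 * 2))) ^ (2 - 1) /
      algebraMap R ↥(hesE K (M * 2 * 2)) π -
      algebraMap R ↥(hesE K (M * 2 * 2)) (-(cu : R)) *
        (hesHostA K (M * 2) 2 : ↥(hesE K (M * 2)) →+* ↥(hesE K (M * 2 * 2)))
          (hesMu R K (M := M) h3)) < 1 := by
    have hcc : algebraMap R ↥(hesE K (M * 2 * 2)) (-(cu : R)) *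
        algebraMap R ↥(hesE K (M * 2 * 2)) c₀ = 1 := by
      rw [← map_mul, hc₀, neg_mul_neg, Units.mul_inv, map_one]
    have e1 : (z : ↥(hesE K (M * 2 * 2))) ^ (2 - 1) / algebraMap R ↥(hesE K (M * 2 * 2)) π -
        algebraMap R ↥(hesE K (M * 2 * 2)) (-(cu : R)) *
          (hesHostA K (M * 2) 2 : ↥(hesE K (M * 2)) →+* ↥(hesE K (M * 2 * 2)))
            (hesMu R K (M := M) h3) =
        algebraMap R ↥(hesE K (M * 2 * 2)) (-(cu : R)) *
          (hesDeltaT K M ^ (2 - 1) * (algebraMap R ↥(hesE K (M * 2 * 2)) π)⁻¹ *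
            algebraMap R ↥(hesE K (M * 2 * 2)) c₀ -
            hesHostA K (M * 2) 2 (hesMu R K (M := M) h3)) := by
      have e2 : ((hesHostA K (M * 2) 2 : ↥(hesE K (M * 2)) →+* ↥(hesE K (M * 2 * 2)))
          (hesMu R K (M := M) h3)) = hesHostA K (M * 2) 2 (hesMu R K (M := M) h3) := rfl
      rw [e2, hz, div_eq_mul_inv]
      linear_combination (-(hesDeltaT K M ^ (2 - 1) *
        (algebraMap R ↥(hesE K (M * 2 * 2)) π)⁻¹)) * hcc
    rw [e1, map_mul]
    calc W11.valuation (algebraMap R ↥(hesE K (M * 2 * 2)) (-(cu : R))) * _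
        ≤ 1 * _ := mul_le_mul_left (hRW _) _
      _ < 1 := by rw [one_mul]; exact hcong₀
  intro 𝔫 h𝔫 hle honly
  exact local_equation_w11_of_unit_cong (R := R) (K₁ := K) (KN₁ := ↥K⟮jqNModC K 3⟯)
    (E₁ := ↥(hesE K (M * 2))) (KN₂ := ↥K⟮jqNModC K 3⟯) (E := ↥(hesE K (M * 2 * 2)))
    (W := ![hesWinf R K h3 (M * 2 * 2), W11, W02])
    hπ (ssModelHes_j_transcendental K) (ssModelHes_j_adjoin K)
    (ssModelHes_j_transcendental K) (ssModelHes_j_adjoin K) hm'.two fam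
    (hesHostA K (M * 2) 2 : ↥(hesE K (M * 2)) →+* ↥(hesE K (M * 2 * 2)))
    hαR hαB hαint hT.comap_A_20 hT.comap_A_11
    (μ := hesMu R K (M := M) h3)
    (fun 𝔪 _ _ _ h0 => hesMu_unit_of_not_le_final R K hmodel hπ hω 𝔪 h0)
    (z := z) hz1 hz0 hzunif (k := 2 - 1) (by norm_num) (c := -(cu : R)) cu.isUnit.neg hcong
    𝔫 h𝔫 hle honly

end Hes

end

end Fermat.Agent.S36
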