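/-
S36 [HOST11] — helper6 — part 3: **the Legendre coordinate is the image of a series over `R` with a
unit coefficient in degree `±1`** and Frobenius-fixed reduction (sharpening of
`SS.isPrimeSeries_legT`, whose unit coefficient sits in an unspecified nonzero degree).
-/
import Mathlib
import Fermat.Agent.SS.HOSTINT_helper6_Main

set_option autoImplicit false
set_option linter.unusedSectionVars false
set_option linter.style.haveILetI false

open Polynomial ModularCurve

namespace Fermat.Agent.S36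

open Fermat.Agent.JA Fermat.Agent.SS Fermat.Agent.Igusa

section Rat

variable {A : Type*} [CommRing A]

/-- **the Legendre coordinate over `ℚ` is defined over every ring `A → ℚ` with `2 ∈ Aˣ`**, by a
series with a unit coefficient in degree `1` or `-1`. -/
theorem exists_legT₀_eq_coeffMap_pm (h2 : IsUnit (2 : A)) (φ : A →+* ℚ) :
    ∃ F : LaurentSeries A, legT₀ = coeffMap φ F ∧
      ∃ n : ℤ, (n = 1 ∨ n = -1) ∧ IsUnit (F.coeff n) := by
  obtain ⟨S, hS0, hS⟩ := exists_legendre_root_ring (A := A) h2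
  have hy : (HahnSeries.single (1 : ℤ) (1 : A) * HahnSeries.ofPowerSeries ℤ A S :
      LaurentSeries A) = HahnSeries.ofPowerSeries ℤ A (PowerSeries.X * S) := by
    rw [map_mul, HahnSeries.ofPowerSeries_X]
  rw [hy] at hS
  set y : LaurentSeries A := HahnSeries.ofPowerSeries ℤ A (PowerSeries.X * S) with hy_def
  set u : LaurentSeries ℚ := coeffMap φ y with hu_def
  have h16 : IsUnit (16 : A) := by
    have : (16 : A) = 2 ^ 4 := by norm_num
    rw [this]; exact h2.pow 4
  have hS0u : IsUnit (PowerSeries.constantCoeff S) := by rw [hS0]; exact h16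
  have hyc1 : y.coeff 1 = 16 := by
    rw [hy_def, show (1 : ℤ) = ((1 : ℕ) : ℤ) from rfl,
      HahnSeries.ofPowerSeries_apply_coeff, show (1 : ℕ) = 0 + 1 from rfl,
      PowerSeries.coeff_succ_X_mul, PowerSeries.coeff_zero_eq_constantCoeff_apply, hS0]
  have hyu : IsUnit (y.coeff 1) := by rw [hyc1]; exact h16
  have hc1 : u.coeff 1 = 16 := by
    rw [hu_def, coeffMap_coeff, hyc1, map_ofNat]
  have hutr : Transcendental ℚ u :=
    Host.transcendental_of_coeff_ne_zero (n := 1) one_ne_zero (by rw [hc1]; norm_num)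
  have hu0 : u ≠ 0 := by
    intro h0
    apply hutr
    rw [h0]
    exact isAlgebraic_zero
  have hu1 : u ≠ 1 := by
    intro h0
    apply hutr
    rw [h0]
    exact isAlgebraic_one
  have hrelu : 256 * (u ^ 2 - u + 1) ^ 3 = jqNModC ℚ 2 * (u ^ 2 * (u - 1) ^ 2) := by
    have := congrArg (coeffMap φ) hS
    simp only [map_mul, map_pow, map_sub, map_add, map_one, map_ofNat] at this
    rw [coeffMap_jqNModC] at this
    exact this
  have hrelt : 256 * (legT₀ ^ 2 - legT₀ + 1) ^ 3 =
      jqNModC ℚ 2 * (legT₀ ^ 2 * (legT₀ - 1) ^ 2) := by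
    have := legT₀_spec.2.2
    rw [Host.aeval_legA, Host.aeval_legB] at this
    exact this.symm
  have h2Q : (2 : LaurentSeries ℚ) ≠ 0 := by
    have h : (2 : LaurentSeries ℚ) = algebraMap ℚ (LaurentSeries ℚ) 2 :=
      (map_ofNat (algebraMap ℚ (LaurentSeries ℚ)) 2).symm
    rw [h]
    exact (_root_.map_ne_zero _).mpr (by norm_num)
  obtain ⟨F₁, hF₁, hF₁u⟩ := exists_inv_X_mul S hS0u
  obtain ⟨F₂, hF₂, hF₂c⟩ := exists_inv_one_sub_X_mul S
  have hF₂u : IsUnit (F₂.coeff 1) := by rw [hF₂c]; exact hS0u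
  have hF₁' : coeffMap φ F₁ = u⁻¹ := by
    apply eq_inv_of_mul_eq_one_left
    have := congrArg (coeffMap φ) hF₁
    rwa [map_mul, map_one] at this
  have hF₂' : coeffMap φ F₂ = (1 - u)⁻¹ := by
    apply eq_inv_of_mul_eq_one_left
    have e1 : coeffMap φ (1 - y) = 1 - u := by rw [map_sub, map_one]
    rw [← e1, ← map_mul, hF₂, map_one]
  have hu1' : u - 1 ≠ 0 := sub_ne_zero.mpr hu1
  have hu1'' : (1 : LaurentSeries ℚ) - u ≠ 0 := sub_ne_zero.mpr (Ne.symm hu1)
  have hm1 : (-1 : ℤ) ≠ 0 := by norm_num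
  rcases legendre_roots h2Q hrelt hrelu hu0 hu1 with h | h | h | h | h | h
  · exact ⟨y, h, 1, Or.inl rfl, hyu⟩
  · refine ⟨1 - y, ?_, 1, Or.inl rfl, isUnit_coeff_one_sub one_ne_zero hyu⟩
    rw [h, map_sub, map_one]
  · exact ⟨F₁, by rw [h, hF₁'], -1, Or.inr rfl, hF₁u⟩
  · exact ⟨F₂, by rw [h, hF₂'], 1, Or.inl rfl, hF₂u⟩
  · refine ⟨1 - F₁, ?_, -1, Or.inr rfl, isUnit_coeff_one_sub hm1 hF₁u⟩
    rw [h, map_sub, map_one, hF₁']
    field_simp
  · refine ⟨1 - F₂, ?_, 1, Or.inl rfl, isUnit_coeff_one_sub one_ne_zero hF₂u⟩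
    rw [h, map_sub, map_one, hF₂']
    field_simp
    ring

end Rat

section Main

variable (R : Type*) [CommRing R] [IsDomain R] [IsDiscreteValuationRing R]
variable (L : Type*) [Field L] [Algebra R L] [IsFractionRing R L] [Algebra ℚ L]

local notation "k" => IsLocalRing.ResidueField R

/-- **the Legendre coordinate is the image of a series over `R`** with a unit coefficient in
degree `±1` and Frobenius-fixed reduction (`2 ∈ Rˣ`). -/
theorem exists_legT_series (h2 : IsUnit (2 : R)) :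
    ∃ s : LaurentSeries R, legT L = emb R L s ∧
      (∃ n : ℤ, (n = 1 ∨ n = -1) ∧ IsUnit (s.coeff n)) ∧
      ∀ (q : ℕ) [ExpChar k q], coeffMap (frobenius k q) (red R s) = red R s := by
  have h2A : IsUnit (2 : Localization.Away (2 : ℤ)) := by
    have := IsLocalization.Away.algebraMap_isUnit (S := Localization.Away (2 : ℤ)) (2 : ℤ)
    rwa [map_ofNat] at this
  have h2Q : IsUnit (Int.castRingHom ℚ (2 : ℤ)) := by
    rw [map_ofNat]; exact (two_ne_zero : (2 : ℚ) ≠ 0).isUnit
  have h2R : IsUnit (Int.castRingHom R (2 : ℤ)) := by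
    rw [map_ofNat]; exact h2
  set φ : Localization.Away (2 : ℤ) →+* ℚ :=
    IsLocalization.Away.lift (S := Localization.Away (2 : ℤ)) (2 : ℤ)
      (g := Int.castRingHom ℚ) h2Q with hφ
  set ψ : Localization.Away (2 : ℤ) →+* R :=
    IsLocalization.Away.lift (S := Localization.Away (2 : ℤ)) (2 : ℤ)
      (g := Int.castRingHom R) h2R with hψ
  obtain ⟨F, hF, n, hn, hu⟩ := exists_legT₀_eq_coeffMap_pm h2A φ
  refine ⟨coeffMap ψ F, ?_, ⟨n, hn, by rw [coeffMap_coeff]; exact hu.map ψ⟩,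
    fun q _ => coeffMap_frobenius_red_coeffMap q ψ (ringHom_away_int_ext 2) F⟩
  rw [legT, hF]
  exact coeffMap_rat_eq_emb φ ψ (ringHom_away_int_ext 2 _ _) F

end Main

end Fermat.Agent.S36
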