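/-
S36 [HOST11], Legendre — helper9 — **`hLE1` on the Legendre host of level `M q²`** = the local
equation of the middle sheet `W11` at its single-sheet closed points of the chart `j`, in the
literal shape of hypothesis (5) of helper4's `legGeneric_of_local`; route through the `t`-based
witness `δ_t = B'B t − A'A t` and helper6's `F`-level congruence `δ_t^{q-1}/π · c₀ ≡ A'(μ)`
(twin of `HOST11H_helper9_LE1`).
-/
import Mathlib
import Fermat.Agent.S36.HOST11L_helper9_LegEq
import Fermat.Agent.S36.HOST11_helper6_Cyclo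
import Fermat.Agent.S36.W11LOC_helper5_Asm
import Fermat.Agent.S36.REG1_lead_Final
import Fermat.Agent.S36.PTSMAP36_helper3_Host
import Fermat.Agent.S36.HOST36_helper7_Delta

set_option autoImplicit false
set_option linter.unusedSectionVars false
set_option linter.unusedVariables false
set_option linter.style.haveILetI false
set_option synthInstance.maxHeartbeats 200000

open HahnSeries ModularCurve Fermat.Agent.Igusa Fermat.Agent.X0N Fermat.Agent.RatStr
open IntermediateField Fermat.Agent.JA Fermat.Agent.SS Fermat.Agent.S35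

namespace Fermat.Agent.S36

noncomputable section

section CycloOdd

variable {R : Type*} [CommRing R] [IsLocalRing R]
  {R' : Type*} [CommRing R'] [IsDomain R'] [IsLocalRing R']
  (φ : R →+* R') [IsLocalHom φ]

/-- **the cyclotomic datum at an odd prime `q`**: `q = c · π` and `φ π = (ζ - 1)^(q-1) · u` force
`c` to be a unit, and `c₀ := -c⁻¹` has `φ c₀ ≡ u` modulo the maximal ideal. -/
theorem host11l_exists_unit_cyclo {π : R} (hπ : ¬ IsUnit π) {q : ℕ} (hq : q.Prime) (hq2 : q ≠ 2)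
    (hqπ : (q : R) ∈ Ideal.span {π}) (ζ u : R'ˣ) (hζq : ζ ^ q = 1) (hζ1 : ζ ≠ 1)
    (hπζ : φ π = ((ζ : R') - 1) ^ (q - 1) * u) :
    ∃ cu : Rˣ, ((q : ℕ) : R) = π * (cu : R) ∧
      IsLocalRing.residue R' (φ (-((cu⁻¹ : Rˣ) : R))) = IsLocalRing.residue R' (u : R') := by
  obtain ⟨c, hc⟩ := Ideal.mem_span_singleton'.1 hqπ
  have hζ' : (ζ : R') ^ q = 1 := by
    rw [← Units.val_pow_eq_pow_val, hζq, Units.val_one]
  have hζ1' : (ζ : R') ≠ 1 := fun h => hζ1 (Units.ext (by rw [h, Units.val_one]))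
  -- `ζ ≡ 1`
  have hζres : IsLocalRing.residue R' (ζ : R') = 1 := by
    have h1 : ¬ IsUnit (((ζ : R') - 1)) := by
      intro hu
      apply hπ
      apply isUnit_of_map_unit φ
      rw [hπζ]
      exact (hu.pow _).mul u.isUnit
    have h2 : IsLocalRing.residue R' ((ζ : R') - 1) = 0 := by
      rw [IsLocalRing.residue_eq_zero_iff]
      exact (IsLocalRing.mem_maximalIdeal _).2 h1
    rw [map_sub, map_one, sub_eq_zero] at h2
    exact h2
  have hP := cyclo_prime_eq_pow_mul_prod hq hq2 hζ' hζ1'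
  set P : R' := ∏ k ∈ Finset.range (q - 1), ∑ i ∈ Finset.range (k + 1), (ζ : R') ^ i with hPdef
  have hresP : IsLocalRing.residue R' P = -1 :=
    residue_eq_neg_one_of_cyclo hq hq2 hζ' hζ1' hζres hP
  have hne : ((ζ : R') - 1) ^ (q - 1) ≠ 0 := pow_ne_zero _ (sub_ne_zero.2 hζ1')
  have hPc : P = φ c * (u : R') := by
    apply mul_left_cancel₀ hne
    rw [← hP]
    have h1 : φ ((q : ℕ) : R) = φ c * φ π := by rw [← hc, map_mul]
    rw [map_natCast, hπζ] at h1
    rw [h1]; ring
  have hres : IsLocalRing.residue R' (φ c) * IsLocalRing.residue R' (u : R') = -1 := by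
    rw [← map_mul, ← hPc, hresP]
  have hφc : IsUnit (φ c) := by
    by_contra hnu
    have h0 : IsLocalRing.residue R' (φ c) = 0 := by
      rw [IsLocalRing.residue_eq_zero_iff]
      exact (IsLocalRing.mem_maximalIdeal _).2 hnu
    rw [h0, zero_mul] at hres
    exact one_ne_zero (neg_eq_zero.mp hres.symm)
  have hcu : IsUnit c := isUnit_of_map_unit φ c hφc
  obtain ⟨cu, rfl⟩ := hcu
  refine ⟨cu, by rw [← hc, mul_comm], ?_⟩
  have h1 : IsLocalRing.residue R' (φ (-((cu⁻¹ : Rˣ) : R))) *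
      IsLocalRing.residue R' (φ (cu : R)) = -1 := by
    rw [← map_mul, ← map_mul, neg_mul, Units.inv_mul, map_neg, map_one, map_neg, map_one]
  have h2 : IsLocalRing.residue R' (φ (cu : R)) ≠ 0 := by
    intro h0
    rw [h0, zero_mul] at hres
    exact one_ne_zero (neg_eq_zero.mp hres.symm)
  apply mul_right_cancel₀ h2
  rw [h1, mul_comm, hres]

end CycloOdd

section Leg

variable (R : Type*) [CommRing R] [IsDomain R] [IsDiscreteValuationRing R] [CharZero R]
  [DecidableEq R]
  (K : Type*) [Field K] [Algebra R K] [IsFractionRing R K] [Algebra ℚ K] [Algebra K ℂ]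
  {M q : ℕ} [NeZero M] [NeZero q] [NeZero (M * q)] [NeZero (M * q * q)] {x y : ℤ}
  {π : R}
  {R' : Type*} [CommRing R'] [IsDomain R'] [IsDiscreteValuationRing R']
  {K' : Type*} [Field K'] [Algebra R' K'] [IsFractionRing R' K']

open scoped Fermat.Agent.JA.Host

set_option maxHeartbeats 1600000 in
/-- **`hLE1` on the Legendre host**: the literal of hypothesis (5) of `legGeneric_of_local`. -/
theorem legE_hLE1_T
    (hπ : Irreducible π) (h2 : IsUnit (2 : R))
    (h : (q : ℤ) * x + M * y = 1) (hq : q.Prime) (hq2 : q ≠ 2)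
    (hqπ : (q : R) ∈ Ideal.span {π})
    (hgeo : GeoHyps K π (AdjoinSimple.gen K (legT K)) ↥(legE K M) M ({0, 1} : Finset R))
    (φ : R →+* R') [IsLocalHom φ] (κ : K →+* K')
    (hκ : ∀ r : R, κ (algebraMap R K r) = algebraMap R' K' (φ r))
    (ζ u : R'ˣ) (hζq : ζ ^ q = 1) (hζ1 : ζ ≠ 1)
    (hπζ : φ π = ((ζ : R') - 1) ^ (q - 1) * u) :
    ∀ (W11 W02 : ValuationSubring ↥(legE K (M * q * q))),
      W11.comap (legIncl K (M * q * q)) =
        hostImageVal K 2 (keyFqW11 R K h hq φ κ hκ ζ hζq hζ1) →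
      W02.comap (legIncl K (M * q * q)) = hostImageVal K 2 (keyFqW02 R K h hq) →
      haveI : FiniteDimensional ↥K⟮jqNModC K 2⟯ ↥(legE K (M * q * q)) :=
        finite_legE_adjoin_j K (M * q * q)
      ∀ (fam : IsSheetFamily π (AdjoinSimple.gen K (jqNModC K 2))
        ![legWinf R K h2 (M * q * q), W11, W02]),
      ∀ (𝔫 : Ideal ↥(chartOne R ↥(legE K (M * q * q)) (AdjoinSimple.gen K (jqNModC K 2))))
        (_ : 𝔫.IsMaximal),
      sheetIdeal (AdjoinSimple.gen K (jqNModC K 2)) (![legWinf R K h2 (M * q * q), W11, W02] 1)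
        (fam.chart_le 1) ≤ 𝔫 →
      (∀ l, sheetIdeal (AdjoinSimple.gen K (jqNModC K 2))
        (![legWinf R K h2 (M * q * q), W11, W02] l) (fam.chart_le l) ≤ 𝔫 → l = 1) →
      ∃ z : ↥(chartOne R ↥(legE K (M * q * q)) (AdjoinSimple.gen K (jqNModC K 2))),
        z ∈ sheetIdeal (AdjoinSimple.gen K (jqNModC K 2))
          (![legWinf R K h2 (M * q * q), W11, W02] 1) (fam.chart_le 1) ∧ z ≠ 0 ∧
        ∀ w ∈ sheetIdeal (AdjoinSimple.gen K (jqNModC K 2))
          (![legWinf R K h2 (M * q * q), W11, W02] 1) (fam.chart_le 1),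
          ∃ s : ↥(chartOne R ↥(legE K (M * q * q)) (AdjoinSimple.gen K (jqNModC K 2))),
            s ∉ 𝔫 ∧ z ∣ s * w := by
  intro W11 W02 h11 h02
  haveI : FiniteDimensional ↥K⟮jqNModC K 2⟯ ↥(legE K (M * q * q)) :=
    finite_legE_adjoin_j K (M * q * q)
  haveI : FiniteDimensional ↥K⟮jqNModC K 2⟯ ↥(legE K (M * q)) := finite_legE_adjoin_j K (M * q)
  intro fam
  have hmodel := ssModelLeg R K hπ h2 h hq hq2 hqπ hgeo
  have hm' := SSModelLeg.ssModel R K hmodel
  obtain ⟨-, hT⟩ := legE_isThreeSheet_delta R K hπ h2 h hq hq2 hqπ hgeo φ κ hκ ζ hζq hζ1 u hπζ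
    W11 W02 h11 h02
  -- the auxiliary level `4 M`
  have hqM : ¬ q ∣ M := model36_not_dvd_of_bezout h hq
  have hq4 : ¬ q ∣ 4 := by
    intro hd
    have h4 : (4 : ℕ) = 2 ^ 2 := by norm_num
    rw [h4] at hd
    exact hq2 ((Nat.prime_dvd_prime_iff_eq hq Nat.prime_two).mp (hq.dvd_of_dvd_pow hd))
  obtain ⟨x', y', h'⟩ := exists_bezout_mul hq hqM hq4
  haveI : NeZero (4 * M) := ⟨by have := NeZero.ne M; omega⟩
  haveI : NeZero (4 * M * q) := ⟨mul_ne_zero (NeZero.ne (4 * M)) (NeZero.ne q)⟩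
  haveI : NeZero (4 * M * q * q) := ⟨mul_ne_zero (NeZero.ne (4 * M * q)) (NeZero.ne q)⟩
  have hW : legW11 R K h' hq φ κ hκ ζ hζq hζ1 = W11 :=
    legW11_eq_of_isThreeSheet R K h h' hq hq2 φ κ hκ ζ hζq hζ1 hπ hmodel hT
  obtain ⟨hαB, hβB, hαint, hβint⟩ := legE_chart_maps R K hπ hmodel
  -- the base is unramified
  have hπnu : ¬ IsUnit π := hπ.not_isUnit
  obtain ⟨cu, hqcq, hresc⟩ := host11l_exists_unit_cyclo φ hπnu hq hq2 hqπ ζ u hζq hζ1 hπζ
  set c₀ : R := -((cu⁻¹ : Rˣ) : R) with hc₀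
  haveI : CharP (IsLocalRing.ResidueField R) q := charP_residueField_of_mem_span hπ hq hqπ
  haveI : ExpChar (IsLocalRing.ResidueField R) q := ExpChar.prime hq
  -- the element `z = δ_t` of the chart
  have hjq := hm'.jq_mem_chartOne hπ
  have eT : algebraMap ↥K⟮legT K⟯ ↥(legE K M) (AdjoinSimple.gen K (legT K)) = legTEh K M :=
    Subtype.ext rfl
  have hAt : (legHostA K M q : ↥(legE K M) →+* ↥(legE K (M * q))) (legTEh K M) ∈
      chartOne R ↥(legE K (M * q)) (AdjoinSimple.gen K (jqNModC K 2)) := by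
    rw [← eT]; exact hm'.A_t_mem
  have hBt : (legHostB K M q hq hq2 : ↥(legE K M) →+* ↥(legE K (M * q))) (legTEh K M) ∈
      chartOne R ↥(legE K (M * q)) (AdjoinSimple.gen K (jqNModC K 2)) := by
    rw [← eT]; exact hm'.B_t_mem hjq
  have hzmem : legDeltaT K M hq hq2 ∈
      chartOne R ↥(legE K (M * q * q)) (AdjoinSimple.gen K (jqNModC K 2)) :=
    Subalgebra.sub_mem _ (hβB _ hBt) (hαB _ hAt)
  set z : ↥(chartOne R ↥(legE K (M * q * q)) (AdjoinSimple.gen K (jqNModC K 2))) :=
    ⟨legDeltaT K M hq hq2, hzmem⟩ with hz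
  -- valuations on `W11`
  have hq1 : q - 1 ≠ 0 := Nat.sub_ne_zero_of_lt hq.one_lt
  have hπE : algebraMap R ↥(legE K (M * q * q)) π ≠ 0 := by
    rw [IsScalarTower.algebraMap_apply R K ↥(legE K (M * q * q))]
    exact (_root_.map_ne_zero _).mpr
      ((_root_.map_ne_zero_iff _ (IsFractionRing.injective R K)).mpr hπ.ne_zero)
  have hvz : W11.valuation (legDeltaT K M hq hq2 ^ (q - 1)) =
      W11.valuation (algebraMap R ↥(legE K (M * q * q)) π) := by
    have := legW11_valuation_legDeltaT R K h' hq hq2 φ κ hκ ζ hζq hζ1 h2 u hπζ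
    rwa [hW] at this
  have hαR := ssModelLeg_A_algebraMap R K (M := M * q) (q := q)
  have hπ11 : W11.valuation (algebraMap R ↥(legE K (M * q * q)) π) < 1 := by
    have h1 : (legWinf R K h2 (M * q)).valuation (algebraMap R ↥(legE K (M * q)) π) < 1 := by
      have := hm'.two.pi_mem_inf (K₁ := K) hπ
      rwa [mem_sheetIdeal_iff] at this
    have hcm : ∀ e : ↥(legE K (M * q)), e ∈ legWinf R K h2 (M * q) ↔
        (legHostA K (M * q) q : ↥(legE K (M * q)) →+* ↥(legE K (M * q * q))) e ∈ W11 := by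
      intro e
      rw [← hT.comap_A_11]
      exact ValuationSubring.mem_comap
    have := (valuation_lt_one_iff_of_comap
      (legHostA K (M * q) q : ↥(legE K (M * q)) →+* ↥(legE K (M * q * q))) hcm _).mp h1
    rwa [hαR] at this
  have hzE0 : legDeltaT K M hq hq2 ≠ 0 := by
    intro h0
    rw [h0, zero_pow hq1, map_zero] at hvz
    exact ((Valuation.ne_zero_iff _).mpr hπE) hvz.symm
  have hz1 : W11.valuation (legDeltaT K M hq hq2) < 1 := by
    by_contra hge
    rw [not_lt] at hge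
    have : 1 ≤ W11.valuation (legDeltaT K M hq hq2) ^ (q - 1) := one_le_pow₀ hge
    rw [← map_pow, hvz] at this
    exact not_le.mpr hπ11 this
  have hz0 : z ≠ 0 := fun h0 => hzE0 (congrArg Subtype.val h0)
  have hvδ : W11.valuation (legDelta K M q) = W11.valuation (legDeltaT K M hq hq2) := by
    have h1 := hT.val_δ
    have h3 : W11.valuation (legDelta K M q) ^ (q - 1) =
        W11.valuation (legDeltaT K M hq hq2) ^ (q - 1) := by
      rw [← map_pow, ← map_pow, h1, hvz]
    exact (pow_left_inj₀ zero_le zero_le hq1).mp h3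
  have hzunif : ∀ e : ↥(legE K (M * q * q)), W11.valuation e < 1 →
      e * (legDeltaT K M hq hq2)⁻¹ ∈ W11 := by
    intro e he
    have hδ0 : legDelta K M q ≠ 0 := by
      intro h0
      rw [h0, map_zero] at hvδ
      exact ((Valuation.ne_zero_iff _).mpr hzE0) hvδ.symm
    have e1 : e * (legDeltaT K M hq hq2)⁻¹ =
        (e * (legDelta K M q)⁻¹) * (legDelta K M q * (legDeltaT K M hq hq2)⁻¹) := by
      field_simp
    rw [e1]
    refine W11.mul_mem _ _ (hT.unif_11 e he) ?_
    rw [← ValuationSubring.valuation_le_one_iff, map_mul, map_inv₀, hvδ,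
      mul_inv_cancel₀ ((Valuation.ne_zero_iff _).mpr hzE0)]
  -- the congruence
  have hcong₀ := legW11_valuation_pow_sub_mu_T R K h' hq hq2 φ κ hκ ζ hζq hζ1 h2 hπnu u hπζ c₀
    hresc (legMu R K (M := M) h2 hq hq2) (coe_legMu R K h2 hq hq2)
  rw [hW] at hcong₀
  have hRW : ∀ r : R, W11.valuation (algebraMap R ↥(legE K (M * q * q)) r) ≤ 1 := fun r =>
    (ValuationSubring.valuation_le_one_iff _ _).mpr
      (fam.chart_le 1 _ ((chartOne R ↥(legE K (M * q * q))
        (AdjoinSimple.gen K (jqNModC K 2))).algebraMap_mem r))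
  have hcong : W11.valuation ((z : ↥(legE K (M * q * q))) ^ (q - 1) /
      algebraMap R ↥(legE K (M * q * q)) π -
      algebraMap R ↥(legE K (M * q * q)) (-(cu : R)) *
        (legHostA K (M * q) q : ↥(legE K (M * q)) →+* ↥(legE K (M * q * q)))
          (legMu R K (M := M) h2 hq hq2)) < 1 := by
    have hcc : algebraMap R ↥(legE K (M * q * q)) (-(cu : R)) *
        algebraMap R ↥(legE K (M * q * q)) c₀ = 1 := by
      rw [← map_mul, hc₀, neg_mul_neg, Units.mul_inv, map_one]
    have e1 : (z : ↥(legE K (M * q * q))) ^ (q - 1) / algebraMap R ↥(legE K (M * q * q)) π -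
        algebraMap R ↥(legE K (M * q * q)) (-(cu : R)) *
          (legHostA K (M * q) q : ↥(legE K (M * q)) →+* ↥(legE K (M * q * q)))
            (legMu R K (M := M) h2 hq hq2) =
        algebraMap R ↥(legE K (M * q * q)) (-(cu : R)) *
          (legDeltaT K M hq hq2 ^ (q - 1) * (algebraMap R ↥(legE K (M * q * q)) π)⁻¹ *
            algebraMap R ↥(legE K (M * q * q)) c₀ -
            legHostA K (M * q) q (legMu R K (M := M) h2 hq hq2)) := by
      have e2 : ((legHostA K (M * q) q : ↥(legE K (M * q)) →+* ↥(legE K (M * q * q)))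
          (legMu R K (M := M) h2 hq hq2)) =
          legHostA K (M * q) q (legMu R K (M := M) h2 hq hq2) := rfl
      rw [e2, hz, div_eq_mul_inv]
      linear_combination (-(legDeltaT K M hq hq2 ^ (q - 1) *
        (algebraMap R ↥(legE K (M * q * q)) π)⁻¹)) * hcc
    rw [e1, map_mul]
    calc W11.valuation (algebraMap R ↥(legE K (M * q * q)) (-(cu : R))) * _
        ≤ 1 * _ := mul_le_mul_left (hRW _) _
      _ < 1 := by rw [one_mul]; exact hcong₀
  intro 𝔫 h𝔫 hle honly
  exact local_equation_w11_of_unit_cong (R := R) (K₁ := K) (KN₁ := ↥K⟮jqNModC K 2⟯)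
    (E₁ := ↥(legE K (M * q))) (KN₂ := ↥K⟮jqNModC K 2⟯) (E := ↥(legE K (M * q * q)))
    (W := ![legWinf R K h2 (M * q * q), W11, W02])
    hπ (ssModelLeg_j_transcendental K) (ssModelLeg_j_adjoin K)
    (ssModelLeg_j_transcendental K) (ssModelLeg_j_adjoin K) hm'.two fam
    (legHostA K (M * q) q : ↥(legE K (M * q)) →+* ↥(legE K (M * q * q)))
    hαR hαB hαint hT.comap_A_20 hT.comap_A_11
    (μ := legMu R K (M := M) h2 hq hq2)
    (fun 𝔪 _ _ _ h0 => legMu_unit_of_not_le_final R K hmodel hπ 𝔪 h0)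
    (z := z) hz1 hz0 hzunif (k := q - 1) hq1 (c := -(cu : R)) cu.isUnit.neg hcong
    𝔫 h𝔫 hle honly

end Leg

end

end Fermat.Agent.S36
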