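/-
# S36 [BASE36] FINAL (helper4): `LegInertBase` and `HesInertBase`

`legGenericBase : LegGenericBase`, `hesGenericBase : HesGenericBase` from `legGeneric_of_local3` /
`hesGeneric_of_local3` and the three local inputs on the hosts:
* (5) `hLE1` : helper9's `legE_hLE1_T` / `hesE_hLE1` (local equation of `W11` at `W11`-only points);
* (7) `hcusps` : helper8's `leg_hcusps` / `hes_hcusps` (helper2's `cusps36_hcusp`);
* (C) `hcusp` : helper1's `leg_hcusp_of_hcusps` / `hes_hcusp_of_hcusps`.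
Hence `legInertBase : LegInertBase`, `hesInertBase : HesInertBase` (`BASE36_helper4_Bases`).
-/
import Mathlib
import Fermat.Agent.S36.BASE36_helper4_Local3
import Fermat.Agent.S36.HOST11L_helper9_LE1
import Fermat.Agent.S36.HOST11H_helper9_LE1
import Fermat.Agent.S36.CUSPSHOST36_helper8_Leg
import Fermat.Agent.S36.CUSPSHOST36_helper8_Hes
import Fermat.Agent.S36.CUSPPT_helper1_Leg

set_option autoImplicit false
set_option linter.unusedSectionVars false
set_option linter.unusedVariables false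
set_option linter.style.haveILetI false
set_option synthInstance.maxHeartbeats 200000

open Polynomial ModularCurve IntermediateField
open Fermat.Agent.Igusa Fermat.Agent.JA Fermat.Agent.SS Fermat.Agent.X0N
open Fermat.Agent.S35 AlgebraicCurve

open scoped Fermat.Agent.JA.Host

namespace Fermat.Agent.S36

set_option maxHeartbeats 1600000 in
/-- **`LegGenericBase`**: the base statement of S36 over every unramified base, Legendre host. -/
theorem legGenericBase : LegGenericBase := by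
  intro R _ _ _ _ _ K _ _ _ _ _ _ M q _ _ _ _ x y π hπ h2 h hq hq2 hqπ hgeo R' _ _ _ K' _ _ _
    φ _ κ hκ ζ u hζq hζ1 hπζ m hm hmq hmR ζm hζm f₀ hf₀ hlead hord hNA hNB
  exact legGeneric_of_local3 R K hπ h2 h hq hq2 hqπ hgeo φ κ hκ ζ u hζq hζ1 hπζ
    (legE_hLE1_T R K hπ h2 h hq hq2 hqπ hgeo φ κ hκ ζ u hζq hζ1 hπζ)
    (leg_hcusps R K hπ h2 h hq hq2 hqπ hgeo φ κ hκ ζ u hζq hζ1 hπζ)
    (leg_hcusp_of_hcusps R K hπ h2 h hq hq2 hqπ hgeo φ κ hκ ζ u hζq hζ1 hπζ
      (leg_hcusps R K hπ h2 h hq hq2 hqπ hgeo φ κ hκ ζ u hζq hζ1 hπζ))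
    hm hmq hmR ζm hζm f₀ hf₀ hlead hord hNA hNB

set_option maxHeartbeats 1600000 in
/-- **`HesGenericBase`**: the base statement of S36 over every unramified base, Hesse host. -/
theorem hesGenericBase : HesGenericBase := by
  intro R _ _ _ _ _ K _ _ _ _ _ _ M _ _ _ x y π hπ h3 ω hω h hqπ hgeo R' _ _ _ K' _ _ _
    φ _ κ hκ ζ u hζq hζ1 hπζ m hm hmq hmR ζm hζm f₀ hf₀ hlead hord hNA hNB
  exact hesGeneric_of_local3 R K hπ h3 ω hω h hqπ hgeo φ κ hκ ζ u hζq hζ1 hπζ
    (hesE_hLE1 R K hπ h3 ω hω h hqπ hgeo φ κ hκ ζ u hζq hζ1 hπζ)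
    (hes_hcusps R K hπ h3 ω hω h hqπ hgeo φ κ hκ ζ u hζq hζ1 hπζ)
    (hes_hcusp_of_hcusps R K hπ h3 ω h hqπ hgeo φ κ hκ ζ u hζq hζ1 hπζ
      (hes_hcusps R K hπ h3 ω hω h hqπ hgeo φ κ hκ ζ u hζq hζ1 hπζ))
    hm hmq hmR ζm hζm f₀ hf₀ hlead hord hNA hNB

/-- **`LegInertBase`.** -/
theorem legInertBase : LegInertBase := legInertBase_of_generic legGenericBase

/-- **`HesInertBase`.** -/
theorem hesInertBase : HesInertBase := hesInertBase_of_generic hesGenericBase

end Fermat.Agent.S36
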