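/-
S36 — helper4 — **the interface of the algebraic top of S36** (Carayol: a newform of level
`M₁ * q` with `q ∣ M₁`, `q² ∤ M₁` — i.e. `q² ∥` level — is not unipotent on inertia at `q`).

* `KeyInert M₁ q p`: there is `c` such that for every place `A ∣ q` of `Ω`, every `k` and every
  `x ∈ J₀(M₁ q)[p ^ k]` which is fixed by the inertia group at `A` and killed by both degeneracy
  pushforwards `α_*, β_* : J₀(M₁ q) → J₀(M₁)`: `p ^ c • x = 0`
  ("the `q`-new part of `J₀(M₀ q²)` has no inertia invariants").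
* `KeyInertStatement`: `KeyInert M₁ q p` for all `M₁`, primes `q ≠ p` with `q ∣ M₁`, `q² ∤ M₁`.
-/
import Mathlib
import Fermat.Agent.S35.KEY_lead_Iface

set_option autoImplicit false
set_option linter.unusedSectionVars false
set_option linter.unusedVariables false

open AlgebraicCurve ModularCurve

namespace Fermat.Agent.S36

open Fermat.Agent.JA Fermat.Agent.X0N Fermat.Agent.S35

/-- `Ω = AlgebraicClosure ℚ`. -/
local notation "Ω" => AlgebraicClosure ℚ

/-- **(KEY-INERT)**: the inertia-invariant `p`-power torsion of `J₀(M₁ q)` killed by both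
degeneracy pushforwards to `J₀(M₁)` is killed by a bounded power of `p`. -/
def KeyInert (M₁ q p : ℕ) [NeZero M₁] [NeZero q] [NeZero (M₁ * q)] : Prop :=
  ∃ c : ℕ, ∀ A : ValuationSubring Ω, A.LiesOverPrime q →
    ∀ (k : ℕ) (x : JZero (M₁ * q)), p ^ k • x = 0 →
      (∀ τ ∈ A.inertiaSubgroupIn ℚ, τ • x = x) →
      degPushAlpha M₁ q x = 0 → degPushBeta M₁ q x = 0 → p ^ c • x = 0

/-- **the geometric input of S36, all levels**: `q ∥ M₁`, so that `q² ∥ M₁ * q`. -/
def KeyInertStatement : Prop :=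
  ∀ (M₁ q p : ℕ) [NeZero M₁] [NeZero q] [NeZero (M₁ * q)], q.Prime → p.Prime → q ≠ p →
    q ∣ M₁ → ¬ q ^ 2 ∣ M₁ → KeyInert M₁ q p

end Fermat.Agent.S36
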