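/-
S36 — helper2 — [T3-36], part 1: **descent of `m`-th roots from `Ω` to a base `K₀ ⊆ Ω`**.

If `g₀ ∈ F_N(K₀)` becomes `a · h ^ m` over `Ω` (`a ∈ Ω`, `h ∈ F_N(Ω)`), then `g₀ = a₀ · h₀ ^ m` with
`a₀ ∈ K₀`, `h₀ ∈ F_N(K₀)`: normalise `h` to be monic; then `σ h = ζ h` with `ζ ^ m = 1` for every
`σ ∈ Gal(Ω / K₀)`, and `ζ = 1` by monicity; a coefficientwise `Gal(Ω / K₀)`-fixed element of `Ω·F₀`
comes from `K₀·F₀` (coordinates in a `K₀`-basis of `K₀·F₀` are fixed, hence in `K₀`).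
-/
import Mathlib
import Fermat.Agent.S35.DESC_helper2_Unr
import Fermat.Agent.JA.BCD_helper9_HostRat
import Fermat.Agent.JA.BC_helper9_Desc

set_option autoImplicit false
set_option linter.unusedSectionVars false
set_option linter.unusedVariables false
set_option linter.style.haveILetI false
set_option synthInstance.maxHeartbeats 200000

open HahnSeries IntermediateField ModularCurve

namespace Fermat.Agent.S36

open Fermat.Agent.X0N Fermat.Agent.JA Fermat.Agent.SS Fermat.Agent.S35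

/-- `Ω = AlgebraicClosure ℚ`. -/
local notation "Ω" => AlgebraicClosure ℚ

section Laurent

variable {L : Type*} [Field L]

theorem t3_leadingCoeff_pow (x : LaurentSeries L) (n : ℕ) :
    (x ^ n).leadingCoeff = x.leadingCoeff ^ n := by
  induction n with
  | zero => rw [pow_zero, pow_zero, HahnSeries.leadingCoeff_one]
  | succ n ih => rw [pow_succ, pow_succ, HahnSeries.leadingCoeff_mul, ih]

theorem t3_leadingCoeff_C_mul (a : L) (x : LaurentSeries L) :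
    (HahnSeries.C a * x).leadingCoeff = a * x.leadingCoeff := by
  rw [HahnSeries.leadingCoeff_mul]
  congr 1
  exact HahnSeries.leadingCoeff_of_single

theorem t3_coeffMap_C {S : Type*} [Field S] (f : L →+* S) (a : L) :
    coeffMap f (HahnSeries.C a : LaurentSeries L) = HahnSeries.C (f a) := by
  rw [HahnSeries.C_apply, coeffMap_single, HahnSeries.C_apply]

/-- two monic Laurent series with the same `m`-th power are equal. -/
theorem t3_eq_of_pow_eq [IsAlgClosed L] [CharZero L] {m : ℕ} (hm : 0 < m) {x y : LaurentSeries L}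
    (hx : x.leadingCoeff = 1) (hy : y.leadingCoeff = 1) (h : x ^ m = y ^ m) : x = y := by
  haveI : NeZero (m : L) := ⟨by exact_mod_cast hm.ne'⟩
  haveI : NeZero m := ⟨hm.ne'⟩
  obtain ⟨ζ, hζ⟩ := HasEnoughRootsOfUnity.exists_primitiveRoot L m
  have hζ' : IsPrimitiveRoot (HahnSeries.C ζ : LaurentSeries L) m :=
    hζ.map_of_injective (f := (HahnSeries.C : L →+* LaurentSeries L)) HahnSeries.C_injective
  have h0 : x ^ m - y ^ m = 0 := sub_eq_zero.2 h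
  rw [hζ'.pow_sub_pow_eq_prod_sub_mul x y hm] at h0
  obtain ⟨μ, hμ, hμ0⟩ := Finset.prod_eq_zero_iff.1 h0
  have hμ1 : μ ^ m = 1 := (Polynomial.mem_nthRootsFinset hm 1).1 hμ
  obtain ⟨i, hi, rfl⟩ := hζ'.eq_pow_of_pow_eq_one hμ1
  have hxy : x = HahnSeries.C (ζ ^ i) * y := by
    rw [map_pow]
    exact sub_eq_zero.1 hμ0
  have h1 : ζ ^ i = 1 := by
    have h2 := congrArg HahnSeries.leadingCoeff hxy
    rw [t3_leadingCoeff_C_mul, hx, hy, mul_one] at h2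
    exact h2.symm
  rw [hxy, h1, map_one, one_mul]

end Laurent

section Desc

variable (K₀ : IntermediateField ℚ Ω)

/-- **Galois descent of the field of definition**: an element of `Ω·F₀` fixed coefficientwise by
`Gal(Ω / K₀)` comes from `K₀·F₀`. -/
theorem exists_descent_of_fixed (F₀ : IntermediateField ℚ (LaurentSeries ℚ)) {f : LaurentSeries Ω}
    (hf : f ∈ laurentBaseChange Ω F₀)
    (hfix : ∀ σ : Ω ≃ₐ[↥K₀] Ω, coeffMap ((σ : Ω ≃+* Ω) : Ω →+* Ω) f = f) :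
    ∃ f₀ ∈ laurentBaseChange ↥K₀ F₀, coeffMap (algebraMap ↥K₀ Ω) f₀ = f := by
  classical
  set B := Module.Basis.ofVectorSpace ↥K₀ ↥(laurentBaseChange ↥K₀ F₀) with hB
  obtain ⟨c, hc⟩ := mem_range_iotaSum_of_mem (K := ↥K₀) (L := Ω) F₀ B hf
  have hcK₀ : ∀ i, c i ∈ K₀ := by
    intro i
    have h1 : c i ∈ Set.range (algebraMap ↥K₀ Ω) := by
      rw [InfiniteGalois.mem_range_algebraMap_iff_fixed]
      intro σ
      refine apply_coord_eq F₀ B ((σ : Ω ≃+* Ω) : Ω →+* Ω) (fun a => σ.commutes a) c ?_ i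
      rw [hc]
      exact hfix σ
    obtain ⟨y, hy⟩ := h1
    rw [← hy]
    exact y.2
  set c₀ : _ →₀ ↥K₀ := c.mapRange (fun a => if h : a ∈ K₀ then (⟨a, h⟩ : ↥K₀) else 0)
    (by rw [dif_pos (zero_mem K₀)]; rfl) with hc₀
  refine ⟨((Finsupp.linearCombination ↥K₀ B c₀ : ↥(laurentBaseChange ↥K₀ F₀)) :
    LaurentSeries ↥K₀), (Finsupp.linearCombination ↥K₀ B c₀).2, ?_⟩
  have h1 := iota_linearCombination (K := ↥K₀) (L := Ω) F₀ B c₀
  have h2 : c₀.mapRange (algebraMap ↥K₀ Ω) (map_zero _) = c := by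
    ext i
    rw [Finsupp.mapRange_apply, hc₀, Finsupp.mapRange_apply, dif_pos (hcK₀ i)]
    rfl
  rw [h2, hc] at h1
  exact h1

/-- Laurent-series form of the descent of `m`-th roots. -/
theorem exists_base_root_laurent (F₀ : IntermediateField ℚ (LaurentSeries ℚ)) {m : ℕ} (hm : 0 < m)
    (G : LaurentSeries ↥K₀) (a : Ω) (H : LaurentSeries Ω) (ha : a ≠ 0) (hH0 : H ≠ 0)
    (hH : H ∈ laurentBaseChange Ω F₀)
    (hG : coeffMap (algebraMap ↥K₀ Ω) G = HahnSeries.C a * H ^ m) :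
    ∃ (a₀ : ↥K₀) (H₀ : LaurentSeries ↥K₀), a₀ ≠ 0 ∧ H₀ ≠ 0 ∧ H₀ ∈ laurentBaseChange ↥K₀ F₀ ∧
      G = HahnSeries.C a₀ * H₀ ^ m := by
  set ι : ↥K₀ →+* Ω := algebraMap ↥K₀ Ω with hι
  have hιinj : Function.Injective ι := (algebraMap ↥K₀ Ω).injective
  set ℓ : Ω := H.leadingCoeff with hℓ
  have hℓ0 : ℓ ≠ 0 := HahnSeries.leadingCoeff_ne_zero.2 hH0
  set H₁ : LaurentSeries Ω := HahnSeries.C ℓ⁻¹ * H with hH₁
  have hH₁lc : H₁.leadingCoeff = 1 := by
    rw [hH₁, t3_leadingCoeff_C_mul, ← hℓ, inv_mul_cancel₀ hℓ0]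
  have hH₁0 : H₁ ≠ 0 := by
    rw [← HahnSeries.leadingCoeff_ne_zero, hH₁lc]
    exact one_ne_zero
  have hHH₁ : H = HahnSeries.C ℓ * H₁ := by
    rw [hH₁, ← mul_assoc, ← map_mul, mul_inv_cancel₀ hℓ0, map_one, one_mul]
  have hG' : coeffMap ι G = HahnSeries.C (a * ℓ ^ m) * H₁ ^ m := by
    rw [hG, hHH₁, mul_pow, ← mul_assoc, map_mul, map_pow]
  -- leading coefficients
  set a₀ : ↥K₀ := G.leadingCoeff with ha₀
  have ha₀ι : ι a₀ = a * ℓ ^ m := by
    have h1 := leadingCoeff_coeffMap_of_injective hιinj G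
    rw [hG', t3_leadingCoeff_C_mul, t3_leadingCoeff_pow, hH₁lc, one_pow, mul_one] at h1
    exact h1.symm
  have haℓ : a * ℓ ^ m ≠ 0 := mul_ne_zero ha (pow_ne_zero m hℓ0)
  have ha₀0 : a₀ ≠ 0 := by
    intro h0
    rw [h0, map_zero] at ha₀ι
    exact haℓ ha₀ι.symm
  -- `H₁ ^ m` comes from `K₀`
  have hpow : H₁ ^ m = coeffMap ι (HahnSeries.C a₀⁻¹ * G) := by
    rw [map_mul, t3_coeffMap_C, map_inv₀, ha₀ι, hG', ← mul_assoc, ← map_mul, inv_mul_cancel₀ haℓ,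
      map_one, one_mul]
  -- `H₁` is fixed by `Gal(Ω / K₀)`
  have hfix : ∀ σ : Ω ≃ₐ[↥K₀] Ω, coeffMap ((σ : Ω ≃+* Ω) : Ω →+* Ω) H₁ = H₁ := by
    intro σ
    have hσinj : Function.Injective ((σ : Ω ≃+* Ω) : Ω →+* Ω) := (σ : Ω ≃+* Ω).injective
    refine t3_eq_of_pow_eq hm ?_ hH₁lc ?_
    · rw [leadingCoeff_coeffMap_of_injective hσinj, hH₁lc, map_one]
    · rw [← map_pow, hpow, coeffMap_coeffMap]
      refine coeffMap_congr (RingHom.ext fun x => ?_) _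
      exact σ.commutes x
  have hH₁mem : H₁ ∈ laurentBaseChange Ω F₀ := by
    rw [hH₁, HahnSeries.C_apply, ← algebraMap_laurentSeries_eq_single]
    exact mul_mem ((laurentBaseChange Ω F₀).algebraMap_mem _) hH
  obtain ⟨H₀, hH₀mem, hH₀⟩ := exists_descent_of_fixed K₀ F₀ hH₁mem hfix
  refine ⟨a₀, H₀, ha₀0, ?_, hH₀mem, ?_⟩
  · rintro rfl
    rw [map_zero] at hH₀
    exact hH₁0 hH₀.symm
  · apply iota_injective (k := ↥K₀) (L := Ω)
    show coeffMap ι G = coeffMap ι (HahnSeries.C a₀ * H₀ ^ m)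
    rw [map_mul, t3_coeffMap_C, map_pow, hH₀, ha₀ι, hG']

/-- **descent of `m`-th roots**: if a function over `K₀` becomes a constant times an `m`-th power
over `Ω`, it already is a constant times an `m`-th power over `K₀`. -/
theorem exists_base_root (N : ℕ) [NeZero N] {m : ℕ} (hm : 0 < m)
    (g₀ : ↥(keyFq ↥K₀ N)) (a : Ω) (h : ↥(keyFq Ω N)) (ha : a ≠ 0) (hh : h ≠ 0)
    (hg : keyFqBC N K₀ g₀ = algebraMap Ω ↥(keyFq Ω N) a * h ^ m) :
    ∃ (a₀ : ↥K₀) (h₀ : ↥(keyFq ↥K₀ N)), a₀ ≠ 0 ∧ h₀ ≠ 0 ∧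
      g₀ = algebraMap ↥K₀ ↥(keyFq ↥K₀ N) a₀ * h₀ ^ m := by
  have hG : coeffMap (algebraMap ↥K₀ Ω) ((g₀ : ↥(keyFq ↥K₀ N)) : LaurentSeries ↥K₀) =
      HahnSeries.C a * ((h : ↥(keyFq Ω N)) : LaurentSeries Ω) ^ m := by
    have h1 := congrArg (fun y : ↥(keyFq Ω N) => (y : LaurentSeries Ω)) hg
    simp only [coe_keyFqBC] at h1
    rw [h1, HahnSeries.C_apply, ← algebraMap_laurentSeries_eq_single]
    rfl
  have hH0 : ((h : ↥(keyFq Ω N)) : LaurentSeries Ω) ≠ 0 := fun h0 => hh (Subtype.ext h0)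
  obtain ⟨a₀, H₀, ha₀, hH₀0, hH₀mem, hGeq⟩ := exists_base_root_laurent K₀
    (modularFunctionFieldFull N) hm _ a _ ha hH0 h.2 hG
  refine ⟨a₀, ⟨H₀, hH₀mem⟩, ha₀, fun h0 => hH₀0 (congrArg Subtype.val h0), ?_⟩
  apply Subtype.ext
  rw [hGeq, HahnSeries.C_apply, ← algebraMap_laurentSeries_eq_single]
  rfl

end Desc

end Fermat.Agent.S36
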