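/-
S36 — helper2 — **[T3-36]: `keyInertStatement_of_bases : LegInertBase → HesInertBase →
KeyInertStatement`** (the geometric input of S36 from the host-level base statements).

Chain for `x ∈ J₀(M q)[m]` (`q ∥ M`, `m` prime to `q`) fixed by the inertia group `I_A` and killed by
both degeneracy pushforwards `α_*, β_* : J₀(M q) → J₀(M)`:
* DESCENT (`exists_unramified_pair`, S35/DESC_helper2_Main): an unramified base `K₀ ⊆ Ω^{I_A}` and
  a monic `f₀ ∈ F_{M q}(K₀)` with `div (f₀ ⊗ Ω) = m·D`, `[D] = x`;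
* newness (`exists_normAlong_eq_of_degPush_eq_zero`, helper8): over `Ω` the norms of `f₀ ⊗ Ω` along
  `α, β` are constants times `m`-th powers; norms commute with the base change `K₀ → Ω`
  (`keyFqBC_normAlong_heckeAlphaBar/_heckeBetaBar`, helper8) and `m`-th roots descend
  (`exists_base_root`): the same over `K₀`;
* the base statement: `f₀ ^ c = u ^ m` in the host `E(K₀)`; norm down to `F(K₀)`, base change to `Ω`:
  `(c · [E : F]) • x = 0`.
-/
import Mathlib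
import Fermat.Agent.S36.T3_helper2_Iface
import Fermat.Agent.S36.T3_helper2_Root
import Fermat.Agent.S36.KEYINERT_helper4_Iface
import Fermat.Agent.S35.DESC_helper2_Main
import Fermat.Agent.S35.NORMBC_helper8_Key
import Fermat.Agent.S35.TOPF_helper8_JZero
import Fermat.Agent.SS.TOPB_lead_Leg
import Fermat.Agent.SS.TOPB_lead_Hes

set_option autoImplicit false
set_option linter.unusedSectionVars false
set_option linter.unusedVariables false
set_option linter.style.haveILetI false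
set_option synthInstance.maxHeartbeats 400000

open HahnSeries IntermediateField AlgebraicCurve ModularCurve

namespace Fermat.Agent.S36

open Fermat.Agent.X0N Fermat.Agent.JA Fermat.Agent.SS Fermat.Agent.FF Fermat.Agent.S35

/-- `Ω = AlgebraicClosure ℚ`. -/
local notation "Ω" => AlgebraicClosure ℚ

section Abstract

variable {K F : Type*} [Field K] [Field F] [Algebra K F]

/-- if `div f = m·D` and `f ^ c` is a constant times an `m`-th power, then `c·[D] = 0`. -/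
theorem pic0_nsmul_mk_eq_zero_of_pow {m c : ℕ} (hm : m ≠ 0)
    (D : Divisor.degZero (K := K) (F := F)) (f : F) (hf : f ≠ 0)
    (hfD : ∀ v : Place K F, v.ord f = (m : ℤ) * (D : Divisor K F) v)
    (a : K) (w : F) (ha : a ≠ 0) (hw : w ≠ 0) (h : f ^ c = algebraMap K F a * w ^ m) :
    c • (Pic0.mk D : Pic0 K F) = 0 := by
  have hcD : (c • D : Divisor.degZero (K := K) (F := F)) ∈
      (Divisor.principal (K := K) (F := F)).addSubgroupOf (Divisor.degZero (K := K) (F := F)) := by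
    rw [AddSubgroup.mem_addSubgroupOf]
    refine ⟨w, hw, fun v => ?_⟩
    show ((c • (D : Divisor K F)) : Divisor K F) v = _
    have h1 : v.ord (f ^ c) = (c : ℤ) * v.ord f := by
      have := v.ord_zpow f c
      rw [zpow_natCast] at this
      exact this
    have h2 : v.ord (w ^ m) = (m : ℤ) * v.ord w := by
      have := v.ord_zpow w m
      rw [zpow_natCast] at this
      exact this
    rw [h, v.ord_mul ((map_ne_zero _).2 ha) (pow_ne_zero m hw),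
      place_ord_algebraMap_eq_zero v ha, zero_add, h2, hfD v] at h1
    rw [Finsupp.smul_apply, nsmul_eq_mul]
    have hm' : (m : ℤ) ≠ 0 := by exact_mod_cast hm
    have h3 : (m : ℤ) * ((c : ℤ) * (D : Divisor K F) v) = (m : ℤ) * v.ord w := by
      rw [h1]; ring
    exact mul_left_cancel₀ hm' h3
  have h4 : (c • Pic0.mk D : Pic0 K F) = Pic0.mk (c • D) := rfl
  rw [h4]
  exact (QuotientAddGroup.eq_zero_iff _).2 hcD

end Abstract

section Leg

variable (M q : ℕ) [NeZero M] [NeZero q] [NeZero (M * q)]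

set_option maxHeartbeats 3200000 in
/-- **[T3-36], Legendre host**: the base statement kills the inertia-invariant torsion classes
killed by both degeneracy pushforwards, up to the factor `c · [E : F]`. -/
theorem nsmul_eq_zero_of_legInertBase (hB : LegInertBase) (hq : q.Prime) (hq2 : q ≠ 2)
    (hqM : q ∣ M) (hqq : ¬ q ^ 2 ∣ M) :
    ∃ c : ℕ, c ≠ 0 ∧ ∀ (A : ValuationSubring Ω), A.LiesOverPrime q →
      ∀ (m : ℕ), 0 < m → ¬ q ∣ m → ∀ x : JZero (M * q), m • x = 0 →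
        (∀ τ ∈ A.inertiaSubgroupIn ℚ, τ • x = x) →
        degPushAlpha M q x = 0 → degPushBeta M q x = 0 → c • x = 0 := by
  classical
  obtain ⟨c₀, hc₀, H⟩ := hB M q hq hq2 hqM hqq
  refine ⟨c₀ * legDeg (M * q), mul_ne_zero hc₀ (legDeg_ne_zero (M * q)), ?_⟩
  intro A hA m hm hqm x hx hfix hα hβ
  haveI : Fact q.Prime := ⟨hq⟩
  obtain ⟨K₀, hK₀, hK₀T, hirr, f₀, D, hf₀, hlc, hDx, hfD, -, -⟩ :=
    exists_unramified_pair (M * q) hA m x hx hfix
  subst hDx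
  have hf : keyFqBC (M * q) K₀ f₀ ≠ 0 := (map_ne_zero _).2 hf₀
  -- the norms over `Ω`
  obtain ⟨aα, gα, haα, hgα, hNα⟩ := exists_normAlong_eq_of_degPush_eq_zero M q
    (heckeAlphaBar Ω M q) D (keyFqBC (M * q) K₀ f₀) hf hfD hα
  obtain ⟨aβ, gβ, haβ, hgβ, hNβ⟩ := exists_normAlong_eq_of_degPush_eq_zero M q
    (heckeBetaBar Ω M q) D (keyFqBC (M * q) K₀ f₀) hf hfD hβ
  -- the norms over `K₀`
  rw [← keyFqBC_normAlong_heckeAlphaBar M q K₀ hq f₀] at hNα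
  rw [← keyFqBC_normAlong_heckeBetaBar M q K₀ hq f₀] at hNβ
  obtain ⟨a₁, h₁, ha₁, hh₁, hN₁⟩ := exists_base_root K₀ M hm _ aα gα haα hgα hNα
  obtain ⟨a₂, h₂, ha₂, hh₂, hN₂⟩ := exists_base_root K₀ M hm _ aβ gβ haβ hgβ hNβ
  -- the orders on the host over `K₀`
  have hord : ∀ P : Place ↥K₀ ↥(legE ↥K₀ (M * q)),
      (m : ℤ) ∣ P.ord (fullToLegE ↥K₀ (M * q) f₀) := by
    intro P
    obtain ⟨Q, -, hQord⟩ := exists_place_restrictBC_eq_and_ord (legBC (M * q) K₀)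
      (legBC_algebraMap (M * q) K₀) (closure_range_legBC (M * q) K₀) P
    rw [hQord, bcdeg_legBC_fullToLegE]
    exact dvd_ord_fullToLegE (M * q) (keyFqBC (M * q) K₀ f₀) (fun v => ⟨_, hfD v⟩) Q
  obtain ⟨u, hu⟩ := H A hA K₀ hK₀ hK₀T hirr m hm hqm f₀ hf₀ hlc hord
    ⟨a₁, h₁, ha₁, hh₁, hN₁⟩ ⟨a₂, h₂, ha₂, hh₂, hN₂⟩
  -- the norm down to `F(K₀)`
  letI : Algebra ↥(keyFq ↥K₀ (M * q)) ↥(legE ↥K₀ (M * q)) :=
    (fullToLegE ↥K₀ (M * q)).toRingHom.toAlgebra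
  haveI : FiniteDimensional ↥(keyFq ↥K₀ (M * q)) ↥(legE ↥K₀ (M * q)) :=
    finite_fullToLegE ↥K₀ (M * q)
  have hu' : algebraMap ↥(keyFq ↥K₀ (M * q)) ↥(legE ↥K₀ (M * q)) (f₀ ^ c₀) = u ^ m := by
    rw [map_pow]
    exact hu
  have hnorm := pow_finrank_eq_norm_pow (K := ↥(keyFq ↥K₀ (M * q))) (L := ↥(legE ↥K₀ (M * q)))
    (x := f₀ ^ c₀) (u := u) (m := m) hu'
  have hdeg : Module.finrank ↥(keyFq ↥K₀ (M * q)) ↥(legE ↥K₀ (M * q)) = legDeg (M * q) :=
    (finrank_legE_base (M * q) K₀).symm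
  rw [hdeg, ← pow_mul] at hnorm
  -- back to `Ω`
  have hΩ : keyFqBC (M * q) K₀ f₀ ^ (c₀ * legDeg (M * q)) =
      algebraMap Ω ↥(modularFunctionFieldBar (M * q)) 1 *
        keyFqBC (M * q) K₀ (Algebra.norm ↥(keyFq ↥K₀ (M * q)) u) ^ m := by
    rw [map_one, one_mul, ← map_pow, ← map_pow, hnorm]
  have hw : keyFqBC (M * q) K₀ (Algebra.norm ↥(keyFq ↥K₀ (M * q)) u) ≠ 0 := by
    intro h0
    rw [h0, zero_pow hm.ne', mul_zero] at hΩ
    exact hf (pow_eq_zero_iff (mul_ne_zero hc₀ (legDeg_ne_zero (M * q))) |>.1 hΩ)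
  exact pic0_nsmul_mk_eq_zero_of_pow hm.ne' D _ hf hfD 1 _ one_ne_zero hw hΩ

end Leg

section Hes

variable (M : ℕ) [NeZero M] [NeZero (M * 2)]

set_option maxHeartbeats 3200000 in
/-- **[T3-36], Hesse host**: the base statement kills the inertia-invariant torsion classes
killed by both degeneracy pushforwards, up to the factor `c · [E : F]`. -/
theorem nsmul_eq_zero_of_hesInertBase (hB : HesInertBase)
    (hqM : 2 ∣ M) (hqq : ¬ 2 ^ 2 ∣ M) :
    ∃ c : ℕ, c ≠ 0 ∧ ∀ (A : ValuationSubring Ω), A.LiesOverPrime 2 →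
      ∀ (m : ℕ), 0 < m → ¬ 2 ∣ m → ∀ x : JZero (M * 2), m • x = 0 →
        (∀ τ ∈ A.inertiaSubgroupIn ℚ, τ • x = x) →
        degPushAlpha M 2 x = 0 → degPushBeta M 2 x = 0 → c • x = 0 := by
  classical
  obtain ⟨c₀, hc₀, H⟩ := hB M hqM hqq
  refine ⟨c₀ * hesDeg (M * 2), mul_ne_zero hc₀ (hesDeg_ne_zero (M * 2)), ?_⟩
  intro A hA m hm hqm x hx hfix hα hβ
  haveI : Fact (2 : ℕ).Prime := ⟨Nat.prime_two⟩
  obtain ⟨K₀, hK₀, hK₀T, hirr, f₀, D, hf₀, hlc, hDx, hfD, -, -⟩ :=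
    exists_unramified_pair (M * 2) hA m x hx hfix
  subst hDx
  have hf : keyFqBC (M * 2) K₀ f₀ ≠ 0 := (map_ne_zero _).2 hf₀
  -- the norms over `Ω`
  obtain ⟨aα, gα, haα, hgα, hNα⟩ := exists_normAlong_eq_of_degPush_eq_zero M 2
    (heckeAlphaBar Ω M 2) D (keyFqBC (M * 2) K₀ f₀) hf hfD hα
  obtain ⟨aβ, gβ, haβ, hgβ, hNβ⟩ := exists_normAlong_eq_of_degPush_eq_zero M 2
    (heckeBetaBar Ω M 2) D (keyFqBC (M * 2) K₀ f₀) hf hfD hβ
  -- the norms over `K₀`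
  rw [← keyFqBC_normAlong_heckeAlphaBar M 2 K₀ Nat.prime_two f₀] at hNα
  rw [← keyFqBC_normAlong_heckeBetaBar M 2 K₀ Nat.prime_two f₀] at hNβ
  obtain ⟨a₁, h₁, ha₁, hh₁, hN₁⟩ := exists_base_root K₀ M hm _ aα gα haα hgα hNα
  obtain ⟨a₂, h₂, ha₂, hh₂, hN₂⟩ := exists_base_root K₀ M hm _ aβ gβ haβ hgβ hNβ
  -- the orders on the host over `K₀`
  have hord : ∀ P : Place ↥K₀ ↥(hesE ↥K₀ (M * 2)),
      (m : ℤ) ∣ P.ord (fullToHesE ↥K₀ (M * 2) f₀) := by
    intro P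
    obtain ⟨Q, -, hQord⟩ := exists_place_restrictBC_eq_and_ord (hesBC (M * 2) K₀)
      (hesBC_algebraMap (M * 2) K₀) (closure_range_hesBC (M * 2) K₀) P
    rw [hQord, bcdeg_hesBC_fullToHesE]
    exact dvd_ord_fullToHesE (M * 2) (keyFqBC (M * 2) K₀ f₀) (fun v => ⟨_, hfD v⟩) Q
  obtain ⟨u, hu⟩ := H A hA K₀ hK₀ hK₀T hirr m hm hqm f₀ hf₀ hlc hord
    ⟨a₁, h₁, ha₁, hh₁, hN₁⟩ ⟨a₂, h₂, ha₂, hh₂, hN₂⟩
  -- the norm down to `F(K₀)`
  letI : Algebra ↥(keyFq ↥K₀ (M * 2)) ↥(hesE ↥K₀ (M * 2)) :=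
    (fullToHesE ↥K₀ (M * 2)).toRingHom.toAlgebra
  haveI : FiniteDimensional ↥(keyFq ↥K₀ (M * 2)) ↥(hesE ↥K₀ (M * 2)) :=
    finite_fullToHesE ↥K₀ (M * 2)
  have hu' : algebraMap ↥(keyFq ↥K₀ (M * 2)) ↥(hesE ↥K₀ (M * 2)) (f₀ ^ c₀) = u ^ m := by
    rw [map_pow]
    exact hu
  have hnorm := pow_finrank_eq_norm_pow (K := ↥(keyFq ↥K₀ (M * 2))) (L := ↥(hesE ↥K₀ (M * 2)))
    (x := f₀ ^ c₀) (u := u) (m := m) hu'
  have hdeg : Module.finrank ↥(keyFq ↥K₀ (M * 2)) ↥(hesE ↥K₀ (M * 2)) = hesDeg (M * 2) :=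
    (finrank_hesE_base (M * 2) K₀).symm
  rw [hdeg, ← pow_mul] at hnorm
  -- back to `Ω`
  have hΩ : keyFqBC (M * 2) K₀ f₀ ^ (c₀ * hesDeg (M * 2)) =
      algebraMap Ω ↥(modularFunctionFieldBar (M * 2)) 1 *
        keyFqBC (M * 2) K₀ (Algebra.norm ↥(keyFq ↥K₀ (M * 2)) u) ^ m := by
    rw [map_one, one_mul, ← map_pow, ← map_pow, hnorm]
  have hw : keyFqBC (M * 2) K₀ (Algebra.norm ↥(keyFq ↥K₀ (M * 2)) u) ≠ 0 := by
    intro h0
    rw [h0, zero_pow hm.ne', mul_zero] at hΩ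
    exact hf (pow_eq_zero_iff (mul_ne_zero hc₀ (hesDeg_ne_zero (M * 2))) |>.1 hΩ)
  exact pic0_nsmul_mk_eq_zero_of_pow hm.ne' D _ hf hfD 1 _ one_ne_zero hw hΩ

end Hes

/-- **[T3-36]**: the base statements imply the geometric input `KeyInertStatement` of S36. -/
theorem keyInertStatement_of_bases (hL : LegInertBase) (hH : HesInertBase) :
    KeyInertStatement := by
  intro M q p _ _ _ hq hp hqp hqM hqq
  have hqm : ∀ k : ℕ, ¬ q ∣ p ^ k := fun k h =>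
    hqp ((Nat.prime_dvd_prime_iff_eq hq hp).1 (hq.dvd_of_dvd_pow h))
  by_cases hq2 : q = 2
  · subst hq2
    obtain ⟨c, hc, H⟩ := nsmul_eq_zero_of_hesInertBase M hH hqM hqq
    refine ⟨padicValNat p c, fun A hA k x hx hfix hα hβ => ?_⟩
    exact pow_padicValNat_smul_eq_zero hp hc hx
      (H A hA (p ^ k) (pow_pos hp.pos k) (hqm k) x hx hfix hα hβ)
  · obtain ⟨c, hc, H⟩ := nsmul_eq_zero_of_legInertBase M q hL hq hq2 hqM hqq
    refine ⟨padicValNat p c, fun A hA k x hx hfix hα hβ => ?_⟩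
    exact pow_padicValNat_smul_eq_zero hp hc hx
      (H A hA (p ^ k) (pow_pos hp.pos k) (hqm k) x hx hfix hα hβ)

end Fermat.Agent.S36
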