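/-
S36 [CUSPORD2] (D-key), part 1 — helper8 — concrete inputs on `F_q = K(j, j_q) ⊆ K⸨x⸩` at the
`x`-adic valuation subring `O = cuspVinf K q` (a rational place):

* `T = j⁻¹` has positive order, `𝔞 = j_q / j^q` is a 1-unit (`𝔞 - 1` has positive order);
* every `y ∈ O` has a `T`-adic expansion to every order `N`: `y = p(T) + T^N y'`, `p ∈ K[X]`,
  `y' ∈ O`;
* for a ring hom `φ : F_q →+* E` and a valuation subring `V ⊇ K` of `E` with `φ j ∉ V` and
  `(φ 𝔞)⁻¹ ∈ V`: `V.comap φ = O` (from helper9's `cuspord`).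
-/
import Mathlib
import Fermat.Agent.SS.CUSPORD_helper9_Main

set_option autoImplicit false
set_option linter.unusedSectionVars false
set_option linter.style.haveILetI false
set_option synthInstance.maxHeartbeats 200000

open AlgebraicCurve Polynomial IntermediateField ModularCurve HahnSeries

namespace Fermat.Agent.S36

open Fermat.Agent.JA Fermat.Agent.FF Fermat.Agent.FF.Gal Fermat.Agent.X0N Fermat.Agent.RatStr
  Fermat.Agent.SS

section General

/-- `v(x) < 1` iff `x = 0` or `x⁻¹ ∉ A`. -/
theorem valuation_lt_one_iff_cuspord2 {L : Type*} [Field L] (A : ValuationSubring L) (x : L) :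
    A.valuation x < 1 ↔ x = 0 ∨ x⁻¹ ∉ A := by
  by_cases hx : x = 0
  · subst hx
    simp
  · have hpos : 0 < A.valuation x := by
      rw [Valuation.pos_iff]
      exact hx
    rw [← ValuationSubring.valuation_le_one_iff, map_inv₀, inv_le_one₀ hpos, not_le]
    simp [hx]

end General

section Concrete

variable (K : Type*) [Field K] [Algebra ℚ K] (q : ℕ) [NeZero q]

theorem cuspVinf_mem_of_order {f : ↥(laurentBaseChange K (modularFunctionFieldFull q))}
    (hf : 0 ≤ (f : LaurentSeries K).order) : f ∈ cuspVinf K q :=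
  (mem_cuspVinf_iff K q f).mpr (Or.inr hf)

theorem cuspVinf_coe_ne_zero {f : ↥(laurentBaseChange K (modularFunctionFieldFull q))}
    (hf : f ≠ 0) : (f : LaurentSeries K) ≠ 0 := fun h => hf (Subtype.ext h)

/-- the maximal ideal of the `x`-adic valuation subring: positive order. -/
theorem cuspVinf_valuation_lt_one_iff
    (f : ↥(laurentBaseChange K (modularFunctionFieldFull q))) :
    (cuspVinf K q).valuation f < 1 ↔ f = 0 ∨ 0 < (f : LaurentSeries K).order := by
  rw [valuation_lt_one_iff_cuspord2]
  by_cases hf : f = 0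
  · simp [hf]
  · have hf' := cuspVinf_coe_ne_zero K q hf
    have hinv : ((f⁻¹ : ↥(laurentBaseChange K (modularFunctionFieldFull q))) :
        LaurentSeries K).order = -(f : LaurentSeries K).order := by
      have h1 : ((f⁻¹ : ↥(laurentBaseChange K (modularFunctionFieldFull q))) :
          LaurentSeries K) * (f : LaurentSeries K) = 1 := by
        rw [← IntermediateField.coe_mul, inv_mul_cancel₀ hf]; rfl
      have h2 : ((f⁻¹ : ↥(laurentBaseChange K (modularFunctionFieldFull q))) :
          LaurentSeries K) ≠ 0 := cuspVinf_coe_ne_zero K q (inv_ne_zero hf)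
      have h3 := HahnSeries.order_mul h2 hf'
      rw [h1, HahnSeries.order_one] at h3
      linarith
    rw [mem_cuspVinf_iff, hinv]
    simp only [hf, inv_eq_zero, false_or]
    constructor
    · intro h; push Not at h; linarith
    · intro h; push Not; linarith

end Concrete

section Series

variable (K : Type*) [Field K] [Algebra ℚ K] (q : ℕ) [NeZero q]

theorem leadingCoeff_jqModC_cuspord2 : (jqModC K).leadingCoeff = 1 := by
  rw [HahnSeries.leadingCoeff_eq, cuspord_order_jqModC, coeff_jqModC_neg_one]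

theorem leadingCoeff_jqNModC_cuspord2 : (jqNModC K q).leadingCoeff = 1 := by
  rw [HahnSeries.leadingCoeff_eq, cuspord_order_jqNModC, jqNModC]
  have h := qExpand_coeff_mul (R := K) q (jqModC K) (-1)
  rw [mul_neg_one] at h
  rw [h, coeff_jqModC_neg_one]

theorem leadingCoeff_pow_cuspord2 {f : LaurentSeries K} (n : ℕ) :
    (f ^ n).leadingCoeff = f.leadingCoeff ^ n := by
  induction n with
  | zero => simp
  | succ k ih => rw [pow_succ, HahnSeries.leadingCoeff_mul, ih, pow_succ]

/-- a Laurent series of order `0` with leading coefficient `c` is congruent to `c` modulo `x`. -/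
theorem sub_C_order_pos_of_order_nonneg {f : LaurentSeries K}
    (hf : f = 0 ∨ 0 ≤ f.order) :
    f - HahnSeries.C (f.coeff 0) = 0 ∨ 0 < (f - HahnSeries.C (f.coeff 0)).order := by
  by_cases h0 : f - HahnSeries.C (f.coeff 0) = 0
  · exact Or.inl h0
  · right
    have h1 : (1 : ℤ) ≤ (f - HahnSeries.C (f.coeff 0)).order := by
      rw [HahnSeries.le_order_iff_forall h0]
      intro j hj
      rw [HahnSeries.coeff_sub]
      rcases lt_or_eq_of_le (Int.lt_add_one_iff.mp (by linarith : j < 0 + 1)) with hj0 | hj0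
      · have e1 : f.coeff j = 0 := by
          rcases hf with hf | hf
          · rw [hf]; rfl
          · exact HahnSeries.coeff_eq_zero_of_lt_order (lt_of_lt_of_le hj0 hf)
        have e2 : (HahnSeries.C (f.coeff 0) : LaurentSeries K).coeff j = 0 := by
          rw [HahnSeries.C_apply, HahnSeries.coeff_single_of_ne (ne_of_lt hj0)]
        rw [e1, e2, sub_zero]
      · subst hj0
        rw [HahnSeries.C_apply, HahnSeries.coeff_single_same, sub_self]
    linarith

end Series

section Inputs

variable (K : Type*) [Field K] [Algebra ℚ K] (q : ℕ) [NeZero q]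

theorem order_inv_cuspord2 {f : LaurentSeries K} (hf : f ≠ 0) : f⁻¹.order = -f.order := by
  have h3 := HahnSeries.order_mul (inv_ne_zero hf) hf
  rw [inv_mul_cancel₀ hf, HahnSeries.order_one] at h3
  linarith

theorem leadingCoeff_inv_cuspord2 {f : LaurentSeries K} (hf : f ≠ 0) :
    f⁻¹.leadingCoeff = f.leadingCoeff⁻¹ := by
  have h3 := HahnSeries.leadingCoeff_mul f⁻¹ f
  rw [inv_mul_cancel₀ hf, HahnSeries.leadingCoeff_one] at h3
  exact eq_inv_of_mul_eq_one_left h3.symm

theorem coe_algebraMap_cuspord2 (c : K) :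
    ((algebraMap K ↥(laurentBaseChange K (modularFunctionFieldFull q)) c :
      ↥(laurentBaseChange K (modularFunctionFieldFull q))) : LaurentSeries K) =
      HahnSeries.C c := by
  rw [IntermediateField.coe_algebraMap_apply]
  exact LaurentSeries.algebraMap_apply K c

/-- **(ii)** `T = j⁻¹` lies in the maximal ideal of the `x`-adic valuation subring. -/
theorem cuspVinf_valuation_inv_jGen_lt_one :
    (cuspVinf K q).valuation (jGen K q)⁻¹ < 1 := by
  rw [valuation_lt_one_iff_cuspord2, inv_inv]
  right
  rw [mem_cuspVinf_iff]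
  push Not
  refine ⟨cuspord_jGen_ne_zero K q, ?_⟩
  rw [cuspord_coe_jGen, cuspord_order_jqModC]
  norm_num

theorem inv_jGen_ne_zero_cuspord2 :
    (jGen K q : ↥(laurentBaseChange K (modularFunctionFieldFull q)))⁻¹ ≠ 0 :=
  inv_ne_zero (cuspord_jGen_ne_zero K q)

theorem coe_cuspA :
    ((jdBar (k := K) q (dvd_refl q) * (jGen K q ^ q)⁻¹ :
      ↥(laurentBaseChange K (modularFunctionFieldFull q))) : LaurentSeries K) =
      jqNModC K q * (jqModC K ^ q)⁻¹ := by
  rw [IntermediateField.coe_mul, IntermediateField.coe_inv, IntermediateField.coe_pow,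
    cuspord_coe_jGen, cuspord_coe_jdBar]

theorem jqNModC_ne_zero_cuspord2 : jqNModC K q ≠ 0 := by
  intro h
  have := cuspord_order_jqNModC K q
  rw [h, HahnSeries.order_zero] at this
  have hq : (0 : ℤ) < q := by exact_mod_cast Nat.pos_of_ne_zero (NeZero.ne q)
  linarith

theorem order_cuspA : (jqNModC K q * (jqModC K ^ q)⁻¹).order = 0 := by
  have h1 := jqModC_ne_zero_of_nontrivial K
  have h2 : (jqModC K ^ q) ≠ 0 := pow_ne_zero q h1
  rw [HahnSeries.order_mul (jqNModC_ne_zero_cuspord2 K q) (inv_ne_zero h2),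
    order_inv_cuspord2 K h2, HahnSeries.order_pow, cuspord_order_jqNModC, cuspord_order_jqModC]
  simp

theorem leadingCoeff_cuspA : (jqNModC K q * (jqModC K ^ q)⁻¹).leadingCoeff = 1 := by
  have h1 := jqModC_ne_zero_of_nontrivial K
  have h2 : (jqModC K ^ q) ≠ 0 := pow_ne_zero q h1
  rw [HahnSeries.leadingCoeff_mul, leadingCoeff_inv_cuspord2 K h2, leadingCoeff_pow_cuspord2,
    leadingCoeff_jqNModC_cuspord2, leadingCoeff_jqModC_cuspord2]
  simp

/-- **(ii)** `𝔞 = j_q / j^q` is a 1-unit of the `x`-adic valuation subring. -/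
theorem cuspVinf_valuation_cuspA_sub_one_lt_one :
    (cuspVinf K q).valuation
      (jdBar (k := K) q (dvd_refl q) * (jGen K q ^ q)⁻¹ - 1) < 1 := by
  rw [cuspVinf_valuation_lt_one_iff]
  have hc : (jqNModC K q * (jqModC K ^ q)⁻¹).coeff 0 = 1 := by
    have := leadingCoeff_cuspA K q
    rwa [HahnSeries.leadingCoeff_eq, order_cuspA] at this
  have h := sub_C_order_pos_of_order_nonneg K (f := jqNModC K q * (jqModC K ^ q)⁻¹)
    (Or.inr (le_of_eq (order_cuspA K q).symm))
  rw [hc, map_one] at h
  have hcoe : ((jdBar (k := K) q (dvd_refl q) * (jGen K q ^ q)⁻¹ - 1 :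
      ↥(laurentBaseChange K (modularFunctionFieldFull q))) : LaurentSeries K) =
      jqNModC K q * (jqModC K ^ q)⁻¹ - 1 := by
    rw [AddSubgroupClass.coe_sub, coe_cuspA]; rfl
  rcases h with h | h
  · left
    apply Subtype.ext
    rw [hcoe, h]; rfl
  · right
    rw [hcoe]; exact h

theorem cuspA_mem_cuspVinf :
    jdBar (k := K) q (dvd_refl q) * (jGen K q ^ q)⁻¹ ∈ cuspVinf K q := by
  apply cuspVinf_mem_of_order
  rw [coe_cuspA, order_cuspA]

/-- **(i)** `T`-adic expansions to every order in the `x`-adic valuation subring. -/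
theorem cuspVinf_exists_expansion (y : ↥(laurentBaseChange K (modularFunctionFieldFull q)))
    (hy : y ∈ cuspVinf K q) (N : ℕ) :
    ∃ p : K[X], ∃ y' ∈ cuspVinf K q,
      y = Polynomial.aeval ((jGen K q)⁻¹ : ↥(laurentBaseChange K (modularFunctionFieldFull q))) p +
        ((jGen K q)⁻¹) ^ N * y' := by
  induction N with
  | zero => exact ⟨0, y, hy, by simp⟩
  | succ N ih =>
    obtain ⟨p, y', hy', hyp⟩ := ih
    set c : K := (y' : LaurentSeries K).coeff 0 with hc
    set z : ↥(laurentBaseChange K (modularFunctionFieldFull q)) :=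
      y' - algebraMap K _ c with hz
    have hzcoe : (z : LaurentSeries K) = (y' : LaurentSeries K) - HahnSeries.C c := by
      rw [hz, AddSubgroupClass.coe_sub, coe_algebraMap_cuspord2]
    have hzord := sub_C_order_pos_of_order_nonneg K (f := (y' : LaurentSeries K))
      (by
        rcases (mem_cuspVinf_iff K q y').mp hy' with h | h
        · left; rw [h]; rfl
        · right; exact h)
    rw [← hc, ← hzcoe] at hzord
    have hj0 := cuspord_jGen_ne_zero K q
    refine ⟨p + Polynomial.C c * Polynomial.X ^ N, z * jGen K q, ?_, ?_⟩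
    · rcases hzord with h | h
      · have : z = 0 := Subtype.ext h
        rw [this, zero_mul]
        exact (cuspVinf K q).zero_mem
      · apply cuspVinf_mem_of_order
        have hz0 : (z : LaurentSeries K) ≠ 0 := by
          intro h0; rw [h0, HahnSeries.order_zero] at h; exact lt_irrefl _ h
        rw [IntermediateField.coe_mul, HahnSeries.order_mul hz0 (cuspVinf_coe_ne_zero K q hj0),
          cuspord_coe_jGen, cuspord_order_jqModC]
        linarith
    · rw [hyp, map_add, map_mul, Polynomial.aeval_C, map_pow, Polynomial.aeval_X, pow_succ]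
      have e : y' = algebraMap K _ c + z := by rw [hz]; ring
      rw [e]
      field_simp
      ring

end Inputs

section Comap

variable {K : Type*} [Field K] [Algebra ℚ K] (ι : K →+* ℂ) (q : ℕ) [NeZero q]

include ι in
/-- **(iii)** a valuation subring `V ⊇ K` of a host at which `φ j` has a pole and `φ 𝔞` is a unit
restricts to the `x`-adic valuation subring of `F_q`. -/
theorem comap_eq_cuspVinf_of_unit (hq : q.Prime) {E : Type*} [Field E]
    (φ : ↥(laurentBaseChange K (modularFunctionFieldFull q)) →+* E) (V : ValuationSubring E)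
    (hK : ∀ c : K, φ (algebraMap K ↥(laurentBaseChange K (modularFunctionFieldFull q)) c) ∈ V)
    (hj : φ (jGen K q) ∉ V)
    (ha : (φ (jdBar (k := K) q (dvd_refl q) * (jGen K q ^ q)⁻¹))⁻¹ ∈ V) :
    V.comap φ = cuspVinf K q := by
  obtain ⟨h | h, -⟩ := cuspord ι q hq (V.comap φ) hK hj
  · exact h
  · exfalso
    have h1 : (jdBar (k := K) q (dvd_refl q) * (jGen K q ^ q)⁻¹)⁻¹ ∈ V.comap φ := by
      rw [ValuationSubring.mem_comap, map_inv₀]
      exact ha
    rw [h, ValuationSubring.mem_comap, map_inv₀, map_mul, map_inv₀, map_pow,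
      cuspord_frickeN_jdBar, cuspord_frickeN_jGen] at h1
    have hν := isOrdFun_qOrd (laurentBaseChange K (modularFunctionFieldFull q))
      (cuspord_exists_qOrd_ne_zero K q)
    have hj0 := cuspord_jGen_ne_zero K q
    have hjq0 : jdBar (k := K) q (dvd_refl q) ≠ 0 := by
      rw [← cuspord_frickeN_jGen ι q]
      exact (map_ne_zero (frickeN ι q)).mpr hj0
    have hne : jGen K q * (jdBar (k := K) q (dvd_refl q) ^ q)⁻¹ ≠ 0 :=
      mul_ne_zero hj0 (inv_ne_zero (pow_ne_zero q hjq0))
    have hord : qOrd (laurentBaseChange K (modularFunctionFieldFull q))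
        (jGen K q * (jdBar (k := K) q (dvd_refl q) ^ q)⁻¹)⁻¹ = 1 - (q : ℤ) * q := by
      rw [hν.map_inv hne, CuspOrd.cuspord_map_mul_pow_inv hν hj0 hjq0, cuspord_qOrd_jGen,
        cuspord_qOrd_jdBar]
      ring
    rcases (mem_cuspVinf_iff K q _).mp h1 with h2 | h2
    · exact inv_ne_zero hne h2
    · have h3 : (0 : ℤ) ≤ 1 - (q : ℤ) * q := by rw [← hord]; exact h2
      have h4 : (2 : ℤ) ≤ q := by exact_mod_cast hq.two_le
      nlinarith

end Comap

end Fermat.Agent.S36
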