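/-
S36 [CUSPS36] — helper2 — part 1 (pure valuation theory): **the expansion lemma [ABS-D].**

`O` a valuation subring of a field `F / K` with a "coordinate" `T` (`v_O(T) < 1`) and an element
`𝔞 ≡ 1` admitting `T`-adic expansions to all orders with coefficients in `K`
(`𝔞 = p(T) + T ^ N * y`, `p ∈ K[X]`, `y ∈ O`).  `σ₁ σ₂ : F → E` two `K`-embeddings into a field
`E` with a valuation subring `V ⊇ K` such that `V ∩ σ₁ F = σ₁ O`, `V ∩ σ₂ F = σ₂ O`
(`V.comap σᵢ = O`), `V` archimedean (e.g. discrete).  If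
`σ₁ 𝔞 * σ₂ T ^ q = σ₂ 𝔞 * σ₁ T ^ q` and `σ₁ T ≠ σ₂ T`, then `s := σ₁ T / σ₂ T` satisfies
`v_V(1 + s + ⋯ + s ^ (q - 1)) < 1` (the residue of `s` is a root of `1 + X + ⋯ + X ^ (q - 1)`).

Application (middle cusps of level `q²`): `F = K(j, j_q)`, `O` the `x`-adic place, `T = 1 / j`,
`𝔞 = j_q / j ^ q`, `σ₁ (j, j_q) = (j0, j1)`, `σ₂ (j, j_q) = (j2, j1)`: the residue of `j2 / j0` at a
cuspidal place where `j1 / j0 ^ q` and `j1 / j2 ^ q` are units is a primitive `q`-th root of unity.
-/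
import Mathlib

set_option autoImplicit false
set_option linter.unusedSectionVars false

namespace Fermat.Agent.S36

open Polynomial

section Exp

variable {K F E : Type*} [Field K] [Field F] [Field E] [Algebra K F] [Algebra K E]

/-- `v(x - 1) < 1 → v(x) = 1`. -/
theorem cusps36_val_eq_one_of_sub_one (V : ValuationSubring E) {x : E}
    (hx : V.valuation (x - 1) < 1) : V.valuation x = 1 := by
  have h1 : x = (x - 1) + 1 := by ring
  rw [h1]
  have h3 := Valuation.map_add_eq_of_lt_right V.valuation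
    (show V.valuation (x - 1) < V.valuation 1 by rw [map_one]; exact hx)
  rw [h3, map_one]

/-- the maximal ideals correspond under `comap`. -/
theorem cusps36_val_lt_one_iff_comap {O : ValuationSubring F} {V : ValuationSubring E}
    (σ : F →+* E) (h : V.comap σ = O) (x : F) :
    O.valuation x < 1 ↔ V.valuation (σ x) < 1 := by
  by_cases hx : x = 0
  · subst hx
    simp
  · have hσx : σ x ≠ 0 := (map_ne_zero σ).mpr hx
    have e1 : O.valuation x < 1 ↔ x⁻¹ ∉ O := by
      rw [← ValuationSubring.valuation_le_one_iff, map_inv₀, not_le,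
        one_lt_inv₀ (lt_of_le_of_ne zero_le ((Valuation.ne_zero_iff _).mpr hx).symm)]
    have e2 : V.valuation (σ x) < 1 ↔ (σ x)⁻¹ ∉ V := by
      rw [← ValuationSubring.valuation_le_one_iff, map_inv₀, not_le,
        one_lt_inv₀ (lt_of_le_of_ne zero_le ((Valuation.ne_zero_iff _).mpr hσx).symm)]
    rw [e1, e2, ← h, ValuationSubring.mem_comap, map_inv₀]

/-- a difference of values of a polynomial with integral coefficients is divisible by the
difference of the arguments. -/
theorem cusps36_val_aeval_sub_le (V : ValuationSubring E) (hK : ∀ c : K, algebraMap K E c ∈ V)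
    {x y : E} (hx : x ∈ V) (hy : y ∈ V) (p : K[X]) :
    V.valuation (aeval x p - aeval y p) ≤ V.valuation (x - y) := by
  induction p using Polynomial.induction_on' with
  | add p r hp hr =>
    have e : aeval x (p + r) - aeval y (p + r) =
        (aeval x p - aeval y p) + (aeval x r - aeval y r) := by
      rw [map_add, map_add]; ring
    rw [e]
    exact le_trans (Valuation.map_add _ _ _) (max_le hp hr)
  | monomial n a =>
    rw [aeval_monomial, aeval_monomial, ← mul_sub, ← geom_sum₂_mul, map_mul, map_mul]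
    have h1 : V.valuation (algebraMap K E a) ≤ 1 :=
      (ValuationSubring.valuation_le_one_iff _ _).mpr (hK a)
    have h2 : V.valuation (∑ i ∈ Finset.range n, x ^ i * y ^ (n - 1 - i)) ≤ 1 :=
      (ValuationSubring.valuation_le_one_iff _ _).mpr
        (Subring.sum_mem _ (fun i _ => V.mul_mem _ _ (pow_mem hx i) (pow_mem hy _)))
    calc V.valuation (algebraMap K E a) *
          (V.valuation (∑ i ∈ Finset.range n, x ^ i * y ^ (n - 1 - i)) * V.valuation (x - y))
        ≤ 1 * (1 * V.valuation (x - y)) := by gcongr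
      _ = V.valuation (x - y) := by rw [one_mul, one_mul]

/-- **[ABS-D] the expansion lemma.** -/
theorem cusps36_val_geom_sum_lt_one (O : ValuationSubring F) (V : ValuationSubring E)
    (σ₁ σ₂ : F →+* E)
    (hσ₁K : ∀ c : K, σ₁ (algebraMap K F c) = algebraMap K E c)
    (hσ₂K : ∀ c : K, σ₂ (algebraMap K F c) = algebraMap K E c)
    (hK : ∀ c : K, algebraMap K E c ∈ V)
    (h₁ : V.comap σ₁ = O) (h₂ : V.comap σ₂ = O)
    {T 𝔞 : F} (hT : O.valuation T < 1) (h𝔞 : O.valuation (𝔞 - 1) < 1)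
    (hexp : ∀ N : ℕ, ∃ p : K[X], ∃ y ∈ O, 𝔞 = aeval T p + T ^ N * y)
    {q : ℕ} (hq : 0 < q)
    (hrel : σ₁ 𝔞 * σ₂ T ^ q = σ₂ 𝔞 * σ₁ T ^ q)
    (hne : σ₁ T ≠ σ₂ T)
    (harch : ∀ m t : E, V.valuation t < 1 → (∀ N : ℕ, V.valuation m ≤ V.valuation t ^ N) →
      m = 0) :
    V.valuation (∑ i ∈ Finset.range q, (σ₁ T / σ₂ T) ^ i) < 1 := by
  set a : E := σ₁ 𝔞 with ha
  set c : E := σ₂ 𝔞 with hc
  set τ0 : E := σ₁ T with hτ0
  set τ2 : E := σ₂ T with hτ2
  have hT0 : T ≠ 0 := by
    rintro rfl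
    exact hne (by rw [hτ0, hτ2, map_zero, map_zero])
  have hτ00 : τ0 ≠ 0 := (map_ne_zero σ₁).mpr hT0
  have hτ20 : τ2 ≠ 0 := (map_ne_zero σ₂).mpr hT0
  have hvτ0 : V.valuation τ0 < 1 := (cusps36_val_lt_one_iff_comap σ₁ h₁ T).mp hT
  have hvτ2 : V.valuation τ2 < 1 := (cusps36_val_lt_one_iff_comap σ₂ h₂ T).mp hT
  have hva1 : V.valuation (a - 1) < 1 := by
    have := (cusps36_val_lt_one_iff_comap σ₁ h₁ (𝔞 - 1)).mp h𝔞
    rwa [map_sub, map_one] at this
  have hvc1 : V.valuation (c - 1) < 1 := by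
    have := (cusps36_val_lt_one_iff_comap σ₂ h₂ (𝔞 - 1)).mp h𝔞
    rwa [map_sub, map_one] at this
  have hva : V.valuation a = 1 := cusps36_val_eq_one_of_sub_one V hva1
  have hvc : V.valuation c = 1 := cusps36_val_eq_one_of_sub_one V hvc1
  have hc0 : c ≠ 0 := fun h0 => by rw [h0, map_zero] at hvc; exact zero_ne_one hvc
  set s : E := τ0 / τ2 with hs
  have hsτ : τ0 = s * τ2 := by rw [hs, div_mul_cancel₀ _ hτ20]
  have hsq : s ^ q = a / c := by
    rw [hs, div_pow, div_eq_div_iff (pow_ne_zero q hτ20) hc0, mul_comm (τ0 ^ q) c, ← hrel]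
  have hvs : V.valuation s = 1 := by
    have h1 : V.valuation s ^ q = 1 := by
      rw [← map_pow, hsq, map_div₀, hva, hvc, div_one]
    exact (pow_eq_one_iff.mp h1).resolve_right hq.ne'
  have hsV : s ∈ V := (ValuationSubring.valuation_le_one_iff _ _).mp hvs.le
  have hvτ02 : V.valuation τ0 = V.valuation τ2 := by rw [hsτ, map_mul, hvs, one_mul]
  have hSV : V.valuation (∑ i ∈ Finset.range q, s ^ i) ≤ 1 :=
    (ValuationSubring.valuation_le_one_iff _ _).mpr (Subring.sum_mem _ (fun i _ => pow_mem hsV i))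
  by_contra hcon
  have hS1 : V.valuation (∑ i ∈ Finset.range q, s ^ i) = 1 :=
    le_antisymm hSV (not_lt.mp hcon)
  -- `m = s - 1`
  set m : E := s - 1 with hm
  have hac : s ^ q - 1 = (a - c) / c := by rw [hsq]; field_simp
  have hvm : V.valuation m = V.valuation (a - c) := by
    have h1 : V.valuation (s ^ q - 1) = V.valuation m := by
      rw [← geom_sum_mul, map_mul, hS1, one_mul]
    rw [← h1, hac, map_div₀, hvc, div_one]
  have hm0 : m ≠ 0 := by
    intro h0
    apply hne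
    have h1 : s = 1 := by rw [hm] at h0; exact sub_eq_zero.mp h0
    rw [hsτ, h1, one_mul]
  have hvm0 : 0 < V.valuation m := lt_of_le_of_ne zero_le ((Valuation.ne_zero_iff _).mpr hm0).symm
  apply hm0
  refine harch m τ2 hvτ2 (fun N => ?_)
  obtain ⟨p, y, hy, hpy⟩ := hexp N
  have hσ₁p : σ₁ (aeval T p) = aeval τ0 p := by
    rw [aeval_def, aeval_def, hom_eval₂]
    congr 1
    ext k
    exact hσ₁K k
  have hσ₂p : σ₂ (aeval T p) = aeval τ2 p := by
    rw [aeval_def, aeval_def, hom_eval₂]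
    congr 1
    ext k
    exact hσ₂K k
  have ea : a = aeval τ0 p + τ0 ^ N * σ₁ y := by
    rw [ha, hpy, map_add, map_mul, map_pow, hσ₁p]
  have ec : c = aeval τ2 p + τ2 ^ N * σ₂ y := by
    rw [hc, hpy, map_add, map_mul, map_pow, hσ₂p]
  have hy1 : σ₁ y ∈ V := by
    have : y ∈ V.comap σ₁ := by rw [h₁]; exact hy
    exact this
  have hy2 : σ₂ y ∈ V := by
    have : y ∈ V.comap σ₂ := by rw [h₂]; exact hy
    exact this
  have hτ0V : τ0 ∈ V := (ValuationSubring.valuation_le_one_iff _ _).mp hvτ0.le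
  have hτ2V : τ2 ∈ V := (ValuationSubring.valuation_le_one_iff _ _).mp hvτ2.le
  have e1 : a - c = (aeval τ0 p - aeval τ2 p) + (τ0 ^ N * σ₁ y - τ2 ^ N * σ₂ y) := by
    rw [ea, ec]; ring
  have hd : τ0 - τ2 = τ2 * m := by rw [hm, hsτ]; ring
  have b1 : V.valuation (aeval τ0 p - aeval τ2 p) ≤ V.valuation τ2 * V.valuation m := by
    have := cusps36_val_aeval_sub_le V hK hτ0V hτ2V p
    rwa [hd, map_mul] at this
  have b2 : V.valuation (τ0 ^ N * σ₁ y) ≤ V.valuation τ2 ^ N := by
    rw [map_mul, map_pow, hvτ02]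
    calc V.valuation τ2 ^ N * V.valuation (σ₁ y) ≤ V.valuation τ2 ^ N * 1 :=
          mul_le_mul_right ((ValuationSubring.valuation_le_one_iff _ _).mpr hy1) _
      _ = V.valuation τ2 ^ N := mul_one _
  have b3 : V.valuation (τ2 ^ N * σ₂ y) ≤ V.valuation τ2 ^ N := by
    rw [map_mul, map_pow]
    calc V.valuation τ2 ^ N * V.valuation (σ₂ y) ≤ V.valuation τ2 ^ N * 1 :=
          mul_le_mul_right ((ValuationSubring.valuation_le_one_iff _ _).mpr hy2) _
      _ = V.valuation τ2 ^ N := mul_one _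
  have b4 : V.valuation (τ0 ^ N * σ₁ y - τ2 ^ N * σ₂ y) ≤ V.valuation τ2 ^ N :=
    le_trans (Valuation.map_sub _ _ _) (max_le b2 b3)
  by_contra hlt
  rw [not_le] at hlt
  have b5 : V.valuation τ2 * V.valuation m < V.valuation m := by
    calc V.valuation τ2 * V.valuation m < 1 * V.valuation m :=
          mul_lt_mul_of_pos_right hvτ2 hvm0
      _ = V.valuation m := one_mul _
  have b6 : V.valuation (a - c) < V.valuation m := by
    rw [e1]
    exact lt_of_le_of_lt (Valuation.map_add _ _ _) (max_lt (lt_of_le_of_lt b1 b5)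
      (lt_of_le_of_lt b4 hlt))
  rw [hvm] at b6
  exact lt_irrefl _ b6

end Exp

end Fermat.Agent.S36
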