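/-
S36 [CUSPORD2] (D-key), part 2 — helper8 — **the residue of `j2 / j0` at a middle cusp is a
primitive `q`-th root of unity**, on the hosts of level `N` (`q² ∣ N`).

`E = Etu (keyFw K N w) t 1 ⊆ K⸨x⸩` (Legendre: `w = 2`, `t = legT K`; Hesse: `w = 3`, `t = hesT K`),
`j0 = j(x^w)`, `j1 = j(x^{wq})`, `j2 = j(x^{wq²})`.  For a valuation subring `V ⊇ K` of `E`,
archimedean, with `j0 ∉ V` and `j1 / j0^q`, `j1 / j2^q` units of `V`:
`v(1 + s + ⋯ + s^{q-1}) < 1` for `s = j2 / j0`.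

Proof: helper2's expansion lemma [ABS-D] (`cusps36_val_geom_sum_lt_one`) applied to the two
embeddings `σ₁ = (f ↦ f(x^w))`, `σ₂ = (f ↦ f(x^{wq})) ∘ Fricke` of `F_q = K(j, j_q)` into `E`;
both restrict `V` to the `x`-adic valuation subring of `F_q` (part 1, from helper9's `cuspord`).
-/
import Mathlib
import Fermat.Agent.S36.CUSPORD2_helper8_Exp
import Fermat.Agent.S36.CUSPS36_helper2_Exp
import Fermat.Agent.SS.CUSPHOST_helper8
import Fermat.Agent.SS.MODEL_helper7_Defs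

set_option autoImplicit false
set_option linter.unusedSectionVars false
set_option linter.style.haveILetI false
set_option synthInstance.maxHeartbeats 200000

open HahnSeries ModularCurve IntermediateField AlgebraicCurve Polynomial

namespace Fermat.Agent.S36

open Fermat.Agent.JA Fermat.Agent.FF Fermat.Agent.X0N Fermat.Agent.RatStr Fermat.Agent.SS

noncomputable section

variable {K : Type*} [Field K] [Algebra ℚ K]

/-- the embedding `f ↦ f(x^{wq})` of the function field of `X₀(q)` into the host of level `N`,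
`q² ∣ N`. -/
def cuspHostEmbB {N q : ℕ} [NeZero N] [NeZero q] (w : ℕ) [NeZero w] (hqN : q * q ∣ N)
    (t : LaurentSeries K) :
    ↥(laurentBaseChange K (modularFunctionFieldFull q)) →ₐ[K] ↥(Host.Etu (keyFw K N w) t 1) :=
  dilateAlgHom K (w * q) (laurentBaseChange K (modularFunctionFieldFull q))
    (Host.Etu (keyFw K N w) t 1)
    (fun f hf => by
      rw [← Fermat.Agent.SS.qExpand_qExpand' w q (w * q) rfl]
      exact keyFw_le_Etu K N w t (qExpand_mem_hostImage (qExpand_mem_keyFq K hqN hf)))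

theorem coe_cuspHostEmbB {N q : ℕ} [NeZero N] [NeZero q] (w : ℕ) [NeZero w] (hqN : q * q ∣ N)
    (t : LaurentSeries K) (f : ↥(laurentBaseChange K (modularFunctionFieldFull q))) :
    ((cuspHostEmbB w hqN t f : ↥(Host.Etu (keyFw K N w) t 1)) : LaurentSeries K) =
      qExpand K (w * q) (f : LaurentSeries K) := rfl

/-- if `x ^ n ∈ V` (`n ≠ 0`) then `x ∈ V`. -/
theorem mem_of_pow_mem_cuspord2 {L : Type*} [Field L] (V : ValuationSubring L) {x : L} {n : ℕ}
    (hn : n ≠ 0) (h : x ^ n ∈ V) : x ∈ V := by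
  rcases V.mem_or_inv_mem x with hx | hx
  · exact hx
  · obtain ⟨k, rfl⟩ := Nat.exists_eq_succ_of_ne_zero hn
    by_cases hx0 : x = 0
    · rw [hx0]; exact V.zero_mem
    have e : x = x ^ (k + 1) * (x⁻¹) ^ k := by
      rw [pow_succ, inv_pow]
      field_simp
    rw [e]
    exact V.mul_mem _ _ h (V.pow_mem hx k)

set_option maxHeartbeats 1600000 in
/-- **(D-key) on the hosts.** -/
theorem cuspord2_host (ι : K →+* ℂ) {N q : ℕ} [NeZero N] [NeZero q] (w : ℕ) [NeZero w]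
    (hq : q.Prime) (hqN : q * q ∣ N) (t : LaurentSeries K)
    (V : ValuationSubring ↥(Host.Etu (keyFw K N w) t 1))
    (hK : ∀ c : K, algebraMap K ↥(Host.Etu (keyFw K N w) t 1) c ∈ V)
    (j0 j1 j2 : ↥(Host.Etu (keyFw K N w) t 1))
    (hj0 : (j0 : LaurentSeries K) = jqNModC K w)
    (hj1 : (j1 : LaurentSeries K) = qExpand K q (jqNModC K w))
    (hj2 : (j2 : LaurentSeries K) = qExpand K q (qExpand K q (jqNModC K w)))
    (hj0V : j0 ∉ V)
    (ha' : (j1 * (j0 ^ q)⁻¹)⁻¹ ∈ V)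
    (hc : j1 * (j2 ^ q)⁻¹ ∈ V) (hc' : (j1 * (j2 ^ q)⁻¹)⁻¹ ∈ V)
    (harch : ∀ m t' : ↥(Host.Etu (keyFw K N w) t 1), V.valuation t' < 1 →
      (∀ n : ℕ, V.valuation m ≤ V.valuation t' ^ n) → m = 0) :
    V.valuation (∑ i ∈ Finset.range q, (j2 * j0⁻¹) ^ i) < 1 := by
  have hqN1 : q ∣ N := dvd_of_mul_left_dvd hqN
  set φ₁ := cuspHostEmb (K := K) w hqN1 t with hφ₁
  set φ₂ := cuspHostEmbB (K := K) w hqN t with hφ₂
  set σ₁ : ↥(laurentBaseChange K (modularFunctionFieldFull q)) →+*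
      ↥(Host.Etu (keyFw K N w) t 1) := φ₁.toRingHom with hσ₁
  set σ₂ : ↥(laurentBaseChange K (modularFunctionFieldFull q)) →+*
      ↥(Host.Etu (keyFw K N w) t 1) := φ₂.toRingHom.comp (frickeN ι q) with hσ₂
  -- the images of the generators
  have e10 : σ₁ (jGen K q) = j0 := by
    apply Subtype.ext
    show ((φ₁ (jGen K q) : ↥(Host.Etu (keyFw K N w) t 1)) : LaurentSeries K) = _
    rw [coe_cuspHostEmb, cuspord_coe_jGen, hj0, jqNModC]
  have e11 : σ₁ (jdBar (k := K) q (dvd_refl q)) = j1 := by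
    apply Subtype.ext
    show ((φ₁ (jdBar (k := K) q (dvd_refl q)) : ↥(Host.Etu (keyFw K N w) t 1)) :
      LaurentSeries K) = _
    rw [coe_cuspHostEmb, cuspord_coe_jdBar, hj1, jqNModC, jqNModC,
      Fermat.Agent.SS.qExpand_qExpand' w q (w * q) rfl,
      Fermat.Agent.SS.qExpand_qExpand' q w (w * q) (mul_comm w q)]
  have e20 : σ₂ (jGen K q) = j2 := by
    apply Subtype.ext
    show ((φ₂ (frickeN ι q (jGen K q)) : ↥(Host.Etu (keyFw K N w) t 1)) : LaurentSeries K) = _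
    rw [cuspord_frickeN_jGen, coe_cuspHostEmbB, cuspord_coe_jdBar, hj2, jqNModC, jqNModC,
      Fermat.Agent.SS.qExpand_qExpand' (w * q) q (w * q * q) rfl,
      Fermat.Agent.SS.qExpand_qExpand' q w (w * q) (mul_comm w q),
      Fermat.Agent.SS.qExpand_qExpand' q (w * q) (w * q * q) (by ring)]
  have e21 : σ₂ (jdBar (k := K) q (dvd_refl q)) = j1 := by
    apply Subtype.ext
    show ((φ₂ (frickeN ι q (jdBar (k := K) q (dvd_refl q))) :
      ↥(Host.Etu (keyFw K N w) t 1)) : LaurentSeries K) = _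
    rw [cuspord_frickeN_jdBar, coe_cuspHostEmbB, cuspord_coe_jGen, hj1, jqNModC,
      Fermat.Agent.SS.qExpand_qExpand' q w (w * q) (mul_comm w q)]
  have hσ₁K : ∀ c : K, σ₁ (algebraMap K _ c) = algebraMap K _ c := fun c => φ₁.commutes c
  have hσ₂K : ∀ c : K, σ₂ (algebraMap K _ c) = algebraMap K _ c := fun c => by
    show φ₂ (frickeN ι q (algebraMap K _ c)) = _
    rw [frickeN_algebraMap, φ₂.commutes c]
  -- nonvanishing
  have hJ0 : jqNModC K w ≠ 0 := jqNModC_ne_zero_cuspord2 K w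
  have hj0ne : j0 ≠ 0 := fun h => hj0V (h ▸ V.zero_mem)
  have hj1ne : j1 ≠ 0 := by
    intro h
    have h1 : (j1 : LaurentSeries K) = 0 := by rw [h]; rfl
    rw [hj1] at h1
    exact qExpand_ne_zero q hJ0 h1
  have hj2ne : j2 ≠ 0 := by
    intro h
    have h1 : (j2 : LaurentSeries K) = 0 := by rw [h]; rfl
    rw [hj2] at h1
    exact qExpand_ne_zero q (qExpand_ne_zero q hJ0) h1
  -- `j2 ∉ V`
  have hj2V : j2 ∉ V := by
    intro h2
    have h1 : j1 ∈ V := by
      have e : j1 = j1 * (j2 ^ q)⁻¹ * j2 ^ q := by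
        field_simp
      rw [e]
      exact V.mul_mem _ _ hc (V.pow_mem h2 q)
    have h0 : j0 ^ q ∈ V := by
      have e : j0 ^ q = (j1 * (j0 ^ q)⁻¹)⁻¹ * j1 := by
        field_simp
      rw [e]
      exact V.mul_mem _ _ ha' h1
    exact hj0V (mem_of_pow_mem_cuspord2 V hq.ne_zero h0)
  -- both restrictions are the `x`-adic valuation subring
  have h₁ : V.comap σ₁ = cuspVinf K q := by
    refine comap_eq_cuspVinf_of_unit ι q hq σ₁ V (fun c => by rw [hσ₁K]; exact hK c)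
      (by rw [e10]; exact hj0V) ?_
    rw [map_mul, map_inv₀, map_pow, e10, e11]
    exact ha'
  have h₂ : V.comap σ₂ = cuspVinf K q := by
    refine comap_eq_cuspVinf_of_unit ι q hq σ₂ V (fun c => by rw [hσ₂K]; exact hK c)
      (by rw [e20]; exact hj2V) ?_
    rw [map_mul, map_inv₀, map_pow, e20, e21]
    exact hc'
  have hrel : σ₁ (jdBar (k := K) q (dvd_refl q) * (jGen K q ^ q)⁻¹) * σ₂ ((jGen K q)⁻¹) ^ q =
      σ₂ (jdBar (k := K) q (dvd_refl q) * (jGen K q ^ q)⁻¹) * σ₁ ((jGen K q)⁻¹) ^ q := by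
    simp only [map_mul, map_inv₀, map_pow, e10, e11, e20, e21, inv_pow]
    ring
  have hne : σ₁ ((jGen K q)⁻¹) ≠ σ₂ ((jGen K q)⁻¹) := by
    rw [map_inv₀, map_inv₀, e10, e20]
    intro h
    have h' : j0 = j2 := inv_injective h
    have h1 : (j0 : LaurentSeries K) = (j2 : LaurentSeries K) := by rw [h']
    rw [hj0, hj2] at h1
    have h2 := congrArg HahnSeries.order h1
    rw [order_qExpand, order_qExpand, cuspord_order_jqNModC] at h2
    have hq2 : (2 : ℤ) ≤ q := by exact_mod_cast hq.two_le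
    have hw : (0 : ℤ) < w := by exact_mod_cast Nat.pos_of_ne_zero (NeZero.ne w)
    have h4 : (4 : ℤ) ≤ (q : ℤ) * q := by nlinarith
    have h5 := mul_nonneg hw.le (sub_nonneg.mpr h4)
    nlinarith
  have key := cusps36_val_geom_sum_lt_one (K := K) (cuspVinf K q) V σ₁ σ₂ hσ₁K hσ₂K hK h₁ h₂
    (cuspVinf_valuation_inv_jGen_lt_one K q) (cuspVinf_valuation_cuspA_sub_one_lt_one K q)
    (fun n => cuspVinf_exists_expansion K q _ (cuspA_mem_cuspVinf K q) n)
    hq.pos hrel hne harch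
  have e : σ₁ ((jGen K q)⁻¹) / σ₂ ((jGen K q)⁻¹) = j2 * j0⁻¹ := by
    rw [map_inv₀, map_inv₀, e10, e20]
    field_simp
  rwa [e] at key

/-- **(D-key) on the Legendre host of level `M q²`**, with the three `j`-functions spelled through
the degeneracy maps: `j0 = A'A j`, `j1 = A'B j`, `j2 = B'B j`. -/
theorem cuspord2_legE (ι : K →+* ℂ) (M q : ℕ) [NeZero M] [NeZero q] [NeZero (M * q)]
    [NeZero (M * q * q)] (hq : q.Prime) (hq2 : q ≠ 2)
    (V : ValuationSubring ↥(legE K (M * q * q)))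
    (hK : ∀ c : K, algebraMap K ↥(legE K (M * q * q)) c ∈ V)
    (hj0V : legHostA K (M * q) q (legHostA K M q (legJE K M)) ∉ V)
    (ha' : (legHostA K (M * q) q (legHostB K M q hq hq2 (legJE K M)) *
      (legHostA K (M * q) q (legHostA K M q (legJE K M)) ^ q)⁻¹)⁻¹ ∈ V)
    (hc : legHostA K (M * q) q (legHostB K M q hq hq2 (legJE K M)) *
      (legHostB K (M * q) q hq hq2 (legHostB K M q hq hq2 (legJE K M)) ^ q)⁻¹ ∈ V)
    (hc' : (legHostA K (M * q) q (legHostB K M q hq hq2 (legJE K M)) *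
      (legHostB K (M * q) q hq hq2 (legHostB K M q hq hq2 (legJE K M)) ^ q)⁻¹)⁻¹ ∈ V)
    (harch : ∀ m t' : ↥(legE K (M * q * q)), V.valuation t' < 1 →
      (∀ n : ℕ, V.valuation m ≤ V.valuation t' ^ n) → m = 0) :
    V.valuation (∑ i ∈ Finset.range q,
      (legHostB K (M * q) q hq hq2 (legHostB K M q hq hq2 (legJE K M)) *
        (legHostA K (M * q) q (legHostA K M q (legJE K M)))⁻¹) ^ i) < 1 :=
  cuspord2_host ι 2 hq ⟨M, by ring⟩ (legT K) V hK _ _ _ rfl rfl rfl hj0V ha' hc hc' harch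

/-- **(D-key) on the Hesse host of level `M · 2²`** (`q = 2`). -/
theorem cuspord2_hesE (ι : K →+* ℂ) (M : ℕ) [NeZero M] [NeZero (M * 2)]
    [NeZero (M * 2 * 2)]
    (V : ValuationSubring ↥(hesE K (M * 2 * 2)))
    (hK : ∀ c : K, algebraMap K ↥(hesE K (M * 2 * 2)) c ∈ V)
    (hj0V : hesHostA K (M * 2) 2 (hesHostA K M 2 (hesJE K M)) ∉ V)
    (ha' : (hesHostA K (M * 2) 2 (hesHostB K M (hesJE K M)) *
      (hesHostA K (M * 2) 2 (hesHostA K M 2 (hesJE K M)) ^ 2)⁻¹)⁻¹ ∈ V)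
    (hc : hesHostA K (M * 2) 2 (hesHostB K M (hesJE K M)) *
      (hesHostB K (M * 2) (hesHostB K M (hesJE K M)) ^ 2)⁻¹ ∈ V)
    (hc' : (hesHostA K (M * 2) 2 (hesHostB K M (hesJE K M)) *
      (hesHostB K (M * 2) (hesHostB K M (hesJE K M)) ^ 2)⁻¹)⁻¹ ∈ V)
    (harch : ∀ m t' : ↥(hesE K (M * 2 * 2)), V.valuation t' < 1 →
      (∀ n : ℕ, V.valuation m ≤ V.valuation t' ^ n) → m = 0) :
    V.valuation (∑ i ∈ Finset.range 2,
      (hesHostB K (M * 2) (hesHostB K M (hesJE K M)) *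
        (hesHostA K (M * 2) 2 (hesHostA K M 2 (hesJE K M)))⁻¹) ^ i) < 1 :=
  cuspord2_host ι 3 Nat.prime_two ⟨M, by ring⟩ (hesT K) V hK _ _ _ rfl rfl rfl hj0V ha' hc hc'
    harch

end

end Fermat.Agent.S36
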