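/-
S36 [W11LOC] — helper5 — (C2)-core: **the expansion of `b^(q-1)/q + μ` at the middle cusp reduces
to `0`.**

`R` a discrete valuation ring of residue characteristic `q` containing a `q`-th root of unity
`ζ ≠ 1`, `L = Frac R`, `y ∈ R⸨x⸩` with Frobenius-fixed reduction `ȳ` and `θ ȳ ≠ 0`
(`θ = x d/dx`), `T = emb y ∈ L⸨x⸩`.  Then

  `(T(x) - T(ζ x))^(q-1) / q + (θ T)(x^q) / (θ T)(x)`

is Gauss-integral with reduction `0`:
* `T(x) - T(ζ x) = (1 - ζ) · twistQuot ζ T`, and `twistQuot ζ T ≡ θ T` since `ζ ≡ 1`;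
* `(1 - ζ)^(q-1) = q · v` with `v ≡ -1` (Wilson: `v⁻¹ = ∏_{k<q-1} (1 + ζ + ⋯ + ζ^k) ≡ (q-1)!`);
* `(θ T)(x^q) ≡ (θ T)^q` (Frobenius-fixed coefficients).
This is the local equation of the middle sheet `W11` at its ordinary points:
`b = t₀ - t₂ ↦ T(x) - T(ζ x)`, `A'(μ) ↦ hostMu T q`.
-/
import Mathlib
import Fermat.Agent.S36.MODEL36_helper6_TwistDiv
import Fermat.Agent.S36.REG1_lead_HostGauss
import Fermat.Agent.SS.HOSTINT_helper6_Main
import Fermat.Agent.SS.VAL2_helper7_LegInt
import Fermat.Agent.SS.VAL2_helper7_HostTwo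

set_option autoImplicit false
set_option linter.unusedSectionVars false
set_option linter.style.haveILetI false

open ModularCurve Fermat.Agent.Igusa Fermat.Agent.JA Fermat.Agent.SS

namespace Fermat.Agent.S36

section Wilson

variable {B : Type*} [CommRing B] [IsDomain B]

/-- `n + 1 = (1 - μ)^n · ∏_{k<n} (1 + μ + ⋯ + μ^k)` for a primitive `(n+1)`-th root of unity. -/
theorem natCast_eq_one_sub_pow_mul_prod_geom {n : ℕ} {μ : B} (hμ : IsPrimitiveRoot μ (n + 1)) :
    ((n : B) + 1) =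
      (1 - μ) ^ n * ∏ k ∈ Finset.range n, ∑ j ∈ Finset.range (k + 1), μ ^ j := by
  have h := hμ.prod_one_sub_pow_eq_order
  rw [← h]
  have h1 : ∀ k ∈ Finset.range n, (1 - μ ^ (k + 1)) =
      (1 - μ) * ∑ j ∈ Finset.range (k + 1), μ ^ j := fun k _ => (mul_neg_geom_sum μ (k + 1)).symm
  rw [Finset.prod_congr rfl h1, Finset.prod_mul_distrib, Finset.prod_const, Finset.card_range]

/-- Wilson's theorem in a field of characteristic `q`. -/
theorem wilson_charP {k : Type*} [Field k] {q : ℕ} (hq : q.Prime) [CharP k q] :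
    (((q - 1).factorial : ℕ) : k) = -1 := by
  haveI : Fact q.Prime := ⟨hq⟩
  have h := ZMod.wilsons_lemma (p := q)
  have h2 := congrArg (ZMod.castHom (dvd_refl q) k) h
  rwa [map_natCast, map_neg, map_one] at h2

theorem charP_of_expChar_of_prime (k : Type*) [AddMonoidWithOne k] {q : ℕ} (hq : q.Prime)
    [h : ExpChar k q] : CharP k q := by
  cases h with
  | zero => exact absurd hq Nat.not_prime_one
  | prime _ => assumption

/-- a `q`-th root of unity reduces to `1` in residue characteristic `q`. -/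
theorem residue_unit_eq_one_of_pow {R : Type*} [CommRing R] [IsLocalRing R] {q : ℕ}
    (hq : q.Prime) [CharP (IsLocalRing.ResidueField R) q] (ζ : Rˣ) (hζq : ζ ^ q = 1) :
    IsLocalRing.residue R (ζ : R) = 1 := by
  haveI : Fact q.Prime := ⟨hq⟩
  have h1 : (IsLocalRing.residue R (ζ : R) - 1) ^ q = 0 := by
    rw [sub_pow_char, one_pow, ← map_pow, ← Units.val_pow_eq_pow_val, hζq, Units.val_one, map_one,
      sub_self]
  exact sub_eq_zero.1 (pow_eq_zero_iff hq.ne_zero |>.1 h1)

/-- **the cyclotomic unit with Wilson's residue**: `(1 - ζ)^(q-1) = q · v`, `v ≡ -1`. -/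
theorem exists_one_sub_pow_eq_natCast_mul {R : Type*} [CommRing R] [IsDomain R] [IsLocalRing R]
    {q : ℕ} (hq : q.Prime) [CharP (IsLocalRing.ResidueField R) q] (ζ : Rˣ) (hζq : ζ ^ q = 1)
    (hζ1 : ζ ≠ 1) :
    ∃ v : R, IsLocalRing.residue R v = -1 ∧ ((1 : R) - ζ) ^ (q - 1) = (q : R) * v := by
  obtain ⟨n, rfl⟩ : ∃ n, q = n + 1 := ⟨q - 1, (Nat.succ_pred_eq_of_pos hq.pos).symm⟩
  have hord : orderOf (ζ : R) = n + 1 := by
    haveI : Fact (n + 1).Prime := ⟨hq⟩
    apply orderOf_eq_prime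
    · rw [← Units.val_pow_eq_pow_val, hζq, Units.val_one]
    · intro h1
      exact hζ1 (Units.ext (by rw [h1, Units.val_one]))
  have hprim : IsPrimitiveRoot (ζ : R) (n + 1) := hord ▸ IsPrimitiveRoot.orderOf (ζ : R)
  have hkey := natCast_eq_one_sub_pow_mul_prod_geom hprim
  set u : R := ∏ k ∈ Finset.range n, ∑ j ∈ Finset.range (k + 1), (ζ : R) ^ j with hu
  have hζres := residue_unit_eq_one_of_pow hq ζ hζq
  have hures : IsLocalRing.residue R u = -1 := by
    rw [hu, map_prod]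
    have h1 : ∀ k ∈ Finset.range n, IsLocalRing.residue R (∑ j ∈ Finset.range (k + 1), (ζ : R) ^ j)
        = (((k + 1 : ℕ)) : IsLocalRing.ResidueField R) := by
      intro k _
      rw [map_sum]
      simp only [map_pow, hζres, one_pow, Finset.sum_const, Finset.card_range, nsmul_eq_mul,
        mul_one]
    rw [Finset.prod_congr rfl h1, ← Nat.cast_prod, Finset.prod_range_add_one_eq_factorial]
    have := wilson_charP (k := IsLocalRing.ResidueField R) hq
    rwa [Nat.add_sub_cancel] at this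
  have huunit : IsUnit u := by
    rw [← IsLocalRing.residue_ne_zero_iff_isUnit, hures]
    exact neg_ne_zero.2 one_ne_zero
  obtain ⟨U, hU⟩ := huunit
  refine ⟨((U⁻¹ : Rˣ) : R), ?_, ?_⟩
  · have h1 : IsLocalRing.residue R ((U⁻¹ : Rˣ) : R) * IsLocalRing.residue R u = 1 := by
      rw [← map_mul, ← hU, Units.inv_mul, map_one]
    rw [hures] at h1
    have h2 : IsLocalRing.residue R ((U⁻¹ : Rˣ) : R) = -1 := by
      have := congrArg (fun z => -z) h1
      simpa using this
    exact h2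
  · rw [Nat.add_sub_cancel]
    have h1 : ((n + 1 : ℕ) : R) = (n : R) + 1 := by push_cast; rfl
    rw [h1, hkey, ← hU, mul_assoc, Units.mul_inv, mul_one]

end Wilson

section Series

variable {A : Type*} [CommRing A]

/-- `f(x) - f(ξ x) = (1 - ξ) · twistQuot ξ f`. -/
theorem self_sub_twist (ξ : Aˣ) (f : LaurentSeries A) :
    f - twist ξ f = HahnSeries.C ((1 : A) - ξ) * twistQuot ξ f := by
  have h := twist_sub_self ξ f
  have e : (HahnSeries.C ((1 : A) - ξ) : LaurentSeries A) = -HahnSeries.C ((ξ : A) - 1) := by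
    rw [← map_neg, neg_sub]
  rw [e, neg_mul, ← h, neg_sub]

theorem self_sub_twist_pow (ξ : Aˣ) (f : LaurentSeries A) (n : ℕ) :
    (f - twist ξ f) ^ n = HahnSeries.C (((1 : A) - ξ) ^ n) * twistQuot ξ f ^ n := by
  rw [self_sub_twist, mul_pow, map_pow]

/-- the difference quotient at `ξ = 1` is the Euler derivative. -/
theorem twistQuot_one (f : LaurentSeries A) : twistQuot (1 : Aˣ) f = eulerFun f := by
  ext n
  rw [twistQuot_coeff, geomZ_of_eq_one, eulerFun_coeff]

end Series

section Core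

variable {R : Type*} [CommRing R] [IsDomain R] [IsDiscreteValuationRing R]
  {L : Type*} [Field L] [Algebra R L] [IsFractionRing R L]

local notation "k" => IsLocalRing.ResidueField R

/-- the first summand as the image of a series over `R`. -/
theorem sub_twist_pow_div_eq_emb {q : ℕ} (ζ : Rˣ) (y : LaurentSeries R) (v : R)
    (hq0 : (q : R) ≠ 0) (hv : ((1 : R) - ζ) ^ (q - 1) = (q : R) * v) :
    (emb R L y - twist (Units.map (algebraMap R L : R →* L) ζ) (emb R L y)) ^ (q - 1) *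
      (HahnSeries.C ((q : ℕ) : L))⁻¹ = emb R L (HahnSeries.C v * twistQuot ζ y ^ (q - 1)) := by
  have h1 : twist (Units.map (algebraMap R L : R →* L) ζ) (emb R L y) = emb R L (twist ζ y) := by
    rw [emb, coeffMap_twist]
  have hqL : (HahnSeries.C ((q : ℕ) : L) : LaurentSeries L) ≠ 0 := by
    have : ((q : ℕ) : L) = algebraMap R L (q : R) := (map_natCast _ q).symm
    rw [this]
    exact C_algebraMap_ne_zero hq0
  rw [h1, ← map_sub, ← map_pow, self_sub_twist_pow, hv, mul_inv_eq_iff_eq_mul₀ hqL]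
  have h2 : (HahnSeries.C ((q : ℕ) : L) : LaurentSeries L) = emb R L (HahnSeries.C (q : R)) := by
    rw [emb_C, map_natCast (algebraMap R L)]
  rw [h2, ← map_mul]
  congr 1
  rw [map_mul]
  ring

/-- reduction of the first summand. -/
theorem red_C_mul_twistQuot_pow {q : ℕ} (ζ : Rˣ) (y : LaurentSeries R) (v : R)
    (hζres : IsLocalRing.residue R (ζ : R) = 1) (hvres : IsLocalRing.residue R v = -1) :
    red R (HahnSeries.C v * twistQuot ζ y ^ (q - 1)) = -(eulerFun (red R y)) ^ (q - 1) := by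
  have h1 : Units.map (IsLocalRing.residue R : R →* k) ζ = 1 := Units.ext hζres
  have h2 : red R (twistQuot ζ y) = eulerFun (red R y) := by
    rw [red, coeffMap_twistQuot, h1, twistQuot_one]
  rw [map_mul, map_pow, h2, red_C, hvres, map_neg, map_one, neg_one_mul]

/-- reduction of `μ = (θ t)(x^q) / (θ t)(x)` for a series with Frobenius-fixed reduction. -/
theorem gaussRed_hostMu_emb (q : ℕ) [NeZero q] [ExpChar k q] (y : LaurentSeries R)
    (hfix : coeffMap (frobenius k q) (red R y) = red R y)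
    (hθ : eulerFun (red R y) ≠ 0) :
    ∃ h : hostMu (emb R L y) q ∈ gaussInt R L,
      gaussRed R L ⟨_, h⟩ = (eulerFun (red R y)) ^ (q - 1) := by
  have ht : emb R L y ∈ gaussInt R L := emb_mem_gaussInt R L y
  have hred : gaussRed R L ⟨eulerFun (emb R L y), eulerFun_mem_gaussInt ht⟩ =
      eulerFun (red R y) := by
    rw [gaussRed_eulerFun ht, gaussRed_emb]
  have hθ' : gaussRed R L ⟨eulerFun (emb R L y), eulerFun_mem_gaussInt ht⟩ ≠ 0 := by
    rw [hred]; exact hθ
  refine ⟨hostMu_mem_gaussInt ht hθ' q, ?_⟩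
  have e : (⟨hostMu (emb R L y) q, hostMu_mem_gaussInt ht hθ' q⟩ : gaussInt R L) =
      ⟨(eulerFun (emb R L y))⁻¹, inv_eulerFun_mem_gaussInt ht hθ'⟩ *
        ⟨qExpand L q (eulerFun (emb R L y)),
          (gaussHomQExpand R L q).map_mem_gaussInt (eulerFun_mem_gaussInt ht)⟩ :=
    Subtype.ext rfl
  have h1 : gaussRed R L ⟨(eulerFun (emb R L y))⁻¹, inv_eulerFun_mem_gaussInt ht hθ'⟩ =
      (eulerFun (red R y))⁻¹ := by
    have := gaussRed_inv (⟨eulerFun (emb R L y), eulerFun_mem_gaussInt ht⟩ : gaussInt R L) hθ'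
    rw [hred] at this
    exact this
  have h2 : gaussRed R L ⟨qExpand L q (eulerFun (emb R L y)),
      (gaussHomQExpand R L q).map_mem_gaussInt (eulerFun_mem_gaussInt ht)⟩ =
      qExpand k q (eulerFun (red R y)) := by
    have := (gaussHomQExpand R L q).gaussRed_map (eulerFun_mem_gaussInt ht)
    rw [← hred]
    exact this
  have hfixθ : coeffMap (frobenius k q) (eulerFun (red R y)) = eulerFun (red R y) := by
    have := eulerD_coeffMap (frobenius k q) (red R y)
    rw [eulerD_apply, eulerD_apply, hfix] at this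
    exact this.symm
  have h3 : qExpand k q (eulerFun (red R y)) = eulerFun (red R y) ^ q := by
    rw [laurent_pow_char q (eulerFun (red R y)), hfixθ]
  rw [e, map_mul, h1, h2, h3]
  have hq1 : q = (q - 1) + 1 := (Nat.succ_pred_eq_of_pos (Nat.pos_of_ne_zero (NeZero.ne q))).symm
  conv_lhs => rw [hq1, pow_succ]
  rw [← mul_assoc, mul_comm _ (eulerFun (red R y) ^ (q - 1)), mul_assoc,
    inv_mul_cancel₀ hθ, mul_one]

/-- **(C2)-core**: `(T(x) - T(ζ x))^(q-1) / q + μ_T` is Gauss-integral with reduction `0`. -/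
theorem gaussRed_sub_twist_pow_div_add_hostMu {q : ℕ} [NeZero q] (hq : q.Prime) [ExpChar k q]
    (ζ : Rˣ) (hζq : ζ ^ q = 1) (hζ1 : ζ ≠ 1) (y : LaurentSeries R)
    (hfix : coeffMap (frobenius k q) (red R y) = red R y)
    (hθ : eulerFun (red R y) ≠ 0) :
    ∃ h : (emb R L y - twist (Units.map (algebraMap R L : R →* L) ζ) (emb R L y)) ^ (q - 1) *
        (HahnSeries.C ((q : ℕ) : L))⁻¹ + hostMu (emb R L y) q ∈ gaussInt R L,
      gaussRed R L ⟨_, h⟩ = 0 := by
  haveI : CharP k q := charP_of_expChar_of_prime k hq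
  obtain ⟨v, hvres, hv⟩ := exists_one_sub_pow_eq_natCast_mul hq ζ hζq hζ1
  have hζres := residue_unit_eq_one_of_pow hq ζ hζq
  have hq0 : (q : R) ≠ 0 := by
    intro h0
    rw [h0, zero_mul] at hv
    have h1 : ((1 : R) - ζ) = 0 := pow_eq_zero_iff (Nat.sub_ne_zero_of_lt hq.one_lt) |>.1 hv
    exact hζ1 (Units.ext (by rw [Units.val_one]; exact (sub_eq_zero.1 h1).symm))
  have e1 := sub_twist_pow_div_eq_emb (L := L) ζ y v hq0 hv
  obtain ⟨h2, hred2⟩ := gaussRed_hostMu_emb (L := L) q y hfix hθ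
  have h1 : emb R L (HahnSeries.C v * twistQuot ζ y ^ (q - 1)) ∈ gaussInt R L :=
    emb_mem_gaussInt R L _
  have hmem : (emb R L y - twist (Units.map (algebraMap R L : R →* L) ζ) (emb R L y)) ^ (q - 1) *
        (HahnSeries.C ((q : ℕ) : L))⁻¹ + hostMu (emb R L y) q ∈ gaussInt R L := by
    rw [e1]
    exact (gaussInt R L).add_mem h1 h2
  refine ⟨hmem, ?_⟩
  have e : (⟨_, hmem⟩ : gaussInt R L) =
      ⟨emb R L (HahnSeries.C v * twistQuot ζ y ^ (q - 1)), h1⟩ + ⟨hostMu (emb R L y) q, h2⟩ := by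
    apply Subtype.ext
    show _ + _ = _ + _
    rw [e1]
  rw [e, map_add, hred2, gaussRed_emb, red_C_mul_twistQuot_pow ζ y v hζres hvres, neg_add_cancel]

end Core

end Fermat.Agent.S36
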