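/-
S36 [W11LOC] — helper5 — **from the expansion at the middle cusp to the local equation of `W11`.**

* `valuation_lt_one_of_gaussRed_eq_zero_of_iff` : for a valuation subring cut out by Gauss
  integrality of an expansion `θ : E → K'⸨x⸩`, reduction `0` means valuation `< 1`;
* `uniformizer_of_pow_div_cong` : `z ^ k / ϖ ≡ unit` and `δ ^ k ~ ϖ` for a uniformizer `δ` make
  `z` a uniformizer;
* `local_equation_w11_of_expansion` : the hypothesis `hLE1` of helper3's
  `sheetDatumAt_three_sheet_chart` for `z = t0 − t2`, from: `μ` a unit off `W01` at level `M'q`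
  (REG1), a `W11`-uniformizer `δ` with `δ^(q-1) ~ π` (helper7's `IsThreeSheet`), and an expansion
  `θ` with `W11 = θ⁻¹(Gauss ring)`, `θ t0 = T`, `θ t2 = T(ζ x)`, `θ (α μ) = hostMu T q`, `T = emb y`
  with Frobenius-fixed reduction and `θ ȳ ≠ 0` (the (C2)-core computation).
-/
import Mathlib
import Fermat.Agent.S36.W11LOC_helper5_Core
import Fermat.Agent.S36.W11LOC_helper5_Asm

set_option autoImplicit false
set_option linter.unusedSectionVars false
set_option linter.style.haveILetI false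

open ModularCurve Fermat.Agent.Igusa Fermat.Agent.JA Fermat.Agent.SS

namespace Fermat.Agent.S36

section Gauss

variable {R : Type*} [CommRing R] [IsDomain R] [IsDiscreteValuationRing R]
  {L : Type*} [Field L] [Algebra R L] [IsFractionRing R L]

/-- a valuation subring cut out by Gauss integrality of an expansion: reduction `0` means
valuation `< 1`. -/
theorem valuation_lt_one_of_gaussRed_eq_zero_of_iff {E : Type*} [Field E]
    (θ : E →+* LaurentSeries L) (W : ValuationSubring E)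
    (hW : ∀ f : E, f ∈ W ↔ θ f ∈ gaussInt R L) (f : E) (h : θ f ∈ gaussInt R L)
    (h0 : gaussRed R L ⟨θ f, h⟩ = 0) : W.valuation f < 1 := by
  by_contra hlt
  rw [not_lt] at hlt
  have hf0 : f ≠ 0 := by
    rintro rfl
    rw [map_zero] at hlt
    exact not_le.mpr zero_lt_one hlt
  have hinv : f⁻¹ ∈ W := by
    rw [← ValuationSubring.valuation_le_one_iff, map_inv₀]
    exact inv_le_one_of_one_le₀ hlt
  have hinv' : θ f⁻¹ ∈ gaussInt R L := (hW _).mp hinv
  have h1 : (⟨θ f, h⟩ : gaussInt R L) * ⟨θ f⁻¹, hinv'⟩ = 1 := by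
    apply Subtype.ext
    show θ f * θ f⁻¹ = 1
    rw [← map_mul, mul_inv_cancel₀ hf0, map_one]
  have h2 := congrArg (gaussRed R L) h1
  rw [map_mul, h0, zero_mul, map_one] at h2
  exact zero_ne_one h2

end Gauss

section Unif

variable {E : Type*} [Field E]

/-- `z ^ k / ϖ ≡ ν` with `ν` a unit, and `δ ^ k ~ ϖ` for a uniformizer `δ`: then `z` is a
uniformizer as well. -/
theorem uniformizer_of_pow_div_cong (W : ValuationSubring E) {z δ ϖ ν : E} {k : ℕ} (hk : k ≠ 0)
    (hϖ : ϖ ≠ 0) (hδunif : ∀ x : E, W.valuation x < 1 → x * δ⁻¹ ∈ W)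
    (hδ : W.valuation (δ ^ k) = W.valuation ϖ) (hϖ1 : W.valuation ϖ < 1)
    (hν : W.valuation ν = 1) (hcong : W.valuation (z ^ k / ϖ - ν) < 1) :
    z ≠ 0 ∧ W.valuation z < 1 ∧ ∀ x : E, W.valuation x < 1 → x * z⁻¹ ∈ W := by
  have h1 : W.valuation (z ^ k / ϖ) = 1 := by
    have e : z ^ k / ϖ = ν + (z ^ k / ϖ - ν) := by ring
    rw [e, Valuation.map_add_eq_of_lt_left _ (by rw [hν]; exact hcong), hν]
  have hϖv : W.valuation ϖ ≠ 0 := (Valuation.ne_zero_iff _).mpr hϖ
  have h2 : W.valuation z ^ k = W.valuation δ ^ k := by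
    rw [← map_pow, ← map_pow, hδ]
    rw [map_div₀, div_eq_one_iff_eq hϖv] at h1
    exact h1
  have h3 : W.valuation z = W.valuation δ :=
    (pow_left_inj₀ zero_le zero_le hk).mp h2
  have hδ1 : W.valuation δ < 1 := by
    by_contra hge
    rw [not_lt] at hge
    have : 1 ≤ W.valuation δ ^ k := one_le_pow₀ hge
    rw [← map_pow, hδ] at this
    exact not_le.mpr hϖ1 this
  have hz0 : z ≠ 0 := by
    rintro rfl
    rw [zero_pow hk, zero_div, zero_sub, Valuation.map_neg, hν] at hcong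
    exact lt_irrefl _ hcong
  have hδ0 : δ ≠ 0 := by
    rintro rfl
    rw [map_zero] at h3
    exact ((Valuation.ne_zero_iff _).mpr hz0) h3
  refine ⟨hz0, h3 ▸ hδ1, fun x hx => ?_⟩
  have e : x * z⁻¹ = (x * δ⁻¹) * (δ * z⁻¹) := by
    field_simp
  rw [e]
  refine W.mul_mem _ _ (hδunif x hx) ?_
  rw [← ValuationSubring.valuation_le_one_iff, map_mul, map_inv₀, h3,
    mul_inv_cancel₀ ((Valuation.ne_zero_iff _).mpr hδ0)]

end Unif

section Expansion

variable {R : Type*} [CommRing R] [IsDomain R] [IsDiscreteValuationRing R] [CharZero R]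
  {K₁ : Type*} [Field K₁] [Algebra R K₁] [IsFractionRing R K₁]
  {KN₁ : Type*} [Field KN₁] [Algebra K₁ KN₁] [Algebra R KN₁] [IsScalarTower R K₁ KN₁]
  {E₁ : Type*} [Field E₁] [Algebra KN₁ E₁] [Algebra R E₁] [IsScalarTower R KN₁ E₁]
  [FiniteDimensional KN₁ E₁]
  {KN₂ : Type*} [Field KN₂] [Algebra K₁ KN₂] [Algebra R KN₂] [IsScalarTower R K₁ KN₂]
  {E : Type*} [Field E] [Algebra KN₂ E] [Algebra R E] [IsScalarTower R KN₂ E]
  [FiniteDimensional KN₂ E]
  {π : R} {j₁ : KN₁} {j₂ : KN₂} {W10 W01 : ValuationSubring E₁} {W : Fin 3 → ValuationSubring E}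
  {R' : Type*} [CommRing R'] [IsDomain R'] [IsDiscreteValuationRing R']
  {K' : Type*} [Field K'] [Algebra R' K'] [IsFractionRing R' K']

/-- **`hLE1` from the expansion at the middle cusp.** -/
theorem local_equation_w11_of_expansion (hπ : Irreducible π)
    (hj₁ : Transcendental K₁ j₁) (hKj₁ : IntermediateField.adjoin K₁ {j₁} = ⊤)
    (hj₂ : Transcendental K₁ j₂) (hKj₂ : IntermediateField.adjoin K₁ {j₂} = ⊤)
    (h2 : IsTwoSheet π j₁ W10 W01) (fam : IsSheetFamily π j₂ W) (α : E₁ →+* E)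
    (hαR : ∀ r : R, α (algebraMap R E₁ r) = algebraMap R E r)
    (hαB : ∀ b ∈ chartOne R E₁ j₁, α b ∈ chartOne R E j₂)
    (hαint : (chartRestrictHom (B' := chartOne R E₁ j₁) (B := chartOne R E j₂) α hαB).IsIntegral)
    (hα0 : (W 0).comap α = W10) (hα1 : (W 1).comap α = W10)
    {μ : E₁}
    (hμ : ∀ (𝔪 : Ideal ↥(chartOne R E₁ j₁)) [𝔪.IsPrime], 𝔪.IsMaximal →
      algebraMap R ↥(chartOne R E₁ j₁) π ∈ 𝔪 → ¬ sheetIdeal j₁ W01 h2.chart_le_zero ≤ 𝔪 →
      μ ∈ locRing (chartOne R E₁ j₁) 𝔪 ∧ μ ∉ locMax (chartOne R E₁ j₁) 𝔪)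
    (hμ10 : W10.valuation μ = 1)
    {δ : E} {q : ℕ} [NeZero q] (hq : q.Prime)
    (hδunif : ∀ x : E, (W 1).valuation x < 1 → x * δ⁻¹ ∈ W 1)
    (hδ : (W 1).valuation (δ ^ (q - 1)) = (W 1).valuation (algebraMap R E π))
    {e : R} (he : IsUnit e) (hqe : (q : R) = π * e)
    [ExpChar (IsLocalRing.ResidueField R') q]
    (φ : R →+* R') (θ : E →+* LaurentSeries K')
    (hθW : ∀ f : E, f ∈ W 1 ↔ θ f ∈ gaussInt R' K')
    (hθR : ∀ r : R, θ (algebraMap R E r) = HahnSeries.C (algebraMap R' K' (φ r)))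
    (ζ : R'ˣ) (hζq : ζ ^ q = 1) (hζ1 : ζ ≠ 1) (y : LaurentSeries R')
    (hfix : coeffMap (frobenius (IsLocalRing.ResidueField R') q) (red R' y) = red R' y)
    (hθy : eulerFun (red R' y) ≠ 0)
    {t0 t2 : ↥(chartOne R E j₂)} (h0 : θ (t0 : E) = emb R' K' y)
    (h2' : θ (t2 : E) = twist (Units.map (algebraMap R' K' : R' →* K') ζ) (emb R' K' y))
    (hθμ : θ (α μ) = hostMu (emb R' K' y) q) :
    ∀ (𝔫 : Ideal ↥(chartOne R E j₂)) (_ : 𝔫.IsMaximal),
      sheetIdeal j₂ (W 1) (fam.chart_le 1) ≤ 𝔫 →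
      (∀ l, sheetIdeal j₂ (W l) (fam.chart_le l) ≤ 𝔫 → l = 1) →
      ∃ z : ↥(chartOne R E j₂), z ∈ sheetIdeal j₂ (W 1) (fam.chart_le 1) ∧ z ≠ 0 ∧
        ∀ w ∈ sheetIdeal j₂ (W 1) (fam.chart_le 1),
          ∃ s : ↥(chartOne R E j₂), s ∉ 𝔫 ∧ z ∣ s * w := by
  classical
  have hinjE : Function.Injective (algebraMap R E) := by
    rw [IsScalarTower.algebraMap_eq R KN₂ E, IsScalarTower.algebraMap_eq R K₁ KN₂]
    exact (algebraMap KN₂ E).injective.comp
      ((algebraMap K₁ KN₂).injective.comp (IsFractionRing.injective R K₁))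
  have hπE : algebraMap R E π ≠ 0 := fun h => hπ.ne_zero (hinjE (by rw [h, map_zero]))
  have heE : algebraMap R E e ≠ 0 := fun h => he.ne_zero (hinjE (by rw [h, map_zero]))
  have hRW : ∀ r : R, (W 1).valuation (algebraMap R E r) ≤ 1 := fun r =>
    (ValuationSubring.valuation_le_one_iff _ _).mpr
      (fam.chart_le 1 _ ((chartOne R E j₂).algebraMap_mem r))
  have hunitW : ∀ r : R, IsUnit r → (W 1).valuation (algebraMap R E r) = 1 := by
    rintro r ⟨u, rfl⟩
    refine le_antisymm (hRW _) ?_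
    have h1 : (W 1).valuation (algebraMap R E (u : R)) *
        (W 1).valuation (algebraMap R E ((u⁻¹ : Rˣ) : R)) = 1 := by
      rw [← map_mul, ← map_mul, Units.mul_inv, map_one, map_one]
    calc (1 : _) = (W 1).valuation (algebraMap R E (u : R)) *
          (W 1).valuation (algebraMap R E ((u⁻¹ : Rˣ) : R)) := h1.symm
      _ ≤ (W 1).valuation (algebraMap R E (u : R)) * 1 := by gcongr; exact hRW _
      _ = _ := mul_one _
  set z : ↥(chartOne R E j₂) := t0 - t2 with hz
  -- the core computation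
  obtain ⟨hmem, hred⟩ := gaussRed_sub_twist_pow_div_add_hostMu (L := K') hq ζ hζq hζ1 y hfix hθy
  set qE : E := algebraMap R E (q : R) with hqE
  have hθq : θ qE = HahnSeries.C ((q : ℕ) : K') := by
    rw [hqE, hθR, map_natCast, map_natCast]
  set f : E := (z : E) ^ (q - 1) * qE⁻¹ + α μ with hf
  have hθf : θ f = (emb R' K' y - twist (Units.map (algebraMap R' K' : R' →* K') ζ)
      (emb R' K' y)) ^ (q - 1) * (HahnSeries.C ((q : ℕ) : K'))⁻¹ + hostMu (emb R' K' y) q := by
    rw [hf, map_add, map_mul, map_pow, map_inv₀, hθq, hθμ]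
    congr 3
    show θ ((t0 : E) - (t2 : E)) = _
    rw [map_sub, h0, h2']
  have hvf : (W 1).valuation f < 1 :=
    valuation_lt_one_of_gaussRed_eq_zero_of_iff θ (W 1) hθW f (by rw [hθf]; exact hmem)
      (by
        have e1 : (⟨θ f, by rw [hθf]; exact hmem⟩ : gaussInt R' K') = ⟨_, hmem⟩ :=
          Subtype.ext hθf
        rw [e1]; exact hred)
  -- the congruence in the shape of the abstract assembly
  have hqE' : qE = algebraMap R E π * algebraMap R E e := by
    rw [hqE, hqe, map_mul]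
  have hcong : (W 1).valuation ((z : E) ^ (q - 1) / algebraMap R E π -
      algebraMap R E (-e) * α μ) < 1 := by
    have e1 : (z : E) ^ (q - 1) / algebraMap R E π - algebraMap R E (-e) * α μ =
        algebraMap R E e * f := by
      rw [hf, hqE', map_neg]
      field_simp
      ring
    rw [e1, map_mul]
    calc (W 1).valuation (algebraMap R E e) * (W 1).valuation f
        ≤ 1 * (W 1).valuation f := by gcongr; exact hRW e
      _ = (W 1).valuation f := one_mul _
      _ < 1 := hvf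
  have hk : q - 1 ≠ 0 := Nat.sub_ne_zero_of_lt hq.one_lt
  have hν : (W 1).valuation (algebraMap R E (-e) * α μ) = 1 := by
    rw [map_mul, hunitW _ he.neg, one_mul]
    exact (comap_valuation_eq_one_iff α hα1 μ).mpr hμ10
  have hπ1 : (W 1).valuation (algebraMap R E π) < 1 := by
    have h1 : (W10).valuation (algebraMap R E₁ π) < 1 := by
      have := h2.pi_mem_inf (K₁ := K₁) hπ
      rwa [mem_sheetIdeal_iff] at this
    have := (comap_valuation_lt_one_iff α hα1 _).mpr h1
    rwa [hαR] at this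
  obtain ⟨hz0E, hz1, hzunif⟩ :=
    uniformizer_of_pow_div_cong (W 1) hk hπE hδunif hδ hπ1 hν hcong
  have hz0 : z ≠ 0 := fun h => hz0E (by rw [h]; rfl)
  exact local_equation_w11_of_unit_cong hπ hj₁ hKj₁ hj₂ hKj₂ h2 fam α hαR hαB hαint hα0 hα1 hμ
    hz1 hz0 hzunif hk he.neg hcong

end Expansion

end Fermat.Agent.S36
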