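/-
S36 [HOST11] — helper6 — part 9: **the expansion `θ` of the Legendre host of level `M q²` at the
middle cusp**, in the hypothesis shapes of helper5's `local_equation_w11_of_expansion`:
`legTheta := midEmb ∘ legToFullSq : legE K (M q²) → K'⸨x⸩` with
* `mem_legW11_iff_legTheta` : `legW11 = θ⁻¹(Gauss ring)` (`hθW`);
* `legTheta_algebraMap_base` : `θ r = C (φ r)` (`hθR`);
* `legTheta_legHostA` : `θ (A' m) = κ(m)` coefficientwise;
* `legTheta_t0` : `θ (A'A t) = emb y`, `legTheta_t2` : `θ (B'B t) = (emb y)(ζ x)` (`h0`, `h2'`);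
* `legTheta_legHostA_mu` : `θ (A' μ) = hostMu (emb y) q` (`hθμ`);
* `exists_legT_series_local` : the series `y = φ(s)` over `R'` of the Legendre coordinate, with
  Frobenius-fixed reduction and `θ ȳ ≠ 0` (`hfix`, `hθy`).
-/
import Mathlib
import Fermat.Agent.S36.HOST11_helper6_Leg
import Fermat.Agent.S36.HOST11_helper6_Eq
import Fermat.Agent.S36.HOST11_helper6_Series

set_option autoImplicit false
set_option linter.unusedSectionVars false
set_option linter.style.haveILetI false
set_option synthInstance.maxHeartbeats 200000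

open HahnSeries ModularCurve Fermat.Agent.Igusa Fermat.Agent.X0N Fermat.Agent.RatStr
open IntermediateField Fermat.Agent.JA Fermat.Agent.SS Fermat.Agent.S35

namespace Fermat.Agent.S36

noncomputable section

section Theta

variable (R : Type*) [CommRing R] [IsDomain R] [IsDiscreteValuationRing R] [CharZero R]
  (K : Type*) [Field K] [Algebra R K] [IsFractionRing R K] [Algebra ℚ K] [Algebra K ℂ]
  {M q : ℕ} [NeZero M] [NeZero q] [NeZero (M * q)] [NeZero (M * q * q)]
  [NeZero (4 * M)] [NeZero (4 * M * q)] [NeZero (4 * M * q * q)]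
  {x' y' : ℤ}
  (h' : (q : ℤ) * x' + ((4 * M : ℕ) : ℤ) * y' = 1) (hq : q.Prime) (hq2 : q ≠ 2)
  {R' : Type*} [CommRing R'] [IsDomain R'] [IsDiscreteValuationRing R']
  {K' : Type*} [Field K'] [Algebra R' K'] [IsFractionRing R' K']
  (φ : R →+* R') [IsLocalHom φ] (κ : K →+* K')
  (hκ : ∀ r : R, κ (algebraMap R K r) = algebraMap R' K' (φ r))
  (ζ : R'ˣ) (hζq : ζ ^ q = 1) (hζ1 : ζ ≠ 1)

open scoped Fermat.Agent.JA.Host

/-- **the expansion of the Legendre host of level `M q²` at the middle cusp.** -/
def legTheta : ↥(legE K (M * q * q)) →+* LaurentSeries K' :=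
  (midEmb K h' hq κ ζ hζq hζ1).comp
    ((legToFullSq K M q : ↥(legE K (M * q * q)) →ₐ[K] ↥(keyFq K (4 * M * q * q))) :
      ↥(legE K (M * q * q)) →+* ↥(keyFq K (4 * M * q * q)))

theorem legTheta_apply (z : ↥(legE K (M * q * q))) :
    legTheta K h' hq κ ζ hζq hζ1 z = midEmb K h' hq κ ζ hζq hζ1 (legToFullSq K M q z) := rfl

/-- `hθW` : the middle sheet is cut out by Gauss integrality of the expansion. -/
theorem mem_legW11_iff_legTheta (z : ↥(legE K (M * q * q))) :
    z ∈ legW11 R K h' hq φ κ hκ ζ hζq hζ1 ↔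
      legTheta K h' hq κ ζ hζq hζ1 z ∈ gaussInt R' K' := Iff.rfl

/-- the inclusion into `F_{4Mq²}` on the constants of `R`. -/
theorem legToFullSq_algebraMap_R (r : R) :
    legToFullSq K M q (algebraMap R ↥(legE K (M * q * q)) r) =
      algebraMap R ↥(keyFq K (4 * M * q * q)) r := by
  rw [IsScalarTower.algebraMap_apply R K ↥(legE K (M * q * q)), AlgHom.commutes,
    ← IsScalarTower.algebraMap_apply R K ↥(keyFq K (4 * M * q * q))]

include hκ in
/-- `hθR` : the expansion on the constants of `R`. -/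
theorem legTheta_algebraMap_base (r : R) :
    legTheta K h' hq κ ζ hζq hζ1 (algebraMap R ↥(legE K (M * q * q)) r) =
      HahnSeries.C (algebraMap R' K' (φ r)) := by
  rw [legTheta_apply, legToFullSq_algebraMap_R,
    midEmb_algebraMap_base R K h' hq φ κ hκ ζ hζq hζ1]

/-- on `A' E_{Mq}` the expansion is the coefficientwise embedding. -/
theorem legTheta_legHostA (m : ↥(legE K (M * q))) :
    legTheta K h' hq κ ζ hζq hζ1 (legHostA K (M * q) q m) =
      coeffMap κ (m : LaurentSeries K) := by
  have e : legToFullSq K M q (legHostA K (M * q) q m) =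
      keyFqA K (4 * M * q) q
        (hostToFull K M q 2 (4 * M) (leg_dvd_four M) (legT K) (legT_mem_keyFq K) m) :=
    hostToFullSq_A K 2 (4 * M) (leg_dvd_four M) (legT K) (legT_mem_keyFq K) _
      (coe_legHostA K (M * q) q) m
  rw [legTheta_apply, e, keyFqMid_keyFqA, coe_hostToFull]

/-- on `A'A E_M` the expansion is the coefficientwise embedding. -/
theorem legTheta_legHostA_legHostA (c : ↥(legE K M)) :
    legTheta K h' hq κ ζ hζq hζ1 (legHostA K (M * q) q (legHostA K M q c)) =
      coeffMap κ (c : LaurentSeries K) := by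
  rw [legTheta_legHostA, coe_legHostA]

/-- on `B'B c`, `c ∈ E_M ∩ F_{4M}`, the expansion is the twist `x ↦ ζ x` of the coefficientwise
embedding. -/
theorem legTheta_legHostB_legHostB (c : ↥(legE K M))
    (hc : (c : LaurentSeries K) ∈ keyFq K (4 * M)) :
    legTheta K h' hq κ ζ hζq hζ1
        (legHostB K (M * q) q hq hq2 (legHostB K M q hq hq2 c)) =
      twist (Units.map (algebraMap R' K' : R' →* K') ζ) (coeffMap κ (c : LaurentSeries K)) := by
  have e : legToFullSq K M q (legHostB K (M * q) q hq hq2 (legHostB K M q hq hq2 c)) =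
      pull2 K (4 * M) q ⟨(c : LaurentSeries K), hc⟩ := by
    apply Subtype.ext
    rw [coe_legToFullSq, coe_legHostB, coe_legHostB, coe_pull2]
  rw [legTheta_apply, e, pull2, keyFqMid_keyFqB_keyFqB]

end Theta

section Series

variable (R : Type*) [CommRing R] [IsDomain R] [IsDiscreteValuationRing R] [CharZero R]
  (K : Type*) [Field K] [Algebra R K] [IsFractionRing R K] [Algebra ℚ K] [Algebra K ℂ]
  {R' : Type*} [CommRing R'] [IsDomain R'] [IsDiscreteValuationRing R']
  {K' : Type*} [Field K'] [Algebra R' K'] [IsFractionRing R' K']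
  (φ : R →+* R') [IsLocalHom φ] (κ : K →+* K')
  (hκ : ∀ r : R, κ (algebraMap R K r) = algebraMap R' K' (φ r))

include hκ in
/-- **the Legendre coordinate over `R'`**: `κ(t) = emb y` with `y` a series over `R'` whose
reduction is Frobenius-fixed and has `θ ȳ ≠ 0` (`θ = x d/dx`). -/
theorem exists_legT_series_local (h2 : IsUnit (2 : R)) (q : ℕ)
    [ExpChar (IsLocalRing.ResidueField R) q] [ExpChar (IsLocalRing.ResidueField R') q] :
    ∃ y : LaurentSeries R', coeffMap κ (legT K) = emb R' K' y ∧
      coeffMap (frobenius (IsLocalRing.ResidueField R') q) (red R' y) = red R' y ∧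
      eulerFun (red R' y) ≠ 0 := by
  obtain ⟨s, hs, ⟨n, hn, hu⟩, hfrob⟩ := exists_legT_series R K h2
  refine ⟨coeffMap φ s, ?_, coeffMap_frobenius_red_coeffMap_local φ q s (hfrob q), ?_⟩
  · rw [hs, coeffMap_emb_eq_emb R K φ κ hκ]
  · have hus : IsUnit ((coeffMap φ s).coeff n) := by rw [coeffMap_coeff]; exact hu.map φ
    intro h0
    have h1 := congrArg (fun z => HahnSeries.coeff z n) h0
    simp only [eulerFun_coeff, red_coeff, HahnSeries.coeff_zero] at h1
    have h2 : IsLocalRing.residue R' ((coeffMap φ s).coeff n) ≠ 0 := by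
      intro h3
      rw [IsLocalRing.residue_eq_zero_iff] at h3
      exact (IsLocalRing.mem_maximalIdeal _).1 h3 hus
    rcases hn with rfl | rfl
    · simp only [Int.cast_one, one_mul] at h1
      exact h2 h1
    · simp only [Int.cast_neg, Int.cast_one, neg_mul, one_mul, neg_eq_zero] at h1
      exact h2 h1

end Series

end

end Fermat.Agent.S36
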