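/-
S36 [W11LOC] — helper5 — abstract part (C3): **no horizontal zero through a single-sheet point, from
a unit congruence.**

`𝔫` a closed point of the chart lying on the sheet `W i₀` only, `z` an element of the chart with
`z ^ k / π ≡ ν` on `W i₀` for a unit `ν` of the local ring at `𝔫`.  Then `z ^ k / π` is itself a unit
of the local ring at `𝔫` (local Hartogs), hence `z` lies in no horizontal prime of height one through
`𝔫` — the hypothesis `hzhor` of helper3's `exists_dvd_of_local_equation`.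

For `W11` at an ordinary point: `z = b = t0 − t2`, `k = q − 1`, `ν = −A'(μ)`, `μ = ∂_{t0}(t1)/q`.
-/
import Mathlib
import Fermat.Agent.S36.LOCAL36_helper3_Gen
import Fermat.Agent.S36.TORIC36_helper5_Local

set_option autoImplicit false
set_option linter.unusedSectionVars false
set_option linter.style.haveILetI false

namespace Fermat.Agent.S36

open Fermat.Agent.JA Fermat.Agent.SS Polynomial

section Abs

variable {R : Type*} [CommRing R] [IsDomain R] [IsDiscreteValuationRing R] [CharZero R]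
  {K₁ : Type*} [Field K₁] [Algebra R K₁] [IsFractionRing R K₁]
  {K : Type*} [Field K] [Algebra K₁ K] [Algebra R K] [IsScalarTower R K₁ K]
  {F : Type*} [Field F] [Algebra K F] [Algebra R F] [IsScalarTower R K F] [FiniteDimensional K F]
  {π : R} {τ : K} {ι : Type*} {W : ι → ValuationSubring F}

/-- `z ^ k / π` is a unit of the local ring at a single-sheet point as soon as it is congruent on
the sheet to a unit of that local ring. -/
theorem pow_div_mem_locRing_of_cong (fam : IsSheetFamily π τ W) (hπ : Irreducible π)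
    (hτ : Transcendental K₁ τ) (hKτ : IntermediateField.adjoin K₁ {τ} = ⊤)
    (𝔫 : Ideal ↥(chartOne R F τ)) [h𝔫 : 𝔫.IsPrime] (i₀ : ι)
    (honly : ∀ j, sheetIdeal τ (W j) (fam.chart_le j) ≤ 𝔫 → j = i₀)
    (hle : sheetIdeal τ (W i₀) (fam.chart_le i₀) ≤ 𝔫)
    {z : ↥(chartOne R F τ)} {k : ℕ} {ν : F} (hν : ν ∈ locRing (chartOne R F τ) 𝔫)
    (hν' : ν ∉ locMax (chartOne R F τ) 𝔫)
    (hcong : (W i₀).valuation ((z : F) ^ k / algebraMap R F π - ν) < 1) :
    (z : F) ^ k / algebraMap R F π ∈ locRing (chartOne R F τ) 𝔫 ∧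
      (z : F) ^ k / algebraMap R F π ∉ locMax (chartOne R F τ) 𝔫 := by
  classical
  haveI : IsFractionRing ↥(chartOne R F τ) F := isFractionRing_chartOne (K₁ := K₁) τ hKτ
  haveI : IsIntegrallyClosed ↥(chartOne R F τ) := isIntegrallyClosed_chartOne (K₁ := K₁) τ hKτ
  haveI : IsNoetherianRing ↥(chartOne R F τ) := isNoetherianRing_chartOne (K₁ := K₁) τ hτ hKτ
  have hinjF : Function.Injective (algebraMap R F) := by
    rw [IsScalarTower.algebraMap_eq R K F, IsScalarTower.algebraMap_eq R K₁ K]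
    exact (algebraMap K F).injective.comp
      ((algebraMap K₁ K).injective.comp (IsFractionRing.injective R K₁))
  have hπF : algebraMap R F π ≠ 0 := fun h => hπ.ne_zero (hinjF (by rw [h, map_zero]))
  set T : F := (z : F) ^ k / algebraMap R F π with hT
  have hBW : ∀ b ∈ chartOne R F τ, b ∈ W i₀ := fam.chart_le i₀
  have h𝔭 : ∀ b : ↥(chartOne R F τ), b ∈ sheetIdeal τ (W i₀) (fam.chart_le i₀) ↔
      (W i₀).valuation (b : F) < 1 := fun b => mem_sheetIdeal_iff τ (W i₀) (fam.chart_le i₀) b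
  have hvν : (W i₀).valuation ν ≤ 1 := valuation_le_one_of_mem_locRing hBW h𝔭 hle hν
  have hvT : (W i₀).valuation T ≤ 1 := by
    have : T = ν + (T - ν) := by ring
    rw [this]
    exact le_trans (Valuation.map_add _ _ _) (max_le hvν hcong.le)
  have hTloc : T ∈ locRing (chartOne R F τ) 𝔫 := by
    refine mem_locRing_of_forall_height_one _ (fun 𝔮 h𝔮 hh hle𝔮 => ?_)
    haveI := h𝔮
    by_cases hπ𝔮 : algebraMap R ↥(chartOne R F τ) π ∈ 𝔮
    · obtain ⟨i, hi⟩ := fam.exists_eq_of_height_one hπ hτ hKτ 𝔮 hh hπ𝔮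
      subst hi
      have hii : i = i₀ := honly i hle𝔮
      subst hii
      exact fam.exists_mul_eq_of_mem hπ hτ hKτ i _
        ((ValuationSubring.valuation_le_one_iff _ _).mp hvT)
    · refine ⟨z ^ k, algebraMap R ↥(chartOne R F τ) π, hπ𝔮, ?_⟩
      show T * algebraMap R F π = (z : F) ^ k
      rw [hT, div_mul_cancel₀ _ hπF]
  refine ⟨hTloc, fun hTmax => hν' ?_⟩
  have h1 : T - ν ∈ locMax (chartOne R F τ) 𝔫 :=
    sub_mem_locMax_of_valuation_lt_one hBW h𝔭 hle hTloc hν hcong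
  have : ν = T - (T - ν) := by ring
  rw [this]
  exact sub_mem_locMax hTmax h1

/-- **(C3)**: `z` lies in no horizontal prime of height one through the single-sheet point `𝔫`. -/
theorem notMem_horizontal_of_pow_div_cong (fam : IsSheetFamily π τ W) (hπ : Irreducible π)
    (hτ : Transcendental K₁ τ) (hKτ : IntermediateField.adjoin K₁ {τ} = ⊤)
    (𝔫 : Ideal ↥(chartOne R F τ)) [h𝔫 : 𝔫.IsPrime] (i₀ : ι)
    (honly : ∀ j, sheetIdeal τ (W j) (fam.chart_le j) ≤ 𝔫 → j = i₀)
    (hle : sheetIdeal τ (W i₀) (fam.chart_le i₀) ≤ 𝔫)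
    {z : ↥(chartOne R F τ)} {k : ℕ} (hk : k ≠ 0) {ν : F} (hν : ν ∈ locRing (chartOne R F τ) 𝔫)
    (hν' : ν ∉ locMax (chartOne R F τ) 𝔫)
    (hcong : (W i₀).valuation ((z : F) ^ k / algebraMap R F π - ν) < 1) :
    ∀ 𝔮 : Ideal ↥(chartOne R F τ), 𝔮.IsPrime → 𝔮.height = 1 →
      algebraMap R ↥(chartOne R F τ) π ∉ 𝔮 → 𝔮 ≤ 𝔫 → z ∉ 𝔮 := by
  intro 𝔮 h𝔮 _ hπ𝔮 hle𝔮 hz𝔮
  obtain ⟨hTloc, hTmax⟩ := pow_div_mem_locRing_of_cong fam hπ hτ hKτ 𝔫 i₀ honly hle hν hν' hcong
  have hinjF : Function.Injective (algebraMap R F) := by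
    rw [IsScalarTower.algebraMap_eq R K F, IsScalarTower.algebraMap_eq R K₁ K]
    exact (algebraMap K F).injective.comp
      ((algebraMap K₁ K).injective.comp (IsFractionRing.injective R K₁))
  have hπF : algebraMap R F π ≠ 0 := fun h => hπ.ne_zero (hinjF (by rw [h, map_zero]))
  -- `T⁻¹ = r / s` with `s ∉ 𝔫`: `π · s = z ^ k · r`
  obtain ⟨r, s, hs, hrs⟩ := inv_mem_locRing hTloc hTmax
  have hT0 : (z : F) ^ k / algebraMap R F π ≠ 0 := fun h0 => hTmax (h0 ▸ zero_mem_locMax)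
  have hzk : (z : F) ^ k ≠ 0 := fun h0 => hT0 (by rw [h0, zero_div])
  have hmem : algebraMap R ↥(chartOne R F τ) π * s ∈ 𝔮 := by
    have h1 : algebraMap R ↥(chartOne R F τ) π * s = z ^ k * r := by
      apply Subtype.ext
      show algebraMap R F π * (s : F) = (z : F) ^ k * (r : F)
      rw [← hrs]
      field_simp
    rw [h1]
    exact 𝔮.mul_mem_right _ (Ideal.pow_mem_of_mem 𝔮 hz𝔮 k (Nat.pos_of_ne_zero hk))
  rcases h𝔮.mem_or_mem hmem with h | h
  · exact hπ𝔮 h
  · exact hs (hle𝔮 h)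

end Abs

end Fermat.Agent.S36
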