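/-
S36 [MODEL36] — helper6 — part 1: **the gluing lemma for the second floor of the `q`-tower**
(generic field theory).

`F₀ → F₁ → F₂` with "degeneracy maps" `A₁ = algebraMap, B₁ : F₀ → F₁`, `A₂ = algebraMap, B₂ : F₁ → F₂`,
`A₂ ∘ B₁ = B₂ ∘ A₁`, an endomorphism `w` of `F₁` with `w ∘ A₁ = B₁` (Atkin–Lehner), degrees
`[F₁ : F₀] = [F₂ : F₁] + 1`, `[F₂ : F₁] ≥ 2`, and `F₂` generated by `A₂ F₁ ∪ B₂ F₁`.  Then
`F₁ ⊗_{F₀} F₁ ≅ F₁ × F₂`, i.e. **for every field `L` and ring homomorphisms `φ ψ : F₁ → L` with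
`φ ∘ B₁ = ψ ∘ A₁` and `ψ ≠ φ ∘ w` there is a (unique) `θ : F₂ → L` with `θ ∘ A₂ = φ`, `θ ∘ B₂ = ψ`**
(`exists_ringHom_glue`).  Proof through a primitive element `β` of `F₁ / F₀`: the minimal
polynomial of `B₂ β` over `F₁` is `B₁(P) / (X - w β)`, `P = minpoly F₀ β`.
-/
import Mathlib

set_option autoImplicit false
set_option linter.unusedSectionVars false
set_option linter.style.haveILetI false

open Polynomial IntermediateField

namespace Fermat.Agent.S36

section Glue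

variable {F₀ F₁ F₂ L : Type*} [Field F₀] [Field F₁] [Field F₂] [Field L] [CharZero F₀]
  [Algebra F₀ F₁] [Algebra F₁ F₂] [FiniteDimensional F₀ F₁] [FiniteDimensional F₁ F₂]

omit [CharZero F₀] [Algebra F₁ F₂] [FiniteDimensional F₀ F₁] [FiniteDimensional F₁ F₂] in
/-- two ring homomorphisms out of `F₀⟮β⟯ = ⊤` agreeing on `F₀` and at `β` agree. -/
theorem ringHom_eq_of_adjoin_eq_top {E : Type*} [Field E] {β : F₁} (hβ : F₀⟮β⟯ = ⊤)
    (f g : F₁ →+* E) (h0 : ∀ c : F₀, f (algebraMap F₀ F₁ c) = g (algebraMap F₀ F₁ c))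
    (h1 : f β = g β) : f = g := by
  let S : IntermediateField F₀ F₁ :=
    { (RingHom.eqLocusField f g) with
      algebraMap_mem' := fun c => h0 c }
  have hS : F₀⟮β⟯ ≤ S := by
    rw [adjoin_simple_le_iff]
    exact h1
  rw [hβ] at hS
  ext z
  exact hS (mem_top : z ∈ (⊤ : IntermediateField F₀ F₁))

variable (B₁ : F₀ →+* F₁) (B₂ : F₁ →+* F₂) (w : F₁ →+* F₁)

/-- **the gluing lemma.** -/
theorem exists_ringHom_glue
    (hAB : ∀ c : F₀, algebraMap F₁ F₂ (B₁ c) = B₂ (algebraMap F₀ F₁ c))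
    (hwA : ∀ c : F₀, w (algebraMap F₀ F₁ c) = B₁ c)
    (hdeg : Module.finrank F₀ F₁ = Module.finrank F₁ F₂ + 1) (h2 : 2 ≤ Module.finrank F₁ F₂)
    (hgen : ∀ S : Subfield F₂, (∀ a : F₁, algebraMap F₁ F₂ a ∈ S) → (∀ b : F₁, B₂ b ∈ S) → S = ⊤)
    (φ ψ : F₁ →+* L) (hφψ : ∀ c : F₀, φ (B₁ c) = ψ (algebraMap F₀ F₁ c))
    (hne : ψ ≠ φ.comp w) :
    ∃ θ : F₂ →+* L, (∀ a : F₁, θ (algebraMap F₁ F₂ a) = φ a) ∧ (∀ b : F₁, θ (B₂ b) = ψ b) := by
  haveI : Algebra.IsSeparable F₀ F₁ := Algebra.IsAlgebraic.isSeparable_of_perfectField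
  -- a primitive element
  obtain ⟨β, hβ⟩ := Field.exists_primitive_element F₀ F₁
  have hβint : IsIntegral F₀ β := Algebra.IsIntegral.isIntegral β
  set P : F₀[X] := minpoly F₀ β with hP
  have hPmonic : P.Monic := minpoly.monic hβint
  have hPdeg : P.natDegree = Module.finrank F₁ F₂ + 1 := by
    rw [← hdeg, ← IntermediateField.adjoin.finrank hβint, hβ, IntermediateField.finrank_top']
  -- `ψ β ≠ φ (w β)`
  have hneβ : ψ β ≠ φ (w β) := by
    intro h
    apply hne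
    refine ringHom_eq_of_adjoin_eq_top hβ ψ (φ.comp w) (fun c => ?_) h
    rw [RingHom.comp_apply, hwA, hφψ]
  -- `w β` is a root of `B₁ P`
  have hroot : (P.map B₁).IsRoot (w β) := by
    have h1 : P.map B₁ = (P.map (algebraMap F₀ F₁)).map w := by
      rw [Polynomial.map_map]
      congr 1
      ext c
      exact (hwA c).symm
    rw [Polynomial.IsRoot, h1, Polynomial.eval_map, Polynomial.eval₂_at_apply,
      Polynomial.eval_map, ← Polynomial.aeval_def, hP, minpoly.aeval, map_zero]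
  set Ψ : F₁[X] := P.map B₁ /ₘ (X - C (w β)) with hΨ
  have hfac : (X - C (w β)) * Ψ = P.map B₁ := Polynomial.mul_divByMonic_eq_iff_isRoot.mpr hroot
  have hPBmonic : (P.map B₁).Monic := hPmonic.map B₁
  have hΨmonic : Ψ.Monic := by
    have := hPBmonic
    rw [← hfac] at this
    exact (Polynomial.monic_X_sub_C (w β)).of_mul_monic_left this
  have hΨdeg : Ψ.natDegree = Module.finrank F₁ F₂ := by
    have h1 : (P.map B₁).natDegree = Module.finrank F₁ F₂ + 1 := by
      rw [hPmonic.natDegree_map, hPdeg]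
    rw [← hfac, (Polynomial.monic_X_sub_C (w β)).natDegree_mul hΨmonic,
      Polynomial.natDegree_X_sub_C] at h1
    omega
  -- the generator of `F₂ / F₁`
  set γ : F₂ := B₂ β with hγ
  have hγint : IsIntegral F₁ γ := Algebra.IsIntegral.isIntegral γ
  have hγtop : F₁⟮γ⟯ = ⊤ := by
    have hS := hgen F₁⟮γ⟯.toSubfield (fun a => F₁⟮γ⟯.algebraMap_mem a) ?_
    · apply IntermediateField.toSubfield_injective
      rw [hS]
      rfl
    · -- `B₂ b ∈ F₁⟮γ⟯` for all `b`
      let T : IntermediateField F₀ F₁ :=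
        { (F₁⟮γ⟯.toSubfield.comap B₂) with
          algebraMap_mem' := fun c => by
            show B₂ (algebraMap F₀ F₁ c) ∈ F₁⟮γ⟯
            rw [← hAB]
            exact F₁⟮γ⟯.algebraMap_mem _ }
      have hT : F₀⟮β⟯ ≤ T := by
        rw [adjoin_simple_le_iff]
        show B₂ β ∈ F₁⟮γ⟯
        exact mem_adjoin_simple_self F₁ γ
      rw [hβ] at hT
      intro b
      exact hT (mem_top : b ∈ (⊤ : IntermediateField F₀ F₁))
  have hmindeg : (minpoly F₁ γ).natDegree = Module.finrank F₁ F₂ := by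
    rw [← IntermediateField.adjoin.finrank hγint, hγtop, IntermediateField.finrank_top']
  -- `γ` is a root of `B₁ P`
  have hγroot : Polynomial.aeval γ (P.map B₁) = 0 := by
    rw [Polynomial.aeval_def, Polynomial.eval₂_map]
    have h1 : (algebraMap F₁ F₂).comp B₁ = B₂.comp (algebraMap F₀ F₁) := by
      ext c
      exact hAB c
    rw [h1, ← Polynomial.eval₂_map, hγ, Polynomial.eval₂_at_apply, Polynomial.eval_map,
      ← Polynomial.aeval_def, hP, minpoly.aeval, map_zero]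
  -- the minimal polynomial of `γ` is `Ψ`
  have hminΨ : minpoly F₁ γ = Ψ := by
    have hdvd : minpoly F₁ γ ∣ (X - C (w β)) * Ψ := by
      rw [hfac]
      exact minpoly.dvd F₁ γ hγroot
    have hprime : Prime (minpoly F₁ γ) := (minpoly.irreducible hγint).prime
    rcases hprime.dvd_or_dvd hdvd with h | h
    · exfalso
      have := Polynomial.natDegree_le_of_dvd h (Polynomial.X_sub_C_ne_zero _)
      rw [hmindeg, Polynomial.natDegree_X_sub_C] at this
      omega
    · exact (Polynomial.eq_of_monic_of_dvd_of_natDegree_le (minpoly.monic hγint) hΨmonic h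
        (by rw [hΨdeg, hmindeg])).symm
  -- `ψ β` is a root of `φ Ψ`
  have hψroot : Polynomial.eval₂ φ (ψ β) Ψ = 0 := by
    have h1 : Polynomial.eval₂ φ (ψ β) (P.map B₁) = 0 := by
      rw [Polynomial.eval₂_map]
      have h2 : φ.comp B₁ = ψ.comp (algebraMap F₀ F₁) := by
        ext c
        exact hφψ c
      rw [h2, ← Polynomial.eval₂_map, Polynomial.eval₂_at_apply, Polynomial.eval_map,
        ← Polynomial.aeval_def, hP, minpoly.aeval, map_zero]
    rw [← hfac, Polynomial.eval₂_mul, Polynomial.eval₂_sub, Polynomial.eval₂_X,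
      Polynomial.eval₂_C] at h1
    rcases mul_eq_zero.mp h1 with h | h
    · exact absurd (sub_eq_zero.mp h) hneβ
    · exact h
  -- the lift
  letI : Algebra F₁ L := φ.toAlgebra
  have hψroot' : Polynomial.aeval (ψ β) (minpoly F₁ γ) = 0 := by
    rw [hminΨ, Polynomial.aeval_def]
    exact hψroot
  let pb := IntermediateField.adjoin.powerBasis hγint
  have hpbgen : pb.gen = AdjoinSimple.gen F₁ γ := IntermediateField.adjoin.powerBasis_gen hγint
  have hpbmin : minpoly F₁ pb.gen = minpoly F₁ γ := by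
    rw [hpbgen, IntermediateField.minpoly_gen]
  let θ₀ : ↥F₁⟮γ⟯ →ₐ[F₁] L := pb.lift (ψ β) (by rw [hpbmin]; exact hψroot')
  have hθ₀gen : θ₀ (AdjoinSimple.gen F₁ γ) = ψ β := by
    rw [← hpbgen]
    exact pb.lift_gen _ _
  let e : F₂ ≃ₐ[F₁] ↥F₁⟮γ⟯ :=
    (IntermediateField.topEquiv.symm).trans (IntermediateField.equivOfEq hγtop.symm)
  have he : ∀ z : F₂, ((e z : ↥F₁⟮γ⟯) : F₂) = z := fun z => rfl
  let θ : F₂ →ₐ[F₁] L := θ₀.comp (e : F₂ →ₐ[F₁] ↥F₁⟮γ⟯)
  have hθA : ∀ a : F₁, θ (algebraMap F₁ F₂ a) = φ a := fun a => θ.commutes a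
  have hθγ : θ γ = ψ β := by
    show θ₀ (e γ) = ψ β
    have : e γ = AdjoinSimple.gen F₁ γ := Subtype.ext (he γ)
    rw [this, hθ₀gen]
  refine ⟨θ.toRingHom, hθA, fun b => ?_⟩
  have hcomp : (θ.toRingHom.comp B₂) = ψ := by
    refine ringHom_eq_of_adjoin_eq_top hβ _ ψ (fun c => ?_) ?_
    · rw [RingHom.comp_apply, ← hAB]
      show θ (algebraMap F₁ F₂ (B₁ c)) = _
      rw [hθA, hφψ]
    · exact hθγ
  exact congrFun (congrArg DFunLike.coe hcomp) b

omit [CharZero F₀] [Algebra F₀ F₁] [FiniteDimensional F₀ F₁] [FiniteDimensional F₁ F₂] in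
/-- uniqueness in the gluing lemma. -/
theorem ringHom_glue_unique
    (hgen : ∀ S : Subfield F₂, (∀ a : F₁, algebraMap F₁ F₂ a ∈ S) → (∀ b : F₁, B₂ b ∈ S) → S = ⊤)
    (θ θ' : F₂ →+* L) (hA : ∀ a : F₁, θ (algebraMap F₁ F₂ a) = θ' (algebraMap F₁ F₂ a))
    (hB : ∀ b : F₁, θ (B₂ b) = θ' (B₂ b)) : θ = θ' := by
  have h := hgen (RingHom.eqLocusField θ θ') hA hB
  ext z
  have hz : z ∈ RingHom.eqLocusField θ θ' := by
    rw [h]
    exact Subfield.mem_top z
  exact hz

end Glue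

end Fermat.Agent.S36
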