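/-
S36 — helper4 — algebraic top, part 4: the concrete transfer data `xferAlphaQ`, `xferBetaQ`
(`q ∣ M₁`) and the concrete stage-(I) data: **the representation on the eigenlattice of level
`M₁ q` (`q ∣ M₁`) of a system which is new at `q` is not unipotent on inertia at `q`**, from
(KEY-INERT).  The two norm bridges (`normBridgeAlphaQ`, `normBridgeBetaQ`): the realisation of the
norm along `α` / `β` is the product of translates over the representatives of the transfer datum.
-/
import Mathlib
import Fermat.Agent.S36.TOP_helper4_Core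
import Fermat.Agent.S35.P1_lead_KapX
import Fermat.Agent.GR.XFERQ_helper4_Gamma0
import Fermat.Agent.GR.XFERQ_helper4_Norm
import Fermat.Agent.GR.ASM_helper8_Done

set_option autoImplicit false
set_option linter.unusedSectionVars false
set_option linter.unusedVariables false
set_option linter.style.haveILetI false

open CongruenceSubgroup ModularCurve ModularCurve.Period AlgebraicCurve ModularForm Polynomial

open scoped MatrixGroups

namespace Fermat.Agent.S36

open Fermat.Agent.GR Fermat.Agent.X0N Fermat.Agent.JA Fermat.Agent.S35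

local notation "Ω" => AlgebraicClosure ℚ
local notation "GQ" => (AlgebraicClosure ℚ ≃ₐ[ℚ] AlgebraicClosure ℚ)

attribute [local instance] algebraQbarComplex isScalarTower_rat_qbar_complex

section Bridges

variable (M q : ℕ) [NeZero M] [NeZero q] [NeZero (M * q)] (hq : q.Prime) (hqM : q ∣ M)

/-- **the norm bridge along `α`, `q ∣ M`** (the analytic norm formula along `α`, deduced from
helper5's formula along `β` through the Fricke involutions). -/
theorem normBridgeAlphaQ (z : ↥(modularFunctionFieldBar (M * q))) :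
    realN (algebraMap Ω ℂ) M (normAlong (heckeAlphaBar Ω M q) z) =
      transferProd (xferAlphaQ M q hq hqM (NeZero.ne M))
        (det_xferAlphaQ_pos M q hq hqM (NeZero.ne M)) (realN (algebraMap Ω ℂ) (M * q) z) := by
  rw [transferProd_xferAlphaQ]
  exact realN_norm_heckeAlphaBar_of_dvd (k := Ω) M q hq hqM z

/-- **the norm bridge along `β`, `q ∣ M`** (helper5's analytic norm formula). -/
theorem normBridgeBetaQ (z : ↥(modularFunctionFieldBar (M * q))) :
    realN (algebraMap Ω ℂ) M (normAlong (heckeBetaBar Ω M q) z) =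
      transferProd (xferBetaQ M q hq hqM) (det_xferBetaQ_pos M q hq hqM)
        (realN (algebraMap Ω ℂ) (M * q) z) := by
  rw [transferProd_xferBetaQ]
  exact realN_norm_heckeBetaBar_of_dvd (k := Ω) M q hq hqM z

end Bridges

section Concrete

variable {M₁ q p : ℕ} [NeZero M₁] [NeZero q] [NeZero (M₁ * q)] [hp : Fact p.Prime]
  (hq : q.Prime) (hqM : q ∣ M₁)

theorem stageIData_kap_degPushAlphaQ (k : ℕ)
    (z : ↥(torsionNat (JZero (M₁ * q)) (p ^ k))) :
    (stageIData M₁ p).D.kap k (torsionNatMap₂ (p ^ k) (degPushAlpha M₁ q) z) =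
      (xferAlphaQ M₁ q hq hqM (NeZero.ne M₁)).transferGrp (ZMod (p ^ k))
        ((stageIData (M₁ * q) p).D.kap k z) :=
  kapOf_degPush_of_transfer (descData (M₁ * q)) (descData M₁) (heckeAlphaBar Ω M₁ q)
    (xferAlphaQ M₁ q hq hqM (NeZero.ne M₁)) (det_xferAlphaQ_pos M₁ q hq hqM (NeZero.ne M₁))
    (fun _ => rfl) (fun _ => rfl) (normBridgeAlphaQ M₁ q hq hqM) (p ^ k) z

theorem stageIData_kap_degPushBetaQ (k : ℕ)
    (z : ↥(torsionNat (JZero (M₁ * q)) (p ^ k))) :
    (stageIData M₁ p).D.kap k (torsionNatMap₂ (p ^ k) (degPushBeta M₁ q) z) =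
      (xferBetaQ M₁ q hq hqM).transferGrp (ZMod (p ^ k))
        ((stageIData (M₁ * q) p).D.kap k z) :=
  kapOf_degPush_of_transfer (descData (M₁ * q)) (descData M₁) (heckeBetaBar Ω M₁ q)
    (xferBetaQ M₁ q hq hqM) (det_xferBetaQ_pos M₁ q hq hqM)
    (fun _ => rfl) (fun _ => rfl) (normBridgeBetaQ M₁ q hq hqM) (p ^ k) z

variable (B : Type) [CommRing B] [IsDomain B] [IsDiscreteValuationRing B] [CharZero B]
  [Algebra ℤ_[p] B] [Module.Flat ℤ_[p] B] (hpB : (p : B) ∈ IsLocalRing.maximalIdeal B)
  (a : Nat.Primes → B)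
  (L : Type) [Field L] [Algebra B L] [IsFractionRing B L]
  (hrank : Module.finrank L ↥(eigenPar (M₁ * q) L (mapSys B L a)) = 2)

include hq hqM in
/-- **not unipotent on inertia, concrete data**: the representation on the eigenlattice of level
`M₁ q` (`q ∣ M₁`) of a system new at `q` is not unipotent on a subgroup `H` of the Galois group
whose invariant `q`-new torsion is bounded. -/
theorem stageIData_rep_not_unipotent
    (hnew : eigenParOn M₁ L (primesNotDvd (M₁ * q)) (mapSys B L a) = ⊥)
    (H : Subgroup GQ) {c : ℕ}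
    (hkey : ∀ (k : ℕ) (x : JZero (M₁ * q)), p ^ k • x = 0 → (∀ τ ∈ H, τ • x = x) →
      degPushAlpha M₁ q x = 0 → degPushBeta M₁ q x = 0 → p ^ c • x = 0) :
    ¬ ∀ σ ∈ H, LinearMap.charpoly (((stageIData (M₁ * q) p).rep B hpB a L hrank).ρ σ) =
      (X - 1) ^ 2 :=
  rep_not_unipotent (stageIData (M₁ * q) p) (stageIData M₁ p).D
    (xferAlphaQ M₁ q hq hqM (NeZero.ne M₁)) (xferBetaQ M₁ q hq hqM) B hpB a L hrank
    (stageIData_kap_degPushAlphaQ hq hqM) (stageIData_kap_degPushBetaQ hq hqM)
    (fun R _ ψ hψ => xferAlphaQ_mem_parabolicHoms M₁ q hq hqM (NeZero.ne M₁) R hψ)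
    (fun R _ ψ hψ => xferBetaQ_mem_parabolicHoms M₁ q hq hqM R hψ)
    (fun ℓ hℓ ψ => xferAlphaQ_transferGrp_heckeGrpP M₁ q hq hqM (NeZero.ne M₁) ℓ hℓ B ψ)
    (fun ℓ hℓ ψ => xferBetaQ_transferGrp_heckeGrpP M₁ q hq hqM ℓ hℓ B ψ)
    hnew H hkey

end Concrete

end Fermat.Agent.S36
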