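/-
S36 — helper4 — algebraic top, final: **the frozen S36 statement from (KEY-INERT)**
(`s36_of_keyInert : KeyInertStatement → …`): the `λ`-adic representation attached to a newform
`g` of level `M` (constructed on the eigenlattice of `Hom_par(Γ₀(M), B)`) is not unipotent on
inertia at the primes `q ≠ λ` with `q² ∥ M`.
-/
import Mathlib
import Fermat.Agent.S36.TOP_helper4_Concrete
import Fermat.Agent.S35.T2_lead_Final
import Fermat.Agent.S54_Frobenius

set_option autoImplicit false
set_option linter.unusedSectionVars false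
set_option linter.unusedVariables false
set_option linter.style.haveILetI false

open CongruenceSubgroup ModularCurve ModularCurve.Period Polynomial IsLocalRing

open scoped MatrixGroups

namespace Fermat.Agent.S36

open Fermat.Agent.GR Fermat.Agent.X0N Fermat.Agent.JA Fermat.Agent.S35

local notation "Ω" => AlgebraicClosure ℚ
local notation "GQ" => (AlgebraicClosure ℚ ≃ₐ[ℚ] AlgebraicClosure ℚ)

/-- `v_q(N) = 2`: `N = M₁ q` with `q ∣ M₁`, `q² ∤ M₁`. -/
theorem exists_eq_mul_of_factorization_eq_two {N q : ℕ} (hN : N ≠ 0) (hq : q.Prime)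
    (h : N.factorization q = 2) : ∃ M₁ : ℕ, N = M₁ * q ∧ q ∣ M₁ ∧ ¬ q ^ 2 ∣ M₁ := by
  have h2 : q ^ 2 ∣ N := (hq.pow_dvd_iff_le_factorization hN).mpr h.ge
  have h3 : ¬ q ^ 3 ∣ N := by
    rw [hq.pow_dvd_iff_le_factorization hN, h]
    omega
  obtain ⟨m, hm⟩ := h2
  refine ⟨q * m, by rw [hm]; ring, dvd_mul_right _ _, ?_⟩
  rintro ⟨t, ht⟩
  apply h3
  refine ⟨t, ?_⟩
  rw [hm]
  have : q ^ 2 * m = q * (q * m) := by ring
  rw [this, ht]
  ring

section Main

variable {N : ℕ} [NeZero N] {p : ℕ} [hp : Fact p.Prime]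

/-- the core: a complete DVR `B` with fraction field `L`, a system `a : Nat.Primes → B` occurring
over `L` and new at every prime dividing `N`. -/
theorem exists_rep_of_system_inert (hkey : KeyInertStatement)
    (B : Type) [CommRing B] [IsDomain B] [IsDiscreteValuationRing B] [CharZero B]
    [IsAdicComplete (maximalIdeal B) B] (hpB : (p : B) ∈ maximalIdeal B)
    (L : Type) [Field L] [Algebra B L] [IsFractionRing B L]
    (a : Nat.Primes → B) (hocc : eigenPar N L (mapSys B L a) ≠ ⊥)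
    (hnew : ∀ (q M₁ : ℕ), q.Prime → N = M₁ * q →
      eigenParOn M₁ L (primesNotDvd N) (mapSys B L a) = ⊥) :
    ∃ ρ : GaloisRepAdic B,
      (∀ (q : ℕ) (hq : q.Prime), ¬ q ∣ N * p →
        ∀ A : ValuationSubring Ω, A.LiesOverPrime q → ∀ σ : GQ, A.IsFrobeniusAt σ q →
          LinearMap.charpoly (ρ.ρ σ) = X ^ 2 - C (a ⟨q, hq⟩) * X + C (q : B)) ∧
      (∀ q : ℕ, q.Prime → q ≠ p → N.factorization q = 2 → ¬ ρ.IsUnipotentOnInertiaAt q) := by
  letI : Algebra ℤ_[p] B := (padicToComplete p (maximalIdeal B) hpB).toAlgebra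
  haveI : Module.Flat ℤ_[p] B := flat_padic_of_charZero B
  haveI : CharZero L := charZero_of_injective_algebraMap (IsFractionRing.injective B L)
  obtain ⟨_, _, hrank⟩ := mult1_field hocc
  obtain ⟨hplus, hminus⟩ := exists_plus_minus_of_occ L (mapSys B L a) hocc
  refine ⟨(stageIData N p).rep B hpB a L hrank, ?_, ?_⟩
  · intro q hq hqNp A hA σ hσ
    exact (stageIData N p).rep_charpoly_frobenius B hpB a L hrank hplus hminus hq hqNp hA hσ
  · intro q hq hqp hfac hun
    obtain ⟨M₁, hN, hqM₁, hq2⟩ := exists_eq_mul_of_factorization_eq_two (NeZero.ne N) hq hfac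
    have hnew' := hnew q M₁ hq hN
    haveI : NeZero M₁ := ⟨by
      rintro rfl
      exact NeZero.ne N (by rw [hN, zero_mul])⟩
    haveI : NeZero q := ⟨hq.ne_zero⟩
    subst hN
    obtain ⟨c, H⟩ := hkey M₁ q p hq hp.out hqp hqM₁ hq2
    obtain ⟨A, hA⟩ := Fermat.Agent.S54.exists_valuationSubring_liesOver (L := Ω) hq
    exact stageIData_rep_not_unipotent hq hqM₁ B hpB a L hrank hnew' (A.inertiaSubgroupIn ℚ)
      (H A hA) (hun A hA)

/-- Stage A: a finite extension `L` of the fraction field of a complete DVR `A` over which a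
system of integral eigenvalues occurs and is new at every prime dividing `N`. -/
theorem exists_ext_rep_of_finite_inert (hkey : KeyInertStatement)
    (A : Type) [CommRing A] [IsDomain A] [IsDiscreteValuationRing A]
    [IsAdicComplete (maximalIdeal A) A] [Finite (ResidueField A)] [CharZero A]
    (hpA : (p : A) ∈ maximalIdeal A)
    (K : Type) [Field K] [Algebra A K] [IsFractionRing A K]
    (L : Type) [Field L] [Algebra K L] [FiniteDimensional K L] [Algebra A L] [IsScalarTower A K L]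
    (aL : Nat.Primes → L) (hint : ∀ ℓ, IsIntegral A (aL ℓ)) (hocc : eigenPar N L aL ≠ ⊥)
    (hnew : ∀ (q M₁ : ℕ), q.Prime → N = M₁ * q →
      eigenParOn M₁ L (primesNotDvd N) aL = ⊥) :
    ∃ (B : Type) (_ : CommRing B) (_ : IsDomain B) (_ : IsDiscreteValuationRing B)
      (_ : IsAdicComplete (maximalIdeal B) B) (_ : Finite (ResidueField B)) (_ : CharZero B)
      (_ : Algebra A B) (_ : Module.Finite A B) (_ : IsLocalHom (algebraMap A B)),
      Function.Injective (algebraMap A B) ∧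
      ∃ ρ : GaloisRepAdic B,
        (∀ (q : ℕ) (hq : q.Prime), ¬ q ∣ N * p → ∀ x : A, algebraMap A L x = aL ⟨q, hq⟩ →
          ∀ V : ValuationSubring Ω, V.LiesOverPrime q → ∀ σ : GQ, V.IsFrobeniusAt σ q →
            LinearMap.charpoly (ρ.ρ σ) = X ^ 2 - C (algebraMap A B x) * X + C (q : B)) ∧
        (∀ q : ℕ, q.Prime → q ≠ p → N.factorization q = 2 → ¬ ρ.IsUnipotentOnInertiaAt q) := by
  haveI : CharZero K := charZero_of_injective_algebraMap (IsFractionRing.injective A K)
  haveI : Algebra.IsSeparable K L := Algebra.IsAlgebraic.isSeparable_of_perfectField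
  obtain ⟨i1, i2, i3, i4, i5, i6, i7⟩ :=
    Fermat.Agent.CFT.Local.exists_localExt_instances A K L ↥(integralClosure A L)
  haveI := i1
  haveI := i2
  haveI := i3
  haveI := i4
  haveI := i5
  haveI := i6
  haveI hfinres : Finite (ResidueField ↥(integralClosure A L)) := i7 inferInstance
  have hinjL : Function.Injective (algebraMap A L) := by
    rw [IsScalarTower.algebraMap_eq A K L]
    exact (algebraMap K L).injective.comp (IsFractionRing.injective A K)
  have hinj : Function.Injective (algebraMap A ↥(integralClosure A L)) := by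
    intro x y hxy
    apply hinjL
    exact congrArg Subtype.val hxy
  haveI : CharZero ↥(integralClosure A L) := charZero_of_injective_algebraMap hinj
  have hpB : (p : ↥(integralClosure A L)) ∈ maximalIdeal ↥(integralClosure A L) := by
    have h1 : (p : ↥(integralClosure A L)) = algebraMap A ↥(integralClosure A L) (p : A) := by
      rw [map_natCast]
    rw [h1]
    exact map_nonunit (algebraMap A ↥(integralClosure A L)) _ hpA
  let a'' : Nat.Primes → ↥(integralClosure A L) := fun ℓ => ⟨aL ℓ, hint ℓ⟩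
  have hsys : mapSys ↥(integralClosure A L) L a'' = aL := rfl
  obtain ⟨ρ, h1, h2⟩ := exists_rep_of_system_inert hkey ↥(integralClosure A L) hpB L a''
    (by rw [hsys]; exact hocc) (by rw [hsys]; exact hnew)
  refine ⟨↥(integralClosure A L), inferInstance, inferInstance, inferInstance, inferInstance,
    hfinres, inferInstance, inferInstance, inferInstance, inferInstance, hinj, ρ, ?_, h2⟩
  intro q hq hqNp x hx V hV σ hσ
  rw [h1 q hq hqNp V hV σ hσ]
  have : a'' ⟨q, hq⟩ = algebraMap A ↥(integralClosure A L) x := Subtype.ext hx.symm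
  rw [this]

end Main

/-- **the conclusion of S36 without the (unused) hypotheses `λ ≠ 2` and residual irreducibility.**
-/
def S36InertStatement : Prop :=
  ∀ {M : ℕ} [NeZero M] {g : CuspForm (CongruenceSubgroup.Gamma0 M) 2} (_hg : g.IsNewform)
    (lam : ℕ) [Fact lam.Prime] (S : Finset ℕ)
    (O' : Type) [CommRing O'] [IsDomain O'] [IsDiscreteValuationRing O']
    [IsAdicComplete (IsLocalRing.maximalIdeal O') O'] [Finite (IsLocalRing.ResidueField O')]
    [CharZero O'] (_hlamO' : (lam : O') ∈ IsLocalRing.maximalIdeal O')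
    (chig : CuspForm.heckeAlgebra M 2 (↑S : Set ℕ) →+* ℂ)
    (_hchig : ∀ (ℓ : ℕ) (hℓ : ℓ.Prime) (hℓM : ¬ ℓ ∣ M) (hℓS : ℓ ∉ (↑S : Set ℕ)),
      chig (CuspForm.heckeAlgebra.T hℓ hℓM hℓS) = ModularFormClass.qCoeff g ℓ)
    (iota : chig.range →+* O')
    (_hlamS : lam ∈ S) (_hMS : ∀ q : ℕ, q.Prime → q ∣ M → q ∈ S),
    ∃ (O'' : Type) (_ : CommRing O'') (_ : IsDomain O'') (_ : IsDiscreteValuationRing O'')
      (_ : IsAdicComplete (IsLocalRing.maximalIdeal O'') O'')
      (_ : Finite (IsLocalRing.ResidueField O''))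
      (_ : CharZero O'') (_ : Algebra O' O'') (_ : Module.Finite O' O'')
      (_ : IsLocalHom (algebraMap O' O'')),
      Function.Injective (algebraMap O' O'') ∧
      ∃ ρ : GaloisRepAdic O'',
        (∀ (ℓ : ℕ) (hℓ : ℓ.Prime) (hℓM : ¬ ℓ ∣ M) (hℓS : ℓ ∉ (↑S : Set ℕ)),
          ∀ A : ValuationSubring (AlgebraicClosure ℚ), A.LiesOverPrime ℓ →
            ∀ σ : AlgebraicClosure ℚ ≃ₐ[ℚ] AlgebraicClosure ℚ, A.IsFrobeniusAt σ ℓ →
              LinearMap.charpoly (ρ.ρ σ) =
                X ^ 2 - C (algebraMap O' O'' ((iota.comp chig.rangeRestrict)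
                  (CuspForm.heckeAlgebra.T hℓ hℓM hℓS))) * X + C ((ℓ : O''))) ∧
        (∀ q : ℕ, q.Prime → q ≠ lam → M.factorization q = 2 → ¬ ρ.IsUnipotentOnInertiaAt q)

/-- Stage B: **`S36InertStatement` from (KEY-INERT) and (EMB).** -/
theorem s36Inert_of_keyInert (hkey : KeyInertStatement) (hemb : EmbStatement) :
    S36InertStatement := by
  intro N _ g hg lam _ S O' _ _ _ _ _ _ hlamO' chig hchig iota hlamS hNS
  haveI : CharZero (FractionRing O') :=
    charZero_of_injective_algebraMap (IsFractionRing.injective O' (FractionRing O'))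
  have hinjF : Function.Injective (algebraMap O' (AlgebraicClosure (FractionRing O'))) := by
    rw [IsScalarTower.algebraMap_eq O' (FractionRing O') (AlgebraicClosure (FractionRing O'))]
    exact (algebraMap (FractionRing O') (AlgebraicClosure (FractionRing O'))).injective.comp
      (IsFractionRing.injective O' (FractionRing O'))
  obtain ⟨aF, hintF, haT, hoccF, hrefl⟩ := hemb hg.1 S O' chig hchig iota
    (AlgebraicClosure (FractionRing O')) hinjF
  have hint𝒪 : ∀ ℓ, IsIntegral O' (aF ℓ) := fun ℓ => isIntegral_of_isIntegral_int (hintF ℓ)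
  have hintK : ∀ ℓ, IsIntegral (FractionRing O') (aF ℓ) := fun ℓ =>
    isIntegral_of_isIntegral_int (hintF ℓ)
  -- the finite extension generated by the eigenvalues at the primes in `S`
  have hfinset : ({ℓ : Nat.Primes | (ℓ : ℕ) ∈ S}).Finite := by
    refine Set.Finite.of_finite_image (f := fun ℓ : Nat.Primes => (ℓ : ℕ)) ?_
      (fun x _ y _ hxy => Subtype.ext hxy)
    refine S.finite_toSet.subset ?_
    rintro _ ⟨ℓ, hℓ, rfl⟩
    exact hℓ
  haveI : Finite ↑(aF '' {ℓ : Nat.Primes | (ℓ : ℕ) ∈ S}) := (hfinset.image aF).to_subtype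
  haveI hfd : FiniteDimensional (FractionRing O')
      ↥(IntermediateField.adjoin (FractionRing O') (aF '' {ℓ : Nat.Primes | (ℓ : ℕ) ∈ S})) :=
    IntermediateField.finiteDimensional_adjoin (by
      rintro _ ⟨ℓ, _, rfl⟩
      exact hintK ℓ)
  haveI : IsScalarTower O' (FractionRing O')
      ↥(IntermediateField.adjoin (FractionRing O') (aF '' {ℓ : Nat.Primes | (ℓ : ℕ) ∈ S})) :=
    IsScalarTower.of_algebraMap_eq fun x => Subtype.ext (by
      show algebraMap O' (AlgebraicClosure (FractionRing O')) x = _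
      rw [IsScalarTower.algebraMap_apply O' (FractionRing O')
        (AlgebraicClosure (FractionRing O'))]
      rfl)
  have hmem : ∀ ℓ : Nat.Primes, aF ℓ ∈
      IntermediateField.adjoin (FractionRing O') (aF '' {ℓ : Nat.Primes | (ℓ : ℕ) ∈ S}) := by
    intro ℓ
    by_cases hℓS : (ℓ : ℕ) ∈ S
    · exact IntermediateField.subset_adjoin _ _ ⟨ℓ, hℓS, rfl⟩
    · have hℓN : ¬ (ℓ : ℕ) ∣ N := fun h => hℓS (hNS _ ℓ.2 h)
      have h := haT ℓ.1 ℓ.2 hℓN (by simpa using hℓS)
      have h' : aF ℓ = aF ⟨ℓ.1, ℓ.2⟩ := rfl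
      rw [h', h,
        IsScalarTower.algebraMap_apply O' (FractionRing O') (AlgebraicClosure (FractionRing O'))]
      exact IntermediateField.algebraMap_mem _ _
  let aL : Nat.Primes →
      ↥(IntermediateField.adjoin (FractionRing O') (aF '' {ℓ : Nat.Primes | (ℓ : ℕ) ∈ S})) :=
    fun ℓ => ⟨aF ℓ, hmem ℓ⟩
  haveI : IsScalarTower O'
      ↥(IntermediateField.adjoin (FractionRing O') (aF '' {ℓ : Nat.Primes | (ℓ : ℕ) ∈ S}))
      (AlgebraicClosure (FractionRing O')) :=
    IsScalarTower.of_algebraMap_eq fun x => rfl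
  have hintL : ∀ ℓ, IsIntegral O' (aL ℓ) := by
    intro ℓ
    have h := hint𝒪 ℓ
    have h2 : aF ℓ = algebraMap
      ↥(IntermediateField.adjoin (FractionRing O') (aF '' {ℓ : Nat.Primes | (ℓ : ℕ) ∈ S}))
      (AlgebraicClosure (FractionRing O')) (aL ℓ) := rfl
    rw [h2] at h
    exact (isIntegral_algebraMap_iff (RingHom.injective _)).1 h
  have hoccL : eigenPar N
      ↥(IntermediateField.adjoin (FractionRing O') (aF '' {ℓ : Nat.Primes | (ℓ : ℕ) ∈ S}))
      aL ≠ ⊥ := by
    rw [← eigenPar_ne_bot_map_iff _ (AlgebraicClosure (FractionRing O'))]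
    exact hoccF
  have hnewL : ∀ (q M₁ : ℕ), q.Prime → N = M₁ * q →
      eigenParOn M₁
        ↥(IntermediateField.adjoin (FractionRing O') (aF '' {ℓ : Nat.Primes | (ℓ : ℕ) ∈ S}))
        (primesNotDvd N) aL = ⊥ := by
    intro q M₁ hq hN
    by_contra hne
    haveI : NeZero M₁ := ⟨by
      rintro rfl
      exact NeZero.ne N (by rw [hN, zero_mul])⟩
    have h1 := eigenParOn_ne_bot_map' (N := M₁) _ (AlgebraicClosure (FractionRing O'))
      (primesNotDvd N) aL hne
    have h2 := hrefl M₁ (primesNotDvd N) h1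
    have h3 := goodEigensystemOccursAt_of_eigenParOn g M₁ h2
    refine hg.2 M₁ ⟨q, hN⟩ ?_ h3
    intro hM
    have hq1 : q = 1 := by
      have hM0 : 0 < M₁ := Nat.pos_of_ne_zero (NeZero.ne M₁)
      have : M₁ * q = M₁ * 1 := by rw [mul_one, ← hN, hM]
      exact Nat.eq_of_mul_eq_mul_left hM0 this
    exact hq.one_lt.ne' hq1
  obtain ⟨B, i1, i2, i3, i4, i5, i6, i7, i8, i9, hinj, ρ, h1, h2⟩ :=
    exists_ext_rep_of_finite_inert (N := N) (p := lam) hkey O' hlamO' (FractionRing O')
      ↥(IntermediateField.adjoin (FractionRing O') (aF '' {ℓ : Nat.Primes | (ℓ : ℕ) ∈ S}))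
      aL hintL hoccL hnewL
  refine ⟨B, i1, i2, i3, i4, i5, i6, i7, i8, i9, hinj, ρ, ?_, h2⟩
  intro ℓ hℓ hℓN hℓS A hA σ hσ
  have hℓp : ℓ ≠ lam := fun h => hℓS (by rw [h]; exact hlamS)
  have hℓNp : ¬ ℓ ∣ N * lam := by
    intro h
    rcases (Nat.Prime.dvd_mul hℓ).1 h with h | h
    · exact hℓN h
    · exact hℓp ((Nat.prime_dvd_prime_iff_eq hℓ (Fact.out : lam.Prime)).1 h)
  refine h1 ℓ hℓ hℓNp ((iota.comp chig.rangeRestrict) (CuspForm.heckeAlgebra.T hℓ hℓN hℓS)) ?_
    A hA σ hσ
  apply Subtype.ext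
  show algebraMap O' (AlgebraicClosure (FractionRing O')) _ = aF ⟨ℓ, hℓ⟩
  rw [haT ℓ hℓ hℓN hℓS]
  rfl

/-- **`S36InertStatement` from (KEY-INERT).** -/
theorem s36InertStatement_of_keyInertStatement (hkey : KeyInertStatement) : S36InertStatement :=
  s36Inert_of_keyInert hkey embStatement

/-- **[K36-TOP]: the frozen S36 statement from (KEY-INERT).** -/
theorem s36_of_keyInert (hkey : KeyInertStatement)
    {M : ℕ} [NeZero M] {g : CuspForm (CongruenceSubgroup.Gamma0 M) 2} (hg : g.IsNewform)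
    (lam : ℕ) [Fact lam.Prime]
    (S : Finset ℕ)
    (O' : Type) [CommRing O'] [IsDomain O'] [IsDiscreteValuationRing O']
    [IsAdicComplete (IsLocalRing.maximalIdeal O') O'] [Finite (IsLocalRing.ResidueField O')]
    [CharZero O'] (hlamO' : (lam : O') ∈ IsLocalRing.maximalIdeal O')
    (chig : CuspForm.heckeAlgebra M 2 (↑S : Set ℕ) →+* ℂ)
    (hchig : ∀ (ℓ : ℕ) (hℓ : ℓ.Prime) (hℓM : ¬ ℓ ∣ M) (hℓS : ℓ ∉ (↑S : Set ℕ)),
      chig (CuspForm.heckeAlgebra.T hℓ hℓM hℓS) = ModularFormClass.qCoeff g ℓ)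
    (iota : chig.range →+* O')
    (hlamS : lam ∈ S) (hMS : ∀ q : ℕ, q.Prime → q ∣ M → q ∈ S) :
    ∃ (O'' : Type) (_ : CommRing O'') (_ : IsDomain O'') (_ : IsDiscreteValuationRing O'')
      (_ : IsAdicComplete (IsLocalRing.maximalIdeal O'') O'')
      (_ : Finite (IsLocalRing.ResidueField O''))
      (_ : CharZero O'') (_ : Algebra O' O'') (_ : Module.Finite O' O'')
      (_ : IsLocalHom (algebraMap O' O'')),
      Function.Injective (algebraMap O' O'') ∧
      ∃ ρ : GaloisRepAdic O'',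
        (∀ (ℓ : ℕ) (hℓ : ℓ.Prime) (hℓM : ¬ ℓ ∣ M) (hℓS : ℓ ∉ (↑S : Set ℕ)),
          ∀ A : ValuationSubring (AlgebraicClosure ℚ), A.LiesOverPrime ℓ →
            ∀ σ : AlgebraicClosure ℚ ≃ₐ[ℚ] AlgebraicClosure ℚ, A.IsFrobeniusAt σ ℓ →
              LinearMap.charpoly (ρ.ρ σ) =
                X ^ 2 - C (algebraMap O' O'' ((iota.comp chig.rangeRestrict)
                  (CuspForm.heckeAlgebra.T hℓ hℓM hℓS))) * X + C ((ℓ : O''))) ∧
        (∀ q : ℕ, q.Prime → q ≠ lam → M.factorization q = 2 → ¬ ρ.IsUnipotentOnInertiaAt q) :=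
  s36InertStatement_of_keyInertStatement hkey hg lam S O' hlamO' chig hchig iota hlamS hMS

end Fermat.Agent.S36
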