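/-
S36 [REG1] — lead — **the Euler derivation `θ = x d/dx` on Laurent series.**

* `eulerD A : Derivation A (LaurentSeries A) (LaurentSeries A)`, `coeff n ↦ n • coeff n`;
* it commutes with coefficient maps (`eulerD_coeffMap`), and `θ (f(x^N)) = N • (θ f)(x^N)`
  (`eulerD_qExpand`);
* it preserves the Gauss valuation ring `gaussInt R L` and its maximal ideal
  (`eulerD_mem_gaussInt`, `gaussRed_eulerD`).
-/
import Mathlib
import Fermat.Prelude.Def_ModularCurve_X0
import Fermat.Prelude.Def_ModularCurve_LaurentCoeff
import Fermat.Agent.Igusa.V_helper5_Gauss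

set_option autoImplicit false
set_option linter.unusedSectionVars false

namespace Fermat.Agent.S36

open ModularCurve

section Theta

variable {A : Type*} [CommRing A]

/-- the underlying function of the Euler derivation. -/
noncomputable def eulerFun (f : LaurentSeries A) : LaurentSeries A :=
  ⟨fun n => (n : A) * f.coeff n, f.isPWO_support.mono (by
    intro n hn
    simp only [Function.mem_support, ne_eq] at hn
    simp only [HahnSeries.mem_support, ne_eq]
    intro h
    exact hn (by rw [h, mul_zero]))⟩

@[simp] theorem eulerFun_coeff (f : LaurentSeries A) (n : ℤ) :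
    (eulerFun f).coeff n = (n : A) * f.coeff n := rfl

theorem eulerFun_support_subset (f : LaurentSeries A) : (eulerFun f).support ⊆ f.support := by
  intro n hn
  simp only [HahnSeries.mem_support, ne_eq, eulerFun_coeff] at hn ⊢
  intro h
  exact hn (by rw [h, mul_zero])

theorem eulerFun_add (f g : LaurentSeries A) : eulerFun (f + g) = eulerFun f + eulerFun g := by
  ext n
  simp only [eulerFun_coeff, HahnSeries.coeff_add]
  ring

theorem eulerFun_smul (a : A) (f : LaurentSeries A) : eulerFun (a • f) = a • eulerFun f := by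
  ext n
  simp only [eulerFun_coeff, HahnSeries.coeff_smul, smul_eq_mul]
  ring

theorem eulerFun_mul (f g : LaurentSeries A) :
    eulerFun (f * g) = f * eulerFun g + g * eulerFun f := by
  ext n
  rw [eulerFun_coeff, HahnSeries.coeff_add, HahnSeries.coeff_mul,
    HahnSeries.coeff_mul_right' g.isPWO_support (eulerFun_support_subset g),
    mul_comm g (eulerFun f),
    HahnSeries.coeff_mul_left' f.isPWO_support (eulerFun_support_subset f),
    Finset.mul_sum, ← Finset.sum_add_distrib]
  refine Finset.sum_congr rfl (fun ij hij => ?_)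
  have hsum : ij.1 + ij.2 = n := (Finset.mem_antidiagonal.mp hij).2.2
  rw [eulerFun_coeff, eulerFun_coeff, ← hsum]
  push_cast
  ring

theorem algebraMap_laurent_eq_C (a : A) :
    algebraMap A (LaurentSeries A) a = HahnSeries.C a := by
  have h1 : algebraMap A (PowerSeries A) a = PowerSeries.C a := by simp
  rw [HahnSeries.algebraMap_apply', h1, HahnSeries.ofPowerSeries_C]

theorem eulerFun_C (a : A) : eulerFun (HahnSeries.C a : LaurentSeries A) = 0 := by
  ext n
  rw [eulerFun_coeff, HahnSeries.coeff_zero, HahnSeries.C_apply]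
  rcases eq_or_ne n 0 with h | h
  · rw [h]; simp
  · rw [HahnSeries.coeff_single_of_ne h, mul_zero]

/-- **the Euler derivation** `θ = x d/dx`. -/
noncomputable def eulerD (A : Type*) [CommRing A] :
    Derivation A (LaurentSeries A) (LaurentSeries A) where
  toFun := eulerFun
  map_add' := eulerFun_add
  map_smul' a f := by
    rw [Algebra.smul_def, eulerFun_mul, algebraMap_laurent_eq_C, eulerFun_C, mul_zero, add_zero,
      HahnSeries.C_mul_eq_smul, RingHom.id_apply]
  map_one_eq_zero' := by
    ext n
    show (eulerFun (1 : LaurentSeries A)).coeff n = 0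
    rw [eulerFun_coeff, HahnSeries.coeff_one]
    split_ifs with h
    · rw [h]; simp
    · simp
  leibniz' f g := by
    show eulerFun (f * g) = f • eulerFun g + g • eulerFun f
    rw [eulerFun_mul, smul_eq_mul, smul_eq_mul]

theorem eulerD_apply (f : LaurentSeries A) : eulerD A f = eulerFun f := rfl

@[simp] theorem eulerD_coeff (f : LaurentSeries A) (n : ℤ) :
    (eulerD A f).coeff n = (n : A) * f.coeff n := by
  rw [eulerD_apply, eulerFun_coeff]

theorem eulerD_coeffMap {B : Type*} [CommRing B] (φ : A →+* B) (f : LaurentSeries A) :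
    eulerD B (coeffMap φ f) = coeffMap φ (eulerD A f) := by
  ext n
  simp only [eulerD_coeff, coeffMap_coeff, map_mul, map_intCast]

theorem eulerD_qExpand (N : ℕ) [NeZero N] (f : LaurentSeries A) :
    eulerD A (qExpand A N f) = (N : LaurentSeries A) * qExpand A N (eulerD A f) := by
  have hN : (N : LaurentSeries A) = HahnSeries.C (N : A) := by
    rw [map_natCast]
  ext k
  rw [hN, HahnSeries.C_mul_eq_smul, HahnSeries.coeff_smul, eulerD_coeff, smul_eq_mul]
  by_cases hk : (N : ℤ) ∣ k
  · obtain ⟨m, rfl⟩ := hk
    rw [qExpand_coeff_mul, qExpand_coeff_mul, eulerD_coeff]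
    push_cast
    ring
  · rw [qExpand_coeff_of_not_dvd N _ hk, qExpand_coeff_of_not_dvd N _ hk, mul_zero, mul_zero]

end Theta

section Gauss

open Fermat.Agent.Igusa

variable {R : Type*} [CommRing R] [IsDomain R] [IsDiscreteValuationRing R]
  {L : Type*} [Field L] [Algebra R L] [IsFractionRing R L]

theorem eulerD_emb (f : LaurentSeries R) : eulerD L (emb R L f) = emb R L (eulerD R f) :=
  eulerD_coeffMap _ f

theorem eulerD_red (f : LaurentSeries R) :
    eulerD (IsLocalRing.ResidueField R) (red R f) = red R (eulerD R f) :=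
  eulerD_coeffMap _ f

/-- the quotient rule inside `gaussInt`. -/
theorem eulerD_mul_emb_sq {x : LaurentSeries L} {f g : LaurentSeries R}
    (h : x * emb R L g = emb R L f) :
    eulerD L x * emb R L (g * g) = emb R L (eulerD R f * g - f * eulerD R g) := by
  have h1 : eulerD L (x * emb R L g) = eulerD L (emb R L f) := by rw [h]
  rw [Derivation.leibniz, smul_eq_mul, smul_eq_mul, eulerD_emb, eulerD_emb] at h1
  rw [map_mul, map_sub, map_mul, map_mul, ← h1, ← h]
  ring

theorem eulerD_mem_gaussInt {x : LaurentSeries L} (hx : x ∈ gaussInt R L) :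
    eulerD L x ∈ gaussInt R L := by
  obtain ⟨f, g, hg, h⟩ := hx
  exact ⟨eulerD R f * g - f * eulerD R g, g * g, by rw [map_mul]; exact mul_ne_zero hg hg,
    eulerD_mul_emb_sq h⟩

theorem quot_rule_aux {Ω : Type*} [Field Ω] (D : Ω → Ω)
    (hD : ∀ a b : Ω, D (a * b) = a * D b + b * D a) {F G : Ω} (hG : G ≠ 0) :
    (D F * G - F * D G) / (G * G) = D (F / G) := by
  have hq : F = (F / G) * G := by rw [div_mul_cancel₀ _ hG]
  have h2 : D F = (F / G) * D G + G * D (F / G) := by
    conv_lhs => rw [hq]
    rw [hD]
  rw [h2, div_eq_iff (mul_ne_zero hG hG)]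
  have : F / G * G = F := div_mul_cancel₀ _ hG
  linear_combination (D G) * this

/-- `θ` commutes with the reduction of the Gauss ring. -/
theorem gaussRed_eulerD (x : gaussInt R L) :
    gaussRed R L ⟨eulerD L x, eulerD_mem_gaussInt x.2⟩ =
      eulerD (IsLocalRing.ResidueField R) (gaussRed R L x) := by
  obtain ⟨f, g, hg, h⟩ := x.2
  have hgg : red R (g * g) ≠ 0 := by rw [map_mul]; exact mul_ne_zero hg hg
  have e1 := gaussRed_eq (⟨eulerD L x, eulerD_mem_gaussInt x.2⟩ : gaussInt R L)
    (eulerD R f * g - f * eulerD R g) (g * g) hgg (eulerD_mul_emb_sq h)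
  have e2 := gaussRed_eq x f g hg h
  rw [e1, e2, map_sub, map_mul, map_mul, map_mul, ← eulerD_red, ← eulerD_red]
  exact quot_rule_aux (fun z => eulerD (IsLocalRing.ResidueField R) z)
    (fun a b => by rw [eulerD_apply, eulerD_apply, eulerD_apply, eulerFun_mul]) hg

end Gauss

end Fermat.Agent.S36
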