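/-
S36 [ABS36] — helper3 — **[KUM36] part 3: `SheetKumData.fixed`**: every `F`-automorphism of `L`
fixes the `m`-th root `α` of a function `G` which is an `m`-th power along every sheet
(`G / λ_i ^ m ≡ 1` on `W i`, `λ_i` arbitrary nonzero) with closed data (`SheetDatumAt`) at every
closed point of the special fibre of both charts.  No hypothesis on the ramification of the sheets,
no reducedness.
-/
import Mathlib
import Fermat.Agent.S36.KUM36_helper3_Sheet

set_option autoImplicit false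
set_option linter.unusedSectionVars false
set_option linter.style.haveILetI false

namespace Fermat.Agent.S36

open Fermat.Agent.JA Fermat.Agent.SS Polynomial

section Fixed

variable {R : Type*} [CommRing R] [IsDomain R] [IsDiscreteValuationRing R] [CharZero R]
  {K₁ : Type*} [Field K₁] [Algebra R K₁] [IsFractionRing R K₁]
  {K : Type*} [Field K] [Algebra K₁ K] [Algebra R K] [IsScalarTower R K₁ K]
  {F : Type*} [Field F] [Algebra K F] [Algebra R F] [IsScalarTower R K F] [FiniteDimensional K F]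
  {L : Type*} [Field L] [Algebra K L] [Algebra K₁ L] [IsScalarTower K₁ K L] [Algebra R L]
  [IsScalarTower R K L] [Algebra F L] [IsScalarTower K F L] [FiniteDimensional K L]

/-- the data of the main argument for an `n`-sheet model. -/
structure SheetKumData (K₁ : Type*) [Field K₁] [Algebra R K₁] [IsFractionRing R K₁] [Algebra K₁ K]
    [IsScalarTower R K₁ K] [Algebra K₁ L] [IsScalarTower K₁ K L]
    (t : K) (π : R) (m : ℕ) (ζ : R) {ι : Type*} (W : ι → ValuationSubring F) (G : F)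
    (lam : ι → F) (α : L) : Prop where
  ht : Transcendental K₁ t
  hK : IntermediateField.adjoin K₁ {t} = ⊤
  hπ : Irreducible π
  hm : 0 < m
  hmR : IsUnit (m : R)
  hζ : IsPrimitiveRoot ζ m
  fam : IsSheetFamily π t W
  hlam : ∀ i, lam i ≠ 0
  hG : ∀ i, (W i).valuation (G / lam i ^ m - 1) < 1
  hd₁ : ∀ (𝔫 : Ideal ↥(chartOne R F t)) (h𝔫 : 𝔫.IsMaximal),
    algebraMap R ↥(chartOne R F t) π ∈ 𝔫 →
    @SheetDatumAt R _ F _ _ (chartOne R F t) ι (fun i => sheetIdeal t (W i) (fam.chart_le i))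
      𝔫 h𝔫.isPrime W m G lam
  hd₂ : ∀ (𝔫 : Ideal ↥(chartOne R F t⁻¹)) (h𝔫 : 𝔫.IsMaximal),
    algebraMap R ↥(chartOne R F t⁻¹) π ∈ 𝔫 →
    @SheetDatumAt R _ F _ _ (chartOne R F t⁻¹) ι
      (fun i => sheetIdeal t⁻¹ (W i) ((fam.inv hπ).chart_le i)) 𝔫 h𝔫.isPrime W m G lam
  hα : α ^ m = algebraMap F L G
  hM4 : ∀ x : L, IsAlgebraic K₁ x → x ∈ Set.range (algebraMap K₁ L)
  hT₁ : ∀ 𝔮 ∈ (Ideal.span {algebraMap R ↥(chartOne R L t) π}).minimalPrimes,
    (⟨algebraMap K L t, algebraMap_coord_mem_chartOne t⟩ : ↥(chartOne R L t)) ∉ 𝔮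
  hT₂ : ∀ 𝔮 ∈ (Ideal.span {algebraMap R ↥(chartOne R L t⁻¹) π}).minimalPrimes,
    (⟨algebraMap K L t⁻¹, algebraMap_coord_mem_chartOne t⁻¹⟩ : ↥(chartOne R L t⁻¹)) ∉ 𝔮

variable {t : K} {π : R} {m : ℕ} {ζ : R} {ι : Type*} {W : ι → ValuationSubring F} {G : F}
  {lam : ι → F} {α : L}

theorem SheetKumData.ht0 (D : SheetKumData K₁ t π m ζ W G lam α) : t ≠ 0 :=
  fun h => D.ht (h ▸ isAlgebraic_zero)

theorem SheetKumData.injective_mid (_D : SheetKumData K₁ t π m ζ W G lam α) :
    Function.Injective (algebraMap R ↥(chartMid R L t)) := by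
  intro x y h
  have hinj : Function.Injective (algebraMap R L) :=
    algebraMap_injective_of_tower (K₁ := K₁) (K := K)
  apply hinj
  have := congrArg (fun z : ↥(chartMid R L t) => (z : L)) h
  exact this

/-- **the constant of a sheet.** -/
theorem SheetKumData.exists_const (D : SheetKumData K₁ t π m ζ W G lam α)
    (s : SheetOf R L t π) (i : ι) (hs : SheetOver (F := F) t s.1 (W i)) :
    ∃ ξ : R, ξ ^ m = 1 ∧ CongAt (chartMid R L t) s.1 (α / algebraMap F L (lam i)) ξ := by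
  haveI : (s.1).IsPrime := s.2.1.1
  have hζ' : IsPrimitiveRoot (algebraMap R ↥(chartMid R L t) ζ) m :=
    D.hζ.map_of_injective D.injective_mid
  have hBW := D.fam.chart_le i
  obtain ⟨c, d, hd, hcd, hGd⟩ := exists_toric_elem_of_div hBW (mem_sheetIdeal_iff t (W i) hBW)
    (D.fam.exists_mul_eq_of_mem D.hπ D.ht D.hK i) (D.hlam i) (D.hG i)
  obtain ⟨k, -, hk⟩ := exists_congAt_of_toric (L := L) t D.hm ζ hζ' G α D.hα s.1 (lam i)
    (D.hlam i) c d
    (fun h => hd ((mem_sheetIdeal_iff t (W i) hBW d).mpr ((hs d).mp h)))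
    ((hs _).mpr ((mem_sheetIdeal_iff t (W i) hBW _).mp hcd)) hGd
  exact ⟨ζ ^ k, by rw [← pow_mul, mul_comm, pow_mul, D.hζ.pow_eq_one, one_pow], hk⟩

/-- **main theorem of the `n`-sheet gluing (abstract `L`)**: every `F`-automorphism of `L` fixes
`α`. -/
theorem SheetKumData.fixed (D : SheetKumData K₁ t π m ζ W G lam α) (τ : L ≃ₐ[F] L) :
    τ α = α := by
  classical
  haveI : NeZero m := ⟨D.hm.ne'⟩
  have ht0 := D.ht0
  have hπp : Prime π := D.hπ.prime
  have hinjL : Function.Injective (algebraMap R L) :=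
    algebraMap_injective_of_tower (K₁ := K₁) (K := K)
  have fam' := D.fam.inv D.hπ
  have ht' : Transcendental K₁ t⁻¹ := transcendental_inv_of_transcendental D.ht
  have hK' : IntermediateField.adjoin K₁ {t⁻¹} = ⊤ := adjoin_inv_eq_top D.hK
  have hWt : ∀ i, (W i).valuation (algebraMap K F t) = 1 := fun i =>
    valuation_coord_eq_one_of_isGaussAt (D.fam.gauss i) D.hπ ht0
  have hsp : ∀ s : SheetOf R L t π, (s.1).IsPrime := fun s => s.2.1.1
  have hπs : ∀ s : SheetOf R L t π, algebraMap R ↥(chartMid R L t) π ∈ s.1 :=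
    fun s => s.2.1.2 (Ideal.subset_span (Set.mem_singleton _))
  -- the index of the sheet of `F` below a sheet of `L`
  have hidx : ∀ s : SheetOf R L t π, ∃ i, SheetOver (F := F) t s.1 (W i) :=
    fun s => D.fam.exists_sheetOver D.hπ D.ht D.hK s
  choose idx hidx using hidx
  have hidx_unique : ∀ (s : SheetOf R L t π) (i : ι), SheetOver (F := F) t s.1 (W i) →
      i = idx s := by
    intro s i hi
    exact D.fam.eq_of_forall_iff D.hπ D.ht D.hK (fun b => ((hi b).symm).trans (hidx s b))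
  have hex : ∀ s : SheetOf R L t π, ∃ ξ : R, ξ ^ m = 1 ∧
      CongAt (chartMid R L t) s.1 (α / algebraMap F L (lam (idx s))) ξ :=
    fun s => D.exists_const s (idx s) (hidx s)
  choose Φ hΦ1 hΦ using hex
  have hconst : ∀ s s' : SheetOf R L t π, Φ s = Φ s' := by
    refine chart_sheet_const_radical t D.ht D.hK π hπp D.hM4 D.hT₁ D.hT₂ Φ ?_ ?_
    · intro 𝔑 h𝔑 s s' hs hs'
      haveI := h𝔑
      haveI := hsp s
      haveI := hsp s'
      have hπ𝔑 : algebraMap R ↥(chartOne R L t) π ∈ 𝔑 := by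
        apply hs
        rw [Ideal.mem_comap]
        exact hπs s
      have hmax := comap_chartMap_isMaximal (F := F) t 𝔑
      have hdat := D.hd₁ _ hmax (by
        rw [Ideal.mem_comap, chartMap_algebraMap]
        exact hπ𝔑)
      exact incidence_of_sheetDatum t t (chartOne_le_chartMid t) D.fam D.hπ D.ht D.hK D.hm D.hmR
        G α D.hα D.hlam 𝔑 hdat s.1 s'.1 hs hs' (idx s) (idx s') (hidx s) (hidx s') (Φ s) (Φ s')
        (hΦ1 s) (hΦ1 s') (hΦ s) (hΦ s')
    · intro 𝔑 h𝔑 s s' hs hs'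
      haveI := h𝔑
      haveI := hsp s
      haveI := hsp s'
      have hπ𝔑 : algebraMap R ↥(chartOne R L t⁻¹) π ∈ 𝔑 := by
        apply hs
        rw [Ideal.mem_comap]
        exact hπs s
      have hmax := comap_chartMap_isMaximal (F := F) t⁻¹ 𝔑
      have hdat := D.hd₂ _ hmax (by
        rw [Ideal.mem_comap, chartMap_algebraMap]
        exact hπ𝔑)
      exact incidence_of_sheetDatum t t⁻¹ (chartOne_inv_le_chartMid t ht0) fam' D.hπ ht' hK' D.hm
        D.hmR G α D.hα D.hlam 𝔑 hdat s.1 s'.1 hs hs' (idx s) (idx s')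
        ((hidx s).inv ht0 (hWt _)) ((hidx s').inv ht0 (hWt _)) (Φ s) (Φ s')
        (hΦ1 s) (hΦ1 s') (hΦ s) (hΦ s')
  -- the Galois step
  obtain ⟨s₀⟩ := nonempty_sheetOf_radical t D.ht D.hK π hπp D.hM4 D.hT₁ D.hT₂
  haveI := hsp s₀
  have hmin : (s₀.1).comap (midAut (R := R) t τ) ∈
      (Ideal.span {algebraMap R ↥(chartMid R L t) π}).minimalPrimes :=
    comap_mem_minimalPrimes_of_inverse (midAut (R := R) t τ) (midAut (R := R) t τ⁻¹)
      (midAut_inv t τ) (midAut_inv' t τ) _ (midAut_algebraMap t τ π) (midAut_algebraMap t τ⁻¹ π)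
      s₀.1 s₀.2
  set s' : SheetOf R L t π := ⟨_, hmin⟩ with hs'
  have hso : SheetOver (F := F) t s'.1 (W (idx s₀)) := by
    intro x
    rw [hs', Ideal.mem_comap, midAut_midMap]
    exact hidx s₀ x
  have hidx' : idx s' = idx s₀ := (hidx_unique s' (idx s₀) hso).symm
  have h1 := hΦ s'
  rw [hconst s' s₀, hidx'] at h1
  set lam₀ := lam (idx s₀) with hlamdef
  have hlam0 : lam₀ ≠ 0 := D.hlam _
  have h2 : CongAt (chartMid R L t) s₀.1 ((τ : L →+* L) (α / algebraMap F L lam₀)) (Φ s₀) :=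
    CongAt.map (τ : L →+* L) (midAut (R := R) t τ) (coe_midAut t τ) (midAut_algebraMap t τ) h1
  have h3 := hΦ s₀
  have hG0 : G ≠ 0 := by
    intro h
    have := D.hG (idx s₀)
    rw [h, zero_div, zero_sub, Valuation.map_neg, map_one] at this
    exact lt_irrefl _ this
  have hα0 : α ≠ 0 := by
    intro h
    have h' := D.hα
    rw [h, zero_pow D.hm.ne'] at h'
    exact hG0 ((map_eq_zero_iff _ (algebraMap F L).injective).1 h'.symm)
  have hω : (τ α / α) ^ m = 1 := by
    rw [div_pow, ← map_pow, D.hα, τ.commutes, div_self]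
    rw [← D.hα]
    exact pow_ne_zero _ hα0
  obtain ⟨k, -, hωk⟩ := (D.hζ.map_of_injective hinjL).eq_pow_of_pow_eq_one hω
  have hlamL : algebraMap F L lam₀ ≠ 0 := (_root_.map_ne_zero _).mpr hlam0
  have h4 : (τ : L →+* L) (α / algebraMap F L lam₀) =
      algebraMap R L (ζ ^ k) * (α / algebraMap F L lam₀) := by
    change τ (α / algebraMap F L lam₀) = _
    rw [map_div₀, τ.commutes, map_pow, hωk]
    field_simp
  rw [h4] at h2
  have h5 := h3.const_mul (ζ ^ k)
  have h6 := h5.sub_mem h2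
  have h7 : ζ ^ k * Φ s₀ = Φ s₀ := by
    refine eq_of_pow_eq_one_of_sub_mem D.hm D.hmR
      ((s₀.1).comap (algebraMap R ↥(chartMid R L t))) (Ideal.comap_isPrime _ _).ne_top _ _ ?_
      (hΦ1 s₀) h6
    rw [mul_pow, hΦ1 s₀, mul_one, ← pow_mul, mul_comm, pow_mul, D.hζ.pow_eq_one, one_pow]
  have hΦ0 : Φ s₀ ≠ 0 := by
    intro h
    have := hΦ1 s₀
    rw [h, zero_pow D.hm.ne'] at this
    exact zero_ne_one this
  have h8 : ζ ^ k = 1 := mul_right_cancel₀ hΦ0 (by rw [h7, one_mul])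
  rw [← map_pow, h8, map_one] at hωk
  have := hωk.symm
  rw [div_eq_one_iff_eq hα0] at this
  exact this

end Fixed

end Fermat.Agent.S36
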