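/-
S36 [ABS36] — helper3 — **[KUM36] part 4: the `n`-sheet gluing theorem.**

In the two-chart model of `F / K₁(t)` with an arbitrary family of sheets `W i` (all the extensions of
the Gauss valuation; arbitrary ramification indices, special fibre possibly non reduced), a function
`G` which is an `m`-th power along every sheet (`G / λ_i ^ m ≡ 1` on `W i`) with a closed datum
(`SheetDatumAt`) at every closed point of the special fibre of both charts is an `m`-th power in `F`,
as soon as its leading coefficient is `1`.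

* `sheet_final_aux` : the theorem for an abstract splitting field of `X ^ m - G`;
* `sheet_pow_of_model` : the theorem.
-/
import Mathlib
import Fermat.Agent.S35.TORICKUM_helper5_Final
import Fermat.Agent.S36.KUM36_helper3_Fixed

set_option autoImplicit false
set_option linter.unusedSectionVars false
set_option linter.style.haveILetI false

namespace Fermat.Agent.S36

open Fermat.Agent.JA Fermat.Agent.SS Polynomial

section Final

variable {R : Type*} [CommRing R] [IsDomain R] [IsDiscreteValuationRing R] [CharZero R]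
  {K₁ : Type*} [Field K₁] [Algebra R K₁] [IsFractionRing R K₁]
  {K : Type*} [Field K] [Algebra K₁ K] [Algebra R K] [IsScalarTower R K₁ K]
  {F : Type*} [Field F] [Algebra K F] [Algebra K₁ F] [IsScalarTower K₁ K F] [Algebra R F]
  [IsScalarTower R K F] [FiniteDimensional K F]
  {π : R} {t : K} {ι : Type*} {W : ι → ValuationSubring F}

/-- the final theorem, for an abstract splitting field `L` of `X ^ m - G`. -/
theorem sheet_final_aux {L : Type*} [Field L] [Algebra K L] [Algebra K₁ L] [IsScalarTower K₁ K L]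
    [Algebra R L] [IsScalarTower R K L] [Algebra F L] [IsScalarTower K F L] [IsScalarTower K₁ F L]
    [FiniteDimensional K L]
    (t : K) (ht : Transcendental K₁ t) (hK : IntermediateField.adjoin K₁ {t} = ⊤)
    (π : R) (hπ : Irreducible π) {m : ℕ} (hm : 0 < m) (hmR : IsUnit (m : R)) (ζ : R)
    (hζ : IsPrimitiveRoot ζ m)
    (hM4 : ∀ x : F, IsAlgebraic K₁ x → x ∈ Set.range (algebraMap K₁ F))
    (lc : Fˣ →* K₁ˣ) (hlc : ∀ c : K₁ˣ, lc (Units.map (algebraMap K₁ F).toMonoidHom c) = c)
    (fam : IsSheetFamily π t W)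
    (G : F) (lam : ι → F) (hlam : ∀ i, lam i ≠ 0)
    (hGW : ∀ i, (W i).valuation (G / lam i ^ m - 1) < 1) (hG : G ≠ 0)
    (hd₁ : ∀ (𝔫 : Ideal ↥(chartOne R F t)) (h𝔫 : 𝔫.IsMaximal),
      algebraMap R ↥(chartOne R F t) π ∈ 𝔫 →
      @SheetDatumAt R _ F _ _ (chartOne R F t) ι (fun i => sheetIdeal t (W i) (fam.chart_le i))
        𝔫 h𝔫.isPrime W m G lam)
    (hd₂ : ∀ (𝔫 : Ideal ↥(chartOne R F t⁻¹)) (h𝔫 : 𝔫.IsMaximal),
      algebraMap R ↥(chartOne R F t⁻¹) π ∈ 𝔫 →
      @SheetDatumAt R _ F _ _ (chartOne R F t⁻¹) ι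
        (fun i => sheetIdeal t⁻¹ (W i) ((fam.inv hπ).chart_le i)) 𝔫 h𝔫.isPrime W m G lam)
    (hlc1 : ∀ u : Fˣ, (u : F) = G → lc u = 1)
    [IsSplittingField F L (X ^ m - C G)] :
    ∃ u : F, G = u ^ m := by
  have hπp : Prime π := hπ.prime
  have hinjF : Function.Injective (algebraMap R F) :=
    algebraMap_injective_of_tower (K₁ := K₁) (K := K)
  have hinjL : Function.Injective (algebraMap R L) :=
    algebraMap_injective_of_tower (K₁ := K₁) (K := K)
  have hπL : algebraMap R L π ≠ 0 := by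
    rw [Ne, map_eq_zero_iff _ hinjL]; exact hπp.ne_zero
  have hζF : IsPrimitiveRoot (algebraMap R F ζ) m := hζ.map_of_injective hinjF
  have hζK₁ : IsPrimitiveRoot (algebraMap R K₁ ζ) m :=
    hζ.map_of_injective (IsFractionRing.injective R K₁)
  haveI : FiniteDimensional F L := IsSplittingField.finiteDimensional L (X ^ m - C G)
  have hmF : (m : F) ≠ 0 := by
    haveI : NeZero m := ⟨hm.ne'⟩
    exact (hζF.neZero' (R := F)).out
  haveI : IsGalois F L := IsGalois.of_separable_splitting_field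
    (p := X ^ m - C G) (separable_X_pow_sub_C _ hmF hG)
  obtain ⟨α, hα, hfix⟩ := exists_root_fixing (L := L) hm (algebraMap R F ζ) hζF G hG
  have ht' : Transcendental K₁ t⁻¹ := transcendental_inv_of_transcendental ht
  have hK' : IntermediateField.adjoin K₁ {t⁻¹} = ⊤ := adjoin_inv_eq_top hK
  have D : SheetKumData K₁ t π m ζ W G lam α :=
    { ht := ht
      hK := hK
      hπ := hπ
      hm := hm
      hmR := hmR
      hζ := hζ
      fam := fam
      hlam := hlam
      hG := hGW
      hd₁ := hd₁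
      hd₂ := hd₂
      hα := hα
      hM4 := fun x hx => mem_range_of_isAlgebraic_kummer hM4 lc hlc (algebraMap R K₁ ζ) hζK₁ hm α
        (Units.mk0 G hG) hα (hlc1 _ rfl) hfix x hx
      hT₁ := coord_not_mem_minimalPrimes_lift (K₁ := K₁) (F := F) t ht hK π hπL
        (coord_not_mem_of_mem_minimalPrimes (K₁ := K₁) t ht hK π hπp)
      hT₂ := coord_not_mem_minimalPrimes_lift (K₁ := K₁) (F := F) t⁻¹ ht' hK' π hπL
        (coord_not_mem_of_mem_minimalPrimes (K₁ := K₁) t⁻¹ ht' hK' π hπp) }
  have hmem : α ∈ (⊥ : IntermediateField F L) :=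
    (IsGalois.mem_bot_iff_fixed α).2 (fun τ => D.fixed τ)
  obtain ⟨u, hu⟩ := IntermediateField.mem_bot.1 hmem
  refine ⟨u, (algebraMap F L).injective ?_⟩
  rw [map_pow, hu, hα]

/-- **the `n`-sheet gluing theorem.** -/
theorem sheet_pow_of_model
    (t : K) (ht : Transcendental K₁ t) (hK : IntermediateField.adjoin K₁ {t} = ⊤)
    (π : R) (hπ : Irreducible π) {m : ℕ} (hm : 0 < m) (hmR : IsUnit (m : R)) (ζ : R)
    (hζ : IsPrimitiveRoot ζ m)
    (hM4 : ∀ x : F, IsAlgebraic K₁ x → x ∈ Set.range (algebraMap K₁ F))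
    (lc : Fˣ →* K₁ˣ) (hlc : ∀ c : K₁ˣ, lc (Units.map (algebraMap K₁ F).toMonoidHom c) = c)
    (fam : IsSheetFamily π t W)
    (G : F) (lam : ι → F) (hlam : ∀ i, lam i ≠ 0)
    (hGW : ∀ i, (W i).valuation (G / lam i ^ m - 1) < 1) (hG : G ≠ 0)
    (hd₁ : ∀ (𝔫 : Ideal ↥(chartOne R F t)) (h𝔫 : 𝔫.IsMaximal),
      algebraMap R ↥(chartOne R F t) π ∈ 𝔫 →
      @SheetDatumAt R _ F _ _ (chartOne R F t) ι (fun i => sheetIdeal t (W i) (fam.chart_le i))
        𝔫 h𝔫.isPrime W m G lam)
    (hd₂ : ∀ (𝔫 : Ideal ↥(chartOne R F t⁻¹)) (h𝔫 : 𝔫.IsMaximal),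
      algebraMap R ↥(chartOne R F t⁻¹) π ∈ 𝔫 →
      @SheetDatumAt R _ F _ _ (chartOne R F t⁻¹) ι
        (fun i => sheetIdeal t⁻¹ (W i) ((fam.inv hπ).chart_le i)) 𝔫 h𝔫.isPrime W m G lam)
    (hlc1 : ∀ u : Fˣ, (u : F) = G → lc u = 1) :
    ∃ u : F, G = u ^ m := by
  haveI : IsScalarTower R K (X ^ m - C G : F[X]).SplittingField :=
    IsScalarTower.of_algebraMap_eq fun r => by
      rw [IsScalarTower.algebraMap_apply R F (X ^ m - C G : F[X]).SplittingField,
        IsScalarTower.algebraMap_apply R K F,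
        ← IsScalarTower.algebraMap_apply K F (X ^ m - C G : F[X]).SplittingField]
  haveI : IsScalarTower K₁ K (X ^ m - C G : F[X]).SplittingField :=
    IsScalarTower.of_algebraMap_eq fun r => by
      rw [IsScalarTower.algebraMap_apply K₁ F (X ^ m - C G : F[X]).SplittingField,
        IsScalarTower.algebraMap_apply K₁ K F,
        ← IsScalarTower.algebraMap_apply K F (X ^ m - C G : F[X]).SplittingField]
  haveI : FiniteDimensional K (X ^ m - C G : F[X]).SplittingField :=
    Module.Finite.trans F _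
  exact sheet_final_aux (L := (X ^ m - C G : F[X]).SplittingField) t ht hK π hπ hm hmR ζ hζ
    hM4 lc hlc fam G lam hlam hGW hG hd₁ hd₂ hlc1

end Final

end Fermat.Agent.S36
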