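/-
S36 [CUSPORD2] (D-key), part 3 — helper8 — the archimedean hypothesis `harch` of
`cuspord2_host` / `cusps36_val_geom_sum_lt_one` for NOETHERIAN valuation subrings (in particular
discrete valuation rings: the localisations of the chart at the horizontal height-one primes).
-/
import Mathlib

set_option autoImplicit false
set_option linter.unusedSectionVars false
set_option linter.style.haveILetI false

namespace Fermat.Agent.S36

/-- **`harch`**: a Noetherian valuation subring is archimedean: an element whose valuation is
bounded by all powers of the valuation of a non-unit vanishes (Krull intersection). -/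
theorem harch_of_isNoetherianRing {E : Type*} [Field E] (V : ValuationSubring E)
    [IsNoetherianRing ↥V] :
    ∀ m t : E, V.valuation t < 1 → (∀ N : ℕ, V.valuation m ≤ V.valuation t ^ N) → m = 0 := by
  intro m t ht hm
  by_cases ht0 : t = 0
  · have h1 := hm 1
    rw [ht0, map_zero, pow_one] at h1
    exact (Valuation.zero_iff _).mp (le_antisymm h1 zero_le)
  have htV : t ∈ V := (V.valuation_le_one_iff t).mp ht.le
  have hmV : m ∈ V := by
    rw [← V.valuation_le_one_iff]
    have := hm 0
    rwa [pow_zero] at this
  set t' : ↥V := ⟨t, htV⟩ with ht'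
  set m' : ↥V := ⟨m, hmV⟩ with hm'
  have htmax : t' ∈ IsLocalRing.maximalIdeal ↥V := by
    rw [V.valuation_lt_one_iff]
    exact ht
  have hmem : ∀ N : ℕ, m' ∈ (IsLocalRing.maximalIdeal ↥V) ^ N := by
    intro N
    have h1 : m * (t ^ N)⁻¹ ∈ V := by
      rw [← V.valuation_le_one_iff, map_mul, map_inv₀, map_pow]
      have hpos : 0 < V.valuation t ^ N := by
        apply pow_pos
        rw [Valuation.pos_iff]
        exact ht0
      rw [mul_inv_le_iff₀ hpos, one_mul]
      exact hm N
    have e : m' = t' ^ N * ⟨m * (t ^ N)⁻¹, h1⟩ := by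
      apply Subtype.ext
      show m = t ^ N * (m * (t ^ N)⁻¹)
      field_simp
    rw [e]
    exact Ideal.mul_mem_right _ _ (Ideal.pow_mem_pow htmax N)
  have hbot : m' ∈ (⨅ N : ℕ, (IsLocalRing.maximalIdeal ↥V) ^ N) := by
    rw [Ideal.mem_iInf]
    exact hmem
  rw [Ideal.iInf_pow_eq_bot_of_isLocalRing _ Ideal.IsPrime.ne_top', Ideal.mem_bot] at hbot
  have := congrArg (Subtype.val) hbot
  exact this

/-- `harch` for discrete valuation rings. -/
theorem harch_of_isDiscreteValuationRing {E : Type*} [Field E] (V : ValuationSubring E)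
    [IsDiscreteValuationRing ↥V] :
    ∀ m t : E, V.valuation t < 1 → (∀ N : ℕ, V.valuation m ≤ V.valuation t ^ N) → m = 0 :=
  harch_of_isNoetherianRing V

end Fermat.Agent.S36
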