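/-
S36 [CUSPPT] — helper1 — part 5: **no crossing at the cusps of level `M q²`, from the interfaces.**

Level `(M, M q)`: an `SSModel` (`A₁ B₁ : E₀ → E₁`, sheets `Vinf`, `V0` of `E₁`); level `M q²`: helper7's
`IsThreeSheet A B q Vinf V0 W20 W11 W02 ϖ δ` (`A B : E₁ → E₂`) and the sheet family of the chart
`j⁻¹` of `E₂`.  The hypotheses of `not_crossing_of_cusp_three` (Kronecker congruences on the three
sheets, cusp orders at the horizontal valuations) are pulled back from level `M q` along `A` and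
`B`:

* `IsThreeSheet.not_crossing_of_cusp` : at a point of the chart `j⁻¹` of `E₂` where `j⁻¹` vanishes
  no two of the three sheets meet;
* `IsThreeSheet.eq_of_le_of_cusp` : the `honly` form (`∀ l, 𝔭 l ≤ 𝔪 → l = l₀`).
-/
import Mathlib
import Fermat.Agent.S36.CUSPPT_helper1_NoCross
import Fermat.Agent.S36.HOST36_helper7_Iface
import Fermat.Agent.SS.EXPORT_helper4_Model

set_option autoImplicit false
set_option linter.unusedSectionVars false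
set_option linter.style.haveILetI false

namespace Fermat.Agent.S36

open Fermat.Agent.JA Fermat.Agent.SS Polynomial

section Three

variable {R : Type*} [CommRing R] [IsDomain R] [IsDiscreteValuationRing R] [CharZero R]
  {K₁ : Type*} [Field K₁] [Algebra R K₁] [IsFractionRing R K₁]
  {KM : Type*} [Field KM] [Algebra K₁ KM] [Algebra R KM] [IsScalarTower R K₁ KM]
  {E₀ : Type*} [Field E₀] [Algebra KM E₀] [Algebra K₁ E₀] [IsScalarTower K₁ KM E₀] [Algebra R E₀]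
  [IsScalarTower R KM E₀]
  {KN : Type*} [Field KN] [Algebra K₁ KN] [Algebra R KN] [IsScalarTower R K₁ KN]
  {E₁ : Type*} [Field E₁] [Algebra KN E₁] [Algebra K₁ E₁] [IsScalarTower K₁ KN E₁] [Algebra R E₁]
  [IsScalarTower R KN E₁] [FiniteDimensional KN E₁]
  {E₂ : Type*} [Field E₂] [Algebra KN E₂] [Algebra R E₂] [IsScalarTower R KN E₂]
  [FiniteDimensional KN E₂]
  {π : R} {q n : ℕ} {S : Finset R} {t : KM} {jM : E₀} {j : KN} {A₁ B₁ : E₀ →+* E₁}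
  {VM : ValuationSubring E₀} {Vinf V0 : ValuationSubring E₁}
  {A B : E₁ →+* E₂} {W20 W11 W02 : ValuationSubring E₂} {ϖ δ : E₂}

/-- **no crossing at the cusps of level `M q²`.** -/
theorem IsThreeSheet.not_crossing_of_cusp (h3 : IsThreeSheet A B q Vinf V0 W20 W11 W02 ϖ δ)
    (h : SSModel K₁ π q n S t jM j A₁ B₁ VM Vinf V0) (hπ : Irreducible π)
    (hA : ∀ k : KN, A (algebraMap KN E₁ k) = algebraMap KN E₂ k)
    (hBR : ∀ r : R, B (algebraMap R E₁ r) = algebraMap R E₂ r)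
    (hcomm : B (A₁ jM) = A (B₁ jM))
    (fam : IsSheetFamily π j⁻¹ (IsThreeSheet.fam W20 W11 W02))
    (𝔪 : Ideal ↥(chartOne R E₂ j⁻¹)) [h𝔪 : 𝔪.IsPrime]
    (hx : (⟨algebraMap KN E₂ j⁻¹, algebraMap_coord_mem_chartOne j⁻¹⟩ :
      ↥(chartOne R E₂ j⁻¹)) ∈ 𝔪) :
    (sheetIdeal j⁻¹ (IsThreeSheet.fam W20 W11 W02 0) (fam.chart_le 0) ≤ 𝔪 →
      sheetIdeal j⁻¹ (IsThreeSheet.fam W20 W11 W02 2) (fam.chart_le 2) ≤ 𝔪 → False) ∧
    (sheetIdeal j⁻¹ (IsThreeSheet.fam W20 W11 W02 1) (fam.chart_le 1) ≤ 𝔪 →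
      sheetIdeal j⁻¹ (IsThreeSheet.fam W20 W11 W02 2) (fam.chart_le 2) ≤ 𝔪 → False) ∧
    (sheetIdeal j⁻¹ (IsThreeSheet.fam W20 W11 W02 0) (fam.chart_le 0) ≤ 𝔪 →
      sheetIdeal j⁻¹ (IsThreeSheet.fam W20 W11 W02 1) (fam.chart_le 1) ≤ 𝔪 → False) := by
  have hq : 2 ≤ q := h.q_prime.two_le
  have hAR : ∀ r : R, A (algebraMap R E₁ r) = algebraMap R E₂ r := by
    intro r
    rw [IsScalarTower.algebraMap_apply R KN E₁, hA, ← IsScalarTower.algebraMap_apply R KN E₂]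
  have h2 : IsTwoSheet π j⁻¹ Vinf V0 := h.two.inv hπ
  -- the three `j`'s
  have hJ0 : A (A₁ jM) = algebraMap KN E₂ j := by rw [h.A_j, hA]
  set J1 : E₂ := A (B₁ jM) with hJ1
  set J2 : E₂ := B (B₁ jM) with hJ2
  -- `jM⁻¹ ∈ VM`
  have hjMi : jM⁻¹ ∈ VM := by
    rw [← h.comap_A_inf]
    show A₁ jM⁻¹ ∈ Vinf
    rw [map_inv₀, h.A_j, ← map_inv₀]
    exact h2.chart_le_inf _ (algebraMap_coord_mem_chartOne j⁻¹)
  have hBi_inf : (B₁ jM)⁻¹ ∈ Vinf := by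
    rw [← map_inv₀]
    exact (comap_mem_iff B₁ h.comap_B_inf _).mpr hjMi
  have hBi_zero : (B₁ jM)⁻¹ ∈ V0 := by
    rw [← map_inv₀]
    exact (comap_mem_iff B₁ h.comap_B_zero _).mpr hjMi
  -- memberships
  have hJ1W : ∀ i, J1 ∈ IsThreeSheet.fam W20 W11 W02 i := by
    intro i
    fin_cases i
    · exact (comap_mem_iff A h3.comap_A_20 _).mpr h.jq_mem_inf
    · exact (comap_mem_iff A h3.comap_A_11 _).mpr h.jq_mem_inf
    · exact (comap_mem_iff A h3.comap_A_02 _).mpr h.jq_mem_zero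
  have hJ1iW : ∀ i, J1⁻¹ ∈ IsThreeSheet.fam W20 W11 W02 i := by
    intro i
    rw [hJ1, ← map_inv₀]
    fin_cases i
    · exact (comap_mem_iff A h3.comap_A_20 _).mpr hBi_inf
    · exact (comap_mem_iff A h3.comap_A_11 _).mpr hBi_inf
    · exact (comap_mem_iff A h3.comap_A_02 _).mpr hBi_zero
  have hJ2W : ∀ i, J2 ∈ IsThreeSheet.fam W20 W11 W02 i := by
    intro i
    fin_cases i
    · exact (comap_mem_iff B h3.comap_B_20 _).mpr h.jq_mem_inf
    · exact (comap_mem_iff B h3.comap_B_11 _).mpr h.jq_mem_zero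
    · exact (comap_mem_iff B h3.comap_B_02 _).mpr h.jq_mem_zero
  -- horizontal valuations
  have hcR : ∀ (C : E₁ →+* E₂) (_ : ∀ r : R, C (algebraMap R E₁ r) = algebraMap R E₂ r)
      (V : ValuationSubring E₂), (∀ r : R, algebraMap R E₂ r ∈ V) →
      (algebraMap R E₂ π)⁻¹ ∈ V →
      (∀ r : R, algebraMap R E₁ r ∈ V.comap C) ∧ (algebraMap R E₁ π)⁻¹ ∈ V.comap C := by
    intro C hC V hR hπV
    refine ⟨fun r => ?_, ?_⟩
    · show C (algebraMap R E₁ r) ∈ V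
      rw [hC]; exact hR r
    · show C (algebraMap R E₁ π)⁻¹ ∈ V
      rw [map_inv₀, hC]; exact hπV
  have c1 : ∀ V : ValuationSubring E₂, (∀ r : R, algebraMap R E₂ r ∈ V) →
      (algebraMap R E₂ π)⁻¹ ∈ V → algebraMap KN E₂ j ∉ V →
      J1 * (algebraMap KN E₂ j ^ q)⁻¹ ∈ V := by
    intro V hR hπV hjV
    obtain ⟨hR', hπ'⟩ := hcR A hAR V hR hπV
    have h1 := (h.cuspord (V.comap A) hR' hπ' (fun hm => hjV (hJ0 ▸ hm))).1
    have h2' : A (B₁ jM * (A₁ jM ^ q)⁻¹) ∈ V := h1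
    rwa [map_mul, map_inv₀, map_pow, hJ0] at h2'
  have c1' : ∀ V : ValuationSubring E₂, (∀ r : R, algebraMap R E₂ r ∈ V) →
      (algebraMap R E₂ π)⁻¹ ∈ V → J1 ∉ V → algebraMap KN E₂ j ∉ V := by
    intro V hR hπV hJ1V
    obtain ⟨hR', hπ'⟩ := hcR A hAR V hR hπV
    have h1 := h.cuspord' (V.comap A) hR' hπ' (fun hm => hJ1V hm)
    intro hm
    apply h1
    show A (A₁ jM) ∈ V
    rw [hJ0]; exact hm
  have c2 : ∀ V : ValuationSubring E₂, (∀ r : R, algebraMap R E₂ r ∈ V) →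
      (algebraMap R E₂ π)⁻¹ ∈ V → J1 ∉ V → J2 * (J1 ^ q)⁻¹ ∈ V := by
    intro V hR hπV hJ1V
    obtain ⟨hR', hπ'⟩ := hcR B hBR V hR hπV
    have h1 := (h.cuspord (V.comap B) hR' hπ' (fun hm => hJ1V (by
      have : B (A₁ jM) ∈ V := hm
      rwa [hcomm] at this))).1
    have h2' : B (B₁ jM * (A₁ jM ^ q)⁻¹) ∈ V := h1
    rwa [map_mul, map_inv₀, map_pow, hcomm] at h2'
  have c2' : ∀ V : ValuationSubring E₂, (∀ r : R, algebraMap R E₂ r ∈ V) →
      (algebraMap R E₂ π)⁻¹ ∈ V → J2 ∉ V → J1 ∉ V := by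
    intro V hR hπV hJ2V
    obtain ⟨hR', hπ'⟩ := hcR B hBR V hR hπV
    have h1 := h.cuspord' (V.comap B) hR' hπ' (fun hm => hJ2V hm)
    intro hm
    apply h1
    show B (A₁ jM) ∈ V
    rw [hcomm]; exact hm
  -- Kronecker
  have ka1 : (IsThreeSheet.fam W20 W11 W02 0).valuation (J1 - algebraMap KN E₂ j ^ q) < 1 := by
    have e : J1 - algebraMap KN E₂ j ^ q = A (B₁ jM - A₁ jM ^ q) := by
      rw [map_sub, map_pow, hJ0]
    rw [e]
    exact (comap_val_lt_one_iff A h3.comap_A_20 _).mpr h.kron_j_inf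
  have ka2 : (IsThreeSheet.fam W20 W11 W02 0).valuation (J2 - J1 ^ q) < 1 := by
    have e : J2 - J1 ^ q = B (B₁ jM - A₁ jM ^ q) := by
      rw [map_sub, map_pow, hcomm]
    rw [e]
    exact (comap_val_lt_one_iff B h3.comap_B_20 _).mpr h.kron_j_inf
  have kb1 : (IsThreeSheet.fam W20 W11 W02 1).valuation (J1 - algebraMap KN E₂ j ^ q) < 1 := by
    have e : J1 - algebraMap KN E₂ j ^ q = A (B₁ jM - A₁ jM ^ q) := by
      rw [map_sub, map_pow, hJ0]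
    rw [e]
    exact (comap_val_lt_one_iff A h3.comap_A_11 _).mpr h.kron_j_inf
  have kb2 : (IsThreeSheet.fam W20 W11 W02 1).valuation (J1 - J2 ^ q) < 1 := by
    have e : J1 - J2 ^ q = B (A₁ jM - B₁ jM ^ q) := by
      rw [map_sub, map_pow, hcomm]
    rw [e]
    exact (comap_val_lt_one_iff B h3.comap_B_11 _).mpr h.kron_j_zero
  have kc1 : (IsThreeSheet.fam W20 W11 W02 2).valuation (algebraMap KN E₂ j - J1 ^ q) < 1 := by
    have e : algebraMap KN E₂ j - J1 ^ q = A (A₁ jM - B₁ jM ^ q) := by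
      rw [map_sub, map_pow, hJ0]
    rw [e]
    exact (comap_val_lt_one_iff A h3.comap_A_02 _).mpr h.kron_j_zero
  exact not_crossing_of_cusp_three fam hπ h.j_transcendental h.j_adjoin hq J1 J2 hJ1W hJ1iW hJ2W
    c1 c1' c2 c2' 0 1 2 ka1 ka2 kb1 kb2 kc1 𝔪 hx

/-- **only one sheet through a cusp** (`honly` form). -/
theorem IsThreeSheet.eq_of_le_of_cusp (h3 : IsThreeSheet A B q Vinf V0 W20 W11 W02 ϖ δ)
    (h : SSModel K₁ π q n S t jM j A₁ B₁ VM Vinf V0) (hπ : Irreducible π)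
    (hA : ∀ k : KN, A (algebraMap KN E₁ k) = algebraMap KN E₂ k)
    (hBR : ∀ r : R, B (algebraMap R E₁ r) = algebraMap R E₂ r)
    (hcomm : B (A₁ jM) = A (B₁ jM))
    (fam : IsSheetFamily π j⁻¹ (IsThreeSheet.fam W20 W11 W02))
    (𝔪 : Ideal ↥(chartOne R E₂ j⁻¹)) [h𝔪 : 𝔪.IsPrime]
    (hx : (⟨algebraMap KN E₂ j⁻¹, algebraMap_coord_mem_chartOne j⁻¹⟩ :
      ↥(chartOne R E₂ j⁻¹)) ∈ 𝔪) (l₀ : Fin 3)
    (hl₀ : sheetIdeal j⁻¹ (IsThreeSheet.fam W20 W11 W02 l₀) (fam.chart_le l₀) ≤ 𝔪) (l : Fin 3)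
    (hl : sheetIdeal j⁻¹ (IsThreeSheet.fam W20 W11 W02 l) (fam.chart_le l) ≤ 𝔪) : l = l₀ := by
  obtain ⟨h02, h12, h01⟩ := h3.not_crossing_of_cusp h hπ hA hBR hcomm fam 𝔪 hx
  fin_cases l <;> fin_cases l₀
  · rfl
  · exact (h01 hl hl₀).elim
  · exact (h02 hl hl₀).elim
  · exact (h01 hl₀ hl).elim
  · rfl
  · exact (h12 hl hl₀).elim
  · exact (h02 hl₀ hl).elim
  · exact (h12 hl₀ hl).elim
  · rfl

end Three

end Fermat.Agent.S36
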