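/-
S36 — helper9 — **discreteness and uniformizers of the sheets which are pull-backs of Gauss
valuations** (what ROOTS36 consumes for the F-level sheets).

Generic (`disc36_exists_zpow`, `disc36_mul_inv_mem`): `V = (gaussValSub R L E hE).comap f` for a
ring homomorphism `f : F →+* ↥E` (`E ≤ gaussField R L`), `c : F` with `f c = ϖ · u₀`, `u₀` a Gauss
unit: every `g ≠ 0` has `V.valuation (g * c ^ n) = 1` for some `n : ℤ`, and
`V.valuation y < 1 → y * c⁻¹ ∈ V`.

Concrete: `keyFqWinf R K N` (`c = π`), `keyFqW0 R K ι h hq` (`c = π`), `keyFqW02 R K h hq`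
(`c = π`), `keyFqW11 …` (any `c` whose middle expansion is the uniformizer of `R'` times a Gauss
unit).
-/
import Mathlib
import Fermat.Agent.S36.MODEL36_helper6_Sheets
import Fermat.Agent.S35.NTWO_helper8_Abs

set_option autoImplicit false
set_option linter.unusedSectionVars false
set_option linter.style.haveILetI false
set_option synthInstance.maxHeartbeats 200000

open ModularCurve Fermat.Agent.Igusa Fermat.Agent.JA Fermat.Agent.SS Fermat.Agent.X0N
open Fermat.Agent.S35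

namespace Fermat.Agent.S36

noncomputable section

section Generic

variable {R : Type*} [CommRing R] [IsDomain R] [IsDiscreteValuationRing R]
  {L : Type*} [Field L] [Algebra R L] [IsFractionRing R L]
  (E : IntermediateField L (LaurentSeries L)) (hE : E ≤ gaussField R L)
  {F : Type*} [Field F] (f : F →+* ↥E)

/-- valuation one = unit of the valuation subring. -/
theorem disc36_val_eq_one_iff {E' : Type*} [Field E'] (V : ValuationSubring E') (y : E') :
    V.valuation y = 1 ↔ (y ∈ V ∧ y⁻¹ ∈ V ∧ y ≠ 0) := by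
  constructor
  · intro h
    have hy0 : y ≠ 0 := by
      rintro rfl
      simp at h
    refine ⟨(V.valuation_le_one_iff y).1 h.le, ?_, hy0⟩
    rw [← V.valuation_le_one_iff, map_inv₀, h, inv_one]
  · rintro ⟨h1, h2, h0⟩
    rw [← V.valuation_le_one_iff] at h1 h2
    rw [map_inv₀] at h2
    have hv0 : V.valuation y ≠ 0 := (Valuation.ne_zero_iff _).2 h0
    exact le_antisymm h1 ((inv_le_one₀ (zero_lt_iff.2 hv0)).1 h2)

/-- integral powers of a Gauss unit are Gauss-integral. -/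
theorem disc36_zpow_mem_gaussInt {u₀ : LaurentSeries L} (hu₀ : u₀ ∈ gaussInt R L)
    (hu₀' : u₀⁻¹ ∈ gaussInt R L) (k : ℤ) : u₀ ^ k ∈ gaussInt R L := by
  rcases Int.eq_nat_or_neg k with ⟨n, rfl | rfl⟩
  · rw [zpow_natCast]
    exact pow_mem hu₀ n
  · rw [zpow_neg, zpow_natCast, ← inv_pow]
    exact pow_mem hu₀' n

/-- coercion of an integral power in an intermediate field. -/
theorem disc36_coe_zpow (a : ↥E) (k : ℤ) :
    ((a ^ k : ↥E) : LaurentSeries L) = (a : LaurentSeries L) ^ k :=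
  map_zpow₀ E.val a k

/-- **discreteness of a sheet which is the pull-back of a Gauss valuation**: if `c` maps to the
uniformizer times a Gauss unit, every nonzero `g` is `c ^ n · unit`. -/
theorem disc36_exists_zpow {ϖ : R} (hϖ : Irreducible ϖ) (c : F) (u₀ : LaurentSeries L)
    (hu₀ : u₀ ∈ gaussInt R L) (hu₀' : u₀⁻¹ ∈ gaussInt R L) (hu₀0 : u₀ ≠ 0)
    (hc : ((f c : ↥E) : LaurentSeries L) = HahnSeries.C (algebraMap R L ϖ) * u₀)
    (g : F) (hg : g ≠ 0) :
    ∃ n : ℤ, ((gaussValSub R L E hE).comap f).valuation (g * c ^ n) = 1 := by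
  have hC := C_algebraMap_ne_zero (L := L) hϖ.ne_zero
  have hfg : ((f g : ↥E) : LaurentSeries L) ≠ 0 := by
    intro h0
    exact hg ((map_eq_zero f).1 (Subtype.ext h0))
  obtain ⟨n, u, hu, hu', hfu⟩ := exists_zpow_mul_unit hϖ (hE (f g).2) hfg
  have hu0 : u ≠ 0 := by
    rintro rfl
    rw [mul_zero] at hfu
    exact hfg hfu
  have hcoe : ((f (g * c ^ (-n)) : ↥E) : LaurentSeries L) = u * u₀ ^ (-n) := by
    rw [map_mul, map_zpow₀, IntermediateField.coe_mul, disc36_coe_zpow, hc, hfu, mul_zpow]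
    have h1 : (HahnSeries.C (algebraMap R L ϖ) : LaurentSeries L) ^ n ≠ 0 := zpow_ne_zero n hC
    rw [zpow_neg, zpow_neg]
    field_simp
  have hne : u * u₀ ^ (-n) ≠ 0 := mul_ne_zero hu0 (zpow_ne_zero _ hu₀0)
  refine ⟨-n, (disc36_val_eq_one_iff _ _).2 ⟨?_, ?_, ?_⟩⟩
  · rw [ValuationSubring.mem_comap, mem_gaussValSub_iff, hcoe]
    exact mul_mem hu (disc36_zpow_mem_gaussInt hu₀ hu₀' _)
  · rw [ValuationSubring.mem_comap, mem_gaussValSub_iff, map_inv₀, IntermediateField.coe_inv,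
      hcoe, mul_inv, ← zpow_neg]
    exact mul_mem hu' (disc36_zpow_mem_gaussInt hu₀ hu₀' _)
  · intro h0
    apply hne
    rw [← hcoe, h0, map_zero]
    rfl

/-- **uniformizer of a sheet which is the pull-back of a Gauss valuation**. -/
theorem disc36_mul_inv_mem {ϖ : R} (hϖ : Irreducible ϖ) (c : F) (u₀ : LaurentSeries L)
    (hu₀' : u₀⁻¹ ∈ gaussInt R L) (hu₀0 : u₀ ≠ 0)
    (hc : ((f c : ↥E) : LaurentSeries L) = HahnSeries.C (algebraMap R L ϖ) * u₀)
    (y : F) (hy : ((gaussValSub R L E hE).comap f).valuation y < 1) :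
    y * c⁻¹ ∈ (gaussValSub R L E hE).comap f := by
  have hC := C_algebraMap_ne_zero (L := L) hϖ.ne_zero
  have hy' : (gaussValSub R L E hE).valuation (f y) < 1 :=
    (ntwo_comap_lt_one (ι := f) (W := gaussValSub R L E hE) rfl y).2 hy
  obtain ⟨hmem, hred⟩ := (gaussValSub_valuation_lt_one_iff E hE (f y)).1 hy'
  obtain ⟨z, hz⟩ := (gaussRed_eq_zero_iff hϖ _).1 hred
  have hz' : ((f y : ↥E) : LaurentSeries L) =
      HahnSeries.C (algebraMap R L ϖ) * (z : LaurentSeries L) := hz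
  rw [ValuationSubring.mem_comap, mem_gaussValSub_iff, map_mul, map_inv₀,
    IntermediateField.coe_mul, IntermediateField.coe_inv, hc, hz']
  have e : (HahnSeries.C (algebraMap R L ϖ) : LaurentSeries L) * (z : LaurentSeries L) *
      (HahnSeries.C (algebraMap R L ϖ) * u₀)⁻¹ = (z : LaurentSeries L) * u₀⁻¹ := by
    field_simp
  rw [e]
  exact mul_mem z.2 hu₀'

end Generic

section Concrete

variable (R : Type*) [CommRing R] [IsDomain R] [IsDiscreteValuationRing R]
  (K : Type*) [Field K] [Algebra R K] [IsFractionRing R K] [Algebra ℚ K]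

theorem disc36_coe_algebraMap (N : ℕ) [NeZero N] (r : R) :
    ((algebraMap R ↥(keyFq K N) r : ↥(keyFq K N)) : LaurentSeries K) =
      HahnSeries.C (algebraMap R K r) * 1 := by
  rw [IsScalarTower.algebraMap_apply R K ↥(keyFq K N), IntermediateField.coe_algebraMap_apply,
    algebraMap_laurentSeries_eq_single, mul_one]
  rfl

theorem disc36_one_mem : (1 : LaurentSeries K) ∈ gaussInt R K := (gaussInt R K).one_mem

theorem disc36_inv_one_mem : (1 : LaurentSeries K)⁻¹ ∈ gaussInt R K := by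
  rw [inv_one]
  exact (gaussInt R K).one_mem

/-- discreteness of the Gauss sheet of `F_N`. -/
theorem keyFqWinf_exists_zpow {ϖ : R} (hϖ : Irreducible ϖ) (N : ℕ) [NeZero N]
    (g : ↥(keyFq K N)) (hg : g ≠ 0) :
    ∃ n : ℤ, (keyFqWinf R K N).valuation (g * algebraMap R ↥(keyFq K N) ϖ ^ n) = 1 := by
  have hid : (gaussValSub R K (keyFq K N) (laurentBaseChange_full_le_gaussField R K N)).comap
      (RingHom.id ↥(keyFq K N)) = keyFqWinf R K N := by
    ext z
    rfl
  rw [← hid]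
  exact disc36_exists_zpow (keyFq K N) _ (RingHom.id _) hϖ _ 1 (disc36_one_mem R K)
    (disc36_inv_one_mem R K) one_ne_zero (disc36_coe_algebraMap R K N ϖ) g hg

/-- `π` is a uniformizer of the Gauss sheet of `F_N`. -/
theorem keyFqWinf_mul_inv_mem {ϖ : R} (hϖ : Irreducible ϖ) (N : ℕ) [NeZero N]
    (y : ↥(keyFq K N)) (hy : (keyFqWinf R K N).valuation y < 1) :
    y * (algebraMap R ↥(keyFq K N) ϖ)⁻¹ ∈ keyFqWinf R K N := by
  have hid : (gaussValSub R K (keyFq K N) (laurentBaseChange_full_le_gaussField R K N)).comap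
      (RingHom.id ↥(keyFq K N)) = keyFqWinf R K N := by
    ext z
    rfl
  rw [← hid] at hy ⊢
  exact disc36_mul_inv_mem (keyFq K N) _ (RingHom.id _) hϖ _ 1
    (disc36_inv_one_mem R K) one_ne_zero (disc36_coe_algebraMap R K N ϖ) y hy

variable (ι : K →+* ℂ) {M q : ℕ} [NeZero M] [NeZero q] [NeZero (M * q)] {x y : ℤ}
  (h : (q : ℤ) * x + M * y = 1) (hq : q.Prime)

theorem disc36_atkinLehnerN_algebraMap (r : R) :
    ((atkinLehnerN ι h hq (algebraMap R ↥(keyFq K (M * q)) r) : ↥(keyFq K (M * q))) :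
      LaurentSeries K) = HahnSeries.C (algebraMap R K r) * 1 := by
  rw [IsScalarTower.algebraMap_apply R K ↥(keyFq K (M * q)), atkinLehnerN_algebraMap,
    ← IsScalarTower.algebraMap_apply R K ↥(keyFq K (M * q)), disc36_coe_algebraMap]

/-- discreteness of the sheet `W_0` of `F_{M q}`. -/
theorem keyFqW0_exists_zpow {ϖ : R} (hϖ : Irreducible ϖ)
    (g : ↥(keyFq K (M * q))) (hg : g ≠ 0) :
    ∃ n : ℤ, (keyFqW0 R K ι h hq).valuation
      (g * algebraMap R ↥(keyFq K (M * q)) ϖ ^ n) = 1 :=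
  disc36_exists_zpow (keyFq K (M * q)) _ (atkinLehnerN ι h hq) hϖ _ 1 (disc36_one_mem R K)
    (disc36_inv_one_mem R K) one_ne_zero (disc36_atkinLehnerN_algebraMap R K ι h hq ϖ) g hg

/-- `π` is a uniformizer of the sheet `W_0` of `F_{M q}`. -/
theorem keyFqW0_mul_inv_mem {ϖ : R} (hϖ : Irreducible ϖ)
    (y : ↥(keyFq K (M * q))) (hy : (keyFqW0 R K ι h hq).valuation y < 1) :
    y * (algebraMap R ↥(keyFq K (M * q)) ϖ)⁻¹ ∈ keyFqW0 R K ι h hq :=
  disc36_mul_inv_mem (keyFq K (M * q)) _ (atkinLehnerN ι h hq) hϖ _ 1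
    (disc36_inv_one_mem R K) one_ne_zero (disc36_atkinLehnerN_algebraMap R K ι h hq ϖ) y hy

end Concrete

section Concrete2

variable (R : Type*) [CommRing R] [IsDomain R] [IsDiscreteValuationRing R]
  (K : Type*) [Field K] [Algebra R K] [IsFractionRing R K] [Algebra ℚ K] [Algebra K ℂ]
  {M q : ℕ} [NeZero M] [NeZero q] [NeZero (M * q)] [NeZero (M * q * q)] {x y : ℤ}
  (h : (q : ℤ) * x + M * y = 1) (hq : q.Prime)

theorem disc36_keyFqAL2_algebraMap (r : R) :
    ((keyFqAL2 K h hq (algebraMap R ↥(keyFq K (M * q * q)) r) : ↥(keyFq K (M * q * q))) :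
      LaurentSeries K) = HahnSeries.C (algebraMap R K r) * 1 := by
  rw [IsScalarTower.algebraMap_apply R K ↥(keyFq K (M * q * q)), keyFqAL2_algebraMap,
    ← IsScalarTower.algebraMap_apply R K ↥(keyFq K (M * q * q)), disc36_coe_algebraMap]

/-- discreteness of the sheet `W02` of `F_{M q²}`. -/
theorem keyFqW02_exists_zpow {ϖ : R} (hϖ : Irreducible ϖ)
    (g : ↥(keyFq K (M * q * q))) (hg : g ≠ 0) :
    ∃ n : ℤ, (keyFqW02 R K h hq).valuation
      (g * algebraMap R ↥(keyFq K (M * q * q)) ϖ ^ n) = 1 :=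
  disc36_exists_zpow (keyFq K (M * q * q)) _ (keyFqAL2 K h hq) hϖ _ 1 (disc36_one_mem R K)
    (disc36_inv_one_mem R K) one_ne_zero (disc36_keyFqAL2_algebraMap R K h hq ϖ) g hg

/-- `π` is a uniformizer of the sheet `W02` of `F_{M q²}`. -/
theorem keyFqW02_mul_inv_mem {ϖ : R} (hϖ : Irreducible ϖ)
    (y : ↥(keyFq K (M * q * q))) (hy : (keyFqW02 R K h hq).valuation y < 1) :
    y * (algebraMap R ↥(keyFq K (M * q * q)) ϖ)⁻¹ ∈ keyFqW02 R K h hq :=
  disc36_mul_inv_mem (keyFq K (M * q * q)) _ (keyFqAL2 K h hq) hϖ _ 1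
    (disc36_inv_one_mem R K) one_ne_zero (disc36_keyFqAL2_algebraMap R K h hq ϖ) y hy

end Concrete2

section Middle

variable (R : Type*) [CommRing R] [IsDomain R] [IsDiscreteValuationRing R]
  (K : Type*) [Field K] [Algebra R K] [IsFractionRing R K] [Algebra ℚ K] [Algebra K ℂ]
  {M q : ℕ} [NeZero M] [NeZero q] [NeZero (M * q)] [NeZero (M * q * q)] {x y : ℤ}
  (h : (q : ℤ) * x + M * y = 1) (hq : q.Prime)
  {R' : Type*} [CommRing R'] [IsDomain R'] [IsDiscreteValuationRing R']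
  {K' : Type*} [Field K'] [Algebra R' K'] [IsFractionRing R' K']
  (φ : R →+* R') [IsLocalHom φ] (κ : K →+* K')
  (hκ : ∀ r : R, κ (algebraMap R K r) = algebraMap R' K' (φ r))
  (ζ : R'ˣ) (hζq : ζ ^ q = 1) (hζ1 : ζ ≠ 1)

/-- discreteness of the middle sheet `W11` of `F_{M q²}`, with respect to any element `c` whose
middle expansion is the uniformizer of `R'` times a Gauss unit. -/
theorem keyFqW11_exists_zpow {ϖ' : R'} (hϖ' : Irreducible ϖ') (c : ↥(keyFq K (M * q * q)))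
    (u₀ : LaurentSeries K') (hu₀ : u₀ ∈ gaussInt R' K') (hu₀' : u₀⁻¹ ∈ gaussInt R' K')
    (hu₀0 : u₀ ≠ 0)
    (hc : midEmb K h hq κ ζ hζq hζ1 c = HahnSeries.C (algebraMap R' K' ϖ') * u₀)
    (g : ↥(keyFq K (M * q * q))) (hg : g ≠ 0) :
    ∃ n : ℤ, (keyFqW11 R K h hq φ κ hκ ζ hζq hζ1).valuation (g * c ^ n) = 1 :=
  disc36_exists_zpow (gaussField R' K') le_rfl (midEmbGauss R K h hq φ κ hκ ζ hζq hζ1) hϖ' c u₀
    hu₀ hu₀' hu₀0 hc g hg

/-- such a `c` is a uniformizer of the middle sheet. -/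
theorem keyFqW11_mul_inv_mem {ϖ' : R'} (hϖ' : Irreducible ϖ') (c : ↥(keyFq K (M * q * q)))
    (u₀ : LaurentSeries K') (hu₀' : u₀⁻¹ ∈ gaussInt R' K') (hu₀0 : u₀ ≠ 0)
    (hc : midEmb K h hq κ ζ hζq hζ1 c = HahnSeries.C (algebraMap R' K' ϖ') * u₀)
    (y : ↥(keyFq K (M * q * q)))
    (hy : (keyFqW11 R K h hq φ κ hκ ζ hζq hζ1).valuation y < 1) :
    y * c⁻¹ ∈ keyFqW11 R K h hq φ κ hκ ζ hζq hζ1 :=
  disc36_mul_inv_mem (gaussField R' K') le_rfl (midEmbGauss R K h hq φ κ hκ ζ hζq hζ1) hϖ' c u₀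
    hu₀' hu₀0 hc y hy

end Middle

end

end Fermat.Agent.S36
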