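/-
# S36 without the hypotheses `hlam2`, `hres` (helper4)

`s36_free` : the conclusion of the frozen S36 statement for EVERY newform `g` of level `M` and every
datum `(lam, S, O', chig, iota)` — no residual irreducibility / oddness hypothesis, no `lam ≠ 2`
(the frozen statement carries them, the proof never uses them).  For the consumers (S58).
-/
import Mathlib
import Fermat.Agent.S36.TOP_helper4_Main
import Fermat.Agent.S36.T3_helper2_Main
import Fermat.Agent.S36.BASE36_helper4_Final

set_option autoImplicit false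

open Polynomial
open CuspForm CuspForm.IsNewform

namespace Fermat.Agent.S36

/-- **S36, hypothesis-free form**: for a newform `g` of level `M` there is a `λ`-adic representation
with the Frobenius characteristic polynomials of `g` at the good primes outside `S` whose inertia at
every `q ≠ λ` with `q² ∥ M` is NOT unipotent. -/
theorem s36_free
    {M : ℕ} [NeZero M] {g : CuspForm (CongruenceSubgroup.Gamma0 M) 2} (hg : g.IsNewform)
    (lam : ℕ) [Fact lam.Prime]
    (S : Finset ℕ)
    (O' : Type) [CommRing O'] [IsDomain O'] [IsDiscreteValuationRing O']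
    [IsAdicComplete (IsLocalRing.maximalIdeal O') O'] [Finite (IsLocalRing.ResidueField O')]
    [CharZero O'] (hlamO' : (lam : O') ∈ IsLocalRing.maximalIdeal O')
    (chig : CuspForm.heckeAlgebra M 2 (↑S : Set ℕ) →+* ℂ)
    (hchig : ∀ (ℓ : ℕ) (hℓ : ℓ.Prime) (hℓM : ¬ ℓ ∣ M) (hℓS : ℓ ∉ (↑S : Set ℕ)),
      chig (CuspForm.heckeAlgebra.T hℓ hℓM hℓS) = ModularFormClass.qCoeff g ℓ)
    (iota : chig.range →+* O')
    (hlamS : lam ∈ S) (hMS : ∀ q : ℕ, q.Prime → q ∣ M → q ∈ S) :
    ∃ (O'' : Type) (_ : CommRing O'') (_ : IsDomain O'') (_ : IsDiscreteValuationRing O'')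
      (_ : IsAdicComplete (IsLocalRing.maximalIdeal O'') O'')
      (_ : Finite (IsLocalRing.ResidueField O''))
      (_ : CharZero O'') (_ : Algebra O' O'') (_ : Module.Finite O' O'')
      (_ : IsLocalHom (algebraMap O' O'')),
      Function.Injective (algebraMap O' O'') ∧
      ∃ ρ : GaloisRepAdic O'',
        (∀ (ℓ : ℕ) (hℓ : ℓ.Prime) (hℓM : ¬ ℓ ∣ M) (hℓS : ℓ ∉ (↑S : Set ℕ)),
          ∀ A : ValuationSubring (AlgebraicClosure ℚ), A.LiesOverPrime ℓ →
            ∀ σ : AlgebraicClosure ℚ ≃ₐ[ℚ] AlgebraicClosure ℚ, A.IsFrobeniusAt σ ℓ →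
              LinearMap.charpoly (ρ.ρ σ) =
                X ^ 2 - C (algebraMap O' O'' ((iota.comp chig.rangeRestrict)
                  (CuspForm.heckeAlgebra.T hℓ hℓM hℓS))) * X + C ((ℓ : O''))) ∧
        (∀ q : ℕ, q.Prime → q ≠ lam → M.factorization q = 2 → ¬ ρ.IsUnipotentOnInertiaAt q) :=
  s36_of_keyInert (keyInertStatement_of_bases legInertBase hesInertBase) hg lam S O' hlamO' chig
    hchig iota hlamS hMS

end Fermat.Agent.S36
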