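/-
S36 [GENERIC36] — helper7 — **the generic-base statement `LegGenericBase` from the two open local
inputs** (`LegPoints36` = the closed points `hpoints`, `LegCusp36` = the cusp divisibility `hcusp`
of helper4's `legInert_of_model`), with all the model data (`W11`, `W02`, `IsThreeSheet`,
`IsSheetFamily`, `Inst36Data`, host norms) produced inside from `exists_legE_model36`.
-/
import Mathlib
import Fermat.Agent.S36.BASE36_helper4_Hosts
import Fermat.Agent.S36.BASE36_helper4_Bases
import Fermat.Agent.S36.HOST36_helper7_DeltaInst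

set_option autoImplicit false
set_option linter.unusedSectionVars false
set_option linter.unusedVariables false
set_option linter.style.haveILetI false
set_option synthInstance.maxHeartbeats 200000

open Polynomial ModularCurve IntermediateField
open Fermat.Agent.Igusa Fermat.Agent.JA Fermat.Agent.SS Fermat.Agent.X0N
open Fermat.Agent.S35 AlgebraicCurve

open scoped Fermat.Agent.JA.Host

namespace Fermat.Agent.S36

noncomputable section

/-- **the closed points of the three-sheet model, Legendre**: the hypothesis `hpoints` of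
`legInert_of_model`, at every generic base, for every choice of the sheets `W11`, `W02`
extending helper6's `F`-level sheets, with all the model data as hypotheses. -/
def LegPoints36 : Prop :=
  ∀ (R : Type) [CommRing R] [IsDomain R] [IsDiscreteValuationRing R] [CharZero R] [DecidableEq R]
    (K : Type) [Field K] [Algebra R K] [IsFractionRing R K] [Algebra ℚ K] [Algebra K ℂ]
    [IsAlgClosed (IsLocalRing.ResidueField R)]
    (M q : ℕ) [NeZero M] [NeZero q] [NeZero (M * q)] [NeZero (M * q * q)] (x y : ℤ) (π : R)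
    (hπ : Irreducible π) (h2 : IsUnit (2 : R)) (h : (q : ℤ) * x + M * y = 1) (hq : q.Prime)
    (hq2 : q ≠ 2) (hqπ : (q : R) ∈ Ideal.span {π})
    (hgeo : GeoHyps K π (AdjoinSimple.gen K (legT K)) ↥(legE K M) M ({0, 1} : Finset R))
    (R' : Type) [CommRing R'] [IsDomain R'] [IsDiscreteValuationRing R']
    (K' : Type) [Field K'] [Algebra R' K'] [IsFractionRing R' K']
    (φ : R →+* R') [IsLocalHom φ] (κ : K →+* K')
    (hκ : ∀ r : R, κ (algebraMap R K r) = algebraMap R' K' (φ r))
    (ζ u : R'ˣ) (hζq : ζ ^ q = 1) (hζ1 : ζ ≠ 1) (hπζ : φ π = ((ζ : R') - 1) ^ (q - 1) * u)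
    (W11 W02 : ValuationSubring ↥(legE K (M * q * q)))
    (h11 : W11.comap (legIncl K (M * q * q)) =
      hostImageVal K 2 (keyFqW11 R K h hq φ κ hκ ζ hζq hζ1))
    (h02 : W02.comap (legIncl K (M * q * q)) = hostImageVal K 2 (keyFqW02 R K h hq))
    (hT : IsThreeSheet (legHostA K (M * q) q : ↥(legE K (M * q)) →+* ↥(legE K (M * q * q)))
      (legHostB K (M * q) q hq hq2 : ↥(legE K (M * q)) →+* ↥(legE K (M * q * q))) q
      (legWinf R K h2 (M * q)) (legW0 R K h hq) (legWinf R K h2 (M * q * q)) W11 W02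
      (algebraMap R ↥(legE K (M * q * q)) π) (legDelta K M q))
    (hfam : haveI : FiniteDimensional ↥K⟮jqNModC K 2⟯ ↥(legE K (M * q * q)) :=
        finite_legE_adjoin_j K (M * q * q)
      IsSheetFamily π (AdjoinSimple.gen K (jqNModC K 2))
        (IsThreeSheet.fam (legWinf R K h2 (M * q * q)) W11 W02))
    (NA NB : ↥(legE K (M * q * q)) →*₀ ↥(legE K (M * q)))
    (hNAdef : ∀ z, NA z = legNormA K (M * q) q z)
    (hNBdef : ∀ z, NB z = legNormB K (M * q) q hq hq2 z)
    (D : Inst36Data (legHostA K (M * q) q : ↥(legE K (M * q)) →+* ↥(legE K (M * q * q)))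
      (legHostB K (M * q) q hq hq2 : ↥(legE K (M * q)) →+* ↥(legE K (M * q * q))) NA NB
      (algebraMap R K π) q (legWinf R K h2 (M * q)) (legW0 R K h hq)
      (legWinf R K h2 (M * q * q)) W11 W02 (legDelta K M q)
      (legHostA K M q (legJE K M)) (legHostB K M q hq hq2 (legJE K M))
      (legHostA K (M * q) q (legHostA K M q (legJE K M)))
      (legHostB K (M * q) q hq hq2 (legHostB K M q hq hq2 (legJE K M))))
    (m : ℕ) (hm : 0 < m) (hmq : Nat.Coprime m q) (hmR : IsUnit (m : R)),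
    haveI : FiniteDimensional ↥K⟮jqNModC K 2⟯ ↥(legE K (M * q * q)) :=
      finite_legE_adjoin_j K (M * q * q)
    ∀ (G₁ : ↥(legE K (M * q * q))) (lam : Fin 3 → ↥(legE K (M * q * q))) (ζ20 ζ11 : R),
      G₁ ≠ 0 → (∀ i, lam i ≠ 0) → ζ20 ^ m = 1 → ζ11 ^ m = 1 →
      (∀ i, (![legWinf R K h2 (M * q * q), W11, W02] i).valuation (G₁ / lam i ^ m - 1) < 1) →
      HorPow36 (K₁ := K) (AdjoinSimple.gen K (jqNModC K 2)) (ssModelLeg_j_adjoin K) π m G₁ →
      HorPow36 (K₁ := K) (AdjoinSimple.gen K (jqNModC K 2))⁻¹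
        (adjoin_inv_eq_top (ssModelLeg_j_adjoin K)) π m G₁ →
      ToricRel36 (R := R)
        (legHostA K (M * q) q : ↥(legE K (M * q)) →+* ↥(legE K (M * q * q)))
        (legHostB K (M * q) q hq hq2 : ↥(legE K (M * q)) →+* ↥(legE K (M * q * q)))
        NA.toMonoidHom NB.toMonoidHom (legWinf R K h2 (M * q * q)) W11 W02 (q - 1) m G₁
        (lam 0) (lam 1) (lam 2) ζ20 ζ11 →
      (∀ (𝔫 : Ideal ↥(chartOne R ↥(legE K (M * q * q)) (AdjoinSimple.gen K (jqNModC K 2))))
        (h𝔫 : 𝔫.IsMaximal), algebraMap R _ π ∈ 𝔫 →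
        @SheetDatumAt R _ ↥(legE K (M * q * q)) _ _
          (chartOne R ↥(legE K (M * q * q)) (AdjoinSimple.gen K (jqNModC K 2))) (Fin 3)
          (fun i => sheetIdeal (AdjoinSimple.gen K (jqNModC K 2))
            (![legWinf R K h2 (M * q * q), W11, W02] i) (hfam.chart_le i)) 𝔫 h𝔫.isPrime
          ![legWinf R K h2 (M * q * q), W11, W02] m (G₁ ^ ((q - 1) * (q - 1 + 2)))
          (fun i => algebraMap R ↥(legE K (M * q * q)) (![ζ20, ζ11, 1] i) *
            lam i ^ ((q - 1) * (q - 1 + 2)))) ∧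
      (∀ (𝔫 : Ideal ↥(chartOne R ↥(legE K (M * q * q)) (AdjoinSimple.gen K (jqNModC K 2))⁻¹))
        (h𝔫 : 𝔫.IsMaximal), algebraMap R _ π ∈ 𝔫 →
        @SheetDatumAt R _ ↥(legE K (M * q * q)) _ _
          (chartOne R ↥(legE K (M * q * q)) (AdjoinSimple.gen K (jqNModC K 2))⁻¹) (Fin 3)
          (fun i => sheetIdeal (AdjoinSimple.gen K (jqNModC K 2))⁻¹
            (![legWinf R K h2 (M * q * q), W11, W02] i) ((hfam.inv hπ).chart_le i)) 𝔫
          h𝔫.isPrime ![legWinf R K h2 (M * q * q), W11, W02] m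
          (G₁ ^ ((q - 1) * (q - 1 + 2)))
          (fun i => algebraMap R ↥(legE K (M * q * q)) (![ζ20, ζ11, 1] i) *
            lam i ^ ((q - 1) * (q - 1 + 2))))

/-- **the cusp divisibility, Legendre**: the hypothesis `hcusp` of `legInert_of_model`
(`m ∣ ord_{W20} G` for a monic `G` with `m`-divisible horizontal divisor), at every generic base,
with all the model data as hypotheses. -/
def LegCusp36 : Prop :=
  ∀ (R : Type) [CommRing R] [IsDomain R] [IsDiscreteValuationRing R] [CharZero R] [DecidableEq R]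
    (K : Type) [Field K] [Algebra R K] [IsFractionRing R K] [Algebra ℚ K] [Algebra K ℂ]
    [IsAlgClosed (IsLocalRing.ResidueField R)]
    (M q : ℕ) [NeZero M] [NeZero q] [NeZero (M * q)] [NeZero (M * q * q)] (x y : ℤ) (π : R)
    (hπ : Irreducible π) (h2 : IsUnit (2 : R)) (h : (q : ℤ) * x + M * y = 1) (hq : q.Prime)
    (hq2 : q ≠ 2) (hqπ : (q : R) ∈ Ideal.span {π})
    (hgeo : GeoHyps K π (AdjoinSimple.gen K (legT K)) ↥(legE K M) M ({0, 1} : Finset R))
    (R' : Type) [CommRing R'] [IsDomain R'] [IsDiscreteValuationRing R']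
    (K' : Type) [Field K'] [Algebra R' K'] [IsFractionRing R' K']
    (φ : R →+* R') [IsLocalHom φ] (κ : K →+* K')
    (hκ : ∀ r : R, κ (algebraMap R K r) = algebraMap R' K' (φ r))
    (ζ u : R'ˣ) (hζq : ζ ^ q = 1) (hζ1 : ζ ≠ 1) (hπζ : φ π = ((ζ : R') - 1) ^ (q - 1) * u)
    (W11 W02 : ValuationSubring ↥(legE K (M * q * q)))
    (h11 : W11.comap (legIncl K (M * q * q)) =
      hostImageVal K 2 (keyFqW11 R K h hq φ κ hκ ζ hζq hζ1))
    (h02 : W02.comap (legIncl K (M * q * q)) = hostImageVal K 2 (keyFqW02 R K h hq))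
    (hT : IsThreeSheet (legHostA K (M * q) q : ↥(legE K (M * q)) →+* ↥(legE K (M * q * q)))
      (legHostB K (M * q) q hq hq2 : ↥(legE K (M * q)) →+* ↥(legE K (M * q * q))) q
      (legWinf R K h2 (M * q)) (legW0 R K h hq) (legWinf R K h2 (M * q * q)) W11 W02
      (algebraMap R ↥(legE K (M * q * q)) π) (legDelta K M q))
    (hfam : haveI : FiniteDimensional ↥K⟮jqNModC K 2⟯ ↥(legE K (M * q * q)) :=
        finite_legE_adjoin_j K (M * q * q)
      IsSheetFamily π (AdjoinSimple.gen K (jqNModC K 2))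
        (IsThreeSheet.fam (legWinf R K h2 (M * q * q)) W11 W02))
    (m : ℕ) (hm : 0 < m) (hmq : Nat.Coprime m q) (hmR : IsUnit (m : R)),
    ∀ G : ↥(legE K (M * q * q)), G ≠ 0 →
      (∀ v : (↥(legE K (M * q * q)))ˣ, (v : ↥(legE K (M * q * q))) = G →
        hostLc (legE K (M * q * q)) v = 1) →
      (haveI : FiniteDimensional ↥K⟮jqNModC K 2⟯ ↥(legE K (M * q * q)) :=
        finite_legE_adjoin_j K (M * q * q)
      HorPow36 (K₁ := K) (AdjoinSimple.gen K (jqNModC K 2))⁻¹
        (adjoin_inv_eq_top (ssModelLeg_j_adjoin K)) π m G) →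
      ∀ a : ℤ, (legWinf R K h2 (M * q * q)).valuation G =
        (legWinf R K h2 (M * q * q)).valuation
          (algebraMap K ↥(legE K (M * q * q)) (algebraMap R K π)) ^ a → (m : ℤ) ∣ a

set_option maxHeartbeats 1600000 in
/-- **[GENERIC36], Legendre: `LegGenericBase` from the closed points and the cusp.** -/
theorem legGenericBase_of_points (Hp : LegPoints36) (Hc : LegCusp36) : LegGenericBase := by
  intro R _ _ _ _ _ K _ _ _ _ _ _ M q _ _ _ _ x y π hπ h2 h hq hq2 hqπ hgeo R' _ _ _ K' _ _ _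
    φ _ κ hκ ζ u hζq hζ1 hπζ m hm hmq hmR ζm hζm f₀ hf₀ hlead hord hNA hNB
  haveI : CharP (IsLocalRing.ResidueField R) q := charP_residueField_of_mem_span hπ hq hqπ
  have hchar : (q : IsLocalRing.ResidueField R) = 0 := CharP.cast_eq_zero _ q
  have hfA := (normhost_finrank_legHostA R K (M := M * q) h2 hq hq2 (dvd_mul_left q M) hchar).1
  have hfB := (normhost_finrank_legHostB R K (M := M * q) h2 hq hq2 (dvd_mul_left q M) hchar).1
  obtain ⟨W11, W02, h11, h02, -, hT, hfam, D⟩ :=
    exists_legE_model36 R K hπ h2 h hq hq2 hqπ hgeo φ κ hκ ζ hζq hζ1 u hπζ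
      (normvalNormAlong₀
        (legHostA K (M * q) q : ↥(legE K (M * q)) →+* ↥(legE K (M * q * q))) hfA)
      (normvalNormAlong₀
        (legHostB K (M * q) q hq hq2 : ↥(legE K (M * q)) →+* ↥(legE K (M * q * q))) hfB)
      (fun _ => rfl) (fun _ => rfl)
  exact legInert_of_model R K hπ h2 h hq hq2 hqπ W11 W02 hfam _ _ (fun _ => rfl) (fun _ => rfl)
    D hm hmq hmR ζm hζm f₀ hf₀ hlead hord hNA hNB
    (Hp R K M q x y π hπ h2 h hq hq2 hqπ hgeo R' K' φ κ hκ ζ u hζq hζ1 hπζ W11 W02 h11 h02 hT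
      hfam _ _ (fun _ => rfl) (fun _ => rfl) D m hm hmq hmR)
    (Hc R K M q x y π hπ h2 h hq hq2 hqπ hgeo R' K' φ κ hκ ζ u hζq hζ1 hπζ W11 W02 h11 h02 hT
      hfam m hm hmq hmR)

/-- **`LegInertBase` from the closed points and the cusp.** -/
theorem legInertBase_of_points (Hp : LegPoints36) (Hc : LegCusp36) : LegInertBase :=
  legInertBase_of_generic (legGenericBase_of_points Hp Hc)

end

end Fermat.Agent.S36
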