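/-
S36 [GENERIC36] — helper7 — **the generic-base statement `HesGenericBase` from the two open local
inputs** (`HesPoints36` = the closed points `hpoints`, `HesCusp36` = the cusp divisibility `hcusp`
of helper4's `hesInert_of_model`), with all the model data produced inside from
`exists_hesE_model36`; and the frontier statement `s36_bases_of_points`.
-/
import Mathlib
import Fermat.Agent.S36.GENERIC36_helper7_Leg

set_option autoImplicit false
set_option linter.unusedSectionVars false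
set_option linter.unusedVariables false
set_option linter.style.haveILetI false
set_option synthInstance.maxHeartbeats 200000

open Polynomial ModularCurve IntermediateField
open Fermat.Agent.Igusa Fermat.Agent.JA Fermat.Agent.SS Fermat.Agent.X0N
open Fermat.Agent.S35 AlgebraicCurve

open scoped Fermat.Agent.JA.Host

namespace Fermat.Agent.S36

noncomputable section

/-- **the closed points of the three-sheet model, Hesse** (`q = 2`): the hypothesis `hpoints` of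
`hesInert_of_model`, at every generic base, for every choice of the sheets `W11`, `W02`
extending helper6's `F`-level sheets, with all the model data as hypotheses. -/
def HesPoints36 : Prop :=
  ∀ (R : Type) [CommRing R] [IsDomain R] [IsDiscreteValuationRing R] [CharZero R] [DecidableEq R]
    (K : Type) [Field K] [Algebra R K] [IsFractionRing R K] [Algebra ℚ K] [Algebra K ℂ]
    [IsAlgClosed (IsLocalRing.ResidueField R)]
    (M : ℕ) [NeZero M] [NeZero (M * 2)] [NeZero (M * 2 * 2)] (x y : ℤ) (π : R)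
    (hπ : Irreducible π) (h3 : IsUnit (3 : R)) (ω : R) (hω : ω ^ 2 + ω + 1 = 0)
    (h : ((2 : ℕ) : ℤ) * x + M * y = 1)
    (hqπ : ((2 : ℕ) : R) ∈ Ideal.span {π})
    (hgeo : GeoHyps K π (AdjoinSimple.gen K (hesT K)) ↥(hesE K M) M
      ({1, ω, ω ^ 2} : Finset R))
    (R' : Type) [CommRing R'] [IsDomain R'] [IsDiscreteValuationRing R']
    (K' : Type) [Field K'] [Algebra R' K'] [IsFractionRing R' K']
    (φ : R →+* R') [IsLocalHom φ] (κ : K →+* K')
    (hκ : ∀ r : R, κ (algebraMap R K r) = algebraMap R' K' (φ r))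
    (ζ u : R'ˣ) (hζq : ζ ^ 2 = 1) (hζ1 : ζ ≠ 1) (hπζ : φ π = ((ζ : R') - 1) ^ (2 - 1) * u)
    (W11 W02 : ValuationSubring ↥(hesE K (M * 2 * 2)))
    (h11 : W11.comap (hesIncl K (M * 2 * 2)) =
      hostImageVal K 3 (keyFqW11 R K h Nat.prime_two φ κ hκ ζ hζq hζ1))
    (h02 : W02.comap (hesIncl K (M * 2 * 2)) =
      hostImageVal K 3 (keyFqW02 R K h Nat.prime_two))
    (hT : IsThreeSheet (hesHostA K (M * 2) 2 : ↥(hesE K (M * 2)) →+* ↥(hesE K (M * 2 * 2)))
      (hesHostB K (M * 2) : ↥(hesE K (M * 2)) →+* ↥(hesE K (M * 2 * 2))) 2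
      (hesWinf R K h3 (M * 2)) (hesW0 R K h Nat.prime_two) (hesWinf R K h3 (M * 2 * 2))
      W11 W02 (algebraMap R ↥(hesE K (M * 2 * 2)) π) (hesDelta K M))
    (hfam : haveI : FiniteDimensional ↥K⟮jqNModC K 3⟯ ↥(hesE K (M * 2 * 2)) :=
        finite_hesE_adjoin_j K (M * 2 * 2)
      IsSheetFamily π (AdjoinSimple.gen K (jqNModC K 3))
        (IsThreeSheet.fam (hesWinf R K h3 (M * 2 * 2)) W11 W02))
    (NA NB : ↥(hesE K (M * 2 * 2)) →*₀ ↥(hesE K (M * 2)))
    (hNAdef : ∀ z, NA z = hesNormA K (M * 2) z)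
    (hNBdef : ∀ z, NB z = hesNormB K (M * 2) z)
    (D : Inst36Data (hesHostA K (M * 2) 2 : ↥(hesE K (M * 2)) →+* ↥(hesE K (M * 2 * 2)))
      (hesHostB K (M * 2) : ↥(hesE K (M * 2)) →+* ↥(hesE K (M * 2 * 2))) NA NB
      (algebraMap R K π) 2 (hesWinf R K h3 (M * 2)) (hesW0 R K h Nat.prime_two)
      (hesWinf R K h3 (M * 2 * 2)) W11 W02 (hesDelta K M)
      (hesHostA K M 2 (hesJE K M)) (hesHostB K M (hesJE K M))
      (hesHostA K (M * 2) 2 (hesHostA K M 2 (hesJE K M)))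
      (hesHostB K (M * 2) (hesHostB K M (hesJE K M))))
    (m : ℕ) (hm : 0 < m) (hmq : Nat.Coprime m 2) (hmR : IsUnit (m : R)),
    haveI : FiniteDimensional ↥K⟮jqNModC K 3⟯ ↥(hesE K (M * 2 * 2)) :=
      finite_hesE_adjoin_j K (M * 2 * 2)
    ∀ (G₁ : ↥(hesE K (M * 2 * 2))) (lam : Fin 3 → ↥(hesE K (M * 2 * 2))) (ζ20 ζ11 : R),
      G₁ ≠ 0 → (∀ i, lam i ≠ 0) → ζ20 ^ m = 1 → ζ11 ^ m = 1 →
      (∀ i, (![hesWinf R K h3 (M * 2 * 2), W11, W02] i).valuation (G₁ / lam i ^ m - 1) < 1) →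
      HorPow36 (K₁ := K) (AdjoinSimple.gen K (jqNModC K 3)) (ssModelHes_j_adjoin K) π m G₁ →
      HorPow36 (K₁ := K) (AdjoinSimple.gen K (jqNModC K 3))⁻¹
        (adjoin_inv_eq_top (ssModelHes_j_adjoin K)) π m G₁ →
      ToricRel36 (R := R)
        (hesHostA K (M * 2) 2 : ↥(hesE K (M * 2)) →+* ↥(hesE K (M * 2 * 2)))
        (hesHostB K (M * 2) : ↥(hesE K (M * 2)) →+* ↥(hesE K (M * 2 * 2)))
        NA.toMonoidHom NB.toMonoidHom (hesWinf R K h3 (M * 2 * 2)) W11 W02 (2 - 1) m G₁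
        (lam 0) (lam 1) (lam 2) ζ20 ζ11 →
      (∀ (𝔫 : Ideal ↥(chartOne R ↥(hesE K (M * 2 * 2)) (AdjoinSimple.gen K (jqNModC K 3))))
        (h𝔫 : 𝔫.IsMaximal), algebraMap R _ π ∈ 𝔫 →
        @SheetDatumAt R _ ↥(hesE K (M * 2 * 2)) _ _
          (chartOne R ↥(hesE K (M * 2 * 2)) (AdjoinSimple.gen K (jqNModC K 3))) (Fin 3)
          (fun i => sheetIdeal (AdjoinSimple.gen K (jqNModC K 3))
            (![hesWinf R K h3 (M * 2 * 2), W11, W02] i) (hfam.chart_le i)) 𝔫 h𝔫.isPrime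
          ![hesWinf R K h3 (M * 2 * 2), W11, W02] m (G₁ ^ ((2 - 1) * (2 - 1 + 2)))
          (fun i => algebraMap R ↥(hesE K (M * 2 * 2)) (![ζ20, ζ11, 1] i) *
            lam i ^ ((2 - 1) * (2 - 1 + 2)))) ∧
      (∀ (𝔫 : Ideal ↥(chartOne R ↥(hesE K (M * 2 * 2)) (AdjoinSimple.gen K (jqNModC K 3))⁻¹))
        (h𝔫 : 𝔫.IsMaximal), algebraMap R _ π ∈ 𝔫 →
        @SheetDatumAt R _ ↥(hesE K (M * 2 * 2)) _ _
          (chartOne R ↥(hesE K (M * 2 * 2)) (AdjoinSimple.gen K (jqNModC K 3))⁻¹) (Fin 3)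
          (fun i => sheetIdeal (AdjoinSimple.gen K (jqNModC K 3))⁻¹
            (![hesWinf R K h3 (M * 2 * 2), W11, W02] i) ((hfam.inv hπ).chart_le i)) 𝔫
          h𝔫.isPrime ![hesWinf R K h3 (M * 2 * 2), W11, W02] m
          (G₁ ^ ((2 - 1) * (2 - 1 + 2)))
          (fun i => algebraMap R ↥(hesE K (M * 2 * 2)) (![ζ20, ζ11, 1] i) *
            lam i ^ ((2 - 1) * (2 - 1 + 2))))

/-- **the cusp divisibility, Hesse**: the hypothesis `hcusp` of `hesInert_of_model`, at every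
generic base, with all the model data as hypotheses. -/
def HesCusp36 : Prop :=
  ∀ (R : Type) [CommRing R] [IsDomain R] [IsDiscreteValuationRing R] [CharZero R] [DecidableEq R]
    (K : Type) [Field K] [Algebra R K] [IsFractionRing R K] [Algebra ℚ K] [Algebra K ℂ]
    [IsAlgClosed (IsLocalRing.ResidueField R)]
    (M : ℕ) [NeZero M] [NeZero (M * 2)] [NeZero (M * 2 * 2)] (x y : ℤ) (π : R)
    (hπ : Irreducible π) (h3 : IsUnit (3 : R)) (ω : R) (hω : ω ^ 2 + ω + 1 = 0)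
    (h : ((2 : ℕ) : ℤ) * x + M * y = 1)
    (hqπ : ((2 : ℕ) : R) ∈ Ideal.span {π})
    (hgeo : GeoHyps K π (AdjoinSimple.gen K (hesT K)) ↥(hesE K M) M
      ({1, ω, ω ^ 2} : Finset R))
    (R' : Type) [CommRing R'] [IsDomain R'] [IsDiscreteValuationRing R']
    (K' : Type) [Field K'] [Algebra R' K'] [IsFractionRing R' K']
    (φ : R →+* R') [IsLocalHom φ] (κ : K →+* K')
    (hκ : ∀ r : R, κ (algebraMap R K r) = algebraMap R' K' (φ r))
    (ζ u : R'ˣ) (hζq : ζ ^ 2 = 1) (hζ1 : ζ ≠ 1) (hπζ : φ π = ((ζ : R') - 1) ^ (2 - 1) * u)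
    (W11 W02 : ValuationSubring ↥(hesE K (M * 2 * 2)))
    (h11 : W11.comap (hesIncl K (M * 2 * 2)) =
      hostImageVal K 3 (keyFqW11 R K h Nat.prime_two φ κ hκ ζ hζq hζ1))
    (h02 : W02.comap (hesIncl K (M * 2 * 2)) =
      hostImageVal K 3 (keyFqW02 R K h Nat.prime_two))
    (hT : IsThreeSheet (hesHostA K (M * 2) 2 : ↥(hesE K (M * 2)) →+* ↥(hesE K (M * 2 * 2)))
      (hesHostB K (M * 2) : ↥(hesE K (M * 2)) →+* ↥(hesE K (M * 2 * 2))) 2
      (hesWinf R K h3 (M * 2)) (hesW0 R K h Nat.prime_two) (hesWinf R K h3 (M * 2 * 2))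
      W11 W02 (algebraMap R ↥(hesE K (M * 2 * 2)) π) (hesDelta K M))
    (hfam : haveI : FiniteDimensional ↥K⟮jqNModC K 3⟯ ↥(hesE K (M * 2 * 2)) :=
        finite_hesE_adjoin_j K (M * 2 * 2)
      IsSheetFamily π (AdjoinSimple.gen K (jqNModC K 3))
        (IsThreeSheet.fam (hesWinf R K h3 (M * 2 * 2)) W11 W02))
    (m : ℕ) (hm : 0 < m) (hmq : Nat.Coprime m 2) (hmR : IsUnit (m : R)),
    ∀ G : ↥(hesE K (M * 2 * 2)), G ≠ 0 →
      (∀ v : (↥(hesE K (M * 2 * 2)))ˣ, (v : ↥(hesE K (M * 2 * 2))) = G →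
        hostLc (hesE K (M * 2 * 2)) v = 1) →
      (haveI : FiniteDimensional ↥K⟮jqNModC K 3⟯ ↥(hesE K (M * 2 * 2)) :=
        finite_hesE_adjoin_j K (M * 2 * 2)
      HorPow36 (K₁ := K) (AdjoinSimple.gen K (jqNModC K 3))⁻¹
        (adjoin_inv_eq_top (ssModelHes_j_adjoin K)) π m G) →
      ∀ a : ℤ, (hesWinf R K h3 (M * 2 * 2)).valuation G =
        (hesWinf R K h3 (M * 2 * 2)).valuation
          (algebraMap K ↥(hesE K (M * 2 * 2)) (algebraMap R K π)) ^ a → (m : ℤ) ∣ a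

set_option maxHeartbeats 1600000 in
/-- **[GENERIC36], Hesse: `HesGenericBase` from the closed points and the cusp.** -/
theorem hesGenericBase_of_points (Hp : HesPoints36) (Hc : HesCusp36) : HesGenericBase := by
  intro R _ _ _ _ _ K _ _ _ _ _ _ M _ _ _ x y π hπ h3 ω hω h hqπ hgeo R' _ _ _ K' _ _ _
    φ _ κ hκ ζ u hζq hζ1 hπζ m hm hmq hmR ζm hζm f₀ hf₀ hlead hord hNA hNB
  haveI : CharP (IsLocalRing.ResidueField R) 2 :=
    charP_residueField_of_mem_span hπ Nat.prime_two hqπ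
  have hchar : ((2 : ℕ) : IsLocalRing.ResidueField R) = 0 := CharP.cast_eq_zero _ 2
  have hfA := (normhost_finrank_hesHostA R K (M := M * 2) h3 (dvd_mul_left 2 M) hchar).1
  have hfB := (normhost_finrank_hesHostB R K (M := M * 2) h3 (dvd_mul_left 2 M) hchar).1
  obtain ⟨W11, W02, h11, h02, -, hT, hfam, D⟩ :=
    exists_hesE_model36 R K hπ h3 ω h hqπ hgeo φ κ hκ ζ hζq hζ1 u hπζ
      (normvalNormAlong₀
        (hesHostA K (M * 2) 2 : ↥(hesE K (M * 2)) →+* ↥(hesE K (M * 2 * 2))) hfA)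
      (normvalNormAlong₀
        (hesHostB K (M * 2) : ↥(hesE K (M * 2)) →+* ↥(hesE K (M * 2 * 2))) hfB)
      (fun _ => rfl) (fun _ => rfl)
  exact hesInert_of_model R K hπ h3 h hqπ W11 W02 hfam _ _ (fun _ => rfl) (fun _ => rfl)
    D hm hmq hmR ζm hζm f₀ hf₀ hlead hord hNA hNB
    (Hp R K M x y π hπ h3 ω hω h hqπ hgeo R' K' φ κ hκ ζ u hζq hζ1 hπζ W11 W02 h11 h02 hT
      hfam _ _ (fun _ => rfl) (fun _ => rfl) D m hm hmq hmR)
    (Hc R K M x y π hπ h3 ω hω h hqπ hgeo R' K' φ κ hκ ζ u hζq hζ1 hπζ W11 W02 h11 h02 hT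
      hfam m hm hmq hmR)

/-- **`HesInertBase` from the closed points and the cusp.** -/
theorem hesInertBase_of_points (Hp : HesPoints36) (Hc : HesCusp36) : HesInertBase :=
  hesInertBase_of_generic (hesGenericBase_of_points Hp Hc)

/-- **the S36 frontier**: both base statements from the four open local inputs. -/
theorem s36_bases_of_points (HpL : LegPoints36) (HcL : LegCusp36) (HpH : HesPoints36)
    (HcH : HesCusp36) : LegInertBase ∧ HesInertBase :=
  ⟨legInertBase_of_points HpL HcL, hesInertBase_of_points HpH HcH⟩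

end

end Fermat.Agent.S36
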