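/-
S36 [HOST11], Hesse twin — helper9 — part 2: **the Hesse coordinate is the image of a series over
`R` with a unit coefficient in degree `±1`** and Frobenius-fixed reduction (sharpening of
`SS.isPrimeSeries_hesT`, whose unit coefficient sits in an unspecified nonzero degree).  Mirror of
`HOST11_helper6_Series`.
-/
import Mathlib
import Fermat.Agent.SS.HOSTINT_helper6_Main

set_option autoImplicit false
set_option linter.unusedSectionVars false
set_option linter.style.haveILetI false

open Polynomial ModularCurve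

namespace Fermat.Agent.S36

open Fermat.Agent.JA Fermat.Agent.SS Fermat.Agent.Igusa

section Rat

variable {A : Type*} [CommRing A]

/-- **the Hesse coordinate over `ℚ` is defined over every ring `A → ℚ` with `3 ∈ Aˣ`**, by a
series with a unit coefficient in degree `1` or `-1`. -/
theorem exists_hesT₀_eq_coeffMap_pm (h3 : IsUnit (3 : A)) (φ : A →+* ℚ) :
    ∃ F : LaurentSeries A, hesT₀ = coeffMap φ F ∧
      ∃ n : ℤ, (n = 1 ∨ n = -1) ∧ IsUnit (F.coeff n) := by
  obtain ⟨S, hS0, hS⟩ := exists_hesse_root_ring h3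
  set sA : LaurentSeries A := HahnSeries.ofPowerSeries ℤ A (PowerSeries.X * S) with hsA
  set s : LaurentSeries ℚ := coeffMap φ sA with hs_def
  -- the equation over `ℚ`
  have hrel : 27 * (1 + 8 * s ^ 3) ^ 3 = jqNModC ℚ 3 * (s ^ 3 * (1 - s ^ 3) ^ 3) := by
    have := congrArg (coeffMap φ) hS
    simp only [map_mul, map_pow, map_sub, map_add, map_one, map_ofNat] at this
    rw [coeffMap_jqNModC] at this
    exact this
  -- `s` is transcendental
  have hc1 : s.coeff 1 = 3 := by
    rw [hs_def, coeffMap_coeff, hsA, show (1 : ℤ) = ((1 : ℕ) : ℤ) from rfl,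
      HahnSeries.ofPowerSeries_apply_coeff, show (1 : ℕ) = 0 + 1 from rfl,
      PowerSeries.coeff_succ_X_mul, PowerSeries.coeff_zero_eq_constantCoeff_apply, hS0,
      map_ofNat]
  have hstr : Transcendental ℚ s :=
    Host.transcendental_of_coeff_ne_zero (n := 1) one_ne_zero (by rw [hc1]; norm_num)
  have hs1 : (1 : LaurentSeries ℚ) - s ≠ 0 := by
    intro h0
    apply hstr
    have : s = 1 := by linear_combination -h0
    rw [this]
    exact isAlgebraic_one
  have hne : (1 + 3 * s - s ^ 3) * (12 * s ^ 2 - 6 * s) -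
      (1 - 6 * s + 8 * s ^ 3) * (3 * s + 3 * s ^ 2) ≠ 0 := by
    intro h0
    apply hstr
    refine ⟨(1 + 3 * X - X ^ 3) * (12 * X ^ 2 - 6 * X) -
      (1 - 6 * X + 8 * X ^ 3) * (3 * X + 3 * X ^ 2), ?_, ?_⟩
    · intro hp
      have := congrArg (Polynomial.eval 2) hp
      simp at this
      norm_num at this
    · simpa only [map_sub, map_mul, map_add, map_pow, aeval_X, map_one, map_ofNat] using h0
  -- the relation for `hesT₀`
  have hT : jqNModC ℚ 3 * (hesT₀ ^ 3 - 1) ^ 3 = 27 * hesT₀ ^ 3 * (hesT₀ ^ 3 + 8) ^ 3 := by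
    have := hesT₀_spec.2.2
    rw [Host.aeval_hesA, Host.aeval_hesB] at this
    exact this
  have h3Q : (3 : LaurentSeries ℚ) ≠ 0 := by
    have h : (3 : LaurentSeries ℚ) = algebraMap ℚ (LaurentSeries ℚ) 3 :=
      (map_ofNat (algebraMap ℚ (LaurentSeries ℚ)) 3).symm
    rw [h]
    exact (_root_.map_ne_zero _).mpr (by norm_num)
  have hS0u : IsUnit (PowerSeries.constantCoeff S) := by rw [hS0]; exact h3
  rcases hesse_roots h3Q laurentSeries_rat_sq_add_self_add_one_ne_zero hT hrel hne with h | h
  · obtain ⟨F, hF, hFu⟩ := exists_inv_X_mul S hS0u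
    refine ⟨F, ?_, -1, Or.inr rfl, hFu⟩
    have hF' : coeffMap φ F * s = 1 := by
      have := congrArg (coeffMap φ) hF
      rwa [map_mul, map_one] at this
    calc hesT₀ = hesT₀ * (coeffMap φ F * s) := by rw [hF', mul_one]
      _ = (hesT₀ * s) * coeffMap φ F := by ring
      _ = coeffMap φ F := by rw [h, one_mul]
  · obtain ⟨F, hF, hFu⟩ := exists_hesse_transform h3 S hS0
    refine ⟨F, ?_, 1, Or.inl rfl, hFu⟩
    have hF' : coeffMap φ F * (1 - s) = 1 + 2 * s := by
      have e1 : coeffMap φ (1 - sA) = 1 - s := by rw [map_sub, map_one]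
      have e2 : coeffMap φ (1 + 2 * sA) = 1 + 2 * s := by
        rw [map_add, map_one, map_mul, map_ofNat]
      rw [← e1, ← e2, ← map_mul]
      exact congrArg (coeffMap φ) hF
    apply mul_right_cancel₀ hs1
    rw [h, hF']

end Rat

section Main

variable (R : Type*) [CommRing R] [IsDomain R] [IsDiscreteValuationRing R]
variable (L : Type*) [Field L] [Algebra R L] [IsFractionRing R L] [Algebra ℚ L]

local notation "k" => IsLocalRing.ResidueField R

/-- **the Hesse coordinate is the image of a series over `R`** with a unit coefficient in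
degree `±1` and Frobenius-fixed reduction (`3 ∈ Rˣ`). -/
theorem exists_hesT_series (h3 : IsUnit (3 : R)) :
    ∃ s : LaurentSeries R, hesT L = emb R L s ∧
      (∃ n : ℤ, (n = 1 ∨ n = -1) ∧ IsUnit (s.coeff n)) ∧
      ∀ (q : ℕ) [ExpChar k q], coeffMap (frobenius k q) (red R s) = red R s := by
  have h3A : IsUnit (3 : Localization.Away (3 : ℤ)) := by
    have := IsLocalization.Away.algebraMap_isUnit (S := Localization.Away (3 : ℤ)) (3 : ℤ)
    rwa [map_ofNat] at this
  have h3Q : IsUnit (Int.castRingHom ℚ (3 : ℤ)) := by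
    rw [map_ofNat]; exact (three_ne_zero : (3 : ℚ) ≠ 0).isUnit
  have h3R : IsUnit (Int.castRingHom R (3 : ℤ)) := by
    rw [map_ofNat]; exact h3
  set φ : Localization.Away (3 : ℤ) →+* ℚ :=
    IsLocalization.Away.lift (S := Localization.Away (3 : ℤ)) (3 : ℤ)
      (g := Int.castRingHom ℚ) h3Q with hφ
  set ψ : Localization.Away (3 : ℤ) →+* R :=
    IsLocalization.Away.lift (S := Localization.Away (3 : ℤ)) (3 : ℤ)
      (g := Int.castRingHom R) h3R with hψ
  obtain ⟨F, hF, n, hn, hu⟩ := exists_hesT₀_eq_coeffMap_pm h3A φ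
  refine ⟨coeffMap ψ F, ?_, ⟨n, hn, by rw [coeffMap_coeff]; exact hu.map ψ⟩,
    fun q _ => coeffMap_frobenius_red_coeffMap q ψ (ringHom_away_int_ext 3) F⟩
  rw [hesT, hF]
  exact coeffMap_rat_eq_emb φ ψ (ringHom_away_int_ext 3 _ _) F

end Main

end Fermat.Agent.S36
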