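/-
S36 [HOST11] — helper6 — part 6: **`q = (ζ - 1)^{q-1} · u` forces `u ≡ -1`** (`q` an odd prime,
`ζ ≠ 1` a `q`-th root of unity in a local domain): `q = ∏_{a=1}^{q-1} (ζ^a - 1)`,
`(ζ^a - 1)/(ζ - 1) ≡ a`, and Wilson.
-/
import Mathlib

set_option autoImplicit false
set_option linter.unusedSectionVars false
set_option linter.style.haveILetI false

open Finset

namespace Fermat.Agent.S36

section Cyclo

variable {A : Type*} [CommRing A] [IsDomain A] [IsLocalRing A]

/-- `q = (ζ - 1)^{q-1} · ∏_{k<q-1} (1 + ζ + … + ζ^k)` for an odd prime `q`. -/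
theorem cyclo_prime_eq_pow_mul_prod {q : ℕ} (hq : q.Prime) (hq2 : q ≠ 2) {ζ : A}
    (hζq : ζ ^ q = 1) (hζ1 : ζ ≠ 1) :
    (q : A) = (ζ - 1) ^ (q - 1) * ∏ k ∈ range (q - 1), ∑ i ∈ range (k + 1), ζ ^ i := by
  have hprim : IsPrimitiveRoot ζ q := by
    haveI : Fact q.Prime := ⟨hq⟩
    have h1 : orderOf ζ = q := orderOf_eq_prime hζq hζ1
    rw [← h1]
    exact IsPrimitiveRoot.orderOf ζ
  obtain ⟨n, hn⟩ : ∃ n, q = n + 1 := ⟨q - 1, (Nat.sub_add_cancel hq.one_le).symm⟩
  have hn' : q - 1 = n := by omega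
  rw [hn'] 
  subst hn
  have h2 := hprim.prod_pow_sub_one_eq_order
  have heven : Even n := by
    rcases Nat.Prime.eq_two_or_odd' hq with h | h
    · exact absurd h hq2
    · rcases h with ⟨m, hm⟩
      exact ⟨m, by omega⟩
  rw [heven.neg_one_pow, one_mul] at h2
  have h3 : ∏ k ∈ range n, (ζ ^ (k + 1) - 1) =
      (ζ - 1) ^ n * ∏ k ∈ range n, ∑ i ∈ range (k + 1), ζ ^ i := by
    rw [← Finset.card_range n, ← Finset.prod_const, Finset.card_range, ← Finset.prod_mul_distrib]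
    refine Finset.prod_congr rfl (fun k _ => ?_)
    rw [mul_comm, geom_sum_mul]
  rw [← h3, h2]
  push_cast
  ring

/-- **`q = (ζ - 1)^{q-1} · u` forces `u ≡ -1` modulo the maximal ideal.** -/
theorem residue_eq_neg_one_of_cyclo {q : ℕ} (hq : q.Prime) (hq2 : q ≠ 2) {ζ u : A}
    (hζq : ζ ^ q = 1) (hζ1 : ζ ≠ 1) (hζres : IsLocalRing.residue A ζ = 1)
    (hu : (q : A) = (ζ - 1) ^ (q - 1) * u) : IsLocalRing.residue A u = -1 := by
  have h1 := cyclo_prime_eq_pow_mul_prod hq hq2 hζq hζ1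
  have hζ0 : (ζ - 1) ^ (q - 1) ≠ 0 := pow_ne_zero _ (sub_ne_zero.mpr hζ1)
  have h2 : u = ∏ k ∈ range (q - 1), ∑ i ∈ range (k + 1), ζ ^ i :=
    mul_left_cancel₀ hζ0 (hu.symm.trans h1)
  -- the residue characteristic is `q`
  have hq1 : 0 < q - 1 := Nat.sub_pos_of_lt hq.one_lt
  have hres0 : ((q : ℕ) : IsLocalRing.ResidueField A) = 0 := by
    have h3 : IsLocalRing.residue A (q : A) = 0 := by
      rw [hu, map_mul, map_pow, map_sub, hζres, map_one, sub_self, zero_pow hq1.ne', zero_mul]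
    rwa [map_natCast] at h3
  haveI : Fact q.Prime := ⟨hq⟩
  haveI : CharP (IsLocalRing.ResidueField A) q := (CharP.charP_iff_prime_eq_zero hq).2 hres0
  rw [h2, map_prod]
  have h4 : ∀ k ∈ range (q - 1), IsLocalRing.residue A (∑ i ∈ range (k + 1), ζ ^ i) =
      ((k + 1 : ℕ) : IsLocalRing.ResidueField A) := by
    intro k _
    rw [map_sum]
    simp only [map_pow, hζres, one_pow, sum_const, card_range, nsmul_eq_mul, mul_one]
  rw [Finset.prod_congr rfl h4, ← Nat.cast_prod, Finset.prod_range_add_one_eq_factorial]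
  have h5 := ZMod.wilsons_lemma (p := q)
  have h6 := congrArg (ZMod.castHom (dvd_refl q) (IsLocalRing.ResidueField A)) h5
  rwa [map_natCast, map_neg, map_one] at h6

end Cyclo

end Fermat.Agent.S36
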