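/-
S36 [HOST11] — helper6 — part 7: **the uniformizer `δ_t = t(x^{q²}) − t(x)` of the middle sheet of
the Legendre host of level `M q²`** and the congruence `δ_t^{q-1}/π · c₀ ≡ A'(μ)` on `legW11`
(`μ ∈ legE K (M q)` with expansion `(θ t)(x^q)/(θ t)(x)`, i.e. `μ = (1/q) · dt₁/dt₀`).
-/
import Mathlib
import Fermat.Agent.S36.HOST11_helper6_Leg
import Fermat.Agent.S36.HOST11_helper6_Eq
import Fermat.Agent.S36.HOST11_helper6_Series
import Fermat.Agent.S36.HOST11_helper6_Cyclo

set_option autoImplicit false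
set_option linter.unusedSectionVars false
set_option linter.style.haveILetI false
set_option synthInstance.maxHeartbeats 200000

open HahnSeries ModularCurve Fermat.Agent.Igusa Fermat.Agent.X0N Fermat.Agent.RatStr
open IntermediateField Fermat.Agent.JA Fermat.Agent.SS Fermat.Agent.S35

namespace Fermat.Agent.S36

noncomputable section

section Val

variable {F E : Type*} [Field F] [Field E]

/-- equality of valuations through a restriction. -/
theorem comap_valuation_eq_iff (ι : F →+* E) (V : ValuationSubring E) (a b : F) :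
    (V.comap ι).valuation a = (V.comap ι).valuation b ↔
      V.valuation (ι a) = V.valuation (ι b) := by
  by_cases ha : a = 0
  · subst ha
    rw [map_zero, map_zero, map_zero, eq_comm, Valuation.zero_iff, eq_comm (a := (0 : _)),
      Valuation.zero_iff, map_eq_zero]
  by_cases hb : b = 0
  · subst hb
    rw [map_zero, map_zero, map_zero, Valuation.zero_iff, Valuation.zero_iff, map_eq_zero]
  have ha' : ι a ≠ 0 := (map_ne_zero ι).mpr ha
  have hb' : ι b ≠ 0 := (map_ne_zero ι).mpr hb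
  rw [TwoExt.val_eq_iff_mul_inv_mem _ ha hb, TwoExt.val_eq_iff_mul_inv_mem _ ha' hb',
    ValuationSubring.mem_comap, ValuationSubring.mem_comap, map_mul, map_mul, map_inv₀, map_inv₀]

end Val

section Leg

variable (R : Type*) [CommRing R] [IsDomain R] [IsDiscreteValuationRing R] [CharZero R]
  (K : Type*) [Field K] [Algebra R K] [IsFractionRing R K] [Algebra ℚ K] [Algebra K ℂ]
  {M q : ℕ} [NeZero M] [NeZero q] [NeZero (M * q)] [NeZero (M * q * q)]
  [NeZero (4 * M)] [NeZero (4 * M * q)] [NeZero (4 * M * q * q)]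
  {x y x' y' : ℤ} (hbez : (q : ℤ) * x + M * y = 1)
  (h' : (q : ℤ) * x' + ((4 * M : ℕ) : ℤ) * y' = 1) (hq : q.Prime) (hq2 : q ≠ 2)
  {R' : Type*} [CommRing R'] [IsDomain R'] [IsDiscreteValuationRing R']
  {K' : Type*} [Field K'] [Algebra R' K'] [IsFractionRing R' K']
  (φ : R →+* R') [IsLocalHom φ] (κ : K →+* K')
  (hκ : ∀ r : R, κ (algebraMap R K r) = algebraMap R' K' (φ r))
  (ζ : R'ˣ) (hζq : ζ ^ q = 1) (hζ1 : ζ ≠ 1)

open scoped Fermat.Agent.JA.Host

/-- the Legendre coordinate as an element of the host. -/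
def legTE (N : ℕ) [NeZero N] : ↥(legE K N) :=
  ⟨legT K, (le_sup_left : K⟮legT K⟯ ≤ legE K N) (mem_adjoin_simple_self K _)⟩

@[simp] theorem coe_legTE (N : ℕ) [NeZero N] : ((legTE K N : ↥(legE K N)) : LaurentSeries K) =
    legT K := rfl

variable (M) in
/-- the Legendre coordinate as an element of `F_{4M}`. -/
def legTFull : ↥(keyFq K (4 * M)) :=
  ⟨legT K, keyFq_le_of_dvd K (Dvd.intro M rfl) (legT_mem_keyFq K)⟩

@[simp] theorem coe_legTFull : ((legTFull K M : ↥(keyFq K (4 * M))) : LaurentSeries K) =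
    legT K := rfl

variable (M) in
/-- **`δ_t = t₂ − t₀`**, `t₂ = B'B t`, `t₀ = A'A t`. -/
def legDelta : ↥(legE K (M * q * q)) :=
  legHostB K (M * q) q hq hq2 (legHostB K M q hq hq2 (legTE K M)) -
    legHostA K (M * q) q (legHostA K M q (legTE K M))

theorem coe_legDelta : ((legDelta K M hq hq2 : ↥(legE K (M * q * q))) : LaurentSeries K) =
    qExpand K q (qExpand K q (legT K)) - legT K := by
  rw [legDelta, AddSubgroupClass.coe_sub, coe_legHostB, coe_legHostB, coe_legHostA, coe_legHostA,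
    coe_legTE]

theorem legToFullSq_legDelta :
    legToFullSq K M q (legDelta K M hq hq2) =
      pull2 K (4 * M) q (legTFull K M) - pull0 K (4 * M) q (legTFull K M) := by
  apply Subtype.ext
  rw [coe_legToFullSq, coe_legDelta, AddSubgroupClass.coe_sub, coe_pull2, coe_pull0, coe_legTFull]

theorem legToFullSq_algebraMap_base (r : R) :
    legToFullSq K M q (algebraMap R ↥(legE K (M * q * q)) r) =
      algebraMap R ↥(keyFq K (4 * M * q * q)) r := by
  rw [IsScalarTower.algebraMap_apply R K ↥(legE K (M * q * q)), AlgHom.commutes,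
    ← IsScalarTower.algebraMap_apply R K ↥(keyFq K (4 * M * q * q))]

/-- **`w11 (δ_t^{q-1}) = w11 π`** on the Legendre host. -/
theorem legW11_valuation_legDelta (h2 : IsUnit (2 : R)) {π : R} (u : R'ˣ)
    (hπζ : φ π = ((ζ : R') - 1) ^ (q - 1) * u) :
    (legW11 R K h' hq φ κ hκ ζ hζq hζ1).valuation (legDelta K M hq hq2 ^ (q - 1)) =
      (legW11 R K h' hq φ κ hκ ζ hζq hζ1).valuation
        (algebraMap R ↥(legE K (M * q * q)) π) := by
  obtain ⟨s, hs, ⟨n, hn, hu⟩, -⟩ := exists_legT_series R K h2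
  rw [legW11_eq_comap, comap_valuation_eq_iff]
  show (keyFqW11 R K h' hq φ κ hκ ζ hζq hζ1).valuation
      (legToFullSq K M q (legDelta K M hq hq2 ^ (q - 1))) =
    (keyFqW11 R K h' hq φ κ hκ ζ hζq hζ1).valuation
      (legToFullSq K M q (algebraMap R ↥(legE K (M * q * q)) π))
  rw [map_pow, legToFullSq_legDelta, legToFullSq_algebraMap_base]
  exact keyFqW11_valuation_witness R K h' hq φ κ hκ ζ hζq hζ1 u hπζ (legTFull K M) s hs hn hu

/-- **`δ_t^{q-1} · π⁻¹ · c₀ ≡ A'(μ)` on the middle sheet of the Legendre host.** -/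
theorem legW11_valuation_pow_sub_mu [ExpChar (IsLocalRing.ResidueField R) q]
    (h2 : IsUnit (2 : R)) {π : R} (hπ : ¬ IsUnit π) (u : R'ˣ)
    (hπζ : φ π = ((ζ : R') - 1) ^ (q - 1) * u)
    (c₀ : R) (hc₀ : IsLocalRing.residue R' (φ c₀) = IsLocalRing.residue R' (u : R'))
    (m : ↥(legE K (M * q))) (hm : (m : LaurentSeries K) = hostMu (legT K) q) :
    (legW11 R K h' hq φ κ hκ ζ hζq hζ1).valuation
      (legDelta K M hq hq2 ^ (q - 1) * (algebraMap R ↥(legE K (M * q * q)) π)⁻¹ *
        algebraMap R ↥(legE K (M * q * q)) c₀ - legHostA K (M * q) q m) < 1 := by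
  obtain ⟨s, hs, ⟨n, hn, hu⟩, hfrob⟩ := exists_legT_series R K h2
  rw [legW11_eq_comap, sinfemb_comap_valuation_lt_one_iff]
  show (keyFqW11 R K h' hq φ κ hκ ζ hζq hζ1).valuation
      (legToFullSq K M q (legDelta K M hq hq2 ^ (q - 1) *
        (algebraMap R ↥(legE K (M * q * q)) π)⁻¹ *
        algebraMap R ↥(legE K (M * q * q)) c₀ - legHostA K (M * q) q m)) < 1
  rw [map_sub, map_mul, map_mul, map_inv₀, map_pow, legToFullSq_legDelta,
    legToFullSq_algebraMap_base, legToFullSq_algebraMap_base]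
  have e : legToFullSq K M q (legHostA K (M * q) q m) =
      keyFqA K (4 * M * q) q
        (hostToFull K M q 2 (4 * M) (leg_dvd_four M) (legT K) (legT_mem_keyFq K) m) :=
    hostToFullSq_A K 2 (4 * M) (leg_dvd_four M) (legT K) (legT_mem_keyFq K) _
      (coe_legHostA K (M * q) q) m
  rw [e]
  exact keyFqW11_valuation_pow_sub_mu R K h' hq φ κ hκ ζ hζq hζ1 hπ u hπζ c₀ hc₀ (legTFull K M)
    s hs (hfrob q) hn hu _ (by rw [coe_hostToFull, hm, coe_legTFull])

end Leg

end

end Fermat.Agent.S36
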