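/-
S36 [HOST11] — helper6 — part 8: **the local equation of a ramified sheet at a point lying on that
sheet only** (abstract; currency of helper3's `LOCAL36`).

`F / K₁(τ)` with a sheet family `W`, `𝔫` a closed point of the chart through which only the sheet
`W i₀` passes, `z` an element of the chart with `w(z^n) = w(π)` on `W i₀` (`n ≥ 1`; `n = q - 1` on
the middle sheet) such that `z^n / π` is congruent on `W i₀` to a unit `γ` of the local ring at `𝔫`.
Then `z^n = π · unit` in the local ring, so `z` lies in no horizontal prime of height one through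
`𝔫` (`hzhor_of_pow_congr`), and if moreover `z` is a uniformizer of `W i₀` it generates the sheet
ideal locally at `𝔫` (`exists_dvd_of_pow_congr` = hypothesis `hgen` / `hLE1`).
-/
import Mathlib
import Fermat.Agent.S36.LOCAL36_helper3_Gen

set_option autoImplicit false
set_option linter.unusedSectionVars false
set_option linter.style.haveILetI false

namespace Fermat.Agent.S36

open Fermat.Agent.JA Fermat.Agent.SS Polynomial

section LocalEq

variable {R : Type*} [CommRing R] [IsDomain R] [IsDiscreteValuationRing R] [CharZero R]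
  {K₁ : Type*} [Field K₁] [Algebra R K₁] [IsFractionRing R K₁]
  {K : Type*} [Field K] [Algebra K₁ K] [Algebra R K] [IsScalarTower R K₁ K]
  {F : Type*} [Field F] [Algebra K F] [Algebra R F] [IsScalarTower R K F] [FiniteDimensional K F]
  {π : R} {τ : K} {ι : Type*} {W : ι → ValuationSubring F}

/-- an element of the local ring at `𝔫` of positive valuation on a sheet through `𝔫` lies in the
maximal ideal of the local ring. -/
theorem mem_locMax_of_sheet_valuation_lt_one (fam : IsSheetFamily π τ W)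
    (𝔫 : Ideal ↥(chartOne R F τ)) [h𝔫 : 𝔫.IsPrime] (i₀ : ι)
    (hle : sheetIdeal τ (W i₀) (fam.chart_le i₀) ≤ 𝔫) {e : F}
    (he : e ∈ locRing (chartOne R F τ) 𝔫) (hv : (W i₀).valuation e < 1) :
    e ∈ locMax (chartOne R F τ) 𝔫 := by
  obtain ⟨r, s, hs, hrs⟩ := he
  refine ⟨r, s, hle ?_, hs, hrs⟩
  rw [mem_sheetIdeal_iff, ← hrs, map_mul]
  calc (W i₀).valuation e * (W i₀).valuation (s : F)
      ≤ (W i₀).valuation e * 1 :=
        mul_le_mul_right ((ValuationSubring.valuation_le_one_iff _ _).mpr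
          (fam.chart_le i₀ _ s.2)) _
    _ < 1 := by rw [mul_one]; exact hv

/-- **`z^n = π · unit` locally at a single-sheet point, hence no horizontal zero of `z` passes
through it.** -/
theorem hzhor_of_pow_congr (fam : IsSheetFamily π τ W) (hπ : Irreducible π)
    (hτ : Transcendental K₁ τ) (hKτ : IntermediateField.adjoin K₁ {τ} = ⊤)
    (𝔫 : Ideal ↥(chartOne R F τ)) [h𝔫 : 𝔫.IsPrime] (i₀ : ι)
    (hle : sheetIdeal τ (W i₀) (fam.chart_le i₀) ≤ 𝔫)
    (honly : ∀ j, sheetIdeal τ (W j) (fam.chart_le j) ≤ 𝔫 → j = i₀)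
    {z : ↥(chartOne R F τ)} {n : ℕ} (hn : 0 < n)
    (hval : (W i₀).valuation ((z : F) ^ n) = (W i₀).valuation (algebraMap R F π))
    {γ : F} (hγ : γ ∈ locRing (chartOne R F τ) 𝔫) (hγ' : γ ∉ locMax (chartOne R F τ) 𝔫)
    (hcong : (W i₀).valuation ((z : F) ^ n * (algebraMap R F π)⁻¹ - γ) < 1) :
    ∀ 𝔮 : Ideal ↥(chartOne R F τ), 𝔮.IsPrime → 𝔮.height = 1 →
      algebraMap R ↥(chartOne R F τ) π ∉ 𝔮 → 𝔮 ≤ 𝔫 → z ∉ 𝔮 := by
  classical
  haveI : IsFractionRing ↥(chartOne R F τ) F := isFractionRing_chartOne (K₁ := K₁) τ hKτ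
  haveI : IsIntegrallyClosed ↥(chartOne R F τ) := isIntegrallyClosed_chartOne (K₁ := K₁) τ hKτ
  haveI : IsNoetherianRing ↥(chartOne R F τ) := isNoetherianRing_chartOne (K₁ := K₁) τ hτ hKτ
  have hinjF : Function.Injective (algebraMap R F) := by
    rw [IsScalarTower.algebraMap_eq R K F, IsScalarTower.algebraMap_eq R K₁ K]
    exact (algebraMap K F).injective.comp
      ((algebraMap K₁ K).injective.comp (IsFractionRing.injective R K₁))
  have hπF : algebraMap R F π ≠ 0 := by
    intro h0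
    exact hπ.ne_zero (hinjF (by rw [h0, map_zero]))
  set β : F := (z : F) ^ n * (algebraMap R F π)⁻¹ with hβ
  -- `β` is a unit of the valuation ring of the sheet
  have hβW : (W i₀).valuation β = 1 := by
    rw [hβ, map_mul, map_inv₀, hval]
    exact mul_inv_cancel₀ ((Valuation.ne_zero_iff _).mpr hπF)
  -- `β` lies in the local ring (local Hartogs)
  have hβloc : β ∈ locRing (chartOne R F τ) 𝔫 := by
    refine mem_locRing_of_forall_height_one _ (fun 𝔮 h𝔮 hh hle𝔮 => ?_)
    haveI := h𝔮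
    by_cases hπ𝔮 : algebraMap R ↥(chartOne R F τ) π ∈ 𝔮
    · obtain ⟨i, hi⟩ := fam.exists_eq_of_height_one hπ hτ hKτ 𝔮 hh hπ𝔮
      subst hi
      have hii : i = i₀ := honly i hle𝔮
      subst hii
      exact fam.exists_mul_eq_of_mem hπ hτ hKτ i _
        ((ValuationSubring.valuation_le_one_iff _ _).mp hβW.le)
    · refine ⟨z ^ n, algebraMap R ↥(chartOne R F τ) π, hπ𝔮, ?_⟩
      show β * algebraMap R F π = (z : F) ^ n
      rw [hβ, mul_assoc, inv_mul_cancel₀ hπF, mul_one]
  -- `β` is a unit of the local ring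
  have hβγ : β - γ ∈ locMax (chartOne R F τ) 𝔫 :=
    mem_locMax_of_sheet_valuation_lt_one fam 𝔫 i₀ hle ((locRing _ 𝔫).sub_mem hβloc hγ) hcong
  have hβ' : β ∉ locMax (chartOne R F τ) 𝔫 := by
    intro hmem
    apply hγ'
    have : γ = β - (β - γ) := by ring
    rw [this]
    exact sub_mem_locMax hmem hβγ
  obtain ⟨r, s, hs, hrs⟩ := inv_mem_locRing hβloc hβ'
  have hβ0 : β ≠ 0 := by
    intro h0
    rw [h0, map_zero] at hβW
    exact zero_ne_one hβW
  intro 𝔮 h𝔮 _ hπ𝔮 hle𝔮 hz
  haveI := h𝔮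
  -- `π s = z^n r`
  have hkey : algebraMap R ↥(chartOne R F τ) π * s = z ^ n * r := by
    apply Subtype.ext
    show algebraMap R F π * (s : F) = (z : F) ^ n * (r : F)
    rw [← hrs]
    have h1 : (z : F) ^ n = β * algebraMap R F π := by
      rw [hβ, mul_assoc, inv_mul_cancel₀ hπF, mul_one]
    rw [h1]
    field_simp
  have hmem : algebraMap R ↥(chartOne R F τ) π * s ∈ 𝔮 := by
    rw [hkey]
    exact Ideal.mul_mem_right _ _ (Ideal.pow_mem_of_mem _ hz n hn)
  rcases h𝔮.mem_or_mem hmem with h1 | h1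
  · exact hπ𝔮 h1
  · exact hs (hle𝔮 h1)

/-- **the local equation of a ramified sheet at a point lying on that sheet only**: the
conclusion `hgen` of helper3's (G1) (= the shape of `hLE1`). -/
theorem exists_dvd_of_pow_congr (fam : IsSheetFamily π τ W) (hπ : Irreducible π)
    (hτ : Transcendental K₁ τ) (hKτ : IntermediateField.adjoin K₁ {τ} = ⊤)
    (𝔫 : Ideal ↥(chartOne R F τ)) [h𝔫 : 𝔫.IsPrime] (i₀ : ι)
    (hle : sheetIdeal τ (W i₀) (fam.chart_le i₀) ≤ 𝔫)
    (honly : ∀ j, sheetIdeal τ (W j) (fam.chart_le j) ≤ 𝔫 → j = i₀)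
    {z : ↥(chartOne R F τ)} (hz0 : z ≠ 0)
    (hzunif : ∀ x : F, (W i₀).valuation x < 1 → x * (z : F)⁻¹ ∈ W i₀)
    {n : ℕ} (hn : 0 < n)
    (hval : (W i₀).valuation ((z : F) ^ n) = (W i₀).valuation (algebraMap R F π))
    {γ : F} (hγ : γ ∈ locRing (chartOne R F τ) 𝔫) (hγ' : γ ∉ locMax (chartOne R F τ) 𝔫)
    (hcong : (W i₀).valuation ((z : F) ^ n * (algebraMap R F π)⁻¹ - γ) < 1) :
    ∀ w ∈ sheetIdeal τ (W i₀) (fam.chart_le i₀), ∃ s : ↥(chartOne R F τ), s ∉ 𝔫 ∧ z ∣ s * w :=
  exists_dvd_of_local_equation fam hπ hτ hKτ 𝔫 i₀ hz0 hzunif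
    (fun j hj hlej => absurd (honly j hlej) hj)
    (hzhor_of_pow_congr fam hπ hτ hKτ 𝔫 i₀ hle honly hn hval hγ hγ' hcong)

end LocalEq

end Fermat.Agent.S36
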