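/-
S36 [MODEL36 / host transfer] — helper7 — **transport of the F-level sheets of helper6 from the
level fields `keyFq K N` to their host images `keyFw K N w`** (`x ↦ x^w`), in the shape consumed by
`Fermat.Agent.SS.host_three_sheet_lift`.

* `hostImageVal w WF := WF.comap (hostImageEquiv K w (keyFq K N)).symm`;
* `hostImageVal_keyFqWinf` (= Gauss on `keyFw`), `hostImageVal_keyFqW0` (= `hostW0F`);
* `hostImageVal_comap_keyFwA/_keyFwB` : compatibility with the degeneracy maps;
* valuations of transported elements.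
-/
import Mathlib
import Fermat.Agent.S36.MODEL36_helper6_Sheets
import Fermat.Agent.SS.MODEL36_helper7_Lift

set_option autoImplicit false
set_option linter.unusedSectionVars false
set_option linter.unusedVariables false
set_option linter.style.haveILetI false
set_option synthInstance.maxHeartbeats 200000

open ModularCurve Fermat.Agent.Igusa Fermat.Agent.JA Fermat.Agent.SS Fermat.Agent.X0N
open Fermat.Agent.S35 AlgebraicCurve

namespace Fermat.Agent.S36

noncomputable section

section Def

variable (K : Type*) [Field K] [Algebra ℚ K] (w : ℕ) [NeZero w]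

/-- the inverse of the host-image isomorphism as a ring homomorphism. -/
def hostImageSymm (N : ℕ) [NeZero N] : ↥(keyFw K N w) →+* ↥(keyFq K N) :=
  ((hostImageEquiv K w (keyFq K N)).symm : ↥(keyFw K N w) →+* ↥(keyFq K N))

theorem hostImageSymm_hostImageEquiv (N : ℕ) [NeZero N] (g : ↥(keyFq K N)) :
    hostImageSymm K w N (hostImageEquiv K w (keyFq K N) g) = g :=
  (hostImageEquiv K w (keyFq K N)).symm_apply_apply g

theorem hostImageEquiv_hostImageSymm (N : ℕ) [NeZero N] (z : ↥(keyFw K N w)) :
    hostImageEquiv K w (keyFq K N) (hostImageSymm K w N z) = z :=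
  (hostImageEquiv K w (keyFq K N)).apply_symm_apply z

/-- the coefficients: `z = (symm z)(x^w)`. -/
theorem coe_eq_qExpand_hostImageSymm (N : ℕ) [NeZero N] (z : ↥(keyFw K N w)) :
    (z : LaurentSeries K) = qExpand K w ((hostImageSymm K w N z : ↥(keyFq K N)) : LaurentSeries K) := by
  conv_lhs => rw [← hostImageEquiv_hostImageSymm K w N z]
  exact coe_hostImageEquiv _ _

/-- **transport of a valuation subring of `F_N` to the host image `F_{N,w}`.** -/
def hostImageVal {N : ℕ} [NeZero N] (WF : ValuationSubring ↥(keyFq K N)) :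
    ValuationSubring ↥(keyFw K N w) :=
  WF.comap (hostImageSymm K w N)

theorem mem_hostImageVal_iff {N : ℕ} [NeZero N] (WF : ValuationSubring ↥(keyFq K N))
    (z : ↥(keyFw K N w)) : z ∈ hostImageVal K w WF ↔ hostImageSymm K w N z ∈ WF := Iff.rfl

theorem hostImageEquiv_mem_hostImageVal_iff {N : ℕ} [NeZero N]
    (WF : ValuationSubring ↥(keyFq K N)) (g : ↥(keyFq K N)) :
    hostImageEquiv K w (keyFq K N) g ∈ hostImageVal K w WF ↔ g ∈ WF := by
  rw [mem_hostImageVal_iff, hostImageSymm_hostImageEquiv]

theorem hostImageVal_comap {N : ℕ} [NeZero N] (WF : ValuationSubring ↥(keyFq K N)) :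
    (hostImageVal K w WF).comap
      ((hostImageEquiv K w (keyFq K N) : ↥(keyFq K N) ≃ₐ[K] ↥(keyFw K N w)) :
        ↥(keyFq K N) →+* ↥(keyFw K N w)) = WF := by
  ext g
  exact hostImageEquiv_mem_hostImageVal_iff K w WF g

theorem hostImageVal_val_lt_one_iff {N : ℕ} [NeZero N] (WF : ValuationSubring ↥(keyFq K N))
    (g : ↥(keyFq K N)) :
    (hostImageVal K w WF).valuation (hostImageEquiv K w (keyFq K N) g) < 1 ↔
      WF.valuation g < 1 :=
  comap_val_lt_one_iff
    ((hostImageEquiv K w (keyFq K N) : ↥(keyFq K N) ≃ₐ[K] ↥(keyFw K N w)) :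
      ↥(keyFq K N) →+* ↥(keyFw K N w)) (hostImageVal_comap K w WF) g

theorem hostImageVal_val_eq_iff {N : ℕ} [NeZero N] (WF : ValuationSubring ↥(keyFq K N))
    (a b : ↥(keyFq K N)) :
    (hostImageVal K w WF).valuation (hostImageEquiv K w (keyFq K N) a) =
        (hostImageVal K w WF).valuation (hostImageEquiv K w (keyFq K N) b) ↔
      WF.valuation a = WF.valuation b :=
  comap_val_eq_iff
    ((hostImageEquiv K w (keyFq K N) : ↥(keyFq K N) ≃ₐ[K] ↥(keyFw K N w)) :
      ↥(keyFq K N) →+* ↥(keyFw K N w)) (hostImageVal_comap K w WF) a b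

end Def

section Maps

variable (K : Type*) [Field K] [Algebra ℚ K] (w : ℕ) [NeZero w] {M q : ℕ} [NeZero M] [NeZero q]
  [NeZero (M * q)]

/-- `A` commutes with the host-image isomorphism. -/
theorem keyFwA_hostImageEquiv (g : ↥(keyFq K M)) :
    keyFwA (K := K) (M := M) (q := q) w (hostImageEquiv K w (keyFq K M) g) =
      hostImageEquiv K w (keyFq K (M * q)) (keyFqA K M q g) := by
  apply Subtype.ext
  rw [coe_keyFwA, coe_hostImageEquiv, coe_hostImageEquiv, coe_keyFqA]

/-- `B` commutes with the host-image isomorphism. -/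
theorem keyFwB_hostImageEquiv (g : ↥(keyFq K M)) :
    keyFwB (K := K) (M := M) (q := q) w (hostImageEquiv K w (keyFq K M) g) =
      hostImageEquiv K w (keyFq K (M * q)) (keyFqB K M q g) := by
  apply Subtype.ext
  rw [coe_keyFwB, coe_hostImageEquiv, coe_hostImageEquiv, coe_keyFqB, qExpand_qExpand,
    qExpand_qExpand]
  exact qExpand_congr (mul_comm q w) _

theorem hostImageVal_comap_keyFwA (WF : ValuationSubring ↥(keyFq K (M * q))) :
    (hostImageVal K w WF).comap (keyFwA (K := K) (M := M) (q := q) w) =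
      hostImageVal K w (WF.comap (keyFqA K M q : ↥(keyFq K M) →+* ↥(keyFq K (M * q)))) := by
  ext z
  obtain ⟨g, hg⟩ := (hostImageEquiv K w (keyFq K M)).surjective z
  rw [← hg, ValuationSubring.mem_comap, keyFwA_hostImageEquiv,
    hostImageEquiv_mem_hostImageVal_iff, hostImageEquiv_mem_hostImageVal_iff,
    ValuationSubring.mem_comap, RingHom.coe_coe]

theorem hostImageVal_comap_keyFwB (WF : ValuationSubring ↥(keyFq K (M * q))) :
    (hostImageVal K w WF).comap (keyFwB (K := K) (M := M) (q := q) w) =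
      hostImageVal K w (WF.comap (keyFqB K M q : ↥(keyFq K M) →+* ↥(keyFq K (M * q)))) := by
  ext z
  obtain ⟨g, hg⟩ := (hostImageEquiv K w (keyFq K M)).surjective z
  rw [← hg, ValuationSubring.mem_comap, keyFwB_hostImageEquiv,
    hostImageEquiv_mem_hostImageVal_iff, hostImageEquiv_mem_hostImageVal_iff,
    ValuationSubring.mem_comap, RingHom.coe_coe]

end Maps

section Sheets

variable (R : Type*) [CommRing R] [IsDomain R] [IsDiscreteValuationRing R]
  (K : Type*) [Field K] [Algebra R K] [IsFractionRing R K] [Algebra ℚ K]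
  (w : ℕ) [NeZero w]

/-- the transport of the Gauss sheet is the Gauss sheet. -/
theorem hostImageVal_keyFqWinf (N : ℕ) [NeZero N] :
    hostImageVal K w (keyFqWinf R K N) =
      gaussValSub R K (keyFw K N w) (keyFw_le_gaussField R K N w) := by
  ext z
  rw [mem_hostImageVal_iff, mem_keyFqWinf_iff]
  show _ ↔ (z : LaurentSeries K) ∈ gaussInt R K
  rw [coe_eq_qExpand_hostImageSymm K w N z]
  exact (qExpand_mem_gaussInt_iff' w
    (laurentBaseChange_full_le_gaussField R K N (hostImageSymm K w N z).2)).symm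

variable (ι : K →+* ℂ) {M q : ℕ} [NeZero M] [NeZero q] [NeZero (M * q)] {x y : ℤ}
  (h : (q : ℤ) * x + M * y = 1) (hq : q.Prime)

/-- the transport of `W_0` of `F_{Mq}` is `hostW0F`. -/
theorem hostImageVal_keyFqW0 :
    hostImageVal K w (keyFqW0 R K ι h hq) = hostW0F K ι w h hq R := by
  ext z
  obtain ⟨g, hg⟩ := (hostImageEquiv K w (keyFq K (M * q))).surjective z
  rw [← hg, hostImageEquiv_mem_hostImageVal_iff, mem_keyFqW0_iff, mem_hostW0F_iff,
    alHost_hostImageEquiv, coe_hostImageEquiv]
  exact (qExpand_mem_gaussInt_iff' w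
    (laurentBaseChange_full_le_gaussField R K (M * q) (atkinLehnerN ι h hq g).2)).symm

end Sheets

end

end Fermat.Agent.S36
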