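/-
S36 — helper9 — **[INST36], part 1: the purely inseparable fibre.**

`ι : E₁ →+* E`, `O` a discrete valuation subring of `E₁` of residue characteristic `q`, `V` a
valuation subring of `E` over `O`, `y ∈ V`, `u ∈ E₁` with the Kronecker congruence `ι u ≡ y ^ q`
along `V`.  If `f ≡ ∑ i, ι (a i) * y ^ i` along `V` (the residue span delivered by helper7's
`one_ext_hom`), then `f ^ q ≡ ι (∑ i, a i ^ q * u ^ i)` along `V`: the `q`-th powers of the residue
field of `V` lie in the residue field of `O`.  With helper2's `norm_reduction_one_ext_hom` this gives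
`ι (N f) ≡ f ^ q` along `V` for every `f ∈ V` (`inst36_norm_insep`): the literal `hNViA`/`hNAi`
of `roots36`/`toric36`.
-/
import Mathlib
import Fermat.Agent.S36.NORMVAL_helper2_One
import Fermat.Agent.SS.VAL3_helper7_Insep

set_option autoImplicit false
set_option linter.unusedSectionVars false
set_option linter.unusedVariables false
set_option linter.style.haveILetI false

open IsLocalRing

namespace Fermat.Agent.S36

open Fermat.Agent.SS

section Val

variable {E : Type*} [Field E] (W : ValuationSubring E)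

/-- a finite sum of small elements is small. -/
theorem inst36_val_sum_lt {ι : Type*} (s : Finset ι) (c : ι → E)
    (hc : ∀ i ∈ s, W.valuation (c i) < 1) : W.valuation (∑ i ∈ s, c i) < 1 :=
  Valuation.map_sum_lt _ one_ne_zero hc

/-- residue characteristic `q`: the residue field has characteristic `q`. -/
theorem inst36_charP_residueField {q : ℕ} (hq : q.Prime) (hchar : W.valuation ((q : ℕ) : E) < 1) :
    CharP (ResidueField ↥W) q := by
  have h1 : ((q : ℕ) : E) ∈ W := (W.valuation_le_one_iff _).1 hchar.le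
  have h2 : (((q : ℕ) : ↥W) : E) = ((q : ℕ) : E) := by norm_cast
  have h3 : ((q : ℕ) : ↥W) ∈ maximalIdeal ↥W := by
    rw [ValuationSubring.valuation_lt_one_iff, h2]
    exact hchar
  have h4 : ((q : ℕ) : ResidueField ↥W) = 0 := by
    rw [← map_natCast (residue ↥W), residue_eq_zero_iff]
    exact h3
  exact charP_of_prime_of_natCast_eq_zero hq h4

/-- the residue classes of two elements of `W` agree iff their difference is small. -/
theorem inst36_residue_eq_iff (a b : ↥W) :
    residue ↥W a = residue ↥W b ↔ W.valuation ((a : E) - (b : E)) < 1 := by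
  rw [← sub_eq_zero, ← map_sub, residue_eq_zero_iff, ValuationSubring.valuation_lt_one_iff]
  rfl

/-- **the freshman's dream modulo the maximal ideal.** -/
theorem inst36_val_sum_pow_char {q : ℕ} (hq : q.Prime) (hchar : W.valuation ((q : ℕ) : E) < 1)
    {n : ℕ} (c : Fin n → E) (hc : ∀ i, c i ∈ W) :
    W.valuation ((∑ i, c i) ^ q - ∑ i, c i ^ q) < 1 := by
  haveI : CharP (ResidueField ↥W) q := inst36_charP_residueField W hq hchar
  haveI : ExpChar (ResidueField ↥W) q := ExpChar.prime hq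
  set c' : Fin n → ↥W := fun i => ⟨c i, hc i⟩ with hc'
  have h1 : residue ↥W ((∑ i, c' i) ^ q) = residue ↥W (∑ i, c' i ^ q) := by
    rw [map_pow, map_sum, map_sum, sum_pow_char]
    simp only [map_pow]
  have h2 := (inst36_residue_eq_iff W _ _).1 h1
  have e1 : (((∑ i, c' i) ^ q : ↥W) : E) = (∑ i, c i) ^ q := by
    push_cast
    rfl
  have e2 : ((∑ i, c' i ^ q : ↥W) : E) = ∑ i, c i ^ q := by
    push_cast
    rfl
  rwa [e1, e2] at h2

end Val

section Insep

variable {E₁ E : Type*} [Field E₁] [Field E]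

/-- **`q`-th powers along a purely inseparable fibre**: from the residue span
`f ≡ ∑ ι (a i) y ^ i` and the Kronecker congruence `ι u ≡ y ^ q`:
`f ^ q ≡ ι (∑ a i ^ q u ^ i)`. -/
theorem inst36_pow_cong_of_span (ι : E₁ →+* E) {O : ValuationSubring E₁} {V : ValuationSubring E}
    (h : V.comap ι = O) {q : ℕ} (hq : q.Prime) (hchar : O.valuation ((q : ℕ) : E₁) < 1)
    {y : E} {u : E₁} (hy : y ∈ V) (hkron : V.valuation (ι u - y ^ q) < 1)
    {f : E} (a : Fin q → ↥O)
    (hspan : V.valuation (f - ∑ i, ι (a i : E₁) * y ^ (i : ℕ)) < 1) :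
    V.valuation (f ^ q - ι (∑ i, (a i : E₁) ^ q * u ^ (i : ℕ))) < 1 := by
  have hcharV : V.valuation ((q : ℕ) : E) < 1 := by
    rw [← map_natCast ι, comap_val_lt_one_iff ι h]
    exact hchar
  have haV : ∀ i, ι (a i : E₁) ∈ V := fun i => (comap_mem_iff ι h _).2 (a i).2
  have hyq : y ^ q ∈ V := pow_mem hy q
  have huV : ι u ∈ V := by
    have h1 : ι u - y ^ q ∈ V := (V.valuation_le_one_iff _).1 hkron.le
    have := V.add_mem _ _ h1 hyq
    rwa [sub_add_cancel] at this
  set s : E := ∑ i, ι (a i : E₁) * y ^ (i : ℕ) with hs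
  have hsV : s ∈ V := sum_mem fun i _ => V.mul_mem _ _ (haV i) (pow_mem hy _)
  have hfV : f ∈ V := by
    have h1 : f - s ∈ V := (V.valuation_le_one_iff _).1 hspan.le
    have := V.add_mem _ _ h1 hsV
    rwa [sub_add_cancel] at this
  -- step 1
  have st1 : V.valuation (f ^ q - s ^ q) < 1 := val_pow_sub_pow_lt_one V hfV hsV hspan q
  -- step 2
  have st2 : V.valuation (s ^ q - ∑ i, (ι (a i : E₁) * y ^ (i : ℕ)) ^ q) < 1 :=
    inst36_val_sum_pow_char V hq hcharV _ (fun i => V.mul_mem _ _ (haV i) (pow_mem hy _))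
  -- step 3
  have st3 : V.valuation ((∑ i, (ι (a i : E₁) * y ^ (i : ℕ)) ^ q) -
      ι (∑ i, (a i : E₁) ^ q * u ^ (i : ℕ))) < 1 := by
    rw [map_sum, ← Finset.sum_sub_distrib]
    apply inst36_val_sum_lt
    intro i _
    have e : (ι (a i : E₁) * y ^ (i : ℕ)) ^ q - ι ((a i : E₁) ^ q * u ^ (i : ℕ)) =
        ι (a i : E₁) ^ q * ((y ^ q) ^ (i : ℕ) - ι u ^ (i : ℕ)) := by
      rw [map_mul, map_pow, map_pow]
      ring
    rw [e]
    have h1 : V.valuation ((y ^ q) ^ (i : ℕ) - ι u ^ (i : ℕ)) < 1 := by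
      apply val_pow_sub_pow_lt_one V hyq huV
      rw [← Valuation.map_sub_swap]
      exact hkron
    exact val_lt_one_mem_mul V (pow_mem (haV i) q) h1
  have e : f ^ q - ι (∑ i, (a i : E₁) ^ q * u ^ (i : ℕ)) =
      (f ^ q - s ^ q) + ((s ^ q - ∑ i, (ι (a i : E₁) * y ^ (i : ℕ)) ^ q) +
        ((∑ i, (ι (a i : E₁) * y ^ (i : ℕ)) ^ q) - ι (∑ i, (a i : E₁) ^ q * u ^ (i : ℕ)))) := by
    ring
  rw [e]
  exact val_lt_one_add V st1 (val_lt_one_add V st2 st3)

/-- **the norm along a purely inseparable fibre**: `ι (N f) ≡ f ^ q` along `V` for every `f ∈ V`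
(hypotheses of helper7's `one_ext_hom` with `b i = y ^ i` + Kronecker + residue characteristic). -/
theorem inst36_norm_insep (ι : E₁ →+* E) (O : ValuationSubring E₁) [IsDiscreteValuationRing ↥O]
    (hfin : letI := ι.toAlgebra; FiniteDimensional E₁ E)
    (hsep : letI := ι.toAlgebra; Algebra.IsSeparable E₁ E)
    {V : ValuationSubring E} (h : V.comap ι = O) {q : ℕ} (hq : q.Prime)
    (hchar : O.valuation ((q : ℕ) : E₁) < 1)
    (hr : letI := ι.toAlgebra; Module.finrank E₁ E ≤ q)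
    {y : E} {u : E₁} (hy : y ∈ V) (hkron : V.valuation (ι u - y ^ q) < 1)
    (hind : ∀ a : Fin q → ↥O, V.valuation (∑ i, ι (a i : E₁) * y ^ (i : ℕ)) < 1 →
      ∀ i, a i ∈ maximalIdeal ↥O)
    {f : E} (hf : f ∈ V) :
    V.valuation (ι (letI := ι.toAlgebra; Algebra.norm E₁ f) - f ^ q) < 1 := by
  obtain ⟨-, -, -, hspan⟩ := one_ext_hom ι O hfin hsep h hq.pos hr (fun i : Fin q => y ^ (i : ℕ))
    (fun i => pow_mem hy _) hind
  obtain ⟨a, ha⟩ := hspan f hf
  have hc := inst36_pow_cong_of_span ι h hq hchar hy hkron a ha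
  obtain ⟨-, hN⟩ := norm_reduction_one_ext_hom ι O hfin hsep h hq hchar hr
    (fun i : Fin q => y ^ (i : ℕ)) (fun i => pow_mem hy _) hind hf hc
  have h1 : V.valuation (ι ((letI := ι.toAlgebra; Algebra.norm E₁ f) -
      ∑ i, (a i : E₁) ^ q * u ^ (i : ℕ))) < 1 := (comap_val_lt_one_iff ι h _).2 hN
  rw [map_sub] at h1
  have e : ι (letI := ι.toAlgebra; Algebra.norm E₁ f) - f ^ q =
      (ι (letI := ι.toAlgebra; Algebra.norm E₁ f) - ι (∑ i, (a i : E₁) ^ q * u ^ (i : ℕ))) -
        (f ^ q - ι (∑ i, (a i : E₁) ^ q * u ^ (i : ℕ))) := by ring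
  rw [e]
  exact val_lt_one_sub V h1 hc

/-- **`q`-th powers of the residue field of a purely inseparable fibre lie below**
(helper3's (INS) literal): `∀ x ∈ V, ∃ a ∈ O, V.valuation (x ^ q - ι a) < 1`. -/
theorem inst36_exists_pow_cong (ι : E₁ →+* E) (O : ValuationSubring E₁)
    [IsDiscreteValuationRing ↥O]
    (hfin : letI := ι.toAlgebra; FiniteDimensional E₁ E)
    (hsep : letI := ι.toAlgebra; Algebra.IsSeparable E₁ E)
    {V : ValuationSubring E} (h : V.comap ι = O) {q : ℕ} (hq : q.Prime)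
    (hchar : O.valuation ((q : ℕ) : E₁) < 1)
    (hr : letI := ι.toAlgebra; Module.finrank E₁ E ≤ q)
    {y : E} {u : E₁} (hy : y ∈ V) (hkron : V.valuation (ι u - y ^ q) < 1)
    (hind : ∀ a : Fin q → ↥O, V.valuation (∑ i, ι (a i : E₁) * y ^ (i : ℕ)) < 1 →
      ∀ i, a i ∈ maximalIdeal ↥O) :
    ∀ x ∈ V, ∃ a ∈ O, V.valuation (x ^ q - ι a) < 1 := by
  intro x hx
  obtain ⟨-, -, -, hspan⟩ := one_ext_hom ι O hfin hsep h hq.pos hr (fun i : Fin q => y ^ (i : ℕ))
    (fun i => pow_mem hy _) hind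
  obtain ⟨a, ha⟩ := hspan x hx
  have hc := inst36_pow_cong_of_span ι h hq hchar hy hkron a ha
  refine ⟨∑ i, (a i : E₁) ^ q * u ^ (i : ℕ), ?_, hc⟩
  -- `u ∈ O`
  have huV : ι u ∈ V := by
    have h1 : ι u - y ^ q ∈ V := (V.valuation_le_one_iff _).1 hkron.le
    have := V.add_mem _ _ h1 (pow_mem hy q)
    rwa [sub_add_cancel] at this
  have huO : u ∈ O := (comap_mem_iff ι h u).1 huV
  exact sum_mem fun i _ => O.mul_mem _ _ (pow_mem (a i).2 q) (pow_mem huO _)

end Insep

end Fermat.Agent.S36
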