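/-
S36 — lead — **the interface of the geometric input (KEY36)** ("a newform of level `M * q` with
`q ∣ M`, `q ^ 2 ∤ M` has no inertia invariants at `q`"): on the `p`-power torsion of `J₀(M q)` fixed
by the inertia group at a place `A ∣ q` and killed by both degeneracy pushforwards to level `M`,
multiplication by a bounded power of `p` is zero.
-/
import Mathlib
import Fermat.Agent.S35.KEY_lead_Iface

set_option autoImplicit false
set_option linter.unusedSectionVars false
set_option linter.unusedVariables false
set_option linter.style.haveILetI false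

open AlgebraicCurve ModularCurve

namespace Fermat.Agent.S36

open Fermat.Agent.JA Fermat.Agent.X0N Fermat.Agent.S35

/-- `Ω = AlgebraicClosure ℚ`. -/
local notation "Ω" => AlgebraicClosure ℚ

/-- the absolute Galois group. -/
local notation "GQ" => (AlgebraicClosure ℚ ≃ₐ[ℚ] AlgebraicClosure ℚ)

/-- **(KEY36)**: the inertia-invariant `p`-power torsion of `J₀(M q)` killed by both degeneracy
pushforwards to level `M` is killed by a bounded power of `p`. -/
def Key36 (M q p : ℕ) [NeZero M] [NeZero q] [NeZero (M * q)] : Prop :=
  ∃ c : ℕ, ∀ A : ValuationSubring Ω, A.LiesOverPrime q →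
    ∀ (k : ℕ) (x : JZero (M * q)), p ^ k • x = 0 →
      (∀ τ ∈ A.inertiaSubgroupIn ℚ, τ • x = x) →
      degPushAlpha M q x = 0 → degPushBeta M q x = 0 → p ^ c • x = 0

/-- **the geometric input of S36, all levels** (`q ∥ M`, so `q ^ 2 ∥ M q`). -/
def Key36Statement : Prop :=
  ∀ (M q p : ℕ) [NeZero M] [NeZero q] [NeZero (M * q)], q.Prime → p.Prime → q ≠ p → q ∣ M →
    ¬ q ^ 2 ∣ M → Key36 M q p

end Fermat.Agent.S36
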