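/-
S36 [hLE1] — helper6 — **Hesse (`q = 2`)**: the local equation of the middle sheet `W11` of the
Hesse host of level `M · 4` at the closed points of the chart `j` lying on `W11` only, in the
literal shape of hypothesis (5) `hLE1` of helper4's `hesGeneric_of_local`.
For `q = 2` the middle sheet is unramified over the base (`δ ^ (2 - 1) ~ π`), so `π` itself is a
local equation (helper3's `exists_dvd_pi_of_single_sheet`).
-/
import Mathlib
import Fermat.Agent.S36.HOST36_helper7_Delta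
import Fermat.Agent.S36.LOCAL36_helper3_Gen
import Fermat.Agent.S36.POINTS36_helper3_Datum
import Fermat.Agent.SS.MODEL_helper7_Hes

set_option autoImplicit false
set_option linter.unusedSectionVars false
set_option linter.unusedVariables false
set_option linter.style.haveILetI false
set_option synthInstance.maxHeartbeats 200000

open Polynomial ModularCurve IntermediateField
open Fermat.Agent.Igusa Fermat.Agent.JA Fermat.Agent.SS Fermat.Agent.X0N
open Fermat.Agent.S35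

open scoped Fermat.Agent.JA.Host

namespace Fermat.Agent.S36

noncomputable section

section Abs

variable {E : Type*} [Field E]

/-- if `δ` is a uniformizer of `W` and `δ ~ ϖ`, then `ϖ` is a uniformizer of `W`. -/
theorem unif_of_val_eq (W : ValuationSubring E) {δ ϖ : E}
    (hδunif : ∀ x : E, W.valuation x < 1 → x * δ⁻¹ ∈ W)
    (hδ : W.valuation δ = W.valuation ϖ) (hϖ : ϖ ≠ 0) :
    ∀ x : E, W.valuation x < 1 → x * ϖ⁻¹ ∈ W := by
  intro x hx
  have hδ0 : δ ≠ 0 := by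
    intro h0
    rw [h0, map_zero] at hδ
    exact ((Valuation.ne_zero_iff _).mpr hϖ) hδ.symm
  have e : x * ϖ⁻¹ = (x * δ⁻¹) * (δ * ϖ⁻¹) := by
    field_simp
  rw [e]
  refine W.mul_mem _ _ (hδunif x hx) ?_
  rw [← ValuationSubring.valuation_le_one_iff, map_mul, map_inv₀, hδ,
    mul_inv_cancel₀ ((Valuation.ne_zero_iff _).mpr hϖ)]

end Abs

section Hes

variable (R : Type*) [CommRing R] [IsDomain R] [IsDiscreteValuationRing R] [CharZero R]
  [DecidableEq R]
  (K : Type*) [Field K] [Algebra R K] [IsFractionRing R K] [Algebra ℚ K] [Algebra K ℂ]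
  {M : ℕ} [NeZero M] [NeZero (M * 2)] [NeZero (M * 2 * 2)] {x y : ℤ}
  {π : R}
  {R' : Type*} [CommRing R'] [IsDomain R'] [IsDiscreteValuationRing R']
  {K' : Type*} [Field K'] [Algebra R' K'] [IsFractionRing R' K']

set_option maxHeartbeats 1600000 in
/-- **`hLE1`, Hesse** (literal shape of `hesGeneric_of_local`). -/
theorem hes_local_equation_w11 (hπ : Irreducible π) (h3 : IsUnit (3 : R)) (ω : R)
    (h : ((2 : ℕ) : ℤ) * x + M * y = 1)
    (hqπ : ((2 : ℕ) : R) ∈ Ideal.span {π})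
    (hgeo : GeoHyps K π (AdjoinSimple.gen K (hesT K)) ↥(hesE K M) M
      ({1, ω, ω ^ 2} : Finset R))
    (φ : R →+* R') [IsLocalHom φ] (κ : K →+* K')
    (hκ : ∀ r : R, κ (algebraMap R K r) = algebraMap R' K' (φ r))
    (ζ u : R'ˣ) (hζq : ζ ^ 2 = 1) (hζ1 : ζ ≠ 1)
    (hπζ : φ π = ((ζ : R') - 1) ^ (2 - 1) * u) :
    ∀ (W11 W02 : ValuationSubring ↥(hesE K (M * 2 * 2))),
      W11.comap (hesIncl K (M * 2 * 2)) =
        hostImageVal K 3 (keyFqW11 R K h Nat.prime_two φ κ hκ ζ hζq hζ1) →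
      W02.comap (hesIncl K (M * 2 * 2)) = hostImageVal K 3 (keyFqW02 R K h Nat.prime_two) →
      haveI : FiniteDimensional ↥K⟮jqNModC K 3⟯ ↥(hesE K (M * 2 * 2)) :=
        finite_hesE_adjoin_j K (M * 2 * 2)
      ∀ (fam : IsSheetFamily π (AdjoinSimple.gen K (jqNModC K 3))
        ![hesWinf R K h3 (M * 2 * 2), W11, W02]),
      ∀ (𝔫 : Ideal ↥(chartOne R ↥(hesE K (M * 2 * 2)) (AdjoinSimple.gen K (jqNModC K 3))))
        (_ : 𝔫.IsMaximal),
      sheetIdeal (AdjoinSimple.gen K (jqNModC K 3)) (![hesWinf R K h3 (M * 2 * 2), W11, W02] 1)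
        (fam.chart_le 1) ≤ 𝔫 →
      (∀ l, sheetIdeal (AdjoinSimple.gen K (jqNModC K 3))
        (![hesWinf R K h3 (M * 2 * 2), W11, W02] l) (fam.chart_le l) ≤ 𝔫 → l = 1) →
      ∃ z : ↥(chartOne R ↥(hesE K (M * 2 * 2)) (AdjoinSimple.gen K (jqNModC K 3))),
        z ∈ sheetIdeal (AdjoinSimple.gen K (jqNModC K 3))
          (![hesWinf R K h3 (M * 2 * 2), W11, W02] 1) (fam.chart_le 1) ∧ z ≠ 0 ∧
        ∀ w ∈ sheetIdeal (AdjoinSimple.gen K (jqNModC K 3))
          (![hesWinf R K h3 (M * 2 * 2), W11, W02] 1) (fam.chart_le 1),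
          ∃ s : ↥(chartOne R ↥(hesE K (M * 2 * 2)) (AdjoinSimple.gen K (jqNModC K 3))),
            s ∉ 𝔫 ∧ z ∣ s * w := by
  intro W11 W02 h11 h02
  haveI : FiniteDimensional ↥K⟮jqNModC K 3⟯ ↥(hesE K (M * 2 * 2)) :=
    finite_hesE_adjoin_j K (M * 2 * 2)
  intro fam 𝔫 h𝔫 hle honly
  haveI := h𝔫.isPrime
  obtain ⟨-, hT⟩ := hesE_isThreeSheet_delta R K hπ h3 ω h hqπ hgeo φ κ hκ ζ hζq hζ1 u hπζ
    W11 W02 h11 h02
  have hinjE : Function.Injective (algebraMap R ↥(hesE K (M * 2 * 2))) := by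
    rw [IsScalarTower.algebraMap_eq R K ↥(hesE K (M * 2 * 2))]
    exact (algebraMap K ↥(hesE K (M * 2 * 2))).injective.comp (IsFractionRing.injective R K)
  have hπE : algebraMap R ↥(hesE K (M * 2 * 2)) π ≠ 0 := fun h0 =>
    hπ.ne_zero (hinjE (by rw [h0, map_zero]))
  have hval : W11.valuation (hesDelta K M) =
      W11.valuation (algebraMap R ↥(hesE K (M * 2 * 2)) π) := by
    have := hT.val_δ
    simpa using this
  have he : ∀ x : ↥(hesE K (M * 2 * 2)),
      ((![hesWinf R K h3 (M * 2 * 2), W11, W02] : Fin 3 → _) 1).valuation x < 1 →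
      x * (algebraMap R ↥(hesE K (M * 2 * 2)) π)⁻¹ ∈
        (![hesWinf R K h3 (M * 2 * 2), W11, W02] : Fin 3 → _) 1 :=
    unif_of_val_eq W11 hT.unif_11 hval hπE
  have hπmem : algebraMap R ↥(chartOne R ↥(hesE K (M * 2 * 2))
      (AdjoinSimple.gen K (jqNModC K 3))) π ∈
      sheetIdeal (AdjoinSimple.gen K (jqNModC K 3))
        (![hesWinf R K h3 (M * 2 * 2), W11, W02] 1) (fam.chart_le 1) :=
    sinfemb_pi_mem_sheetIdeal (fam.gauss 1)
  refine ⟨algebraMap R _ π, hπmem, ?_, ?_⟩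
  · intro h0
    have h1 : algebraMap R ↥(hesE K (M * 2 * 2)) π = 0 :=
      congrArg (fun b : ↥(chartOne R ↥(hesE K (M * 2 * 2))
        (AdjoinSimple.gen K (jqNModC K 3))) => (b : ↥(hesE K (M * 2 * 2)))) h0
    exact hπE h1
  · exact exists_dvd_pi_of_single_sheet (K₁ := K) fam hπ (ssModelHes_j_transcendental K)
      (ssModelHes_j_adjoin K) 𝔫 1 he honly

end Hes

end

end Fermat.Agent.S36
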