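/-
S36 [hLE1] — helper6 — **Legendre (`q` odd)**: the local equation of the middle sheet `W11` of the
Legendre host of level `M q²` at the closed points of the chart `j` lying on `W11` only, in the
literal shape of hypothesis (5) `hLE1` of helper4's `legGeneric_of_local`.

Assembly: helper7's `legE_isThreeSheet_delta` (three sheets from `h11`, `h02`), my identification
`legW11_eq_of_isThreeSheet` (`W11 = legW11 = θ⁻¹(Gauss ring)`), the expansion lemmas of
`HOST11_helper6_Theta`, the lead's unconditional `μ`-unit wrapper `legMu_unit_of_not_le_final`,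
and helper5's `local_equation_w11_of_expansion` (`z = t₀ − t₂`).
-/
import Mathlib
import Fermat.Agent.S36.HOST11_helper6_Theta
import Fermat.Agent.S36.HOST11_helper6_Cyclo
import Fermat.Agent.S36.HOST36_helper7_Delta
import Fermat.Agent.S36.W11LOC_helper5_Xfer
import Fermat.Agent.S36.REG1_lead_Final
import Fermat.Agent.SS.MODEL_helper7_Leg
import Fermat.Agent.SS.EXPORT_helper4_Model

set_option autoImplicit false
set_option linter.unusedSectionVars false
set_option linter.unusedVariables false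
set_option linter.style.haveILetI false
set_option synthInstance.maxHeartbeats 200000

open Polynomial ModularCurve IntermediateField
open Fermat.Agent.Igusa Fermat.Agent.JA Fermat.Agent.SS Fermat.Agent.X0N
open Fermat.Agent.S35

open scoped Fermat.Agent.JA.Host

namespace Fermat.Agent.S36

noncomputable section

section Unit

variable {R : Type*} [CommRing R] [IsDomain R] [IsDiscreteValuationRing R]
  {R' : Type*} [CommRing R'] [IsDomain R'] [IsDiscreteValuationRing R']

/-- **the base is unramified at `q`**: `q = π e` and `φ π = (ζ - 1)^{q-1} u` force `e` to be a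
unit. -/
theorem isUnit_of_cyclo_datum (φ : R →+* R') [IsLocalHom φ] {q : ℕ} (hq : q.Prime) (hq2 : q ≠ 2)
    {π e : R} (hπ : ¬ IsUnit π) (hqe : (q : R) = π * e) (ζ u : R'ˣ) (hζq : ζ ^ q = 1)
    (hζ1 : ζ ≠ 1) (hπζ : φ π = ((ζ : R') - 1) ^ (q - 1) * u) : IsUnit e := by
  haveI : NeZero q := ⟨hq.ne_zero⟩
  have hζres : IsLocalRing.residue R' (ζ : R') = 1 := residue_zeta_eq_one_of_eq R φ ζ hπ u hπζ
  have hζq' : (ζ : R') ^ q = 1 := by rw [← Units.val_pow_eq_pow_val, hζq, Units.val_one]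
  have hζ1' : (ζ : R') ≠ 1 := fun h0 => hζ1 (Units.ext (by rw [h0, Units.val_one]))
  have hU : ((q : ℕ) : R') = ((ζ : R') - 1) ^ (q - 1) * ((u : R') * φ e) := by
    rw [← mul_assoc, ← hπζ, ← map_mul, ← hqe, map_natCast]
  have hres := residue_eq_neg_one_of_cyclo hq hq2 hζq' hζ1' hζres hU
  have hunit : IsUnit ((u : R') * φ e) := by
    by_contra hnu
    have h0 : IsLocalRing.residue R' ((u : R') * φ e) = 0 :=
      (IsLocalRing.residue_eq_zero_iff _).mpr ((IsLocalRing.mem_maximalIdeal _).mpr hnu)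
    rw [h0] at hres
    exact one_ne_zero (neg_eq_zero.mp hres.symm)
  have hφe : IsUnit (φ e) := isUnit_of_mul_isUnit_right hunit
  exact isUnit_of_map_unit φ e hφe

end Unit

section Leg

variable (R : Type*) [CommRing R] [IsDomain R] [IsDiscreteValuationRing R] [CharZero R]
  [DecidableEq R]
  (K : Type*) [Field K] [Algebra R K] [IsFractionRing R K] [Algebra ℚ K] [Algebra K ℂ]
  {M q : ℕ} [NeZero M] [NeZero q] [NeZero (M * q)] [NeZero (M * q * q)] {x y : ℤ}
  {π : R}
  {R' : Type*} [CommRing R'] [IsDomain R'] [IsDiscreteValuationRing R']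
  {K' : Type*} [Field K'] [Algebra R' K'] [IsFractionRing R' K']

set_option maxHeartbeats 3200000 in
/-- **`hLE1`, Legendre** (literal shape of `legGeneric_of_local`). -/
theorem leg_local_equation_w11 (hπ : Irreducible π) (h2 : IsUnit (2 : R))
    (h : (q : ℤ) * x + M * y = 1) (hq : q.Prime) (hq2 : q ≠ 2)
    (hqπ : (q : R) ∈ Ideal.span {π})
    (hgeo : GeoHyps K π (AdjoinSimple.gen K (legT K)) ↥(legE K M) M ({0, 1} : Finset R))
    (φ : R →+* R') [IsLocalHom φ] (κ : K →+* K')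
    (hκ : ∀ r : R, κ (algebraMap R K r) = algebraMap R' K' (φ r))
    (ζ u : R'ˣ) (hζq : ζ ^ q = 1) (hζ1 : ζ ≠ 1)
    (hπζ : φ π = ((ζ : R') - 1) ^ (q - 1) * u)
    (hαB : ∀ b ∈ chartOne R ↥(legE K (M * q)) (AdjoinSimple.gen K (jqNModC K 2)),
      (legHostA K (M * q) q : ↥(legE K (M * q)) →+* ↥(legE K (M * q * q))) b ∈
        chartOne R ↥(legE K (M * q * q)) (AdjoinSimple.gen K (jqNModC K 2)))
    (hβB : ∀ b ∈ chartOne R ↥(legE K (M * q)) (AdjoinSimple.gen K (jqNModC K 2)),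
      (legHostB K (M * q) q hq hq2 : ↥(legE K (M * q)) →+* ↥(legE K (M * q * q))) b ∈
        chartOne R ↥(legE K (M * q * q)) (AdjoinSimple.gen K (jqNModC K 2)))
    (hαint : (chartRestrictHom
      (B' := chartOne R ↥(legE K (M * q)) (AdjoinSimple.gen K (jqNModC K 2)))
      (B := chartOne R ↥(legE K (M * q * q)) (AdjoinSimple.gen K (jqNModC K 2)))
      (legHostA K (M * q) q : ↥(legE K (M * q)) →+* ↥(legE K (M * q * q))) hαB).IsIntegral) :
    ∀ (W11 W02 : ValuationSubring ↥(legE K (M * q * q))),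
      W11.comap (legIncl K (M * q * q)) =
        hostImageVal K 2 (keyFqW11 R K h hq φ κ hκ ζ hζq hζ1) →
      W02.comap (legIncl K (M * q * q)) = hostImageVal K 2 (keyFqW02 R K h hq) →
      haveI : FiniteDimensional ↥K⟮jqNModC K 2⟯ ↥(legE K (M * q * q)) :=
        finite_legE_adjoin_j K (M * q * q)
      ∀ (fam : IsSheetFamily π (AdjoinSimple.gen K (jqNModC K 2))
        ![legWinf R K h2 (M * q * q), W11, W02]),
      ∀ (𝔫 : Ideal ↥(chartOne R ↥(legE K (M * q * q)) (AdjoinSimple.gen K (jqNModC K 2))))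
        (_ : 𝔫.IsMaximal),
      sheetIdeal (AdjoinSimple.gen K (jqNModC K 2)) (![legWinf R K h2 (M * q * q), W11, W02] 1)
        (fam.chart_le 1) ≤ 𝔫 →
      (∀ l, sheetIdeal (AdjoinSimple.gen K (jqNModC K 2))
        (![legWinf R K h2 (M * q * q), W11, W02] l) (fam.chart_le l) ≤ 𝔫 → l = 1) →
      ∃ z : ↥(chartOne R ↥(legE K (M * q * q)) (AdjoinSimple.gen K (jqNModC K 2))),
        z ∈ sheetIdeal (AdjoinSimple.gen K (jqNModC K 2))
          (![legWinf R K h2 (M * q * q), W11, W02] 1) (fam.chart_le 1) ∧ z ≠ 0 ∧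
        ∀ w ∈ sheetIdeal (AdjoinSimple.gen K (jqNModC K 2))
          (![legWinf R K h2 (M * q * q), W11, W02] 1) (fam.chart_le 1),
          ∃ s : ↥(chartOne R ↥(legE K (M * q * q)) (AdjoinSimple.gen K (jqNModC K 2))),
            s ∉ 𝔫 ∧ z ∣ s * w := by
  intro W11 W02 h11 h02
  haveI : FiniteDimensional ↥K⟮jqNModC K 2⟯ ↥(legE K (M * q * q)) :=
    finite_legE_adjoin_j K (M * q * q)
  haveI : FiniteDimensional ↥K⟮jqNModC K 2⟯ ↥(legE K (M * q)) := finite_legE_adjoin_j K (M * q)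
  intro fam
  -- the auxiliary level `4 M`
  haveI : NeZero (4 * M) := ⟨Nat.mul_ne_zero (by norm_num) (NeZero.ne M)⟩
  haveI : NeZero (4 * M * q) := ⟨Nat.mul_ne_zero (NeZero.ne (4 * M)) (NeZero.ne q)⟩
  haveI : NeZero (4 * M * q * q) := ⟨Nat.mul_ne_zero (NeZero.ne (4 * M * q)) (NeZero.ne q)⟩
  have hqM : ¬ q ∣ M := not_dvd_of_bezout h hq
  have hq4 : ¬ q ∣ 4 := by
    intro h4
    have h5 : q ∣ 2 ^ 2 := by norm_num; exact h4
    have h6 := (Nat.prime_dvd_prime_iff_eq hq Nat.prime_two).mp (hq.dvd_of_dvd_pow h5)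
    exact hq2 h6
  obtain ⟨x', y', h'⟩ := exists_bezout_mul (c := 4) hq hqM hq4
  -- residue characteristics
  haveI : CharP (IsLocalRing.ResidueField R) q := charP_residueField_of_mem_span hπ hq hqπ
  haveI : ExpChar (IsLocalRing.ResidueField R) q := ExpChar.prime hq
  haveI : ExpChar (IsLocalRing.ResidueField R') q :=
    expChar_of_injective_ringHom (IsLocalRing.ResidueField.map φ).injective q
  -- the three sheets and the identification of `W11`
  obtain ⟨-, hT⟩ := legE_isThreeSheet_delta R K hπ h2 h hq hq2 hqπ hgeo φ κ hκ ζ hζq hζ1 u hπζ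
    W11 W02 h11 h02
  have hmodel := ssModelLeg R K hπ h2 h hq hq2 hqπ hgeo
  have hW : legW11 R K h' hq φ κ hκ ζ hζq hζ1 = W11 :=
    legW11_eq_of_isThreeSheet R K h h' hq hq2 φ κ hκ ζ hζq hζ1 hπ hmodel hT
  subst hW
  -- the series of the Legendre coordinate
  obtain ⟨y, hy, hfix, hθy⟩ := exists_legT_series_local R K φ κ hκ h2 q
  -- the base is unramified
  obtain ⟨e, hqe⟩ : ∃ e : R, (q : R) = π * e := by
    obtain ⟨e, he⟩ := Ideal.mem_span_singleton'.mp hqπ
    exact ⟨e, by rw [← he, mul_comm]⟩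
  have he : IsUnit e := isUnit_of_cyclo_datum φ hq hq2 hπ.not_isUnit hqe ζ u hζq hζ1 hπζ
  -- the coordinates in the chart
  have hmodel' := hmodel
  unfold SSModelLeg at hmodel'
  have hjq := hmodel'.jq_mem_chartOne hπ
  have hAt := hmodel'.A_t_mem
  have hBt := hmodel'.B_t_mem hjq
  have htc : ((algebraMap ↥K⟮legT K⟯ ↥(legE K M) (AdjoinSimple.gen K (legT K)) : ↥(legE K M)) :
      LaurentSeries K) = legT K := rfl
  refine local_equation_w11_of_expansion (R := R) (K₁ := K) (KN₁ := ↥K⟮jqNModC K 2⟯)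
    (E₁ := ↥(legE K (M * q))) (KN₂ := ↥K⟮jqNModC K 2⟯) (E := ↥(legE K (M * q * q)))
    (R' := R') (K' := K')
    hπ (ssModelLeg_j_transcendental K) (ssModelLeg_j_adjoin K)
    (ssModelLeg_j_transcendental K) (ssModelLeg_j_adjoin K) hmodel'.two fam
    (legHostA K (M * q) q : ↥(legE K (M * q)) →+* ↥(legE K (M * q * q)))
    (ssModelLeg_A_algebraMap R K) hαB hαint hT.comap_A_20 hT.comap_A_11
    (μ := legMu R K h2 hq hq2)
    (fun 𝔪 _ _ _ h0 => legMu_unit_of_not_le_final R K hmodel hπ 𝔪 h0)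
    (legMu_valuation R K h2 hq hq2) hq hT.unif_11 hT.val_δ he hqe φ
    (legTheta K h' hq κ ζ hζq hζ1)
    (fun f => mem_legW11_iff_legTheta R K h' hq φ κ hκ ζ hζq hζ1 f)
    (fun r => legTheta_algebraMap_base R K h' hq φ κ hκ ζ hζq hζ1 r)
    ζ hζq hζ1 y hfix hθy
    (t0 := ⟨_, hαB _ hAt⟩) (t2 := ⟨_, hβB _ hBt⟩) ?_ ?_ ?_
  · show legTheta K h' hq κ ζ hζq hζ1 (legHostA K (M * q) q (legHostA K M q _)) = _
    rw [legTheta_legHostA_legHostA, htc, hy]
  · show legTheta K h' hq κ ζ hζq hζ1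
      (legHostB K (M * q) q hq hq2 (legHostB K M q hq hq2 _)) = _
    rw [legTheta_legHostB_legHostB K h' hq hq2 κ ζ hζq hζ1 _
      (by rw [htc]; exact keyFq_le_of_dvd K (Dvd.intro M rfl) (legT_mem_keyFq K)), htc, hy]
  · show legTheta K h' hq κ ζ hζq hζ1 (legHostA K (M * q) q (legMu R K h2 hq hq2)) = _
    rw [legTheta_legHostA, coe_legMu, coeffMap_hostMu, hy]

end Leg

end

end Fermat.Agent.S36
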