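/-
S36 [NODENORM]/[NORMVAL] glue — helper5: **the norm on a purely inseparable fibre, in the literal
form consumed by `toric36` and `roots36`**:

  `∀ f ∈ V, V.valuation (ι (N f) - f ^ q) < 1`

from helper2's `norm_reduction_one_ext_hom` (which needs `f ^ q ≡ ι a` for some `a`) and helper7's
`one_ext_hom` (residue span by `1, y, …, y^{q-1}`) + the Kronecker congruence `ι u ≡ y ^ q`:
`f ≡ ∑ ι (a i) y ^ i`  ⇒  `f ^ q ≡ ∑ ι (a i ^ q) (y ^ q) ^ i ≡ ι (∑ a i ^ q u ^ i)`
(Frobenius is additive modulo `q`).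
-/
import Mathlib
import Fermat.Agent.S36.NORMVAL_helper2_One
import Fermat.Agent.SS.VAL3_helper7_Hom
import Fermat.Agent.S36.TORIC36_helper5_Local

set_option autoImplicit false
set_option linter.unusedSectionVars false
set_option linter.style.haveILetI false

namespace Fermat.Agent.S36

open Fermat.Agent.SS IsLocalRing

section Frob

variable {L : Type*} [Field L]

/-- **Frobenius is additive modulo `q`**, inside a valuation subring. -/
theorem exists_sum_pow_prime_eq (V : ValuationSubring L) {q : ℕ} (hq : q.Prime) {ι : Type*}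
    (s : Finset ι) (x : ι → L) (hx : ∀ i ∈ s, x i ∈ V) :
    ∃ c ∈ V, (∑ i ∈ s, x i) ^ q = ∑ i ∈ s, x i ^ q + (q : L) * c := by
  classical
  induction s using Finset.induction_on with
  | empty =>
    refine ⟨0, V.zero_mem, ?_⟩
    simp [hq.ne_zero]
  | insert i s hi ih =>
    obtain ⟨c, hc, hsum⟩ := ih (fun j hj => hx j (Finset.mem_insert_of_mem hj))
    have hxi : x i ∈ V := hx i (Finset.mem_insert_self i s)
    have hS : ∑ j ∈ s, x j ∈ V :=
      V.toSubring.sum_mem (fun j hj => hx j (Finset.mem_insert_of_mem hj))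
    -- `(a + b) ^ q = a ^ q + b ^ q + q * a * b * r` inside `V`
    obtain ⟨r, hr⟩ := exists_add_pow_prime_eq hq (⟨x i, hxi⟩ : ↥V) ⟨∑ j ∈ s, x j, hS⟩
    have hr' : (x i + ∑ j ∈ s, x j) ^ q =
        x i ^ q + (∑ j ∈ s, x j) ^ q + (q : L) * x i * (∑ j ∈ s, x j) * (r : L) := by
      have := congrArg (fun w : ↥V => (w : L)) hr
      simpa using this
    refine ⟨c + x i * (∑ j ∈ s, x j) * (r : L), V.add_mem _ _ hc
      (V.mul_mem _ _ (V.mul_mem _ _ hxi hS) r.2), ?_⟩
    rw [Finset.sum_insert hi, Finset.sum_insert hi, hr', hsum]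
    ring

end Frob

section Glue

variable {F L : Type*} [Field F] [Field L]

/-- **the norm on a purely inseparable fibre**: `ι (N f) ≡ f ^ q` on the sheet. -/
theorem nv_insep (ι : F →+* L) (O : ValuationSubring F) [IsDiscreteValuationRing ↥O]
    (hfin : letI := ι.toAlgebra; FiniteDimensional F L)
    (hsep : letI := ι.toAlgebra; Algebra.IsSeparable F L)
    {V : ValuationSubring L} (h : V.comap ι = O)
    {q : ℕ} (hq : q.Prime) (hchar : O.valuation (q : F) < 1)
    (hr : letI := ι.toAlgebra; Module.finrank F L ≤ q)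
    {u : F} (hu : u ∈ O) {y : L} (hy : y ∈ V) (hkron : V.valuation (ι u - y ^ q) < 1)
    (hind : ∀ a : Fin q → ↥O, V.valuation (∑ i, ι (a i : F) * y ^ (i : ℕ)) < 1 →
      ∀ i, a i ∈ maximalIdeal ↥O)
    {f : L} (hf : f ∈ V) :
    V.valuation (ι (letI := ι.toAlgebra; Algebra.norm F f) - f ^ q) < 1 := by
  classical
  have hιV : ∀ z : F, z ∈ O → ι z ∈ V := by
    intro z hz
    rw [← h] at hz
    exact hz
  have hb : ∀ i : Fin q, y ^ (i : ℕ) ∈ V := fun i => pow_mem hy _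
  obtain ⟨-, -, -, hspan⟩ := one_ext_hom ι O hfin hsep h hq.pos hr (fun i => y ^ (i : ℕ)) hb hind
  obtain ⟨a, ha⟩ := hspan f hf
  set S : L := ∑ i, ι (a i : F) * y ^ (i : ℕ) with hS
  have hterm : ∀ i : Fin q, ι (a i : F) * y ^ (i : ℕ) ∈ V := fun i =>
    V.mul_mem _ _ (hιV _ (a i).2) (hb i)
  have hSV : S ∈ V := V.toSubring.sum_mem (fun i _ => hterm i)
  have hvle : ∀ z : L, z ∈ V → V.valuation z ≤ 1 := fun z hz =>
    (ValuationSubring.valuation_le_one_iff _ _).mpr hz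
  -- `f ^ q ≡ S ^ q`
  have h1 : V.valuation (f ^ q - S ^ q) < 1 :=
    valuation_pow_sub_pow_lt_one V (hvle f hf) (hvle S hSV) ha q
  -- `S ^ q ≡ ∑ (ι (a i) y ^ i) ^ q`
  obtain ⟨c, hc, hSq⟩ := exists_sum_pow_prime_eq V hq Finset.univ
    (fun i => ι (a i : F) * y ^ (i : ℕ)) (fun i _ => hterm i)
  have hqV : V.valuation (q : L) < 1 := by
    have := (comap_valuation_lt_one_iff ι h (q : F)).mpr hchar
    rwa [map_natCast] at this
  have h2 : V.valuation (S ^ q - ∑ i, (ι (a i : F) * y ^ (i : ℕ)) ^ q) < 1 := by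
    rw [hS, hSq, add_sub_cancel_left, map_mul]
    exact lt_of_le_of_lt (mul_le_of_le_one_right' (hvle c hc)) hqV
  -- `∑ (ι (a i) y ^ i) ^ q ≡ ι a'`
  set a' : F := ∑ i : Fin q, ((a i : F)) ^ q * u ^ (i : ℕ) with ha'
  have h3 : V.valuation (∑ i, (ι (a i : F) * y ^ (i : ℕ)) ^ q - ι a') < 1 := by
    rw [ha', map_sum, ← Finset.sum_sub_distrib]
    refine Valuation.map_sum_lt _ one_ne_zero (fun i _ => ?_)
    have e1 : (ι (a i : F) * y ^ (i : ℕ)) ^ q - ι ((a i : F) ^ q * u ^ (i : ℕ)) =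
        ι (a i : F) ^ q * ((y ^ q) ^ (i : ℕ) - (ι u) ^ (i : ℕ)) := by
      rw [map_mul, map_pow, map_pow, mul_pow, ← pow_mul, ← pow_mul, mul_comm (i : ℕ) q]
      ring
    rw [e1, map_mul]
    have e2 : V.valuation ((y ^ q) ^ (i : ℕ) - (ι u) ^ (i : ℕ)) < 1 := by
      refine valuation_pow_sub_pow_lt_one V (hvle _ (pow_mem hy q)) (hvle _ (hιV u hu)) ?_ _
      have : y ^ q - ι u = -(ι u - y ^ q) := by ring
      rw [this, Valuation.map_neg]
      exact hkron
    exact lt_of_le_of_lt (mul_le_of_le_one_left' (hvle _ (pow_mem (hιV _ (a i).2) q))) e2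
  -- `f ^ q ≡ ι a'`
  have h4 : V.valuation (f ^ q - ι a') < 1 := by
    have : f ^ q - ι a' = (f ^ q - S ^ q) + (S ^ q - ∑ i, (ι (a i : F) * y ^ (i : ℕ)) ^ q) +
        (∑ i, (ι (a i : F) * y ^ (i : ℕ)) ^ q - ι a') := by ring
    rw [this]
    refine lt_of_le_of_lt (Valuation.map_add _ _ _) (max_lt ?_ h3)
    exact lt_of_le_of_lt (Valuation.map_add _ _ _) (max_lt h1 h2)
  -- helper2's norm reduction
  obtain ⟨-, hN⟩ := norm_reduction_one_ext_hom ι O hfin hsep h hq hchar hr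
    (fun i => y ^ (i : ℕ)) hb hind hf h4
  have h5 : V.valuation (ι ((letI := ι.toAlgebra; Algebra.norm F f) - a')) < 1 :=
    (comap_valuation_lt_one_iff ι h _).mpr hN
  rw [map_sub] at h5
  have : ι (letI := ι.toAlgebra; Algebra.norm F f) - f ^ q =
      (ι (letI := ι.toAlgebra; Algebra.norm F f) - ι a') - (f ^ q - ι a') := by ring
  rw [this]
  exact lt_of_le_of_lt (Valuation.map_sub _ _ _) (max_lt h5 h4)

end Glue

end Fermat.Agent.S36
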