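/-
S36 glue — helper5: **(INS) pure inseparability in the cheap direction**: on a sheet `V` over `O`
whose residue field is spanned over that of `O` by `1, y, …, y^{q-1}` with `y ^ q ≡ ι u`
(`u ∈ O`), residue characteristic `q`:  `∀ x ∈ V, ∃ a ∈ O, V.valuation (x ^ q - ι a) < 1`
(the hypotheses `hinsα`, `hinsβ` of helper3's `three_sheet_classification`).
-/
import Mathlib
import Fermat.Agent.S36.NVGLUE_helper5

set_option autoImplicit false
set_option linter.unusedSectionVars false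
set_option linter.style.haveILetI false

namespace Fermat.Agent.S36

open Fermat.Agent.SS IsLocalRing

section Ins

variable {F L : Type*} [Field F] [Field L]

/-- **(INS)** from the residue span and the Kronecker congruence. -/
theorem ins_of_span (ι : F →+* L) {O : ValuationSubring F} {V : ValuationSubring L}
    (h : V.comap ι = O) {q : ℕ} (hq : q.Prime) (hchar : O.valuation (q : F) < 1)
    {u : F} (hu : u ∈ O) {y : L} (hy : y ∈ V) (hkron : V.valuation (ι u - y ^ q) < 1)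
    (hspan : ∀ x ∈ V, ∃ a : Fin q → ↥O, V.valuation (x - ∑ i, ι (a i : F) * y ^ (i : ℕ)) < 1)
    {f : L} (hf : f ∈ V) : ∃ a ∈ O, V.valuation (f ^ q - ι a) < 1 := by
  classical
  have hιV : ∀ z : F, z ∈ O → ι z ∈ V := by
    intro z hz
    rw [← h] at hz
    exact hz
  have hb : ∀ i : Fin q, y ^ (i : ℕ) ∈ V := fun i => pow_mem hy _
  obtain ⟨a, ha⟩ := hspan f hf
  set S : L := ∑ i, ι (a i : F) * y ^ (i : ℕ) with hS
  have hterm : ∀ i : Fin q, ι (a i : F) * y ^ (i : ℕ) ∈ V := fun i =>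
    V.mul_mem _ _ (hιV _ (a i).2) (hb i)
  have hSV : S ∈ V := V.toSubring.sum_mem (fun i _ => hterm i)
  have hvle : ∀ z : L, z ∈ V → V.valuation z ≤ 1 := fun z hz =>
    (ValuationSubring.valuation_le_one_iff _ _).mpr hz
  have h1 : V.valuation (f ^ q - S ^ q) < 1 :=
    valuation_pow_sub_pow_lt_one V (hvle f hf) (hvle S hSV) ha q
  obtain ⟨c, hc, hSq⟩ := exists_sum_pow_prime_eq V hq Finset.univ
    (fun i => ι (a i : F) * y ^ (i : ℕ)) (fun i _ => hterm i)
  have hqV : V.valuation (q : L) < 1 := by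
    have := (comap_valuation_lt_one_iff ι h (q : F)).mpr hchar
    rwa [map_natCast] at this
  have h2 : V.valuation (S ^ q - ∑ i, (ι (a i : F) * y ^ (i : ℕ)) ^ q) < 1 := by
    rw [hS, hSq, add_sub_cancel_left, map_mul]
    exact lt_of_le_of_lt (mul_le_of_le_one_right' (hvle c hc)) hqV
  set a' : F := ∑ i : Fin q, ((a i : F)) ^ q * u ^ (i : ℕ) with ha'
  have ha'O : a' ∈ O :=
    O.toSubring.sum_mem (fun i _ => O.mul_mem _ _ (pow_mem (a i).2 q) (pow_mem hu _))
  have h3 : V.valuation (∑ i, (ι (a i : F) * y ^ (i : ℕ)) ^ q - ι a') < 1 := by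
    rw [ha', map_sum, ← Finset.sum_sub_distrib]
    refine Valuation.map_sum_lt _ one_ne_zero (fun i _ => ?_)
    have e1 : (ι (a i : F) * y ^ (i : ℕ)) ^ q - ι ((a i : F) ^ q * u ^ (i : ℕ)) =
        ι (a i : F) ^ q * ((y ^ q) ^ (i : ℕ) - (ι u) ^ (i : ℕ)) := by
      rw [map_mul, map_pow, map_pow, mul_pow, ← pow_mul, ← pow_mul, mul_comm (i : ℕ) q]
      ring
    rw [e1, map_mul]
    have e2 : V.valuation ((y ^ q) ^ (i : ℕ) - (ι u) ^ (i : ℕ)) < 1 := by
      refine valuation_pow_sub_pow_lt_one V (hvle _ (pow_mem hy q)) (hvle _ (hιV u hu)) ?_ _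
      have : y ^ q - ι u = -(ι u - y ^ q) := by ring
      rw [this, Valuation.map_neg]
      exact hkron
    exact lt_of_le_of_lt (mul_le_of_le_one_left' (hvle _ (pow_mem (hιV _ (a i).2) q))) e2
  refine ⟨a', ha'O, ?_⟩
  have : f ^ q - ι a' = (f ^ q - S ^ q) + (S ^ q - ∑ i, (ι (a i : F) * y ^ (i : ℕ)) ^ q) +
      (∑ i, (ι (a i : F) * y ^ (i : ℕ)) ^ q - ι a') := by ring
  rw [this]
  refine lt_of_le_of_lt (Valuation.map_add _ _ _) (max_lt ?_ h3)
  exact lt_of_le_of_lt (Valuation.map_add _ _ _) (max_lt h1 h2)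

end Ins

end Fermat.Agent.S36
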