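/-
S36 [POINTS36] — helper3 — **(INS): pure inseparability of a residue extension from a residue span.**

`ι : F → L`, `V` a valuation subring of `L` over `O = V ∩ ι F`, residue characteristic `q`.  If the
residue field of `V` is spanned over that of `O` by `1, y, …, y ^ (q - 1)` (the output of helper7's
`one_ext_hom`) and `y ^ q ≡ ι u` (Kronecker), then every `q`-th power of the residue field of `V`
lies in the residue field of `O`: the hypotheses `hinsα`, `hinsβ` of `three_sheet_classification`.
-/
import Mathlib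

set_option autoImplicit false
set_option linter.style.haveILetI false

namespace Fermat.Agent.S36

/-- **pure inseparability of the residue extension from a residue span** `1, y, …, y ^ (q - 1)`
with `y ^ q ≡ ι u`: every `q`-th power of the residue field of `V` lies in the residue field of
`O = V ∩ ι F`. -/
theorem insep_of_residue_span {F L : Type*} [Field F] [Field L] (ι : F →+* L)
    {O : ValuationSubring F} {V : ValuationSubring L} (hcomap : V.comap ι = O)
    {q : ℕ} (hq : q.Prime) (hqV : V.valuation (q : L) < 1)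
    {y : L} (hy : y ∈ V) {u : F} (hu : u ∈ O) (hkron : V.valuation (y ^ q - ι u) < 1)
    (hspan : ∀ x ∈ V, ∃ a : Fin q → ↥O, V.valuation (x - ∑ i, ι (a i : F) * y ^ (i : ℕ)) < 1) :
    ∀ x ∈ V, ∃ a ∈ O, V.valuation (x ^ q - ι a) < 1 := by
  classical
  intro x hx
  obtain ⟨a, ha⟩ := hspan x hx
  have hιV : ∀ b : F, b ∈ O → ι b ∈ V := fun b hb => by
    rw [← hcomap] at hb
    exact hb
  have hmem : ∑ i, (a i : F) ^ q * u ^ (i : ℕ) ∈ O :=
    O.toSubring.sum_mem (fun i _ => O.mul_mem _ _ (pow_mem (a i).2 q) (pow_mem hu _))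
  refine ⟨_, hmem, ?_⟩
  -- the residue field
  set res : ↥V →+* IsLocalRing.ResidueField ↥V := IsLocalRing.residue ↥V with hres
  have key : ∀ z w : ↥V, res z = res w ↔ V.valuation ((z : L) - (w : L)) < 1 := by
    intro z w
    rw [← sub_eq_zero, ← map_sub, hres, IsLocalRing.residue_eq_zero_iff,
      ValuationSubring.valuation_lt_one_iff]
    rfl
  -- characteristic `q`
  have hq0 : ((q : ℕ) : IsLocalRing.ResidueField ↥V) = 0 := by
    have h1 : res ((q : ℕ) : ↥V) = 0 := by
      rw [hres, IsLocalRing.residue_eq_zero_iff, ValuationSubring.valuation_lt_one_iff]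
      simpa using hqV
    rwa [map_natCast] at h1
  haveI : CharP (IsLocalRing.ResidueField ↥V) q := by
    haveI := ringChar.charP (IsLocalRing.ResidueField ↥V)
    have hdvd := (CharP.cast_eq_zero_iff (IsLocalRing.ResidueField ↥V)
      (ringChar (IsLocalRing.ResidueField ↥V)) q).mp hq0
    rcases (Nat.dvd_prime hq).mp hdvd with h1 | h1
    · exact absurd h1 (CharP.ringChar_ne_one)
    · rw [← h1]; infer_instance
  haveI : Fact q.Prime := ⟨hq⟩
  -- the elements
  set X : ↥V := ⟨x, hx⟩
  set Y : ↥V := ⟨y, hy⟩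
  set U : ↥V := ⟨ι u, hιV u hu⟩
  set Ai : Fin q → ↥V := fun i => ⟨ι (a i : F), hιV _ (a i).2⟩
  have h1 : res X = ∑ i, res (Ai i) * res Y ^ (i : ℕ) := by
    have : res X = res (∑ i, Ai i * Y ^ (i : ℕ)) := by
      rw [key]
      have h2 : ((∑ i, Ai i * Y ^ (i : ℕ) : ↥V) : L) = ∑ i, ι (a i : F) * y ^ (i : ℕ) := by
        push_cast
        rfl
      rw [h2]
      exact ha
    rw [this, map_sum]
    simp only [map_mul, map_pow]
  have h3 : res Y ^ q = res U := by
    rw [← map_pow, key]
    exact hkron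
  have h2 : res X ^ q = ∑ i, res (Ai i) ^ q * res U ^ (i : ℕ) := by
    rw [h1, sum_pow_char]
    refine Finset.sum_congr rfl (fun i _ => ?_)
    rw [mul_pow, ← pow_mul, mul_comm (i : ℕ) q, pow_mul, h3]
  -- conclusion
  have hfin : res (X ^ q) = res ⟨ι (∑ i, (a i : F) ^ q * u ^ (i : ℕ)), hιV _ hmem⟩ := by
    rw [map_pow, h2]
    have h4 : (⟨ι (∑ i, (a i : F) ^ q * u ^ (i : ℕ)), hιV _ hmem⟩ : ↥V) =
        ∑ i, Ai i ^ q * U ^ (i : ℕ) := by
      apply Subtype.ext
      push_cast
      rw [map_sum]
      refine Finset.sum_congr rfl (fun i _ => ?_)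
      rw [map_mul, map_pow, map_pow]
    rw [h4, map_sum]
    simp only [map_mul, map_pow]
  exact (key _ _).mp hfin

end Fermat.Agent.S36
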