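/-
S36 [REG1-hor] — helper8 — glue: lead's literals `LegHorUnr K N` / `HesHorUnr K N`
(`S36/REG1_lead_Leg`, `S36/REG1_lead_Hes`) from `formallyUnramified_legE_of_valuationSubring` /
`formallyUnramified_hesE_of_valuationSubring` (`S36/REG1HOR_helper8_Host`), for `K = Frac R`,
`R` a DVR of characteristic zero in which `2` (resp. `3`) is a unit (and, for Hesse, containing a
primitive cube root of unity).
-/
import Mathlib
import Fermat.Agent.S36.REG1HOR_helper8_Host
import Fermat.Agent.S36.REG1_lead_Leg
import Fermat.Agent.S36.REG1_lead_Hes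

set_option autoImplicit false
set_option linter.unusedSectionVars false
set_option linter.style.haveILetI false
set_option synthInstance.maxHeartbeats 200000

namespace Fermat.Agent.S36

open Polynomial ModularCurve IntermediateField Fermat.Agent.Igusa Fermat.Agent.SS Fermat.Agent.JA

open scoped Fermat.Agent.JA.Host

section Glue

variable (R : Type*) [CommRing R] [IsDomain R] [IsDiscreteValuationRing R] [CharZero R]
  (K : Type*) [Field K] [Algebra R K] [IsFractionRing R K] [Algebra ℚ K] [Algebra K ℂ]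

/-- a unit of a local ring has nonzero residue. -/
theorem residue_ne_zero_of_isUnit_reg1hor {a : R} (ha : IsUnit a) :
    IsLocalRing.residue R a ≠ 0 := by
  intro h0
  have h1 : IsUnit (IsLocalRing.residue R a) := ha.map _
  rw [h0] at h1
  exact not_isUnit_zero h1

/-- **[REG1-hor], lead's literal `LegHorUnr`** over `K = Frac R`, `2 ∈ Rˣ`. -/
theorem legHorUnr_of_isUnit (h2 : IsUnit (2 : R)) (N : ℕ) [NeZero N] : LegHorUnr K N := by
  intro V hK hne hj
  have h2' : (2 : IsLocalRing.ResidueField R) ≠ 0 := by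
    have := residue_ne_zero_of_isUnit_reg1hor R h2
    rwa [map_ofNat] at this
  exact formallyUnramified_legE_of_valuationSubring (R := R) N h2' V hK hne hj

/-- **[REG1-hor], lead's literal `HesHorUnr`** over `K = Frac R`, `3 ∈ Rˣ`, `ω ∈ R` a primitive
cube root of unity. -/
theorem hesHorUnr_of_isUnit (h3 : IsUnit (3 : R)) (ω : R) (hω : ω ^ 2 + ω + 1 = 0)
    (N : ℕ) [NeZero N] : HesHorUnr K N := by
  intro V hK hne hj
  have h3' : (3 : IsLocalRing.ResidueField R) ≠ 0 := by
    have := residue_ne_zero_of_isUnit_reg1hor R h3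
    rwa [map_ofNat] at this
  exact formallyUnramified_hesE_of_valuationSubring (R := R) N h3' ω hω V hK hne hj

end Glue

section Closed

variable (R : Type*) [CommRing R] [IsDomain R] [IsDiscreteValuationRing R] [CharZero R]
  (K : Type*) [Field K] [Algebra R K] [IsFractionRing R K] [Algebra ℚ K] [Algebra K ℂ]

variable {M q : ℕ} [NeZero M] [NeZero q] [NeZero (M * q)] {x y : ℤ} [DecidableEq R] {π : R}

/-- **[REG1], Legendre, no open hypothesis**: lead's `leg_node_regular` with `LegHorUnr`
discharged. -/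
theorem leg_node_regular_closed {h2 : IsUnit (2 : R)} {hbez : (q : ℤ) * x + M * y = 1}
    {hq : q.Prime} {hq2 : q ≠ 2} (hmodel : SSModelLeg R K π h2 hbez hq hq2) (hπ : Irreducible π)
    [IsAlgClosed (IsLocalRing.ResidueField R)] {cq : R} (hcq : IsUnit cq)
    (hqπ : ((q : ℕ) : R) = π * cq) :
    haveI : FiniteDimensional ↥K⟮jqNModC K 2⟯ ↥(legE K (M * q)) := finite_legE_adjoin_j K (M * q)
    SSModel.NodeRegular (K₁ := K) hmodel :=
  leg_node_regular R K hmodel hπ hcq hqπ (legHorUnr_of_isUnit R K h2 (M * q))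

/-- **[REG1], Hesse, no open hypothesis**: lead's `hes_node_regular` with `HesHorUnr`
discharged. -/
theorem hes_node_regular_closed [NeZero (M * 2)] {h3 : IsUnit (3 : R)} {ω : R}
    (hω : ω ^ 2 + ω + 1 = 0) {hbez : ((2 : ℕ) : ℤ) * x + M * y = 1}
    (hmodel : SSModelHes R K π h3 ω hbez) (hπ : Irreducible π)
    [IsAlgClosed (IsLocalRing.ResidueField R)] {cq : R} (hcq : IsUnit cq)
    (hqπ : ((2 : ℕ) : R) = π * cq) :
    haveI : FiniteDimensional ↥K⟮jqNModC K 3⟯ ↥(hesE K (M * 2)) := finite_hesE_adjoin_j K (M * 2)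
    SSModel.NodeRegular (K₁ := K) hmodel :=
  hes_node_regular R K hmodel hπ hcq hqπ (hesHorUnr_of_isUnit R K h3 ω hω (M * 2))

end Closed

end Fermat.Agent.S36
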