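/-
S36 — lead — package [TOP36], part 1: **the `ℤ_p`-level**: from (KEY36), an element of
`P' = Hom_par(Γ', ℤ_p)` fixed by the inertia group and killed by both transfers is zero.
-/
import Mathlib
import Fermat.Agent.S35.P1_lead_Two

set_option autoImplicit false
set_option linter.unusedSectionVars false
set_option linter.unusedVariables false
set_option linter.style.haveILetI false

namespace Fermat.Agent.S36

open ModularCurve.Period Fermat.Agent.GR Fermat.Agent.S35

open scoped MatrixGroups

section Core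

variable {J' J : Type*} [AddCommGroup J'] [AddCommGroup J] {Γ' Γ : Subgroup SL(2, ℤ)}
  {p : ℕ} [hp : Fact p.Prime] {G : Type*} [Group G] [DistribMulAction G J']
  {D' : KapData J' Γ' p} {D : KapData J Γ p}

/-- a Tate sequence all of whose components are killed by a fixed power of `p` is zero. -/
theorem tateSeq_eq_zero_of_pow_smul_lead {c : ℕ} (x : ↥(TateSeq J' p))
    (h : ∀ k, p ^ c • x.1 k = 0) : x = 0 := by
  have hstep : ∀ (j k : ℕ), p ^ j • x.1 (k + j) = x.1 k := by
    intro j
    induction j with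
    | zero => intro k; rw [pow_zero, one_smul, add_zero]
    | succ j ih =>
      intro k
      rw [pow_succ, mul_smul, ← add_assoc, TateSeq.smul_succ x (k + j), ih k]
  apply Subtype.ext
  funext k
  show x.1 k = 0
  rw [← hstep c k]
  exact h (k + c)

/-- **the `ℤ_p`-level of (KEY36)**: an element of `P'` fixed by a set `S` of elements of `G` and
killed by both transfers is zero, as soon as the `p`-power torsion points of `J'` fixed by `S` and
killed by `π₁`, `π₂` are killed by `p ^ c`. -/
theorem eq_zero_of_fixed_of_kapTransfer {π₁ π₂ : J' →+ J} (T₁ : KapTransfer D' D π₁)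
    (T₂ : KapTransfer D' D π₂) (S : Set G) {c : ℕ}
    (hkey : ∀ (k : ℕ) (x : J'), p ^ k • x = 0 → (∀ τ ∈ S, τ • x = x) → π₁ x = 0 → π₂ x = 0 →
      p ^ c • x = 0)
    (ψ : ↥(parabolicHoms ℤ_[p] Γ' ℤ_[p])) (h₁ : T₁.X ψ.1 = 0) (h₂ : T₂.X ψ.1 = 0)
    (hfix : ∀ τ ∈ S, D'.rho τ ψ = ψ) : ψ = 0 := by
  obtain ⟨x, rfl⟩ := D'.phi_surjective ψ
  have hx : x = 0 := by
    apply tateSeq_eq_zero_of_pow_smul_lead (c := c) x
    intro k
    refine hkey k (x.1 k) (TateSeq.pow_smul x k) (fun τ hτ => ?_) (T₁.map_comp_eq_zero x h₁ k)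
      (T₂.map_comp_eq_zero x h₂ k)
    have h := hfix τ hτ
    rw [KapData.rho_phi] at h
    have h' := D'.phi_injective h
    have := congrArg (fun y : ↥(TateSeq J' p) => y.1 k) h'
    exact this
  rw [hx, map_zero]

end Core

end Fermat.Agent.S36
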