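/-
S36 — lead — package [TOP36], part 3: **Kolchin in dimension two**: a group of `2 × 2` matrices over
a domain all of whose elements have characteristic polynomial `(X - 1) ^ 2` fixes a nonzero vector;
the same for a two-dimensional Galois representation and a subgroup of the Galois group.
-/
import Mathlib
import Fermat.Agent.GR.DET_lead_Main

set_option autoImplicit false
set_option linter.unusedSectionVars false
set_option linter.unusedVariables false
set_option linter.style.haveILetI false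

namespace Fermat.Agent.S36

open Polynomial Matrix Fermat.Agent.GR

/-- `GQ = Gal(Ω/ℚ)`. -/
local notation "GQ" => (AlgebraicClosure ℚ ≃ₐ[ℚ] AlgebraicClosure ℚ)

section Mat

variable {R : Type*} [CommRing R] [IsDomain R]

/-- two nilpotent `2 × 2` matrices (trace and determinant zero) with `tr (N N') = 0` satisfy
`N' N = 0`. -/
theorem mul_eq_zero_of_nilpotent_pair (N N' : Matrix (Fin 2) (Fin 2) R)
    (ht : N.trace = 0) (hd : N.det = 0) (ht' : N'.trace = 0) (hd' : N'.det = 0)
    (hNN' : (N * N').trace = 0) : N' * N = 0 := by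
  rw [Matrix.trace_fin_two] at ht ht' hNN'
  rw [Matrix.det_fin_two] at hd hd'
  simp only [Matrix.mul_apply, Fin.sum_univ_two] at hNN'
  have hd1 : N 1 1 = -N 0 0 := by linear_combination ht
  have hd1' : N' 1 1 = -N' 0 0 := by linear_combination ht'
  rw [hd1] at hd hNN'
  rw [hd1'] at hd' hNN'
  ext i j
  rw [Matrix.mul_apply, Fin.sum_univ_two, Matrix.zero_apply]
  fin_cases i <;> fin_cases j
  · show N' 0 0 * N 0 0 + N' 0 1 * N 1 0 = 0
    apply (pow_eq_zero_iff (two_ne_zero)).mp
    linear_combination (N' 0 1 * N 1 0) * hNN' + (-(N' 0 0) ^ 2) * hd + (N 0 1 * N 1 0) * hd'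
  · show N' 0 0 * N 0 1 + N' 0 1 * N 1 1 = 0
    rw [hd1]
    apply (pow_eq_zero_iff (two_ne_zero)).mp
    linear_combination (-(N 0 1 * N' 0 1)) * hNN' + (-(N' 0 1) ^ 2) * hd + (-(N 0 1) ^ 2) * hd'
  · show N' 1 0 * N 0 0 + N' 1 1 * N 1 0 = 0
    rw [hd1']
    apply (pow_eq_zero_iff (two_ne_zero)).mp
    linear_combination (-(N 1 0 * N' 1 0)) * hNN' + (-(N' 1 0) ^ 2) * hd + (-(N 1 0) ^ 2) * hd'
  · show N' 1 0 * N 0 1 + N' 1 1 * N 1 1 = 0
    rw [hd1, hd1']
    apply (pow_eq_zero_iff (two_ne_zero)).mp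
    linear_combination (N 0 1 * N' 1 0) * hNN' + (-(N' 0 0) ^ 2) * hd + (N 0 1 * N 1 0) * hd'

/-- **Kolchin in dimension two**, matrix form. -/
theorem exists_fixed_vector_of_unipotent (H : Submonoid (Matrix (Fin 2) (Fin 2) R))
    (h : ∀ A ∈ H, A.trace = 2 ∧ A.det = 1) :
    ∃ v : Fin 2 → R, v ≠ 0 ∧ ∀ A ∈ H, A.mulVec v = v := by
  by_cases hall : ∀ A ∈ H, A = 1
  · refine ⟨fun i => if i = 0 then 1 else 0, ?_, ?_⟩
    · intro h0
      have := congrFun h0 0
      simp at this
    · intro A hA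
      rw [hall A hA, Matrix.one_mulVec]
  · push Not at hall
    obtain ⟨A₀, hA₀, hA₀1⟩ := hall
    set N := A₀ - 1 with hN
    have hN0 : N ≠ 0 := sub_ne_zero.mpr hA₀1
    have trone : (1 : Matrix (Fin 2) (Fin 2) R).trace = 2 := by
      rw [Matrix.trace_fin_two]; simp; norm_num
    have nil : ∀ B ∈ H, (B - 1).trace = 0 ∧ (B - 1).det = 0 := by
      intro B hB
      obtain ⟨h1, h2⟩ := h B hB
      constructor
      · rw [Matrix.trace_sub, h1, trone, sub_self]
      · rw [Matrix.trace_fin_two] at h1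
        rw [Matrix.det_fin_two] at h2 ⊢
        simp only [Matrix.sub_apply, Matrix.one_apply_eq, Matrix.one_apply_ne, ne_eq,
          one_ne_zero, not_false_eq_true, zero_ne_one, sub_zero]
        linear_combination h2 - h1
    have key : ∀ B ∈ H, (B - 1) * N = 0 := by
      intro B hB
      refine mul_eq_zero_of_nilpotent_pair N (B - 1) (nil A₀ hA₀).1 (nil A₀ hA₀).2 (nil B hB).1
        (nil B hB).2 ?_
      have hAB := (h (A₀ * B) (H.mul_mem hA₀ hB)).1
      have e : N * (B - 1) = A₀ * B - A₀ - B + 1 := by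
        rw [hN]; noncomm_ring
      rw [e, Matrix.trace_add, Matrix.trace_sub, Matrix.trace_sub, hAB, (h A₀ hA₀).1, (h B hB).1,
        trone]
      ring
    -- a nonzero column of `N`
    have hcol : ∃ j, (fun i => N i j) ≠ 0 := by
      by_contra hc
      push Not at hc
      apply hN0
      ext i j
      exact congrFun (hc j) i
    obtain ⟨j, hj⟩ := hcol
    refine ⟨fun i => N i j, hj, fun B hB => ?_⟩
    have h1 := key B hB
    have h2 : (B - 1).mulVec (fun i => N i j) = 0 := by
      funext i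
      have := congrFun (congrFun h1 i) j
      rw [Matrix.mul_apply] at this
      exact this
    rw [Matrix.sub_mulVec, Matrix.one_mulVec, sub_eq_zero] at h2
    exact h2

end Mat

section Rep

variable {R : Type} [CommRing R] [IsLocalRing R] [IsDomain R] (ρ : GaloisRepAdic R)

/-- **Kolchin for a two-dimensional Galois representation**: if every element of a subgroup `S` of
`G_ℚ` acts with characteristic polynomial `(X - 1) ^ 2`, then `S` fixes a nonzero vector. -/
theorem exists_fixed_of_charpoly_eq (S : Subgroup GQ)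
    (h : ∀ σ ∈ S, LinearMap.charpoly (ρ.ρ σ) = (X - 1) ^ 2) :
    ∃ v : ρ.V, v ≠ 0 ∧ ∀ σ ∈ S, ρ.ρ σ v = v := by
  classical
  have hH : ∀ A ∈ S.toSubmonoid.map (matHom ρ), A.trace = 2 ∧ A.det = 1 := by
    rintro A ⟨σ, hσ, rfl⟩
    have hc := h σ hσ
    rw [← charpoly_matHom, Matrix.charpoly_fin_two] at hc
    have e : ((X : R[X]) - 1) ^ 2 = X ^ 2 - C 2 * X + C 1 := by
      rw [map_ofNat, map_one]; ring
    rw [e] at hc
    have c1 := congrArg (fun P : R[X] => P.coeff 1) hc
    have c0 := congrArg (fun P : R[X] => P.coeff 0) hc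
    simp only [coeff_add, coeff_sub, coeff_X_pow, coeff_C_mul, coeff_X_one,
      coeff_X_zero, coeff_C] at c1 c0
    norm_num at c1 c0
    exact ⟨c1, c0⟩
  obtain ⟨v, hv0, hv⟩ := exists_fixed_vector_of_unipotent _ hH
  refine ⟨(gBasis ρ).repr.symm (Finsupp.equivFunOnFinite.symm v), ?_, fun σ hσ => ?_⟩
  · intro h0
    apply hv0
    have := (LinearEquiv.map_eq_zero_iff _).mp h0
    have h1 : v = ⇑(0 : Fin 2 →₀ R) := by rw [← this]; rfl
    rw [h1]
    exact Finsupp.coe_zero
  · have h1 := hv (matHom ρ σ) ⟨σ, hσ, rfl⟩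
    rw [matHom_apply] at h1
    apply (gBasis ρ).repr.injective
    have h2 := LinearMap.toMatrix_mulVec_repr (gBasis ρ) (gBasis ρ) (ρ.ρ σ)
      ((gBasis ρ).repr.symm (Finsupp.equivFunOnFinite.symm v))
    rw [LinearEquiv.apply_symm_apply] at h2 ⊢
    have h3 : (⇑(Finsupp.equivFunOnFinite.symm v) : Fin 2 → R) = v := rfl
    rw [h3, h1] at h2
    ext i
    exact (congrFun h2 i).symm

end Rep

end Fermat.Agent.S36
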