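/-
S36 — lead — package [TOP36], part 2: **flat base change of the common kernel of two transfers and
of a finite family of operators `G i - 1`**, and the reduction of an arbitrary family of operators
on a noetherian module to a finite subfamily.
-/
import Mathlib
import Fermat.Agent.S35.P1_lead_Flat

set_option autoImplicit false
set_option linter.unusedSectionVars false
set_option linter.unusedVariables false
set_option linter.style.haveILetI false

namespace Fermat.Agent.S36

open TensorProduct ModularCurve.Period Fermat.Agent.GR Fermat.Agent.S35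

open scoped MatrixGroups

section Abstract

variable {R : Type*} (R' : Type*) [CommRing R] [CommRing R'] [Algebra R R'] [Module.Flat R R']
  {M N : Type*} [AddCommGroup M] [Module R M] [AddCommGroup N] [Module R N]
  {ι : Type*} [Fintype ι] [DecidableEq ι]

/-- flat base change of a finite jointly injective family. -/
theorem eq_zero_of_lTensor_family (f : ι → M →ₗ[R] N)
    (hf : ∀ m, (∀ i, f i m = 0) → m = 0) (y : R' ⊗[R] M)
    (hy : ∀ i, (f i).lTensor R' y = 0) : y = 0 := by
  have hinj : Function.Injective (LinearMap.pi f) := by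
    rw [← LinearMap.ker_eq_bot, LinearMap.ker_eq_bot']
    intro m hm
    exact hf m fun i => congrFun hm i
  have hinj' := Module.Flat.lTensor_preserves_injective_linearMap (M := R') (LinearMap.pi f) hinj
  apply hinj'
  rw [map_zero]
  apply (TensorProduct.piRight R R R' (fun _ : ι => N)).injective
  rw [map_zero]
  funext i
  have key : (LinearMap.proj i) ∘ₗ (TensorProduct.piRight R R R' (fun _ : ι => N)).toLinearMap ∘ₗ
      (LinearMap.pi f).lTensor R' = (f i).lTensor R' := by
    apply TensorProduct.ext'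
    intro c m
    show (TensorProduct.piRight R R R' (fun _ : ι => N))
      ((LinearMap.pi f).lTensor R' (c ⊗ₜ[R] m)) i = (f i).lTensor R' (c ⊗ₜ[R] m)
    rw [LinearMap.lTensor_tmul, LinearMap.lTensor_tmul, TensorProduct.piRight_apply,
      TensorProduct.piRightHom_tmul]
    rfl
  have := LinearMap.congr_fun key y
  rw [hy i] at this
  exact this

/-- flat base change of the common fixed points of a finite family of endomorphisms inside a
submodule `K`, through an identification `e : R' ⊗ M ≃ M'`. -/
theorem eq_zero_of_fixed_family {M' : Type*} [AddCommGroup M'] [Module R' M']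
    (e : R' ⊗[R] M ≃ₗ[R'] M') (K : Submodule R M) (g : ι → M →ₗ[R] M)
    (g' : ι → M' →ₗ[R'] M')
    (hg : ∀ i (c : R') (m : M), g' i (e (c ⊗ₜ[R] m)) = e (c ⊗ₜ[R] g i m))
    (hK : ∀ m ∈ K, (∀ i, g i m = m) → m = 0) (y : R' ⊗[R] ↥K)
    (hy : ∀ i, g' i (e (AlgebraTensorModule.lTensor R' R' K.subtype y)) =
      e (AlgebraTensorModule.lTensor R' R' K.subtype y)) : y = 0 := by
  obtain ⟨f, hfapp⟩ : ∃ f : ι → ↥K →ₗ[R] M, ∀ i (m : ↥K), f i m = g i m.1 - m.1 :=
    ⟨fun i => (g i - LinearMap.id) ∘ₗ K.subtype, fun i m => rfl⟩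
  have hf : ∀ m : ↥K, (∀ i, f i m = 0) → m = 0 := by
    intro m hm
    apply Subtype.ext
    refine hK m.1 m.2 fun i => ?_
    have := hm i
    rw [hfapp, sub_eq_zero] at this
    exact this
  refine eq_zero_of_lTensor_family R' f hf y fun i => ?_
  letI : Module R M' := Module.compHom M' (algebraMap R R')
  haveI : IsScalarTower R R' M' := IsScalarTower.of_algebraMap_smul fun r x => rfl
  have key : e.toLinearMap ∘ₗ AlgebraTensorModule.lTensor R' R' (f i) =
      (g' i - LinearMap.id) ∘ₗ e.toLinearMap ∘ₗ AlgebraTensorModule.lTensor R' R' K.subtype := by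
    apply TensorProduct.AlgebraTensorModule.ext
    intro c m
    show e (AlgebraTensorModule.lTensor R' R' (f i) (c ⊗ₜ[R] m)) =
      g' i (e (AlgebraTensorModule.lTensor R' R' K.subtype (c ⊗ₜ[R] m))) -
        e (AlgebraTensorModule.lTensor R' R' K.subtype (c ⊗ₜ[R] m))
    rw [AlgebraTensorModule.lTensor_tmul, AlgebraTensorModule.lTensor_tmul, hfapp,
      Submodule.subtype_apply, hg, TensorProduct.tmul_sub, map_sub]
  have h := LinearMap.congr_fun key y
  apply e.injective
  rw [map_zero]
  refine Eq.trans ?_ (sub_eq_zero.mpr (hy i))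
  exact h

end Abstract

section Flat

variable {R R' : Type*} [CommRing R] [CommRing R'] [Algebra R R'] [IsAddTorsionFree R]
  [IsAddTorsionFree R'] [Module.Flat R R']
  {Γ' Γ : Subgroup SL(2, ℤ)} [Group.FG Γ'] [Group.FG Γ]
  (X₁ X₂ : ↥(parabolicHoms R Γ' R) →ₗ[R] ↥(parabolicHoms R Γ R))
  (X₁' X₂' : ↥(parabolicHoms R' Γ' R') →ₗ[R'] ↥(parabolicHoms R' Γ R'))
  (h₁ : ∀ ψ, X₁' (parMapAlg R R' Γ' ψ) = parMapAlg R R' Γ (X₁ ψ))
  (h₂ : ∀ ψ, X₂' (parMapAlg R R' Γ' ψ) = parMapAlg R R' Γ (X₂ ψ))
  {ι : Type*} [Fintype ι] [DecidableEq ι]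
  (G : ι → Module.End R ↥(parabolicHoms R Γ' R))

include h₁ h₂ in
/-- **the common kernel of the extended transfers and of the extended operators `G i - 1` is zero
as soon as it is zero before the flat base change.** -/
theorem eq_zero_of_ker_family
    (hker : ∀ ψ, X₁ ψ = 0 → X₂ ψ = 0 → (∀ i, G i ψ = ψ) → ψ = 0)
    (v : ↥(parabolicHoms R' Γ' R')) (hv₁ : X₁' v = 0) (hv₂ : X₂' v = 0)
    (hG : ∀ i, parExt R R' Γ' (G i) v = v) : v = 0 := by
  obtain ⟨x, rfl⟩ := (parBC R R' Γ').surjective v
  have hx : x ∈ LinearMap.ker (AlgebraTensorModule.lTensor R' R' (X₁.prod X₂)) := by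
    rw [LinearMap.mem_ker]
    apply (prodBC (R := R) (R' := R') (Γ := Γ)).injective
    rw [prodBC_lTensor X₁ X₂ X₁' X₂' h₁ h₂, hv₁, hv₂, map_zero]
    rfl
  rw [Module.Flat.ker_lTensor_eq] at hx
  obtain ⟨y, rfl⟩ := hx
  have hy0 : y = 0 := by
    refine eq_zero_of_fixed_family R' (parBC R R' Γ') (LinearMap.ker (X₁.prod X₂)) G
      (fun i => parExt R R' Γ' (G i)) ?_ ?_ y hG
    · intro i c m
      rw [parBC_tmul, parBC_tmul, parExt_smul_parMapAlg]
    · intro m hm hfix
      rw [LinearMap.mem_ker, LinearMap.prod_apply, Prod.mk_eq_zero] at hm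
      exact hker m hm.1 hm.2 hfix
  rw [hy0, map_zero, map_zero]

end Flat

section Finite

variable {R : Type*} [CommRing R] {M : Type*} [AddCommGroup M] [Module R M]
  [IsNoetherian R (Module.End R M)]

/-- **finite subfamily**: the common fixed points of an arbitrary family of endomorphisms of a
module with noetherian endomorphism module are the common fixed points of a finite subfamily. -/
theorem exists_finset_fixed {G : Type*} (S : Set G) (ρ : G → Module.End R M) :
    ∃ T : Finset G, (↑T : Set G) ⊆ S ∧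
      ∀ m : M, (∀ τ ∈ T, ρ τ m = m) → ∀ τ ∈ S, ρ τ m = m := by
  classical
  set E : Submodule R (Module.End R M) := Submodule.span R ((fun τ => ρ τ - 1) '' S) with hE
  have hfg : E.FG := IsNoetherian.noetherian E
  obtain ⟨t, ht, hspan⟩ := (Submodule.fg_span_iff_fg_span_finset_subset _).mp hfg
  -- pull back the finite subset of the image
  have hsub : ∀ e ∈ t, ∃ τ ∈ S, ρ τ - 1 = e := fun e he => ht he
  choose τ₀ hτ₀S hτ₀ using hsub
  refine ⟨t.attach.image (fun e => τ₀ e.1 e.2), ?_, ?_⟩
  · intro τ hτ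
    rw [Finset.coe_image] at hτ
    obtain ⟨e, -, rfl⟩ := hτ
    exact hτ₀S e.1 e.2
  · intro m hm τ hτ
    have hmem : ρ τ - 1 ∈ Submodule.span R (↑t : Set (Module.End R M)) := by
      rw [← hspan]
      exact Submodule.subset_span ⟨τ, hτ, rfl⟩
    have hzero : ∀ e ∈ Submodule.span R (↑t : Set (Module.End R M)), e m = 0 := by
      intro e he
      induction he using Submodule.span_induction with
      | mem e he =>
        have h1 := hm (τ₀ e he) (Finset.mem_image.mpr ⟨⟨e, he⟩, Finset.mem_attach _ _, rfl⟩)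
        rw [← hτ₀ e he, LinearMap.sub_apply, Module.End.one_apply, h1, sub_self]
      | zero => rfl
      | add a b _ _ ha hb => rw [LinearMap.add_apply, ha, hb, add_zero]
      | smul r a _ ha => rw [LinearMap.smul_apply, ha, smul_zero]
    have := hzero _ hmem
    rwa [LinearMap.sub_apply, Module.End.one_apply, sub_eq_zero] at this

end Finite

end Fermat.Agent.S36
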