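/-
S36 — lead — package [TOP36], part 4: **no inertia invariants on the eigenlattice of a system of
eigenvalues which is new at `q`**, from (KEY36), for abstract transfer data.
-/
import Mathlib
import Fermat.Agent.S36.TOP36_lead_Core
import Fermat.Agent.S36.TOP36_lead_Flat
import Fermat.Agent.S35.T2_lead_Lattice

set_option autoImplicit false
set_option linter.unusedSectionVars false
set_option linter.unusedVariables false
set_option linter.style.haveILetI false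

open CongruenceSubgroup ModularCurve ModularCurve.Period

open scoped MatrixGroups

namespace Fermat.Agent.S36

open Fermat.Agent.GR Fermat.Agent.X0N Fermat.Agent.JA Fermat.Agent.S35

local notation "Ω" => AlgebraicClosure ℚ
local notation "GQ" => (AlgebraicClosure ℚ ≃ₐ[ℚ] AlgebraicClosure ℚ)

section BLevel

variable {M₀ q p : ℕ} [NeZero M₀] [NeZero q] [NeZero (M₀ * q)] [hp : Fact p.Prime]
  (D' : KapData (JZero (M₀ * q)) (Gamma0 (M₀ * q)) p) (D₀ : KapData (JZero M₀) (Gamma0 M₀) p)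
  {ι : Type*} [Fintype ι]
  (Xα Xβ : TransferDatum ↥(Gamma0 (M₀ * q)) ↥(Gamma0 M₀) (GL (Fin 2) ℝ) ι)
  (B : Type) [CommRing B] [IsDomain B] [CharZero B] [Algebra ℤ_[p] B]
  [Module.Flat ℤ_[p] B]

/-- **(KEY36) on `Hom_par(Γ₀(M₀ q), B)`**: an element fixed by a set `S` of Galois elements and
killed by both transfers is zero. -/
theorem parExt_fixed_eq_zero
    (hkα : ∀ (k : ℕ) (x : ↥(torsionNat (JZero (M₀ * q)) (p ^ k))),
      D₀.kap k (torsionNatMap₂ (p ^ k) (degPushAlpha M₀ q) x) =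
        Xα.transferGrp (ZMod (p ^ k)) (D'.kap k x))
    (hkβ : ∀ (k : ℕ) (x : ↥(torsionNat (JZero (M₀ * q)) (p ^ k))),
      D₀.kap k (torsionNatMap₂ (p ^ k) (degPushBeta M₀ q) x) =
        Xβ.transferGrp (ZMod (p ^ k)) (D'.kap k x))
    (hparα : ∀ (R : Type) [CommRing R], ∀ ψ ∈ parabolicHoms R (Gamma0 (M₀ * q)) R,
      Xα.transferGrp R ψ ∈ parabolicHoms R (Gamma0 M₀) R)
    (hparβ : ∀ (R : Type) [CommRing R], ∀ ψ ∈ parabolicHoms R (Gamma0 (M₀ * q)) R,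
      Xβ.transferGrp R ψ ∈ parabolicHoms R (Gamma0 M₀) R)
    (S : Set GQ) {c : ℕ}
    (hkey : ∀ (k : ℕ) (x : JZero (M₀ * q)), p ^ k • x = 0 → (∀ τ ∈ S, τ • x = x) →
      degPushAlpha M₀ q x = 0 → degPushBeta M₀ q x = 0 → p ^ c • x = 0)
    (v : ↥(parabolicHoms B (Gamma0 (M₀ * q)) B)) (hvα : Xα.transferGrp B v.1 = 0)
    (hvβ : Xβ.transferGrp B v.1 = 0)
    (hfix : ∀ τ ∈ S, parExt ℤ_[p] B (Gamma0 (M₀ * q)) (D'.rho τ) v = v) : v = 0 := by
  classical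
  obtain ⟨T, hTS, hT⟩ := exists_finset_fixed (R := ℤ_[p])
    (M := ↥(parabolicHoms ℤ_[p] (Gamma0 (M₀ * q)) ℤ_[p])) S (fun τ => D'.rho τ)
  refine eq_zero_of_ker_family (xferPar Xα ℤ_[p] (hparα ℤ_[p]))
    (xferPar Xβ ℤ_[p] (hparβ ℤ_[p])) (xferPar Xα B (hparα B)) (xferPar Xβ B (hparβ B))
    (xferPar_parMapAlg Xα ℤ_[p] B _ _) (xferPar_parMapAlg Xβ ℤ_[p] B _ _)
    (fun i : ↥T => D'.rho i.1) ?_ v (Subtype.ext hvα) (Subtype.ext hvβ)
    (fun i => hfix i.1 (hTS i.2))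
  intro ψ h1 h2 h3
  exact eq_zero_of_fixed_of_kapTransfer (kapTransferOf D' D₀ Xα _ hkα)
    (kapTransferOf D' D₀ Xβ _ hkβ) S hkey ψ (congrArg Subtype.val h1) (congrArg Subtype.val h2)
    (hT ψ (fun τ hτ => h3 ⟨τ, hτ⟩))

end BLevel

section Rep

variable {M₀ q p : ℕ} [NeZero M₀] [NeZero q] [NeZero (M₀ * q)] [hp : Fact p.Prime]
  (I : StageIData (M₀ * q) p) (D₀ : KapData (JZero M₀) (Gamma0 M₀) p)
  {ι : Type*} [Fintype ι]
  (Xα Xβ : TransferDatum ↥(Gamma0 (M₀ * q)) ↥(Gamma0 M₀) (GL (Fin 2) ℝ) ι)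
  (B : Type) [CommRing B] [IsDomain B] [IsDiscreteValuationRing B] [CharZero B]
  [Algebra ℤ_[p] B] [Module.Flat ℤ_[p] B] (hpB : (p : B) ∈ IsLocalRing.maximalIdeal B)
  (a : Nat.Primes → B)
  (L : Type) [Field L] [Algebra B L] [IsFractionRing B L]
  (hrank : Module.finrank L ↥(eigenPar (M₀ * q) L (mapSys B L a)) = 2)

/-- **no invariants on the eigenlattice** of a system which is new at `q`, for a set `S` of Galois
elements satisfying the key property. -/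
theorem rep_fixed_eq_zero
    (hkα : ∀ (k : ℕ) (x : ↥(torsionNat (JZero (M₀ * q)) (p ^ k))),
      D₀.kap k (torsionNatMap₂ (p ^ k) (degPushAlpha M₀ q) x) =
        Xα.transferGrp (ZMod (p ^ k)) (I.D.kap k x))
    (hkβ : ∀ (k : ℕ) (x : ↥(torsionNat (JZero (M₀ * q)) (p ^ k))),
      D₀.kap k (torsionNatMap₂ (p ^ k) (degPushBeta M₀ q) x) =
        Xβ.transferGrp (ZMod (p ^ k)) (I.D.kap k x))
    (hparα : ∀ (R : Type) [CommRing R], ∀ ψ ∈ parabolicHoms R (Gamma0 (M₀ * q)) R,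
      Xα.transferGrp R ψ ∈ parabolicHoms R (Gamma0 M₀) R)
    (hparβ : ∀ (R : Type) [CommRing R], ∀ ψ ∈ parabolicHoms R (Gamma0 (M₀ * q)) R,
      Xβ.transferGrp R ψ ∈ parabolicHoms R (Gamma0 M₀) R)
    (hHα : ∀ ℓ : Nat.Primes, ¬ (ℓ : ℕ) ∣ M₀ * q → ∀ ψ : Additive ↥(Gamma0 (M₀ * q)) →+ B,
      Xα.transferGrp B (heckeGrpP (M₀ * q) ℓ B ψ) = heckeGrpP M₀ ℓ B (Xα.transferGrp B ψ))
    (hHβ : ∀ ℓ : Nat.Primes, ¬ (ℓ : ℕ) ∣ M₀ * q → ∀ ψ : Additive ↥(Gamma0 (M₀ * q)) →+ B,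
      Xβ.transferGrp B (heckeGrpP (M₀ * q) ℓ B ψ) = heckeGrpP M₀ ℓ B (Xβ.transferGrp B ψ))
    (hnew : eigenParOn M₀ L (primesNotDvd (M₀ * q)) (mapSys B L a) = ⊥)
    (S : Set GQ) {c : ℕ}
    (hkey : ∀ (k : ℕ) (x : JZero (M₀ * q)), p ^ k • x = 0 → (∀ τ ∈ S, τ • x = x) →
      degPushAlpha M₀ q x = 0 → degPushBeta M₀ q x = 0 → p ^ c • x = 0)
    (v : (I.rep B hpB a L hrank).V)
    (hv : ∀ τ ∈ S, (I.rep B hpB a L hrank).ρ τ v = v) : v = 0 := by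
  have hinj : Function.Injective (algebraMap B L) := IsFractionRing.injective B L
  have hv' : (v : ↥(eigenLattice (M₀ * q) B a)).1.1 ∈ eigenPar (M₀ * q) B a := v.2
  have h0 : (v : ↥(eigenLattice (M₀ * q) B a)).1 = 0 := by
    refine parExt_fixed_eq_zero I.D D₀ Xα Xβ B hkα hkβ hparα hparβ S hkey
      (v : ↥(eigenLattice (M₀ * q) B a)).1
      (transferGrp_eq_zero_of_new Xα B L hinj hHα (hparα B) a hnew hv')
      (transferGrp_eq_zero_of_new Xβ B L hinj hHβ (hparβ B) a hnew hv') ?_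
    intro τ hτ
    have := congrArg Subtype.val (hv τ hτ)
    exact this
  exact Subtype.ext h0

end Rep

end Fermat.Agent.S36
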