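/-
S36 — lead — package [TOP36], part 5: **the frozen S36 statement from (KEY36)**, modulo the
transfer data of the inclusion `Γ₀(M₀ q) ≤ Γ₀(M₀)` for `q ∣ M₀` (`KapXfer2Statement`) and the
embedded eigensystem of the newform (EMB, helper6).

* `S36InvStatement` : the representation attached to a newform of level `M` has no nonzero vector
  fixed by the inertia group at a place over a prime `q ≠ lam` with `q ^ 2 ∥ M`;
* `s36_of_inv` : the frozen statement from `S36InvStatement` (Kolchin in dimension two);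
* `s36Inv_of_key36` : `S36InvStatement` from (KEY36).
-/
import Mathlib
import Fermat.Agent.S36.KEY36_lead_Iface
import Fermat.Agent.S36.TOP36_lead_Lattice
import Fermat.Agent.S36.TOP36_lead_Kolchin
import Fermat.Agent.S35.T2_lead_Top
import Fermat.Agent.S54_Frobenius

set_option autoImplicit false
set_option linter.unusedSectionVars false
set_option linter.unusedVariables false
set_option linter.style.haveILetI false

open CongruenceSubgroup ModularCurve ModularCurve.Period Polynomial IsLocalRing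

open scoped MatrixGroups

namespace Fermat.Agent.S36

open Fermat.Agent.GR Fermat.Agent.X0N Fermat.Agent.JA Fermat.Agent.S35

local notation "Ω" => AlgebraicClosure ℚ
local notation "GQ" => (AlgebraicClosure ℚ ≃ₐ[ℚ] AlgebraicClosure ℚ)

/-- **the transfer data of `Γ₀(M₀ q) ≤ Γ₀(M₀)` for `q ∣ M₀`**, intertwined by the Kummer maps of
the stage-(I) data with the two degeneracy pushforwards, preserving parabolic classes and commuting
with the Hecke operators prime to the level. -/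
def KapXfer2Statement : Prop :=
  ∀ (M₀ q p : ℕ) [NeZero M₀] [NeZero q] [NeZero (M₀ * q)] [Fact p.Prime], q.Prime → q ∣ M₀ →
    ∃ (Xα Xβ : TransferDatum ↥(Gamma0 (M₀ * q)) ↥(Gamma0 M₀) (GL (Fin 2) ℝ) (Fin q)),
      (∀ (k : ℕ) (x : ↥(torsionNat (JZero (M₀ * q)) (p ^ k))),
        (stageIData M₀ p).D.kap k (torsionNatMap₂ (p ^ k) (degPushAlpha M₀ q) x) =
          Xα.transferGrp (ZMod (p ^ k)) ((stageIData (M₀ * q) p).D.kap k x)) ∧
      (∀ (k : ℕ) (x : ↥(torsionNat (JZero (M₀ * q)) (p ^ k))),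
        (stageIData M₀ p).D.kap k (torsionNatMap₂ (p ^ k) (degPushBeta M₀ q) x) =
          Xβ.transferGrp (ZMod (p ^ k)) ((stageIData (M₀ * q) p).D.kap k x)) ∧
      (∀ (R : Type) [CommRing R], ∀ ψ ∈ parabolicHoms R (Gamma0 (M₀ * q)) R,
        Xα.transferGrp R ψ ∈ parabolicHoms R (Gamma0 M₀) R) ∧
      (∀ (R : Type) [CommRing R], ∀ ψ ∈ parabolicHoms R (Gamma0 (M₀ * q)) R,
        Xβ.transferGrp R ψ ∈ parabolicHoms R (Gamma0 M₀) R) ∧
      (∀ (R : Type) [CommRing R] (ℓ : Nat.Primes), ¬ (ℓ : ℕ) ∣ M₀ * q →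
        ∀ ψ : Additive ↥(Gamma0 (M₀ * q)) →+ R,
          Xα.transferGrp R (heckeGrpP (M₀ * q) ℓ R ψ) =
            heckeGrpP M₀ ℓ R (Xα.transferGrp R ψ)) ∧
      (∀ (R : Type) [CommRing R] (ℓ : Nat.Primes), ¬ (ℓ : ℕ) ∣ M₀ * q →
        ∀ ψ : Additive ↥(Gamma0 (M₀ * q)) →+ R,
          Xβ.transferGrp R (heckeGrpP (M₀ * q) ℓ R ψ) =
            heckeGrpP M₀ ℓ R (Xβ.transferGrp R ψ))

section Main

variable {N : ℕ} [NeZero N] {p : ℕ} [hp : Fact p.Prime]

/-- the core: a complete DVR `B` with fraction field `L`, a system `a : Nat.Primes → B` occurring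
over `L` and new at every prime dividing `N`. -/
theorem exists_rep_of_system_inv (hkey : Key36Statement) (hxfer : KapXfer2Statement)
    (B : Type) [CommRing B] [IsDomain B] [IsDiscreteValuationRing B] [CharZero B]
    [IsAdicComplete (maximalIdeal B) B] (hpB : (p : B) ∈ maximalIdeal B)
    (L : Type) [Field L] [Algebra B L] [IsFractionRing B L]
    (a : Nat.Primes → B) (hocc : eigenPar N L (mapSys B L a) ≠ ⊥)
    (hnew : ∀ (q M₀ : ℕ), q.Prime → N = M₀ * q →
      eigenParOn M₀ L (primesNotDvd N) (mapSys B L a) = ⊥) :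
    ∃ ρ : GaloisRepAdic B,
      (∀ (q : ℕ) (hq : q.Prime), ¬ q ∣ N * p →
        ∀ A : ValuationSubring Ω, A.LiesOverPrime q → ∀ σ : GQ, A.IsFrobeniusAt σ q →
          LinearMap.charpoly (ρ.ρ σ) = X ^ 2 - C (a ⟨q, hq⟩) * X + C (q : B)) ∧
      (∀ q : ℕ, q.Prime → q ≠ p → q ^ 2 ∣ N → ¬ q ^ 3 ∣ N →
        ∀ A : ValuationSubring Ω, A.LiesOverPrime q →
          ∀ v : ρ.V, (∀ σ ∈ A.inertiaSubgroupIn ℚ, ρ.ρ σ v = v) → v = 0) := by
  letI : Algebra ℤ_[p] B := (padicToComplete p (maximalIdeal B) hpB).toAlgebra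
  haveI : Module.Flat ℤ_[p] B := flat_padic_of_charZero B
  haveI : CharZero L := charZero_of_injective_algebraMap (IsFractionRing.injective B L)
  obtain ⟨_, _, hrank⟩ := mult1_field hocc
  obtain ⟨hplus, hminus⟩ := exists_plus_minus_of_occ L (mapSys B L a) hocc
  refine ⟨(stageIData N p).rep B hpB a L hrank, ?_, ?_⟩
  · intro q hq hqNp A hA σ hσ
    exact (stageIData N p).rep_charpoly_frobenius B hpB a L hrank hplus hminus hq hqNp hA hσ
  · intro q hq hqp hq2 hq3 A hA v hv
    obtain ⟨M₀, hM₀⟩ := dvd_of_mul_left_dvd (a := q) (by rwa [pow_two] at hq2 : q * q ∣ N)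
    have hN : N = M₀ * q := by rw [hM₀, mul_comm]
    have hqM₀ : q ∣ M₀ := by
      rw [pow_two, hM₀] at hq2
      exact (Nat.mul_dvd_mul_iff_left hq.pos).mp hq2
    have hq2M₀ : ¬ q ^ 2 ∣ M₀ := by
      rintro ⟨m, rfl⟩
      apply hq3
      rw [hM₀]
      exact ⟨m, by ring⟩
    have hnew' := hnew q M₀ hq hN
    haveI : NeZero M₀ := ⟨by
      rintro rfl
      exact NeZero.ne N (by rw [hN, zero_mul])⟩
    haveI : NeZero q := ⟨hq.ne_zero⟩
    subst hN
    obtain ⟨c, H⟩ := hkey M₀ q p hq hp.out hqp hqM₀ hq2M₀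
    obtain ⟨Xα, Xβ, hkα, hkβ, hparα, hparβ, hHα, hHβ⟩ := hxfer M₀ q p hq hqM₀
    exact rep_fixed_eq_zero (stageIData (M₀ * q) p) (stageIData M₀ p).D Xα Xβ B hpB a L hrank
      hkα hkβ hparα hparβ (fun ℓ hℓ ψ => hHα B ℓ hℓ ψ) (fun ℓ hℓ ψ => hHβ B ℓ hℓ ψ) hnew'
      (↑(A.inertiaSubgroupIn ℚ) : Set GQ) (H A hA) v hv

/-- Stage A: a finite extension `L` of the fraction field of a complete DVR `A` over which a
system of integral eigenvalues occurs and is new at every prime dividing `N`. -/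
theorem exists_ext_rep_of_finite_inv (hkey : Key36Statement) (hxfer : KapXfer2Statement)
    (A : Type) [CommRing A] [IsDomain A] [IsDiscreteValuationRing A]
    [IsAdicComplete (maximalIdeal A) A] [Finite (ResidueField A)] [CharZero A]
    (hpA : (p : A) ∈ maximalIdeal A)
    (K : Type) [Field K] [Algebra A K] [IsFractionRing A K]
    (L : Type) [Field L] [Algebra K L] [FiniteDimensional K L] [Algebra A L] [IsScalarTower A K L]
    (aL : Nat.Primes → L) (hint : ∀ ℓ, IsIntegral A (aL ℓ)) (hocc : eigenPar N L aL ≠ ⊥)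
    (hnew : ∀ (q M₀ : ℕ), q.Prime → N = M₀ * q →
      eigenParOn M₀ L (primesNotDvd N) aL = ⊥) :
    ∃ (B : Type) (_ : CommRing B) (_ : IsDomain B) (_ : IsDiscreteValuationRing B)
      (_ : IsAdicComplete (maximalIdeal B) B) (_ : Finite (ResidueField B)) (_ : CharZero B)
      (_ : Algebra A B) (_ : Module.Finite A B) (_ : IsLocalHom (algebraMap A B)),
      Function.Injective (algebraMap A B) ∧
      ∃ ρ : GaloisRepAdic B,
        (∀ (q : ℕ) (hq : q.Prime), ¬ q ∣ N * p → ∀ x : A, algebraMap A L x = aL ⟨q, hq⟩ →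
          ∀ V : ValuationSubring Ω, V.LiesOverPrime q → ∀ σ : GQ, V.IsFrobeniusAt σ q →
            LinearMap.charpoly (ρ.ρ σ) = X ^ 2 - C (algebraMap A B x) * X + C (q : B)) ∧
        (∀ q : ℕ, q.Prime → q ≠ p → q ^ 2 ∣ N → ¬ q ^ 3 ∣ N →
          ∀ V : ValuationSubring Ω, V.LiesOverPrime q →
            ∀ v : ρ.V, (∀ σ ∈ V.inertiaSubgroupIn ℚ, ρ.ρ σ v = v) → v = 0) := by
  haveI : CharZero K := charZero_of_injective_algebraMap (IsFractionRing.injective A K)
  haveI : Algebra.IsSeparable K L := Algebra.IsAlgebraic.isSeparable_of_perfectField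
  obtain ⟨i1, i2, i3, i4, i5, i6, i7⟩ :=
    Fermat.Agent.CFT.Local.exists_localExt_instances A K L ↥(integralClosure A L)
  haveI := i1
  haveI := i2
  haveI := i3
  haveI := i4
  haveI := i5
  haveI := i6
  haveI hfinres : Finite (ResidueField ↥(integralClosure A L)) := i7 inferInstance
  have hinjL : Function.Injective (algebraMap A L) := by
    rw [IsScalarTower.algebraMap_eq A K L]
    exact (algebraMap K L).injective.comp (IsFractionRing.injective A K)
  have hinj : Function.Injective (algebraMap A ↥(integralClosure A L)) := by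
    intro x y hxy
    apply hinjL
    exact congrArg Subtype.val hxy
  haveI : CharZero ↥(integralClosure A L) := charZero_of_injective_algebraMap hinj
  have hpB : (p : ↥(integralClosure A L)) ∈ maximalIdeal ↥(integralClosure A L) := by
    have h1 : (p : ↥(integralClosure A L)) = algebraMap A ↥(integralClosure A L) (p : A) := by
      rw [map_natCast]
    rw [h1]
    exact map_nonunit (algebraMap A ↥(integralClosure A L)) _ hpA
  let a'' : Nat.Primes → ↥(integralClosure A L) := fun ℓ => ⟨aL ℓ, hint ℓ⟩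
  have hsys : mapSys ↥(integralClosure A L) L a'' = aL := rfl
  obtain ⟨ρ, h1, h3⟩ := exists_rep_of_system_inv hkey hxfer ↥(integralClosure A L) hpB L a''
    (by rw [hsys]; exact hocc) (by rw [hsys]; exact hnew)
  refine ⟨↥(integralClosure A L), inferInstance, inferInstance, inferInstance, inferInstance,
    hfinres, inferInstance, inferInstance, inferInstance, inferInstance, hinj, ρ, ?_, h3⟩
  intro q hq hqNp x hx V hV σ hσ
  rw [h1 q hq hqNp V hV σ hσ]
  have : a'' ⟨q, hq⟩ = algebraMap A ↥(integralClosure A L) x := Subtype.ext hx.symm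
  rw [this]

end Main

section Statement

/-- **the geometric input of S36, invariant form**: the representation attached to a newform of
level `M` has no nonzero vector fixed by the inertia group at a place over a prime `q ≠ lam` with
`q ^ 2 ∥ M`. -/
def S36InvStatement : Prop :=
  ∀ {M : ℕ} [NeZero M] {g : CuspForm (CongruenceSubgroup.Gamma0 M) 2} (_hg : g.IsNewform)
    (lam : ℕ) [Fact lam.Prime] (S : Finset ℕ)
    (O' : Type) [CommRing O'] [IsDomain O'] [IsDiscreteValuationRing O']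
    [IsAdicComplete (IsLocalRing.maximalIdeal O') O'] [Finite (IsLocalRing.ResidueField O')]
    [CharZero O'] (_hlamO' : (lam : O') ∈ IsLocalRing.maximalIdeal O')
    (chig : CuspForm.heckeAlgebra M 2 (↑S : Set ℕ) →+* ℂ)
    (_hchig : ∀ (ℓ : ℕ) (hℓ : ℓ.Prime) (hℓM : ¬ ℓ ∣ M) (hℓS : ℓ ∉ (↑S : Set ℕ)),
      chig (CuspForm.heckeAlgebra.T hℓ hℓM hℓS) = ModularFormClass.qCoeff g ℓ)
    (iota : chig.range →+* O')
    (_hlamS : lam ∈ S) (_hMS : ∀ q : ℕ, q.Prime → q ∣ M → q ∈ S),
    ∃ (O'' : Type) (_ : CommRing O'') (_ : IsDomain O'') (_ : IsDiscreteValuationRing O'')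
      (_ : IsAdicComplete (IsLocalRing.maximalIdeal O'') O'')
      (_ : Finite (IsLocalRing.ResidueField O''))
      (_ : CharZero O'') (_ : Algebra O' O'') (_ : Module.Finite O' O'')
      (_ : IsLocalHom (algebraMap O' O'')),
      Function.Injective (algebraMap O' O'') ∧
      ∃ ρ : GaloisRepAdic O'',
        (∀ (ℓ : ℕ) (hℓ : ℓ.Prime) (hℓM : ¬ ℓ ∣ M) (hℓS : ℓ ∉ (↑S : Set ℕ)),
          ∀ A : ValuationSubring (AlgebraicClosure ℚ), A.LiesOverPrime ℓ →
            ∀ σ : AlgebraicClosure ℚ ≃ₐ[ℚ] AlgebraicClosure ℚ, A.IsFrobeniusAt σ ℓ →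
              LinearMap.charpoly (ρ.ρ σ) =
                X ^ 2 - C (algebraMap O' O'' ((iota.comp chig.rangeRestrict)
                  (CuspForm.heckeAlgebra.T hℓ hℓM hℓS))) * X + C ((ℓ : O''))) ∧
        (∀ q : ℕ, q.Prime → q ≠ lam → M.factorization q = 2 →
          ∀ A : ValuationSubring (AlgebraicClosure ℚ), A.LiesOverPrime q →
            ∀ v : ρ.V, (∀ σ ∈ A.inertiaSubgroupIn ℚ, ρ.ρ σ v = v) → v = 0)

/-- Stage B: **`S36InvStatement` from (KEY36), the transfer data and (EMB).** -/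
theorem s36Inv_of_key36 (hkey : Key36Statement) (hxfer : KapXfer2Statement)
    (hemb : EmbStatement) : S36InvStatement := by
  intro N _ g hg lam _ S O' _ _ _ _ _ _ hlamO' chig hchig iota hlamS hNS
  haveI : CharZero (FractionRing O') :=
    charZero_of_injective_algebraMap (IsFractionRing.injective O' (FractionRing O'))
  have hinjF : Function.Injective (algebraMap O' (AlgebraicClosure (FractionRing O'))) := by
    rw [IsScalarTower.algebraMap_eq O' (FractionRing O') (AlgebraicClosure (FractionRing O'))]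
    exact (algebraMap (FractionRing O') (AlgebraicClosure (FractionRing O'))).injective.comp
      (IsFractionRing.injective O' (FractionRing O'))
  obtain ⟨aF, hintF, haT, hoccF, hrefl⟩ := hemb hg.1 S O' chig hchig iota
    (AlgebraicClosure (FractionRing O')) hinjF
  have hint𝒪 : ∀ ℓ, IsIntegral O' (aF ℓ) := fun ℓ => isIntegral_of_isIntegral_int (hintF ℓ)
  have hintK : ∀ ℓ, IsIntegral (FractionRing O') (aF ℓ) := fun ℓ =>
    isIntegral_of_isIntegral_int (hintF ℓ)
  -- the finite extension generated by the eigenvalues at the primes in `S`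
  have hfinset : ({ℓ : Nat.Primes | (ℓ : ℕ) ∈ S}).Finite := by
    refine Set.Finite.of_finite_image (f := fun ℓ : Nat.Primes => (ℓ : ℕ)) ?_
      (fun x _ y _ hxy => Subtype.ext hxy)
    refine S.finite_toSet.subset ?_
    rintro _ ⟨ℓ, hℓ, rfl⟩
    exact hℓ
  haveI : Finite ↑(aF '' {ℓ : Nat.Primes | (ℓ : ℕ) ∈ S}) := (hfinset.image aF).to_subtype
  haveI hfd : FiniteDimensional (FractionRing O')
      ↥(IntermediateField.adjoin (FractionRing O') (aF '' {ℓ : Nat.Primes | (ℓ : ℕ) ∈ S})) :=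
    IntermediateField.finiteDimensional_adjoin (by
      rintro _ ⟨ℓ, _, rfl⟩
      exact hintK ℓ)
  haveI : IsScalarTower O' (FractionRing O')
      ↥(IntermediateField.adjoin (FractionRing O') (aF '' {ℓ : Nat.Primes | (ℓ : ℕ) ∈ S})) :=
    IsScalarTower.of_algebraMap_eq fun x => Subtype.ext (by
      show algebraMap O' (AlgebraicClosure (FractionRing O')) x = _
      rw [IsScalarTower.algebraMap_apply O' (FractionRing O')
        (AlgebraicClosure (FractionRing O'))]
      rfl)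
  have hmem : ∀ ℓ : Nat.Primes, aF ℓ ∈
      IntermediateField.adjoin (FractionRing O') (aF '' {ℓ : Nat.Primes | (ℓ : ℕ) ∈ S}) := by
    intro ℓ
    by_cases hℓS : (ℓ : ℕ) ∈ S
    · exact IntermediateField.subset_adjoin _ _ ⟨ℓ, hℓS, rfl⟩
    · have hℓN : ¬ (ℓ : ℕ) ∣ N := fun h => hℓS (hNS _ ℓ.2 h)
      have h := haT ℓ.1 ℓ.2 hℓN (by simpa using hℓS)
      have h' : aF ℓ = aF ⟨ℓ.1, ℓ.2⟩ := rfl
      rw [h', h,
        IsScalarTower.algebraMap_apply O' (FractionRing O') (AlgebraicClosure (FractionRing O'))]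
      exact IntermediateField.algebraMap_mem _ _
  let aL : Nat.Primes →
      ↥(IntermediateField.adjoin (FractionRing O') (aF '' {ℓ : Nat.Primes | (ℓ : ℕ) ∈ S})) :=
    fun ℓ => ⟨aF ℓ, hmem ℓ⟩
  haveI : IsScalarTower O'
      ↥(IntermediateField.adjoin (FractionRing O') (aF '' {ℓ : Nat.Primes | (ℓ : ℕ) ∈ S}))
      (AlgebraicClosure (FractionRing O')) :=
    IsScalarTower.of_algebraMap_eq fun x => rfl
  have hintL : ∀ ℓ, IsIntegral O' (aL ℓ) := by
    intro ℓ
    have h := hint𝒪 ℓ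
    have h2 : aF ℓ = algebraMap
      ↥(IntermediateField.adjoin (FractionRing O') (aF '' {ℓ : Nat.Primes | (ℓ : ℕ) ∈ S}))
      (AlgebraicClosure (FractionRing O')) (aL ℓ) := rfl
    rw [h2] at h
    exact (isIntegral_algebraMap_iff (RingHom.injective _)).1 h
  have hoccL : eigenPar N
      ↥(IntermediateField.adjoin (FractionRing O') (aF '' {ℓ : Nat.Primes | (ℓ : ℕ) ∈ S}))
      aL ≠ ⊥ := by
    rw [← eigenPar_ne_bot_map_iff _ (AlgebraicClosure (FractionRing O'))]
    exact hoccF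
  have hnewL : ∀ (q M₀ : ℕ), q.Prime → N = M₀ * q →
      eigenParOn M₀
        ↥(IntermediateField.adjoin (FractionRing O') (aF '' {ℓ : Nat.Primes | (ℓ : ℕ) ∈ S}))
        (primesNotDvd N) aL = ⊥ := by
    intro q M₀ hq hN
    by_contra hne
    haveI : NeZero M₀ := ⟨by
      rintro rfl
      exact NeZero.ne N (by rw [hN, zero_mul])⟩
    have h1 := eigenParOn_ne_bot_map' (N := M₀) _ (AlgebraicClosure (FractionRing O'))
      (primesNotDvd N) aL hne
    have h2 := hrefl M₀ (primesNotDvd N) h1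
    have h3 := goodEigensystemOccursAt_of_eigenParOn g M₀ h2
    refine hg.2 M₀ ⟨q, hN⟩ ?_ h3
    intro hM
    have hq1 : q = 1 := by
      have hM0 : 0 < M₀ := Nat.pos_of_ne_zero (NeZero.ne M₀)
      have : M₀ * q = M₀ * 1 := by rw [mul_one, ← hN, hM]
      exact Nat.eq_of_mul_eq_mul_left hM0 this
    exact hq.one_lt.ne' hq1
  obtain ⟨B, i1, i2, i3, i4, i5, i6, i7, i8, i9, hinj, ρ, h1, h3⟩ :=
    exists_ext_rep_of_finite_inv (N := N) (p := lam) hkey hxfer O' hlamO' (FractionRing O')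
      ↥(IntermediateField.adjoin (FractionRing O') (aF '' {ℓ : Nat.Primes | (ℓ : ℕ) ∈ S}))
      aL hintL hoccL hnewL
  refine ⟨B, i1, i2, i3, i4, i5, i6, i7, i8, i9, hinj, ρ, ?_, ?_⟩
  · intro ℓ hℓ hℓN hℓS A hA σ hσ
    have hℓp : ℓ ≠ lam := fun h => hℓS (by rw [h]; exact hlamS)
    have hℓNp : ¬ ℓ ∣ N * lam := by
      intro h
      rcases (Nat.Prime.dvd_mul hℓ).1 h with h | h
      · exact hℓN h
      · exact hℓp ((Nat.prime_dvd_prime_iff_eq hℓ (Fact.out : lam.Prime)).1 h)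
    refine h1 ℓ hℓ hℓNp ((iota.comp chig.rangeRestrict) (CuspForm.heckeAlgebra.T hℓ hℓN hℓS)) ?_
      A hA σ hσ
    apply Subtype.ext
    show algebraMap O' (AlgebraicClosure (FractionRing O')) _ = aF ⟨ℓ, hℓ⟩
    rw [haT ℓ hℓ hℓN hℓS]
    rfl
  · intro q hq hql hfac A hA v hv
    have hN0 : N ≠ 0 := NeZero.ne N
    have hq2 : q ^ 2 ∣ N := by
      rw [← hfac]
      exact Nat.ordProj_dvd N q
    have hq3 : ¬ q ^ 3 ∣ N := by
      intro h
      have := (hq.pow_dvd_iff_le_factorization hN0).mp h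
      omega
    exact h3 q hq hql hq2 hq3 A hA v hv

/-- **the frozen S36 statement from `S36InvStatement`** (Kolchin in dimension two). -/
theorem s36_of_inv (hinv : S36InvStatement)
    {M : ℕ} [NeZero M] {g : CuspForm (CongruenceSubgroup.Gamma0 M) 2} (hg : g.IsNewform)
    (lam : ℕ) [Fact lam.Prime]
    (S : Finset ℕ)
    (O' : Type) [CommRing O'] [IsDomain O'] [IsDiscreteValuationRing O']
    [IsAdicComplete (IsLocalRing.maximalIdeal O') O'] [Finite (IsLocalRing.ResidueField O')]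
    [CharZero O'] (hlamO' : (lam : O') ∈ IsLocalRing.maximalIdeal O')
    (chig : CuspForm.heckeAlgebra M 2 (↑S : Set ℕ) →+* ℂ)
    (hchig : ∀ (ℓ : ℕ) (hℓ : ℓ.Prime) (hℓM : ¬ ℓ ∣ M) (hℓS : ℓ ∉ (↑S : Set ℕ)),
      chig (CuspForm.heckeAlgebra.T hℓ hℓM hℓS) = ModularFormClass.qCoeff g ℓ)
    (iota : chig.range →+* O')
    (hlamS : lam ∈ S) (hMS : ∀ q : ℕ, q.Prime → q ∣ M → q ∈ S) :
    ∃ (O'' : Type) (_ : CommRing O'') (_ : IsDomain O'') (_ : IsDiscreteValuationRing O'')
      (_ : IsAdicComplete (IsLocalRing.maximalIdeal O'') O'') (_ : Finite (IsLocalRing.ResidueField O''))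
      (_ : CharZero O'') (_ : Algebra O' O'') (_ : Module.Finite O' O'') (_ : IsLocalHom (algebraMap O' O'')),
      Function.Injective (algebraMap O' O'') ∧
      ∃ ρ : GaloisRepAdic O'',
        (∀ (ℓ : ℕ) (hℓ : ℓ.Prime) (hℓM : ¬ ℓ ∣ M) (hℓS : ℓ ∉ (↑S : Set ℕ)),
          ∀ A : ValuationSubring (AlgebraicClosure ℚ), A.LiesOverPrime ℓ →
            ∀ σ : AlgebraicClosure ℚ ≃ₐ[ℚ] AlgebraicClosure ℚ, A.IsFrobeniusAt σ ℓ →
              LinearMap.charpoly (ρ.ρ σ) =
                X ^ 2 - C (algebraMap O' O'' ((iota.comp chig.rangeRestrict) (CuspForm.heckeAlgebra.T hℓ hℓM hℓS))) * X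
                  + C ((ℓ : O''))) ∧
        (∀ q : ℕ, q.Prime → q ≠ lam → M.factorization q = 2 → ¬ ρ.IsUnipotentOnInertiaAt q) := by
  obtain ⟨O'', i1, i2, i3, i4, i5, i6, i7, i8, i9, hinj, ρ, hgood, hbad⟩ :=
    hinv hg lam S O' hlamO' chig hchig iota hlamS hMS
  refine ⟨O'', i1, i2, i3, i4, i5, i6, i7, i8, i9, hinj, ρ, hgood, ?_⟩
  intro q hq hql hfac huni
  obtain ⟨A, _, hA, _⟩ := Fermat.Agent.S54.exists_frobenius q hq
  obtain ⟨v, hv0, hv⟩ := exists_fixed_of_charpoly_eq ρ (A.inertiaSubgroupIn ℚ)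
    (fun σ hσ => huni A hA σ hσ)
  exact hv0 (hbad q hq hql hfac A hA v hv)

end Statement

end Fermat.Agent.S36
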