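/-
S36 — lead — package [TOP36], final: **the frozen S36 statement from (KEY-INERT) (helper4's
interface `KeyInertStatement`, literally (KEY36)) and the transfer data `KapXfer2Statement`**;
(EMB) is discharged by helper6's `exists_embedded_system`.
-/
import Mathlib
import Fermat.Agent.S36.TOP36_lead_Top
import Fermat.Agent.S36.KEYINERT_helper4_Iface
import Fermat.Agent.S35.T2_lead_Final

set_option autoImplicit false

namespace Fermat.Agent.S36

open Fermat.Agent.S35

/-- helper4's `KeyInertStatement` is literally `Key36Statement`. -/
theorem key36Statement_of_keyInertStatement (h : KeyInertStatement) : Key36Statement :=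
  fun M q p _ _ _ hq hp hqp hqM hq2 => h M q p hq hp hqp hqM hq2

/-- **[TOP36]: `S36InvStatement` from (KEY-INERT) and the transfer data.** -/
theorem s36Inv_of_keyInert (hkey : KeyInertStatement) (hxfer : KapXfer2Statement) :
    S36InvStatement :=
  s36Inv_of_key36 (key36Statement_of_keyInertStatement hkey) hxfer embStatement

end Fermat.Agent.S36
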