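/-
S36 — helper4 — algebraic top, part 1: **vectors fixed by a set of Galois elements and killed by
two transfers vanish**, from the torsion statement (KEY-INERT).

* `eq_zero_of_kapTransfer_of_fixed` : the `ℤ_p`-level (Tate sequences);
* `exists_linearIndependent_decomp` : every `v ∈ P_{R'}` is `∑ uₛ • χₛ` with `χₛ ∈ P_R` and `uₛ ∈ R'`
  linearly independent over the PID `R`;
* `eq_zero_of_parExt_fixed` : base change of the vanishing statement from `P_R` to `P_{R'}`
  (arbitrary families of fixing endomorphisms — no finiteness needed).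
-/
import Mathlib
import Fermat.Agent.S35.P1_lead_Two
import Fermat.Agent.GR.BETTI_lead_BaseChange

set_option autoImplicit false
set_option linter.unusedSectionVars false
set_option linter.unusedVariables false
set_option linter.style.haveILetI false

namespace Fermat.Agent.S36

open ModularCurve.Period Fermat.Agent.GR Fermat.Agent.S35 TensorProduct

open scoped MatrixGroups

/-! ### Tate sequences -/

section Seq

variable {J : Type*} [AddCommGroup J] {p : ℕ}

theorem tateSeq_pow_smul_add (x : ↥(TateSeq J p)) (k c : ℕ) :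
    p ^ c • x.1 (k + c) = x.1 k := by
  induction c with
  | zero => rw [pow_zero, one_smul, add_zero]
  | succ c ih => rw [pow_succ, mul_smul, ← add_assoc, TateSeq.smul_succ, ih]

/-- a Tate sequence all of whose components are killed by `p ^ c` vanishes. -/
theorem tateSeq_eq_zero_of_pow_smul (x : ↥(TateSeq J p)) (c : ℕ)
    (h : ∀ k, p ^ c • x.1 k = 0) : x = 0 := by
  apply Subtype.ext
  funext k
  show x.1 k = 0
  rw [← tateSeq_pow_smul_add x k c, h]

end Seq

/-! ### The `ℤ_p`-level -/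

section Two

variable {J' J : Type*} [AddCommGroup J'] [AddCommGroup J] {Γ' Γ : Subgroup SL(2, ℤ)}
  {p : ℕ} [hp : Fact p.Prime] {G : Type*} [Group G] [DistribMulAction G J']
  {D' : KapData J' Γ' p} {D : KapData J Γ p}

/-- **the key transport lemma for invariants**: if the `p`-power torsion points of `J'` fixed by
`S` and killed by `π₁`, `π₂` are killed by `p ^ c`, then a `ψ` fixed by `S` with
`X₁ ψ = X₂ ψ = 0` vanishes. -/
theorem eq_zero_of_kapTransfer_of_fixed {π₁ π₂ : J' →+ J} (T₁ : KapTransfer D' D π₁)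
    (T₂ : KapTransfer D' D π₂) (S : Set G) (c : ℕ)
    (hkey : ∀ (k : ℕ) (x : J'), p ^ k • x = 0 → (∀ σ ∈ S, σ • x = x) → π₁ x = 0 → π₂ x = 0 →
      p ^ c • x = 0)
    (ψ : ↥(parabolicHoms ℤ_[p] Γ' ℤ_[p])) (h₁ : T₁.X ψ.1 = 0) (h₂ : T₂.X ψ.1 = 0)
    (hfix : ∀ σ ∈ S, D'.rho σ ψ = ψ) : ψ = 0 := by
  obtain ⟨x, rfl⟩ := D'.phi_surjective ψ
  have hx : ∀ σ ∈ S, ∀ k, σ • x.1 k = x.1 k := by
    intro σ hσ k
    have h := hfix σ hσ
    rw [KapData.rho_phi] at h
    have h' := D'.phi_injective h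
    exact congrFun (congrArg Subtype.val h') k
  have hz : x = 0 := by
    apply tateSeq_eq_zero_of_pow_smul x c
    intro k
    exact hkey k (x.1 k) (TateSeq.pow_smul x k) (fun σ hσ => hx σ hσ k)
      (T₁.map_comp_eq_zero x h₁ k) (T₂.map_comp_eq_zero x h₂ k)
  rw [hz, map_zero]

end Two

/-! ### Base change -/

section BC

variable {R R' : Type*} [CommRing R] [IsDomain R] [IsPrincipalIdealRing R] [CommRing R']
  [Algebra R R'] [IsAddTorsionFree R] [IsAddTorsionFree R'] [Module.IsTorsionFree R R']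

/-- a combination `∑ uₛ • χₛ` with `uₛ ∈ R'` linearly independent over `R` and `χₛ ∈ P_R` vanishes
only if all `χₛ` vanish. -/
theorem eq_zero_of_sum_smul_parMapAlg_eq_zero {Γ : Subgroup SL(2, ℤ)} {n : ℕ} (u : Fin n → R')
    (hu : LinearIndependent R u) (χ : Fin n → ↥(parabolicHoms R Γ R))
    (h : ∑ s, u s • parMapAlg R R' Γ (χ s) = 0) (s : Fin n) : χ s = 0 := by
  apply Subtype.ext
  refine AddMonoidHom.ext fun γ => ?_
  have h1 : (∑ s, u s • parMapAlg R R' Γ (χ s)).1 γ = 0 := by rw [h]; rfl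
  have h2 : (∑ s, u s • parMapAlg R R' Γ (χ s)).1 γ = ∑ s, (χ s).1 γ • u s := by
    rw [AddSubmonoidClass.coe_finset_sum, AddMonoidHom.finset_sum_apply]
    refine Finset.sum_congr rfl fun s _ => ?_
    show u s * algebraMap R R' ((χ s).1 γ) = (χ s).1 γ • u s
    rw [Algebra.smul_def, mul_comm]
  rw [h2] at h1
  exact Fintype.linearIndependent_iff.mp hu (fun s => (χ s).1 γ) h1 s

variable {Γ' : Subgroup SL(2, ℤ)} [Group.FG Γ']

/-- **every `v ∈ P_{R'}` is `∑ uₛ • χₛ`** with `χₛ ∈ P_R` and `uₛ ∈ R'` linearly independent over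
the PID `R`. -/
theorem exists_linearIndependent_decomp (v : ↥(parabolicHoms R' Γ' R')) :
    ∃ (n : ℕ) (u : Fin n → R') (χ : Fin n → ↥(parabolicHoms R Γ' R)),
      LinearIndependent R u ∧ v = ∑ s, u s • parMapAlg R R' Γ' (χ s) := by
  obtain ⟨x, rfl⟩ := (parBC R R' Γ').surjective v
  obtain ⟨T, rfl⟩ := TensorProduct.exists_finset x
  classical
  -- the `R`-span of the coefficients is free of finite rank
  let U : Submodule R R' := Submodule.span R ((T.image Prod.fst : Finset R') : Set R')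
  haveI : Module.Finite R ↥U := Module.Finite.span_of_finite R (Finset.finite_toSet _)
  haveI : Module.IsTorsionFree R ↥U :=
    Function.Injective.moduleIsTorsionFree U.subtype U.subtype_injective (fun r m => rfl)
  haveI : Module.Free R ↥U := Module.free_of_finite_type_torsion_free' (R := R) (M := ↥U)
  let b := Module.finBasis R ↥U
  have hmem : ∀ i ∈ T, i.1 ∈ U := fun i hi =>
    Submodule.subset_span (Finset.mem_coe.mpr (Finset.mem_image_of_mem Prod.fst hi))
  refine ⟨Module.finrank R ↥U, fun s => (b s : R'),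
    fun s => ∑ i ∈ T.attach, b.repr ⟨i.1.1, hmem i.1 i.2⟩ s • i.1.2, ?_, ?_⟩
  · exact b.linearIndependent.map' U.subtype (LinearMap.ker_eq_bot.mpr U.subtype_injective)
  · rw [map_sum]
    have h1 : ∀ i ∈ T, parBC R R' Γ' (i.1 ⊗ₜ[R] i.2) = i.1 • parMapAlg R R' Γ' i.2 :=
      fun i _ => parBC_tmul R R' Γ' i.1 i.2
    rw [Finset.sum_congr rfl h1]
    simp only [map_sum, map_smul, Finset.smul_sum]
    rw [Finset.sum_comm, ← Finset.sum_attach T]
    refine Finset.sum_congr rfl fun i _ => ?_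
    have h2 : (i.1.1 : R') = ∑ s, b.repr ⟨i.1.1, hmem i.1 i.2⟩ s • (b s : R') := by
      have h3 := b.sum_repr ⟨i.1.1, hmem i.1 i.2⟩
      have h4 := congrArg (U.subtype) h3
      rw [map_sum] at h4
      simp only [map_smul] at h4
      exact h4.symm
    conv_lhs => rw [h2]
    rw [Finset.sum_smul]
    refine Finset.sum_congr rfl fun s _ => ?_
    rw [smul_assoc, ← smul_comm]

variable {Γ : Subgroup SL(2, ℤ)}

/-- **base change of the vanishing statement**: if the only `ψ ∈ P_R` killed by `X₁`, `X₂` and fixed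
by all `g ∈ 𝒮` is `0`, the same holds in `P_{R'}` for the extended maps. -/
theorem eq_zero_of_parExt_fixed
    (X₁ X₂ : ↥(parabolicHoms R Γ' R) →ₗ[R] ↥(parabolicHoms R Γ R))
    (X₁' X₂' : ↥(parabolicHoms R' Γ' R') →ₗ[R'] ↥(parabolicHoms R' Γ R'))
    (h₁ : ∀ ψ, X₁' (parMapAlg R R' Γ' ψ) = parMapAlg R R' Γ (X₁ ψ))
    (h₂ : ∀ ψ, X₂' (parMapAlg R R' Γ' ψ) = parMapAlg R R' Γ (X₂ ψ))
    (𝒮 : Set (Module.End R ↥(parabolicHoms R Γ' R)))
    (hzero : ∀ ψ, X₁ ψ = 0 → X₂ ψ = 0 → (∀ g ∈ 𝒮, g ψ = ψ) → ψ = 0)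
    (v : ↥(parabolicHoms R' Γ' R')) (hv₁ : X₁' v = 0) (hv₂ : X₂' v = 0)
    (hfix : ∀ g ∈ 𝒮, parExt R R' Γ' g v = v) : v = 0 := by
  obtain ⟨n, u, χ, hu, rfl⟩ := exists_linearIndependent_decomp (R := R) v
  have hχ : ∀ s, χ s = 0 := by
    intro s
    apply hzero (χ s)
    · apply eq_zero_of_sum_smul_parMapAlg_eq_zero u hu (fun s => X₁ (χ s)) _ s
      rw [← hv₁, map_sum]
      refine Finset.sum_congr rfl fun s _ => ?_
      rw [map_smul, h₁]
    · apply eq_zero_of_sum_smul_parMapAlg_eq_zero u hu (fun s => X₂ (χ s)) _ s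
      rw [← hv₂, map_sum]
      refine Finset.sum_congr rfl fun s _ => ?_
      rw [map_smul, h₂]
    · intro g hg
      have h3 := hfix g hg
      rw [map_sum] at h3
      have h4 : ∑ s, u s • parMapAlg R R' Γ' (g (χ s) - χ s) = 0 := by
        simp only [map_sub, smul_sub, Finset.sum_sub_distrib]
        rw [sub_eq_zero, ← h3]
        refine Finset.sum_congr rfl fun s _ => ?_
        rw [parExt_smul_parMapAlg]
      exact sub_eq_zero.mp
        (eq_zero_of_sum_smul_parMapAlg_eq_zero u hu (fun s => g (χ s) - χ s) h4 s)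
  refine Finset.sum_eq_zero fun s _ => ?_
  rw [hχ s, map_zero, smul_zero]

end BC

end Fermat.Agent.S36
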