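/-
S36 — helper4 — algebraic top, part 2: **Kolchin in rank two.**  A group of endomorphisms of a free
module of rank two over a domain all of whose elements have characteristic polynomial `(X - 1) ^ 2`
has a common nonzero fixed vector.
-/
import Mathlib

set_option autoImplicit false
set_option linter.unusedSectionVars false
set_option linter.unusedVariables false

open Polynomial

namespace Fermat.Agent.S36

section Mat

variable {B : Type*} [CommRing B] [IsDomain B]

/-- trace and determinant of a `2 × 2` matrix with characteristic polynomial `(X - 1) ^ 2`. -/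
theorem mat2_trace_det_of_charpoly (M : Matrix (Fin 2) (Fin 2) B)
    (h : M.charpoly = (X - 1) ^ 2) : M.trace = 2 ∧ M.det = 1 := by
  rw [Matrix.charpoly_fin_two] at h
  have h0 := congrArg (fun P : B[X] => P.coeff 0) h
  have h1 := congrArg (fun P : B[X] => P.coeff 1) h
  have e : ((X : B[X]) - 1) ^ 2 = X ^ 2 - C 2 * X + C 1 := by
    rw [map_one, map_ofNat]; ring
  rw [e] at h0 h1
  simp only [coeff_add, coeff_sub, coeff_X_pow, coeff_C_mul_X, coeff_C] at h0 h1
  norm_num at h0 h1
  exact ⟨h1, h0⟩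

/-- **the nilpotent parts of two unipotent `2 × 2` matrices whose product is unipotent multiply to
zero.** -/
theorem mat2_sub_one_mul_sub_one (M M₀ : Matrix (Fin 2) (Fin 2) B)
    (h : M.charpoly = (X - 1) ^ 2) (h₀ : M₀.charpoly = (X - 1) ^ 2)
    (hp : (M * M₀).charpoly = (X - 1) ^ 2) : (M - 1) * (M₀ - 1) = 0 := by
  obtain ⟨ht, hd⟩ := mat2_trace_det_of_charpoly M h
  obtain ⟨ht₀, hd₀⟩ := mat2_trace_det_of_charpoly M₀ h₀
  obtain ⟨htp, -⟩ := mat2_trace_det_of_charpoly (M * M₀) hp
  rw [Matrix.trace_fin_two] at ht ht₀ htp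
  rw [Matrix.det_fin_two] at hd hd₀
  simp only [Matrix.mul_apply, Fin.sum_univ_two] at htp
  -- the entries of the nilpotent parts
  set a := M 0 0 - 1 with ha
  set b := M 0 1 with hb
  set c := M 1 0 with hc
  set a₀ := M₀ 0 0 - 1 with ha₀
  set b₀ := M₀ 0 1 with hb₀
  set c₀ := M₀ 1 0 with hc₀
  have hd11 : M 1 1 = 1 - a := by rw [ha]; linear_combination ht
  have hd11₀ : M₀ 1 1 = 1 - a₀ := by rw [ha₀]; linear_combination ht₀
  have h00 : M 0 0 = 1 + a := by rw [ha]; ring
  have h00₀ : M₀ 0 0 = 1 + a₀ := by rw [ha₀]; ring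
  rw [h00, hd11] at hd
  rw [h00₀, hd11₀] at hd₀
  rw [h00, hd11, h00₀, hd11₀] at htp
  have r1 : a ^ 2 + b * c = 0 := by linear_combination -hd
  have r2 : a₀ ^ 2 + b₀ * c₀ = 0 := by linear_combination -hd₀
  have r3 : 2 * a * a₀ + b * c₀ + c * b₀ = 0 := by linear_combination htp
  have E1 : a * a₀ + b * c₀ = 0 := by
    have : (a * a₀ + b * c₀) ^ 2 = 0 := by
      linear_combination (b * c₀) * r3 - (b * c) * r2 + a₀ ^ 2 * r1
    exact pow_eq_zero_iff (two_ne_zero) |>.mp this
  have E4 : c * b₀ + a * a₀ = 0 := by linear_combination r3 - E1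
  have E2 : c * a₀ - a * c₀ = 0 := by
    have : (c * a₀ - a * c₀) ^ 2 = 0 := by
      linear_combination c ^ 2 * r2 + c₀ ^ 2 * r1 - (c * c₀) * r3
    exact pow_eq_zero_iff (two_ne_zero) |>.mp this
  have E3 : a * b₀ - b * a₀ = 0 := by
    have : (a * b₀ - b * a₀) ^ 2 = 0 := by
      linear_combination b₀ ^ 2 * r1 + b ^ 2 * r2 - (b * b₀) * r3
    exact pow_eq_zero_iff (two_ne_zero) |>.mp this
  ext i j
  fin_cases i <;> fin_cases j
  · show ((M - 1) * (M₀ - 1)) 0 0 = 0
    simp only [Matrix.mul_apply, Fin.sum_univ_two, Matrix.sub_apply, Matrix.one_apply_eq,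
      Matrix.one_apply_ne (show (0 : Fin 2) ≠ 1 by decide),
      Matrix.one_apply_ne (show (1 : Fin 2) ≠ 0 by decide), sub_zero]
    rw [h00, h00₀]
    linear_combination E1
  · show ((M - 1) * (M₀ - 1)) 0 1 = 0
    simp only [Matrix.mul_apply, Fin.sum_univ_two, Matrix.sub_apply, Matrix.one_apply_eq,
      Matrix.one_apply_ne (show (0 : Fin 2) ≠ 1 by decide),
      Matrix.one_apply_ne (show (1 : Fin 2) ≠ 0 by decide), sub_zero]
    rw [h00, hd11₀]
    linear_combination E3
  · show ((M - 1) * (M₀ - 1)) 1 0 = 0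
    simp only [Matrix.mul_apply, Fin.sum_univ_two, Matrix.sub_apply, Matrix.one_apply_eq,
      Matrix.one_apply_ne (show (0 : Fin 2) ≠ 1 by decide),
      Matrix.one_apply_ne (show (1 : Fin 2) ≠ 0 by decide), sub_zero]
    rw [hd11, h00₀]
    linear_combination E2
  · show ((M - 1) * (M₀ - 1)) 1 1 = 0
    simp only [Matrix.mul_apply, Fin.sum_univ_two, Matrix.sub_apply, Matrix.one_apply_eq,
      Matrix.one_apply_ne (show (0 : Fin 2) ≠ 1 by decide),
      Matrix.one_apply_ne (show (1 : Fin 2) ≠ 0 by decide), sub_zero]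
    rw [hd11, hd11₀]
    linear_combination E4

end Mat

section End

variable {B V : Type*} [CommRing B] [IsDomain B] [AddCommGroup V] [Module B V]
  [Module.Free B V] [Module.Finite B V]

/-- the same for endomorphisms of a free module of rank two. -/
theorem end_sub_one_mul_sub_one (hV : Module.finrank B V = 2) (f g : Module.End B V)
    (hf : LinearMap.charpoly f = (X - 1) ^ 2) (hg : LinearMap.charpoly g = (X - 1) ^ 2)
    (hfg : LinearMap.charpoly (f * g) = (X - 1) ^ 2) : (f - 1) * (g - 1) = 0 := by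
  let b : Module.Basis (Fin 2) B V := Module.finBasisOfFinrankEq B V hV
  have key := mat2_sub_one_mul_sub_one (LinearMap.toMatrix b b f) (LinearMap.toMatrix b b g)
    (by rw [LinearMap.charpoly_toMatrix, hf]) (by rw [LinearMap.charpoly_toMatrix, hg])
    (by rw [← LinearMap.toMatrix_mul, LinearMap.charpoly_toMatrix, hfg])
  apply (LinearMap.toMatrix b b).injective
  rw [LinearMap.toMatrix_mul, map_sub, map_sub, LinearMap.toMatrix_one, key, map_zero]

variable {G : Type*} [Group G]

/-- **Kolchin in rank two**: a subgroup acting by endomorphisms of characteristic polynomial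
`(X - 1) ^ 2` on a free module of rank two over a domain has a nonzero fixed vector. -/
theorem exists_fixed_of_unipotent (hV : Module.finrank B V = 2) (ρ : G →* Module.End B V)
    (H : Subgroup G) (hH : ∀ σ ∈ H, LinearMap.charpoly (ρ σ) = (X - 1) ^ 2) :
    ∃ v : V, v ≠ 0 ∧ ∀ σ ∈ H, ρ σ v = v := by
  haveI : Nontrivial V := Module.nontrivial_of_finrank_pos (R := B) (by rw [hV]; norm_num)
  by_cases htriv : ∀ σ ∈ H, ρ σ = 1
  · obtain ⟨v, hv⟩ := exists_ne (0 : V)
    exact ⟨v, hv, fun σ hσ => by rw [htriv σ hσ]; rfl⟩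
  · push_neg at htriv
    obtain ⟨σ₀, hσ₀, hne⟩ := htriv
    have hne' : ρ σ₀ - 1 ≠ 0 := sub_ne_zero.mpr hne
    obtain ⟨w, hw⟩ : ∃ w : V, (ρ σ₀ - 1) w ≠ 0 := by
      by_contra hcon
      push_neg at hcon
      exact hne' (LinearMap.ext hcon)
    refine ⟨(ρ σ₀ - 1) w, hw, fun σ hσ => ?_⟩
    have h1 := end_sub_one_mul_sub_one hV (ρ σ) (ρ σ₀) (hH σ hσ) (hH σ₀ hσ₀)
      (by rw [← map_mul]; exact hH _ (H.mul_mem hσ hσ₀))
    have h2 := LinearMap.congr_fun h1 w
    rw [Module.End.mul_apply, LinearMap.sub_apply, Module.End.one_apply, LinearMap.zero_apply,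
      sub_eq_zero] at h2
    exact h2

end End

end Fermat.Agent.S36
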