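/-
S36 — helper4 — algebraic top, part 3: **the representation on the eigenlattice of a system of
eigenvalues which is new at `q` is not unipotent on the inertia group at `q`**, from (KEY-INERT),
for abstract transfer data.
-/
import Mathlib
import Fermat.Agent.S36.KEYINERT_helper4_Iface
import Fermat.Agent.S36.TOP_helper4_Fixed
import Fermat.Agent.S36.TOP_helper4_Kolchin
import Fermat.Agent.S35.T2_lead_Lattice

set_option autoImplicit false
set_option linter.unusedSectionVars false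
set_option linter.unusedVariables false
set_option linter.style.haveILetI false

open CongruenceSubgroup ModularCurve ModularCurve.Period Polynomial

open scoped MatrixGroups

namespace Fermat.Agent.S36

open Fermat.Agent.GR Fermat.Agent.X0N Fermat.Agent.JA Fermat.Agent.S35

local notation "Ω" => AlgebraicClosure ℚ
local notation "GQ" => (AlgebraicClosure ℚ ≃ₐ[ℚ] AlgebraicClosure ℚ)

/-- a domain of characteristic zero is torsion-free over `ℤ_p`. -/
theorem isTorsionFree_padic_of_charZero {p : ℕ} [hp : Fact p.Prime] (B : Type*) [CommRing B]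
    [IsDomain B] [CharZero B] [Algebra ℤ_[p] B] : Module.IsTorsionFree ℤ_[p] B where
  isSMulRegular r hr := by
    have hr0 : r ≠ 0 := hr.ne_zero
    have h1 : algebraMap ℤ_[p] B r ≠ 0 := by
      have hspec := PadicInt.unitCoeff_spec hr0
      rw [hspec, map_mul, map_pow, map_natCast]
      refine mul_ne_zero ((PadicInt.unitCoeff hr0).isUnit.map (algebraMap ℤ_[p] B)).ne_zero
        (pow_ne_zero _ ?_)
      exact_mod_cast hp.out.ne_zero
    intro x y hxy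
    simp only [Algebra.smul_def] at hxy
    exact mul_left_cancel₀ h1 hxy

section Core

variable {M₁ q p : ℕ} [NeZero M₁] [NeZero q] [NeZero (M₁ * q)] [hp : Fact p.Prime]
  (I : StageIData (M₁ * q) p) (D₀ : KapData (JZero M₁) (Gamma0 M₁) p)
  {ι : Type*} [Fintype ι]
  (Xα Xβ : TransferDatum ↥(Gamma0 (M₁ * q)) ↥(Gamma0 M₁) (GL (Fin 2) ℝ) ι)
  (B : Type) [CommRing B] [IsDomain B] [IsDiscreteValuationRing B] [CharZero B]
  [Algebra ℤ_[p] B] [Module.Flat ℤ_[p] B] (hpB : (p : B) ∈ IsLocalRing.maximalIdeal B)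
  (a : Nat.Primes → B)
  (L : Type) [Field L] [Algebra B L] [IsFractionRing B L]
  (hrank : Module.finrank L ↥(eigenPar (M₁ * q) L (mapSys B L a)) = 2)

/-- **(KEY-INERT) on `Hom_par(Γ₀(M₁ q), B)`**: a vector killed by the two transfers and fixed by
a set `S` of Galois elements vanishes. -/
theorem parabolic_eq_zero_of_fixed
    (hkα : ∀ (k : ℕ) (x : ↥(torsionNat (JZero (M₁ * q)) (p ^ k))),
      D₀.kap k (torsionNatMap₂ (p ^ k) (degPushAlpha M₁ q) x) =
        Xα.transferGrp (ZMod (p ^ k)) (I.D.kap k x))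
    (hkβ : ∀ (k : ℕ) (x : ↥(torsionNat (JZero (M₁ * q)) (p ^ k))),
      D₀.kap k (torsionNatMap₂ (p ^ k) (degPushBeta M₁ q) x) =
        Xβ.transferGrp (ZMod (p ^ k)) (I.D.kap k x))
    (hparα : ∀ (R : Type) [CommRing R], ∀ ψ ∈ parabolicHoms R (Gamma0 (M₁ * q)) R,
      Xα.transferGrp R ψ ∈ parabolicHoms R (Gamma0 M₁) R)
    (hparβ : ∀ (R : Type) [CommRing R], ∀ ψ ∈ parabolicHoms R (Gamma0 (M₁ * q)) R,
      Xβ.transferGrp R ψ ∈ parabolicHoms R (Gamma0 M₁) R)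
    (S : Set GQ) {c : ℕ}
    (hkey : ∀ (k : ℕ) (x : JZero (M₁ * q)), p ^ k • x = 0 → (∀ τ ∈ S, τ • x = x) →
      degPushAlpha M₁ q x = 0 → degPushBeta M₁ q x = 0 → p ^ c • x = 0)
    (v : ↥(parabolicHoms B (Gamma0 (M₁ * q)) B)) (hvα : Xα.transferGrp B v.1 = 0)
    (hvβ : Xβ.transferGrp B v.1 = 0)
    (hfix : ∀ σ ∈ S, rhoM (M₁ * q) p B I.rhoP σ v = v) : v = 0 := by
  haveI : Module.IsTorsionFree ℤ_[p] B := isTorsionFree_padic_of_charZero B
  refine eq_zero_of_parExt_fixed (R := ℤ_[p]) (R' := B)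
    (xferPar Xα ℤ_[p] (hparα ℤ_[p])) (xferPar Xβ ℤ_[p] (hparβ ℤ_[p]))
    (xferPar Xα B (hparα B)) (xferPar Xβ B (hparβ B))
    (xferPar_parMapAlg Xα ℤ_[p] B _ _) (xferPar_parMapAlg Xβ ℤ_[p] B _ _)
    {g | ∃ σ ∈ S, g = I.rhoP σ} ?_ v (Subtype.ext hvα) (Subtype.ext hvβ) ?_
  · intro ψ h1 h2 h3
    exact eq_zero_of_kapTransfer_of_fixed (kapTransferOf I.D D₀ Xα _ hkα)
      (kapTransferOf I.D D₀ Xβ _ hkβ) S c hkey ψ (congrArg Subtype.val h1)
      (congrArg Subtype.val h2) (fun σ hσ => h3 _ ⟨σ, hσ, rfl⟩)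
  · rintro g ⟨σ, hσ, rfl⟩
    exact hfix σ hσ

/-- **the representation on the eigenlattice of a system new at `q` is not unipotent on a subgroup
`H` of the Galois group** whose invariant `q`-new torsion is bounded (KEY-INERT). -/
theorem rep_not_unipotent
    (hkα : ∀ (k : ℕ) (x : ↥(torsionNat (JZero (M₁ * q)) (p ^ k))),
      D₀.kap k (torsionNatMap₂ (p ^ k) (degPushAlpha M₁ q) x) =
        Xα.transferGrp (ZMod (p ^ k)) (I.D.kap k x))
    (hkβ : ∀ (k : ℕ) (x : ↥(torsionNat (JZero (M₁ * q)) (p ^ k))),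
      D₀.kap k (torsionNatMap₂ (p ^ k) (degPushBeta M₁ q) x) =
        Xβ.transferGrp (ZMod (p ^ k)) (I.D.kap k x))
    (hparα : ∀ (R : Type) [CommRing R], ∀ ψ ∈ parabolicHoms R (Gamma0 (M₁ * q)) R,
      Xα.transferGrp R ψ ∈ parabolicHoms R (Gamma0 M₁) R)
    (hparβ : ∀ (R : Type) [CommRing R], ∀ ψ ∈ parabolicHoms R (Gamma0 (M₁ * q)) R,
      Xβ.transferGrp R ψ ∈ parabolicHoms R (Gamma0 M₁) R)
    (hHα : ∀ ℓ : Nat.Primes, ¬ (ℓ : ℕ) ∣ M₁ * q → ∀ ψ : Additive ↥(Gamma0 (M₁ * q)) →+ B,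
      Xα.transferGrp B (heckeGrpP (M₁ * q) ℓ B ψ) = heckeGrpP M₁ ℓ B (Xα.transferGrp B ψ))
    (hHβ : ∀ ℓ : Nat.Primes, ¬ (ℓ : ℕ) ∣ M₁ * q → ∀ ψ : Additive ↥(Gamma0 (M₁ * q)) →+ B,
      Xβ.transferGrp B (heckeGrpP (M₁ * q) ℓ B ψ) = heckeGrpP M₁ ℓ B (Xβ.transferGrp B ψ))
    (hnew : eigenParOn M₁ L (primesNotDvd (M₁ * q)) (mapSys B L a) = ⊥)
    (H : Subgroup GQ) {c : ℕ}
    (hkey : ∀ (k : ℕ) (x : JZero (M₁ * q)), p ^ k • x = 0 → (∀ τ ∈ H, τ • x = x) →
      degPushAlpha M₁ q x = 0 → degPushBeta M₁ q x = 0 → p ^ c • x = 0) :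
    ¬ ∀ σ ∈ H, LinearMap.charpoly ((I.rep B hpB a L hrank).ρ σ) = (X - 1) ^ 2 := by
  intro hun
  have hinj : Function.Injective (algebraMap B L) := IsFractionRing.injective B L
  obtain ⟨v, hv0, hvfix⟩ := exists_fixed_of_unipotent (I.rep B hpB a L hrank).finrank_eq
    (I.rep B hpB a L hrank).ρ H hun
  apply hv0
  have hv' : v.1.1 ∈ eigenPar (M₁ * q) B a := v.2
  have h0 : v.1 = 0 := parabolic_eq_zero_of_fixed I D₀ Xα Xβ B hkα hkβ hparα hparβ
    (H : Set GQ) hkey v.1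
    (transferGrp_eq_zero_of_new Xα B L hinj hHα (hparα B) a hnew hv')
    (transferGrp_eq_zero_of_new Xβ B L hinj hHβ (hparβ B) a hnew hv')
    (fun σ hσ => congrArg Subtype.val (hvfix σ hσ))
  exact Subtype.ext h0

end Core

end Fermat.Agent.S36
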