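/-
S36 [ABS36] — helper3 — **[UFDLOC] part 1: local factoriality (pure commutative algebra).**

* `isPrincipal_of_map_quotient_isPrincipal` : (Nakayama) `t` in the Jacobson radical of a noetherian
  ring, `𝔮` an ideal saturated with respect to `t` whose image in `O ⧸ (t)` is principal: `𝔮` is
  principal;
* `ufd_of_prime_of_quotient_isPrincipalIdealRing` : a noetherian local domain with a prime element
  `z` such that `O ⧸ (z)` is a principal ideal ring is factorial (Kaplansky's criterion);
* `ufd_of_maximalIdeal_eq_span_pair` : a noetherian local domain whose maximal ideal is `(z, u)` with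
  `z` a prime element is factorial.
-/
import Mathlib

set_option autoImplicit false
set_option linter.unusedSectionVars false
set_option linter.style.haveILetI false

namespace Fermat.Agent.S36

open IsLocalRing

section Principal

variable {O : Type*} [CommRing O] [IsNoetherianRing O]

/-- **Nakayama lifting of principality**: `t` in the Jacobson radical, `𝔮` an ideal saturated with
respect to `t` whose image in `O ⧸ (t)` is principal: then `𝔮` is principal. -/
theorem isPrincipal_of_map_quotient_isPrincipal (t : O) (ht : t ∈ (⊥ : Ideal O).jacobson)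
    (𝔮 : Ideal O) (hsat : ∀ x : O, t * x ∈ 𝔮 → x ∈ 𝔮)
    (hprin : (𝔮.map (Ideal.Quotient.mk (Ideal.span {t}))).IsPrincipal) :
    𝔮.IsPrincipal := by
  classical
  obtain ⟨gbar, hgbar⟩ := hprin
  have hsurj : Function.Surjective (Ideal.Quotient.mk (Ideal.span {t})) :=
    Ideal.Quotient.mk_surjective
  have hgmem : gbar ∈ 𝔮.map (Ideal.Quotient.mk (Ideal.span {t})) := by
    rw [hgbar]; exact Submodule.mem_span_singleton_self _
  obtain ⟨g, hg, rfl⟩ := (Ideal.mem_map_iff_of_surjective _ hsurj).mp hgmem
  refine ⟨g, ?_⟩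
  apply le_antisymm
  · -- Nakayama
    have hle : 𝔮 ≤ Ideal.span {g} ⊔ Ideal.span {t} • 𝔮 := by
      intro h hh
      have h1 : Ideal.Quotient.mk (Ideal.span {t}) h ∈
          𝔮.map (Ideal.Quotient.mk (Ideal.span {t})) := Ideal.mem_map_of_mem _ hh
      rw [hgbar] at h1
      obtain ⟨abar, habar⟩ := (Submodule.mem_span_singleton).mp h1
      obtain ⟨a, rfl⟩ := hsurj abar
      have h2 : h - a * g ∈ Ideal.span {t} := by
        rw [← Ideal.Quotient.eq, map_mul]
        rw [← habar, smul_eq_mul]
      obtain ⟨y, hy⟩ := Ideal.mem_span_singleton'.mp h2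
      have hty : t * y ∈ 𝔮 := by
        rw [mul_comm, hy]
        exact 𝔮.sub_mem hh (𝔮.mul_mem_left _ hg)
      have hy𝔮 : y ∈ 𝔮 := hsat y hty
      have h3 : h = a * g + t * y := by rw [mul_comm t y, hy]; ring
      rw [h3]
      refine Submodule.add_mem_sup ?_ ?_
      · exact Ideal.mul_mem_left _ _ (Ideal.subset_span rfl)
      · rw [smul_eq_mul]
        exact Ideal.mul_mem_mul (Ideal.subset_span rfl) hy𝔮
    have hJ : Ideal.span {t} ≤ (⊥ : Ideal O).jacobson := by
      rw [Ideal.span_le]
      rintro x rfl
      exact ht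
    exact Submodule.le_of_le_smul_of_le_jacobson_bot (IsNoetherian.noetherian 𝔮) hJ hle
  · rw [Ideal.submodule_span_eq, Ideal.span_le]
    rintro x rfl
    exact hg

end Principal

section UFD

variable {O : Type*} [CommRing O] [IsDomain O] [IsNoetherianRing O] [IsLocalRing O]

/-- the quotient of a noetherian local domain whose maximal ideal is `(z, u)` by the prime `(z)`
is a principal ideal ring. -/
theorem isPrincipalIdealRing_quotient_of_maximalIdeal_eq {z u : O} (hz : Prime z)
    (hmax : maximalIdeal O = Ideal.span {z, u}) :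
    IsPrincipalIdealRing (O ⧸ Ideal.span {z}) := by
  classical
  haveI hzp : (Ideal.span {z}).IsPrime := (Ideal.span_singleton_prime hz.ne_zero).mpr hz
  haveI : IsDomain (O ⧸ Ideal.span {z}) := Ideal.Quotient.isDomain _
  have hsurj : Function.Surjective (Ideal.Quotient.mk (Ideal.span {z})) :=
    Ideal.Quotient.mk_surjective
  haveI : Nontrivial (O ⧸ Ideal.span {z}) := inferInstance
  haveI : IsLocalRing (O ⧸ Ideal.span {z}) :=
    IsLocalRing.of_surjective' (Ideal.Quotient.mk (Ideal.span {z})) hsurj
  have hmaxq : maximalIdeal (O ⧸ Ideal.span {z}) =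
      (maximalIdeal O).map (Ideal.Quotient.mk (Ideal.span {z})) := by
    apply le_antisymm
    · intro x hx
      obtain ⟨y, rfl⟩ := hsurj x
      have hy : y ∈ maximalIdeal O := by
        rw [mem_maximalIdeal, mem_nonunits_iff] at hx ⊢
        intro hyu
        exact hx (hyu.map _)
      exact Ideal.mem_map_of_mem _ hy
    · rw [Ideal.map_le_iff_le_comap]
      intro y hy
      rw [Ideal.mem_comap, mem_maximalIdeal, mem_nonunits_iff]
      intro hu
      obtain ⟨w, hw⟩ := hu.exists_right_inv
      obtain ⟨w', rfl⟩ := hsurj w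
      rw [← map_mul, ← map_one (Ideal.Quotient.mk (Ideal.span {z})), Ideal.Quotient.eq] at hw
      have h1 : y * w' - 1 ∈ maximalIdeal O := by
        rw [hmax]
        exact Ideal.span_mono (by simp) hw
      have h2 : y * w' ∈ maximalIdeal O := Ideal.mul_mem_right _ _ hy
      have h3 : (1 : O) ∈ maximalIdeal O := by
        have h4 := Ideal.sub_mem _ h2 h1
        have h5 : y * w' - (y * w' - 1) = 1 := by ring
        rwa [h5] at h4
      exact (maximalIdeal.isMaximal O).ne_top ((Ideal.eq_top_iff_one _).mpr h3)
  have hprin : (maximalIdeal (O ⧸ Ideal.span {z})).IsPrincipal := by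
    refine ⟨Ideal.Quotient.mk (Ideal.span {z}) u, ?_⟩
    rw [hmaxq, hmax, Ideal.map_span, Ideal.submodule_span_eq]
    apply le_antisymm
    · rw [Ideal.span_le]
      rintro x ⟨y, hy, rfl⟩
      rcases hy with rfl | rfl
      · have : Ideal.Quotient.mk (Ideal.span {y}) y = 0 :=
          Ideal.Quotient.eq_zero_iff_mem.mpr (Ideal.subset_span rfl)
        rw [this]
        exact Ideal.zero_mem _
      · exact Ideal.subset_span rfl
    · apply Ideal.span_mono
      rintro x rfl
      exact ⟨u, by simp, rfl⟩
  exact ((tfae_of_isNoetherianRing_of_isLocalRing_of_isDomain (O ⧸ Ideal.span {z})).out 4 0).mp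
    hprin

/-- **local factoriality, abstract form**: a noetherian local domain with a prime element `z` such
that `O ⧸ (z)` is a principal ideal ring is a unique factorisation domain. -/
theorem ufd_of_prime_of_quotient_isPrincipalIdealRing {z : O} (hz : Prime z)
    [hq : IsPrincipalIdealRing (O ⧸ Ideal.span {z})] : UniqueFactorizationMonoid O := by
  classical
  rw [UniqueFactorizationMonoid.iff_exists_prime_mem_of_isPrime]
  intro 𝔮 h𝔮0 h𝔮
  by_cases hz𝔮 : z ∈ 𝔮
  · exact ⟨z, hz𝔮, hz⟩
  have hzmax : z ∈ maximalIdeal O := by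
    rw [mem_maximalIdeal, mem_nonunits_iff]
    exact hz.not_isUnit
  have hjac : z ∈ (⊥ : Ideal O).jacobson := by
    rw [IsLocalRing.jacobson_eq_maximalIdeal ⊥ bot_ne_top]
    exact hzmax
  have hsat : ∀ x : O, z * x ∈ 𝔮 → x ∈ 𝔮 := fun x hx =>
    (h𝔮.mem_or_mem hx).resolve_left hz𝔮
  obtain ⟨g, hg⟩ := isPrincipal_of_map_quotient_isPrincipal z hjac 𝔮 hsat
    (hq.principal _)
  rw [Ideal.submodule_span_eq] at hg
  have hg0 : g ≠ 0 := by
    rintro rfl
    apply h𝔮0
    rw [hg]
    simp
  refine ⟨g, by rw [hg]; exact Ideal.subset_span rfl, ?_⟩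
  rw [← Ideal.span_singleton_prime hg0, ← hg]
  exact h𝔮

/-- **local factoriality at a point with two parameters**: a noetherian local domain whose maximal
ideal is `(z, u)` with `z` a prime element is a unique factorisation domain. -/
theorem ufd_of_maximalIdeal_eq_span_pair {z u : O} (hz : Prime z)
    (hmax : maximalIdeal O = Ideal.span {z, u}) : UniqueFactorizationMonoid O := by
  haveI := isPrincipalIdealRing_quotient_of_maximalIdeal_eq hz hmax
  exact ufd_of_prime_of_quotient_isPrincipalIdealRing hz

end UFD

end Fermat.Agent.S36
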