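/-
S36 [W11LOC] — helper5 — **`hLE1` on the Legendre host**: the local equation of the middle sheet
`W11` of the host of level `M q²` at its non-cuspidal single-sheet closed points, in the literal
shape of hypothesis `hLE1` of helper4's `legGeneric_of_local3`.

`z = t₀ − t₂` (`t₀ = A'A t`, `t₂ = B'B t`, `t` the Legendre coordinate), `μ` = lead's `legMu`
(unit off `W01`: `legMu_unit_of_not_le_final`), `δ` = helper7's `legDelta` (`IsThreeSheet`),
`θ` = helper6's expansion at the middle cusp `midEmb ∘ legToFullSq` (`W11 = legW11`), and the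
(C2)-core `gaussRed_sub_twist_pow_div_add_hostMu` through `local_equation_w11_of_expansion`.
-/
import Mathlib
import Fermat.Agent.S36.W11LOC_helper5_Xfer
import Fermat.Agent.S36.REG1_lead_Final
import Fermat.Agent.S36.HOST36_helper7_Delta
import Fermat.Agent.S36.PTSMAP36_helper3_Host
import Fermat.Agent.S36.HOST11_helper6_Leg
import Fermat.Agent.S36.BASE36_helper4_Local2

set_option autoImplicit false
set_option linter.unusedSectionVars false
set_option linter.unusedVariables false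
set_option linter.style.haveILetI false
set_option synthInstance.maxHeartbeats 200000

open Polynomial ModularCurve IntermediateField
open Fermat.Agent.Igusa Fermat.Agent.JA Fermat.Agent.SS Fermat.Agent.X0N
open Fermat.Agent.S35 AlgebraicCurve

open scoped Fermat.Agent.JA.Host

namespace Fermat.Agent.S36

noncomputable section

section Leg

variable (R : Type*) [CommRing R] [IsDomain R] [IsDiscreteValuationRing R] [CharZero R]
  [DecidableEq R]
  (K : Type*) [Field K] [Algebra R K] [IsFractionRing R K] [Algebra ℚ K] [Algebra K ℂ]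
  {M q : ℕ} [NeZero M] [NeZero q] [NeZero (M * q)] [NeZero (M * q * q)] {x y : ℤ}
  {π : R}
  {R' : Type*} [CommRing R'] [IsDomain R'] [IsDiscreteValuationRing R']
  {K' : Type*} [Field K'] [Algebra R' K'] [IsFractionRing R' K']

/-- the Legendre coordinate of level `M`, as an element of the host. -/
abbrev legTM (M : ℕ) [NeZero M] : ↥(legE K M) :=
  algebraMap ↥K⟮legT K⟯ ↥(legE K M) (AdjoinSimple.gen K (legT K))

set_option maxHeartbeats 1600000 in
/-- **`hLE1` on the Legendre host**, from an expansion `θ` at the middle cusp. -/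
theorem legE_hLE1_of_expansion [Algebra ℚ K']
    (hπ : Irreducible π) (h2 : IsUnit (2 : R))
    (h : (q : ℤ) * x + M * y = 1) (hq : q.Prime) (hq2 : q ≠ 2)
    (hqπ : (q : R) ∈ Ideal.span {π})
    (hgeo : GeoHyps K π (AdjoinSimple.gen K (legT K)) ↥(legE K M) M ({0, 1} : Finset R))
    {cq : R} (hcq : IsUnit cq) (hqπ' : ((q : ℕ) : R) = π * cq)
    (φ : R →+* R') [IsLocalHom φ] (κ : K →+* K')
    (hκ : ∀ r : R, κ (algebraMap R K r) = algebraMap R' K' (φ r))
    (ζ : R'ˣ) (hζq : ζ ^ q = 1) (hζ1 : ζ ≠ 1)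
    (W11 W02 : ValuationSubring ↥(legE K (M * q * q))) {δ : ↥(legE K (M * q * q))}
    (hT : IsThreeSheet (legHostA K (M * q) q : ↥(legE K (M * q)) →+* ↥(legE K (M * q * q)))
      (legHostB K (M * q) q hq hq2 : ↥(legE K (M * q)) →+* ↥(legE K (M * q * q))) q
      (legWinf R K h2 (M * q)) (legW0 R K h hq) (legWinf R K h2 (M * q * q)) W11 W02
      (algebraMap R ↥(legE K (M * q * q)) π) δ)
    (θ : ↥(legE K (M * q * q)) →+* LaurentSeries K')
    (hθW : ∀ f : ↥(legE K (M * q * q)), f ∈ W11 ↔ θ f ∈ gaussInt R' K')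
    (hθA : ∀ z : ↥(legE K (M * q)),
      θ (legHostA K (M * q) q z) = coeffMap κ (z : LaurentSeries K))
    (hθB : θ (legHostB K (M * q) q hq hq2 (legHostB K M q hq hq2 (legTM K M))) =
      twist (Units.map (algebraMap R' K' : R' →* K') ζ) (coeffMap κ (legT K))) :
    haveI : FiniteDimensional ↥K⟮jqNModC K 2⟯ ↥(legE K (M * q * q)) :=
      finite_legE_adjoin_j K (M * q * q)
    ∀ (fam : IsSheetFamily π (AdjoinSimple.gen K (jqNModC K 2))
      ![legWinf R K h2 (M * q * q), W11, W02]),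
    ∀ (𝔫 : Ideal ↥(chartOne R ↥(legE K (M * q * q)) (AdjoinSimple.gen K (jqNModC K 2))))
      (_ : 𝔫.IsMaximal),
    sheetIdeal (AdjoinSimple.gen K (jqNModC K 2)) (![legWinf R K h2 (M * q * q), W11, W02] 1)
      (fam.chart_le 1) ≤ 𝔫 →
    (∀ l, sheetIdeal (AdjoinSimple.gen K (jqNModC K 2))
      (![legWinf R K h2 (M * q * q), W11, W02] l) (fam.chart_le l) ≤ 𝔫 → l = 1) →
    ∃ z : ↥(chartOne R ↥(legE K (M * q * q)) (AdjoinSimple.gen K (jqNModC K 2))),
      z ∈ sheetIdeal (AdjoinSimple.gen K (jqNModC K 2))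
        (![legWinf R K h2 (M * q * q), W11, W02] 1) (fam.chart_le 1) ∧ z ≠ 0 ∧
      ∀ w ∈ sheetIdeal (AdjoinSimple.gen K (jqNModC K 2))
        (![legWinf R K h2 (M * q * q), W11, W02] 1) (fam.chart_le 1),
        ∃ s : ↥(chartOne R ↥(legE K (M * q * q)) (AdjoinSimple.gen K (jqNModC K 2))),
          s ∉ 𝔫 ∧ z ∣ s * w := by
  haveI : FiniteDimensional ↥K⟮jqNModC K 2⟯ ↥(legE K (M * q * q)) :=
    finite_legE_adjoin_j K (M * q * q)
  haveI : FiniteDimensional ↥K⟮jqNModC K 2⟯ ↥(legE K (M * q)) := finite_legE_adjoin_j K (M * q)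
  intro fam
  have hmodel : SSModelLeg R K π h2 h hq hq2 := ssModelLeg R K hπ h2 h hq hq2 hqπ hgeo
  obtain ⟨hαB, hβB, hαint, hβint⟩ := legE_chart_maps R K hπ hmodel
  have hm' := SSModelLeg.ssModel R K hmodel
  have h2s := hm'.two
  have hjq := hm'.jq_mem_chartOne hπ
  have hAR : ∀ r : R,
      (legHostA K (M * q) q : ↥(legE K (M * q)) →+* ↥(legE K (M * q * q)))
        (algebraMap R ↥(legE K (M * q)) r) = algebraMap R ↥(legE K (M * q * q)) r := by
    intro r
    rw [IsScalarTower.algebraMap_apply R K ↥(legE K (M * q)),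
      IsScalarTower.algebraMap_apply R K ↥(legE K (M * q * q))]
    exact (legHostA K (M * q) q).commutes _
  -- residue characteristic of `R'`
  haveI : CharP (IsLocalRing.ResidueField R') q := by
    rw [CharP.charP_iff_prime_eq_zero hq]
    have h1 : ((q : ℕ) : IsLocalRing.ResidueField R') = IsLocalRing.residue R' (φ ((q : ℕ) : R)) := by
      rw [map_natCast, map_natCast]
    rw [h1, IsLocalRing.residue_eq_zero_iff, IsLocalRing.mem_maximalIdeal, mem_nonunits_iff]
    intro hu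
    rw [hqπ', map_mul] at hu
    exact hπ.not_isUnit (isUnit_of_map_unit φ π (isUnit_of_mul_isUnit_left hu))
  haveI : ExpChar (IsLocalRing.ResidueField R') q := ExpChar.prime hq
  -- the series of the coordinate over `R'`
  have h2' : IsUnit (2 : R') := by
    have := h2.map φ
    rwa [map_ofNat] at this
  obtain ⟨y, hy, -, hyfix⟩ := isPrimeSeries_legT R' K' h2'
  obtain ⟨ht, hθt⟩ := legT_eulerFun_unit R' K' h2'
  have hθy : eulerFun (red R' y) ≠ 0 := by
    intro h0
    apply hθt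
    rw [gaussRed_eulerFun ht]
    have e : (⟨legT K', ht⟩ : gaussInt R' K') = ⟨emb R' K' y, emb_mem_gaussInt R' K' y⟩ :=
      Subtype.ext hy
    rw [e, gaussRed_emb, h0]
  have hκT : coeffMap κ (legT K) = emb R' K' y := by rw [coeffMap_legT, hy]
  -- the two pullbacks of the coordinate, in the chart
  set t0 : ↥(chartOne R ↥(legE K (M * q * q)) (AdjoinSimple.gen K (jqNModC K 2))) :=
    ⟨(legHostA K (M * q) q : ↥(legE K (M * q)) →+* ↥(legE K (M * q * q)))
      ((legHostA K M q : ↥(legE K M) →+* ↥(legE K (M * q))) (legTM K M)),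
      hαB _ hm'.A_t_mem⟩ with ht0
  set t2 : ↥(chartOne R ↥(legE K (M * q * q)) (AdjoinSimple.gen K (jqNModC K 2))) :=
    ⟨(legHostB K (M * q) q hq hq2 : ↥(legE K (M * q)) →+* ↥(legE K (M * q * q)))
      ((legHostB K M q hq hq2 : ↥(legE K M) →+* ↥(legE K (M * q))) (legTM K M)),
      hβB _ (hm'.B_t_mem hjq)⟩ with ht2
  have h0 : θ (t0 : ↥(legE K (M * q * q))) = emb R' K' y := by
    show θ ((legHostA K (M * q) q) ((legHostA K M q) (legTM K M))) = _
    rw [hθA, coe_legHostA]
    exact hκT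
  have h2'' : θ (t2 : ↥(legE K (M * q * q))) =
      twist (Units.map (algebraMap R' K' : R' →* K') ζ) (emb R' K' y) := by
    show θ ((legHostB K (M * q) q hq hq2) ((legHostB K M q hq hq2) (legTM K M))) = _
    rw [hθB, hκT]
  have hθA' : ∀ z : ↥(legE K (M * q)),
      θ ((legHostA K (M * q) q : ↥(legE K (M * q)) →+* ↥(legE K (M * q * q))) z) =
        coeffMap κ (z : LaurentSeries K) := hθA
  have hθμ : θ ((legHostA K (M * q) q : ↥(legE K (M * q)) →+* ↥(legE K (M * q * q)))
      (legMu R K (M := M) h2 hq hq2)) = hostMu (emb R' K' y) q := by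
    rw [hθA', coe_legMu, ← hκT, hostMu, hostMu, map_mul, map_inv₀]
    have e1 : coeffMap κ (eulerFun (legT K)) = eulerFun (coeffMap κ (legT K)) := by
      have := eulerD_coeffMap κ (legT K)
      rw [eulerD_apply, eulerD_apply] at this
      exact this.symm
    rw [coeffMap_qExpand, e1]
  have hθR : ∀ r : R, θ (algebraMap R ↥(legE K (M * q * q)) r) =
      HahnSeries.C (algebraMap R' K' (φ r)) := by
    intro r
    rw [← hAR r, hθA', ← hκ]
    have e1 : ((algebraMap R ↥(legE K (M * q)) r : ↥(legE K (M * q))) : LaurentSeries K) =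
        HahnSeries.C (algebraMap R K r) := by
      rw [IsScalarTower.algebraMap_apply R K ↥(legE K (M * q))]
      show algebraMap K (LaurentSeries K) (algebraMap R K r) = _
      rw [algebraMap_laurent_eq_C]
    rw [e1]
    exact Fermat.Agent.Igusa.coeffMap_C κ _
  have hθW' : ∀ f : ↥(legE K (M * q * q)),
      f ∈ (![legWinf R K h2 (M * q * q), W11, W02] : Fin 3 → _) 1 ↔ θ f ∈ gaussInt R' K' := hθW
  exact local_equation_w11_of_expansion (K₁ := K) (W := ![legWinf R K h2 (M * q * q), W11, W02])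
    hπ hm'.j_transcendental hm'.j_adjoin hm'.j_transcendental hm'.j_adjoin h2s fam
    (legHostA K (M * q) q : ↥(legE K (M * q)) →+* ↥(legE K (M * q * q))) hAR hαB hαint
    hT.comap_A_20 hT.comap_A_11
    (fun 𝔪 _ _ _ h0 => legMu_unit_of_not_le_final R K hmodel hπ 𝔪 h0)
    (legMu_valuation R K h2 hq hq2) hq hT.unif_11 hT.val_δ hcq hqπ' φ θ hθW' hθR ζ hζq hζ1 y
    (hyfix q) hθy h0 h2'' hθμ

set_option maxHeartbeats 1600000 in
/-- **`hLE1` on the Legendre host** (hypothesis (5) of `legGeneric_of_local3`). -/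
theorem legE_hLE1 (hπ : Irreducible π) (h2 : IsUnit (2 : R))
    (h : (q : ℤ) * x + M * y = 1) (hq : q.Prime) (hq2 : q ≠ 2)
    (hqπ : (q : R) ∈ Ideal.span {π})
    (hgeo : GeoHyps K π (AdjoinSimple.gen K (legT K)) ↥(legE K M) M ({0, 1} : Finset R))
    (φ : R →+* R') [IsLocalHom φ] (κ : K →+* K')
    (hκ : ∀ r : R, κ (algebraMap R K r) = algebraMap R' K' (φ r))
    (ζ u : R'ˣ) (hζq : ζ ^ q = 1) (hζ1 : ζ ≠ 1)
    (hπζ : φ π = ((ζ : R') - 1) ^ (q - 1) * u) :
    ∀ (W11 W02 : ValuationSubring ↥(legE K (M * q * q))),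
      W11.comap (legIncl K (M * q * q)) =
        hostImageVal K 2 (keyFqW11 R K h hq φ κ hκ ζ hζq hζ1) →
      W02.comap (legIncl K (M * q * q)) = hostImageVal K 2 (keyFqW02 R K h hq) →
      haveI : FiniteDimensional ↥K⟮jqNModC K 2⟯ ↥(legE K (M * q * q)) :=
        finite_legE_adjoin_j K (M * q * q)
      ∀ (fam : IsSheetFamily π (AdjoinSimple.gen K (jqNModC K 2))
        ![legWinf R K h2 (M * q * q), W11, W02]),
      ∀ (𝔫 : Ideal ↥(chartOne R ↥(legE K (M * q * q)) (AdjoinSimple.gen K (jqNModC K 2))))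
        (_ : 𝔫.IsMaximal),
      sheetIdeal (AdjoinSimple.gen K (jqNModC K 2)) (![legWinf R K h2 (M * q * q), W11, W02] 1)
        (fam.chart_le 1) ≤ 𝔫 →
      (∀ l, sheetIdeal (AdjoinSimple.gen K (jqNModC K 2))
        (![legWinf R K h2 (M * q * q), W11, W02] l) (fam.chart_le l) ≤ 𝔫 → l = 1) →
      ∃ z : ↥(chartOne R ↥(legE K (M * q * q)) (AdjoinSimple.gen K (jqNModC K 2))),
        z ∈ sheetIdeal (AdjoinSimple.gen K (jqNModC K 2))
          (![legWinf R K h2 (M * q * q), W11, W02] 1) (fam.chart_le 1) ∧ z ≠ 0 ∧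
        ∀ w ∈ sheetIdeal (AdjoinSimple.gen K (jqNModC K 2))
          (![legWinf R K h2 (M * q * q), W11, W02] 1) (fam.chart_le 1),
          ∃ s : ↥(chartOne R ↥(legE K (M * q * q)) (AdjoinSimple.gen K (jqNModC K 2))),
            s ∉ 𝔫 ∧ z ∣ s * w := by
  intro W11 W02 h11 h02
  have hmodel : SSModelLeg R K π h2 h hq hq2 := ssModelLeg R K hπ h2 h hq hq2 hqπ hgeo
  obtain ⟨-, hT⟩ := legE_isThreeSheet_delta R K hπ h2 h hq hq2 hqπ hgeo φ κ hκ ζ hζq hζ1 u hπζ
    W11 W02 h11 h02
  obtain ⟨cq, hcq, hqπ'⟩ := base36_exists_unit_mul φ hπ hq hqπ ζ u hζq hζ1 hπζ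
  -- the Bézout relation for `4 M`
  have hqM : ¬ q ∣ M := not_dvd_of_bezout h hq
  have hq4 : ¬ q ∣ 4 := by
    intro hd
    have h4 : (4 : ℕ) = 2 ^ 2 := by norm_num
    rw [h4] at hd
    exact hq2 ((Nat.prime_dvd_prime_iff_eq hq Nat.prime_two).mp (hq.dvd_of_dvd_pow hd))
  obtain ⟨x', y', h'⟩ := exists_bezout_mul hq hqM hq4
  haveI : NeZero (4 * M) := ⟨by have := NeZero.ne M; omega⟩
  haveI : NeZero (4 * M * q) := ⟨mul_ne_zero (NeZero.ne (4 * M)) (NeZero.ne q)⟩
  haveI : NeZero (4 * M * q * q) := ⟨mul_ne_zero (NeZero.ne (4 * M * q)) (NeZero.ne q)⟩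
  -- `ℚ`-algebra structure on `K'`
  haveI : CharZero K' := by
    haveI : CharZero K := algebraRat.charZero K
    exact charZero_of_injective_ringHom κ.injective
  letI : Algebra ℚ K' := DivisionRing.toRatAlgebra
  -- the expansion at the middle cusp
  set θ : ↥(legE K (M * q * q)) →+* LaurentSeries K' :=
    (midEmb K h' hq κ ζ hζq hζ1).comp
      ((legToFullSq K M q : ↥(legE K (M * q * q)) →ₐ[K] ↥(keyFq K (4 * M * q * q))) :
        ↥(legE K (M * q * q)) →+* ↥(keyFq K (4 * M * q * q))) with hθ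
  have hW11 : legW11 R K h' hq φ κ hκ ζ hζq hζ1 = W11 :=
    legW11_eq_of_isThreeSheet R K h h' hq hq2 φ κ hκ ζ hζq hζ1 hπ hmodel hT
  have hθW : ∀ f : ↥(legE K (M * q * q)), f ∈ W11 ↔ θ f ∈ gaussInt R' K' := by
    intro f
    rw [← hW11]
    exact mem_legW11_iff R K h' hq φ κ hκ ζ hζq hζ1 f
  have hθA : ∀ z : ↥(legE K (M * q)),
      θ (legHostA K (M * q) q z) = coeffMap κ (z : LaurentSeries K) := by
    intro z
    have hz : (z : LaurentSeries K) ∈ keyFq K (4 * M * q) :=
      legE_le_keyFq_of_dvd K (M * q) (4 * M * q) (dvd_of_eq (by ring)) z.2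
    have e : legToFullSq K M q (legHostA K (M * q) q z) =
        keyFqA K (4 * M * q) q ⟨(z : LaurentSeries K), hz⟩ := by
      apply Subtype.ext
      rw [coe_legToFullSq, coe_legHostA, coe_keyFqA]
    show midEmb K h' hq κ ζ hζq hζ1 (legToFullSq K M q (legHostA K (M * q) q z)) = _
    rw [e, keyFqMid_keyFqA]
  have hθB : θ (legHostB K (M * q) q hq hq2 (legHostB K M q hq hq2 (legTM K M))) =
      twist (Units.map (algebraMap R' K' : R' →* K') ζ) (coeffMap κ (legT K)) := by
    have ht : legT K ∈ keyFq K (4 * M) :=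
      keyFq_le_of_dvd K (Dvd.intro M rfl) (legT_mem_keyFq K)
    have e : legToFullSq K M q
        (legHostB K (M * q) q hq hq2 (legHostB K M q hq hq2 (legTM K M))) =
        keyFqB K (4 * M * q) q (keyFqB K (4 * M) q ⟨legT K, ht⟩) := by
      apply Subtype.ext
      rw [coe_legToFullSq, coe_legHostB, coe_legHostB, coe_keyFqB, coe_keyFqB]
      rfl
    show midEmb K h' hq κ ζ hζq hζ1 (legToFullSq K M q
      (legHostB K (M * q) q hq hq2 (legHostB K M q hq hq2 (legTM K M)))) = _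
    rw [e, keyFqMid_keyFqB_keyFqB]
  exact legE_hLE1_of_expansion R K hπ h2 h hq hq2 hqπ hgeo hcq hqπ' φ κ hκ ζ hζq hζ1 W11 W02 hT
    θ hθW hθA hθB

end Leg

end

end Fermat.Agent.S36
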